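import Mathlib

/-!
# S55, formal end: the middle homology of two composable linear maps, as a plain quotient module

`Hmid f g = ker g ⧸ (range f ∩ ker g)` for `f : A →ₗ[k] B`, `g : B →ₗ[k] C`.  No proof of `g ∘ f = 0`
enters the type.  This is the shape of the Prelude's `continuousH2S` (level cocycles modulo level
coboundaries).  Shared by `Formal/ConeWindow.lean` and `Formal/SnakeWindow.lean`.
-/

set_option autoImplicit false

namespace Fermat.Agent.S55.Formal

variable {k : Type*} [CommRing k]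
variable {A B C : Type*} [AddCommGroup A] [Module k A] [AddCommGroup B] [Module k B]
  [AddCommGroup C] [Module k C]

/-- The middle homology `ker g / im f` of `A -f→ B -g→ C`. -/
abbrev Hmid (f : A →ₗ[k] B) (g : B →ₗ[k] C) : Type _ :=
  ↥(LinearMap.ker g) ⧸ (LinearMap.range f).comap (LinearMap.ker g).subtype

namespace Hmid

variable (f : A →ₗ[k] B) (g : B →ₗ[k] C)

/-- The class of a cocycle. -/
def mk : ↥(LinearMap.ker g) →ₗ[k] Hmid f g :=
  Submodule.mkQ _

theorem mk_surjective : Function.Surjective (mk f g) :=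
  Submodule.mkQ_surjective _

variable {f g}

theorem mk_eq_zero_iff {z : ↥(LinearMap.ker g)} : mk f g z = 0 ↔ ∃ a, f a = (z : B) := by
  unfold mk
  rw [Submodule.mkQ_apply, Submodule.Quotient.mk_eq_zero, Submodule.mem_comap]
  rfl

/-- The class of an element `b` with `g b = 0`. -/
def of (b : B) (hb : g b = 0) : Hmid f g :=
  mk f g ⟨b, LinearMap.mem_ker.mpr hb⟩

theorem of_eq_zero_iff {b : B} {hb : g b = 0} : (of b hb : Hmid f g) = 0 ↔ ∃ a, f a = b :=
  mk_eq_zero_iff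

theorem of_eq_of_iff {b b' : B} {hb : g b = 0} {hb' : g b' = 0} :
    (of b hb : Hmid f g) = of b' hb' ↔ ∃ a, f a = b - b' := by
  rw [← sub_eq_zero]
  have : (of b hb : Hmid f g) - of b' hb' = of (b - b') (by rw [map_sub, hb, hb', sub_zero]) :=
    (map_sub (mk f g) ⟨b, LinearMap.mem_ker.mpr hb⟩ ⟨b', LinearMap.mem_ker.mpr hb'⟩).symm
  rw [this, of_eq_zero_iff]

theorem of_add {b b' : B} (hb : g b = 0) (hb' : g b' = 0) :
    (of (b + b') (by rw [map_add, hb, hb', add_zero]) : Hmid f g) = of b hb + of b' hb' :=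
  map_add (mk f g) ⟨b, LinearMap.mem_ker.mpr hb⟩ ⟨b', LinearMap.mem_ker.mpr hb'⟩

theorem of_smul (c : k) {b : B} (hb : g b = 0) :
    (of (c • b) (by rw [map_smul, hb, smul_zero]) : Hmid f g) = c • of b hb :=
  map_smul (mk f g) c ⟨b, LinearMap.mem_ker.mpr hb⟩

theorem of_zero : (of (0 : B) (map_zero g) : Hmid f g) = 0 :=
  of_eq_zero_iff.mpr ⟨0, map_zero f⟩

theorem of_map (a : A) (h : g (f a) = 0) : (of (f a) h : Hmid f g) = 0 :=
  of_eq_zero_iff.mpr ⟨a, rfl⟩

/-- Every class is the class of an element. -/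
theorem exists_of (x : Hmid f g) : ∃ (b : B) (hb : g b = 0), x = of b hb := by
  obtain ⟨z, rfl⟩ := mk_surjective f g x
  exact ⟨z.1, LinearMap.mem_ker.mp z.2, rfl⟩

/-! ### Functoriality -/

variable {A' B' C' : Type*} [AddCommGroup A'] [Module k A'] [AddCommGroup B'] [Module k B']
  [AddCommGroup C'] [Module k C'] {f' : A' →ₗ[k] B'} {g' : B' →ₗ[k] C'}

/-- The map induced on middle homology by `φ : B → B'` preserving cocycles and coboundaries. -/
def map (φ : B →ₗ[k] B') (hker : ∀ b, g b = 0 → g' (φ b) = 0)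
    (hrange : ∀ a, ∃ a', f' a' = φ (f a)) : Hmid f g →ₗ[k] Hmid f' g' :=
  Submodule.mapQ _ _ (φ.restrict (p := LinearMap.ker g) (q := LinearMap.ker g')
    (fun b hb => LinearMap.mem_ker.mpr (hker b (LinearMap.mem_ker.mp hb))))
    (by
      rintro ⟨z, hz⟩ ⟨a, ha⟩
      obtain ⟨a', ha'⟩ := hrange a
      refine ⟨a', ?_⟩
      simp only [Submodule.subtype_apply] at ha
      show f' a' = φ z
      rw [ha', ha])

@[simp] theorem map_of (φ : B →ₗ[k] B') (hker : ∀ b, g b = 0 → g' (φ b) = 0)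
    (hrange : ∀ a, ∃ a', f' a' = φ (f a)) (b : B) (hb : g b = 0) :
    map φ hker hrange (of b hb : Hmid f g) = of (φ b) (hker b hb) := rfl

/-- The map induced by a commuting diagram `(φA, φB, φC)`. -/
def mapOfComm (φA : A →ₗ[k] A') (φB : B →ₗ[k] B') (φC : C →ₗ[k] C')
    (h1 : φB ∘ₗ f = f' ∘ₗ φA) (h2 : φC ∘ₗ g = g' ∘ₗ φB) : Hmid f g →ₗ[k] Hmid f' g' :=
  map φB (fun b hb => by
      have := LinearMap.congr_fun h2 b
      simp only [LinearMap.comp_apply] at this
      rw [← this, hb, map_zero])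
    (fun a => ⟨φA a, by
      have := LinearMap.congr_fun h1 a
      simp only [LinearMap.comp_apply] at this
      exact this.symm⟩)

theorem mapOfComm_of (φA : A →ₗ[k] A') (φB : B →ₗ[k] B') (φC : C →ₗ[k] C')
    (h1 : φB ∘ₗ f = f' ∘ₗ φA) (h2 : φC ∘ₗ g = g' ∘ₗ φB) (b : B) (hb : g b = 0)
    (hb' : g' (φB b) = 0) :
    mapOfComm φA φB φC h1 h2 (of b hb : Hmid f g) = of (φB b) hb' := rfl

theorem map_id (hker : ∀ b, g b = 0 → g (LinearMap.id b) = 0)
    (hrange : ∀ a, ∃ a', f a' = LinearMap.id (f a)) :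
    map (f := f) (g := g) LinearMap.id hker hrange = LinearMap.id := by
  apply LinearMap.ext
  intro x
  obtain ⟨b, hb, rfl⟩ := exists_of x
  rfl

variable {A'' B'' C'' : Type*} [AddCommGroup A''] [Module k A''] [AddCommGroup B'']
  [Module k B''] [AddCommGroup C''] [Module k C''] {f'' : A'' →ₗ[k] B''} {g'' : B'' →ₗ[k] C''}

theorem map_comp (φ : B →ₗ[k] B') (hker : ∀ b, g b = 0 → g' (φ b) = 0)
    (hrange : ∀ a, ∃ a', f' a' = φ (f a))
    (ψ : B' →ₗ[k] B'') (hker' : ∀ b, g' b = 0 → g'' (ψ b) = 0)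
    (hrange' : ∀ a, ∃ a', f'' a' = ψ (f' a))
    (hker'' : ∀ b, g b = 0 → g'' ((ψ ∘ₗ φ) b) = 0)
    (hrange'' : ∀ a, ∃ a', f'' a' = (ψ ∘ₗ φ) (f a)) :
    (map ψ hker' hrange').comp (map φ hker hrange) = map (ψ ∘ₗ φ) hker'' hrange'' := by
  apply LinearMap.ext
  intro x
  obtain ⟨b, hb, rfl⟩ := exists_of x
  rfl

/-- Two induced maps agree if the underlying maps agree on cocycles up to coboundaries. -/
theorem map_eq_map (φ ψ : B →ₗ[k] B') (hker : ∀ b, g b = 0 → g' (φ b) = 0)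
    (hrange : ∀ a, ∃ a', f' a' = φ (f a)) (hker' : ∀ b, g b = 0 → g' (ψ b) = 0)
    (hrange' : ∀ a, ∃ a', f' a' = ψ (f a))
    (h : ∀ b, g b = 0 → ∃ a', f' a' = φ b - ψ b) :
    map (f := f) (g := g) φ hker hrange = map ψ hker' hrange' := by
  apply LinearMap.ext
  intro x
  obtain ⟨b, hb, rfl⟩ := exists_of x
  rw [map_of, map_of, of_eq_of_iff]
  exact h b hb

end Hmid

end Fermat.Agent.S55.Formal
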