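/-
S55 / Formal end (sub-architect helper76): the shared LEVEL-CONSTANT COCHAIN library, in pure
group-theoretic form.

`G` a group with a *basis* `𝒰 : NBasis G` of "open normal subgroups" (normal, finite index, directed).
A cochain with values in `M : Rep k G` is *level constant* (LC) if for some `U ∈ 𝒰` it is invariant
under right translation by `U` in every variable AND its values are fixed by `U`.  (For a module on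
which some `U₀ ∈ 𝒰` acts trivially the second condition is automatic after shrinking `U`.)
LC cochains form a subcomplex `C₀ → C₁ → C₂ → C₃ → Fun(G⁴, M)` of the inhomogeneous cochains
(Mathlib's `d₀₁ d₁₂ d₂₃` and an explicit `d₃₄`), and `H0 .. H3` are its cohomology, written with the
shared `Hmid` so that the plain-module window lemmas (`ConeWindow`, `SnakeWindow`) apply verbatim.

* global case: `G = GQ`, `𝒰.mem U ↔ U = Gal(ℚ̄/F)`, `F/ℚ` finite Galois unramified outside `S`;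
* local case:  `G = Gal(ℚ̄_q/ℚ_q)`, `𝒰.mem U ↔ U = r ⁻¹ Gal(ℚ̄/F)`, `F/ℚ` finite Galois.
The comparison with the Prelude's `continuousH2S`, `continuousH2 r`, `continuousH1S` is the Bridge.
-/
import Mathlib
import Fermat.Agent.S55.Formal.Hmid

set_option autoImplicit false

open CategoryTheory groupCohomology

namespace Fermat.Agent.S55.Formal

/-- A basis of "open normal subgroups" of a group. -/
structure NBasis (G : Type) [Group G] where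
  /-- the basic subgroups -/
  mem : Subgroup G → Prop
  normal : ∀ {U : Subgroup G}, mem U → U.Normal
  top : mem ⊤
  inf : ∀ {U V : Subgroup G}, mem U → mem V → ∃ W, mem W ∧ W ≤ U ⊓ V
  finiteIndex : ∀ {U : Subgroup G}, mem U → U.FiniteIndex

variable {k : Type} [CommRing k] {G : Type} [Group G]

lemma mul_conj_eq (s h : G) : s * h = h * (h⁻¹ * s * h) := by group

section Defs

variable (𝒰 : NBasis G) (M : Rep.{0, 0, 0} k G)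

/-- smooth vectors -/
def IsLC₀ (m : M) : Prop := ∃ U, 𝒰.mem U ∧ ∀ s ∈ U, M.ρ s m = m

/-- level-constant `1`-cochains -/
def IsLC₁ (f : G → M) : Prop :=
  ∃ U, 𝒰.mem U ∧ ∀ s ∈ U, ∀ g, f (g * s) = f g ∧ M.ρ s (f g) = f g

/-- level-constant `2`-cochains -/
def IsLC₂ (f : G × G → M) : Prop :=
  ∃ U, 𝒰.mem U ∧ ∀ s ∈ U, ∀ g h, f (g * s, h) = f (g, h) ∧ f (g, h * s) = f (g, h) ∧
    M.ρ s (f (g, h)) = f (g, h)

/-- level-constant `3`-cochains -/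
def IsLC₃ (f : G × G × G → M) : Prop :=
  ∃ U, 𝒰.mem U ∧ ∀ s ∈ U, ∀ g h j, f (g * s, h, j) = f (g, h, j) ∧ f (g, h * s, j) = f (g, h, j) ∧
    f (g, h, j * s) = f (g, h, j) ∧ M.ρ s (f (g, h, j)) = f (g, h, j)

/-- smooth vectors -/
def C₀ : Submodule k M where
  carrier := {m | IsLC₀ 𝒰 M m}
  add_mem' := by
    rintro a b ⟨U, hU, ha⟩ ⟨V, hV, hb⟩
    obtain ⟨W, hW, hle⟩ := 𝒰.inf hU hV
    exact ⟨W, hW, fun s hs => by rw [map_add, ha s (hle hs).1, hb s (hle hs).2]⟩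
  zero_mem' := ⟨⊤, 𝒰.top, fun s _ => map_zero _⟩
  smul_mem' := by
    rintro c a ⟨U, hU, ha⟩
    exact ⟨U, hU, fun s hs => by rw [map_smul, ha s hs]⟩

/-- level-constant `1`-cochains -/
def C₁ : Submodule k (G → M) where
  carrier := {f | IsLC₁ 𝒰 M f}
  add_mem' := by
    rintro a b ⟨U, hU, ha⟩ ⟨V, hV, hb⟩
    obtain ⟨W, hW, hle⟩ := 𝒰.inf hU hV
    refine ⟨W, hW, fun s hs g => ⟨?_, ?_⟩⟩
    · simp only [Pi.add_apply, (ha s (hle hs).1 g).1, (hb s (hle hs).2 g).1]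
    · simp only [Pi.add_apply, map_add, (ha s (hle hs).1 g).2, (hb s (hle hs).2 g).2]
  zero_mem' := ⟨⊤, 𝒰.top, fun s _ g => ⟨rfl, map_zero _⟩⟩
  smul_mem' := by
    rintro c a ⟨U, hU, ha⟩
    refine ⟨U, hU, fun s hs g => ⟨?_, ?_⟩⟩
    · simp only [Pi.smul_apply, (ha s hs g).1]
    · simp only [Pi.smul_apply, map_smul, (ha s hs g).2]

/-- level-constant `2`-cochains -/
def C₂ : Submodule k (G × G → M) where
  carrier := {f | IsLC₂ 𝒰 M f}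
  add_mem' := by
    rintro a b ⟨U, hU, ha⟩ ⟨V, hV, hb⟩
    obtain ⟨W, hW, hle⟩ := 𝒰.inf hU hV
    refine ⟨W, hW, fun s hs g h => ⟨?_, ?_, ?_⟩⟩
    · simp only [Pi.add_apply, (ha s (hle hs).1 g h).1, (hb s (hle hs).2 g h).1]
    · simp only [Pi.add_apply, (ha s (hle hs).1 g h).2.1, (hb s (hle hs).2 g h).2.1]
    · simp only [Pi.add_apply, map_add, (ha s (hle hs).1 g h).2.2, (hb s (hle hs).2 g h).2.2]
  zero_mem' := ⟨⊤, 𝒰.top, fun s _ g h => ⟨rfl, rfl, map_zero _⟩⟩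
  smul_mem' := by
    rintro c a ⟨U, hU, ha⟩
    refine ⟨U, hU, fun s hs g h => ⟨?_, ?_, ?_⟩⟩
    · simp only [Pi.smul_apply, (ha s hs g h).1]
    · simp only [Pi.smul_apply, (ha s hs g h).2.1]
    · simp only [Pi.smul_apply, map_smul, (ha s hs g h).2.2]

/-- level-constant `3`-cochains -/
def C₃ : Submodule k (G × G × G → M) where
  carrier := {f | IsLC₃ 𝒰 M f}
  add_mem' := by
    rintro a b ⟨U, hU, ha⟩ ⟨V, hV, hb⟩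
    obtain ⟨W, hW, hle⟩ := 𝒰.inf hU hV
    refine ⟨W, hW, fun s hs g h j => ⟨?_, ?_, ?_, ?_⟩⟩
    · simp only [Pi.add_apply, (ha s (hle hs).1 g h j).1, (hb s (hle hs).2 g h j).1]
    · simp only [Pi.add_apply, (ha s (hle hs).1 g h j).2.1, (hb s (hle hs).2 g h j).2.1]
    · simp only [Pi.add_apply, (ha s (hle hs).1 g h j).2.2.1, (hb s (hle hs).2 g h j).2.2.1]
    · simp only [Pi.add_apply, map_add, (ha s (hle hs).1 g h j).2.2.2,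
        (hb s (hle hs).2 g h j).2.2.2]
  zero_mem' := ⟨⊤, 𝒰.top, fun s _ g h j => ⟨rfl, rfl, rfl, map_zero _⟩⟩
  smul_mem' := by
    rintro c a ⟨U, hU, ha⟩
    refine ⟨U, hU, fun s hs g h j => ⟨?_, ?_, ?_, ?_⟩⟩
    · simp only [Pi.smul_apply, (ha s hs g h j).1]
    · simp only [Pi.smul_apply, (ha s hs g h j).2.1]
    · simp only [Pi.smul_apply, (ha s hs g h j).2.2.1]
    · simp only [Pi.smul_apply, map_smul, (ha s hs g h j).2.2.2]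

lemma mem_C₀_iff (m : M) : m ∈ C₀ 𝒰 M ↔ IsLC₀ 𝒰 M m := Iff.rfl
lemma mem_C₁_iff (f : G → M) : f ∈ C₁ 𝒰 M ↔ IsLC₁ 𝒰 M f := Iff.rfl
lemma mem_C₂_iff (f : G × G → M) : f ∈ C₂ 𝒰 M ↔ IsLC₂ 𝒰 M f := Iff.rfl
lemma mem_C₃_iff (f : G × G × G → M) : f ∈ C₃ 𝒰 M ↔ IsLC₃ 𝒰 M f := Iff.rfl

/-- The third differential `Fun(G³, M) → Fun(G⁴, M)` of inhomogeneous cochains:
`(d f)(g₁,g₂,g₃,g₄) = g₁ f(g₂,g₃,g₄) - f(g₁g₂,g₃,g₄) + f(g₁,g₂g₃,g₄) - f(g₁,g₂,g₃g₄) + f(g₁,g₂,g₃)`. -/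
def d₃₄ : (G × G × G → M) →ₗ[k] (G × G × G × G → M) where
  toFun f g := M.ρ g.1 (f (g.2.1, g.2.2.1, g.2.2.2)) - f (g.1 * g.2.1, g.2.2.1, g.2.2.2)
    + f (g.1, g.2.1 * g.2.2.1, g.2.2.2) - f (g.1, g.2.1, g.2.2.1 * g.2.2.2) + f (g.1, g.2.1, g.2.2.1)
  map_add' x y := funext fun g => by
    simp only [Pi.add_apply, map_add]
    abel
  map_smul' c x := funext fun g => by
    simp only [Pi.smul_apply, map_smul, RingHom.id_apply, smul_add, smul_sub]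

@[simp] lemma d₃₄_apply (f : G × G × G → M) (g₁ g₂ g₃ g₄ : G) :
    d₃₄ M f (g₁, g₂, g₃, g₄) = M.ρ g₁ (f (g₂, g₃, g₄)) - f (g₁ * g₂, g₃, g₄)
      + f (g₁, g₂ * g₃, g₄) - f (g₁, g₂, g₃ * g₄) + f (g₁, g₂, g₃) := rfl

end Defs


section Part2


variable {k : Type} [CommRing k] {G : Type} [Group G]
variable (𝒰 : NBasis G) (M : Rep.{0, 0, 0} k G)

lemma ρ_conj_fix {U : Subgroup G} (hU : U.Normal) {m : M} (hm : ∀ s ∈ U, M.ρ s m = m)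
    (g : G) {s : G} (hs : s ∈ U) : M.ρ s (M.ρ g m) = M.ρ g m := by
  have h1 : s * g = g * (g⁻¹ * s * g) := mul_conj_eq s g
  have h2 := hm _ (hU.conj_mem' s hs g)
  calc M.ρ s (M.ρ g m) = M.ρ (s * g) m := by rw [map_mul]; rfl
    _ = M.ρ (g * (g⁻¹ * s * g)) m := by rw [h1]
    _ = M.ρ g (M.ρ (g⁻¹ * s * g) m) := by rw [map_mul]; rfl
    _ = M.ρ g m := by rw [h2]

lemma d₀₁_mem_C₁ {m : M} (hm : m ∈ C₀ 𝒰 M) : (d₀₁ M).hom m ∈ C₁ 𝒰 M := by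
  obtain ⟨U, hU, h⟩ := hm
  refine ⟨U, hU, fun s hs g => ⟨?_, ?_⟩⟩
  · simp only [d₀₁_hom_apply, map_mul, Module.End.mul_apply, h s hs]
  · simp only [d₀₁_hom_apply, map_sub, h s hs, ρ_conj_fix M (𝒰.normal hU) h g hs]

lemma d₁₂_mem_C₂ {f : G → M} (hf : f ∈ C₁ 𝒰 M) : (d₁₂ M).hom f ∈ C₂ 𝒰 M := by
  obtain ⟨U, hU, h⟩ := hf
  have hN := 𝒰.normal hU
  refine ⟨U, hU, fun s hs g g' => ⟨?_, ?_, ?_⟩⟩
  · have e : g * s * g' = g * g' * (g'⁻¹ * s * g') := by group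
    simp only [d₁₂_hom_apply, map_mul, Module.End.mul_apply, (h s hs _).1, (h s hs _).2, e,
      (h _ (hN.conj_mem' s hs g') _).1]
  · simp only [d₁₂_hom_apply, ← mul_assoc, (h s hs _).1]
  · simp only [d₁₂_hom_apply, map_sub, map_add, (h s hs _).2,
      ρ_conj_fix M hN (fun t ht => (h t ht g').2) g hs]

lemma d₂₃_mem_C₃ {f : G × G → M} (hf : f ∈ C₂ 𝒰 M) : (d₂₃ M).hom f ∈ C₃ 𝒰 M := by
  obtain ⟨U, hU, h⟩ := hf
  have hN := 𝒰.normal hU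
  refine ⟨U, hU, fun s hs g g' g'' => ⟨?_, ?_, ?_, ?_⟩⟩
  · have e : g * s * g' = g * g' * (g'⁻¹ * s * g') := by group
    simp only [d₂₃_hom_apply, map_mul, Module.End.mul_apply, (h s hs _ _).1, (h s hs _ _).2.2, e,
      (h _ (hN.conj_mem' s hs g') _ _).1]
  · have e : g' * s * g'' = g' * g'' * (g''⁻¹ * s * g'') := by group
    have h1 : f (g, g' * s * g'') = f (g, g' * g'') := by
      rw [e]; exact (h _ (hN.conj_mem' s hs g'') _ _).2.1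
    simp only [d₂₃_hom_apply, (h s hs _ _).1, (h s hs _ _).2.1, h1, ← mul_assoc]
  · simp only [d₂₃_hom_apply, ← mul_assoc, (h s hs _ _).2.1]
  · simp only [d₂₃_hom_apply, map_sub, map_add, (h s hs _ _).2.2,
      ρ_conj_fix M hN (fun t ht => (h t ht g' g'').2.2) g hs]



/-- `d : C⁰ → C¹` -/
def dC₀ : ↥(C₀ 𝒰 M) →ₗ[k] ↥(C₁ 𝒰 M) :=
  ((d₀₁ M).hom ∘ₗ (C₀ 𝒰 M).subtype).codRestrict (C₁ 𝒰 M) fun m => d₀₁_mem_C₁ 𝒰 M m.2

/-- `d : C¹ → C²` -/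
def dC₁ : ↥(C₁ 𝒰 M) →ₗ[k] ↥(C₂ 𝒰 M) :=
  ((d₁₂ M).hom ∘ₗ (C₁ 𝒰 M).subtype).codRestrict (C₂ 𝒰 M) fun f => d₁₂_mem_C₂ 𝒰 M f.2

/-- `d : C² → C³` -/
def dC₂ : ↥(C₂ 𝒰 M) →ₗ[k] ↥(C₃ 𝒰 M) :=
  ((d₂₃ M).hom ∘ₗ (C₂ 𝒰 M).subtype).codRestrict (C₃ 𝒰 M) fun f => d₂₃_mem_C₃ 𝒰 M f.2

/-- `d : C³ → Fun(G⁴, M)` -/
def dC₃ : ↥(C₃ 𝒰 M) →ₗ[k] (G × G × G × G → M) := d₃₄ M ∘ₗ (C₃ 𝒰 M).subtype

@[simp] lemma dC₀_coe (m : ↥(C₀ 𝒰 M)) : (dC₀ 𝒰 M m : G → M) = (d₀₁ M).hom (m : M) := rfl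
@[simp] lemma dC₁_coe (f : ↥(C₁ 𝒰 M)) : (dC₁ 𝒰 M f : G × G → M) = (d₁₂ M).hom (f : G → M) := rfl
@[simp] lemma dC₂_coe (f : ↥(C₂ 𝒰 M)) :
    (dC₂ 𝒰 M f : G × G × G → M) = (d₂₃ M).hom (f : G × G → M) := rfl
@[simp] lemma dC₃_apply (f : ↥(C₃ 𝒰 M)) : dC₃ 𝒰 M f = d₃₄ M (f : G × G × G → M) := rfl

lemma d₂₃_d₃₄ (f : G × G → M) : d₃₄ M ((d₂₃ M).hom f) = 0 := by
  funext ⟨g₁, g₂, g₃, g₄⟩
  simp only [d₃₄_apply, d₂₃_hom_apply, map_sub, map_add, map_mul, Module.End.mul_apply, mul_assoc,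
    Pi.zero_apply]
  abel

lemma dC₁_dC₀ (m : ↥(C₀ 𝒰 M)) : dC₁ 𝒰 M (dC₀ 𝒰 M m) = 0 := by
  apply Subtype.ext
  simp only [dC₁_coe, dC₀_coe, ZeroMemClass.coe_zero]
  exact congr($(d₀₁_comp_d₁₂ M).hom (m : M))

lemma dC₂_dC₁ (f : ↥(C₁ 𝒰 M)) : dC₂ 𝒰 M (dC₁ 𝒰 M f) = 0 := by
  apply Subtype.ext
  simp only [dC₂_coe, dC₁_coe, ZeroMemClass.coe_zero]
  exact congr($(d₁₂_comp_d₂₃ M).hom (f : G → M))

lemma dC₃_dC₂ (f : ↥(C₂ 𝒰 M)) : dC₃ 𝒰 M (dC₂ 𝒰 M f) = 0 := by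
  rw [dC₃_apply, dC₂_coe]
  exact d₂₃_d₃₄ M _

/-- `H⁰` (a submodule of the smooth vectors; equal to the invariants). -/
abbrev H0 : Submodule k ↥(C₀ 𝒰 M) := LinearMap.ker (dC₀ 𝒰 M)
/-- `H¹` of LC cochains -/
abbrev H1 : Type := Hmid (dC₀ 𝒰 M) (dC₁ 𝒰 M)
/-- `H²` of LC cochains -/
abbrev H2 : Type := Hmid (dC₁ 𝒰 M) (dC₂ 𝒰 M)
/-- `H³` of LC cochains -/
abbrev H3 : Type := Hmid (dC₂ 𝒰 M) (dC₃ 𝒰 M)


end Part2

section Part3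


variable {k : Type} [CommRing k] {G : Type} [Group G] {G' : Type} [Group G'] {G'' : Type} [Group G'']

/-- A morphism of situations `(G, 𝒰, A) → (G', 𝒰', B)`: a continuous `f : G' →* G` and an
`f`-equivariant linear map `φ : A → B`.  (Coefficient maps: `f = id`.  Restriction: `φ = id`.) -/
structure Mor (𝒰 : NBasis G) (A : Rep.{0, 0, 0} k G) (𝒰' : NBasis G') (B : Rep.{0, 0, 0} k G') where
  /-- the group homomorphism -/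
  f : G' →* G
  cont : ∀ U, 𝒰.mem U → ∃ U', 𝒰'.mem U' ∧ ∀ s ∈ U', f s ∈ U
  /-- the map on coefficients -/
  φ : A →ₗ[k] B
  equivar : ∀ g a, φ (A.ρ (f g) a) = B.ρ g (φ a)

namespace Mor

variable {𝒰 : NBasis G} {A : Rep.{0, 0, 0} k G} {𝒰' : NBasis G'} {B : Rep.{0, 0, 0} k G'}
  (α : Mor 𝒰 A 𝒰' B)

/-- pull-push on all `1`-cochains -/
def p₁ : (G → A) →ₗ[k] (G' → B) where
  toFun x := fun g => α.φ (x (α.f g))
  map_add' x y := by ext; simp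
  map_smul' c x := by ext; simp

/-- pull-push on all `2`-cochains -/
def p₂ : (G × G → A) →ₗ[k] (G' × G' → B) where
  toFun x := fun g => α.φ (x (α.f g.1, α.f g.2))
  map_add' x y := by ext; simp
  map_smul' c x := by ext; simp

/-- pull-push on all `3`-cochains -/
def p₃ : (G × G × G → A) →ₗ[k] (G' × G' × G' → B) where
  toFun x := fun g => α.φ (x (α.f g.1, α.f g.2.1, α.f g.2.2))
  map_add' x y := by ext; simp
  map_smul' c x := by ext; simp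

/-- pull-push on all `4`-cochains -/
def p₄ : (G × G × G × G → A) →ₗ[k] (G' × G' × G' × G' → B) where
  toFun x := fun g => α.φ (x (α.f g.1, α.f g.2.1, α.f g.2.2.1, α.f g.2.2.2))
  map_add' x y := by ext; simp
  map_smul' c x := by ext; simp

@[simp] lemma p₁_apply (x : G → A) (g : G') : α.p₁ x g = α.φ (x (α.f g)) := rfl
@[simp] lemma p₂_apply (x : G × G → A) (g h : G') :
    α.p₂ x (g, h) = α.φ (x (α.f g, α.f h)) := rfl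
@[simp] lemma p₃_apply (x : G × G × G → A) (g h j : G') :
    α.p₃ x (g, h, j) = α.φ (x (α.f g, α.f h, α.f j)) := rfl
@[simp] lemma p₄_apply (x : G × G × G × G → A) (g h j l : G') :
    α.p₄ x (g, h, j, l) = α.φ (x (α.f g, α.f h, α.f j, α.f l)) := rfl

lemma φ_mem_C₀ {m : A} (hm : m ∈ C₀ 𝒰 A) : α.φ m ∈ C₀ 𝒰' B := by
  obtain ⟨U, hU, h⟩ := hm
  obtain ⟨U', hU', hle⟩ := α.cont U hU
  exact ⟨U', hU', fun s hs => by rw [← α.equivar, h _ (hle s hs)]⟩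

lemma p₁_mem_C₁ {x : G → A} (hx : x ∈ C₁ 𝒰 A) : α.p₁ x ∈ C₁ 𝒰' B := by
  obtain ⟨U, hU, h⟩ := hx
  obtain ⟨U', hU', hle⟩ := α.cont U hU
  refine ⟨U', hU', fun s hs g => ⟨?_, ?_⟩⟩
  · simp only [p₁_apply, map_mul, (h _ (hle s hs) _).1]
  · simp only [p₁_apply, ← α.equivar, (h _ (hle s hs) _).2]

lemma p₂_mem_C₂ {x : G × G → A} (hx : x ∈ C₂ 𝒰 A) : α.p₂ x ∈ C₂ 𝒰' B := by
  obtain ⟨U, hU, h⟩ := hx
  obtain ⟨U', hU', hle⟩ := α.cont U hU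
  refine ⟨U', hU', fun s hs g g' => ⟨?_, ?_, ?_⟩⟩
  · simp only [p₂_apply, map_mul, (h _ (hle s hs) _ _).1]
  · simp only [p₂_apply, map_mul, (h _ (hle s hs) _ _).2.1]
  · simp only [p₂_apply, ← α.equivar, (h _ (hle s hs) _ _).2.2]

lemma p₃_mem_C₃ {x : G × G × G → A} (hx : x ∈ C₃ 𝒰 A) : α.p₃ x ∈ C₃ 𝒰' B := by
  obtain ⟨U, hU, h⟩ := hx
  obtain ⟨U', hU', hle⟩ := α.cont U hU
  refine ⟨U', hU', fun s hs g g' g'' => ⟨?_, ?_, ?_, ?_⟩⟩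
  · simp only [p₃_apply, map_mul, (h _ (hle s hs) _ _ _).1]
  · simp only [p₃_apply, map_mul, (h _ (hle s hs) _ _ _).2.1]
  · simp only [p₃_apply, map_mul, (h _ (hle s hs) _ _ _).2.2.1]
  · simp only [p₃_apply, ← α.equivar, (h _ (hle s hs) _ _ _).2.2.2]

/-- the chain map in degree `0` -/
def c₀ : ↥(C₀ 𝒰 A) →ₗ[k] ↥(C₀ 𝒰' B) :=
  α.φ.restrict fun _ hm => α.φ_mem_C₀ hm
/-- the chain map in degree `1` -/
def c₁ : ↥(C₁ 𝒰 A) →ₗ[k] ↥(C₁ 𝒰' B) :=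
  α.p₁.restrict fun _ hx => α.p₁_mem_C₁ hx
/-- the chain map in degree `2` -/
def c₂ : ↥(C₂ 𝒰 A) →ₗ[k] ↥(C₂ 𝒰' B) :=
  α.p₂.restrict fun _ hx => α.p₂_mem_C₂ hx
/-- the chain map in degree `3` -/
def c₃ : ↥(C₃ 𝒰 A) →ₗ[k] ↥(C₃ 𝒰' B) :=
  α.p₃.restrict fun _ hx => α.p₃_mem_C₃ hx

@[simp] lemma c₀_coe (m : ↥(C₀ 𝒰 A)) : (α.c₀ m : B) = α.φ (m : A) := rfl
@[simp] lemma c₁_coe (x : ↥(C₁ 𝒰 A)) : (α.c₁ x : G' → B) = α.p₁ (x : G → A) := rfl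
@[simp] lemma c₂_coe (x : ↥(C₂ 𝒰 A)) : (α.c₂ x : G' × G' → B) = α.p₂ (x : G × G → A) := rfl
@[simp] lemma c₃_coe (x : ↥(C₃ 𝒰 A)) :
    (α.c₃ x : G' × G' × G' → B) = α.p₃ (x : G × G × G → A) := rfl

lemma p₁_d₀₁ (m : A) : α.p₁ ((d₀₁ A).hom m) = (d₀₁ B).hom (α.φ m) := by
  funext g
  simp only [p₁_apply, d₀₁_hom_apply, map_sub, α.equivar]

lemma p₂_d₁₂ (x : G → A) : α.p₂ ((d₁₂ A).hom x) = (d₁₂ B).hom (α.p₁ x) := by
  funext ⟨g, h⟩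
  simp only [p₂_apply, d₁₂_hom_apply, map_sub, map_add, α.equivar, p₁_apply, map_mul]

lemma p₃_d₂₃ (x : G × G → A) : α.p₃ ((d₂₃ A).hom x) = (d₂₃ B).hom (α.p₂ x) := by
  funext ⟨g, h, j⟩
  simp only [p₃_apply, d₂₃_hom_apply, map_sub, map_add, α.equivar, p₂_apply, map_mul]

lemma p₄_d₃₄ (x : G × G × G → A) : α.p₄ (d₃₄ A x) = d₃₄ B (α.p₃ x) := by
  funext ⟨g, h, j, l⟩
  simp only [p₄_apply, d₃₄_apply, map_sub, map_add, α.equivar, p₃_apply, map_mul]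

lemma c₁_dC₀ : α.c₁ ∘ₗ dC₀ 𝒰 A = dC₀ 𝒰' B ∘ₗ α.c₀ := by
  ext m : 1
  apply Subtype.ext
  simp only [LinearMap.comp_apply, c₁_coe, dC₀_coe, c₀_coe]
  exact α.p₁_d₀₁ _

lemma c₂_dC₁ : α.c₂ ∘ₗ dC₁ 𝒰 A = dC₁ 𝒰' B ∘ₗ α.c₁ := by
  ext x : 1
  apply Subtype.ext
  simp only [LinearMap.comp_apply, c₂_coe, dC₁_coe, c₁_coe]
  exact α.p₂_d₁₂ _

lemma c₃_dC₂ : α.c₃ ∘ₗ dC₂ 𝒰 A = dC₂ 𝒰' B ∘ₗ α.c₂ := by
  ext x : 1
  apply Subtype.ext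
  simp only [LinearMap.comp_apply, c₃_coe, dC₂_coe, c₂_coe]
  exact α.p₃_d₂₃ _

lemma p₄_dC₃ : α.p₄ ∘ₗ dC₃ 𝒰 A = dC₃ 𝒰' B ∘ₗ α.c₃ := by
  ext x : 1
  simp only [LinearMap.comp_apply, dC₃_apply, c₃_coe]
  exact α.p₄_d₃₄ _

/-- the map on `H⁰` -/
def h0 : ↥(H0 𝒰 A) →ₗ[k] ↥(H0 𝒰' B) :=
  α.c₀.restrict fun m hm => by
    rw [LinearMap.mem_ker] at hm ⊢
    have := LinearMap.congr_fun α.c₁_dC₀ m
    simp only [LinearMap.comp_apply] at this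
    rw [← this, hm, map_zero]

/-- the map on `H¹` -/
def h1 : H1 𝒰 A →ₗ[k] H1 𝒰' B := Hmid.mapOfComm α.c₀ α.c₁ α.c₂ α.c₁_dC₀ α.c₂_dC₁
/-- the map on `H²` -/
def h2 : H2 𝒰 A →ₗ[k] H2 𝒰' B := Hmid.mapOfComm α.c₁ α.c₂ α.c₃ α.c₂_dC₁ α.c₃_dC₂
/-- the map on `H³` -/
def h3 : H3 𝒰 A →ₗ[k] H3 𝒰' B := Hmid.mapOfComm α.c₂ α.c₃ α.p₄ α.c₃_dC₂ α.p₄_dC₃

end Mor


end Part3

section Part4


variable {k : Type} [CommRing k] {G : Type} [Group G] {G' : Type} [Group G'] {G'' : Type} [Group G'']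

/-- continuity of a group homomorphism for two bases -/
def IsCont (𝒰 : NBasis G) (𝒰' : NBasis G') (f : G' →* G) : Prop :=
  ∀ U, 𝒰.mem U → ∃ U', 𝒰'.mem U' ∧ ∀ s ∈ U', f s ∈ U

lemma isCont_id (𝒰 : NBasis G) : IsCont 𝒰 𝒰 (MonoidHom.id G) := fun U hU => ⟨U, hU, fun _ hs => hs⟩

namespace Mor

variable {𝒰 : NBasis G} {A A' : Rep.{0, 0, 0} k G} {𝒰' : NBasis G'} {B : Rep.{0, 0, 0} k G'}
  {𝒰'' : NBasis G''} {C : Rep.{0, 0, 0} k G''}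

/-- a morphism of representations of `G` as a morphism of situations -/
def ofHom (𝒰 : NBasis G) (φ : A ⟶ A') : Mor 𝒰 A 𝒰 A' where
  f := MonoidHom.id G
  cont := isCont_id 𝒰
  φ := φ.hom.toLinearMap
  equivar g a := Rep.hom_comm_apply φ g a

/-- restriction along a continuous homomorphism -/
def res (𝒰 : NBasis G) (𝒰' : NBasis G') (f : G' →* G) (hf : IsCont 𝒰 𝒰' f) (A : Rep.{0, 0, 0} k G) :
    Mor 𝒰 A 𝒰' (Rep.res f A) where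
  f := f
  cont := hf
  φ := LinearMap.id
  equivar _ _ := rfl

/-- composition -/
def comp (α : Mor 𝒰 A 𝒰' B) (β : Mor 𝒰' B 𝒰'' C) : Mor 𝒰 A 𝒰'' C where
  f := α.f.comp β.f
  cont U hU := by
    obtain ⟨U', hU', h⟩ := α.cont U hU
    obtain ⟨U'', hU'', h'⟩ := β.cont U' hU'
    exact ⟨U'', hU'', fun s hs => h _ (h' s hs)⟩
  φ := β.φ ∘ₗ α.φ
  equivar g a := by
    simp only [LinearMap.comp_apply, MonoidHom.comp_apply, α.equivar, β.equivar]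

end Mor

/-- `M` is *uniformly smooth*: some `U ∈ 𝒰` acts trivially (`M` is a `G/U`-module). -/
def IsUSmooth (𝒰 : NBasis G) (M : Rep.{0, 0, 0} k G) : Prop :=
  ∃ U, 𝒰.mem U ∧ ∀ s ∈ U, ∀ m : M, M.ρ s m = m

lemma IsUSmooth.C₀_eq_top {𝒰 : NBasis G} {M : Rep.{0, 0, 0} k G} (h : IsUSmooth 𝒰 M) :
    C₀ 𝒰 M = ⊤ := by
  obtain ⟨U, hU, hs⟩ := h
  exact eq_top_iff.mpr fun m _ => ⟨U, hU, fun s hs' => hs s hs' m⟩

/-- `H^3 = 0`, explicitly -/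
def Vanish₃ (𝒰 : NBasis G) (M : Rep.{0, 0, 0} k G) : Prop :=
  ∀ f : ↥(C₃ 𝒰 M), dC₃ 𝒰 M f = 0 → ∃ b : ↥(C₂ 𝒰 M), dC₂ 𝒰 M b = f

/-- `H^2 = 0`, explicitly -/
def Vanish₂ (𝒰 : NBasis G) (M : Rep.{0, 0, 0} k G) : Prop :=
  ∀ f : ↥(C₂ 𝒰 M), dC₂ 𝒰 M f = 0 → ∃ b : ↥(C₁ 𝒰 M), dC₁ 𝒰 M b = f


end Part4

end Fermat.Agent.S55.Formal
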