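/-
S55 / Formal end (helper60): LC cochains versus FINITE LEVELS.

Setting of `Formal/LC.lean`: `G` a group with a basis `𝒰 : NBasis G` of "open normal subgroups",
`M : Rep k G`.  For `U ∈ 𝒰` the *finite level* is the finite group `G ⧸ U` acting on `M^U`
(Mathlib's `M.quotientToInvariants U`), with the *discrete* basis.

* `discreteBasis Q` : the basis of all normal subgroups of a finite group; every cochain is LC.
* `levelMor 𝒰 M hU : Mor (discreteBasis (G ⧸ U)) (M.quotientToInvariants U) 𝒰 M` : inflation.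
* `exists_level₁/₂/₃` : every LC cochain is inflated from a finite level (which can be chosen
  below any given level).
* `vanish₃_of_levels`, `vanish₂_of_levels`, `vanish₁_of_levels` : vanishing of LC cohomology from
  vanishing of Mathlib's `groupCohomology` on a cofinal family of finite levels.
-/
import Mathlib
import Fermat.Agent.S55.Formal.LC
import Fermat.Agent.S55.Coh.H3Explicit

set_option autoImplicit false
set_option linter.style.haveILetI false
set_option linter.unusedSectionVars false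

open CategoryTheory groupCohomology

namespace Fermat.Agent.S55.Formal.LCLevel

open Fermat.Agent.S55.Formal

variable {k : Type} [CommRing k]

/-! ### The discrete basis of a finite group -/

/-- The basis of all normal subgroups of a finite group. -/
def discreteBasis (Q : Type) [Group Q] [Finite Q] : NBasis Q where
  mem U := U.Normal
  normal h := h
  top := inferInstance
  inf {U V} hU hV := ⟨U ⊓ V, by haveI := hU; haveI := hV; infer_instance, le_rfl⟩
  finiteIndex _ := inferInstance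

section discrete

variable {Q : Type} [Group Q] [Finite Q] (A : Rep.{0, 0, 0} k Q)

lemma bot_mem_discreteBasis : (discreteBasis Q).mem ⊥ := (inferInstance : (⊥ : Subgroup Q).Normal)

lemma mem_C₀_discrete (m : A) : m ∈ C₀ (discreteBasis Q) A :=
  ⟨⊥, bot_mem_discreteBasis, fun s hs => by
    rw [Subgroup.mem_bot.mp hs, map_one]; rfl⟩

lemma mem_C₁_discrete (f : Q → A) : f ∈ C₁ (discreteBasis Q) A :=
  ⟨⊥, bot_mem_discreteBasis, fun s hs g => by
    rw [Subgroup.mem_bot.mp hs, mul_one, map_one]; exact ⟨rfl, rfl⟩⟩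

lemma mem_C₂_discrete (f : Q × Q → A) : f ∈ C₂ (discreteBasis Q) A :=
  ⟨⊥, bot_mem_discreteBasis, fun s hs g h => by
    rw [Subgroup.mem_bot.mp hs, mul_one, mul_one, map_one]; exact ⟨rfl, rfl, rfl⟩⟩

lemma mem_C₃_discrete (f : Q × Q × Q → A) : f ∈ C₃ (discreteBasis Q) A :=
  ⟨⊥, bot_mem_discreteBasis, fun s hs g h j => by
    rw [Subgroup.mem_bot.mp hs, mul_one, mul_one, mul_one, map_one]; exact ⟨rfl, rfl, rfl, rfl⟩⟩

end discrete

/-! ### Finite levels -/

section level

variable {G : Type} [Group G] (𝒰 : NBasis G) (M : Rep.{0, 0, 0} k G)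

/-- `f` has level `U`. -/
def IsLevel₁ (U : Subgroup G) (f : G → M) : Prop :=
  ∀ s ∈ U, ∀ g, f (g * s) = f g ∧ M.ρ s (f g) = f g

/-- `f` has level `U`. -/
def IsLevel₂ (U : Subgroup G) (f : G × G → M) : Prop :=
  ∀ s ∈ U, ∀ g h, f (g * s, h) = f (g, h) ∧ f (g, h * s) = f (g, h) ∧
    M.ρ s (f (g, h)) = f (g, h)

/-- `f` has level `U`. -/
def IsLevel₃ (U : Subgroup G) (f : G × G × G → M) : Prop :=
  ∀ s ∈ U, ∀ g h j, f (g * s, h, j) = f (g, h, j) ∧ f (g, h * s, j) = f (g, h, j) ∧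
    f (g, h, j * s) = f (g, h, j) ∧ M.ρ s (f (g, h, j)) = f (g, h, j)

variable {M}

lemma IsLevel₁.mono {U V : Subgroup G} (h : V ≤ U) {f : G → M} (hf : IsLevel₁ M U f) :
    IsLevel₁ M V f := fun s hs => hf s (h hs)

lemma IsLevel₂.mono {U V : Subgroup G} (h : V ≤ U) {f : G × G → M} (hf : IsLevel₂ M U f) :
    IsLevel₂ M V f := fun s hs => hf s (h hs)

lemma IsLevel₃.mono {U V : Subgroup G} (h : V ≤ U) {f : G × G × G → M} (hf : IsLevel₃ M U f) :
    IsLevel₃ M V f := fun s hs => hf s (h hs)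

variable (M)

/-- Inflation from the finite level `U`, as a morphism of situations. -/
noncomputable def levelMor (U : Subgroup G) [U.Normal] [Finite (G ⧸ U)] (hU : 𝒰.mem U) :
    Mor (discreteBasis (G ⧸ U)) (M.quotientToInvariants U) 𝒰 M where
  f := QuotientGroup.mk' U
  cont W _ := ⟨U, hU, fun s hs => by
    rw [QuotientGroup.mk'_apply, (QuotientGroup.eq_one_iff s).mpr hs]; exact W.one_mem⟩
  φ := Submodule.subtype _
  equivar _ _ := rfl

variable {𝒰 M}

lemma out_eq_mul (U : Subgroup G) (g : G) : ∃ s ∈ U, (QuotientGroup.mk g : G ⧸ U).out = g * s := by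
  refine ⟨g⁻¹ * (QuotientGroup.mk g : G ⧸ U).out, ?_, by group⟩
  exact QuotientGroup.eq.mp (QuotientGroup.out_eq' _).symm

section exists_cochain

variable (U : Subgroup G) [U.Normal] [Finite (G ⧸ U)] (hU : 𝒰.mem U)

/-- A `1`-cochain of level `U` is inflated from the finite level `U`. -/
theorem exists_cochain₁ {f : G → M} (hf : IsLevel₁ M U f) :
    ∃ c : G ⧸ U → M.quotientToInvariants U, (levelMor 𝒰 M U hU).p₁ c = f := by
  refine ⟨fun x => ⟨f x.out, fun s => (hf s.1 s.2 _).2⟩, ?_⟩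
  funext g
  obtain ⟨s, hs, e⟩ := out_eq_mul U g
  show f ((QuotientGroup.mk g : G ⧸ U).out) = f g
  rw [e, (hf s hs g).1]

/-- A `2`-cochain of level `U` is inflated from the finite level `U`. -/
theorem exists_cochain₂ {f : G × G → M} (hf : IsLevel₂ M U f) :
    ∃ c : (G ⧸ U) × (G ⧸ U) → M.quotientToInvariants U, (levelMor 𝒰 M U hU).p₂ c = f := by
  refine ⟨fun x => ⟨f (x.1.out, x.2.out), fun s => (hf s.1 s.2 _ _).2.2⟩, ?_⟩
  funext ⟨g, h⟩
  obtain ⟨s, hs, e⟩ := out_eq_mul U g
  obtain ⟨t, ht, e'⟩ := out_eq_mul U h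
  show f ((QuotientGroup.mk g : G ⧸ U).out, (QuotientGroup.mk h : G ⧸ U).out) = f (g, h)
  rw [e, e', (hf s hs _ _).1, (hf t ht _ _).2.1]

/-- A `3`-cochain of level `U` is inflated from the finite level `U`. -/
theorem exists_cochain₃ {f : G × G × G → M} (hf : IsLevel₃ M U f) :
    ∃ c : (G ⧸ U) × (G ⧸ U) × (G ⧸ U) → M.quotientToInvariants U,
      (levelMor 𝒰 M U hU).p₃ c = f := by
  refine ⟨fun x => ⟨f (x.1.out, x.2.1.out, x.2.2.out), fun s => (hf s.1 s.2 _ _ _).2.2.2⟩, ?_⟩
  funext ⟨g, h, j⟩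
  obtain ⟨s, hs, e⟩ := out_eq_mul U g
  obtain ⟨t, ht, e'⟩ := out_eq_mul U h
  obtain ⟨r, hr, e''⟩ := out_eq_mul U j
  show f ((QuotientGroup.mk g : G ⧸ U).out, (QuotientGroup.mk h : G ⧸ U).out,
    (QuotientGroup.mk j : G ⧸ U).out) = f (g, h, j)
  rw [e, e', e'', (hf s hs _ _ _).1, (hf t ht _ _ _).2.1, (hf r hr _ _ _).2.2.1]

/-- inflation is injective on cochains -/
theorem p₁_injective : Function.Injective (levelMor 𝒰 M U hU).p₁ := by
  intro c c' h
  funext x
  induction x using QuotientGroup.induction_on with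
  | H g => exact Subtype.ext (congrFun h g)

/-- inflation is injective on cochains -/
theorem p₂_injective : Function.Injective (levelMor 𝒰 M U hU).p₂ := by
  intro c c' h
  funext ⟨x, y⟩
  induction x using QuotientGroup.induction_on with
  | H g =>
    induction y using QuotientGroup.induction_on with
    | H g2 => exact Subtype.ext (congrFun h (g, g2))

/-- inflation is injective on cochains -/
theorem p₃_injective : Function.Injective (levelMor 𝒰 M U hU).p₃ := by
  intro c c' h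
  funext ⟨x, y, z⟩
  induction x using QuotientGroup.induction_on with
  | H g =>
    induction y using QuotientGroup.induction_on with
    | H g2 =>
      induction z using QuotientGroup.induction_on with
      | H g3 => exact Subtype.ext (congrFun h (g, g2, g3))

/-- inflation is injective on cochains -/
theorem p₄_injective : Function.Injective (levelMor 𝒰 M U hU).p₄ := by
  intro c c' h
  funext ⟨x, y, z, w⟩
  induction x using QuotientGroup.induction_on with
  | H g =>
    induction y using QuotientGroup.induction_on with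
    | H g2 =>
      induction z using QuotientGroup.induction_on with
      | H g3 =>
        induction w using QuotientGroup.induction_on with
        | H g4 => exact Subtype.ext (congrFun h (g, g2, g3, g4))

end exists_cochain

/-! ### Vanishing of LC cohomology from vanishing on a cofinal family of finite levels -/

lemma d₃₄_eq (A : Rep.{0, 0, 0} k G) : Formal.d₃₄ A = Coh.H3Explicit.d₃₄ A := rfl

/-- `H³_LC = 0` as soon as Mathlib's `H³` vanishes on a cofinal family of finite levels. -/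
theorem vanish₃_of_levels
    (h : ∀ U, 𝒰.mem U → ∃ V, 𝒰.mem V ∧ V ≤ U ∧
      ∀ [V.Normal], Limits.IsZero (groupCohomology (M.quotientToInvariants V) 3)) :
    Vanish₃ 𝒰 M := by
  rintro ⟨f, U, hU, hlev⟩ hf
  obtain ⟨V, hV, hle, hz⟩ := h U hU
  haveI := 𝒰.normal hV
  haveI := 𝒰.finiteIndex hV
  haveI : Finite (G ⧸ V) := Subgroup.finite_quotient_of_finiteIndex
  have hlevV : IsLevel₃ M V f := IsLevel₃.mono hle hlev
  obtain ⟨c, hc⟩ := exists_cochain₃ (𝒰 := 𝒰) V hV hlevV
  set α := levelMor 𝒰 M V hV with hα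
  have hdc : Coh.H3Explicit.d₃₄ (M.quotientToInvariants V) c = 0 := by
    apply p₄_injective (𝒰 := 𝒰) V hV
    rw [← d₃₄_eq, ← hα, α.p₄_d₃₄, hc, map_zero]
    exact hf
  obtain ⟨b, hb⟩ := Coh.H3Explicit.exists_d₂₃_eq_of_isZero _ hz c hdc
  refine ⟨⟨α.p₂ b, α.p₂_mem_C₂ (mem_C₂_discrete _ b)⟩, ?_⟩
  apply Subtype.ext
  rw [dC₂_coe]
  show (d₂₃ M).hom (α.p₂ b) = f
  rw [← α.p₃_d₂₃, hb, hc]

/-- `H²_LC = 0` as soon as Mathlib's `H²` vanishes on a cofinal family of finite levels. -/
theorem vanish₂_of_levels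
    (h : ∀ U, 𝒰.mem U → ∃ V, 𝒰.mem V ∧ V ≤ U ∧
      ∀ [V.Normal], Limits.IsZero (groupCohomology (M.quotientToInvariants V) 2)) :
    Vanish₂ 𝒰 M := by
  rintro ⟨f, U, hU, hlev⟩ hf
  obtain ⟨V, hV, hle, hz⟩ := h U hU
  haveI := 𝒰.normal hV
  haveI := 𝒰.finiteIndex hV
  haveI : Finite (G ⧸ V) := Subgroup.finite_quotient_of_finiteIndex
  have hlevV : IsLevel₂ M V f := IsLevel₂.mono hle hlev
  obtain ⟨c, hc⟩ := exists_cochain₂ (𝒰 := 𝒰) V hV hlevV
  set α := levelMor 𝒰 M V hV with hα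
  have hf' : (d₂₃ M).hom f = 0 := congrArg Subtype.val hf
  have hdc : (d₂₃ (M.quotientToInvariants V)).hom c = 0 := by
    apply p₃_injective (𝒰 := 𝒰) V hV
    rw [← hα, α.p₃_d₂₃, hc, map_zero]
    exact hf'
  have hmem : c ∈ cocycles₂ (M.quotientToInvariants V) := hdc
  have h0 : H2π (M.quotientToInvariants V) ⟨c, hmem⟩ = 0 := by
    have := hz.eq_of_tgt (H2π (M.quotientToInvariants V)) 0
    rw [this]
    rfl
  obtain ⟨(b : G ⧸ V → M.quotientToInvariants V), hb⟩ := (H2π_eq_zero_iff _).1 h0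
  have hb' : (d₁₂ (M.quotientToInvariants V)).hom b = c := hb
  refine ⟨⟨α.p₁ b, α.p₁_mem_C₁ (mem_C₁_discrete (M.quotientToInvariants V) b)⟩, ?_⟩
  apply Subtype.ext
  rw [dC₁_coe]
  show (d₁₂ M).hom (α.p₁ b) = f
  rw [← α.p₂_d₁₂, hb', hc]

/-- `H¹_LC = 0` as soon as Mathlib's `H¹` vanishes on a cofinal family of finite levels. -/
theorem vanish₁_of_levels
    (h : ∀ U, 𝒰.mem U → ∃ V, 𝒰.mem V ∧ V ≤ U ∧
      ∀ [V.Normal], Limits.IsZero (groupCohomology (M.quotientToInvariants V) 1))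
    (f : ↥(C₁ 𝒰 M)) (hf : dC₁ 𝒰 M f = 0) : ∃ m : ↥(C₀ 𝒰 M), dC₀ 𝒰 M m = f := by
  obtain ⟨f, U, hU, hlev⟩ := f
  obtain ⟨V, hV, hle, hz⟩ := h U hU
  haveI := 𝒰.normal hV
  haveI := 𝒰.finiteIndex hV
  haveI : Finite (G ⧸ V) := Subgroup.finite_quotient_of_finiteIndex
  have hlevV : IsLevel₁ M V f := IsLevel₁.mono hle hlev
  obtain ⟨c, hc⟩ := exists_cochain₁ (𝒰 := 𝒰) V hV hlevV
  set α := levelMor 𝒰 M V hV with hα
  have hf' : (d₁₂ M).hom f = 0 := congrArg Subtype.val hf
  have hdc : (d₁₂ (M.quotientToInvariants V)).hom c = 0 := by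
    apply p₂_injective (𝒰 := 𝒰) V hV
    rw [← hα, α.p₂_d₁₂, hc, map_zero]
    exact hf'
  have hmem : c ∈ cocycles₁ (M.quotientToInvariants V) := hdc
  have h0 : H1π (M.quotientToInvariants V) ⟨c, hmem⟩ = 0 := by
    have := hz.eq_of_tgt (H1π (M.quotientToInvariants V)) 0
    rw [this]
    rfl
  obtain ⟨(b : M.quotientToInvariants V), hb⟩ := (H1π_eq_zero_iff _).1 h0
  have hb' : (d₀₁ (M.quotientToInvariants V)).hom b = c := hb
  refine ⟨⟨α.φ b, α.φ_mem_C₀ (mem_C₀_discrete (M.quotientToInvariants V) b)⟩, ?_⟩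
  apply Subtype.ext
  rw [dC₀_coe]
  show (d₀₁ M).hom (α.φ b) = f
  rw [← α.p₁_d₀₁, hb', hc]

end level

end Fermat.Agent.S55.Formal.LCLevel
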