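/-
S55 / Formal end (helper60): LC cohomology as the colimit of the finite levels, degrees 1 and 2.

Setting of `Formal/LC.lean` and `Formal/LCLevel.lean`.  For `U ∈ 𝒰`:

* `ι₁ U hU : H1 (M.quotientToInvariants U) →ₗ[k] Formal.H1 𝒰 M`,
  `ι₂ U hU : H2 (M.quotientToInvariants U) →ₗ[k] Formal.H2 𝒰 M`
  (Mathlib's `groupCohomology.H1/H2` of the finite group `G ⧸ U` to the LC cohomology of `G`),
* `trans₁/₂ U V h` : the Mathlib inflation maps `Hⁿ(G ⧸ U, M^U) → Hⁿ(G ⧸ V, M^V)` for `V ≤ U`,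
* `ι_trans` : `ι V ∘ trans U V = ι U`,
* `exists_ι_eq` : every LC class comes from a finite level (below any given level),
* `ι_eq_zero_iff` : `ι U y = 0 ↔ ∃ V ≤ U` in `𝒰` with `trans U V y = 0`.
-/
import Mathlib
import Fermat.Agent.S55.Formal.LCLevel

set_option autoImplicit false
set_option linter.style.haveILetI false
set_option linter.unusedSectionVars false

open CategoryTheory groupCohomology

namespace Fermat.Agent.S55.Formal.LCLevelH

open Fermat.Agent.S55.Formal Fermat.Agent.S55.Formal.LCLevel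

universe u

/-! ### Maps out of Mathlib's `H1`, `H2` -/

section desc

variable {k Q : Type u} [CommRing k] [Group Q] (A : Rep.{u} k Q)
  {X : Type*} [AddCommGroup X] [Module k X]

lemma H2π_surjective : Function.Surjective (H2π A) :=
  (ModuleCat.epi_iff_surjective (H2π A)).1 inferInstance

lemma H1π_surjective : Function.Surjective (H1π A) :=
  (ModuleCat.epi_iff_surjective (H1π A)).1 inferInstance

/-- A linear map out of `H²` from a linear map on `2`-cocycles killing coboundaries. -/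
noncomputable def descH2 (φ : cocycles₂ A →ₗ[k] X)
    (hφ : ∀ c : cocycles₂ A, (c : Q × Q → A) ∈ coboundaries₂ A → φ c = 0) : groupCohomology.H2 A →ₗ[k] X :=
  (Submodule.liftQ (LinearMap.ker (H2π A).hom) φ (fun c hc =>
      LinearMap.mem_ker.mpr (hφ c ((H2π_eq_zero_iff c).1 (LinearMap.mem_ker.mp hc))))) ∘ₗ
    ((H2π A).hom.quotKerEquivOfSurjective (H2π_surjective A)).symm.toLinearMap

lemma descH2_π (φ : cocycles₂ A →ₗ[k] X)
    (hφ : ∀ c : cocycles₂ A, (c : Q × Q → A) ∈ coboundaries₂ A → φ c = 0) (c : cocycles₂ A) :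
    descH2 A φ hφ (H2π A c) = φ c := by
  unfold descH2
  rw [LinearMap.comp_apply]
  have : ((H2π A).hom.quotKerEquivOfSurjective (H2π_surjective A)).symm (H2π A c) =
      Submodule.Quotient.mk c := by
    rw [LinearEquiv.symm_apply_eq]
    rfl
  erw [this]
  rfl

/-- A linear map out of `H¹` from a linear map on `1`-cocycles killing coboundaries. -/
noncomputable def descH1 (φ : cocycles₁ A →ₗ[k] X)
    (hφ : ∀ c : cocycles₁ A, (c : Q → A) ∈ coboundaries₁ A → φ c = 0) : groupCohomology.H1 A →ₗ[k] X :=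
  (Submodule.liftQ (LinearMap.ker (H1π A).hom) φ (fun c hc =>
      LinearMap.mem_ker.mpr (hφ c ((H1π_eq_zero_iff c).1 (LinearMap.mem_ker.mp hc))))) ∘ₗ
    ((H1π A).hom.quotKerEquivOfSurjective (H1π_surjective A)).symm.toLinearMap

lemma descH1_π (φ : cocycles₁ A →ₗ[k] X)
    (hφ : ∀ c : cocycles₁ A, (c : Q → A) ∈ coboundaries₁ A → φ c = 0) (c : cocycles₁ A) :
    descH1 A φ hφ (H1π A c) = φ c := by
  unfold descH1
  rw [LinearMap.comp_apply]
  have : ((H1π A).hom.quotKerEquivOfSurjective (H1π_surjective A)).symm (H1π A c) =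
      Submodule.Quotient.mk c := by
    rw [LinearEquiv.symm_apply_eq]
    rfl
  erw [this]
  rfl

end desc

/-! ### The maps `ι` from a finite level to LC cohomology -/

section iota

variable {k : Type} [CommRing k] {G : Type} [Group G] (𝒰 : NBasis G) (M : Rep.{0, 0, 0} k G)
variable (U : Subgroup G) [U.Normal] [Finite (G ⧸ U)] (hU : 𝒰.mem U)

/-- Inflation of `2`-cocycles of the finite level `U` into LC `2`-cocycles. -/
noncomputable def inflZ₂ :
    cocycles₂ (M.quotientToInvariants U) →ₗ[k] LinearMap.ker (dC₂ 𝒰 M) where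
  toFun c := ⟨⟨(levelMor 𝒰 M U hU).p₂ c,
      (levelMor 𝒰 M U hU).p₂_mem_C₂ (mem_C₂_discrete (M.quotientToInvariants U) c)⟩, by
    rw [LinearMap.mem_ker]
    apply Subtype.ext
    rw [dC₂_coe]
    show (d₂₃ M).hom ((levelMor 𝒰 M U hU).p₂ c) = 0
    rw [← (levelMor 𝒰 M U hU).p₃_d₂₃]
    have hc : (d₂₃ (M.quotientToInvariants U)).hom (c : _ → _) = 0 := c.2
    rw [hc, map_zero]⟩
  map_add' c c' := by
    apply Subtype.ext; apply Subtype.ext
    exact map_add (levelMor 𝒰 M U hU).p₂ _ _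
  map_smul' r c := by
    apply Subtype.ext; apply Subtype.ext
    exact map_smul (levelMor 𝒰 M U hU).p₂ _ _

@[simp] lemma inflZ₂_coe (c : cocycles₂ (M.quotientToInvariants U)) :
    ((inflZ₂ 𝒰 M U hU c : ↥(C₂ 𝒰 M)) : G × G → M) = (levelMor 𝒰 M U hU).p₂ c := rfl

/-- Inflation of `1`-cocycles of the finite level `U` into LC `1`-cocycles. -/
noncomputable def inflZ₁ :
    cocycles₁ (M.quotientToInvariants U) →ₗ[k] LinearMap.ker (dC₁ 𝒰 M) where
  toFun c := ⟨⟨(levelMor 𝒰 M U hU).p₁ c,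
      (levelMor 𝒰 M U hU).p₁_mem_C₁ (mem_C₁_discrete (M.quotientToInvariants U) c)⟩, by
    rw [LinearMap.mem_ker]
    apply Subtype.ext
    rw [dC₁_coe]
    show (d₁₂ M).hom ((levelMor 𝒰 M U hU).p₁ c) = 0
    rw [← (levelMor 𝒰 M U hU).p₂_d₁₂]
    have hc : (d₁₂ (M.quotientToInvariants U)).hom (c : _ → _) = 0 := c.2
    rw [hc, map_zero]⟩
  map_add' c c' := by
    apply Subtype.ext; apply Subtype.ext
    exact map_add (levelMor 𝒰 M U hU).p₁ _ _
  map_smul' r c := by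
    apply Subtype.ext; apply Subtype.ext
    exact map_smul (levelMor 𝒰 M U hU).p₁ _ _

@[simp] lemma inflZ₁_coe (c : cocycles₁ (M.quotientToInvariants U)) :
    ((inflZ₁ 𝒰 M U hU c : ↥(C₁ 𝒰 M)) : G → M) = (levelMor 𝒰 M U hU).p₁ c := rfl

/-- `ι₂ : H²(G ⧸ U, M^U) → H²_LC(G, M)`. -/
noncomputable def ι₂ : groupCohomology.H2 (M.quotientToInvariants U) →ₗ[k] Formal.H2 𝒰 M :=
  descH2 (M.quotientToInvariants U) (Hmid.mk (dC₁ 𝒰 M) (dC₂ 𝒰 M) ∘ₗ inflZ₂ 𝒰 M U hU) (by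
    rintro c ⟨(b : G ⧸ U → M.quotientToInvariants U), hb⟩
    rw [LinearMap.comp_apply, Hmid.mk_eq_zero_iff]
    refine ⟨⟨(levelMor 𝒰 M U hU).p₁ b,
      (levelMor 𝒰 M U hU).p₁_mem_C₁ (mem_C₁_discrete (M.quotientToInvariants U) b)⟩, ?_⟩
    apply Subtype.ext
    rw [dC₁_coe, inflZ₂_coe]
    show (d₁₂ M).hom ((levelMor 𝒰 M U hU).p₁ b) = _
    rw [← (levelMor 𝒰 M U hU).p₂_d₁₂]
    exact congrArg _ hb)

lemma ι₂_π (c : cocycles₂ (M.quotientToInvariants U)) :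
    ι₂ 𝒰 M U hU (H2π _ c) = Hmid.mk (dC₁ 𝒰 M) (dC₂ 𝒰 M) (inflZ₂ 𝒰 M U hU c) :=
  descH2_π _ _ _ c

/-- `ι₁ : H¹(G ⧸ U, M^U) → H¹_LC(G, M)`. -/
noncomputable def ι₁ : groupCohomology.H1 (M.quotientToInvariants U) →ₗ[k] Formal.H1 𝒰 M :=
  descH1 (M.quotientToInvariants U) (Hmid.mk (dC₀ 𝒰 M) (dC₁ 𝒰 M) ∘ₗ inflZ₁ 𝒰 M U hU) (by
    rintro c ⟨(b : M.quotientToInvariants U), hb⟩
    rw [LinearMap.comp_apply, Hmid.mk_eq_zero_iff]
    refine ⟨⟨(levelMor 𝒰 M U hU).φ b,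
      (levelMor 𝒰 M U hU).φ_mem_C₀ (mem_C₀_discrete (M.quotientToInvariants U) b)⟩, ?_⟩
    apply Subtype.ext
    rw [dC₀_coe, inflZ₁_coe]
    show (d₀₁ M).hom ((levelMor 𝒰 M U hU).φ b) = _
    rw [← (levelMor 𝒰 M U hU).p₁_d₀₁]
    exact congrArg _ hb)

lemma ι₁_π (c : cocycles₁ (M.quotientToInvariants U)) :
    ι₁ 𝒰 M U hU (H1π _ c) = Hmid.mk (dC₀ 𝒰 M) (dC₁ 𝒰 M) (inflZ₁ 𝒰 M U hU c) :=
  descH1_π _ _ _ c

end iota

/-! ### Transition maps between finite levels -/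

section trans

variable {k : Type} [CommRing k] {G : Type} [Group G] (𝒰 : NBasis G) (M : Rep.{0, 0, 0} k G)
variable (U V : Subgroup G) [U.Normal] [Finite (G ⧸ U)] [V.Normal] [Finite (G ⧸ V)] (h : V ≤ U)

/-- The quotient map `G ⧸ V → G ⧸ U` for `V ≤ U`. -/
def qmap : G ⧸ V →* G ⧸ U := QuotientGroup.map V U (MonoidHom.id G) h

@[simp] lemma qmap_mk (g : G) :
    qmap U V h (QuotientGroup.mk g : G ⧸ V) = (QuotientGroup.mk g : G ⧸ U) := rfl

omit [U.Normal] [Finite (G ⧸ U)] [V.Normal] [Finite (G ⧸ V)] in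
lemma invariants_le (h : V ≤ U) :
    Representation.invariants (M.ρ.comp U.subtype) ≤
      Representation.invariants (M.ρ.comp V.subtype) :=
  fun _ hm s => hm ⟨s.1, h s.2⟩

/-- The inclusion `M^U → M^V` as a morphism of representations of `G ⧸ V`. -/
noncomputable def inclHom :
    Rep.res (qmap U V h) (M.quotientToInvariants U) ⟶ M.quotientToInvariants V :=
  Rep.ofHom (ρ := (M.ρ.quotientToInvariants U).comp (qmap U V h))
    (σ := M.ρ.quotientToInvariants V)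
    ⟨Submodule.inclusion (invariants_le M U V h), fun g => by
      induction g using QuotientGroup.induction_on with
      | H g => ext m; rfl⟩

/-- The Mathlib inflation map `H²(G ⧸ U, M^U) → H²(G ⧸ V, M^V)`. -/
noncomputable def trans₂ :
    groupCohomology.H2 (M.quotientToInvariants U) →ₗ[k]
      groupCohomology.H2 (M.quotientToInvariants V) :=
  (groupCohomology.map (qmap U V h) (inclHom M U V h) 2).hom

/-- The Mathlib inflation map `H¹(G ⧸ U, M^U) → H¹(G ⧸ V, M^V)`. -/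
noncomputable def trans₁ :
    groupCohomology.H1 (M.quotientToInvariants U) →ₗ[k]
      groupCohomology.H1 (M.quotientToInvariants V) :=
  (groupCohomology.map (qmap U V h) (inclHom M U V h) 1).hom

lemma trans₂_π (c : cocycles₂ (M.quotientToInvariants U)) :
    trans₂ M U V h (H2π _ c) = H2π _ (mapCocycles₂ (qmap U V h) (inclHom M U V h) c) :=
  H2π_comp_map_apply (qmap U V h) (inclHom M U V h) c

lemma trans₁_π (c : cocycles₁ (M.quotientToInvariants U)) :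
    trans₁ M U V h (H1π _ c) = H1π _ (mapCocycles₁ (qmap U V h) (inclHom M U V h) c) :=
  H1π_comp_map_apply (qmap U V h) (inclHom M U V h) c

variable (hU : 𝒰.mem U) (hV : 𝒰.mem V)

lemma p₂_mapCocycles₂ (c : cocycles₂ (M.quotientToInvariants U)) :
    (levelMor 𝒰 M V hV).p₂ (mapCocycles₂ (qmap U V h) (inclHom M U V h) c) =
      (levelMor 𝒰 M U hU).p₂ c := by
  funext ⟨g, g'⟩
  rw [coe_mapCocycles₂]
  rfl

lemma p₁_mapCocycles₁ (c : cocycles₁ (M.quotientToInvariants U)) :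
    (levelMor 𝒰 M V hV).p₁ (mapCocycles₁ (qmap U V h) (inclHom M U V h) c) =
      (levelMor 𝒰 M U hU).p₁ c := by
  funext g
  rw [coe_mapCocycles₁]
  rfl

/-- `ι V ∘ trans U V = ι U`. -/
theorem ι₂_trans₂ (y : groupCohomology.H2 (M.quotientToInvariants U)) :
    ι₂ 𝒰 M V hV (trans₂ M U V h y) = ι₂ 𝒰 M U hU y := by
  induction y using H2_induction_on with
  | h c =>
    rw [trans₂_π, ι₂_π, ι₂_π]
    have e : inflZ₂ 𝒰 M V hV (mapCocycles₂ (qmap U V h) (inclHom M U V h) c) =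
        inflZ₂ 𝒰 M U hU c := by
      apply Subtype.ext; apply Subtype.ext
      rw [inflZ₂_coe, inflZ₂_coe]
      exact p₂_mapCocycles₂ 𝒰 M U V h hU hV c
    rw [e]

/-- `ι V ∘ trans U V = ι U`. -/
theorem ι₁_trans₁ (y : groupCohomology.H1 (M.quotientToInvariants U)) :
    ι₁ 𝒰 M V hV (trans₁ M U V h y) = ι₁ 𝒰 M U hU y := by
  induction y using H1_induction_on with
  | h c =>
    rw [trans₁_π, ι₁_π, ι₁_π]
    have e : inflZ₁ 𝒰 M V hV (mapCocycles₁ (qmap U V h) (inclHom M U V h) c) =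
        inflZ₁ 𝒰 M U hU c := by
      apply Subtype.ext; apply Subtype.ext
      rw [inflZ₁_coe, inflZ₁_coe]
      exact p₁_mapCocycles₁ 𝒰 M U V h hU hV c
    rw [e]

end trans

/-! ### LC cohomology is the colimit of the finite levels -/

section colimit

variable {k : Type} [CommRing k] {G : Type} [Group G] (𝒰 : NBasis G) (M : Rep.{0, 0, 0} k G)

/-- Every class of `H²_LC(G, M)` comes from a finite level below any given level. -/
theorem exists_ι₂_eq (x : Formal.H2 𝒰 M) (U₀ : Subgroup G) (hU₀ : 𝒰.mem U₀) :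
    ∃ V, ∃ hV : 𝒰.mem V, V ≤ U₀ ∧ ∀ [V.Normal] [Finite (G ⧸ V)],
      ∃ y : groupCohomology.H2 (M.quotientToInvariants V), ι₂ 𝒰 M V hV y = x := by
  obtain ⟨⟨⟨f, U₁, hU₁, hlev⟩, hf⟩, rfl⟩ := Hmid.mk_surjective (dC₁ 𝒰 M) (dC₂ 𝒰 M) x
  obtain ⟨V, hV, hle⟩ := 𝒰.inf hU₀ hU₁
  refine ⟨V, hV, hle.trans inf_le_left, ?_⟩
  intro _ _
  have hlevV : IsLevel₂ M V f := IsLevel₂.mono (hle.trans inf_le_right) hlev
  obtain ⟨c, hc⟩ := exists_cochain₂ (𝒰 := 𝒰) V hV hlevV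
  have hf' : (d₂₃ M).hom f = 0 := congrArg Subtype.val (LinearMap.mem_ker.mp hf)
  have hdc : (d₂₃ (M.quotientToInvariants V)).hom c = 0 := by
    apply p₃_injective (𝒰 := 𝒰) V hV
    rw [(levelMor 𝒰 M V hV).p₃_d₂₃, hc, map_zero]
    exact hf'
  refine ⟨H2π _ ⟨c, hdc⟩, ?_⟩
  rw [ι₂_π]
  congr 1
  apply Subtype.ext; apply Subtype.ext
  rw [inflZ₂_coe]
  exact hc

/-- Every class of `H¹_LC(G, M)` comes from a finite level below any given level. -/
theorem exists_ι₁_eq (x : Formal.H1 𝒰 M) (U₀ : Subgroup G) (hU₀ : 𝒰.mem U₀) :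
    ∃ V, ∃ hV : 𝒰.mem V, V ≤ U₀ ∧ ∀ [V.Normal] [Finite (G ⧸ V)],
      ∃ y : groupCohomology.H1 (M.quotientToInvariants V), ι₁ 𝒰 M V hV y = x := by
  obtain ⟨⟨⟨f, U₁, hU₁, hlev⟩, hf⟩, rfl⟩ := Hmid.mk_surjective (dC₀ 𝒰 M) (dC₁ 𝒰 M) x
  obtain ⟨V, hV, hle⟩ := 𝒰.inf hU₀ hU₁
  refine ⟨V, hV, hle.trans inf_le_left, ?_⟩
  intro _ _
  have hlevV : IsLevel₁ M V f := IsLevel₁.mono (hle.trans inf_le_right) hlev
  obtain ⟨c, hc⟩ := exists_cochain₁ (𝒰 := 𝒰) V hV hlevV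
  have hf' : (d₁₂ M).hom f = 0 := congrArg Subtype.val (LinearMap.mem_ker.mp hf)
  have hdc : (d₁₂ (M.quotientToInvariants V)).hom c = 0 := by
    apply p₂_injective (𝒰 := 𝒰) V hV
    rw [(levelMor 𝒰 M V hV).p₂_d₁₂, hc, map_zero]
    exact hf'
  refine ⟨H1π _ ⟨c, hdc⟩, ?_⟩
  rw [ι₁_π]
  congr 1
  apply Subtype.ext; apply Subtype.ext
  rw [inflZ₁_coe]
  exact hc

variable (U : Subgroup G) [U.Normal] [Finite (G ⧸ U)] (hU : 𝒰.mem U)

/-- A class of the finite level `U` dies in `H²_LC(G, M)` iff it dies at a deeper finite level. -/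
theorem ι₂_eq_zero_iff (y : groupCohomology.H2 (M.quotientToInvariants U)) :
    ι₂ 𝒰 M U hU y = 0 ↔
      ∃ V, 𝒰.mem V ∧ ∃ h : V ≤ U, ∀ [V.Normal] [Finite (G ⧸ V)], trans₂ M U V h y = 0 := by
  constructor
  · induction y using H2_induction_on with
    | h c =>
      intro h0
      rw [ι₂_π, Hmid.mk_eq_zero_iff] at h0
      obtain ⟨⟨a, W, hW, hlev⟩, ha⟩ := h0
      have ha' : (d₁₂ M).hom a = (levelMor 𝒰 M U hU).p₂ c := congrArg Subtype.val ha
      obtain ⟨V, hV, hle⟩ := 𝒰.inf hU hW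
      refine ⟨V, hV, hle.trans inf_le_left, ?_⟩
      intro _ _
      have hlevV : IsLevel₁ M V a := IsLevel₁.mono (hle.trans inf_le_right) hlev
      obtain ⟨b, hb⟩ := exists_cochain₁ (𝒰 := 𝒰) V hV hlevV
      rw [trans₂_π, H2π_eq_zero_iff]
      refine ⟨b, ?_⟩
      apply p₂_injective (𝒰 := 𝒰) V hV
      rw [(levelMor 𝒰 M V hV).p₂_d₁₂, hb, ha']
      exact (p₂_mapCocycles₂ 𝒰 M U V (hle.trans inf_le_left) hU hV c).symm
  · rintro ⟨V, hV, h, h0⟩
    haveI := 𝒰.normal hV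
    haveI := 𝒰.finiteIndex hV
    haveI : Finite (G ⧸ V) := Subgroup.finite_quotient_of_finiteIndex
    rw [← ι₂_trans₂ 𝒰 M U V h hU hV y, h0, map_zero]

/-- A class of the finite level `U` dies in `H¹_LC(G, M)` iff it dies at a deeper finite level. -/
theorem ι₁_eq_zero_iff (y : groupCohomology.H1 (M.quotientToInvariants U)) :
    ι₁ 𝒰 M U hU y = 0 ↔
      ∃ V, 𝒰.mem V ∧ ∃ h : V ≤ U, ∀ [V.Normal] [Finite (G ⧸ V)], trans₁ M U V h y = 0 := by
  constructor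
  · induction y using H1_induction_on with
    | h c =>
      intro h0
      rw [ι₁_π, Hmid.mk_eq_zero_iff] at h0
      obtain ⟨⟨a, W, hW, hfix⟩, ha⟩ := h0
      have ha' : (d₀₁ M).hom a = (levelMor 𝒰 M U hU).p₁ c := congrArg Subtype.val ha
      obtain ⟨V, hV, hle⟩ := 𝒰.inf hU hW
      refine ⟨V, hV, hle.trans inf_le_left, ?_⟩
      intro _ _
      rw [trans₁_π, H1π_eq_zero_iff]
      refine ⟨(⟨a, fun s => hfix s.1 ((hle.trans inf_le_right) s.2)⟩ :
        M.quotientToInvariants V), ?_⟩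
      apply p₁_injective (𝒰 := 𝒰) V hV
      rw [(levelMor 𝒰 M V hV).p₁_d₀₁]
      show (d₀₁ M).hom a = _
      rw [ha']
      exact (p₁_mapCocycles₁ 𝒰 M U V (hle.trans inf_le_left) hU hV c).symm
  · rintro ⟨V, hV, h, h0⟩
    haveI := 𝒰.normal hV
    haveI := 𝒰.finiteIndex hV
    haveI : Finite (G ⧸ V) := Subgroup.finite_quotient_of_finiteIndex
    rw [← ι₁_trans₁ 𝒰 M U V h hU hV y, h0, map_zero]

/-- If all transition maps out of level `U` are injective (e.g. by inflation–restriction when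
`H¹(U ⧸ V, M^V) = 0` for all `V`), then `ι₂ U` is injective. -/
theorem ι₂_injective_of_trans
    (hinj : ∀ V, 𝒰.mem V → ∀ h : V ≤ U, ∀ [V.Normal] [Finite (G ⧸ V)],
      Function.Injective (trans₂ M U V h)) :
    Function.Injective (ι₂ 𝒰 M U hU) := by
  rw [injective_iff_map_eq_zero]
  intro y hy
  obtain ⟨V, hV, h, h0⟩ := (ι₂_eq_zero_iff 𝒰 M U hU y).1 hy
  haveI := 𝒰.normal hV
  haveI := 𝒰.finiteIndex hV
  haveI : Finite (G ⧸ V) := Subgroup.finite_quotient_of_finiteIndex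
  exact hinj V hV h (by rw [h0, map_zero])

end colimit

end Fermat.Agent.S55.Formal.LCLevelH
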