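/-
S55 / Formal / TopLC (helper32): the frozen statement S55 from the numerical Poitou–Tate statement
in `LC` language.

`LCShaStatement` speaks only about the kernels of the two localisation maps
`locLC₁ : H¹_LC(G_S, M') → ∏_{q ∈ S} H¹_LC(Γ_q, M')`,
`locLC₂ : H²_LC(G_S, M) → ∏_{q ∈ S} H²_LC(Γ_q, M)` of `Formal/PreludeLC.lean`
(the archimedean place has been removed, `p` being odd), for modules with a level.
-/
import Fermat.Agent.S55.Reduction
import Fermat.Agent.S55.Formal.PreludeLC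
import Fermat.Agent.S55.GaloisLevelCyclo

set_option autoImplicit false

open CategoryTheory Module groupCohomology ExtCitation

namespace Fermat.Agent.S55.Formal.TopLC

open Fermat.Agent.S55.Formal.PreludeLC

/-- **Numerical Poitou–Tate in `LC` language.** -/
def LCShaStatement : Prop :=
  ∀ {p : ℕ} [Fact p.Prime], p ≠ 2 → ∀ (S : Finset Nat.Primes), pPrime p ∈ S →
    ∀ (M : Rep.{0, 0, 0} (ZMod p) GQ) [FiniteDimensional (ZMod p) M],
    HasLevel S M → HasLevel S (M.dualTwist (cycloChar p)) →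
    FiniteDimensional (ZMod p) ↥(LinearMap.ker (locLC₁ S (M.dualTwist (cycloChar p)))) ∧
    FiniteDimensional (ZMod p) ↥(LinearMap.ker (locLC₂ S M)) ∧
    finrank (ZMod p) ↥(LinearMap.ker (locLC₁ S (M.dualTwist (cycloChar p)))) =
      finrank (ZMod p) ↥(LinearMap.ker (locLC₂ S M))

/-- `S55Core` from the `LC` statement. -/
theorem s55Core_of_LC (h : LCShaStatement) : Fermat.Agent.S55.S55Core := by
  intro p _ hp2 S hpS M _ hsm hMur
  have hM : HasLevel S M := hasLevel_of_admissible S M hsm hMur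
  have hM' : HasLevel S (M.dualTwist (cycloChar p)) :=
    hasLevel_of_admissible S (M.dualTwist (cycloChar p))
      (GaloisLevelCyclo.dualTwist_smooth M hsm)
      (GaloisLevelCyclo.dualTwist_unramified M hpS hMur)
  obtain ⟨h1, h2, h3⟩ := h hp2 S hpS M hM hM'
  exact sha_finrank_of_LC hM' hM (Archimedean.isUnit_two_zmod hp2) h1 h2 h3

/-- **Frozen S55 from the `LC` statement.** -/
theorem result_of_LC (h : LCShaStatement)
    {p : ℕ} [Fact p.Prime] (hp2 : p ≠ 2) (S : Finset Nat.Primes) (hpS : pPrime p ∈ S)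
    (M : Rep (ZMod p) (AlgebraicClosure ℚ ≃ₐ[ℚ] AlgebraicClosure ℚ))
    [FiniteDimensional (ZMod p) M]
    (hsm : ∀ m : M, ∃ F : IntermediateField ℚ (AlgebraicClosure ℚ), FiniteDimensional ℚ F ∧
      ∀ s ∈ F.fixingSubgroup, M.ρ s m = m)
    (hMur : ∀ q : Nat.Primes, q ∉ S → ∀ A : ValuationSubring (AlgebraicClosure ℚ),
      A.LiesOverPrime (q : ℕ) → ∀ g ∈ A.inertiaSubgroupIn ℚ, M.ρ g = 1) :
    ∃ B : sha₁ S (M.dualTwist (cycloChar p)) →ₗ[ZMod p] sha₂ S M →ₗ[ZMod p] ZMod p,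
      (∀ y, (∀ x, B y x = 0) → y = 0) ∧ (∀ x, (∀ y, B y x = 0) → x = 0) :=
  Fermat.Agent.S55.s55_of_core (s55Core_of_LC h) hp2 S hpS M hsm hMur

end Fermat.Agent.S55.Formal.TopLC
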