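/-
S55 / Formal / ArithSite (helper32): the ARITHMETIC SITE and the final reduction
`FormalMain + BaseA (arithSite S) 𝔽_p χ_p  ⇒  frozen S55`.

* `arithSite S : Site` : global group `G_ℚ` with the basis `globalBasis S`, places `q ∈ S`, local groups
  `primeLocalGaloisGroup q` with the bases `localBasis (primeLocalToGlobal q)`.
* `sha1_eq`, `sha2_eq` : the `Ш`'s of the site are the kernels of `locLC₁`, `locLC₂` of `PreludeLC`.
* `lcShaStatement_of_formalMain`, `result_of_formalMain`.
-/
import Fermat.Agent.S55.Formal.Blocks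
import Fermat.Agent.S55.Formal.TopLC

set_option autoImplicit false

open CategoryTheory Module groupCohomology ExtCitation

namespace Fermat.Agent.S55.Formal.ArithSite

open Fermat.Agent.S55.Formal Fermat.Agent.S55.Formal.PreludeLC Fermat.Agent.S55.Formal.TopLC

variable (S : Finset Nat.Primes)

/-- **The arithmetic site** of `S`. -/
@[reducible] noncomputable def arithSite : Site where
  G := GQ
  𝒰 := globalBasis S
  I := ↥S
  Γ := fun q => primeLocalGaloisGroup q.1
  𝒱 := fun q => localBasis (primeLocalToGlobal q.1)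
  ι := fun q => primeLocalToGlobal q.1
  cont := fun q => isCont_local S (primeLocalToGlobal q.1)

section Sha

variable {k : Type} [CommRing k] (M : Rep.{0, 0, 0} k GQ)

theorem mem_sha1_iff (x : Formal.H1 (globalBasis S) M) :
    x ∈ (arithSite S).sha1 M ↔ x ∈ LinearMap.ker (locLC₁ S M) := by
  obtain ⟨z, rfl⟩ := Hmid.mk_surjective _ _ x
  have hz : dC₁ (globalBasis S) M z.1 = 0 := LinearMap.mem_ker.1 z.2
  -- left side
  have hL : (Hmid.mk _ _ z : Formal.H1 (globalBasis S) M) ∈ (arithSite S).sha1 M ↔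
      ∃ b : (arithSite S).D₀ M, (arithSite S).e₀ M b = (arithSite S).r₁ M z.1 := by
    have e : (arithSite S).loc₁ M (Hmid.mk _ _ z) =
        Hmid.mk _ _ ⟨(arithSite S).r₁ M z.1, by
          rw [LinearMap.mem_ker]
          have h1 := LinearMap.congr_fun ((arithSite S).r₂_dC₁ M) z.1
          simp only [LinearMap.comp_apply] at h1
          have hz' : dC₁ (arithSite S).𝒰 M z.1 = 0 := hz
          rw [hz', map_zero] at h1
          exact h1.symm⟩ := rfl
    change (arithSite S).loc₁ M (Hmid.mk _ _ z) = 0 ↔ _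
    rw [e, Hmid.mk_eq_zero_iff]
  -- right side
  have hR : (Hmid.mk _ _ z : Formal.H1 (globalBasis S) M) ∈ LinearMap.ker (locLC₁ S M) ↔
      ∀ q : ↥S, ∃ b : ↥(C₀ (localBasis (primeLocalToGlobal q.1))
          (Rep.res (primeLocalToGlobal q.1) M)),
        dC₀ _ _ b = (resMor S M q).c₁ z.1 := by
    rw [LinearMap.mem_ker]
    constructor
    · intro h q
      have hq := congrFun h q
      have e : (resMor S M q).h1 (Hmid.mk _ _ z) =
          Hmid.mk _ _ ⟨(resMor S M q).c₁ z.1, by
            rw [LinearMap.mem_ker]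
            have h1 := LinearMap.congr_fun (resMor S M q).c₂_dC₁ z.1
            simp only [LinearMap.comp_apply] at h1
            rw [← h1, hz, map_zero]⟩ := rfl
      change (resMor S M q).h1 (Hmid.mk _ _ z) = 0 at hq
      rw [e, Hmid.mk_eq_zero_iff] at hq
      exact hq
    · intro h
      funext q
      have e : (resMor S M q).h1 (Hmid.mk _ _ z) =
          Hmid.mk _ _ ⟨(resMor S M q).c₁ z.1, by
            rw [LinearMap.mem_ker]
            have h1 := LinearMap.congr_fun (resMor S M q).c₂_dC₁ z.1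
            simp only [LinearMap.comp_apply] at h1
            rw [← h1, hz, map_zero]⟩ := rfl
      change (resMor S M q).h1 (Hmid.mk _ _ z) = 0
      rw [e, Hmid.mk_eq_zero_iff]
      exact h q
  rw [hL, hR]
  constructor
  · rintro ⟨b, hb⟩ q
    exact ⟨b q, congrFun hb q⟩
  · intro h
    choose b hb using h
    exact ⟨b, funext hb⟩

theorem mem_sha2_iff (x : Formal.H2 (globalBasis S) M) :
    x ∈ (arithSite S).sha2 M ↔ x ∈ LinearMap.ker (locLC₂ S M) := by
  obtain ⟨z, rfl⟩ := Hmid.mk_surjective _ _ x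
  have hz : dC₂ (globalBasis S) M z.1 = 0 := LinearMap.mem_ker.1 z.2
  have hL : (Hmid.mk _ _ z : Formal.H2 (globalBasis S) M) ∈ (arithSite S).sha2 M ↔
      ∃ b : (arithSite S).D₁ M, (arithSite S).e₁ M b = (arithSite S).r₂ M z.1 := by
    have e : (arithSite S).loc₂ M (Hmid.mk _ _ z) =
        Hmid.mk _ _ ⟨(arithSite S).r₂ M z.1, by
          rw [LinearMap.mem_ker]
          have h1 := LinearMap.congr_fun ((arithSite S).r₃_dC₂ M) z.1
          simp only [LinearMap.comp_apply] at h1
          have hz' : dC₂ (arithSite S).𝒰 M z.1 = 0 := hz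
          rw [hz', map_zero] at h1
          exact h1.symm⟩ := rfl
    change (arithSite S).loc₂ M (Hmid.mk _ _ z) = 0 ↔ _
    rw [e, Hmid.mk_eq_zero_iff]
  have hR : (Hmid.mk _ _ z : Formal.H2 (globalBasis S) M) ∈ LinearMap.ker (locLC₂ S M) ↔
      ∀ q : ↥S, ∃ b : ↥(C₁ (localBasis (primeLocalToGlobal q.1))
          (Rep.res (primeLocalToGlobal q.1) M)),
        dC₁ _ _ b = (resMor S M q).c₂ z.1 := by
    rw [LinearMap.mem_ker]
    constructor
    · intro h q
      have hq := congrFun h q
      have e : (resMor S M q).h2 (Hmid.mk _ _ z) =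
          Hmid.mk _ _ ⟨(resMor S M q).c₂ z.1, by
            rw [LinearMap.mem_ker]
            have h1 := LinearMap.congr_fun (resMor S M q).c₃_dC₂ z.1
            simp only [LinearMap.comp_apply] at h1
            rw [← h1, hz, map_zero]⟩ := rfl
      change (resMor S M q).h2 (Hmid.mk _ _ z) = 0 at hq
      rw [e, Hmid.mk_eq_zero_iff] at hq
      exact hq
    · intro h
      funext q
      have e : (resMor S M q).h2 (Hmid.mk _ _ z) =
          Hmid.mk _ _ ⟨(resMor S M q).c₂ z.1, by
            rw [LinearMap.mem_ker]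
            have h1 := LinearMap.congr_fun (resMor S M q).c₃_dC₂ z.1
            simp only [LinearMap.comp_apply] at h1
            rw [← h1, hz, map_zero]⟩ := rfl
      change (resMor S M q).h2 (Hmid.mk _ _ z) = 0
      rw [e, Hmid.mk_eq_zero_iff]
      exact h q
  rw [hL, hR]
  constructor
  · rintro ⟨b, hb⟩ q
    exact ⟨b q, congrFun hb q⟩
  · intro h
    choose b hb using h
    exact ⟨b, funext hb⟩

theorem sha1_eq : (arithSite S).sha1 M = LinearMap.ker (locLC₁ S M) :=
  Submodule.ext (mem_sha1_iff S M)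

theorem sha2_eq : (arithSite S).sha2 M = LinearMap.ker (locLC₂ S M) :=
  Submodule.ext (mem_sha2_iff S M)

end Sha

/-- the base hypotheses for all arithmetic sites. -/
def ArithBase : Prop :=
  ∀ {p : ℕ} [Fact p.Prime], p ≠ 2 → ∀ (S : Finset Nat.Primes), pPrime p ∈ S →
    BaseA (arithSite S) (ZMod p) (cycloChar p)

/-- `LCShaStatement` from the formal main theorem and the arithmetic base. -/
theorem lcShaStatement_of_formalMain (hF : FormalMain) (hB : ArithBase) : LCShaStatement := by
  intro p _ hp2 S hpS M _ hM _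
  obtain ⟨h1, h2, h3⟩ := hF (arithSite S) p (cycloChar p) (hB hp2 S hpS) M inferInstance
    hM.isUSmooth
  have e1 : (arithSite S).sha1 (tw M (cycloChar p)) =
      LinearMap.ker (locLC₁ S (M.dualTwist (cycloChar p))) := sha1_eq S _
  have e2 : (arithSite S).sha2 M = LinearMap.ker (locLC₂ S M) := sha2_eq S M
  rw [e1] at h1 h3
  rw [e2] at h2 h3
  exact ⟨h1, h2, h3⟩

/-- **Frozen S55 from `FormalMain` and the arithmetic base.** -/
theorem result_of_formalMain (hF : FormalMain) (hB : ArithBase)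
    {p : ℕ} [Fact p.Prime] (hp2 : p ≠ 2) (S : Finset Nat.Primes) (hpS : pPrime p ∈ S)
    (M : Rep (ZMod p) (AlgebraicClosure ℚ ≃ₐ[ℚ] AlgebraicClosure ℚ))
    [FiniteDimensional (ZMod p) M]
    (hsm : ∀ m : M, ∃ F : IntermediateField ℚ (AlgebraicClosure ℚ), FiniteDimensional ℚ F ∧
      ∀ s ∈ F.fixingSubgroup, M.ρ s m = m)
    (hMur : ∀ q : Nat.Primes, q ∉ S → ∀ A : ValuationSubring (AlgebraicClosure ℚ),
      A.LiesOverPrime (q : ℕ) → ∀ g ∈ A.inertiaSubgroupIn ℚ, M.ρ g = 1) :
    ∃ B : sha₁ S (M.dualTwist (cycloChar p)) →ₗ[ZMod p] sha₂ S M →ₗ[ZMod p] ZMod p,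
      (∀ y, (∀ x, B y x = 0) → y = 0) ∧ (∀ x, (∀ y, B y x = 0) → x = 0) :=
  result_of_LC (lcShaStatement_of_formalMain hF hB) hp2 S hpS M hsm hMur

end Fermat.Agent.S55.Formal.ArithSite
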