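/-
S55 / Formal / ArithChi (helper32): the field `chi_smooth` of `BaseA (arithSite S) 𝔽_p χ_p`, and
small facts about the arithmetic site used by the provers of `ArithBase`.
-/
import Fermat.Agent.S55.Formal.ArithSite

set_option autoImplicit false

open CategoryTheory Module groupCohomology ExtCitation

namespace Fermat.Agent.S55.Formal.ArithChi

open Fermat.Agent.S55.Formal Fermat.Agent.S55.Formal.PreludeLC Fermat.Agent.S55.Formal.ArithSite
open Fermat.Agent.S55.GaloisLevelCyclo Fermat.Agent.S55.GaloisLevel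

variable {p : ℕ} [Fact p.Prime] {S : Finset Nat.Primes}

/-- The cyclotomic character mod `p` is trivial on a basic open subgroup of the arithmetic site
(`p ∈ S`). -/
theorem chi_smooth (hpS : pPrime p ∈ S) :
    ∃ U, (arithSite S).𝒰.mem U ∧ TrivOn (cycloChar p) U := by
  obtain ⟨U, hU, hle⟩ := exists_mem_globalBasis_le S (cycloField_isUnramifiedOutside (p := p) hpS)
  exact ⟨U, hU, fun s hs => (mem_fixingSubgroup_cycloField_iff (p := p) s).1 (hle hs)⟩

/-- openness for the arithmetic site, unfolded. -/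
theorem isOpen_iff (P : Subgroup GQ) :
    (arithSite S).𝒰.IsOpen P ↔ ∃ F : IntermediateField ℚ Qbar, F.IsUnramifiedOutside S ∧
      F.fixingSubgroup ≤ P := by
  constructor
  · rintro ⟨U, ⟨F, hF, _, rfl⟩, hle⟩
    exact ⟨F, hF, hle⟩
  · rintro ⟨F, hF, hle⟩
    obtain ⟨U, hU, hUle⟩ := exists_mem_globalBasis_le S hF
    exact ⟨U, hU, hUle.trans hle⟩

/-- local openness for the arithmetic site, unfolded. -/
theorem isOpen_loc_iff (q : ↥S) (P : Subgroup (primeLocalGaloisGroup q.1)) :
    ((arithSite S).𝒱 q).IsOpen P ↔ ∃ F : IntermediateField ℚ Qbar, FiniteDimensional ℚ F ∧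
      F.fixingSubgroup.comap (primeLocalToGlobal q.1) ≤ P := by
  constructor
  · rintro ⟨U, ⟨F, hF, _, rfl⟩, hle⟩
    exact ⟨F, hF, hle⟩
  · rintro ⟨F, hF, hle⟩
    haveI := hF
    obtain ⟨U, hU, hUle⟩ := exists_mem_localBasis_le (primeLocalToGlobal q.1) F
    exact ⟨U, hU, hUle.trans hle⟩

end Fermat.Agent.S55.Formal.ArithChi
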