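/-
S55 / Formal — mapping-cone long exact sequence on a *window* of explicit linear maps
(helper18).  Mathlib only, interface-independent.

`Hmid f g := ker g ⧸ range f` is the middle cohomology of `A -f-> B -g-> C`.
For two complexes `C0 → C1 → C2 → C3`, `D0 → D1 → D2 → D3` and a chain map `r`, the cone pieces
are `K_(i+1) := C_(i+1) × D_i` with differential `(a, b) ↦ (c a, r a - e b)`; we construct

  `H(c0,c1) -rH-> H(e0,e1) -ι-> H(k1,k2) -π-> H(c1,c2) -rH-> H(e1,e2)`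

and prove exactness at the three middle spots.  The consumer instantiates the window at any
consecutive degrees (at the degree-0 end: `C0 = D0 = PUnit`).
-/
import Mathlib
import Fermat.Agent.S55.Formal.Hmid

set_option autoImplicit false

namespace Fermat.Agent.S55.Formal.ConeWindow

open LinearMap Fermat.Agent.S55.Formal

variable {k : Type*} [CommRing k]

/-! ### Complement to `Formal/Hmid.lean` -/

section Hmid

variable {A B C : Type*} [AddCommGroup A] [Module k A] [AddCommGroup B] [Module k B]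
  [AddCommGroup C] [Module k C]

/-- With zero incoming map, `Hmid` is just the kernel (the degree-0 end of a window). -/
def equivKerOfZero (g : B →ₗ[k] C) : Hmid (0 : A →ₗ[k] B) g ≃ₗ[k] ↥(LinearMap.ker g) :=
  Submodule.quotEquivOfEqBot _ (by
    rw [eq_bot_iff]
    rintro x ⟨a, ha⟩
    simp only [LinearMap.zero_apply, Submodule.subtype_apply] at ha
    rw [Submodule.mem_bot]
    exact Subtype.ext ha.symm)

theorem equivKerOfZero_of (g : B →ₗ[k] C) (b : B) (hb : g b = 0) :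
    ((equivKerOfZero (A := A) g (Hmid.of b hb) : ↥(LinearMap.ker g)) : B) = b := by
  have : (equivKerOfZero (A := A) g).symm ⟨b, LinearMap.mem_ker.mpr hb⟩ = Hmid.of b hb := rfl
  rw [← this, LinearEquiv.apply_symm_apply]

/-- Two linear maps out of `Hmid f g` agree if they agree on the classes of all cocycles. -/
theorem hom_ext {f : A →ₗ[k] B} {g : B →ₗ[k] C} {X : Type*} [AddCommGroup X] [Module k X]
    (φ ψ : Hmid f g →ₗ[k] X)
    (h : ∀ (b : B) (hb : g b = 0), φ (Hmid.of b hb) = ψ (Hmid.of b hb)) : φ = ψ := by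
  apply LinearMap.ext
  intro x
  obtain ⟨b, hb, rfl⟩ := Hmid.exists_of x
  exact h b hb

end Hmid

/-! ### The cone differential -/

section Cone

variable {C C' D0 D : Type*} [AddCommGroup C] [Module k C] [AddCommGroup C'] [Module k C']
  [AddCommGroup D0] [Module k D0] [AddCommGroup D] [Module k D]

/-- The cone differential `(a, b) ↦ (c a, r a - e b)` from `C × D0` to `C' × D`. -/
def coneD (c : C →ₗ[k] C') (r : C →ₗ[k] D) (e : D0 →ₗ[k] D) : (C × D0) →ₗ[k] (C' × D) :=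
  (c ∘ₗ LinearMap.fst k C D0).prod (r ∘ₗ LinearMap.fst k C D0 - e ∘ₗ LinearMap.snd k C D0)

@[simp] theorem coneD_apply (c : C →ₗ[k] C') (r : C →ₗ[k] D) (e : D0 →ₗ[k] D) (x : C × D0) :
    coneD c r e x = (c x.1, r x.1 - e x.2) := rfl

end Cone

/-! ### The window -/

section Window

variable {C0 C1 C2 C3 D0 D1 D2 D3 : Type*}
  [AddCommGroup C0] [Module k C0] [AddCommGroup C1] [Module k C1]
  [AddCommGroup C2] [Module k C2] [AddCommGroup C3] [Module k C3]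
  [AddCommGroup D0] [Module k D0] [AddCommGroup D1] [Module k D1]
  [AddCommGroup D2] [Module k D2] [AddCommGroup D3] [Module k D3]

/-- `coneD ∘ coneD = 0` on a window. -/
theorem coneD_comp_coneD (c1 : C1 →ₗ[k] C2) (c2 : C2 →ₗ[k] C3) (e0 : D0 →ₗ[k] D1)
    (e1 : D1 →ₗ[k] D2) (r1 : C1 →ₗ[k] D1) (r2 : C2 →ₗ[k] D2)
    (hc : c2 ∘ₗ c1 = 0) (he : e1 ∘ₗ e0 = 0) (hr : r2 ∘ₗ c1 = e1 ∘ₗ r1) :
    coneD c2 r2 e1 ∘ₗ coneD c1 r1 e0 = 0 := by
  refine LinearMap.ext fun x => ?_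
  have h0 := LinearMap.congr_fun hc x.1
  have h1 := LinearMap.congr_fun hr x.1
  have h2 := LinearMap.congr_fun he x.2
  simp only [LinearMap.comp_apply, LinearMap.zero_apply] at h0 h1 h2
  simp only [LinearMap.comp_apply, coneD_apply, LinearMap.zero_apply]
  refine Prod.ext ?_ ?_
  · simpa using h0
  · simp only [map_sub, h1, h2, sub_zero, sub_self, Prod.snd_zero]

variable (c0 : C0 →ₗ[k] C1) (c1 : C1 →ₗ[k] C2) (c2 : C2 →ₗ[k] C3)
  (e0 : D0 →ₗ[k] D1) (e1 : D1 →ₗ[k] D2) (e2 : D2 →ₗ[k] D3)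
  (r0 : C0 →ₗ[k] D0) (r1 : C1 →ₗ[k] D1) (r2 : C2 →ₗ[k] D2) (r3 : C3 →ₗ[k] D3)

/-- The map `H^n(C) → H^n(D)` induced by the chain map. -/
def resH (hr0 : r1 ∘ₗ c0 = e0 ∘ₗ r0) (hr1 : r2 ∘ₗ c1 = e1 ∘ₗ r1) :
    Hmid c0 c1 →ₗ[k] Hmid e0 e1 :=
  Hmid.mapOfComm r0 r1 r2 hr0 hr1

/-- The map `H^n(D) → H^{n+1}(Cone)`, `[b] ↦ [(0, b)]`. -/
def iotaH : Hmid e0 e1 →ₗ[k] Hmid (coneD c1 r1 e0) (coneD c2 r2 e1) :=
  Hmid.mapOfComm (-(LinearMap.inr k C1 D0)) (LinearMap.inr k C2 D1) (-(LinearMap.inr k C3 D2))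
    (by ext x <;> simp) (by ext x <;> simp)

/-- The map `H^{n+1}(Cone) → H^{n+1}(C)`, `[(a, b)] ↦ [a]`. -/
def piH : Hmid (coneD c1 r1 e0) (coneD c2 r2 e1) →ₗ[k] Hmid c1 c2 :=
  Hmid.mapOfComm (LinearMap.fst k C1 D0) (LinearMap.fst k C2 D1) (LinearMap.fst k C3 D2)
    (by ext x <;> simp) (by ext x <;> simp)

theorem resH_of (hr0 : r1 ∘ₗ c0 = e0 ∘ₗ r0) (hr1 : r2 ∘ₗ c1 = e1 ∘ₗ r1) (a : C1)
    (ha : c1 a = 0) (ha' : e1 (r1 a) = 0) :
    resH c0 c1 e0 e1 r0 r1 r2 hr0 hr1 (Hmid.of a ha) = Hmid.of (r1 a) ha' := rfl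

theorem iotaH_of (b : D1) (hb : e1 b = 0) (hb' : coneD c2 r2 e1 ((0 : C2), b) = 0) :
    iotaH c1 c2 e0 e1 r1 r2 (Hmid.of b hb) =
      (Hmid.of ((0 : C2), b) hb' : Hmid (coneD c1 r1 e0) (coneD c2 r2 e1)) := rfl

theorem piH_of (x : C2 × D1) (hx : coneD c2 r2 e1 x = 0) (hx' : c2 x.1 = 0) :
    piH c1 c2 e0 e1 r1 r2 (Hmid.of x hx : Hmid (coneD c1 r1 e0) (coneD c2 r2 e1)) =
      Hmid.of x.1 hx' := rfl

/-- Exactness at `H^n(D)`:  `H^n(C) → H^n(D) → H^{n+1}(Cone)`. -/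
theorem exact_resH_iotaH (hr0 : r1 ∘ₗ c0 = e0 ∘ₗ r0) (hr1 : r2 ∘ₗ c1 = e1 ∘ₗ r1) :
    Function.Exact (resH c0 c1 e0 e1 r0 r1 r2 hr0 hr1) (iotaH c1 c2 e0 e1 r1 r2) := by
  intro y
  obtain ⟨b, hb, rfl⟩ := Hmid.exists_of y
  have hb0 : coneD c2 r2 e1 ((0 : C2), b) = 0 := by simp [hb]
  rw [iotaH_of c1 c2 e0 e1 r1 r2 b hb hb0, Hmid.of_eq_zero_iff]
  constructor
  · rintro ⟨⟨a', b'⟩, h⟩
    simp only [coneD_apply, Prod.mk.injEq] at h
    obtain ⟨h1, h2⟩ := h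
    have hra : e1 (r1 a') = 0 := by
      have := LinearMap.congr_fun hr1 a'
      simp only [LinearMap.comp_apply] at this
      rw [← this, h1, map_zero]
    refine ⟨Hmid.of a' h1, ?_⟩
    rw [resH_of c0 c1 e0 e1 r0 r1 r2 hr0 hr1 a' h1 hra, Hmid.of_eq_of_iff]
    exact ⟨b', by rw [← h2]; abel⟩
  · rintro ⟨x, hx⟩
    obtain ⟨a', ha', rfl⟩ := Hmid.exists_of x
    have hra : e1 (r1 a') = 0 := by
      have := LinearMap.congr_fun hr1 a'
      simp only [LinearMap.comp_apply] at this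
      rw [← this, ha', map_zero]
    rw [resH_of c0 c1 e0 e1 r0 r1 r2 hr0 hr1 a' ha' hra, Hmid.of_eq_of_iff] at hx
    obtain ⟨b', hb'⟩ := hx
    refine ⟨(a', b'), ?_⟩
    simp only [coneD_apply, ha', Prod.mk.injEq, true_and]
    rw [hb']; abel

/-- Exactness at `H^{n+1}(Cone)`:  `H^n(D) → H^{n+1}(Cone) → H^{n+1}(C)`. -/
theorem exact_iotaH_piH (hr1 : r2 ∘ₗ c1 = e1 ∘ₗ r1) :
    Function.Exact (iotaH c1 c2 e0 e1 r1 r2) (piH c1 c2 e0 e1 r1 r2) := by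
  intro y
  obtain ⟨⟨a, b⟩, hx, rfl⟩ := Hmid.exists_of y
  have hx' := hx
  simp only [coneD_apply, Prod.mk_eq_zero] at hx'
  obtain ⟨hx1, hx2⟩ := hx'
  rw [piH_of c1 c2 e0 e1 r1 r2 (a, b) hx hx1, Hmid.of_eq_zero_iff]
  constructor
  · rintro ⟨a', ha'⟩
    simp only at ha'
    have hr := LinearMap.congr_fun hr1 a'
    simp only [LinearMap.comp_apply] at hr
    have hb : e1 (b - r1 a') = 0 := by
      rw [map_sub, ← hr, ha', ← sub_eq_zero.mp hx2, sub_self]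
    have hb0 : coneD c2 r2 e1 ((0 : C2), b - r1 a') = 0 := by simp [hb]
    refine ⟨Hmid.of (b - r1 a') hb, ?_⟩
    rw [iotaH_of c1 c2 e0 e1 r1 r2 _ hb hb0, Hmid.of_eq_of_iff]
    refine ⟨(-a', 0), ?_⟩
    simp only [coneD_apply, map_neg, map_zero, sub_zero, Prod.mk_sub_mk, zero_sub,
      Prod.mk.injEq]
    exact ⟨by rw [ha'], by abel⟩
  · rintro ⟨x, hx⟩
    obtain ⟨b', hb', rfl⟩ := Hmid.exists_of x
    have hb0 : coneD c2 r2 e1 ((0 : C2), b') = 0 := by simp [hb']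
    rw [iotaH_of c1 c2 e0 e1 r1 r2 b' hb' hb0, Hmid.of_eq_of_iff] at hx
    obtain ⟨⟨a'', b''⟩, h⟩ := hx
    simp only [coneD_apply, Prod.mk_sub_mk, Prod.mk.injEq] at h
    exact ⟨-a'', by simp only [map_neg]; rw [h.1]; abel⟩

/-- Exactness at `H^{n+1}(C)`:  `H^{n+1}(Cone) → H^{n+1}(C) → H^{n+1}(D)`. -/
theorem exact_piH_resH (hr1 : r2 ∘ₗ c1 = e1 ∘ₗ r1) (hr2 : r3 ∘ₗ c2 = e2 ∘ₗ r2) :
    Function.Exact (piH c1 c2 e0 e1 r1 r2) (resH c1 c2 e1 e2 r1 r2 r3 hr1 hr2) := by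
  intro y
  obtain ⟨a, ha, rfl⟩ := Hmid.exists_of y
  have hra : e2 (r2 a) = 0 := by
    have := LinearMap.congr_fun hr2 a
    simp only [LinearMap.comp_apply] at this
    rw [← this, ha, map_zero]
  rw [resH_of c1 c2 e1 e2 r1 r2 r3 hr1 hr2 a ha hra, Hmid.of_eq_zero_iff]
  constructor
  · rintro ⟨b, hb⟩
    have hx : coneD c2 r2 e1 (a, b) = 0 := by
      simp only [coneD_apply, ha, hb, sub_self, Prod.mk_eq_zero, and_self]
    exact ⟨Hmid.of (a, b) hx, piH_of c1 c2 e0 e1 r1 r2 (a, b) hx ha⟩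
  · rintro ⟨x, hx⟩
    obtain ⟨⟨a', b'⟩, hx', rfl⟩ := Hmid.exists_of x
    have hx'' := hx'
    simp only [coneD_apply, Prod.mk_eq_zero] at hx''
    rw [piH_of c1 c2 e0 e1 r1 r2 (a', b') hx' hx''.1, Hmid.of_eq_of_iff] at hx
    obtain ⟨a'', h⟩ := hx
    simp only at h
    have hr := LinearMap.congr_fun hr1 a''
    simp only [LinearMap.comp_apply] at hr
    refine ⟨b' - r1 a'', ?_⟩
    have : a = a' - c1 a'' := by rw [h]; abel
    rw [map_sub, ← hr, this, map_sub, sub_eq_zero.mp hx''.2]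

end Window

end Fermat.Agent.S55.Formal.ConeWindow
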