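/-
S55 / Formal end (sub-architect helper76): the SITE (a global group with finitely many local groups)
and its compactly supported cohomology, by instantiating `ConeWindow` with the LC cochains of `LC`.

`X : Site` : global group `X.G` with basis `X.𝒰`, finite index type `X.I` of places, local groups
`X.Γ v` with bases `X.𝒱 v` and continuous homomorphisms `X.ι v : X.Γ v →* X.G`.

For `M : Rep k X.G`:
* `X.loc v M := Rep.res (X.ι v) M`, `X.res v M : Mor X.𝒰 M (X.𝒱 v) (X.loc v M)`;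
* local product complex `D₀ → D₁ → D₂ → D₃ → D₄` (`D_i = Π_v C_i(Γ_v, M)`), differentials `e₀..e₃`,
  restriction chain map `r₀..r₃ : C_i(G, M) → D_i`;
* `P1 P2 P3` : cohomology of the product complex (`= Π_v H^i(Γ_v, M)`, see `P?equiv`);
* cone differentials `k₁ : C₁ × D₀ → C₂ × D₁`, `k₂ : C₂ × D₁ → C₃ × D₂`, `k₃ : C₃ × D₂ → C₄ × D₃`,
  `k (a, b) = (d a, res a - d b)`;  `H2c := Hmid k₁ k₂`, `H3c := Hmid k₂ k₃`;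
* the exact sequence  `H1 -loc₁→ P1 -ι₂→ H2c -π₂→ H2 -loc₂→ P2 -ι₃→ H3c -π₃→ H3 -loc₃→ P3`;
* `sha1 := ker loc₁`, `sha2 := ker loc₂`.
-/
import Fermat.Agent.S55.Formal.LC
import Fermat.Agent.S55.Formal.ConeWindow

set_option autoImplicit false

open CategoryTheory groupCohomology

namespace Fermat.Agent.S55.Formal

/-- A global group with finitely many local groups mapping to it. -/
structure Site where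
  /-- the global group -/
  G : Type
  [grp : Group G]
  /-- its basis of open normal subgroups -/
  𝒰 : NBasis G
  /-- the (finite) set of places -/
  I : Type
  [fin : Fintype I]
  [dec : DecidableEq I]
  /-- the local groups -/
  Γ : I → Type
  [grpΓ : ∀ v, Group (Γ v)]
  /-- their bases -/
  𝒱 : ∀ v, NBasis (Γ v)
  /-- the localisation homomorphisms -/
  ι : ∀ v, Γ v →* G
  cont : ∀ v, IsCont 𝒰 (𝒱 v) (ι v)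

attribute [instance] Site.grp Site.fin Site.dec Site.grpΓ

namespace Site

variable {k : Type} [CommRing k] (X : Site) (M : Rep.{0, 0, 0} k X.G)

/-- the restriction of `M` to the local group at `v` -/
abbrev loc (v : X.I) : Rep.{0, 0, 0} k (X.Γ v) := Rep.res (X.ι v) M

/-- restriction to the local group at `v`, as a morphism of situations -/
def res (v : X.I) : Mor X.𝒰 M (X.𝒱 v) (X.loc M v) := Mor.res X.𝒰 (X.𝒱 v) (X.ι v) (X.cont v) M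

/-! ### the local product complex -/

/-- `Π_v C⁰(Γ_v, M)` -/
abbrev D₀ : Type := ∀ v : X.I, ↥(C₀ (X.𝒱 v) (X.loc M v))
/-- `Π_v C¹(Γ_v, M)` -/
abbrev D₁ : Type := ∀ v : X.I, ↥(C₁ (X.𝒱 v) (X.loc M v))
/-- `Π_v C²(Γ_v, M)` -/
abbrev D₂ : Type := ∀ v : X.I, ↥(C₂ (X.𝒱 v) (X.loc M v))
/-- `Π_v C³(Γ_v, M)` -/
abbrev D₃ : Type := ∀ v : X.I, ↥(C₃ (X.𝒱 v) (X.loc M v))
/-- `Π_v Fun(Γ_v⁴, M)` -/
abbrev D₄ : Type := ∀ v : X.I, (X.Γ v × X.Γ v × X.Γ v × X.Γ v → X.loc M v)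

/-- local differential -/
def e₀ : X.D₀ M →ₗ[k] X.D₁ M := LinearMap.pi fun v => dC₀ (X.𝒱 v) (X.loc M v) ∘ₗ LinearMap.proj v
/-- local differential -/
def e₁ : X.D₁ M →ₗ[k] X.D₂ M := LinearMap.pi fun v => dC₁ (X.𝒱 v) (X.loc M v) ∘ₗ LinearMap.proj v
/-- local differential -/
def e₂ : X.D₂ M →ₗ[k] X.D₃ M := LinearMap.pi fun v => dC₂ (X.𝒱 v) (X.loc M v) ∘ₗ LinearMap.proj v
/-- local differential -/
def e₃ : X.D₃ M →ₗ[k] X.D₄ M := LinearMap.pi fun v => dC₃ (X.𝒱 v) (X.loc M v) ∘ₗ LinearMap.proj v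

@[simp] lemma e₀_apply (b : X.D₀ M) (v : X.I) : X.e₀ M b v = dC₀ (X.𝒱 v) (X.loc M v) (b v) := rfl
@[simp] lemma e₁_apply (b : X.D₁ M) (v : X.I) : X.e₁ M b v = dC₁ (X.𝒱 v) (X.loc M v) (b v) := rfl
@[simp] lemma e₂_apply (b : X.D₂ M) (v : X.I) : X.e₂ M b v = dC₂ (X.𝒱 v) (X.loc M v) (b v) := rfl
@[simp] lemma e₃_apply (b : X.D₃ M) (v : X.I) : X.e₃ M b v = dC₃ (X.𝒱 v) (X.loc M v) (b v) := rfl

/-- restriction chain map -/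
def r₀ : ↥(C₀ X.𝒰 M) →ₗ[k] X.D₀ M := LinearMap.pi fun v => (X.res M v).c₀
/-- restriction chain map -/
def r₁ : ↥(C₁ X.𝒰 M) →ₗ[k] X.D₁ M := LinearMap.pi fun v => (X.res M v).c₁
/-- restriction chain map -/
def r₂ : ↥(C₂ X.𝒰 M) →ₗ[k] X.D₂ M := LinearMap.pi fun v => (X.res M v).c₂
/-- restriction chain map -/
def r₃ : ↥(C₃ X.𝒰 M) →ₗ[k] X.D₃ M := LinearMap.pi fun v => (X.res M v).c₃
/-- restriction chain map -/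
def r₄ : (X.G × X.G × X.G × X.G → M) →ₗ[k] X.D₄ M := LinearMap.pi fun v => (X.res M v).p₄

@[simp] lemma r₀_apply (a : ↥(C₀ X.𝒰 M)) (v : X.I) : X.r₀ M a v = (X.res M v).c₀ a := rfl
@[simp] lemma r₁_apply (a : ↥(C₁ X.𝒰 M)) (v : X.I) : X.r₁ M a v = (X.res M v).c₁ a := rfl
@[simp] lemma r₂_apply (a : ↥(C₂ X.𝒰 M)) (v : X.I) : X.r₂ M a v = (X.res M v).c₂ a := rfl
@[simp] lemma r₃_apply (a : ↥(C₃ X.𝒰 M)) (v : X.I) : X.r₃ M a v = (X.res M v).c₃ a := rfl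

lemma e₁_e₀ : X.e₁ M ∘ₗ X.e₀ M = 0 := by
  refine LinearMap.ext fun b => funext fun v => ?_
  simp only [LinearMap.comp_apply, e₁_apply, e₀_apply, dC₁_dC₀, LinearMap.zero_apply, Pi.zero_apply]

lemma e₂_e₁ : X.e₂ M ∘ₗ X.e₁ M = 0 := by
  refine LinearMap.ext fun b => funext fun v => ?_
  simp only [LinearMap.comp_apply, e₂_apply, e₁_apply, dC₂_dC₁, LinearMap.zero_apply, Pi.zero_apply]

lemma e₃_e₂ : X.e₃ M ∘ₗ X.e₂ M = 0 := by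
  refine LinearMap.ext fun b => funext fun v => ?_
  simp only [LinearMap.comp_apply, e₃_apply, e₂_apply, dC₃_dC₂, LinearMap.zero_apply, Pi.zero_apply]

lemma r₁_dC₀ : X.r₁ M ∘ₗ dC₀ X.𝒰 M = X.e₀ M ∘ₗ X.r₀ M := by
  refine LinearMap.ext fun a => funext fun v => ?_
  exact LinearMap.congr_fun (X.res M v).c₁_dC₀ a

lemma r₂_dC₁ : X.r₂ M ∘ₗ dC₁ X.𝒰 M = X.e₁ M ∘ₗ X.r₁ M := by
  refine LinearMap.ext fun a => funext fun v => ?_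
  exact LinearMap.congr_fun (X.res M v).c₂_dC₁ a

lemma r₃_dC₂ : X.r₃ M ∘ₗ dC₂ X.𝒰 M = X.e₂ M ∘ₗ X.r₂ M := by
  refine LinearMap.ext fun a => funext fun v => ?_
  exact LinearMap.congr_fun (X.res M v).c₃_dC₂ a

lemma r₄_dC₃ : X.r₄ M ∘ₗ dC₃ X.𝒰 M = X.e₃ M ∘ₗ X.r₃ M := by
  refine LinearMap.ext fun a => funext fun v => ?_
  exact LinearMap.congr_fun (X.res M v).p₄_dC₃ a

/-! ### local cohomology (of the product complex) -/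

/-- `Π_v H¹(Γ_v, M)` as the cohomology of the product complex -/
abbrev P1 : Type := Hmid (X.e₀ M) (X.e₁ M)
/-- `Π_v H²(Γ_v, M)` as the cohomology of the product complex -/
abbrev P2 : Type := Hmid (X.e₁ M) (X.e₂ M)
/-- `Π_v H³(Γ_v, M)` as the cohomology of the product complex -/
abbrev P3 : Type := Hmid (X.e₂ M) (X.e₃ M)

/-! ### the cone -/

/-- cone differential `C¹ × D⁰ → C² × D¹`, `(a, b) ↦ (d a, res a - d b)` -/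
def k₁ : (↥(C₁ X.𝒰 M) × X.D₀ M) →ₗ[k] (↥(C₂ X.𝒰 M) × X.D₁ M) :=
  ConeWindow.coneD (dC₁ X.𝒰 M) (X.r₁ M) (X.e₀ M)
/-- cone differential `C² × D¹ → C³ × D²` -/
def k₂ : (↥(C₂ X.𝒰 M) × X.D₁ M) →ₗ[k] (↥(C₃ X.𝒰 M) × X.D₂ M) :=
  ConeWindow.coneD (dC₂ X.𝒰 M) (X.r₂ M) (X.e₁ M)
/-- cone differential `C³ × D² → C⁴ × D³` -/
def k₃ : (↥(C₃ X.𝒰 M) × X.D₂ M) →ₗ[k] ((X.G × X.G × X.G × X.G → M) × X.D₃ M) :=
  ConeWindow.coneD (dC₃ X.𝒰 M) (X.r₃ M) (X.e₂ M)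

@[simp] lemma k₁_apply (x : ↥(C₁ X.𝒰 M) × X.D₀ M) :
    X.k₁ M x = (dC₁ X.𝒰 M x.1, X.r₁ M x.1 - X.e₀ M x.2) := rfl
@[simp] lemma k₂_apply (x : ↥(C₂ X.𝒰 M) × X.D₁ M) :
    X.k₂ M x = (dC₂ X.𝒰 M x.1, X.r₂ M x.1 - X.e₁ M x.2) := rfl
@[simp] lemma k₃_apply (x : ↥(C₃ X.𝒰 M) × X.D₂ M) :
    X.k₃ M x = (dC₃ X.𝒰 M x.1, X.r₃ M x.1 - X.e₂ M x.2) := rfl

/-- compactly supported `H²` -/
abbrev H2c : Type := Hmid (X.k₁ M) (X.k₂ M)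
/-- compactly supported `H³` -/
abbrev H3c : Type := Hmid (X.k₂ M) (X.k₃ M)

/-! ### the long exact sequence of the cone -/

/-- `H¹(G, M) → Π_v H¹(Γ_v, M)` -/
def loc₁ : H1 X.𝒰 M →ₗ[k] X.P1 M :=
  ConeWindow.resH (dC₀ X.𝒰 M) (dC₁ X.𝒰 M) (X.e₀ M) (X.e₁ M) (X.r₀ M) (X.r₁ M) (X.r₂ M)
    (X.r₁_dC₀ M) (X.r₂_dC₁ M)
/-- `H²(G, M) → Π_v H²(Γ_v, M)` -/
def loc₂ : H2 X.𝒰 M →ₗ[k] X.P2 M :=
  ConeWindow.resH (dC₁ X.𝒰 M) (dC₂ X.𝒰 M) (X.e₁ M) (X.e₂ M) (X.r₁ M) (X.r₂ M) (X.r₃ M)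
    (X.r₂_dC₁ M) (X.r₃_dC₂ M)
/-- `H³(G, M) → Π_v H³(Γ_v, M)` -/
def loc₃ : H3 X.𝒰 M →ₗ[k] X.P3 M :=
  ConeWindow.resH (dC₂ X.𝒰 M) (dC₃ X.𝒰 M) (X.e₂ M) (X.e₃ M) (X.r₂ M) (X.r₃ M) (X.r₄ M)
    (X.r₃_dC₂ M) (X.r₄_dC₃ M)
/-- `Π_v H¹(Γ_v, M) → H²_c(M)`, `[b] ↦ [(0, b)]` -/
def ι₂ : X.P1 M →ₗ[k] X.H2c M :=
  ConeWindow.iotaH (dC₁ X.𝒰 M) (dC₂ X.𝒰 M) (X.e₀ M) (X.e₁ M) (X.r₁ M) (X.r₂ M)
/-- `H²_c(M) → H²(G, M)`, `[(a, b)] ↦ [a]` -/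
def π₂ : X.H2c M →ₗ[k] H2 X.𝒰 M :=
  ConeWindow.piH (dC₁ X.𝒰 M) (dC₂ X.𝒰 M) (X.e₀ M) (X.e₁ M) (X.r₁ M) (X.r₂ M)
/-- `Π_v H²(Γ_v, M) → H³_c(M)` -/
def ι₃ : X.P2 M →ₗ[k] X.H3c M :=
  ConeWindow.iotaH (dC₂ X.𝒰 M) (dC₃ X.𝒰 M) (X.e₁ M) (X.e₂ M) (X.r₂ M) (X.r₃ M)
/-- `H³_c(M) → H³(G, M)` -/
def π₃ : X.H3c M →ₗ[k] H3 X.𝒰 M :=
  ConeWindow.piH (dC₂ X.𝒰 M) (dC₃ X.𝒰 M) (X.e₁ M) (X.e₂ M) (X.r₂ M) (X.r₃ M)

theorem exact_loc₁_ι₂ : Function.Exact (X.loc₁ M) (X.ι₂ M) :=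
  ConeWindow.exact_resH_iotaH _ _ _ _ _ _ _ _ _ _
theorem exact_ι₂_π₂ : Function.Exact (X.ι₂ M) (X.π₂ M) :=
  ConeWindow.exact_iotaH_piH _ _ _ _ _ _ (X.r₂_dC₁ M)
theorem exact_π₂_loc₂ : Function.Exact (X.π₂ M) (X.loc₂ M) :=
  ConeWindow.exact_piH_resH _ _ _ _ _ _ _ _ (X.r₂_dC₁ M) (X.r₃_dC₂ M)
theorem exact_loc₂_ι₃ : Function.Exact (X.loc₂ M) (X.ι₃ M) :=
  ConeWindow.exact_resH_iotaH _ _ _ _ _ _ _ _ _ _
theorem exact_ι₃_π₃ : Function.Exact (X.ι₃ M) (X.π₃ M) :=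
  ConeWindow.exact_iotaH_piH _ _ _ _ _ _ (X.r₃_dC₂ M)
theorem exact_π₃_loc₃ : Function.Exact (X.π₃ M) (X.loc₃ M) :=
  ConeWindow.exact_piH_resH _ _ _ _ _ _ _ _ (X.r₃_dC₂ M) (X.r₄_dC₃ M)

/-- `Ш¹` -/
def sha1 : Submodule k (H1 X.𝒰 M) := LinearMap.ker (X.loc₁ M)
/-- `Ш²` -/
def sha2 : Submodule k (H2 X.𝒰 M) := LinearMap.ker (X.loc₂ M)

/-- If `H³(G, M) = 0` then `Π_v H²(Γ_v, M) → H³_c(M)` is onto. -/
theorem ι₃_surjective (h : Vanish₃ X.𝒰 M) : Function.Surjective (X.ι₃ M) := by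
  intro x
  have hx : X.π₃ M x = 0 := by
    obtain ⟨f, hf, hfe⟩ := Hmid.exists_of (X.π₃ M x)
    rw [hfe, Hmid.of_eq_zero_iff]
    exact h f hf
  exact (X.exact_ι₃_π₃ M x).mp hx

end Site

end Fermat.Agent.S55.Formal
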