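/-
S55 / Formal end (sub-architect helper76): the CLOSED PROPS of the formal end.

* `perm P` : the permutation module `k[G/P]`; `mu χ` : the one-dimensional representation `k(χ)`.
* `BaseA X k χ` : the NUMERICAL base hypotheses, stated in the LC language of `LC`/`Site` for the
  permutation modules only (this is what Middle/Global/Local must deliver for the arithmetic site).
* `FormalMain` : `BaseA ⇒ dim Ш¹(M') = dim Ш²(M)` (both finite) for every finite-dimensional
  uniformly smooth `M` — the theorem the formal end proves.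
* intermediate closed Props (`Vanish₃All`, `FinAll`) used to cut the proof into rows.
-/
import Fermat.Agent.S55.Formal.Site
import Fermat.Prelude.Def_GroupCohomology_Selmer

set_option autoImplicit false

open CategoryTheory groupCohomology Module

namespace Fermat.Agent.S55.Formal

variable {k : Type} [Field k] {G : Type} [Group G]

/-- the permutation module `k[G/P]` -/
noncomputable abbrev perm (k : Type) [Field k] {G : Type} [Group G] (P : Subgroup G) :
    Rep.{0, 0, 0} k G :=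
  Rep.ofMulAction k G (G ⧸ P)

/-- the one-dimensional representation `k(χ)` (the Prelude's twist of the trivial representation) -/
noncomputable abbrev mu (χ : G →* kˣ) : Rep.{0, 0, 0} k G := (Rep.trivial k G k).twist χ

/-- the `χ`-twisted dual `M' = Hom(M, k(χ))` (the Prelude's `dualTwist`) -/
noncomputable abbrev tw (M : Rep.{0, 0, 0} k G) (χ : G →* kˣ) : Rep.{0, 0, 0} k G := M.dualTwist χ

/-- `P` is open for the basis `𝒰`. -/
def NBasis.IsOpen (𝒰 : NBasis G) (P : Subgroup G) : Prop := ∃ U, 𝒰.mem U ∧ U ≤ P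

/-- `χ` is trivial on `U`. -/
def TrivOn (χ : G →* kˣ) (U : Subgroup G) : Prop := ∀ s ∈ U, χ s = 1

/-- **The numerical base** (everything the formal end consumes from class field theory), for a site
`X`, a coefficient field `k` and a character `χ` (for the arithmetic site: `k = 𝔽_p`, `χ` the mod `p`
cyclotomic character, places `= S`).  Only permutation modules occur. -/
structure BaseA (X : Site) (k : Type) [Field k] (χ : X.G →* kˣ) : Prop where
  /-- there is at least one place -/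
  nonempty : Nonempty X.I
  /-- `χ` is smooth -/
  chi_smooth : ∃ U, X.𝒰.mem U ∧ TrivOn χ U
  /-- (A-inv) nonzero local invariants with global reciprocity on `H²(G, k(χ))` -/
  inv : ∃ inv : ∀ v : X.I, H2 (X.𝒱 v) (X.loc (mu χ) v) →ₗ[k] k,
    (∀ v, inv v ≠ 0) ∧ ∀ x : H2 X.𝒰 (mu χ), ∑ v, inv v ((X.res (mu χ) v).h2 x) = 0
  /-- (A-V) global: `H³(G, k[G/P]) = 0` for every open `P` on which `χ` is trivial -/
  vanish₃ : ∀ P : Subgroup X.G, X.𝒰.IsOpen P → TrivOn χ P → Vanish₃ X.𝒰 (perm k P)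
  /-- (A-V) local: `H³(Γ_v, k[Γ_v/P]) = 0` for every open `P` on which `χ` is trivial -/
  vanish₃_loc : ∀ (v : X.I) (P : Subgroup (X.Γ v)), (X.𝒱 v).IsOpen P →
    TrivOn (χ.comp (X.ι v)) P → Vanish₃ (X.𝒱 v) (perm k P)
  /-- (A-fin) `H¹`, `H²` of `k[G/P]` are finite-dimensional (`P` open, `χ` trivial on `P`) -/
  fin₁ : ∀ P : Subgroup X.G, X.𝒰.IsOpen P → TrivOn χ P → Module.Finite k (H1 X.𝒰 (perm k P))
  fin₂ : ∀ P : Subgroup X.G, X.𝒰.IsOpen P → TrivOn χ P → Module.Finite k (H2 X.𝒰 (perm k P))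
  /-- (A-L) local: `dim H²(Γ_v, k[Γ_v/U]) ≤ 1` when `χ` is trivial on `U` -/
  loc₂ : ∀ (v : X.I) (U : Subgroup (X.Γ v)), (X.𝒱 v).mem U → TrivOn (χ.comp (X.ι v)) U →
    Module.Finite k (H2 (X.𝒱 v) (perm k U)) ∧ finrank k (H2 (X.𝒱 v) (perm k U)) ≤ 1
  /-- (A-G3) `dim coker (H²(G, k[G/U]) → Π_v H²(Γ_v, k[G/U])) ≤ 1` when `χ` is trivial on `U` -/
  g₃ : ∀ U, X.𝒰.mem U → TrivOn χ U →
    Module.Finite k (X.P2 (perm k U) ⧸ LinearMap.range (X.loc₂ (perm k U))) ∧
    finrank k (X.P2 (perm k U) ⧸ LinearMap.range (X.loc₂ (perm k U))) ≤ 1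
  /-- (A-G2) `dim H²_c(k[G/U]) ≤ dim H¹(G, k[G/U]')` when `χ` is trivial on `U` -/
  g₂ : ∀ U, X.𝒰.mem U → TrivOn χ U →
    Module.Finite k (X.H2c (perm k U)) ∧
    finrank k (X.H2c (perm k U)) ≤ finrank k (H1 X.𝒰 (tw (perm k U) χ))

/-- **The formal main theorem** (closed Prop): the numerical base implies
`dim Ш¹(M') = dim Ш²(M) < ∞` for all finite-dimensional uniformly smooth `M`. -/
def FormalMain : Prop :=
  ∀ (X : Site) (p : ℕ) [Fact p.Prime] (χ : X.G →* (ZMod p)ˣ), BaseA X (ZMod p) χ →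
    ∀ (M : Rep.{0, 0, 0} (ZMod p) X.G), Module.Finite (ZMod p) M → IsUSmooth X.𝒰 M →
      Module.Finite (ZMod p) (X.sha1 (tw M χ)) ∧ Module.Finite (ZMod p) (X.sha2 M) ∧
      finrank (ZMod p) (X.sha1 (tw M χ)) = finrank (ZMod p) (X.sha2 M)

/-- step (i): `H³` vanishes globally and locally for all finite-dimensional uniformly smooth
modules. -/
def Vanish₃All (X : Site) (k : Type) [Field k] : Prop :=
  (∀ (N : Rep.{0, 0, 0} k X.G), Module.Finite k N → IsUSmooth X.𝒰 N → Vanish₃ X.𝒰 N) ∧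
  ∀ (v : X.I) (N : Rep.{0, 0, 0} k (X.Γ v)), Module.Finite k N → IsUSmooth (X.𝒱 v) N →
    Vanish₃ (X.𝒱 v) N

/-- finiteness of `H¹` and `H²` for all finite-dimensional uniformly smooth modules -/
def FinAll (X : Site) (k : Type) [Field k] : Prop :=
  ∀ (N : Rep.{0, 0, 0} k X.G), Module.Finite k N → IsUSmooth X.𝒰 N →
    Module.Finite k (H1 X.𝒰 N) ∧ Module.Finite k (H2 X.𝒰 N)

/-- step (i) as a closed Prop -/
def Vanish₃Statement : Prop :=
  ∀ (X : Site) (p : ℕ) [Fact p.Prime] (χ : X.G →* (ZMod p)ˣ), BaseA X (ZMod p) χ →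
    Vanish₃All X (ZMod p)

/-- finiteness as a closed Prop -/
def FinStatement : Prop :=
  ∀ (X : Site) (p : ℕ) [Fact p.Prime] (χ : X.G →* (ZMod p)ˣ), BaseA X (ZMod p) χ →
    FinAll X (ZMod p)

end Fermat.Agent.S55.Formal
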