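/-
S55 / Formal end, lemma row 146 (helper7): permutation modules `k[G/P]`, smoothness, free covers.

* `permOn X` : the permutation representation on `X →₀ k` for a `G`-set `X` (plain `Finsupp`);
  `perm P := permOn (G ⧸ P)`.
* `powRep M d` : the `d`-fold direct sum of `M` (on `Fin d → M`), with `powι`, `powπ`;
  `permPow P d := powRep (perm P) d`.
* `subRep`, `quotRep` : sub- and quotient representations as `Rep` objects with `ι`, `π`, exactness,
  smoothness and finite-dimensionality.
* `ev` : Frobenius reciprocity `perm P ⟶ M` for a `P`-fixed vector.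
* `exists_free_cover` : a uniformly smooth finite-dimensional `M` is a quotient of `permPow U d`.
* `dualTwist` : smoothness, and `H0 ((perm U).dualTwist χ)` is one-dimensional.
-/
import Fermat.Agent.S55.Formal.LC
import Fermat.Prelude.Def_GroupCohomology_Selmer

set_option autoImplicit false

open CategoryTheory

namespace Fermat.Agent.S55.Formal.Perm

open Fermat.Agent.S55.Formal

noncomputable section

variable {k : Type} [CommRing k] {G : Type} [Group G]

/-! ### permutation representations -/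

/-- The permutation representation of `G` on `X →₀ k`. -/
def permRho (k : Type) [CommRing k] {G : Type} [Group G] (X : Type) [MulAction G X] :
    Representation k G (X →₀ k) where
  toFun g := Finsupp.lmapDomain k k (g • ·)
  map_one' := by
    ext x : 2
    simp
  map_mul' g h := by
    ext x : 2
    simp [mul_smul]

@[simp] lemma permRho_single (X : Type) [MulAction G X] (g : G) (x : X) (c : k) :
    permRho k X g (Finsupp.single x c) = Finsupp.single (g • x) c := by
  simp [permRho]

/-- The permutation representation on a `G`-set, as an object of `Rep k G`. -/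
abbrev permOn (k : Type) [CommRing k] {G : Type} [Group G] (X : Type) [MulAction G X] :
    Rep.{0, 0, 0} k G := Rep.of (permRho k X)

/-- The permutation module `k[G/P]`. -/
abbrev perm (k : Type) [CommRing k] {G : Type} [Group G] (P : Subgroup G) : Rep.{0, 0, 0} k G :=
  permOn k (G ⧸ P)

@[simp] lemma permOn_ρ_single (X : Type) [MulAction G X] (g : G) (x : X) (c : k) :
    (permOn k X).ρ g (Finsupp.single x c) = Finsupp.single (g • x) c :=
  permRho_single X g x c

@[simp] lemma perm_ρ_single (P : Subgroup G) (g : G) (x : G ⧸ P) (c : k) :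
    (perm k P).ρ g (Finsupp.single x c) = Finsupp.single (g • x) c :=
  permRho_single (G ⧸ P) g x c

/-- Compatibility with Mathlib's `Rep.ofMulAction` (on the monoid algebra `k[X]`): the two
permutation representations are isomorphic via `MonoidAlgebra.coeffLinearEquiv`. -/
def permOnIsoOfMulAction (X : Type) [MulAction G X] : permOn k X ≅ Rep.ofMulAction k G X :=
  Rep.mkIso (Representation.Equiv.mk (MonoidAlgebra.coeffLinearEquiv k).symm (fun g => by
    rw [Representation.ofMulAction_def]
    apply LinearMap.ext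
    intro f
    simp only [LinearMap.comp_apply, LinearEquiv.coe_coe, LinearEquiv.apply_symm_apply]
    rfl))

lemma permOnIsoOfMulAction_hom_single (X : Type) [MulAction G X] (x : X) (c : k) :
    (permOnIsoOfMulAction (k := k) (G := G) X).hom.hom (Finsupp.single x c) =
      MonoidAlgebra.single x c := by
  show (MonoidAlgebra.coeffLinearEquiv k).symm (Finsupp.single x c) = MonoidAlgebra.single x c
  rw [LinearEquiv.symm_apply_eq]
  simp

/-- If `s` fixes every point of `X`, it acts trivially on `permOn k X`. -/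
lemma permOn_ρ_eq_of_fixes (X : Type) [MulAction G X] (s : G) (hs : ∀ x : X, s • x = x)
    (m : permOn k X) : (permOn k X).ρ s m = m := by
  have : permRho k X s = LinearMap.id := by
    apply Finsupp.lhom_ext
    intro x c
    rw [permRho_single, hs]
    rfl
  show permRho k X s m = m
  rw [this]
  rfl

/-- A normal subgroup `U ≤ P` acts trivially on `G ⧸ P`. -/
lemma smul_coset_eq_of_normal {U P : Subgroup G} (hU : U.Normal) (hUP : U ≤ P) {s : G}
    (hs : s ∈ U) (x : G ⧸ P) : s • x = x := by
  induction x using QuotientGroup.induction_on with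
  | H g =>
    show ((s * g : G) : G ⧸ P) = (g : G ⧸ P)
    rw [eq_comm, QuotientGroup.eq]
    have : g⁻¹ * (s * g) = g⁻¹ * s * g := by group
    rw [this]
    exact hUP (hU.conj_mem' s hs g)

/-- (1a) `perm P` is uniformly smooth when `P` is open. -/
theorem isUSmooth_perm (𝒰 : NBasis G) {P U : Subgroup G} (hU : 𝒰.mem U) (hUP : U ≤ P) :
    IsUSmooth 𝒰 (perm k P) :=
  ⟨U, hU, fun s hs m =>
    permOn_ρ_eq_of_fixes (G ⧸ P) s (fun x => smul_coset_eq_of_normal (𝒰.normal hU) hUP hs x) m⟩

/-- an open subgroup has finite index -/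
lemma finite_quotient_of_open (𝒰 : NBasis G) {P U : Subgroup G} (hU : 𝒰.mem U) (hUP : U ≤ P) :
    Finite (G ⧸ P) := by
  have := 𝒰.finiteIndex hU
  have : P.FiniteIndex := Subgroup.finiteIndex_of_le hUP
  exact Subgroup.finite_quotient_of_finiteIndex

/-- (1b) `perm P` is finitely generated when `P` is open. -/
theorem finite_perm (𝒰 : NBasis G) {P U : Subgroup G} (hU : 𝒰.mem U) (hUP : U ≤ P) :
    Module.Finite k (perm k P) := by
  have := finite_quotient_of_open 𝒰 hU hUP
  exact inferInstanceAs (Module.Finite k ((G ⧸ P) →₀ k))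

/-! ### sub- and quotient representations -/

section SubQuot

variable (M : Rep.{0, 0, 0} k G) (W : Submodule k M) (hW : ∀ g, W ≤ W.comap (M.ρ g))

/-- The sub-representation on an invariant submodule, as an object of `Rep k G`. -/
abbrev subRep : Rep.{0, 0, 0} k G := Rep.of (M.ρ.subrepresentation W hW)

/-- The quotient representation by an invariant submodule, as an object of `Rep k G`. -/
abbrev quotRep : Rep.{0, 0, 0} k G := Rep.of (M.ρ.quotient W hW)

/-- The inclusion `subRep M W ⟶ M`. -/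
def subι : subRep M W hW ⟶ M :=
  Rep.ofHom (ρ := M.ρ.subrepresentation W hW) (σ := M.ρ)
    (W.subtype.intertwiningMap_of_isIntertwiningMap _ _ (fun _ _ => rfl))

/-- The projection `M ⟶ quotRep M W`. -/
def quotπ : M ⟶ quotRep M W hW :=
  Rep.ofHom (ρ := M.ρ) (σ := M.ρ.quotient W hW)
    (W.mkQ.intertwiningMap_of_isIntertwiningMap _ _ (fun _ _ => rfl))

@[simp] lemma subι_apply (a : subRep M W hW) : (subι M W hW).hom a = (a : M) := rfl

@[simp] lemma quotπ_apply (b : M) : (quotπ M W hW).hom b = W.mkQ b := rfl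

@[simp] lemma subRep_ρ_coe (g : G) (a : subRep M W hW) :
    (((subRep M W hW).ρ g a : W) : M) = M.ρ g (a : M) := rfl

lemma subι_injective : Function.Injective (subι M W hW).hom := fun _ _ h => Subtype.ext h

lemma quotπ_surjective : Function.Surjective (quotπ M W hW).hom := Submodule.mkQ_surjective W

/-- exactness of `0 → subRep → M → quotRep → 0` in the middle -/
lemma quotπ_eq_zero_iff (b : M) : (quotπ M W hW).hom b = 0 ↔ ∃ a, (subι M W hW).hom a = b := by
  constructor
  · intro hb
    exact ⟨⟨b, (Submodule.Quotient.mk_eq_zero W).mp hb⟩, rfl⟩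
  · rintro ⟨a, rfl⟩
    exact (Submodule.Quotient.mk_eq_zero W).mpr a.2

lemma mem_range_subι_iff (b : M) : (∃ a, (subι M W hW).hom a = b) ↔ b ∈ W :=
  ⟨fun ⟨a, h⟩ => h ▸ a.2, fun h => ⟨⟨b, h⟩, rfl⟩⟩

variable {M}

/-- sub-representations of uniformly smooth representations are uniformly smooth -/
theorem isUSmooth_subRep {𝒰 : NBasis G} (h : IsUSmooth 𝒰 M) : IsUSmooth 𝒰 (subRep M W hW) := by
  obtain ⟨U, hU, hs⟩ := h
  exact ⟨U, hU, fun s hs' a => Subtype.ext (hs s hs' (a : M))⟩

/-- quotients of uniformly smooth representations are uniformly smooth -/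
theorem isUSmooth_quotRep {𝒰 : NBasis G} (h : IsUSmooth 𝒰 M) : IsUSmooth 𝒰 (quotRep M W hW) := by
  obtain ⟨U, hU, hs⟩ := h
  refine ⟨U, hU, fun s hs' b => ?_⟩
  obtain ⟨b, rfl⟩ := Submodule.mkQ_surjective W b
  show (M.ρ.quotient W hW) s (W.mkQ b) = W.mkQ b
  rw [Submodule.mkQ_apply, Representation.quotient_apply, Submodule.mapQ_apply, hs s hs' b]

/-- quotients of finitely generated representations are finitely generated -/
theorem finite_quotRep [Module.Finite k M] : Module.Finite k (quotRep M W hW) :=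
  inferInstanceAs (Module.Finite k (M ⧸ W))

/-- sub-representations of finitely generated representations are finitely generated
(over a noetherian ring, e.g. a field) -/
theorem finite_subRep [IsNoetherianRing k] [Module.Finite k M] :
    Module.Finite k (subRep M W hW) :=
  inferInstanceAs (Module.Finite k W)

end SubQuot

/-! ### finite powers -/

section Pow

variable (M : Rep.{0, 0, 0} k G) (d : ℕ)

/-- The representation on `Fin d → M` (componentwise action). -/
def powRho : Representation k G (Fin d → M) where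
  toFun g := LinearMap.pi fun j => M.ρ g ∘ₗ LinearMap.proj j
  map_one' := by
    ext f j
    simp
  map_mul' g h := by
    ext f j
    simp

@[simp] lemma powRho_apply (g : G) (f : Fin d → M) (j : Fin d) :
    powRho M d g f j = M.ρ g (f j) := rfl

/-- The `d`-fold direct sum `M^d`, realised on `Fin d → M`. -/
abbrev powRep : Rep.{0, 0, 0} k G := Rep.of (powRho M d)

@[simp] lemma powRep_ρ_apply (g : G) (f : powRep M d) (j : Fin d) :
    (powRep M d).ρ g f j = M.ρ g (f j) := rfl

/-- the `j`-th inclusion `M ⟶ M^d` -/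
def powι (j : Fin d) : M ⟶ powRep M d :=
  Rep.ofHom (ρ := M.ρ) (σ := powRho M d)
    ((LinearMap.single k (fun _ : Fin d => M.V) j).intertwiningMap_of_isIntertwiningMap _ _
      (fun g m => by
        funext i
        by_cases h : i = j
        · subst h
          simp
        · simp [Pi.single_eq_of_ne h]))

/-- the `j`-th projection `M^d ⟶ M` -/
def powπ (j : Fin d) : powRep M d ⟶ M :=
  Rep.ofHom (ρ := powRho M d) (σ := M.ρ)
    ((LinearMap.proj (R := k) (φ := fun _ : Fin d => M.V) j).intertwiningMap_of_isIntertwiningMap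
      _ _ (fun _ _ => rfl))

@[simp] lemma powι_apply (j : Fin d) (m : M) :
    (powι M d j).hom m = Pi.single (M := fun _ : Fin d => M.V) j m := rfl

@[simp] lemma powπ_apply (j : Fin d) (f : powRep M d) : (powπ M d j).hom f = f j := rfl

lemma powι_powπ_self (j : Fin d) : powι M d j ≫ powπ M d j = 𝟙 M := by
  apply Rep.hom_ext
  apply Representation.IntertwiningMap.ext
  apply LinearMap.ext
  intro m
  show Pi.single (M := fun _ : Fin d => M.V) j m j = m
  simp

lemma powι_powπ_of_ne {i j : Fin d} (h : i ≠ j) : powι M d i ≫ powπ M d j = 0 := by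
  apply Rep.hom_ext
  apply Representation.IntertwiningMap.ext
  apply LinearMap.ext
  intro m
  show Pi.single (M := fun _ : Fin d => M.V) i m j = 0
  exact Pi.single_eq_of_ne (M := fun _ : Fin d => M.V) (Ne.symm h) m

lemma sum_powπ_powι : ∑ j : Fin d, powπ M d j ≫ powι M d j = 𝟙 (powRep M d) := by
  apply Rep.hom_ext
  apply Representation.IntertwiningMap.ext
  apply LinearMap.ext
  intro f
  rw [Rep.sum_hom]
  show (∑ j : Fin d, (powπ M d j ≫ powι M d j).hom) f = f
  rw [show ((∑ j : Fin d, (powπ M d j ≫ powι M d j).hom) f : Fin d → M.V)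
      = ∑ j : Fin d, (powι M d j).hom ((powπ M d j).hom f) from by
    induction (Finset.univ : Finset (Fin d)) using Finset.induction_on with
    | empty => simp
    | insert a s ha ih =>
      rw [Finset.sum_insert ha, Finset.sum_insert ha]
      show ((powπ M d a ≫ powι M d a).hom + ∑ j ∈ s, (powπ M d j ≫ powι M d j).hom) f = _
      rw [← ih]
      rfl]
  funext i
  rw [Finset.sum_apply]
  show ∑ c : Fin d, Pi.single (M := fun _ : Fin d => M.V) c (f c) i = f i
  rw [Finset.sum_eq_single i]
  · simp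
  · intro b _ hb
    exact Pi.single_eq_of_ne (M := fun _ : Fin d => M.V) (Ne.symm hb) _
  · intro h
    exact absurd (Finset.mem_univ i) h

variable {M}

theorem isUSmooth_powRep {𝒰 : NBasis G} (h : IsUSmooth 𝒰 M) : IsUSmooth 𝒰 (powRep M d) := by
  obtain ⟨U, hU, hs⟩ := h
  exact ⟨U, hU, fun s hs' f => funext fun j => hs s hs' (f j)⟩

theorem finite_powRep [Module.Finite k M] : Module.Finite k (powRep M d) :=
  inferInstanceAs (Module.Finite k (Fin d → M.V))

end Pow

/-- `B_P^d`, the `d`-fold direct sum of the permutation module `k[G/P]`. -/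
abbrev permPow (k : Type) [CommRing k] {G : Type} [Group G] (P : Subgroup G) (d : ℕ) :
    Rep.{0, 0, 0} k G := powRep (perm k P) d

/-! ### Frobenius reciprocity -/

section Ev

variable (M : Rep.{0, 0, 0} k G) (P : Subgroup G)

/-- the underlying linear map of `ev` -/
def evLin (m : M) : ((G ⧸ P) →₀ k) →ₗ[k] M :=
  Finsupp.linearCombination k fun x : G ⧸ P => M.ρ x.out m

variable {M P}

lemma ρ_out_eq {m : M} (hm : ∀ s ∈ P, M.ρ s m = m) (g : G) :
    M.ρ ((g : G ⧸ P)).out m = M.ρ g m := by
  obtain ⟨p, hp⟩ := QuotientGroup.mk_out_eq_mul P g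
  rw [hp, map_mul, Module.End.mul_apply, hm _ p.2]

lemma evLin_single {m : M} (hm : ∀ s ∈ P, M.ρ s m = m) (g : G) (c : k) :
    evLin M P m (Finsupp.single (g : G ⧸ P) c) = c • M.ρ g m := by
  rw [evLin, Finsupp.linearCombination_single, ρ_out_eq hm]

lemma evLin_equivariant {m : M} (hm : ∀ s ∈ P, M.ρ s m = m) (h : G) (f : (G ⧸ P) →₀ k) :
    evLin M P m (permRho k (G ⧸ P) h f) = M.ρ h (evLin M P m f) := by
  induction f using Finsupp.induction_linear with
  | zero => simp
  | add f₁ f₂ h₁ h₂ => simp only [map_add, h₁, h₂]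
  | single x c =>
    induction x using QuotientGroup.induction_on with
    | H g =>
      rw [permRho_single]
      show evLin M P m (Finsupp.single ((h * g : G) : G ⧸ P) c) = _
      rw [evLin_single hm, evLin_single hm, map_smul, map_mul, Module.End.mul_apply]

/-- (2) **Frobenius reciprocity**: a `P`-fixed vector `m` of `M` gives `ev : k[G/P] ⟶ M`,
`[gP] ↦ g m`. -/
def ev (m : M) (hm : ∀ s ∈ P, M.ρ s m = m) : perm k P ⟶ M :=
  Rep.ofHom (ρ := permRho k (G ⧸ P)) (σ := M.ρ)
    ((evLin M P m).intertwiningMap_of_isIntertwiningMap _ _ (evLin_equivariant hm))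

@[simp] lemma ev_single (m : M) (hm : ∀ s ∈ P, M.ρ s m = m) (g : G) (c : k) :
    (ev m hm).hom (Finsupp.single (g : G ⧸ P) c) = c • M.ρ g m :=
  evLin_single hm g c

lemma ev_single_one (m : M) (hm : ∀ s ∈ P, M.ρ s m = m) :
    (ev m hm).hom (Finsupp.single ((1 : G) : G ⧸ P) 1) = m := by
  rw [ev_single, one_smul, map_one]
  rfl

end Ev

/-! ### free covers -/

section Cover

variable (M : Rep.{0, 0, 0} k G) (P : Subgroup G) {d : ℕ}

/-- The morphism `B_P^d ⟶ M` attached to `P`-fixed vectors `m₁, …, m_d`. -/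
def coverMap (m : Fin d → M) (hm : ∀ j, ∀ s ∈ P, M.ρ s (m j) = m j) : permPow k P d ⟶ M :=
  ∑ j : Fin d, powπ (perm k P) d j ≫ ev (m j) (hm j)

variable {M P}

lemma coverMap_apply (m : Fin d → M) (hm : ∀ j, ∀ s ∈ P, M.ρ s (m j) = m j)
    (f : permPow k P d) :
    (coverMap M P m hm).hom f = ∑ j : Fin d, (ev (m j) (hm j)).hom (f j) := by
  unfold coverMap
  rw [Rep.sum_hom]
  induction (Finset.univ : Finset (Fin d)) using Finset.induction_on with
  | empty => rfl
  | insert a s ha ih =>
    rw [Finset.sum_insert ha, Finset.sum_insert ha, ← ih]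
    rfl

lemma coverMap_powι (m : Fin d → M) (hm : ∀ j, ∀ s ∈ P, M.ρ s (m j) = m j) (j : Fin d) :
    (coverMap M P m hm).hom
      ((powι (perm k P) d j).hom (Finsupp.single ((1 : G) : G ⧸ P) 1)) = m j := by
  rw [coverMap_apply, Finset.sum_eq_single j]
  · show (ev (m j) (hm j)).hom
      (Pi.single (M := fun _ : Fin d => (perm k P).V) j (Finsupp.single ((1 : G) : G ⧸ P) 1) j) = _
    rw [Pi.single_eq_same, ev_single_one]
  · intro b _ hb
    show (ev (m b) (hm b)).hom
      (Pi.single (M := fun _ : Fin d => (perm k P).V) j (Finsupp.single ((1 : G) : G ⧸ P) 1) b) = 0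
    rw [Pi.single_eq_of_ne (M := fun _ : Fin d => (perm k P).V) hb, map_zero]
  · intro h
    exact absurd (Finset.mem_univ j) h

/-- If the `m j` span `M`, the cover map is surjective. -/
lemma coverMap_surjective (m : Fin d → M) (hm : ∀ j, ∀ s ∈ P, M.ρ s (m j) = m j)
    (hspan : Submodule.span k (Set.range m) = ⊤) :
    Function.Surjective (coverMap M P m hm).hom := by
  have hle : Submodule.span k (Set.range m) ≤
      LinearMap.range (coverMap M P m hm).hom.toLinearMap := by
    rw [Submodule.span_le]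
    rintro _ ⟨j, rfl⟩
    exact ⟨_, coverMap_powι m hm j⟩
  rw [hspan, top_le_iff] at hle
  intro x
  have hx : x ∈ LinearMap.range (coverMap M P m hm).hom.toLinearMap := by
    rw [hle]
    exact Submodule.mem_top
  exact hx

/-- (3) **Free cover.**  A uniformly smooth, finitely generated `M` (say `U ∈ 𝒰` acts trivially) is
a quotient of `B_U^d = k[G/U]^d` for some `d`. -/
theorem exists_free_cover {U : Subgroup G} (hU : ∀ s ∈ U, ∀ m : M, M.ρ s m = m)
    [Module.Finite k M] :
    ∃ (d : ℕ) (π : permPow k U d ⟶ M), Function.Surjective π.hom := by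
  obtain ⟨d, m, hm⟩ := Module.Finite.exists_fin (R := k) (M := M)
  exact ⟨d, coverMap M U m (fun j s hs => hU s hs (m j)),
    coverMap_surjective m _ hm⟩

end Cover

/-! ### kernels -/

section Ker

variable {A B : Rep.{0, 0, 0} k G} (π : A ⟶ B)

lemma ker_le_comap (g : G) :
    LinearMap.ker π.hom.toLinearMap ≤ (LinearMap.ker π.hom.toLinearMap).comap (A.ρ g) := by
  intro a ha
  rw [Submodule.mem_comap, LinearMap.mem_ker]
  rw [LinearMap.mem_ker] at ha
  show π.hom (A.ρ g a) = 0
  rw [Rep.hom_comm_apply]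
  show B.ρ g (π.hom.toLinearMap a) = 0
  rw [ha, map_zero]

/-- The kernel of a morphism, as an object of `Rep k G`. -/
abbrev kerRep : Rep.{0, 0, 0} k G := subRep A (LinearMap.ker π.hom.toLinearMap) (ker_le_comap π)

/-- The inclusion of the kernel. -/
def kerι : kerRep π ⟶ A := subι A _ (ker_le_comap π)

lemma kerι_injective : Function.Injective (kerι π).hom := subι_injective _ _ _

/-- exactness of `0 → ker π → A → B` in the middle -/
lemma eq_zero_iff_exists_kerι (a : A) : π.hom a = 0 ↔ ∃ r, (kerι π).hom r = a :=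
  ⟨fun h => ⟨⟨a, h⟩, rfl⟩, fun ⟨r, h⟩ => h ▸ r.2⟩

lemma kerι_comp : kerι π ≫ π = 0 := by
  apply Rep.hom_ext
  apply Representation.IntertwiningMap.ext
  apply LinearMap.ext
  intro r
  exact r.2

theorem isUSmooth_kerRep {𝒰 : NBasis G} (h : IsUSmooth 𝒰 A) : IsUSmooth 𝒰 (kerRep π) :=
  isUSmooth_subRep _ _ h

theorem finite_kerRep [IsNoetherianRing k] [Module.Finite k A] : Module.Finite k (kerRep π) :=
  finite_subRep _ _

end Ker

/-- (3), packaged: the free cover with its kernel, all smoothness / finiteness / exactness facts. -/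
theorem exists_free_cover_ses {k : Type} [Field k] {G : Type} [Group G] (𝒰 : NBasis G)
    (M : Rep.{0, 0, 0} k G) {U : Subgroup G} (hU : 𝒰.mem U)
    (hUM : ∀ s ∈ U, ∀ m : M, M.ρ s m = m) [FiniteDimensional k M] :
    ∃ (d : ℕ) (π : permPow k U d ⟶ M), Function.Surjective π.hom ∧
      IsUSmooth 𝒰 (permPow k U d) ∧ FiniteDimensional k (permPow k U d) ∧
      IsUSmooth 𝒰 (kerRep π) ∧ FiniteDimensional k (kerRep π) ∧
      Function.Injective (kerι π).hom ∧ ∀ a, π.hom a = 0 ↔ ∃ r, (kerι π).hom r = a := by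
  obtain ⟨d, π, hπ⟩ := exists_free_cover (M := M) hUM
  have h1 : IsUSmooth 𝒰 (permPow k U d) := isUSmooth_powRep d (isUSmooth_perm 𝒰 hU le_rfl)
  have h2 : FiniteDimensional k (permPow k U d) := by
    have := finite_perm (k := k) 𝒰 hU le_rfl
    exact finite_powRep d
  exact ⟨d, π, hπ, h1, h2, isUSmooth_kerRep π h1, finite_kerRep π, kerι_injective π,
    eq_zero_iff_exists_kerι π⟩

/-! ### dual twists -/

section DualTwist

variable (M : Rep.{0, 0, 0} k G) (χ : G →* kˣ)

/-- (4a) the twisted dual of a uniformly smooth representation by a smooth character is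
uniformly smooth -/
theorem isUSmooth_dualTwist {𝒰 : NBasis G} (h : IsUSmooth 𝒰 M)
    (hχ : ∃ U, 𝒰.mem U ∧ ∀ s ∈ U, χ s = 1) : IsUSmooth 𝒰 (M.dualTwist χ) := by
  obtain ⟨U, hU, hs⟩ := h
  obtain ⟨V, hV, hχV⟩ := hχ
  obtain ⟨W, hW, hle⟩ := 𝒰.inf hU hV
  refine ⟨W, hW, fun s hsW f => ?_⟩
  rw [Rep.dualTwist_ρ_apply, hχV s (hle hsW).2, Units.val_one, one_smul]
  apply LinearMap.ext
  intro m
  rw [LinearMap.comp_apply, hs s⁻¹ (U.inv_mem (hle hsW).1)]

/-- (4b) finite-dimensionality of the twisted dual -/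
theorem finite_dualTwist {k : Type} [Field k] {G : Type} [Group G] (M : Rep.{0, 0, 0} k G)
    (χ : G →* kˣ) [FiniteDimensional k M] : FiniteDimensional k (M.dualTwist χ) :=
  inferInstanceAs (FiniteDimensional k (Module.Dual k M))

end DualTwist

/-! ### `H⁰` of the twisted dual of a permutation module -/

section H0

variable {k : Type} [Field k] {G : Type} [Group G] (P : Subgroup G) (χ : G →* kˣ)

/-- the functional `[g] ↦ χ g` on `k[G/P]` -/
def y₀ : Module.Dual k ((G ⧸ P) →₀ k) :=
  Finsupp.linearCombination k fun x : G ⧸ P => ((χ x.out : kˣ) : k)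

variable {P χ}

lemma χ_out_eq (hχ : ∀ s ∈ P, χ s = 1) (g : G) : χ ((g : G ⧸ P)).out = χ g := by
  obtain ⟨p, hp⟩ := QuotientGroup.mk_out_eq_mul P g
  rw [hp, map_mul, hχ _ p.2, mul_one]

lemma y₀_single (hχ : ∀ s ∈ P, χ s = 1) (g : G) (c : k) :
    y₀ P χ (Finsupp.single (g : G ⧸ P) c) = c * (χ g : k) := by
  rw [y₀, Finsupp.linearCombination_single, χ_out_eq hχ, smul_eq_mul]

lemma dualTwist_ρ_single (f : Module.Dual k ((G ⧸ P) →₀ k)) (g h : G) (c : k) :
    ((perm k P).dualTwist χ).ρ g f (Finsupp.single (h : G ⧸ P) c) =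
      (χ g : k) * f (Finsupp.single ((g⁻¹ * h : G) : G ⧸ P) c) := by
  rw [Rep.dualTwist_ρ_apply, LinearMap.smul_apply, LinearMap.comp_apply, smul_eq_mul,
    perm_ρ_single]
  rfl

/-- `y₀` is invariant for the twisted action -/
lemma ρ_y₀ (hχ : ∀ s ∈ P, χ s = 1) (g : G) : ((perm k P).dualTwist χ).ρ g (y₀ P χ) = y₀ P χ := by
  apply Finsupp.lhom_ext
  intro x c
  induction x using QuotientGroup.induction_on with
  | H h =>
    rw [dualTwist_ρ_single, y₀_single hχ, y₀_single hχ, map_mul, map_inv, Units.val_mul]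
    have : ((χ g : kˣ) : k) * ((χ g)⁻¹ : kˣ) = 1 := by
      rw [← Units.val_mul, mul_inv_cancel, Units.val_one]
    calc ((χ g : kˣ) : k) * (c * (((χ g)⁻¹ : kˣ) * (χ h : kˣ)))
        = c * ((χ h : kˣ) : k) * (((χ g : kˣ) : k) * ((χ g)⁻¹ : kˣ)) := by ring
      _ = c * ((χ h : kˣ) : k) := by rw [this, mul_one]

/-- an invariant functional is a multiple of `y₀` -/
lemma eq_smul_y₀ (hχ : ∀ s ∈ P, χ s = 1) (f : Module.Dual k ((G ⧸ P) →₀ k))
    (hf : ∀ g, ((perm k P).dualTwist χ).ρ g f = f) :
    f = f (Finsupp.single ((1 : G) : G ⧸ P) 1) • y₀ P χ := by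
  apply Finsupp.lhom_ext
  intro x c
  induction x using QuotientGroup.induction_on with
  | H h =>
    have h1 := congrArg (fun φ : Module.Dual k ((G ⧸ P) →₀ k) =>
      φ (Finsupp.single (h : G ⧸ P) c)) (hf h)
    simp only at h1
    rw [dualTwist_ρ_single, inv_mul_cancel] at h1
    rw [LinearMap.smul_apply, y₀_single hχ, smul_eq_mul, ← h1]
    have h2 : (Finsupp.single ((1 : G) : G ⧸ P) c : (G ⧸ P) →₀ k)
        = c • Finsupp.single ((1 : G) : G ⧸ P) 1 := by
      rw [Finsupp.smul_single, smul_eq_mul, mul_one]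
    rw [h2, map_smul, smul_eq_mul]
    ring

/-- (4c) `H⁰(G, k[G/P]^∨(χ))` is one-dimensional (spanned by `y₀`) when `P` is open and `χ` is
trivial on `P`. -/
theorem finrank_H0_dualTwist_perm (𝒰 : NBasis G) {U : Subgroup G} (hU : 𝒰.mem U) (hUP : U ≤ P)
    (hχ : ∀ s ∈ P, χ s = 1) :
    Module.finrank k ↥(H0 𝒰 ((perm k P).dualTwist χ)) = 1 := by
  set N := (perm k P).dualTwist χ with hN
  have hsm : IsUSmooth 𝒰 N :=
    isUSmooth_dualTwist (perm k P) χ (isUSmooth_perm 𝒰 hU hUP)
      ⟨U, hU, fun s hs => hχ s (hUP hs)⟩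
  have hy₀C : (y₀ P χ : N) ∈ C₀ 𝒰 N := by
    rw [hsm.C₀_eq_top]
    exact Submodule.mem_top
  have hy₀H : (⟨y₀ P χ, hy₀C⟩ : ↥(C₀ 𝒰 N)) ∈ H0 𝒰 N := by
    rw [LinearMap.mem_ker]
    apply Subtype.ext
    rw [dC₀_coe]
    funext g
    show (groupCohomology.d₀₁ N).hom (y₀ P χ : N) g = 0
    rw [groupCohomology.d₀₁_hom_apply, ρ_y₀ hχ, sub_self]
  refine finrank_eq_one (⟨⟨y₀ P χ, hy₀C⟩, hy₀H⟩ : ↥(H0 𝒰 N)) ?_ ?_
  · intro h0
    have h1 : y₀ P χ = 0 := congrArg (fun w : ↥(H0 𝒰 N) => ((w : ↥(C₀ 𝒰 N)) : N)) h0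
    have h2 := congrArg (fun φ : Module.Dual k ((G ⧸ P) →₀ k) =>
      φ (Finsupp.single ((1 : G) : G ⧸ P) 1)) h1
    simp only [LinearMap.zero_apply] at h2
    rw [y₀_single hχ, map_one, Units.val_one, mul_one] at h2
    exact one_ne_zero h2
  · rintro ⟨⟨f, hfC⟩, hfH⟩
    have hf : ∀ g, N.ρ g f = f := by
      intro g
      rw [LinearMap.mem_ker] at hfH
      have h1 := congrArg (fun w : ↥(C₁ 𝒰 N) => (w : G → N) g) hfH
      simp only [dC₀_coe] at h1
      have h2 : (groupCohomology.d₀₁ N).hom f g = 0 := h1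
      rw [groupCohomology.d₀₁_hom_apply, sub_eq_zero] at h2
      exact h2
    refine ⟨(f : Module.Dual k ((G ⧸ P) →₀ k)) (Finsupp.single ((1 : G) : G ⧸ P) 1), ?_⟩
    apply Subtype.ext
    apply Subtype.ext
    exact (eq_smul_y₀ hχ f hf).symm

end H0

end

end Fermat.Agent.S55.Formal.Perm
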