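/-
S55 / Formal end (helper7): the results of lemma row 146 (`Formal/Perm.lean`) for ANY model of the
permutation module, in particular for the OFFICIAL `Formal.perm k P = Rep.ofMulAction k G (G ⧸ P)`
of `Formal/Blocks.lean`.

A *permutation basis* of `B : Rep k G` indexed by a `G`-set `X` is a basis `b : Basis X k B` with
`B.ρ g (b x) = b (g • x)`.  For `X = G ⧸ P`:

* `isUSmooth_of_basis`, `finite_of_basis` : smoothness and finiteness for open `P`;
* `evB` : Frobenius reciprocity `B ⟶ M`, `b [g] ↦ g m` for a `P`-fixed `m`;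
* `exists_free_cover_of_basis` : free covers `powRep B d ↠ M` with kernel;
* `finrank_H0_dualTwist_of_basis` : `H⁰(B.dualTwist χ)` is one-dimensional for `χ` trivial on `P`.

The section `Official` instantiates everything for `Formal.perm k P`.
-/
import Fermat.Agent.S55.Formal.Perm
import Fermat.Agent.S55.Formal.Blocks

set_option autoImplicit false

open CategoryTheory Module

namespace Fermat.Agent.S55.Formal.PermBasis

open Fermat.Agent.S55.Formal Fermat.Agent.S55.Formal.Perm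

noncomputable section

/-! ### generic permutation bases -/

section Generic

variable {k : Type} [CommRing k] {G : Type} [Group G] {X : Type} [MulAction G X]
  (B : Rep.{0, 0, 0} k G) (b : Basis X k B) (hb : ∀ g x, B.ρ g (b x) = b (g • x))

include hb in
/-- If `s` fixes every point of `X`, it acts trivially on `B`. -/
lemma ρ_eq_of_fixes (s : G) (hs : ∀ x : X, s • x = x) (m : B) : B.ρ s m = m := by
  have : B.ρ s = LinearMap.id := by
    apply b.ext
    intro x
    rw [hb, hs]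
    rfl
  rw [this]
  rfl

end Generic

section Coset

variable {k : Type} [CommRing k] {G : Type} [Group G] {P : Subgroup G}
  (B : Rep.{0, 0, 0} k G) (b : Basis (G ⧸ P) k B) (hb : ∀ g x, B.ρ g (b x) = b (g • x))

include hb in
/-- (1a) a permutation module on `G ⧸ P` is uniformly smooth when `P` is open. -/
theorem isUSmooth_of_basis (𝒰 : NBasis G) {U : Subgroup G} (hU : 𝒰.mem U) (hUP : U ≤ P) :
    IsUSmooth 𝒰 B :=
  ⟨U, hU, fun s hs m =>
    ρ_eq_of_fixes B b hb s (fun x => smul_coset_eq_of_normal (𝒰.normal hU) hUP hs x) m⟩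

include b in
/-- (1b) a permutation module on `G ⧸ P` is finitely generated when `P` is open. -/
theorem finite_of_basis (𝒰 : NBasis G) {U : Subgroup G} (hU : 𝒰.mem U) (hUP : U ≤ P) :
    Module.Finite k B := by
  have := finite_quotient_of_open 𝒰 hU hUP
  exact Module.Finite.of_basis b

variable (M : Rep.{0, 0, 0} k G)

/-- the underlying linear map of `evB` -/
def evBLin (m : M) : B →ₗ[k] M := b.constr k fun x : G ⧸ P => M.ρ x.out m

variable {M}

lemma evBLin_basis {m : M} (hm : ∀ s ∈ P, M.ρ s m = m) (g : G) :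
    evBLin B b M m (b (g : G ⧸ P)) = M.ρ g m := by
  rw [evBLin, Basis.constr_basis, ρ_out_eq hm]

include hb in
lemma evBLin_equivariant {m : M} (hm : ∀ s ∈ P, M.ρ s m = m) (h : G) (f : B) :
    evBLin B b M m (B.ρ h f) = M.ρ h (evBLin B b M m f) := by
  have : evBLin B b M m ∘ₗ B.ρ h = M.ρ h ∘ₗ evBLin B b M m := by
    apply b.ext
    intro x
    induction x using QuotientGroup.induction_on with
    | H g =>
      rw [LinearMap.comp_apply, LinearMap.comp_apply, hb]
      show evBLin B b M m (b ((h * g : G) : G ⧸ P)) = _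
      rw [evBLin_basis B b hm, evBLin_basis B b hm, map_mul, Module.End.mul_apply]
  exact congrArg (fun φ : B →ₗ[k] M => φ f) this

/-- (2) **Frobenius reciprocity** for a permutation basis: a `P`-fixed vector `m` of `M` gives
`evB : B ⟶ M`, `b [g] ↦ g m`. -/
def evB (m : M) (hm : ∀ s ∈ P, M.ρ s m = m) : B ⟶ M :=
  Rep.ofHom (ρ := B.ρ) (σ := M.ρ)
    ((evBLin B b M m).intertwiningMap_of_isIntertwiningMap _ _ (evBLin_equivariant B b hb hm))

@[simp] lemma evB_basis (m : M) (hm : ∀ s ∈ P, M.ρ s m = m) (g : G) :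
    (evB B b hb m hm).hom (b (g : G ⧸ P)) = M.ρ g m :=
  evBLin_basis B b hm g

lemma evB_basis_one (m : M) (hm : ∀ s ∈ P, M.ρ s m = m) :
    (evB B b hb m hm).hom (b ((1 : G) : G ⧸ P)) = m := by
  rw [evB_basis, map_one]
  rfl

/-- The morphism `B^d ⟶ M` attached to `P`-fixed vectors `m₁, …, m_d`. -/
def coverMapB {d : ℕ} (m : Fin d → M) (hm : ∀ j, ∀ s ∈ P, M.ρ s (m j) = m j) : powRep B d ⟶ M :=
  ∑ j : Fin d, powπ B d j ≫ evB B b hb (m j) (hm j)

lemma coverMapB_apply {d : ℕ} (m : Fin d → M) (hm : ∀ j, ∀ s ∈ P, M.ρ s (m j) = m j)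
    (f : powRep B d) :
    (coverMapB B b hb m hm).hom f = ∑ j : Fin d, (evB B b hb (m j) (hm j)).hom (f j) := by
  unfold coverMapB
  rw [Rep.sum_hom]
  induction (Finset.univ : Finset (Fin d)) using Finset.induction_on with
  | empty => rfl
  | insert a s ha ih =>
    rw [Finset.sum_insert ha, Finset.sum_insert ha, ← ih]
    rfl

lemma coverMapB_powι {d : ℕ} (m : Fin d → M) (hm : ∀ j, ∀ s ∈ P, M.ρ s (m j) = m j) (j : Fin d) :
    (coverMapB B b hb m hm).hom ((powι B d j).hom (b ((1 : G) : G ⧸ P))) = m j := by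
  rw [coverMapB_apply, Finset.sum_eq_single j]
  · show (evB B b hb (m j) (hm j)).hom
      (Pi.single (M := fun _ : Fin d => B.V) j (b ((1 : G) : G ⧸ P)) j) = _
    rw [Pi.single_eq_same, evB_basis_one]
  · intro i _ hi
    show (evB B b hb (m i) (hm i)).hom
      (Pi.single (M := fun _ : Fin d => B.V) j (b ((1 : G) : G ⧸ P)) i) = 0
    rw [Pi.single_eq_of_ne (M := fun _ : Fin d => B.V) hi, map_zero]
  · intro h
    exact absurd (Finset.mem_univ j) h

lemma coverMapB_surjective {d : ℕ} (m : Fin d → M) (hm : ∀ j, ∀ s ∈ P, M.ρ s (m j) = m j)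
    (hspan : Submodule.span k (Set.range m) = ⊤) :
    Function.Surjective (coverMapB B b hb m hm).hom := by
  have hle : Submodule.span k (Set.range m) ≤
      LinearMap.range (coverMapB B b hb m hm).hom.toLinearMap := by
    rw [Submodule.span_le]
    rintro _ ⟨j, rfl⟩
    exact ⟨_, coverMapB_powι B b hb m hm j⟩
  rw [hspan, top_le_iff] at hle
  intro x
  have hx : x ∈ LinearMap.range (coverMapB B b hb m hm).hom.toLinearMap := by
    rw [hle]
    exact Submodule.mem_top
  exact hx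

include hb in
/-- (3) free cover by powers of a permutation module on `G ⧸ P`, `P` acting trivially on `M`. -/
theorem exists_free_cover_of_basis (M : Rep.{0, 0, 0} k G) (hP : ∀ s ∈ P, ∀ m : M, M.ρ s m = m)
    [Module.Finite k M] : ∃ (d : ℕ) (π : powRep B d ⟶ M), Function.Surjective π.hom := by
  obtain ⟨d, m, hm⟩ := Module.Finite.exists_fin (R := k) (M := M)
  exact ⟨d, coverMapB B b hb m (fun j s hs => hP s hs (m j)), coverMapB_surjective B b hb m _ hm⟩

end Coset

/-- (3), packaged, for any model `B` of `k[G/U]` with a permutation basis. -/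
theorem exists_free_cover_ses_of_basis {k : Type} [Field k] {G : Type} [Group G] (𝒰 : NBasis G)
    {U : Subgroup G} (B : Rep.{0, 0, 0} k G) (b : Basis (G ⧸ U) k B)
    (hb : ∀ g x, B.ρ g (b x) = b (g • x)) (M : Rep.{0, 0, 0} k G) (hU : 𝒰.mem U)
    (hUM : ∀ s ∈ U, ∀ m : M, M.ρ s m = m) [FiniteDimensional k M] :
    ∃ (d : ℕ) (π : powRep B d ⟶ M), Function.Surjective π.hom ∧
      IsUSmooth 𝒰 (powRep B d) ∧ FiniteDimensional k (powRep B d) ∧
      IsUSmooth 𝒰 (kerRep π) ∧ FiniteDimensional k (kerRep π) ∧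
      Function.Injective (kerι π).hom ∧ ∀ a, π.hom a = 0 ↔ ∃ r, (kerι π).hom r = a := by
  obtain ⟨d, π, hπ⟩ := exists_free_cover_of_basis B b hb M hUM
  have h1 : IsUSmooth 𝒰 (powRep B d) := isUSmooth_powRep d (isUSmooth_of_basis B b hb 𝒰 hU le_rfl)
  have h2 : FiniteDimensional k (powRep B d) := by
    have := finite_of_basis B b 𝒰 hU le_rfl
    exact finite_powRep d
  exact ⟨d, π, hπ, h1, h2, isUSmooth_kerRep π h1, finite_kerRep π, kerι_injective π,
    eq_zero_iff_exists_kerι π⟩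

/-! ### `H⁰` of the twisted dual -/

section H0

variable {k : Type} [Field k] {G : Type} [Group G] {P : Subgroup G}
  (B : Rep.{0, 0, 0} k G) (b : Basis (G ⧸ P) k B) (hb : ∀ g x, B.ρ g (b x) = b (g • x))
  (χ : G →* kˣ)

/-- the functional `b [g] ↦ χ g` -/
def yB : Module.Dual k B := b.constr k fun x : G ⧸ P => ((χ x.out : kˣ) : k)

variable {χ}

lemma yB_basis (hχ : ∀ s ∈ P, χ s = 1) (g : G) : yB B b χ (b (g : G ⧸ P)) = (χ g : k) := by
  rw [yB, Basis.constr_basis, χ_out_eq hχ]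

include hb in
lemma dualTwist_ρ_basis (f : Module.Dual k B) (g h : G) :
    (B.dualTwist χ).ρ g f (b (h : G ⧸ P)) = (χ g : k) * f (b ((g⁻¹ * h : G) : G ⧸ P)) := by
  rw [Rep.dualTwist_ρ_apply, LinearMap.smul_apply, LinearMap.comp_apply, smul_eq_mul, hb]
  rfl

include hb in
/-- `yB` is invariant for the twisted action -/
lemma ρ_yB (hχ : ∀ s ∈ P, χ s = 1) (g : G) : (B.dualTwist χ).ρ g (yB B b χ) = yB B b χ := by
  apply b.ext
  intro x
  induction x using QuotientGroup.induction_on with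
  | H h =>
    rw [dualTwist_ρ_basis B b hb, yB_basis B b hχ, yB_basis B b hχ, map_mul, map_inv,
      Units.val_mul, ← mul_assoc, ← Units.val_mul, mul_inv_cancel, Units.val_one, one_mul]

include hb in
/-- an invariant functional is a multiple of `yB` -/
lemma eq_smul_yB (hχ : ∀ s ∈ P, χ s = 1) (f : Module.Dual k B)
    (hf : ∀ g, (B.dualTwist χ).ρ g f = f) :
    f = f (b ((1 : G) : G ⧸ P)) • yB B b χ := by
  apply b.ext
  intro x
  induction x using QuotientGroup.induction_on with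
  | H h =>
    have h1 := congrArg (fun φ : Module.Dual k B => φ (b (h : G ⧸ P))) (hf h)
    simp only at h1
    rw [dualTwist_ρ_basis B b hb, inv_mul_cancel] at h1
    rw [LinearMap.smul_apply, yB_basis B b hχ, smul_eq_mul, ← h1]
    ring

include hb in
/-- (4c) `H⁰(G, B^∨(χ))` is one-dimensional (spanned by `yB`) for a permutation module `B` on
`G ⧸ P`, `P` open and `χ` trivial on `P`. -/
theorem finrank_H0_dualTwist_of_basis (𝒰 : NBasis G) {U : Subgroup G} (hU : 𝒰.mem U)
    (hUP : U ≤ P) (hχ : ∀ s ∈ P, χ s = 1) :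
    Module.finrank k ↥(H0 𝒰 (B.dualTwist χ)) = 1 := by
  set N := B.dualTwist χ with hN
  have hsm : IsUSmooth 𝒰 N :=
    isUSmooth_dualTwist B χ (isUSmooth_of_basis B b hb 𝒰 hU hUP)
      ⟨U, hU, fun s hs => hχ s (hUP hs)⟩
  have hyC : (yB B b χ : N) ∈ C₀ 𝒰 N := by
    rw [hsm.C₀_eq_top]
    exact Submodule.mem_top
  have hyH : (⟨yB B b χ, hyC⟩ : ↥(C₀ 𝒰 N)) ∈ H0 𝒰 N := by
    rw [LinearMap.mem_ker]
    apply Subtype.ext
    rw [dC₀_coe]
    funext g
    show (groupCohomology.d₀₁ N).hom (yB B b χ : N) g = 0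
    rw [groupCohomology.d₀₁_hom_apply, ρ_yB B b hb hχ, sub_self]
  refine finrank_eq_one (⟨⟨yB B b χ, hyC⟩, hyH⟩ : ↥(H0 𝒰 N)) ?_ ?_
  · intro h0
    have h1 : yB B b χ = 0 := congrArg (fun w : ↥(H0 𝒰 N) => ((w : ↥(C₀ 𝒰 N)) : N)) h0
    have h2 := congrArg (fun φ : Module.Dual k B => φ (b ((1 : G) : G ⧸ P))) h1
    simp only [LinearMap.zero_apply] at h2
    rw [yB_basis B b hχ, map_one, Units.val_one] at h2
    exact one_ne_zero h2
  · rintro ⟨⟨f, hfC⟩, hfH⟩
    have hf : ∀ g, N.ρ g f = f := by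
      intro g
      rw [LinearMap.mem_ker] at hfH
      have h1 := congrArg (fun w : ↥(C₁ 𝒰 N) => (w : G → N) g) hfH
      simp only [dC₀_coe] at h1
      have h2 : (groupCohomology.d₀₁ N).hom f g = 0 := h1
      rw [groupCohomology.d₀₁_hom_apply, sub_eq_zero] at h2
      exact h2
    refine ⟨(f : Module.Dual k B) (b ((1 : G) : G ⧸ P)), ?_⟩
    apply Subtype.ext
    apply Subtype.ext
    exact (eq_smul_yB B b hb hχ f hf).symm

end H0

/-! ### the official model `Formal.perm k P = Rep.ofMulAction k G (G ⧸ P)` -/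

section Official

variable {k : Type} [Field k] {G : Type} [Group G] (P : Subgroup G)

/-- the standard permutation basis of the official `perm k P` -/
def permBasis : Basis (G ⧸ P) k (Formal.perm k P) := MonoidAlgebra.basis (G ⧸ P) k

theorem perm_ρ_basis (g : G) (x : G ⧸ P) :
    (Formal.perm k P).ρ g (permBasis (k := k) P x) = permBasis P (g • x) := by
  change (Representation.ofMulAction k G (G ⧸ P)) g (MonoidAlgebra.basis (G ⧸ P) k x) =
    MonoidAlgebra.basis (G ⧸ P) k (g • x)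
  rw [MonoidAlgebra.basis_apply, MonoidAlgebra.basis_apply, Representation.ofMulAction_single]

variable {P}

/-- (1a) official `perm k P` is uniformly smooth for open `P` -/
theorem isUSmooth_perm (𝒰 : NBasis G) (hP : 𝒰.IsOpen P) : IsUSmooth 𝒰 (Formal.perm k P) := by
  obtain ⟨U, hU, hUP⟩ := hP
  exact isUSmooth_of_basis _ (permBasis P) (perm_ρ_basis P) 𝒰 hU hUP

/-- (1b) official `perm k P` is finite-dimensional for open `P` -/
theorem finite_perm (𝒰 : NBasis G) (hP : 𝒰.IsOpen P) : Module.Finite k (Formal.perm k P) := by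
  obtain ⟨U, hU, hUP⟩ := hP
  exact finite_of_basis _ (permBasis P) 𝒰 hU hUP

/-- (2) Frobenius reciprocity for the official `perm k P` -/
def evP {M : Rep.{0, 0, 0} k G} (m : M) (hm : ∀ s ∈ P, M.ρ s m = m) : Formal.perm k P ⟶ M :=
  evB _ (permBasis P) (perm_ρ_basis P) m hm

lemma evP_basis {M : Rep.{0, 0, 0} k G} (m : M) (hm : ∀ s ∈ P, M.ρ s m = m) (g : G) :
    (evP m hm).hom (permBasis P (g : G ⧸ P)) = M.ρ g m :=
  evB_basis _ _ _ m hm g

lemma evP_single {M : Rep.{0, 0, 0} k G} (m : M) (hm : ∀ s ∈ P, M.ρ s m = m) (g : G) :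
    (evP m hm).hom (MonoidAlgebra.single (g : G ⧸ P) (1 : k)) = M.ρ g m := by
  have := evP_basis m hm g
  rwa [permBasis, MonoidAlgebra.basis_apply] at this

/-- (3) free covers for the official model: `B_U^d = powRep (perm k U) d ↠ M` with kernel. -/
theorem exists_free_cover_perm (𝒰 : NBasis G) {U : Subgroup G} (M : Rep.{0, 0, 0} k G)
    (hU : 𝒰.mem U) (hUM : ∀ s ∈ U, ∀ m : M, M.ρ s m = m) [FiniteDimensional k M] :
    ∃ (d : ℕ) (π : powRep (Formal.perm k U) d ⟶ M), Function.Surjective π.hom ∧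
      IsUSmooth 𝒰 (powRep (Formal.perm k U) d) ∧
      FiniteDimensional k (powRep (Formal.perm k U) d) ∧
      IsUSmooth 𝒰 (kerRep π) ∧ FiniteDimensional k (kerRep π) ∧
      Function.Injective (kerι π).hom ∧ ∀ a, π.hom a = 0 ↔ ∃ r, (kerι π).hom r = a :=
  exists_free_cover_ses_of_basis 𝒰 _ (permBasis U) (perm_ρ_basis U) M hU hUM

/-- the same, starting from `IsUSmooth` -/
theorem exists_free_cover_perm' (𝒰 : NBasis G) (M : Rep.{0, 0, 0} k G) (hM : IsUSmooth 𝒰 M)
    [FiniteDimensional k M] :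
    ∃ (U : Subgroup G) (_ : 𝒰.mem U) (d : ℕ) (π : powRep (Formal.perm k U) d ⟶ M),
      Function.Surjective π.hom ∧
      IsUSmooth 𝒰 (powRep (Formal.perm k U) d) ∧
      FiniteDimensional k (powRep (Formal.perm k U) d) ∧
      IsUSmooth 𝒰 (kerRep π) ∧ FiniteDimensional k (kerRep π) ∧
      Function.Injective (kerι π).hom ∧ ∀ a, π.hom a = 0 ↔ ∃ r, (kerι π).hom r = a := by
  obtain ⟨U, hU, hUM⟩ := hM
  obtain ⟨d, π, h⟩ := exists_free_cover_perm 𝒰 M hU hUM
  exact ⟨U, hU, d, π, h⟩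

/-- (4a) `tw M χ` is uniformly smooth -/
theorem isUSmooth_tw {𝒰 : NBasis G} {M : Rep.{0, 0, 0} k G} (χ : G →* kˣ) (h : IsUSmooth 𝒰 M)
    (hχ : ∃ U, 𝒰.mem U ∧ TrivOn χ U) : IsUSmooth 𝒰 (tw M χ) :=
  isUSmooth_dualTwist M χ h hχ

/-- (4c) `H⁰(G, k[G/P]'(χ))` is one-dimensional for the official model -/
theorem finrank_H0_tw_perm (𝒰 : NBasis G) {χ : G →* kˣ} (hP : 𝒰.IsOpen P) (hχ : TrivOn χ P) :
    Module.finrank k ↥(H0 𝒰 (tw (Formal.perm k P) χ)) = 1 := by
  obtain ⟨U, hU, hUP⟩ := hP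
  exact finrank_H0_dualTwist_of_basis _ (permBasis P) (perm_ρ_basis P) 𝒰 hU hUP hχ

end Official

end

end Fermat.Agent.S55.Formal.PermBasis
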