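/-
S55 / Formal end, piece `Formal.SiteCount` (owner helper18): dimension bookkeeping on a `Site`.

* generic: `finrank_mid_add` (five-term exact sequence `A → B → C → D → E`:
  `dim C + dim A = dim B + dim ker(A → B) + dim ker(D → E)`), `finite_mid_of_exact`;
* generic: `Hmid` of a product complex is the product of the `Hmid`s (`piEquiv`);
* `P1equiv P2equiv P3equiv (X : Site) M : P^i(M) ≃ Π_v H^i(Γ_v, M)`, compatible with `loc_i` and the
  restriction morphisms `(X.res M v).h_i`; `mem_sha1_iff`, `mem_sha2_iff`;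
* `finrank_H2c_add X M` : `dim H²_c + dim H¹ = dim P¹ + dim Ш¹ + dim Ш²`
  (audit point (6) of report 1539, the formal half of (A-G2'));
* `finrank_H3c_add X M`, and under `Vanish₃`: `H3cEquivCoker : H³_c ≃ P² ⧸ range loc₂`,
  `finrank_H3c_add_of_vanish : dim H³_c + dim H² = dim P² + dim Ш²`;
* `finrank_P1 = Σ_v dim H¹(Γ_v, M)` etc.
-/
import Fermat.Agent.S55.Formal.Site

set_option autoImplicit false

open Module

namespace Fermat.Agent.S55.Formal.SiteCount

open Fermat.Agent.S55.Formal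

/-! ### generic exact-sequence numerics -/

section Generic

variable {k : Type*} [Field k]
variable {A B C D E : Type*} [AddCommGroup A] [Module k A] [AddCommGroup B] [Module k B]
  [AddCommGroup C] [Module k C] [AddCommGroup D] [Module k D] [AddCommGroup E] [Module k E]

/-- The middle term of an exact `B → C → D` with `B` and `D` finite-dimensional is
finite-dimensional. -/
theorem finite_mid_of_exact (g : B →ₗ[k] C) (h : C →ₗ[k] D) (hgh : Function.Exact g h)
    [FiniteDimensional k B] [FiniteDimensional k D] : FiniteDimensional k C := by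
  have hker : LinearMap.ker h = LinearMap.range g := (LinearMap.exact_iff.1 hgh)
  have : Module.Finite k ↥(LinearMap.ker h) := by
    rw [hker]; infer_instance
  have : Module.Finite k (C ⧸ LinearMap.ker h) :=
    Module.Finite.equiv (LinearMap.quotKerEquivRange h).symm
  exact Module.Finite.of_submodule_quotient (LinearMap.ker h)

/-- The middle term of an exact `B → C → D → E` with `B` and `ker (D → E)` finite-dimensional is
finite-dimensional. -/
theorem finite_mid_of_exact' (g : B →ₗ[k] C) (h : C →ₗ[k] D) (l : D →ₗ[k] E)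
    (hgh : Function.Exact g h) (hhl : Function.Exact h l)
    [FiniteDimensional k B] [FiniteDimensional k ↥(LinearMap.ker l)] : FiniteDimensional k C := by
  have hker : LinearMap.ker h = LinearMap.range g := (LinearMap.exact_iff.1 hgh)
  have hker' : LinearMap.ker l = LinearMap.range h := (LinearMap.exact_iff.1 hhl)
  have : Module.Finite k ↥(LinearMap.ker h) := by
    rw [hker]; infer_instance
  have : Module.Finite k ↥(LinearMap.range h) := by
    rw [← hker']; infer_instance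
  have : Module.Finite k (C ⧸ LinearMap.ker h) :=
    Module.Finite.equiv (LinearMap.quotKerEquivRange h).symm
  exact Module.Finite.of_submodule_quotient (LinearMap.ker h)

/-- **Five-term numerics.**  For `A -f→ B -g→ C -h→ D -l→ E` exact at `B`, `C`, `D`:
`dim C + dim A = dim B + dim ker f + dim ker l`. -/
theorem finrank_mid_add (f : A →ₗ[k] B) (g : B →ₗ[k] C) (h : C →ₗ[k] D) (l : D →ₗ[k] E)
    (hfg : Function.Exact f g) (hgh : Function.Exact g h) (hhl : Function.Exact h l)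
    [FiniteDimensional k A] [FiniteDimensional k B] [FiniteDimensional k C] :
    finrank k C + finrank k A =
      finrank k B + finrank k ↥(LinearMap.ker f) + finrank k ↥(LinearMap.ker l) := by
  have h1 : LinearMap.ker g = LinearMap.range f := LinearMap.exact_iff.1 hfg
  have h2 : LinearMap.ker h = LinearMap.range g := LinearMap.exact_iff.1 hgh
  have h3 : LinearMap.ker l = LinearMap.range h := LinearMap.exact_iff.1 hhl
  have rA := LinearMap.finrank_range_add_finrank_ker f
  have rB := LinearMap.finrank_range_add_finrank_ker g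
  have rC := LinearMap.finrank_range_add_finrank_ker h
  rw [h1] at rB
  rw [h2] at rC
  rw [h3]
  omega

/-- If moreover `D → E` is injective on the image (e.g. `D = 0`), `C ≃ B ⧸ range f`. -/
noncomputable def midEquivCoker (f : A →ₗ[k] B) (g : B →ₗ[k] C)
    (hfg : Function.Exact f g) (hg : Function.Surjective g) : (B ⧸ LinearMap.range f) ≃ₗ[k] C :=
  (Submodule.quotEquivOfEq _ _ (LinearMap.exact_iff.1 hfg).symm).trans
    (g.quotKerEquivOfSurjective hg)

@[simp] theorem midEquivCoker_mk (f : A →ₗ[k] B) (g : B →ₗ[k] C)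
    (hfg : Function.Exact f g) (hg : Function.Surjective g) (b : B) :
    midEquivCoker f g hfg hg (Submodule.Quotient.mk b) = g b := rfl

end Generic

/-! ### `Hmid` of a product complex -/

section PiHmid

variable {k : Type*} [CommRing k] {ι : Type*}
variable {A B C : ι → Type*} [∀ v, AddCommGroup (A v)] [∀ v, Module k (A v)]
  [∀ v, AddCommGroup (B v)] [∀ v, Module k (B v)] [∀ v, AddCommGroup (C v)] [∀ v, Module k (C v)]

/-- the product of a family of linear maps -/
def piMap (f : ∀ v, A v →ₗ[k] B v) : (∀ v, A v) →ₗ[k] (∀ v, B v) :=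
  LinearMap.pi fun v => f v ∘ₗ LinearMap.proj v

@[simp] theorem piMap_apply (f : ∀ v, A v →ₗ[k] B v) (a : ∀ v, A v) (v : ι) :
    piMap f a v = f v (a v) := rfl

variable (f : ∀ v, A v →ₗ[k] B v) (g : ∀ v, B v →ₗ[k] C v)

/-- the `v`-th component `Hmid (Π f) (Π g) → Hmid (f v) (g v)` -/
def piProj (v : ι) : Hmid (piMap f) (piMap g) →ₗ[k] Hmid (f v) (g v) :=
  Hmid.mapOfComm (LinearMap.proj v) (LinearMap.proj v) (LinearMap.proj v) rfl rfl

theorem piProj_of (v : ι) (b : ∀ v, B v) (hb : piMap g b = 0) (hb' : g v (b v) = 0) :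
    piProj f g v (Hmid.of b hb) = Hmid.of (b v) hb' := rfl

/-- `Hmid (Π f) (Π g) → Π_v Hmid (f v) (g v)` -/
def piToPi : Hmid (piMap f) (piMap g) →ₗ[k] (∀ v, Hmid (f v) (g v)) :=
  LinearMap.pi fun v => piProj f g v

@[simp] theorem piToPi_apply (x : Hmid (piMap f) (piMap g)) (v : ι) :
    piToPi f g x v = piProj f g v x := rfl

theorem piToPi_injective : Function.Injective (piToPi f g) := by
  rw [← LinearMap.ker_eq_bot, LinearMap.ker_eq_bot']
  intro x hx
  obtain ⟨b, hb, rfl⟩ := Hmid.exists_of x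
  have hv : ∀ v, ∃ a : A v, f v a = b v := by
    intro v
    have h1 : g v (b v) = 0 := congrFun hb v
    have h2 : (Hmid.of (b v) h1 : Hmid (f v) (g v)) = 0 := congrFun hx v
    exact Hmid.of_eq_zero_iff.1 h2
  choose a ha using hv
  exact Hmid.of_eq_zero_iff.2 ⟨a, funext fun v => ha v⟩

theorem piToPi_surjective : Function.Surjective (piToPi f g) := by
  intro y
  have hv : ∀ v, ∃ (b : B v) (hb : g v b = 0), y v = Hmid.of b hb := fun v =>
    Hmid.exists_of (y v)
  choose b hb hy using hv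
  refine ⟨Hmid.of b (funext fun v => hb v), funext fun v => ?_⟩
  rw [hy v]
  rfl

/-- `Hmid` commutes with products. -/
noncomputable def piEquiv : Hmid (piMap f) (piMap g) ≃ₗ[k] (∀ v, Hmid (f v) (g v)) :=
  LinearEquiv.ofBijective (piToPi f g) ⟨piToPi_injective f g, piToPi_surjective f g⟩

@[simp] theorem piEquiv_apply (x : Hmid (piMap f) (piMap g)) (v : ι) :
    piEquiv f g x v = piProj f g v x := rfl

end PiHmid

/-! ### the site

All declarations stay in the namespace `Fermat.Agent.S55.Formal.SiteCount` (so write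
`SiteCount.P1equiv X M`, not the dot form on `X`): the namespace `Site` belongs to `Site.lean`. -/

section SiteEquiv

open Site

variable {k : Type} [CommRing k] (X : Site) (M : Rep.{0, 0, 0} k X.G)

/-- `P¹(M) ≃ Π_v H¹(Γ_v, M)` -/
noncomputable def P1equiv : X.P1 M ≃ₗ[k] (∀ v : X.I, H1 (X.𝒱 v) (X.loc M v)) :=
  piEquiv (fun v => dC₀ (X.𝒱 v) (X.loc M v)) (fun v => dC₁ (X.𝒱 v) (X.loc M v))

/-- `P²(M) ≃ Π_v H²(Γ_v, M)` -/
noncomputable def P2equiv : X.P2 M ≃ₗ[k] (∀ v : X.I, H2 (X.𝒱 v) (X.loc M v)) :=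
  piEquiv (fun v => dC₁ (X.𝒱 v) (X.loc M v)) (fun v => dC₂ (X.𝒱 v) (X.loc M v))

/-- `P³(M) ≃ Π_v H³(Γ_v, M)` -/
noncomputable def P3equiv : X.P3 M ≃ₗ[k] (∀ v : X.I, H3 (X.𝒱 v) (X.loc M v)) :=
  piEquiv (fun v => dC₂ (X.𝒱 v) (X.loc M v)) (fun v => dC₃ (X.𝒱 v) (X.loc M v))

theorem P1equiv_loc₁ (x : H1 X.𝒰 M) (v : X.I) :
    SiteCount.P1equiv X M (X.loc₁ M x) v = (X.res M v).h1 x := by
  obtain ⟨b, hb, rfl⟩ := Hmid.exists_of x
  rfl

theorem P2equiv_loc₂ (x : H2 X.𝒰 M) (v : X.I) :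
    SiteCount.P2equiv X M (X.loc₂ M x) v = (X.res M v).h2 x := by
  obtain ⟨b, hb, rfl⟩ := Hmid.exists_of x
  rfl

theorem P3equiv_loc₃ (x : H3 X.𝒰 M) (v : X.I) :
    SiteCount.P3equiv X M (X.loc₃ M x) v = (X.res M v).h3 x := by
  obtain ⟨b, hb, rfl⟩ := Hmid.exists_of x
  rfl

theorem mem_sha1_iff (x : H1 X.𝒰 M) : x ∈ X.sha1 M ↔ ∀ v, (X.res M v).h1 x = 0 := by
  unfold sha1
  rw [LinearMap.mem_ker, ← (SiteCount.P1equiv X M).map_eq_zero_iff, funext_iff]
  exact forall_congr' fun v => by rw [P1equiv_loc₁]; rfl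

theorem mem_sha2_iff (x : H2 X.𝒰 M) : x ∈ X.sha2 M ↔ ∀ v, (X.res M v).h2 x = 0 := by
  unfold sha2
  rw [LinearMap.mem_ker, ← (SiteCount.P2equiv X M).map_eq_zero_iff, funext_iff]
  exact forall_congr' fun v => by rw [P2equiv_loc₂]; rfl

end SiteEquiv

/-! ### counts (field coefficients) -/

section Count

open Site

variable {k : Type} [Field k] (X : Site) (M : Rep.{0, 0, 0} k X.G)

theorem finite_P1 [∀ v, FiniteDimensional k (H1 (X.𝒱 v) (X.loc M v))] :
    FiniteDimensional k (X.P1 M) :=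
  Module.Finite.equiv (SiteCount.P1equiv X M).symm

theorem finite_P2 [∀ v, FiniteDimensional k (H2 (X.𝒱 v) (X.loc M v))] :
    FiniteDimensional k (X.P2 M) :=
  Module.Finite.equiv (SiteCount.P2equiv X M).symm

theorem finrank_P1 [∀ v, FiniteDimensional k (H1 (X.𝒱 v) (X.loc M v))] :
    finrank k (X.P1 M) = ∑ v, finrank k (H1 (X.𝒱 v) (X.loc M v)) := by
  rw [(SiteCount.P1equiv X M).finrank_eq, Module.finrank_pi_fintype]

theorem finrank_P2 [∀ v, FiniteDimensional k (H2 (X.𝒱 v) (X.loc M v))] :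
    finrank k (X.P2 M) = ∑ v, finrank k (H2 (X.𝒱 v) (X.loc M v)) := by
  rw [(SiteCount.P2equiv X M).finrank_eq, Module.finrank_pi_fintype]

/-- `H²_c` is finite-dimensional as soon as `P¹` and `H²` are. -/
theorem finite_H2c [FiniteDimensional k (X.P1 M)] [FiniteDimensional k (H2 X.𝒰 M)] :
    FiniteDimensional k (X.H2c M) :=
  finite_mid_of_exact (X.ι₂ M) (X.π₂ M) (X.exact_ι₂_π₂ M)

/-- `H²_c` is finite-dimensional as soon as `P¹` and `Ш²` are. -/
theorem finite_H2c' [FiniteDimensional k (X.P1 M)] [FiniteDimensional k ↥(X.sha2 M)] :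
    FiniteDimensional k (X.H2c M) := by
  have : FiniteDimensional k ↥(LinearMap.ker (X.loc₂ M)) := ‹FiniteDimensional k ↥(X.sha2 M)›
  exact finite_mid_of_exact' (X.ι₂ M) (X.π₂ M) (X.loc₂ M) (X.exact_ι₂_π₂ M) (X.exact_π₂_loc₂ M)

/-- `H³_c` is finite-dimensional as soon as `P²` and `H³` are. -/
theorem finite_H3c [FiniteDimensional k (X.P2 M)] [FiniteDimensional k (H3 X.𝒰 M)] :
    FiniteDimensional k (X.H3c M) :=
  finite_mid_of_exact (X.ι₃ M) (X.π₃ M) (X.exact_ι₃_π₃ M)

/-- **The count behind (A-G2').**  `dim H²_c + dim H¹ = dim P¹ + dim Ш¹ + dim Ш²`. -/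
theorem finrank_H2c_add [FiniteDimensional k (H1 X.𝒰 M)] [FiniteDimensional k (X.P1 M)]
    [FiniteDimensional k (X.H2c M)] :
    finrank k (X.H2c M) + finrank k (H1 X.𝒰 M) =
      finrank k (X.P1 M) + finrank k ↥(X.sha1 M) + finrank k ↥(X.sha2 M) :=
  finrank_mid_add (X.loc₁ M) (X.ι₂ M) (X.π₂ M) (X.loc₂ M) (X.exact_loc₁_ι₂ M)
    (X.exact_ι₂_π₂ M) (X.exact_π₂_loc₂ M)

/-- `dim H³_c + dim H² = dim P² + dim Ш² + dim ker loc₃`. -/
theorem finrank_H3c_add [FiniteDimensional k (H2 X.𝒰 M)] [FiniteDimensional k (X.P2 M)]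
    [FiniteDimensional k (X.H3c M)] :
    finrank k (X.H3c M) + finrank k (H2 X.𝒰 M) =
      finrank k (X.P2 M) + finrank k ↥(X.sha2 M) + finrank k ↥(LinearMap.ker (X.loc₃ M)) :=
  finrank_mid_add (X.loc₂ M) (X.ι₃ M) (X.π₃ M) (X.loc₃ M) (X.exact_loc₂_ι₃ M)
    (X.exact_ι₃_π₃ M) (X.exact_π₃_loc₃ M)

/-- If `H³(G, M) = 0` then `H³_c(M) = coker loc₂`. -/
noncomputable def H3cEquivCoker (h : Vanish₃ X.𝒰 M) :
    (X.P2 M ⧸ LinearMap.range (X.loc₂ M)) ≃ₗ[k] X.H3c M :=
  midEquivCoker (X.loc₂ M) (X.ι₃ M) (X.exact_loc₂_ι₃ M) (X.ι₃_surjective M h)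

@[simp] theorem H3cEquivCoker_mk (h : Vanish₃ X.𝒰 M) (b : X.P2 M) :
    SiteCount.H3cEquivCoker X M h (Submodule.Quotient.mk b) = X.ι₃ M b := rfl

/-- If `H³(G, M) = 0` and `P²` is finite-dimensional then so is `H³_c`. -/
theorem finite_H3c_of_vanish (h : Vanish₃ X.𝒰 M) [FiniteDimensional k (X.P2 M)] :
    FiniteDimensional k (X.H3c M) :=
  Module.Finite.equiv (SiteCount.H3cEquivCoker X M h)

/-- If `H³(G, M) = 0`: `dim H³_c + dim H² = dim P² + dim Ш²`. -/
theorem finrank_H3c_add_of_vanish (h : Vanish₃ X.𝒰 M) [FiniteDimensional k (H2 X.𝒰 M)]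
    [FiniteDimensional k (X.P2 M)] :
    finrank k (X.H3c M) + finrank k (H2 X.𝒰 M) = finrank k (X.P2 M) + finrank k ↥(X.sha2 M) := by
  have h1 := (SiteCount.H3cEquivCoker X M h).finrank_eq
  have h2 := Submodule.finrank_quotient_add_finrank (LinearMap.range (X.loc₂ M))
  have h3 := LinearMap.finrank_range_add_finrank_ker (X.loc₂ M)
  unfold sha2
  omega

end Count

end Fermat.Agent.S55.Formal.SiteCount
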