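/-
S55 / formal end (helper87): row (R-b) of report #1796 — the BASE CASES read off from `BaseA`
(`Formal/Blocks.lean` v3) for the permutation modules `perm k U`, `U ∈ 𝒰`, `χ` trivial on `U`:

* `finite_H3c_perm`, `finrank_H3c_perm_le_one` : `H³_c(k[G/U])` is finite-dimensional of dimension `≤ 1`
  (`SiteCount.H3cEquivCoker` + `g₃` + `vanish₃`);
* `finrank_H0_tw_perm` : `dim H⁰(G, k[G/U]'(χ)) = 1`;
* `finite_P2_perm`, `finite_P1_perm` : `Π_v H²(Γ_v, k[G/U])` and `Π_v H¹(Γ_v, k[G/U])` are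
  finite-dimensional (`fin₂ + g₃`, resp. `fin₁ + g₂`);
* local: `finite_H2_loc_perm`, `finrank_H2_loc_perm_le_one`, `finrank_H0_loc_tw_perm`.
-/
import Fermat.Agent.S55.Formal.Blocks
import Fermat.Agent.S55.Formal.PermBasis
import Fermat.Agent.S55.Formal.SiteCount

set_option autoImplicit false

open CategoryTheory groupCohomology Module

namespace Fermat.Agent.S55.Formal.BaseCases

open Fermat.Agent.S55.Formal

variable {X : Site} {k : Type} [Field k] {χ : X.G →* kˣ}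

section Global

variable (h : BaseA X k χ) {U : Subgroup X.G} (hU : X.𝒰.mem U) (hχU : TrivOn χ U)
include h hU hχU

theorem vanish₃_perm : Vanish₃ X.𝒰 (perm k U) := h.vanish₃ U ⟨U, hU, le_rfl⟩ hχU

/-- `H³_c(k[G/U])` is finite-dimensional. -/
theorem finite_H3c_perm : Module.Finite k (X.H3c (perm k U)) := by
  have := (h.g₃ U hU hχU).1
  exact Module.Finite.equiv (SiteCount.H3cEquivCoker X (perm k U) (vanish₃_perm h hU hχU))

/-- `dim H³_c(k[G/U]) ≤ 1`. -/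
theorem finrank_H3c_perm_le_one : finrank k (X.H3c (perm k U)) ≤ 1 := by
  rw [← (SiteCount.H3cEquivCoker X (perm k U) (vanish₃_perm h hU hχU)).finrank_eq]
  exact (h.g₃ U hU hχU).2

omit h in
/-- `dim H⁰(G, k[G/U]'(χ)) = 1`. -/
theorem finrank_H0_tw_perm : finrank k ↥(H0 X.𝒰 (tw (perm k U) χ)) = 1 :=
  PermBasis.finrank_H0_tw_perm X.𝒰 ⟨U, hU, le_rfl⟩ hχU

/-- `H²_c(k[G/U])` is finite-dimensional. -/
theorem finite_H2c_perm : Module.Finite k (X.H2c (perm k U)) := (h.g₂ U hU hχU).1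

/-- `Π_v H²(Γ_v, k[G/U])` is finite-dimensional. -/
theorem finite_P2_perm : Module.Finite k (X.P2 (perm k U)) := by
  have h1 := (h.g₃ U hU hχU).1
  have h2 : Module.Finite k (H2 X.𝒰 (perm k U)) := h.fin₂ U ⟨U, hU, le_rfl⟩ hχU
  have h3 : Module.Finite k ↥(LinearMap.range (X.loc₂ (perm k U))) :=
    Module.Finite.range (X.loc₂ (perm k U))
  exact Module.Finite.of_submodule_quotient (LinearMap.range (X.loc₂ (perm k U)))

/-- `Π_v H¹(Γ_v, k[G/U])` is finite-dimensional. -/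
theorem finite_P1_perm : Module.Finite k (X.P1 (perm k U)) := by
  have h1 : Module.Finite k (H1 X.𝒰 (perm k U)) := h.fin₁ U ⟨U, hU, le_rfl⟩ hχU
  have h2 := finite_H2c_perm h hU hχU
  exact SiteCount.finite_mid_of_exact (X.loc₁ (perm k U)) (X.ι₂ (perm k U))
    (X.exact_loc₁_ι₂ (perm k U))

end Global

section Local

variable (h : BaseA X k χ) (v : X.I) {U : Subgroup (X.Γ v)} (hU : (X.𝒱 v).mem U)
  (hχU : TrivOn (χ.comp (X.ι v)) U)
include h hU hχU

/-- `H²(Γ_v, k[Γ_v/U])` is finite-dimensional. -/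
theorem finite_H2_loc_perm : Module.Finite k (H2 (X.𝒱 v) (perm k U)) := (h.loc₂ v U hU hχU).1

/-- `dim H²(Γ_v, k[Γ_v/U]) ≤ 1`. -/
theorem finrank_H2_loc_perm_le_one : finrank k (H2 (X.𝒱 v) (perm k U)) ≤ 1 :=
  (h.loc₂ v U hU hχU).2

/-- `H³(Γ_v, k[Γ_v/U]) = 0`. -/
theorem vanish₃_loc_perm : Vanish₃ (X.𝒱 v) (perm k U) :=
  h.vanish₃_loc v U ⟨U, hU, le_rfl⟩ hχU

omit h in
/-- `dim H⁰(Γ_v, k[Γ_v/U]'(χ_v)) = 1`. -/
theorem finrank_H0_loc_tw_perm :
    finrank k ↥(H0 (X.𝒱 v) (tw (perm k U) (χ.comp (X.ι v)))) = 1 :=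
  PermBasis.finrank_H0_tw_perm (X.𝒱 v) ⟨U, hU, le_rfl⟩ hχU

end Local

end Fermat.Agent.S55.Formal.BaseCases
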