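import Mathlib
import Fermat.Agent.S55.Formal.Hmid

/-!
# S55, formal end: the long exact sequence of a degreewise short exact sequence of windows

Plain `k`-modules, no category theory.  A *window* is `X0 -x0→ X1 -x1→ X2 -x2→ X3` with `d ∘ d = 0`.
Given a degreewise short exact sequence of windows `0 → A -i→ B -p→ C → 0` (hypothesis bundle
`IsSES`), with `H¹ = Hmid x0 x1` and `H² = Hmid x1 x2`:

* `Hi1, Hp1, Hi2, Hp2` : the induced maps on `H¹`, `H²`;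
* `delta : H¹(C) → H²(A)` : the connecting homomorphism, characterised by `delta_of`:
  if `b1 β = i2 α` then `delta [p1 β] = [α]`;
* `exact_Hi1_Hp1`, `exact_Hp1_delta`, `exact_delta_Hi2`, `exact_Hi2_Hp2` : exactness of
  `H¹(A) → H¹(B) → H¹(C) -δ→ H²(A) → H²(B) → H²(C)`;
* `delta_natural` : naturality of `delta` for a morphism of short exact sequences of windows.

Shifting the window (and putting `PUnit` at the ends) gives the long exact sequence in every degree.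
-/

set_option autoImplicit false

namespace Fermat.Agent.S55.Formal.SnakeWindow

open Fermat.Agent.S55.Formal

variable {k : Type*} [CommRing k]
variable {A0 A1 A2 A3 B0 B1 B2 B3 C0 C1 C2 C3 : Type*}
  [AddCommGroup A0] [Module k A0] [AddCommGroup A1] [Module k A1]
  [AddCommGroup A2] [Module k A2] [AddCommGroup A3] [Module k A3]
  [AddCommGroup B0] [Module k B0] [AddCommGroup B1] [Module k B1]
  [AddCommGroup B2] [Module k B2] [AddCommGroup B3] [Module k B3]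
  [AddCommGroup C0] [Module k C0] [AddCommGroup C1] [Module k C1]
  [AddCommGroup C2] [Module k C2] [AddCommGroup C3] [Module k C3]

/-- A degreewise short exact sequence of windows `0 → A → B → C → 0`. -/
structure IsSES
    (a0 : A0 →ₗ[k] A1) (a1 : A1 →ₗ[k] A2) (a2 : A2 →ₗ[k] A3)
    (b0 : B0 →ₗ[k] B1) (b1 : B1 →ₗ[k] B2) (b2 : B2 →ₗ[k] B3)
    (c0 : C0 →ₗ[k] C1) (c1 : C1 →ₗ[k] C2) (c2 : C2 →ₗ[k] C3)
    (i0 : A0 →ₗ[k] B0) (i1 : A1 →ₗ[k] B1) (i2 : A2 →ₗ[k] B2) (i3 : A3 →ₗ[k] B3)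
    (p0 : B0 →ₗ[k] C0) (p1 : B1 →ₗ[k] C1) (p2 : B2 →ₗ[k] C2) (p3 : B3 →ₗ[k] C3) : Prop where
  aa1 : ∀ x, a1 (a0 x) = 0
  aa2 : ∀ x, a2 (a1 x) = 0
  bb1 : ∀ x, b1 (b0 x) = 0
  bb2 : ∀ x, b2 (b1 x) = 0
  cc1 : ∀ x, c1 (c0 x) = 0
  cc2 : ∀ x, c2 (c1 x) = 0
  ia0 : ∀ x, b0 (i0 x) = i1 (a0 x)
  ia1 : ∀ x, b1 (i1 x) = i2 (a1 x)
  ia2 : ∀ x, b2 (i2 x) = i3 (a2 x)
  pb0 : ∀ x, c0 (p0 x) = p1 (b0 x)
  pb1 : ∀ x, c1 (p1 x) = p2 (b1 x)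
  pb2 : ∀ x, c2 (p2 x) = p3 (b2 x)
  inj2 : Function.Injective i2
  inj3 : Function.Injective i3
  surj0 : Function.Surjective p0
  surj1 : Function.Surjective p1
  ex1 : Function.Exact i1 p1
  ex2 : Function.Exact i2 p2

section Main

variable {a0 : A0 →ₗ[k] A1} {a1 : A1 →ₗ[k] A2} {a2 : A2 →ₗ[k] A3}
  {b0 : B0 →ₗ[k] B1} {b1 : B1 →ₗ[k] B2} {b2 : B2 →ₗ[k] B3}
  {c0 : C0 →ₗ[k] C1} {c1 : C1 →ₗ[k] C2} {c2 : C2 →ₗ[k] C3}
  {i0 : A0 →ₗ[k] B0} {i1 : A1 →ₗ[k] B1} {i2 : A2 →ₗ[k] B2} {i3 : A3 →ₗ[k] B3}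
  {p0 : B0 →ₗ[k] C0} {p1 : B1 →ₗ[k] C1} {p2 : B2 →ₗ[k] C2} {p3 : B3 →ₗ[k] C3}
  (h : IsSES a0 a1 a2 b0 b1 b2 c0 c1 c2 i0 i1 i2 i3 p0 p1 p2 p3)

include h

theorem pi1 (x : A1) : p1 (i1 x) = 0 := (h.ex1 (i1 x)).mpr ⟨x, rfl⟩

theorem pi2 (x : A2) : p2 (i2 x) = 0 := (h.ex2 (i2 x)).mpr ⟨x, rfl⟩

/-! ### The induced maps -/

/-- `H¹(A) → H¹(B)`. -/
def Hi1 : Hmid a0 a1 →ₗ[k] Hmid b0 b1 :=
  Hmid.map i1 (fun x hx => by rw [h.ia1, hx, map_zero]) (fun x => ⟨i0 x, h.ia0 x⟩)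

/-- `H¹(B) → H¹(C)`. -/
def Hp1 : Hmid b0 b1 →ₗ[k] Hmid c0 c1 :=
  Hmid.map p1 (fun x hx => by rw [h.pb1, hx, map_zero]) (fun x => ⟨p0 x, h.pb0 x⟩)

/-- `H²(A) → H²(B)`. -/
def Hi2 : Hmid a1 a2 →ₗ[k] Hmid b1 b2 :=
  Hmid.map i2 (fun x hx => by rw [h.ia2, hx, map_zero]) (fun x => ⟨i1 x, h.ia1 x⟩)

/-- `H²(B) → H²(C)`. -/
def Hp2 : Hmid b1 b2 →ₗ[k] Hmid c1 c2 :=
  Hmid.map p2 (fun x hx => by rw [h.pb2, hx, map_zero]) (fun x => ⟨p1 x, h.pb1 x⟩)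

/-! ### The connecting homomorphism -/

/-- The pullback `{(β, α) ∈ B1 × A2 | b1 β = i2 α}`. -/
def pull : Submodule k (B1 × A2) :=
  LinearMap.ker (b1.coprod (-i2))

omit h in
theorem mem_pull {x : B1 × A2} : x ∈ pull (b1 := b1) (i2 := i2) ↔ b1 x.1 = i2 x.2 := by
  unfold pull
  rw [LinearMap.mem_ker, LinearMap.coprod_apply, LinearMap.neg_apply, ← sub_eq_add_neg,
    sub_eq_zero]

theorem c1_p1_of_mem {β : B1} {α : A2} (hβα : b1 β = i2 α) : c1 (p1 β) = 0 := by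
  rw [h.pb1, hβα, pi2 h]

theorem a2_of_mem {β : B1} {α : A2} (hβα : b1 β = i2 α) : a2 α = 0 := by
  apply h.inj3
  rw [← h.ia2, ← hβα, h.bb2, map_zero]

/-- `(β, α) ↦ [p1 β] ∈ H¹(C)`. -/
def pullToC : ↥(pull (b1 := b1) (i2 := i2)) →ₗ[k] Hmid c0 c1 :=
  (Hmid.mk c0 c1).comp
    (LinearMap.codRestrict (LinearMap.ker c1)
      (p1.comp ((LinearMap.fst k B1 A2).comp (pull (b1 := b1) (i2 := i2)).subtype))
      (fun x => LinearMap.mem_ker.mpr (c1_p1_of_mem h (mem_pull.mp x.2))))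

/-- `(β, α) ↦ [α] ∈ H²(A)`. -/
def pullToA : ↥(pull (b1 := b1) (i2 := i2)) →ₗ[k] Hmid a1 a2 :=
  (Hmid.mk a1 a2).comp
    (LinearMap.codRestrict (LinearMap.ker a2)
      ((LinearMap.snd k B1 A2).comp (pull (b1 := b1) (i2 := i2)).subtype)
      (fun x => LinearMap.mem_ker.mpr (a2_of_mem h (mem_pull.mp x.2))))

theorem pullToC_apply (x : ↥(pull (b1 := b1) (i2 := i2))) :
    pullToC h x = Hmid.of (p1 x.1.1) (c1_p1_of_mem h (mem_pull.mp x.2)) := rfl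

theorem pullToA_apply (x : ↥(pull (b1 := b1) (i2 := i2))) :
    pullToA h x = Hmid.of x.1.2 (a2_of_mem h (mem_pull.mp x.2)) := rfl

theorem pullToC_surjective : Function.Surjective (pullToC h) := by
  intro y
  obtain ⟨γ, hγ, rfl⟩ := Hmid.exists_of y
  obtain ⟨β, rfl⟩ := h.surj1 γ
  have h1 : p2 (b1 β) = 0 := by rw [← h.pb1, hγ]
  obtain ⟨α, hα⟩ := (h.ex2 (b1 β)).mp h1
  exact ⟨⟨(β, α), mem_pull.mpr hα.symm⟩, rfl⟩

theorem ker_pullToC_le : LinearMap.ker (pullToC h) ≤ LinearMap.ker (pullToA h) := by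
  rintro ⟨⟨β, α⟩, hx⟩ hker
  have hβα : b1 β = i2 α := mem_pull.mp hx
  rw [LinearMap.mem_ker, pullToC_apply, Hmid.of_eq_zero_iff] at hker
  rw [LinearMap.mem_ker, pullToA_apply, Hmid.of_eq_zero_iff]
  obtain ⟨γ0, hγ0⟩ := hker
  obtain ⟨β0, rfl⟩ := h.surj0 γ0
  -- `β - b0 β0 ∈ ker p1 = range i1`
  have h1 : p1 (β - b0 β0) = 0 := by
    rw [map_sub, ← h.pb0, hγ0, sub_self]
  obtain ⟨α1, hα1⟩ := (h.ex1 _).mp h1
  refine ⟨α1, ?_⟩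
  apply h.inj2
  rw [← h.ia1, hα1, map_sub, h.bb1, sub_zero]
  exact hβα

/-- **The connecting homomorphism** `δ : H¹(C) → H²(A)`. -/
noncomputable def delta : Hmid c0 c1 →ₗ[k] Hmid a1 a2 :=
  (Submodule.liftQ (LinearMap.ker (pullToC h)) (pullToA h) (ker_pullToC_le h)).comp
    (LinearMap.quotKerEquivOfSurjective (pullToC h) (pullToC_surjective h)).symm.toLinearMap

theorem delta_pullToC (x : ↥(pull (b1 := b1) (i2 := i2))) :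
    delta h (pullToC h x) = pullToA h x := by
  unfold delta
  rw [LinearMap.comp_apply]
  have : (LinearMap.quotKerEquivOfSurjective (pullToC h) (pullToC_surjective h)).symm
      (pullToC h x) = Submodule.Quotient.mk x := by
    rw [LinearEquiv.symm_apply_eq]
    rfl
  rw [LinearEquiv.coe_coe, this, Submodule.liftQ_apply]

/-- Characterisation of `δ`: if `b1 β = i2 α` then `δ [p1 β] = [α]`. -/
theorem delta_of {β : B1} {α : A2} (hβα : b1 β = i2 α) :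
    delta h (Hmid.of (p1 β) (c1_p1_of_mem h hβα)) = Hmid.of α (a2_of_mem h hβα) :=
  delta_pullToC h ⟨(β, α), mem_pull.mpr hβα⟩

/-- Every class of `H¹(C)` is of the form `[p1 β]` with `b1 β = i2 α`. -/
theorem exists_lift (y : Hmid c0 c1) :
    ∃ (β : B1) (α : A2) (hβα : b1 β = i2 α), y = Hmid.of (p1 β) (c1_p1_of_mem h hβα) := by
  obtain ⟨⟨⟨β, α⟩, hx⟩, rfl⟩ := pullToC_surjective h y
  exact ⟨β, α, mem_pull.mp hx, rfl⟩

/-! ### Exactness -/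

/-- Exactness at `H¹(B)`. -/
theorem exact_Hi1_Hp1 : Function.Exact (Hi1 h) (Hp1 h) := by
  intro y
  constructor
  · intro hy
    obtain ⟨β, hβ, rfl⟩ := Hmid.exists_of y
    unfold Hp1 at hy
    rw [Hmid.map_of, Hmid.of_eq_zero_iff] at hy
    obtain ⟨γ0, hγ0⟩ := hy
    obtain ⟨β0, rfl⟩ := h.surj0 γ0
    have h1 : p1 (β - b0 β0) = 0 := by rw [map_sub, ← h.pb0, hγ0, sub_self]
    obtain ⟨α, hα⟩ := (h.ex1 _).mp h1
    have hα1 : a1 α = 0 := by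
      apply h.inj2
      rw [← h.ia1, hα, map_sub, hβ, h.bb1, sub_zero, map_zero]
    refine ⟨Hmid.of α hα1, ?_⟩
    unfold Hi1
    rw [Hmid.map_of, Hmid.of_eq_of_iff]
    exact ⟨-β0, by rw [map_neg, hα]; abel⟩
  · rintro ⟨x, rfl⟩
    obtain ⟨α, hα, rfl⟩ := Hmid.exists_of x
    unfold Hi1 Hp1
    rw [Hmid.map_of, Hmid.map_of, Hmid.of_eq_zero_iff]
    exact ⟨0, by rw [map_zero, pi1 h]⟩

/-- Exactness at `H¹(C)`. -/
theorem exact_Hp1_delta : Function.Exact (Hp1 h) (delta h) := by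
  intro y
  constructor
  · intro hy
    obtain ⟨β, α, hβα, rfl⟩ := exists_lift h y
    rw [delta_of h hβα, Hmid.of_eq_zero_iff] at hy
    obtain ⟨α1, rfl⟩ := hy
    have hb : b1 (β - i1 α1) = 0 := by rw [map_sub, hβα, h.ia1, sub_self]
    refine ⟨Hmid.of (β - i1 α1) hb, ?_⟩
    unfold Hp1
    rw [Hmid.map_of, Hmid.of_eq_of_iff]
    exact ⟨0, by rw [map_zero, map_sub, pi1 h, sub_zero, sub_self]⟩
  · rintro ⟨x, rfl⟩
    obtain ⟨β, hβ, rfl⟩ := Hmid.exists_of x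
    have hβα : b1 β = i2 (0 : A2) := by rw [hβ, map_zero]
    unfold Hp1
    rw [Hmid.map_of]
    have := delta_of h hβα
    rw [this]
    exact Hmid.of_zero

/-- Exactness at `H²(A)`. -/
theorem exact_delta_Hi2 : Function.Exact (delta h) (Hi2 h) := by
  intro y
  constructor
  · intro hy
    obtain ⟨α, hα, rfl⟩ := Hmid.exists_of y
    unfold Hi2 at hy
    rw [Hmid.map_of, Hmid.of_eq_zero_iff] at hy
    obtain ⟨β, hβ⟩ := hy
    exact ⟨Hmid.of (p1 β) (c1_p1_of_mem h hβ), delta_of h hβ⟩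
  · rintro ⟨x, rfl⟩
    obtain ⟨β, α, hβα, rfl⟩ := exists_lift h x
    rw [delta_of h hβα]
    unfold Hi2
    rw [Hmid.map_of, Hmid.of_eq_zero_iff]
    exact ⟨β, hβα⟩

/-- Exactness at `H²(B)`. -/
theorem exact_Hi2_Hp2 : Function.Exact (Hi2 h) (Hp2 h) := by
  intro y
  constructor
  · intro hy
    obtain ⟨β, hβ, rfl⟩ := Hmid.exists_of y
    unfold Hp2 at hy
    rw [Hmid.map_of, Hmid.of_eq_zero_iff] at hy
    obtain ⟨γ1, hγ1⟩ := hy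
    obtain ⟨β1, rfl⟩ := h.surj1 γ1
    have h1 : p2 (β - b1 β1) = 0 := by rw [map_sub, ← h.pb1, hγ1, sub_self]
    obtain ⟨α, hα⟩ := (h.ex2 _).mp h1
    have hα2 : a2 α = 0 := by
      apply h.inj3
      rw [← h.ia2, hα, map_sub, hβ, h.bb2, sub_zero, map_zero]
    refine ⟨Hmid.of α hα2, ?_⟩
    unfold Hi2
    rw [Hmid.map_of, Hmid.of_eq_of_iff]
    exact ⟨-β1, by rw [map_neg, hα]; abel⟩
  · rintro ⟨x, rfl⟩
    obtain ⟨α, hα, rfl⟩ := Hmid.exists_of x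
    unfold Hi2 Hp2
    rw [Hmid.map_of, Hmid.map_of, Hmid.of_eq_zero_iff]
    exact ⟨0, by rw [map_zero, pi2 h]⟩

end Main

/-! ### Naturality of the connecting homomorphism -/

section Natural

variable {A0' A1' A2' A3' B0' B1' B2' B3' C0' C1' C2' C3' : Type*}
  [AddCommGroup A0'] [Module k A0'] [AddCommGroup A1'] [Module k A1']
  [AddCommGroup A2'] [Module k A2'] [AddCommGroup A3'] [Module k A3']
  [AddCommGroup B0'] [Module k B0'] [AddCommGroup B1'] [Module k B1']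
  [AddCommGroup B2'] [Module k B2'] [AddCommGroup B3'] [Module k B3']
  [AddCommGroup C0'] [Module k C0'] [AddCommGroup C1'] [Module k C1']
  [AddCommGroup C2'] [Module k C2'] [AddCommGroup C3'] [Module k C3']

variable {a0 : A0 →ₗ[k] A1} {a1 : A1 →ₗ[k] A2} {a2 : A2 →ₗ[k] A3}
  {b0 : B0 →ₗ[k] B1} {b1 : B1 →ₗ[k] B2} {b2 : B2 →ₗ[k] B3}
  {c0 : C0 →ₗ[k] C1} {c1 : C1 →ₗ[k] C2} {c2 : C2 →ₗ[k] C3}
  {i0 : A0 →ₗ[k] B0} {i1 : A1 →ₗ[k] B1} {i2 : A2 →ₗ[k] B2} {i3 : A3 →ₗ[k] B3}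
  {p0 : B0 →ₗ[k] C0} {p1 : B1 →ₗ[k] C1} {p2 : B2 →ₗ[k] C2} {p3 : B3 →ₗ[k] C3}
  (h : IsSES a0 a1 a2 b0 b1 b2 c0 c1 c2 i0 i1 i2 i3 p0 p1 p2 p3)
  {a0' : A0' →ₗ[k] A1'} {a1' : A1' →ₗ[k] A2'} {a2' : A2' →ₗ[k] A3'}
  {b0' : B0' →ₗ[k] B1'} {b1' : B1' →ₗ[k] B2'} {b2' : B2' →ₗ[k] B3'}
  {c0' : C0' →ₗ[k] C1'} {c1' : C1' →ₗ[k] C2'} {c2' : C2' →ₗ[k] C3'}
  {i0' : A0' →ₗ[k] B0'} {i1' : A1' →ₗ[k] B1'} {i2' : A2' →ₗ[k] B2'} {i3' : A3' →ₗ[k] B3'}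
  {p0' : B0' →ₗ[k] C0'} {p1' : B1' →ₗ[k] C1'} {p2' : B2' →ₗ[k] C2'} {p3' : B3' →ₗ[k] C3'}
  (h' : IsSES a0' a1' a2' b0' b1' b2' c0' c1' c2' i0' i1' i2' i3' p0' p1' p2' p3')

/-- **Naturality of `δ`.**  For maps `φB1 : B1 → B1'`, `φA2 : A2 → A2'`, `φC1 : C1 → C1'` of a
morphism of short exact sequences of windows (only the squares actually used are assumed), and ANY
induced maps `HC : H¹(C) → H¹(C')`, `HA : H²(A) → H²(A')` computed by `φC1`, `φA2` on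
representatives, `δ' ∘ HC = HA ∘ δ`. -/
theorem delta_natural (φB1 : B1 →ₗ[k] B1') (φA2 : A2 →ₗ[k] A2') (φC1 : C1 →ₗ[k] C1')
    (hpB : ∀ x, p1' (φB1 x) = φC1 (p1 x))
    (hbi : ∀ (β : B1) (α : A2), b1 β = i2 α → b1' (φB1 β) = i2' (φA2 α))
    (HC : Hmid c0 c1 →ₗ[k] Hmid c0' c1') (HA : Hmid a1 a2 →ₗ[k] Hmid a1' a2')
    (hHC : ∀ (γ : C1) (hγ : c1 γ = 0), ∃ hγ' : c1' (φC1 γ) = 0,
      HC (Hmid.of γ hγ) = Hmid.of (φC1 γ) hγ')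
    (hHA : ∀ (α : A2) (hα : a2 α = 0), ∃ hα' : a2' (φA2 α) = 0,
      HA (Hmid.of α hα) = Hmid.of (φA2 α) hα') :
    (delta h').comp HC = HA.comp (delta h) := by
  apply LinearMap.ext
  intro y
  obtain ⟨β, α, hβα, rfl⟩ := exists_lift h y
  rw [LinearMap.comp_apply, LinearMap.comp_apply, delta_of h hβα]
  obtain ⟨hγ', e1⟩ := hHC (p1 β) (c1_p1_of_mem h hβα)
  obtain ⟨hα', e2⟩ := hHA α (a2_of_mem h hβα)
  rw [e1, e2]
  have hβα' : b1' (φB1 β) = i2' (φA2 α) := hbi β α hβα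
  have e3 := delta_of h' hβα'
  have e4 : (Hmid.of (φC1 (p1 β)) hγ' : Hmid c0' c1') =
      Hmid.of (p1' (φB1 β)) (c1_p1_of_mem h' hβα') := by
    rw [Hmid.of_eq_of_iff]
    exact ⟨0, by rw [map_zero, hpB, sub_self]⟩
  rw [e4, e3]

end Natural

end Fermat.Agent.S55.Formal.SnakeWindow
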