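/-
S55 / Formal end, row 144 (helper68): LC cochains are exact in the coefficients, and the long exact
cohomology sequence `H0 .. H3` of a short exact sequence of coefficient modules.
-/
import Mathlib
import Fermat.Agent.S55.Formal.LC
import Fermat.Agent.S55.Formal.SnakeWindow

set_option autoImplicit false

open CategoryTheory groupCohomology

namespace Fermat.Agent.S55.Formal.CoefExact

open Fermat.Agent.S55.Formal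

variable {k : Type} [CommRing k] {G : Type} [Group G]

/-- A short exact sequence of coefficient modules `0 → A -φ→ B -ψ→ C → 0` with `B` uniformly
smooth. -/
structure SES (𝒰 : NBasis G) {A B C : Rep.{0, 0, 0} k G} (φ : A ⟶ B) (ψ : B ⟶ C) : Prop where
  inj : Function.Injective φ.hom
  surj : Function.Surjective ψ.hom
  exact : Function.Exact φ.hom ψ.hom
  smooth : IsUSmooth 𝒰 B

variable {𝒰 : NBasis G} {A B C : Rep.{0, 0, 0} k G} {φ : A ⟶ B} {ψ : B ⟶ C}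

namespace SES

variable (h : SES 𝒰 φ ψ)

include h

lemma comp_eq_zero (a : A) : ψ.hom (φ.hom a) = 0 := (h.exact _).2 ⟨a, rfl⟩

/-- the preimage under `φ` of an element killed by `ψ`. -/
noncomputable def lift (b : B) (hb : ψ.hom b = 0) : A := ((h.exact b).1 hb).choose

lemma φ_lift (b : B) (hb : ψ.hom b = 0) : φ.hom (h.lift b hb) = b := ((h.exact b).1 hb).choose_spec

/-- a set-theoretic section of `ψ`. -/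
noncomputable def sec (c : C) : B := Function.surjInv h.surj c

lemma ψ_sec (c : C) : ψ.hom (h.sec c) = c := Function.surjInv_eq h.surj c

/-- invariance transfers along the injection `φ`. -/
lemma ρ_eq_of_φ {s : G} {a : A} (hs : B.ρ s (φ.hom a) = φ.hom a) : A.ρ s a = a := by
  apply h.inj
  rw [Rep.hom_comm_apply, hs]

end SES

/-! ## Part 1: degreewise exactness -/

section Part1

variable (h : SES 𝒰 φ ψ)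

include h

/-! ### degree 0 -/

theorem c₀_injective : Function.Injective (Mor.ofHom 𝒰 φ).c₀ := by
  intro x y hxy
  apply Subtype.ext
  apply h.inj
  exact congrArg Subtype.val hxy

theorem c₀_exact : Function.Exact (Mor.ofHom 𝒰 φ).c₀ (Mor.ofHom 𝒰 ψ).c₀ := by
  intro y
  constructor
  · intro hy
    have hy' : ψ.hom (y : B) = 0 := congrArg Subtype.val hy
    obtain ⟨U, hU, hUy⟩ := y.2
    refine ⟨⟨h.lift _ hy', U, hU, fun s hs => ?_⟩, ?_⟩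
    · apply h.ρ_eq_of_φ
      rw [h.φ_lift]
      exact hUy s hs
    · apply Subtype.ext
      exact h.φ_lift _ hy'
  · rintro ⟨x, rfl⟩
    apply Subtype.ext
    exact h.comp_eq_zero _

theorem c₀_surjective : Function.Surjective (Mor.ofHom 𝒰 ψ).c₀ := by
  intro z
  obtain ⟨U₀, hU₀, hB⟩ := h.smooth
  refine ⟨⟨h.sec (z : C), U₀, hU₀, fun s hs => hB s hs _⟩, ?_⟩
  apply Subtype.ext
  exact h.ψ_sec _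

/-! ### degree 1 -/

theorem c₁_injective : Function.Injective (Mor.ofHom 𝒰 φ).c₁ := by
  intro x y hxy
  apply Subtype.ext
  funext g
  apply h.inj
  exact congrFun (congrArg Subtype.val hxy) g

theorem c₁_exact : Function.Exact (Mor.ofHom 𝒰 φ).c₁ (Mor.ofHom 𝒰 ψ).c₁ := by
  intro y
  constructor
  · intro hy
    have hy' : ∀ g, ψ.hom ((y : G → B) g) = 0 := fun g => congrFun (congrArg Subtype.val hy) g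
    obtain ⟨U, hU, hUy⟩ := y.2
    refine ⟨⟨fun g => h.lift _ (hy' g), U, hU, fun s hs g => ⟨?_, ?_⟩⟩, ?_⟩
    · apply h.inj
      rw [h.φ_lift, h.φ_lift]
      exact (hUy s hs g).1
    · apply h.ρ_eq_of_φ
      rw [h.φ_lift]
      exact (hUy s hs g).2
    · apply Subtype.ext
      funext g
      exact h.φ_lift _ (hy' g)
  · rintro ⟨x, rfl⟩
    apply Subtype.ext
    funext g
    exact h.comp_eq_zero _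

theorem c₁_surjective : Function.Surjective (Mor.ofHom 𝒰 ψ).c₁ := by
  intro z
  obtain ⟨U, hU, hUz⟩ := z.2
  obtain ⟨U₀, hU₀, hB⟩ := h.smooth
  obtain ⟨W, hW, hle⟩ := 𝒰.inf hU hU₀
  refine ⟨⟨fun g => h.sec ((z : G → C) g), W, hW, fun s hs g => ⟨?_, ?_⟩⟩, ?_⟩
  · show h.sec (z.1 (g * s)) = h.sec (z.1 g)
    rw [(hUz s (hle hs).1 g).1]
  · exact hB s (hle hs).2 _
  · apply Subtype.ext
    funext g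
    exact h.ψ_sec _

/-! ### degree 2 -/

theorem c₂_injective : Function.Injective (Mor.ofHom 𝒰 φ).c₂ := by
  intro x y hxy
  apply Subtype.ext
  funext g
  apply h.inj
  exact congrFun (congrArg Subtype.val hxy) g

theorem c₂_exact : Function.Exact (Mor.ofHom 𝒰 φ).c₂ (Mor.ofHom 𝒰 ψ).c₂ := by
  intro y
  constructor
  · intro hy
    have hy' : ∀ g, ψ.hom ((y : G × G → B) g) = 0 :=
      fun g => congrFun (congrArg Subtype.val hy) g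
    obtain ⟨U, hU, hUy⟩ := y.2
    refine ⟨⟨fun g => h.lift _ (hy' g), U, hU, fun s hs g g' => ⟨?_, ?_, ?_⟩⟩, ?_⟩
    · apply h.inj
      rw [h.φ_lift, h.φ_lift]
      exact (hUy s hs g g').1
    · apply h.inj
      rw [h.φ_lift, h.φ_lift]
      exact (hUy s hs g g').2.1
    · apply h.ρ_eq_of_φ
      rw [h.φ_lift]
      exact (hUy s hs g g').2.2
    · apply Subtype.ext
      funext ⟨g, g'⟩
      exact h.φ_lift _ (hy' (g, g'))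
  · rintro ⟨x, rfl⟩
    apply Subtype.ext
    funext g
    exact h.comp_eq_zero _

theorem c₂_surjective : Function.Surjective (Mor.ofHom 𝒰 ψ).c₂ := by
  intro z
  obtain ⟨U, hU, hUz⟩ := z.2
  obtain ⟨U₀, hU₀, hB⟩ := h.smooth
  obtain ⟨W, hW, hle⟩ := 𝒰.inf hU hU₀
  refine ⟨⟨fun g => h.sec ((z : G × G → C) g), W, hW, fun s hs g g' => ⟨?_, ?_, ?_⟩⟩, ?_⟩
  · show h.sec (z.1 (g * s, g')) = h.sec (z.1 (g, g'))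
    rw [(hUz s (hle hs).1 g g').1]
  · show h.sec (z.1 (g, g' * s)) = h.sec (z.1 (g, g'))
    rw [(hUz s (hle hs).1 g g').2.1]
  · exact hB s (hle hs).2 _
  · apply Subtype.ext
    funext ⟨g, g'⟩
    exact h.ψ_sec _

/-! ### degree 3 -/

theorem c₃_injective : Function.Injective (Mor.ofHom 𝒰 φ).c₃ := by
  intro x y hxy
  apply Subtype.ext
  funext g
  apply h.inj
  exact congrFun (congrArg Subtype.val hxy) g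

theorem c₃_exact : Function.Exact (Mor.ofHom 𝒰 φ).c₃ (Mor.ofHom 𝒰 ψ).c₃ := by
  intro y
  constructor
  · intro hy
    have hy' : ∀ g, ψ.hom ((y : G × G × G → B) g) = 0 :=
      fun g => congrFun (congrArg Subtype.val hy) g
    obtain ⟨U, hU, hUy⟩ := y.2
    refine ⟨⟨fun g => h.lift _ (hy' g), U, hU, fun s hs g g' g'' => ⟨?_, ?_, ?_, ?_⟩⟩, ?_⟩
    · apply h.inj
      rw [h.φ_lift, h.φ_lift]
      exact (hUy s hs g g' g'').1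
    · apply h.inj
      rw [h.φ_lift, h.φ_lift]
      exact (hUy s hs g g' g'').2.1
    · apply h.inj
      rw [h.φ_lift, h.φ_lift]
      exact (hUy s hs g g' g'').2.2.1
    · apply h.ρ_eq_of_φ
      rw [h.φ_lift]
      exact (hUy s hs g g' g'').2.2.2
    · apply Subtype.ext
      funext ⟨g, g', g''⟩
      exact h.φ_lift _ (hy' (g, g', g''))
  · rintro ⟨x, rfl⟩
    apply Subtype.ext
    funext g
    exact h.comp_eq_zero _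

theorem c₃_surjective : Function.Surjective (Mor.ofHom 𝒰 ψ).c₃ := by
  intro z
  obtain ⟨U, hU, hUz⟩ := z.2
  obtain ⟨U₀, hU₀, hB⟩ := h.smooth
  obtain ⟨W, hW, hle⟩ := 𝒰.inf hU hU₀
  refine ⟨⟨fun g => h.sec ((z : G × G × G → C) g), W, hW,
    fun s hs g g' g'' => ⟨?_, ?_, ?_, ?_⟩⟩, ?_⟩
  · show h.sec (z.1 (g * s, g', g'')) = h.sec (z.1 (g, g', g''))
    rw [(hUz s (hle hs).1 g g' g'').1]
  · show h.sec (z.1 (g, g' * s, g'')) = h.sec (z.1 (g, g', g''))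
    rw [(hUz s (hle hs).1 g g' g'').2.1]
  · show h.sec (z.1 (g, g', g'' * s)) = h.sec (z.1 (g, g', g''))
    rw [(hUz s (hle hs).1 g g' g'').2.2.1]
  · exact hB s (hle hs).2 _
  · apply Subtype.ext
    funext ⟨g, g', g''⟩
    exact h.ψ_sec _

/-! ### degree 4 (all functions) -/

theorem p₄_injective : Function.Injective (Mor.ofHom 𝒰 φ).p₄ := by
  intro x y hxy
  funext g
  apply h.inj
  exact congrFun hxy g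

theorem p₄_exact : Function.Exact (Mor.ofHom 𝒰 φ).p₄ (Mor.ofHom 𝒰 ψ).p₄ := by
  intro y
  constructor
  · intro hy
    have hy' : ∀ g, ψ.hom (y g) = 0 := fun g => congrFun hy g
    refine ⟨fun g => h.lift _ (hy' g), ?_⟩
    funext ⟨g, g', g'', j⟩
    exact h.φ_lift _ (hy' (g, g', g'', j))
  · rintro ⟨x, rfl⟩
    funext g
    exact h.comp_eq_zero _

theorem p₄_surjective : Function.Surjective (Mor.ofHom 𝒰 ψ).p₄ := by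
  intro z
  refine ⟨fun g => h.sec (z g), ?_⟩
  funext ⟨g, g', g'', j⟩
  exact h.ψ_sec _

end Part1

/-! ## Part 2: the long exact sequence -/

section Part2

open SnakeWindow

/-- `Hmid 0 g ≃ ker g`. -/
noncomputable def zeroEquiv {B' C' : Type} [AddCommGroup B'] [Module k B'] [AddCommGroup C']
    [Module k C'] (g : B' →ₗ[k] C') :
    Hmid (0 : PUnit.{1} →ₗ[k] B') g ≃ₗ[k] ↥(LinearMap.ker g) :=
  Submodule.quotEquivOfEqBot _ (by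
    rw [LinearMap.range_zero, Submodule.comap_bot, Submodule.ker_subtype])

@[simp] lemma zeroEquiv_of {B' C' : Type} [AddCommGroup B'] [Module k B'] [AddCommGroup C']
    [Module k C'] (g : B' →ₗ[k] C') (b : B') (hb : g b = 0) :
    zeroEquiv g (Hmid.of b hb) = ⟨b, LinearMap.mem_ker.mpr hb⟩ := rfl

lemma zeroEquiv_symm_apply {B' C' : Type} [AddCommGroup B'] [Module k B'] [AddCommGroup C']
    [Module k C'] (g : B' →ₗ[k] C') (z : ↥(LinearMap.ker g)) :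
    (zeroEquiv g).symm z = Hmid.of (z : B') (LinearMap.mem_ker.mp z.2) := by
  rw [LinearEquiv.symm_apply_eq, zeroEquiv_of]

variable (h : SES 𝒰 φ ψ)

include h

/-- the window `C⁰ → C¹ → C² → C³`. -/
theorem isSES₁ : IsSES (dC₀ 𝒰 A) (dC₁ 𝒰 A) (dC₂ 𝒰 A) (dC₀ 𝒰 B) (dC₁ 𝒰 B) (dC₂ 𝒰 B)
    (dC₀ 𝒰 C) (dC₁ 𝒰 C) (dC₂ 𝒰 C)
    (Mor.ofHom 𝒰 φ).c₀ (Mor.ofHom 𝒰 φ).c₁ (Mor.ofHom 𝒰 φ).c₂ (Mor.ofHom 𝒰 φ).c₃
    (Mor.ofHom 𝒰 ψ).c₀ (Mor.ofHom 𝒰 ψ).c₁ (Mor.ofHom 𝒰 ψ).c₂ (Mor.ofHom 𝒰 ψ).c₃ where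
  aa1 := dC₁_dC₀ 𝒰 A
  aa2 := dC₂_dC₁ 𝒰 A
  bb1 := dC₁_dC₀ 𝒰 B
  bb2 := dC₂_dC₁ 𝒰 B
  cc1 := dC₁_dC₀ 𝒰 C
  cc2 := dC₂_dC₁ 𝒰 C
  ia0 x := (LinearMap.congr_fun (Mor.ofHom 𝒰 φ).c₁_dC₀ x).symm
  ia1 x := (LinearMap.congr_fun (Mor.ofHom 𝒰 φ).c₂_dC₁ x).symm
  ia2 x := (LinearMap.congr_fun (Mor.ofHom 𝒰 φ).c₃_dC₂ x).symm
  pb0 x := (LinearMap.congr_fun (Mor.ofHom 𝒰 ψ).c₁_dC₀ x).symm
  pb1 x := (LinearMap.congr_fun (Mor.ofHom 𝒰 ψ).c₂_dC₁ x).symm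
  pb2 x := (LinearMap.congr_fun (Mor.ofHom 𝒰 ψ).c₃_dC₂ x).symm
  inj2 := c₂_injective h
  inj3 := c₃_injective h
  surj0 := c₀_surjective h
  surj1 := c₁_surjective h
  ex1 := c₁_exact h
  ex2 := c₂_exact h

/-- the window `C¹ → C² → C³ → Fun(G⁴)`. -/
theorem isSES₂ : IsSES (dC₁ 𝒰 A) (dC₂ 𝒰 A) (dC₃ 𝒰 A) (dC₁ 𝒰 B) (dC₂ 𝒰 B) (dC₃ 𝒰 B)
    (dC₁ 𝒰 C) (dC₂ 𝒰 C) (dC₃ 𝒰 C)
    (Mor.ofHom 𝒰 φ).c₁ (Mor.ofHom 𝒰 φ).c₂ (Mor.ofHom 𝒰 φ).c₃ (Mor.ofHom 𝒰 φ).p₄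
    (Mor.ofHom 𝒰 ψ).c₁ (Mor.ofHom 𝒰 ψ).c₂ (Mor.ofHom 𝒰 ψ).c₃ (Mor.ofHom 𝒰 ψ).p₄ where
  aa1 := dC₂_dC₁ 𝒰 A
  aa2 := dC₃_dC₂ 𝒰 A
  bb1 := dC₂_dC₁ 𝒰 B
  bb2 := dC₃_dC₂ 𝒰 B
  cc1 := dC₂_dC₁ 𝒰 C
  cc2 := dC₃_dC₂ 𝒰 C
  ia0 x := (LinearMap.congr_fun (Mor.ofHom 𝒰 φ).c₂_dC₁ x).symm
  ia1 x := (LinearMap.congr_fun (Mor.ofHom 𝒰 φ).c₃_dC₂ x).symm
  ia2 x := (LinearMap.congr_fun (Mor.ofHom 𝒰 φ).p₄_dC₃ x).symm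
  pb0 x := (LinearMap.congr_fun (Mor.ofHom 𝒰 ψ).c₂_dC₁ x).symm
  pb1 x := (LinearMap.congr_fun (Mor.ofHom 𝒰 ψ).c₃_dC₂ x).symm
  pb2 x := (LinearMap.congr_fun (Mor.ofHom 𝒰 ψ).p₄_dC₃ x).symm
  inj2 := c₃_injective h
  inj3 := p₄_injective h
  surj0 := c₁_surjective h
  surj1 := c₂_surjective h
  ex1 := c₂_exact h
  ex2 := c₃_exact h

/-- the window `0 → C⁰ → C¹ → C²`. -/
theorem isSES₀ : IsSES (0 : PUnit.{1} →ₗ[k] ↥(C₀ 𝒰 A)) (dC₀ 𝒰 A) (dC₁ 𝒰 A)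
    (0 : PUnit.{1} →ₗ[k] ↥(C₀ 𝒰 B)) (dC₀ 𝒰 B) (dC₁ 𝒰 B)
    (0 : PUnit.{1} →ₗ[k] ↥(C₀ 𝒰 C)) (dC₀ 𝒰 C) (dC₁ 𝒰 C)
    (LinearMap.id : PUnit.{1} →ₗ[k] PUnit.{1}) (Mor.ofHom 𝒰 φ).c₀ (Mor.ofHom 𝒰 φ).c₁
    (Mor.ofHom 𝒰 φ).c₂
    (LinearMap.id : PUnit.{1} →ₗ[k] PUnit.{1}) (Mor.ofHom 𝒰 ψ).c₀ (Mor.ofHom 𝒰 ψ).c₁
    (Mor.ofHom 𝒰 ψ).c₂ where
  aa1 x := by simp
  aa2 := dC₁_dC₀ 𝒰 A
  bb1 x := by simp
  bb2 := dC₁_dC₀ 𝒰 B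
  cc1 x := by simp
  cc2 := dC₁_dC₀ 𝒰 C
  ia0 x := by simp
  ia1 x := (LinearMap.congr_fun (Mor.ofHom 𝒰 φ).c₁_dC₀ x).symm
  ia2 x := (LinearMap.congr_fun (Mor.ofHom 𝒰 φ).c₂_dC₁ x).symm
  pb0 x := by simp
  pb1 x := (LinearMap.congr_fun (Mor.ofHom 𝒰 ψ).c₁_dC₀ x).symm
  pb2 x := (LinearMap.congr_fun (Mor.ofHom 𝒰 ψ).c₂_dC₁ x).symm
  inj2 := c₁_injective h
  inj3 := c₂_injective h
  surj0 := fun x => ⟨x, rfl⟩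
  surj1 := c₀_surjective h
  ex1 := c₀_exact h
  ex2 := c₁_exact h

/-! ### the connecting homomorphisms -/

/-- `δ¹ : H¹(C) → H²(A)`. -/
noncomputable def δ₁ : H1 𝒰 C →ₗ[k] H2 𝒰 A := delta (isSES₁ h)

/-- `δ² : H²(C) → H³(A)`. -/
noncomputable def δ₂ : H2 𝒰 C →ₗ[k] H3 𝒰 A := delta (isSES₂ h)

/-- `δ⁰ : H⁰(C) → H¹(A)`. -/
noncomputable def δ₀ : ↥(H0 𝒰 C) →ₗ[k] H1 𝒰 A :=
  (delta (isSES₀ h)).comp (zeroEquiv (dC₀ 𝒰 C)).symm.toLinearMap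

/-! ### identification of the induced maps -/

theorem Hi1_isSES₁ : Hi1 (isSES₁ h) = (Mor.ofHom 𝒰 φ).h1 := rfl
theorem Hp1_isSES₁ : Hp1 (isSES₁ h) = (Mor.ofHom 𝒰 ψ).h1 := rfl
theorem Hi2_isSES₁ : Hi2 (isSES₁ h) = (Mor.ofHom 𝒰 φ).h2 := rfl
theorem Hp2_isSES₁ : Hp2 (isSES₁ h) = (Mor.ofHom 𝒰 ψ).h2 := rfl
theorem Hi1_isSES₂ : Hi1 (isSES₂ h) = (Mor.ofHom 𝒰 φ).h2 := rfl
theorem Hp1_isSES₂ : Hp1 (isSES₂ h) = (Mor.ofHom 𝒰 ψ).h2 := rfl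
theorem Hi2_isSES₂ : Hi2 (isSES₂ h) = (Mor.ofHom 𝒰 φ).h3 := rfl
theorem Hp2_isSES₂ : Hp2 (isSES₂ h) = (Mor.ofHom 𝒰 ψ).h3 := rfl
theorem Hi2_isSES₀ : Hi2 (isSES₀ h) = (Mor.ofHom 𝒰 φ).h1 := rfl
theorem Hp2_isSES₀ : Hp2 (isSES₀ h) = (Mor.ofHom 𝒰 ψ).h1 := rfl

theorem h0_comp_zeroEquiv :
    (Mor.ofHom 𝒰 φ).h0 ∘ₗ (zeroEquiv (dC₀ 𝒰 A)).toLinearMap =
      (zeroEquiv (dC₀ 𝒰 B)).toLinearMap ∘ₗ Hi1 (isSES₀ h) := by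
  apply LinearMap.ext
  intro x
  obtain ⟨b, hb, rfl⟩ := Hmid.exists_of x
  rfl

theorem h0_comp_zeroEquiv' :
    (Mor.ofHom 𝒰 ψ).h0 ∘ₗ (zeroEquiv (dC₀ 𝒰 B)).toLinearMap =
      (zeroEquiv (dC₀ 𝒰 C)).toLinearMap ∘ₗ Hp1 (isSES₀ h) := by
  apply LinearMap.ext
  intro x
  obtain ⟨b, hb, rfl⟩ := Hmid.exists_of x
  rfl

theorem δ₀_comp_zeroEquiv :
    δ₀ h ∘ₗ (zeroEquiv (dC₀ 𝒰 C)).toLinearMap =
      (LinearEquiv.refl k (H1 𝒰 A)).toLinearMap ∘ₗ delta (isSES₀ h) := by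
  apply LinearMap.ext
  intro x
  simp [δ₀]

/-! ### exactness of the long sequence -/

/-- `H⁰(A) → H⁰(B)` is injective. -/
theorem h0_injective : Function.Injective (Mor.ofHom 𝒰 φ).h0 := by
  intro x y hxy
  apply Subtype.ext
  apply c₀_injective h
  exact congrArg Subtype.val hxy

/-- exactness at `H⁰(B)`. -/
theorem exact_h0_h0 : Function.Exact (Mor.ofHom 𝒰 φ).h0 (Mor.ofHom 𝒰 ψ).h0 :=
  (Function.Exact.iff_of_ladder_linearEquiv (h0_comp_zeroEquiv h) (h0_comp_zeroEquiv' h)).mpr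
    (exact_Hi1_Hp1 (isSES₀ h))

/-- exactness at `H⁰(C)`. -/
theorem exact_h0_δ₀ : Function.Exact (Mor.ofHom 𝒰 ψ).h0 (δ₀ h) :=
  (Function.Exact.iff_of_ladder_linearEquiv (h0_comp_zeroEquiv' h) (δ₀_comp_zeroEquiv h)).mpr
    (exact_Hp1_delta (isSES₀ h))

/-- exactness at `H¹(A)`. -/
theorem exact_δ₀_h1 : Function.Exact (δ₀ h) (Mor.ofHom 𝒰 φ).h1 :=
  LinearEquiv.precomp_exact_iff_exact.mpr (exact_delta_Hi2 (isSES₀ h))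

/-- exactness at `H¹(B)`. -/
theorem exact_h1_h1 : Function.Exact (Mor.ofHom 𝒰 φ).h1 (Mor.ofHom 𝒰 ψ).h1 :=
  exact_Hi1_Hp1 (isSES₁ h)

/-- exactness at `H¹(C)`. -/
theorem exact_h1_δ₁ : Function.Exact (Mor.ofHom 𝒰 ψ).h1 (δ₁ h) :=
  exact_Hp1_delta (isSES₁ h)

/-- exactness at `H²(A)`. -/
theorem exact_δ₁_h2 : Function.Exact (δ₁ h) (Mor.ofHom 𝒰 φ).h2 :=
  exact_delta_Hi2 (isSES₁ h)

/-- exactness at `H²(B)`. -/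
theorem exact_h2_h2 : Function.Exact (Mor.ofHom 𝒰 φ).h2 (Mor.ofHom 𝒰 ψ).h2 :=
  exact_Hi2_Hp2 (isSES₁ h)

/-- exactness at `H²(C)`. -/
theorem exact_h2_δ₂ : Function.Exact (Mor.ofHom 𝒰 ψ).h2 (δ₂ h) :=
  exact_Hp1_delta (isSES₂ h)

/-- exactness at `H³(A)`. -/
theorem exact_δ₂_h3 : Function.Exact (δ₂ h) (Mor.ofHom 𝒰 φ).h3 :=
  exact_delta_Hi2 (isSES₂ h)

/-- exactness at `H³(B)`. -/
theorem exact_h3_h3 : Function.Exact (Mor.ofHom 𝒰 φ).h3 (Mor.ofHom 𝒰 ψ).h3 :=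
  exact_Hi2_Hp2 (isSES₂ h)

/-- if `H³(A) = 0` (explicitly) then `H²(B) → H²(C)` is surjective. -/
theorem h2_surjective_of_vanish₃ (hA : Vanish₃ 𝒰 A) :
    Function.Surjective (Mor.ofHom 𝒰 ψ).h2 := by
  intro y
  apply (exact_h2_δ₂ h y).mp
  obtain ⟨a, ha, hy⟩ := Hmid.exists_of (δ₂ h y)
  rw [hy, Hmid.of_eq_zero_iff]
  exact hA a ha

/-- if `H²(A) = 0` (explicitly) then `H¹(B) → H¹(C)` is surjective. -/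
theorem h1_surjective_of_vanish₂ (hA : Vanish₂ 𝒰 A) :
    Function.Surjective (Mor.ofHom 𝒰 ψ).h1 := by
  intro y
  apply (exact_h1_δ₁ h y).mp
  obtain ⟨a, ha, hy⟩ := Hmid.exists_of (δ₁ h y)
  rw [hy, Hmid.of_eq_zero_iff]
  exact hA a ha

/-! ### the connecting homomorphisms on representatives -/

/-- `δ¹ [c] = [a]` whenever `c = ψ b` and `φ a = d b`. -/
theorem δ₁_of {c : ↥(C₁ 𝒰 C)} (hc : dC₁ 𝒰 C c = 0) {a : ↥(C₂ 𝒰 A)} (ha : dC₂ 𝒰 A a = 0)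
    (b : ↥(C₁ 𝒰 B)) (hbc : (Mor.ofHom 𝒰 ψ).c₁ b = c)
    (hab : (Mor.ofHom 𝒰 φ).c₂ a = dC₁ 𝒰 B b) :
    δ₁ h (Hmid.of c hc) = Hmid.of a ha := by
  subst hbc
  exact delta_of (isSES₁ h) hab.symm

/-- `δ² [c] = [a]` whenever `c = ψ b` and `φ a = d b`. -/
theorem δ₂_of {c : ↥(C₂ 𝒰 C)} (hc : dC₂ 𝒰 C c = 0) {a : ↥(C₃ 𝒰 A)} (ha : dC₃ 𝒰 A a = 0)
    (b : ↥(C₂ 𝒰 B)) (hbc : (Mor.ofHom 𝒰 ψ).c₂ b = c)
    (hab : (Mor.ofHom 𝒰 φ).c₃ a = dC₂ 𝒰 B b) :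
    δ₂ h (Hmid.of c hc) = Hmid.of a ha := by
  subst hbc
  exact delta_of (isSES₂ h) hab.symm

/-- `δ⁰ c = [a]` whenever `c = ψ b` and `φ a = d b`. -/
theorem δ₀_of (c : ↥(H0 𝒰 C)) {a : ↥(C₁ 𝒰 A)} (ha : dC₁ 𝒰 A a = 0)
    (b : ↥(C₀ 𝒰 B)) (hbc : (Mor.ofHom 𝒰 ψ).c₀ b = (c : ↥(C₀ 𝒰 C)))
    (hab : (Mor.ofHom 𝒰 φ).c₁ a = dC₀ 𝒰 B b) :
    δ₀ h c = Hmid.of a ha := by
  obtain ⟨c, hc⟩ := c
  subst hbc
  unfold δ₀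
  rw [LinearMap.comp_apply, LinearEquiv.coe_coe, zeroEquiv_symm_apply]
  exact delta_of (isSES₀ h) hab.symm

/-- every class of `H¹(C)` has a representative `ψ b` with `d b = φ a`. -/
theorem exists_lift₁ (y : H1 𝒰 C) :
    ∃ (b : ↥(C₁ 𝒰 B)) (a : ↥(C₂ 𝒰 A)) (_ : (Mor.ofHom 𝒰 φ).c₂ a = dC₁ 𝒰 B b)
      (hc : dC₁ 𝒰 C ((Mor.ofHom 𝒰 ψ).c₁ b) = 0) (ha : dC₂ 𝒰 A a = 0),
      y = Hmid.of ((Mor.ofHom 𝒰 ψ).c₁ b) hc ∧ δ₁ h y = Hmid.of a ha := by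
  obtain ⟨b, a, hba, rfl⟩ := exists_lift (isSES₁ h) y
  exact ⟨b, a, hba.symm, c1_p1_of_mem (isSES₁ h) hba, a2_of_mem (isSES₁ h) hba, rfl,
    delta_of (isSES₁ h) hba⟩

/-- every class of `H²(C)` has a representative `ψ b` with `d b = φ a`. -/
theorem exists_lift₂ (y : H2 𝒰 C) :
    ∃ (b : ↥(C₂ 𝒰 B)) (a : ↥(C₃ 𝒰 A)) (_ : (Mor.ofHom 𝒰 φ).c₃ a = dC₂ 𝒰 B b)
      (hc : dC₂ 𝒰 C ((Mor.ofHom 𝒰 ψ).c₂ b) = 0) (ha : dC₃ 𝒰 A a = 0),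
      y = Hmid.of ((Mor.ofHom 𝒰 ψ).c₂ b) hc ∧ δ₂ h y = Hmid.of a ha := by
  obtain ⟨b, a, hba, rfl⟩ := exists_lift (isSES₂ h) y
  exact ⟨b, a, hba.symm, c1_p1_of_mem (isSES₂ h) hba, a2_of_mem (isSES₂ h) hba, rfl,
    delta_of (isSES₂ h) hba⟩

/-- every element of `H⁰(C)` is `ψ b` with `d b = φ a`, and then `δ⁰ c = [a]`. -/
theorem exists_lift₀ (c : ↥(H0 𝒰 C)) :
    ∃ (b : ↥(C₀ 𝒰 B)) (a : ↥(C₁ 𝒰 A)) (_ : (Mor.ofHom 𝒰 ψ).c₀ b = (c : ↥(C₀ 𝒰 C)))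
      (_ : (Mor.ofHom 𝒰 φ).c₁ a = dC₀ 𝒰 B b) (ha : dC₁ 𝒰 A a = 0),
      δ₀ h c = Hmid.of a ha := by
  obtain ⟨b, hb⟩ := c₀_surjective h (c : ↥(C₀ 𝒰 C))
  have h1 : (Mor.ofHom 𝒰 ψ).c₁ (dC₀ 𝒰 B b) = 0 := by
    rw [← (isSES₀ h).pb1, hb]
    exact LinearMap.mem_ker.mp c.2
  obtain ⟨a, ha⟩ := (c₁_exact h _).mp h1
  have ha' : dC₁ 𝒰 A a = 0 := a2_of_mem (isSES₀ h) ha.symm
  exact ⟨b, a, hb, ha, ha', δ₀_of h c ha' b hb ha⟩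

end Part2

/-! ## Part 3: naturality of the connecting homomorphisms -/

section Part3

open SnakeWindow

variable {G' : Type} [Group G'] {𝒰' : NBasis G'} {A' B' C' : Rep.{0, 0, 0} k G'}
  {φ' : A' ⟶ B'} {ψ' : B' ⟶ C'}

omit [Group G'] in
private lemma comm_ker {X Y X' Y' : Type} [AddCommGroup X] [Module k X] [AddCommGroup Y]
    [Module k Y] [AddCommGroup X'] [Module k X'] [AddCommGroup Y'] [Module k Y']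
    {d : X →ₗ[k] Y} {d' : X' →ₗ[k] Y'} {u : X →ₗ[k] X'} {v : Y →ₗ[k] Y'}
    (hc : v ∘ₗ d = d' ∘ₗ u) {x : X} (hx : d x = 0) : d' (u x) = 0 := by
  have := LinearMap.congr_fun hc x
  simp only [LinearMap.comp_apply] at this
  rw [← this, hx, map_zero]

omit [Group G'] in
private lemma of_congr {X Y Z : Type} [AddCommGroup X] [Module k X] [AddCommGroup Y]
    [Module k Y] [AddCommGroup Z] [Module k Z] {d : X →ₗ[k] Y} {d' : Y →ₗ[k] Z} {y y' : Y}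
    (e : y = y') (hy : d' y = 0) (hy' : d' y' = 0) :
    (Hmid.of y hy : Hmid d d') = Hmid.of y' hy' := by
  subst e
  rfl

/-- A morphism of short exact sequences of situations: three morphisms of situations over the
same group homomorphism, commuting with the coefficient maps. -/
structure SESMor (φ : A ⟶ B) (ψ : B ⟶ C) (φ' : A' ⟶ B') (ψ' : B' ⟶ C')
    (mA : Mor 𝒰 A 𝒰' A') (mB : Mor 𝒰 B 𝒰' B') (mC : Mor 𝒰 C 𝒰' C') : Prop where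
  fAB : mA.f = mB.f
  fBC : mB.f = mC.f
  sqφ : ∀ a, φ'.hom (mA.φ a) = mB.φ (φ.hom a)
  sqψ : ∀ b, ψ'.hom (mB.φ b) = mC.φ (ψ.hom b)

namespace SESMor

variable {mA : Mor 𝒰 A 𝒰' A'} {mB : Mor 𝒰 B 𝒰' B'} {mC : Mor 𝒰 C 𝒰' C'}
  (m : SESMor φ ψ φ' ψ' mA mB mC)

include m

lemma sqφ_c₀ (x : ↥(C₀ 𝒰 A)) :
    (Mor.ofHom 𝒰' φ').c₀ (mA.c₀ x) = mB.c₀ ((Mor.ofHom 𝒰 φ).c₀ x) := by
  apply Subtype.ext
  exact m.sqφ _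

lemma sqψ_c₀ (x : ↥(C₀ 𝒰 B)) :
    (Mor.ofHom 𝒰' ψ').c₀ (mB.c₀ x) = mC.c₀ ((Mor.ofHom 𝒰 ψ).c₀ x) := by
  apply Subtype.ext
  exact m.sqψ _

lemma sqφ_c₁ (x : ↥(C₁ 𝒰 A)) :
    (Mor.ofHom 𝒰' φ').c₁ (mA.c₁ x) = mB.c₁ ((Mor.ofHom 𝒰 φ).c₁ x) := by
  apply Subtype.ext
  funext g
  show φ'.hom (mA.φ (x.1 (mA.f g))) = mB.φ (φ.hom (x.1 (mB.f g)))
  rw [m.fAB, m.sqφ]

lemma sqψ_c₁ (x : ↥(C₁ 𝒰 B)) :
    (Mor.ofHom 𝒰' ψ').c₁ (mB.c₁ x) = mC.c₁ ((Mor.ofHom 𝒰 ψ).c₁ x) := by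
  apply Subtype.ext
  funext g
  show ψ'.hom (mB.φ (x.1 (mB.f g))) = mC.φ (ψ.hom (x.1 (mC.f g)))
  rw [m.fBC, m.sqψ]

lemma sqφ_c₂ (x : ↥(C₂ 𝒰 A)) :
    (Mor.ofHom 𝒰' φ').c₂ (mA.c₂ x) = mB.c₂ ((Mor.ofHom 𝒰 φ).c₂ x) := by
  apply Subtype.ext
  funext ⟨g, g'⟩
  show φ'.hom (mA.φ (x.1 (mA.f g, mA.f g'))) = mB.φ (φ.hom (x.1 (mB.f g, mB.f g')))
  rw [m.fAB, m.sqφ]

lemma sqψ_c₂ (x : ↥(C₂ 𝒰 B)) :
    (Mor.ofHom 𝒰' ψ').c₂ (mB.c₂ x) = mC.c₂ ((Mor.ofHom 𝒰 ψ).c₂ x) := by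
  apply Subtype.ext
  funext ⟨g, g'⟩
  show ψ'.hom (mB.φ (x.1 (mB.f g, mB.f g'))) = mC.φ (ψ.hom (x.1 (mC.f g, mC.f g')))
  rw [m.fBC, m.sqψ]

lemma sqφ_c₃ (x : ↥(C₃ 𝒰 A)) :
    (Mor.ofHom 𝒰' φ').c₃ (mA.c₃ x) = mB.c₃ ((Mor.ofHom 𝒰 φ).c₃ x) := by
  apply Subtype.ext
  funext ⟨g, g', g''⟩
  show φ'.hom (mA.φ (x.1 (mA.f g, mA.f g', mA.f g''))) =
    mB.φ (φ.hom (x.1 (mB.f g, mB.f g', mB.f g'')))
  rw [m.fAB, m.sqφ]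

lemma sqψ_c₃ (x : ↥(C₃ 𝒰 B)) :
    (Mor.ofHom 𝒰' ψ').c₃ (mB.c₃ x) = mC.c₃ ((Mor.ofHom 𝒰 ψ).c₃ x) := by
  apply Subtype.ext
  funext ⟨g, g', g''⟩
  show ψ'.hom (mB.φ (x.1 (mB.f g, mB.f g', mB.f g''))) =
    mC.φ (ψ.hom (x.1 (mC.f g, mC.f g', mC.f g'')))
  rw [m.fBC, m.sqψ]

/-- the maps on cohomology commute with the coefficient maps (`φ` side). -/
theorem h0_sqφ : (Mor.ofHom 𝒰' φ').h0 ∘ₗ mA.h0 = mB.h0 ∘ₗ (Mor.ofHom 𝒰 φ).h0 := by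
  apply LinearMap.ext
  intro x
  apply Subtype.ext
  exact m.sqφ_c₀ _

theorem h0_sqψ : (Mor.ofHom 𝒰' ψ').h0 ∘ₗ mB.h0 = mC.h0 ∘ₗ (Mor.ofHom 𝒰 ψ).h0 := by
  apply LinearMap.ext
  intro x
  apply Subtype.ext
  exact m.sqψ_c₀ _

theorem h1_sqφ : (Mor.ofHom 𝒰' φ').h1 ∘ₗ mA.h1 = mB.h1 ∘ₗ (Mor.ofHom 𝒰 φ).h1 := by
  apply LinearMap.ext
  intro x
  obtain ⟨b, hb, rfl⟩ := Hmid.exists_of x
  exact of_congr (m.sqφ_c₁ b) (comm_ker (Mor.ofHom 𝒰' φ').c₂_dC₁ (comm_ker mA.c₂_dC₁ hb))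
    (comm_ker mB.c₂_dC₁ (comm_ker (Mor.ofHom 𝒰 φ).c₂_dC₁ hb))

theorem h1_sqψ : (Mor.ofHom 𝒰' ψ').h1 ∘ₗ mB.h1 = mC.h1 ∘ₗ (Mor.ofHom 𝒰 ψ).h1 := by
  apply LinearMap.ext
  intro x
  obtain ⟨b, hb, rfl⟩ := Hmid.exists_of x
  exact of_congr (m.sqψ_c₁ b) (comm_ker (Mor.ofHom 𝒰' ψ').c₂_dC₁ (comm_ker mB.c₂_dC₁ hb))
    (comm_ker mC.c₂_dC₁ (comm_ker (Mor.ofHom 𝒰 ψ).c₂_dC₁ hb))

theorem h2_sqφ : (Mor.ofHom 𝒰' φ').h2 ∘ₗ mA.h2 = mB.h2 ∘ₗ (Mor.ofHom 𝒰 φ).h2 := by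
  apply LinearMap.ext
  intro x
  obtain ⟨b, hb, rfl⟩ := Hmid.exists_of x
  exact of_congr (m.sqφ_c₂ b) (comm_ker (Mor.ofHom 𝒰' φ').c₃_dC₂ (comm_ker mA.c₃_dC₂ hb))
    (comm_ker mB.c₃_dC₂ (comm_ker (Mor.ofHom 𝒰 φ).c₃_dC₂ hb))

theorem h2_sqψ : (Mor.ofHom 𝒰' ψ').h2 ∘ₗ mB.h2 = mC.h2 ∘ₗ (Mor.ofHom 𝒰 ψ).h2 := by
  apply LinearMap.ext
  intro x
  obtain ⟨b, hb, rfl⟩ := Hmid.exists_of x
  exact of_congr (m.sqψ_c₂ b) (comm_ker (Mor.ofHom 𝒰' ψ').c₃_dC₂ (comm_ker mB.c₃_dC₂ hb))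
    (comm_ker mC.c₃_dC₂ (comm_ker (Mor.ofHom 𝒰 ψ).c₃_dC₂ hb))

theorem h3_sqφ : (Mor.ofHom 𝒰' φ').h3 ∘ₗ mA.h3 = mB.h3 ∘ₗ (Mor.ofHom 𝒰 φ).h3 := by
  apply LinearMap.ext
  intro x
  obtain ⟨b, hb, rfl⟩ := Hmid.exists_of x
  exact of_congr (m.sqφ_c₃ b) (comm_ker (Mor.ofHom 𝒰' φ').p₄_dC₃ (comm_ker mA.p₄_dC₃ hb))
    (comm_ker mB.p₄_dC₃ (comm_ker (Mor.ofHom 𝒰 φ).p₄_dC₃ hb))

theorem h3_sqψ : (Mor.ofHom 𝒰' ψ').h3 ∘ₗ mB.h3 = mC.h3 ∘ₗ (Mor.ofHom 𝒰 ψ).h3 := by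
  apply LinearMap.ext
  intro x
  obtain ⟨b, hb, rfl⟩ := Hmid.exists_of x
  exact of_congr (m.sqψ_c₃ b) (comm_ker (Mor.ofHom 𝒰' ψ').p₄_dC₃ (comm_ker mB.p₄_dC₃ hb))
    (comm_ker mC.p₄_dC₃ (comm_ker (Mor.ofHom 𝒰 ψ).p₄_dC₃ hb))

variable (h : SES 𝒰 φ ψ) (h' : SES 𝒰' φ' ψ')

/-- naturality of `δ¹`. -/
theorem δ₁_natural : δ₁ h' ∘ₗ mC.h1 = mA.h2 ∘ₗ δ₁ h :=
  delta_natural (isSES₁ h) (isSES₁ h') mB.c₁ mA.c₂ mC.c₁ (fun x => m.sqψ_c₁ x)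
    (fun β α hβα => by
      rw [m.sqφ_c₂, ← hβα]
      exact (LinearMap.congr_fun mB.c₂_dC₁ β).symm)
    mC.h1 mA.h2 (fun _ hγ => ⟨comm_ker mC.c₂_dC₁ hγ, rfl⟩)
    (fun _ hα => ⟨comm_ker mA.c₃_dC₂ hα, rfl⟩)

/-- naturality of `δ²`. -/
theorem δ₂_natural : δ₂ h' ∘ₗ mC.h2 = mA.h3 ∘ₗ δ₂ h :=
  delta_natural (isSES₂ h) (isSES₂ h') mB.c₂ mA.c₃ mC.c₂ (fun x => m.sqψ_c₂ x)
    (fun β α hβα => by
      rw [m.sqφ_c₃, ← hβα]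
      exact (LinearMap.congr_fun mB.c₃_dC₂ β).symm)
    mC.h2 mA.h3 (fun _ hγ => ⟨comm_ker mC.c₃_dC₂ hγ, rfl⟩)
    (fun _ hα => ⟨comm_ker mA.p₄_dC₃ hα, rfl⟩)

/-- naturality of `δ⁰`. -/
theorem δ₀_natural : δ₀ h' ∘ₗ mC.h0 = mA.h1 ∘ₗ δ₀ h := by
  apply LinearMap.ext
  intro c
  obtain ⟨b, a, hbc, hab, ha, hδ⟩ := exists_lift₀ h c
  rw [LinearMap.comp_apply, LinearMap.comp_apply, hδ]
  have ha' : dC₁ 𝒰' A' (mA.c₁ a) = 0 := comm_ker mA.c₂_dC₁ ha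
  have e : mA.h1 (Hmid.of a ha) = Hmid.of (mA.c₁ a) ha' := rfl
  rw [e]
  refine δ₀_of h' (mC.h0 c) ha' (mB.c₀ b) ?_ ?_
  · rw [m.sqψ_c₀, hbc]
    rfl
  · rw [m.sqφ_c₁, hab]
    exact LinearMap.congr_fun mB.c₁_dC₀ b

end SESMor

/-! ### (a) morphisms of short exact sequences in `Rep k G` -/

section SameGroup

variable {A₂ B₂ C₂ : Rep.{0, 0, 0} k G} {φ₂ : A₂ ⟶ B₂} {ψ₂ : B₂ ⟶ C₂}

/-- a commutative diagram of short exact sequences in `Rep k G` is a `SESMor`. -/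
theorem SESMor.ofHom (fA : A ⟶ A₂) (fB : B ⟶ B₂) (fC : C ⟶ C₂)
    (hφ : φ ≫ fB = fA ≫ φ₂) (hψ : ψ ≫ fC = fB ≫ ψ₂) :
    SESMor (𝒰 := 𝒰) (𝒰' := 𝒰) φ ψ φ₂ ψ₂ (Mor.ofHom 𝒰 fA) (Mor.ofHom 𝒰 fB) (Mor.ofHom 𝒰 fC) where
  fAB := rfl
  fBC := rfl
  sqφ a := (congrArg (fun t : A ⟶ B₂ => t.hom a) hφ).symm
  sqψ b := (congrArg (fun t : B ⟶ C₂ => t.hom b) hψ).symm

variable (h : SES 𝒰 φ ψ) (h₂ : SES 𝒰 φ₂ ψ₂) (fA : A ⟶ A₂) (fB : B ⟶ B₂) (fC : C ⟶ C₂)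
  (hφ : φ ≫ fB = fA ≫ φ₂) (hψ : ψ ≫ fC = fB ≫ ψ₂)

include hφ hψ

theorem δ₀_natural_hom :
    δ₀ h₂ ∘ₗ (Mor.ofHom 𝒰 fC).h0 = (Mor.ofHom 𝒰 fA).h1 ∘ₗ δ₀ h :=
  (SESMor.ofHom fA fB fC hφ hψ).δ₀_natural h h₂

theorem δ₁_natural_hom :
    δ₁ h₂ ∘ₗ (Mor.ofHom 𝒰 fC).h1 = (Mor.ofHom 𝒰 fA).h2 ∘ₗ δ₁ h :=
  (SESMor.ofHom fA fB fC hφ hψ).δ₁_natural h h₂

theorem δ₂_natural_hom :
    δ₂ h₂ ∘ₗ (Mor.ofHom 𝒰 fC).h2 = (Mor.ofHom 𝒰 fA).h3 ∘ₗ δ₂ h :=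
  (SESMor.ofHom fA fB fC hφ hψ).δ₂_natural h h₂

end SameGroup

/-! ### (b) restriction along a continuous homomorphism -/

section Restriction

variable (f : G' →* G) (hf : IsCont 𝒰 𝒰' f)

include hf

/-- uniform smoothness is inherited by restriction along a continuous homomorphism. -/
theorem IsUSmooth.res {M : Rep.{0, 0, 0} k G} (hM : IsUSmooth 𝒰 M) :
    IsUSmooth 𝒰' (Rep.res f M) := by
  obtain ⟨U, hU, hUM⟩ := hM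
  obtain ⟨U', hU', hle⟩ := hf U hU
  exact ⟨U', hU', fun s hs m => hUM (f s) (hle s hs) m⟩

/-- the restriction of a short exact sequence (with uniformly smooth middle term). -/
theorem SES.res (h : SES 𝒰 φ ψ) :
    SES 𝒰' ((Rep.resFunctor f).map φ) ((Rep.resFunctor f).map ψ) where
  inj := h.inj
  surj := h.surj
  exact := h.exact
  smooth := IsUSmooth.res f hf h.smooth

/-- restriction is a morphism of short exact sequences. -/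
theorem SESMor.res :
    SESMor φ ψ ((Rep.resFunctor f).map φ) ((Rep.resFunctor f).map ψ)
      (Mor.res 𝒰 𝒰' f hf A) (Mor.res 𝒰 𝒰' f hf B) (Mor.res 𝒰 𝒰' f hf C) where
  fAB := rfl
  fBC := rfl
  sqφ _ := rfl
  sqψ _ := rfl

variable (h : SES 𝒰 φ ψ)

theorem δ₀_natural_res :
    δ₀ (SES.res f hf h) ∘ₗ (Mor.res 𝒰 𝒰' f hf C).h0 = (Mor.res 𝒰 𝒰' f hf A).h1 ∘ₗ δ₀ h :=
  (SESMor.res f hf).δ₀_natural h (SES.res f hf h)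

theorem δ₁_natural_res :
    δ₁ (SES.res f hf h) ∘ₗ (Mor.res 𝒰 𝒰' f hf C).h1 = (Mor.res 𝒰 𝒰' f hf A).h2 ∘ₗ δ₁ h :=
  (SESMor.res f hf).δ₁_natural h (SES.res f hf h)

theorem δ₂_natural_res :
    δ₂ (SES.res f hf h) ∘ₗ (Mor.res 𝒰 𝒰' f hf C).h2 = (Mor.res 𝒰 𝒰' f hf A).h3 ∘ₗ δ₂ h :=
  (SESMor.res f hf).δ₂_natural h (SES.res f hf h)

end Restriction

end Part3

end Fermat.Agent.S55.Formal.CoefExact
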