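/-
S55 / Formal (helper24, for Middle): LC-SURJECTIVITY for SMOOTH (not necessarily uniformly smooth)
coefficient modules.

`IsSmooth 𝒰 B` : every vector of `B` is fixed by some `U ∈ 𝒰` (i.e. `C₀ 𝒰 B = ⊤`).  This is what the
arithmetic `ℤ`-modules of the Middle block (`S`-units of `ℚ_S`, `S`-idèles) satisfy; they are NOT
`IsUSmooth`.  Main results: for a surjective morphism `ψ : B ⟶ C` with `B` smooth, every LC
`n`-cochain of `C` (`n = 0,1,2,3`) lifts to an LC `n`-cochain of `B`; i.e. `(Mor.ofHom 𝒰 ψ).c_n`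
is surjective.  Together with the (hypothesis-free) left exactness this gives the degreewise short
exact sequences of LC cochains needed by `SnakeWindow` for sequences like Kummer's
`0 → μ_p → O → O → 0`.
-/
import Mathlib
import Fermat.Agent.S55.Formal.LC

set_option autoImplicit false

open CategoryTheory groupCohomology

namespace Fermat.Agent.S55.Formal.SmoothLift

open Fermat.Agent.S55.Formal

variable {k : Type} [CommRing k] {G : Type} [Group G]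

/-- every vector is smooth -/
def IsSmooth (𝒰 : NBasis G) (B : Rep.{0, 0, 0} k G) : Prop := ∀ b : B, IsLC₀ 𝒰 B b

lemma isSmooth_iff_C₀_eq_top (𝒰 : NBasis G) (B : Rep.{0, 0, 0} k G) :
    IsSmooth 𝒰 B ↔ C₀ 𝒰 B = ⊤ :=
  ⟨fun h => eq_top_iff.mpr fun b _ => h b, fun h b => by
    have : b ∈ C₀ 𝒰 B := by rw [h]; trivial
    exact this⟩

lemma IsUSmooth.isSmooth {𝒰 : NBasis G} {B : Rep.{0, 0, 0} k G} (h : IsUSmooth 𝒰 B) :
    IsSmooth 𝒰 B := by
  obtain ⟨U, hU, hs⟩ := h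
  exact fun b => ⟨U, hU, fun s hs' => hs s hs' b⟩

/-- a common level for a finite set of smooth vectors, below a given level -/
lemma exists_common_level {𝒰 : NBasis G} {B : Rep.{0, 0, 0} k G} (hB : IsSmooth 𝒰 B)
    {T : Set B} (hT : T.Finite) {U : Subgroup G} (hU : 𝒰.mem U) :
    ∃ W, 𝒰.mem W ∧ W ≤ U ∧ ∀ s ∈ W, ∀ b ∈ T, B.ρ s b = b := by
  induction T, hT using Set.Finite.induction_on with
  | empty => exact ⟨U, hU, le_rfl, fun _ _ b hb => absurd hb (Set.notMem_empty b)⟩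
  | @insert a T _ _ ih =>
    obtain ⟨W, hW, hWU, hfix⟩ := ih
    obtain ⟨V, hV, hVa⟩ := hB a
    obtain ⟨W', hW', hle⟩ := 𝒰.inf hW hV
    refine ⟨W', hW', fun s hs => hWU (hle hs).1, fun s hs b hb => ?_⟩
    rcases hb with rfl | hb
    · exact hVa s (hle hs).2
    · exact hfix s (hle hs).1 b hb

/-- every element is a coset representative times an element of `U` -/
lemma exists_out_mul (U : Subgroup G) (g : G) :
    ∃ s ∈ U, g = (QuotientGroup.mk g : G ⧸ U).out * s := by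
  obtain ⟨h, hh⟩ := QuotientGroup.mk_out_eq_mul U g
  exact ⟨h⁻¹, U.inv_mem h.2, by rw [hh]; group⟩

section Lifts

variable {𝒰 : NBasis G} {B C : Rep.{0, 0, 0} k G} (ψ : B ⟶ C)

lemma range_finite₁ {f : G → C} {U : Subgroup G} (hfin : U.FiniteIndex)
    (h : ∀ s ∈ U, ∀ g, f (g * s) = f g) : (Set.range f).Finite := by
  have : Finite (G ⧸ U) := Subgroup.finite_quotient_of_finiteIndex
  refine (Set.finite_range fun q : G ⧸ U => f q.out).subset ?_
  rintro _ ⟨g, rfl⟩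
  obtain ⟨s, hs, hg⟩ := exists_out_mul U g
  exact ⟨QuotientGroup.mk g, by rw [hg, h s hs, ← hg]⟩

lemma range_finite₂ {f : G × G → C} {U : Subgroup G} (hfin : U.FiniteIndex)
    (h : ∀ s ∈ U, ∀ g g', f (g * s, g') = f (g, g') ∧ f (g, g' * s) = f (g, g')) :
    (Set.range f).Finite := by
  have : Finite (G ⧸ U) := Subgroup.finite_quotient_of_finiteIndex
  refine (Set.finite_range fun q : (G ⧸ U) × (G ⧸ U) => f (q.1.out, q.2.out)).subset ?_
  rintro _ ⟨⟨g, g'⟩, rfl⟩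
  obtain ⟨s, hs, hg⟩ := exists_out_mul U g
  obtain ⟨s', hs', hg'⟩ := exists_out_mul U g'
  refine ⟨(QuotientGroup.mk g, QuotientGroup.mk g'), ?_⟩
  simp only
  conv_rhs => rw [hg, hg']
  rw [(h s hs _ _).1, (h s' hs' _ _).2]

lemma range_finite₃ {f : G × G × G → C} {U : Subgroup G} (hfin : U.FiniteIndex)
    (h : ∀ s ∈ U, ∀ g g' g'', f (g * s, g', g'') = f (g, g', g'') ∧
      f (g, g' * s, g'') = f (g, g', g'') ∧ f (g, g', g'' * s) = f (g, g', g'')) :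
    (Set.range f).Finite := by
  have : Finite (G ⧸ U) := Subgroup.finite_quotient_of_finiteIndex
  refine (Set.finite_range
    fun q : (G ⧸ U) × (G ⧸ U) × (G ⧸ U) => f (q.1.out, q.2.1.out, q.2.2.out)).subset ?_
  rintro _ ⟨⟨g, g', g''⟩, rfl⟩
  obtain ⟨s, hs, hg⟩ := exists_out_mul U g
  obtain ⟨s', hs', hg'⟩ := exists_out_mul U g'
  obtain ⟨s'', hs'', hg''⟩ := exists_out_mul U g''
  refine ⟨(QuotientGroup.mk g, QuotientGroup.mk g', QuotientGroup.mk g''), ?_⟩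
  simp only
  conv_rhs => rw [hg, hg', hg'']
  rw [(h s hs _ _ _).1, (h s' hs' _ _ _).2.1, (h s'' hs'' _ _ _).2.2]

variable (hB : IsSmooth 𝒰 B) (hψ : Function.Surjective ψ.hom)
include hB hψ

/-- degree `0` -/
theorem exists_lift₀ (c : C) : ∃ b : B, b ∈ C₀ 𝒰 B ∧ ψ.hom b = c := by
  obtain ⟨b, hb⟩ := hψ c
  exact ⟨b, hB b, hb⟩

/-- degree `1` -/
theorem exists_lift₁ {f : G → C} (hf : f ∈ C₁ 𝒰 C) :
    ∃ F : G → B, F ∈ C₁ 𝒰 B ∧ ∀ g, ψ.hom (F g) = f g := by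
  obtain ⟨U, hU, h⟩ := hf
  let σ := Function.surjInv hψ
  have hσ : ∀ c, ψ.hom (σ c) = c := Function.surjInv_eq hψ
  have hfin : (Set.range fun g => σ (f g)).Finite := by
    have := (range_finite₁ (f := f) (𝒰.finiteIndex hU) fun s hs g => (h s hs g).1).image σ
    refine this.subset ?_
    rintro _ ⟨g, rfl⟩
    exact ⟨f g, ⟨g, rfl⟩, rfl⟩
  obtain ⟨W, hW, hWU, hfix⟩ := exists_common_level hB hfin hU
  refine ⟨fun g => σ (f g), ⟨W, hW, fun s hs g => ⟨?_, ?_⟩⟩, fun g => hσ _⟩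
  · simp only [(h s (hWU hs) g).1]
  · exact hfix s hs _ ⟨g, rfl⟩

/-- degree `2` -/
theorem exists_lift₂ {f : G × G → C} (hf : f ∈ C₂ 𝒰 C) :
    ∃ F : G × G → B, F ∈ C₂ 𝒰 B ∧ ∀ x, ψ.hom (F x) = f x := by
  obtain ⟨U, hU, h⟩ := hf
  let σ := Function.surjInv hψ
  have hσ : ∀ c, ψ.hom (σ c) = c := Function.surjInv_eq hψ
  have hfin : (Set.range fun x => σ (f x)).Finite := by
    have := (range_finite₂ (f := f) (𝒰.finiteIndex hU)
      fun s hs g g' => ⟨(h s hs g g').1, (h s hs g g').2.1⟩).image σ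
    refine this.subset ?_
    rintro _ ⟨x, rfl⟩
    exact ⟨f x, ⟨x, rfl⟩, rfl⟩
  obtain ⟨W, hW, hWU, hfix⟩ := exists_common_level hB hfin hU
  refine ⟨fun x => σ (f x), ⟨W, hW, fun s hs g g' => ⟨?_, ?_, ?_⟩⟩, fun x => hσ _⟩
  · simp only [(h s (hWU hs) g g').1]
  · simp only [(h s (hWU hs) g g').2.1]
  · exact hfix s hs _ ⟨(g, g'), rfl⟩

/-- degree `3` -/
theorem exists_lift₃ {f : G × G × G → C} (hf : f ∈ C₃ 𝒰 C) :
    ∃ F : G × G × G → B, F ∈ C₃ 𝒰 B ∧ ∀ x, ψ.hom (F x) = f x := by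
  obtain ⟨U, hU, h⟩ := hf
  let σ := Function.surjInv hψ
  have hσ : ∀ c, ψ.hom (σ c) = c := Function.surjInv_eq hψ
  have hfin : (Set.range fun x => σ (f x)).Finite := by
    have := (range_finite₃ (f := f) (𝒰.finiteIndex hU)
      fun s hs g g' g'' => ⟨(h s hs g g' g'').1, (h s hs g g' g'').2.1,
        (h s hs g g' g'').2.2.1⟩).image σ
    refine this.subset ?_
    rintro _ ⟨x, rfl⟩
    exact ⟨f x, ⟨x, rfl⟩, rfl⟩
  obtain ⟨W, hW, hWU, hfix⟩ := exists_common_level hB hfin hU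
  refine ⟨fun x => σ (f x), ⟨W, hW, fun s hs g g' g'' => ⟨?_, ?_, ?_, ?_⟩⟩, fun x => hσ _⟩
  · simp only [(h s (hWU hs) g g' g'').1]
  · simp only [(h s (hWU hs) g g' g'').2.1]
  · simp only [(h s (hWU hs) g g' g'').2.2.1]
  · exact hfix s hs _ ⟨(g, g', g''), rfl⟩

/-- surjectivity of the chain maps -/
theorem c₀_surjective : Function.Surjective (Mor.ofHom 𝒰 ψ).c₀ := by
  rintro ⟨c, _⟩
  obtain ⟨b, hb, hbc⟩ := exists_lift₀ ψ hB hψ c
  exact ⟨⟨b, hb⟩, Subtype.ext hbc⟩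

theorem c₁_surjective : Function.Surjective (Mor.ofHom 𝒰 ψ).c₁ := by
  rintro ⟨f, hf⟩
  obtain ⟨F, hF, hFf⟩ := exists_lift₁ ψ hB hψ hf
  exact ⟨⟨F, hF⟩, Subtype.ext (funext hFf)⟩

theorem c₂_surjective : Function.Surjective (Mor.ofHom 𝒰 ψ).c₂ := by
  rintro ⟨f, hf⟩
  obtain ⟨F, hF, hFf⟩ := exists_lift₂ ψ hB hψ hf
  exact ⟨⟨F, hF⟩, Subtype.ext (funext fun x => hFf x)⟩

theorem c₃_surjective : Function.Surjective (Mor.ofHom 𝒰 ψ).c₃ := by
  rintro ⟨f, hf⟩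
  obtain ⟨F, hF, hFf⟩ := exists_lift₃ ψ hB hψ hf
  exact ⟨⟨F, hF⟩, Subtype.ext (funext fun x => hFf x)⟩

end Lifts

end Fermat.Agent.S55.Formal.SmoothLift
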