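import Mathlib
import Fermat.Agent.S55.Formal.LC
import Fermat.Agent.S55.Formal.SnakeWindow
import Fermat.Agent.S55.Formal.ConeWindow

/-!
# S55 / Formal / CoefLES: the long exact sequence of LC cohomology in the coefficient variable

`0 → A -α→ B -β→ C → 0` a short exact sequence of representations of `G` (given as two `Mor`s over
the identity of `G`, hypothesis bundle `IsCoefSES`), `B` uniformly smooth.  Then the LC cochain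
functors `C₀ .. C₃` are exact, the three windows `(0,C₀,C₁,C₂)`, `(C₀,C₁,C₂,C₃)`, `(C₁,C₂,C₃,Fun G⁴)`
are `SnakeWindow.IsSES`, and we get connecting maps `δ₀ δ₁ δ₂` with the long exact sequence
`0 → H⁰A → H⁰B → H⁰C → H¹A → H¹B → H¹C → H²A → H²B → H²C → H³A → H³B → H³C`.
-/

set_option autoImplicit false

open CategoryTheory groupCohomology

namespace Fermat.Agent.S55.Formal.CoefLES

open Fermat.Agent.S55.Formal

variable {k : Type} [CommRing k] {G : Type} [Group G]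
variable {𝒰 : NBasis G} {A B C : Rep.{0, 0, 0} k G}

/-- A short exact sequence of coefficient modules `0 → A → B → C → 0`, given by two `Mor`s over
the identity of `G`, with `B` uniformly smooth. -/
structure IsCoefSES (α : Mor 𝒰 A 𝒰 B) (β : Mor 𝒰 B 𝒰 C) : Prop where
  fα : ∀ g, α.f g = g
  fβ : ∀ g, β.f g = g
  inj : Function.Injective α.φ
  surj : Function.Surjective β.φ
  exact : Function.Exact α.φ β.φ
  usmooth : IsUSmooth 𝒰 B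

section Exactness

variable {α : Mor 𝒰 A 𝒰 B} {β : Mor 𝒰 B 𝒰 C} (h : IsCoefSES α β)

include h

theorem equivα (g : G) (a : A) : α.φ (A.ρ g a) = B.ρ g (α.φ a) := by
  have := α.equivar g a
  rwa [h.fα] at this

theorem equivβ (g : G) (b : B) : β.φ (B.ρ g b) = C.ρ g (β.φ b) := by
  have := β.equivar g b
  rwa [h.fβ] at this

theorem βα (a : A) : β.φ (α.φ a) = 0 := (h.exact (α.φ a)).2 ⟨a, rfl⟩

/-! #### injectivity -/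

theorem c₀_injective : Function.Injective α.c₀ := by
  intro x y hxy
  apply Subtype.ext
  apply h.inj
  exact congrArg Subtype.val hxy

theorem c₁_injective : Function.Injective α.c₁ := by
  intro x y hxy
  apply Subtype.ext
  funext g
  apply h.inj
  have := congrFun (congrArg Subtype.val hxy) g
  simpa [h.fα] using this

theorem c₂_injective : Function.Injective α.c₂ := by
  intro x y hxy
  apply Subtype.ext
  funext ⟨g, g'⟩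
  apply h.inj
  have := congrFun (congrArg Subtype.val hxy) (g, g')
  simpa [h.fα] using this

theorem c₃_injective : Function.Injective α.c₃ := by
  intro x y hxy
  apply Subtype.ext
  funext ⟨g, g', g''⟩
  apply h.inj
  have := congrFun (congrArg Subtype.val hxy) (g, g', g'')
  simpa [h.fα] using this

theorem p₄_injective : Function.Injective α.p₄ := by
  intro x y hxy
  funext ⟨g, g', g'', g'''⟩
  apply h.inj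
  have := congrFun hxy (g, g', g'', g''')
  simpa [h.fα] using this

/-! #### surjectivity -/

theorem c₀_surjective : Function.Surjective β.c₀ := by
  intro y
  obtain ⟨b, hb⟩ := h.surj (y : C)
  have hb0 : b ∈ C₀ 𝒰 B := by rw [h.usmooth.C₀_eq_top]; trivial
  exact ⟨⟨b, hb0⟩, Subtype.ext hb⟩

theorem c₁_surjective : Function.Surjective β.c₁ := by
  rintro ⟨y, U, hU, hy⟩
  obtain ⟨V, hV, hVB⟩ := h.usmooth
  obtain ⟨W, hW, hle⟩ := 𝒰.inf hU hV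
  refine ⟨⟨fun g => Function.surjInv h.surj (y g), W, hW, fun s hs g => ⟨?_, ?_⟩⟩, ?_⟩
  · simp only [(hy s (hle hs).1 g).1]
  · exact hVB s (hle hs).2 _
  · apply Subtype.ext
    funext g
    simp [h.fβ, Function.surjInv_eq h.surj]

theorem c₂_surjective : Function.Surjective β.c₂ := by
  rintro ⟨y, U, hU, hy⟩
  obtain ⟨V, hV, hVB⟩ := h.usmooth
  obtain ⟨W, hW, hle⟩ := 𝒰.inf hU hV
  refine ⟨⟨fun g => Function.surjInv h.surj (y g), W, hW, fun s hs g g' => ⟨?_, ?_, ?_⟩⟩, ?_⟩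
  · simp only [(hy s (hle hs).1 g g').1]
  · simp only [(hy s (hle hs).1 g g').2.1]
  · exact hVB s (hle hs).2 _
  · apply Subtype.ext
    funext ⟨g, g'⟩
    simp [h.fβ, Function.surjInv_eq h.surj]

theorem c₃_surjective : Function.Surjective β.c₃ := by
  rintro ⟨y, U, hU, hy⟩
  obtain ⟨V, hV, hVB⟩ := h.usmooth
  obtain ⟨W, hW, hle⟩ := 𝒰.inf hU hV
  refine ⟨⟨fun g => Function.surjInv h.surj (y g), W, hW,
    fun s hs g g' g'' => ⟨?_, ?_, ?_, ?_⟩⟩, ?_⟩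
  · simp only [(hy s (hle hs).1 g g' g'').1]
  · simp only [(hy s (hle hs).1 g g' g'').2.1]
  · simp only [(hy s (hle hs).1 g g' g'').2.2.1]
  · exact hVB s (hle hs).2 _
  · apply Subtype.ext
    funext ⟨g, g', g''⟩
    simp [h.fβ, Function.surjInv_eq h.surj]

/-! #### exactness in the middle -/

theorem exact_c₀ : Function.Exact α.c₀ β.c₀ := by
  intro x
  constructor
  · intro hx
    have hx' : β.φ (x : B) = 0 := congrArg Subtype.val hx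
    obtain ⟨a, ha⟩ := (h.exact (x : B)).1 hx'
    obtain ⟨U, hU, hxU⟩ := x.2
    refine ⟨⟨a, U, hU, fun s hs => ?_⟩, Subtype.ext ha⟩
    apply h.inj
    rw [equivα h, ha, hxU s hs]
  · rintro ⟨a, rfl⟩
    apply Subtype.ext
    exact βα h _

theorem exact_c₁ : Function.Exact α.c₁ β.c₁ := by
  intro x
  constructor
  · intro hx
    have hx' : ∀ g, β.φ ((x : G → B) g) = 0 := fun g => by
      have := congrFun (congrArg Subtype.val hx) g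
      simpa [h.fβ] using this
    choose a ha using fun g => (h.exact ((x : G → B) g)).1 (hx' g)
    obtain ⟨U, hU, hxU⟩ := x.2
    refine ⟨⟨a, U, hU, fun s hs g => ⟨?_, ?_⟩⟩, ?_⟩
    · apply h.inj
      rw [ha, ha, (hxU s hs g).1]
    · apply h.inj
      rw [equivα h, ha, (hxU s hs g).2]
    · apply Subtype.ext
      funext g
      simp [h.fα, ha]
  · rintro ⟨a, rfl⟩
    apply Subtype.ext
    funext g
    simp [βα h]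

theorem exact_c₂ : Function.Exact α.c₂ β.c₂ := by
  intro x
  constructor
  · intro hx
    have hx' : ∀ g, β.φ ((x : G × G → B) g) = 0 := fun ⟨g, g'⟩ => by
      have := congrFun (congrArg Subtype.val hx) (g, g')
      simpa [h.fβ] using this
    choose a ha using fun g => (h.exact ((x : G × G → B) g)).1 (hx' g)
    obtain ⟨U, hU, hxU⟩ := x.2
    refine ⟨⟨a, U, hU, fun s hs g g' => ⟨?_, ?_, ?_⟩⟩, ?_⟩
    · apply h.inj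
      rw [ha, ha, (hxU s hs g g').1]
    · apply h.inj
      rw [ha, ha, (hxU s hs g g').2.1]
    · apply h.inj
      rw [equivα h, ha, (hxU s hs g g').2.2]
    · apply Subtype.ext
      funext ⟨g, g'⟩
      simp [h.fα, ha]
  · rintro ⟨a, rfl⟩
    apply Subtype.ext
    funext ⟨g, g'⟩
    simp [βα h]

theorem exact_c₃ : Function.Exact α.c₃ β.c₃ := by
  intro x
  constructor
  · intro hx
    have hx' : ∀ g, β.φ ((x : G × G × G → B) g) = 0 := fun ⟨g, g', g''⟩ => by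
      have := congrFun (congrArg Subtype.val hx) (g, g', g'')
      simpa [h.fβ] using this
    choose a ha using fun g => (h.exact ((x : G × G × G → B) g)).1 (hx' g)
    obtain ⟨U, hU, hxU⟩ := x.2
    refine ⟨⟨a, U, hU, fun s hs g g' g'' => ⟨?_, ?_, ?_, ?_⟩⟩, ?_⟩
    · apply h.inj
      rw [ha, ha, (hxU s hs g g' g'').1]
    · apply h.inj
      rw [ha, ha, (hxU s hs g g' g'').2.1]
    · apply h.inj
      rw [ha, ha, (hxU s hs g g' g'').2.2.1]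
    · apply h.inj
      rw [equivα h, ha, (hxU s hs g g' g'').2.2.2]
    · apply Subtype.ext
      funext ⟨g, g', g''⟩
      simp [h.fα, ha]
  · rintro ⟨a, rfl⟩
    apply Subtype.ext
    funext ⟨g, g', g''⟩
    simp [βα h]

end Exactness

section Windows

variable {α : Mor 𝒰 A 𝒰 B} {β : Mor 𝒰 B 𝒰 C} (h : IsCoefSES α β)

include h

/-- The window `(C₀, C₁, C₂, C₃)`. -/
theorem isSES₁ : SnakeWindow.IsSES (dC₀ 𝒰 A) (dC₁ 𝒰 A) (dC₂ 𝒰 A) (dC₀ 𝒰 B) (dC₁ 𝒰 B) (dC₂ 𝒰 B)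
    (dC₀ 𝒰 C) (dC₁ 𝒰 C) (dC₂ 𝒰 C) α.c₀ α.c₁ α.c₂ α.c₃ β.c₀ β.c₁ β.c₂ β.c₃ where
  aa1 := dC₁_dC₀ 𝒰 A
  aa2 := dC₂_dC₁ 𝒰 A
  bb1 := dC₁_dC₀ 𝒰 B
  bb2 := dC₂_dC₁ 𝒰 B
  cc1 := dC₁_dC₀ 𝒰 C
  cc2 := dC₂_dC₁ 𝒰 C
  ia0 x := (LinearMap.congr_fun α.c₁_dC₀ x).symm
  ia1 x := (LinearMap.congr_fun α.c₂_dC₁ x).symm
  ia2 x := (LinearMap.congr_fun α.c₃_dC₂ x).symm
  pb0 x := (LinearMap.congr_fun β.c₁_dC₀ x).symm
  pb1 x := (LinearMap.congr_fun β.c₂_dC₁ x).symm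
  pb2 x := (LinearMap.congr_fun β.c₃_dC₂ x).symm
  inj2 := c₂_injective h
  inj3 := c₃_injective h
  surj0 := c₀_surjective h
  surj1 := c₁_surjective h
  ex1 := exact_c₁ h
  ex2 := exact_c₂ h

/-- The window `(C₁, C₂, C₃, Fun G⁴)`. -/
theorem isSES₂ : SnakeWindow.IsSES (dC₁ 𝒰 A) (dC₂ 𝒰 A) (dC₃ 𝒰 A) (dC₁ 𝒰 B) (dC₂ 𝒰 B) (dC₃ 𝒰 B)
    (dC₁ 𝒰 C) (dC₂ 𝒰 C) (dC₃ 𝒰 C) α.c₁ α.c₂ α.c₃ α.p₄ β.c₁ β.c₂ β.c₃ β.p₄ where
  aa1 := dC₂_dC₁ 𝒰 A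
  aa2 := dC₃_dC₂ 𝒰 A
  bb1 := dC₂_dC₁ 𝒰 B
  bb2 := dC₃_dC₂ 𝒰 B
  cc1 := dC₂_dC₁ 𝒰 C
  cc2 := dC₃_dC₂ 𝒰 C
  ia0 x := (LinearMap.congr_fun α.c₂_dC₁ x).symm
  ia1 x := (LinearMap.congr_fun α.c₃_dC₂ x).symm
  ia2 x := (LinearMap.congr_fun α.p₄_dC₃ x).symm
  pb0 x := (LinearMap.congr_fun β.c₂_dC₁ x).symm
  pb1 x := (LinearMap.congr_fun β.c₃_dC₂ x).symm
  pb2 x := (LinearMap.congr_fun β.p₄_dC₃ x).symm
  inj2 := c₃_injective h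
  inj3 := p₄_injective h
  surj0 := c₁_surjective h
  surj1 := c₂_surjective h
  ex1 := exact_c₂ h
  ex2 := exact_c₃ h

/-- The window `(0, C₀, C₁, C₂)` (a `PUnit` in degree `-1`). -/
theorem isSES₀ : SnakeWindow.IsSES (0 : PUnit.{1} →ₗ[k] ↥(C₀ 𝒰 A)) (dC₀ 𝒰 A) (dC₁ 𝒰 A)
    (0 : PUnit.{1} →ₗ[k] ↥(C₀ 𝒰 B)) (dC₀ 𝒰 B) (dC₁ 𝒰 B)
    (0 : PUnit.{1} →ₗ[k] ↥(C₀ 𝒰 C)) (dC₀ 𝒰 C) (dC₁ 𝒰 C)
    (LinearMap.id : PUnit.{1} →ₗ[k] PUnit.{1}) α.c₀ α.c₁ α.c₂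
    (LinearMap.id : PUnit.{1} →ₗ[k] PUnit.{1}) β.c₀ β.c₁ β.c₂ where
  aa1 x := by simp
  aa2 := dC₁_dC₀ 𝒰 A
  bb1 x := by simp
  bb2 := dC₁_dC₀ 𝒰 B
  cc1 x := by simp
  cc2 := dC₁_dC₀ 𝒰 C
  ia0 x := by simp
  ia1 x := (LinearMap.congr_fun α.c₁_dC₀ x).symm
  ia2 x := (LinearMap.congr_fun α.c₂_dC₁ x).symm
  pb0 x := by simp
  pb1 x := (LinearMap.congr_fun β.c₁_dC₀ x).symm
  pb2 x := (LinearMap.congr_fun β.c₂_dC₁ x).symm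
  inj2 := c₁_injective h
  inj3 := c₂_injective h
  surj0 := fun x => ⟨x, rfl⟩
  surj1 := c₀_surjective h
  ex1 := exact_c₀ h
  ex2 := exact_c₁ h

end Windows

section LES

variable {α : Mor 𝒰 A 𝒰 B} {β : Mor 𝒰 B 𝒰 C} (h : IsCoefSES α β)

/-- `Hmid 0 dC₀ ≃ H⁰` (`PUnit` in degree `-1`). -/
noncomputable abbrev E₀ (𝒰 : NBasis G) (M : Rep.{0, 0, 0} k G) :
    Hmid (0 : PUnit.{1} →ₗ[k] ↥(C₀ 𝒰 M)) (dC₀ 𝒰 M) ≃ₗ[k] ↥(H0 𝒰 M) :=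
  ConeWindow.equivKerOfZero (A := PUnit.{1}) (dC₀ 𝒰 M)

/-- `δ₀ : H⁰(C) → H¹(A)`. -/
noncomputable def δ₀ : ↥(H0 𝒰 C) →ₗ[k] H1 𝒰 A :=
  (SnakeWindow.delta (isSES₀ h)).comp (E₀ 𝒰 C).symm.toLinearMap

/-- `δ₁ : H¹(C) → H²(A)`. -/
noncomputable def δ₁ : H1 𝒰 C →ₗ[k] H2 𝒰 A := SnakeWindow.delta (isSES₁ h)

/-- `δ₂ : H²(C) → H³(A)`. -/
noncomputable def δ₂ : H2 𝒰 C →ₗ[k] H3 𝒰 A := SnakeWindow.delta (isSES₂ h)

/-- Formula for `δ₀`: if `d b = α a` then `δ₀ [β b] = [a]`. -/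
theorem δ₀_of (b : ↥(C₀ 𝒰 B)) (a : ↥(C₁ 𝒰 A)) (hba : dC₀ 𝒰 B b = α.c₁ a)
    (h1 : β.c₀ b ∈ H0 𝒰 C) (h2 : dC₁ 𝒰 A a = 0) :
    δ₀ h ⟨β.c₀ b, h1⟩ = Hmid.of a h2 := by
  unfold δ₀
  rw [LinearMap.comp_apply]
  have e : (E₀ 𝒰 C).symm ⟨β.c₀ b, h1⟩ = Hmid.of (β.c₀ b) (LinearMap.mem_ker.1 h1) := rfl
  rw [LinearEquiv.coe_coe, e]
  exact SnakeWindow.delta_of (isSES₀ h) hba

/-- Formula for `δ₁`: if `d b = α a` then `δ₁ [β b] = [a]`. -/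
theorem δ₁_of (b : ↥(C₁ 𝒰 B)) (a : ↥(C₂ 𝒰 A)) (hba : dC₁ 𝒰 B b = α.c₂ a)
    (h1 : dC₁ 𝒰 C (β.c₁ b) = 0) (h2 : dC₂ 𝒰 A a = 0) :
    δ₁ h (Hmid.of (β.c₁ b) h1) = Hmid.of a h2 :=
  SnakeWindow.delta_of (isSES₁ h) hba

/-- Formula for `δ₂`: if `d b = α a` then `δ₂ [β b] = [a]`. -/
theorem δ₂_of (b : ↥(C₂ 𝒰 B)) (a : ↥(C₃ 𝒰 A)) (hba : dC₂ 𝒰 B b = α.c₃ a)
    (h1 : dC₂ 𝒰 C (β.c₂ b) = 0) (h2 : dC₃ 𝒰 A a = 0) :
    δ₂ h (Hmid.of (β.c₂ b) h1) = Hmid.of a h2 :=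
  SnakeWindow.delta_of (isSES₂ h) hba

include h in
theorem h0_injective : Function.Injective α.h0 := by
  intro x y hxy
  apply Subtype.ext
  apply c₀_injective h
  exact congrArg Subtype.val hxy

include h in
theorem exact_h0 : Function.Exact α.h0 β.h0 := by
  intro x
  constructor
  · intro hx
    have hx' : β.c₀ (x : ↥(C₀ 𝒰 B)) = 0 := congrArg Subtype.val hx
    obtain ⟨a, ha⟩ := (exact_c₀ h _).1 hx'
    refine ⟨⟨a, ?_⟩, Subtype.ext ha⟩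
    rw [LinearMap.mem_ker]
    apply c₁_injective h
    have := LinearMap.congr_fun α.c₁_dC₀ a
    simp only [LinearMap.comp_apply] at this
    rw [this, ha, map_zero]
    exact LinearMap.mem_ker.1 x.2
  · rintro ⟨a, rfl⟩
    apply Subtype.ext
    exact (exact_c₀ h _).2 ⟨a, rfl⟩

theorem h0_E₀ (x : Hmid (0 : PUnit.{1} →ₗ[k] ↥(C₀ 𝒰 B)) (dC₀ 𝒰 B)) :
    β.h0 (E₀ 𝒰 B x) = E₀ 𝒰 C (SnakeWindow.Hp1 (isSES₀ h) x) := by
  obtain ⟨b, hb, rfl⟩ := Hmid.exists_of x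
  apply Subtype.ext
  apply Subtype.ext
  unfold SnakeWindow.Hp1
  rw [Hmid.map_of]
  change ((β.c₀ (E₀ 𝒰 B (Hmid.of b hb) : ↥(C₀ 𝒰 B)) : ↥(C₀ 𝒰 C)) : C) = _
  rw [ConeWindow.equivKerOfZero_of, ConeWindow.equivKerOfZero_of]

theorem exact_h0_δ₀ : Function.Exact β.h0 (δ₀ h) := by
  intro y
  unfold δ₀
  rw [LinearMap.comp_apply, LinearEquiv.coe_coe,
    SnakeWindow.exact_Hp1_delta (isSES₀ h) ((E₀ 𝒰 C).symm y)]
  constructor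
  · rintro ⟨x, hx⟩
    refine ⟨E₀ 𝒰 B x, ?_⟩
    rw [h0_E₀ h, hx, LinearEquiv.apply_symm_apply]
  · rintro ⟨x, rfl⟩
    refine ⟨(E₀ 𝒰 B).symm x, ?_⟩
    apply (E₀ 𝒰 C).injective
    rw [← h0_E₀ h, LinearEquiv.apply_symm_apply, LinearEquiv.apply_symm_apply]

theorem exact_δ₀_h1 : Function.Exact (δ₀ h) α.h1 := by
  intro x
  have := SnakeWindow.exact_delta_Hi2 (isSES₀ h) x
  change α.h1 x = 0 ↔ _ at this
  rw [this]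
  unfold δ₀
  constructor
  · rintro ⟨y, rfl⟩
    exact ⟨E₀ 𝒰 C y, by simp⟩
  · rintro ⟨y, rfl⟩
    exact ⟨(E₀ 𝒰 C).symm y, rfl⟩

include h in
theorem exact_h1 : Function.Exact α.h1 β.h1 := SnakeWindow.exact_Hi1_Hp1 (isSES₁ h)

theorem exact_h1_δ₁ : Function.Exact β.h1 (δ₁ h) := SnakeWindow.exact_Hp1_delta (isSES₁ h)

theorem exact_δ₁_h2 : Function.Exact (δ₁ h) α.h2 := SnakeWindow.exact_delta_Hi2 (isSES₁ h)

include h in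
theorem exact_h2 : Function.Exact α.h2 β.h2 := SnakeWindow.exact_Hi2_Hp2 (isSES₁ h)

theorem exact_h2_δ₂ : Function.Exact β.h2 (δ₂ h) := SnakeWindow.exact_Hp1_delta (isSES₂ h)

theorem exact_δ₂_h3 : Function.Exact (δ₂ h) α.h3 := SnakeWindow.exact_delta_Hi2 (isSES₂ h)

include h in
theorem exact_h3 : Function.Exact α.h3 β.h3 := SnakeWindow.exact_Hi2_Hp2 (isSES₂ h)

end LES

section MorOf

variable {G' : Type} [Group G'] {𝒰' : NBasis G'} {A' : Rep.{0, 0, 0} k G'} (a : Mor 𝒰 A 𝒰' A')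

theorem dC₁_c₁ (γ : ↥(C₁ 𝒰 A)) (hγ : dC₁ 𝒰 A γ = 0) : dC₁ 𝒰' A' (a.c₁ γ) = 0 := by
  have := LinearMap.congr_fun a.c₂_dC₁ γ
  simp only [LinearMap.comp_apply] at this
  rw [← this, hγ, map_zero]

theorem dC₂_c₂ (γ : ↥(C₂ 𝒰 A)) (hγ : dC₂ 𝒰 A γ = 0) : dC₂ 𝒰' A' (a.c₂ γ) = 0 := by
  have := LinearMap.congr_fun a.c₃_dC₂ γ
  simp only [LinearMap.comp_apply] at this
  rw [← this, hγ, map_zero]

theorem dC₃_c₃ (γ : ↥(C₃ 𝒰 A)) (hγ : dC₃ 𝒰 A γ = 0) : dC₃ 𝒰' A' (a.c₃ γ) = 0 := by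
  have := LinearMap.congr_fun a.p₄_dC₃ γ
  simp only [LinearMap.comp_apply] at this
  rw [← this, hγ, map_zero]

theorem h1_of (γ : ↥(C₁ 𝒰 A)) (hγ : dC₁ 𝒰 A γ = 0) :
    a.h1 (Hmid.of γ hγ) = Hmid.of (a.c₁ γ) (dC₁_c₁ a γ hγ) := rfl

theorem h2_of (γ : ↥(C₂ 𝒰 A)) (hγ : dC₂ 𝒰 A γ = 0) :
    a.h2 (Hmid.of γ hγ) = Hmid.of (a.c₂ γ) (dC₂_c₂ a γ hγ) := rfl

theorem h3_of (γ : ↥(C₃ 𝒰 A)) (hγ : dC₃ 𝒰 A γ = 0) :
    a.h3 (Hmid.of γ hγ) = Hmid.of (a.c₃ γ) (dC₃_c₃ a γ hγ) := rfl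

end MorOf

section Natural

variable {G' : Type} [Group G'] {𝒰' : NBasis G'} {A' B' C' : Rep.{0, 0, 0} k G'}

/-- A commuting square of `Mor`s
```
A  --α-->  B
|a         |b
A' --α'--> B'
```
-/
structure CommSq (α : Mor 𝒰 A 𝒰 B) (a : Mor 𝒰 A 𝒰' A') (b : Mor 𝒰 B 𝒰' B')
    (α' : Mor 𝒰' A' 𝒰' B') : Prop where
  hf : ∀ g, α.f (b.f g) = a.f (α'.f g)
  hφ : ∀ x, b.φ (α.φ x) = α'.φ (a.φ x)

namespace CommSq

variable {α : Mor 𝒰 A 𝒰 B} {a : Mor 𝒰 A 𝒰' A'} {b : Mor 𝒰 B 𝒰' B'} {α' : Mor 𝒰' A' 𝒰' B'}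
  (sq : CommSq α a b α')

include sq

theorem c₀ (x : ↥(C₀ 𝒰 A)) : b.c₀ (α.c₀ x) = α'.c₀ (a.c₀ x) :=
  Subtype.ext (sq.hφ _)

theorem c₁ (x : ↥(C₁ 𝒰 A)) : b.c₁ (α.c₁ x) = α'.c₁ (a.c₁ x) := by
  apply Subtype.ext
  funext g
  simp only [Mor.c₁_coe, Mor.p₁_apply, sq.hf, sq.hφ]

theorem c₂ (x : ↥(C₂ 𝒰 A)) : b.c₂ (α.c₂ x) = α'.c₂ (a.c₂ x) := by
  apply Subtype.ext
  funext ⟨g, g'⟩
  simp only [Mor.c₂_coe, Mor.p₂_apply, sq.hf, sq.hφ]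

theorem c₃ (x : ↥(C₃ 𝒰 A)) : b.c₃ (α.c₃ x) = α'.c₃ (a.c₃ x) := by
  apply Subtype.ext
  funext ⟨g, g', g''⟩
  simp only [Mor.c₃_coe, Mor.p₃_apply, sq.hf, sq.hφ]

theorem h0 (x : ↥(H0 𝒰 A)) : b.h0 (α.h0 x) = α'.h0 (a.h0 x) :=
  Subtype.ext (sq.c₀ _)

theorem h1 (x : H1 𝒰 A) : b.h1 (α.h1 x) = α'.h1 (a.h1 x) := by
  obtain ⟨y, hy, rfl⟩ := Hmid.exists_of x
  rw [h1_of, h1_of, h1_of, h1_of]
  exact Hmid.of_eq_of_iff.2 ⟨0, by rw [map_zero, sq.c₁, sub_self]⟩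

theorem h2 (x : H2 𝒰 A) : b.h2 (α.h2 x) = α'.h2 (a.h2 x) := by
  obtain ⟨y, hy, rfl⟩ := Hmid.exists_of x
  rw [h2_of, h2_of, h2_of, h2_of]
  exact Hmid.of_eq_of_iff.2 ⟨0, by rw [map_zero, sq.c₂, sub_self]⟩

theorem h3 (x : H3 𝒰 A) : b.h3 (α.h3 x) = α'.h3 (a.h3 x) := by
  obtain ⟨y, hy, rfl⟩ := Hmid.exists_of x
  rw [h3_of, h3_of, h3_of, h3_of]
  exact Hmid.of_eq_of_iff.2 ⟨0, by rw [map_zero, sq.c₃, sub_self]⟩

end CommSq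

variable {α : Mor 𝒰 A 𝒰 B} {β : Mor 𝒰 B 𝒰 C} (h : IsCoefSES α β)
  {α' : Mor 𝒰' A' 𝒰' B'} {β' : Mor 𝒰' B' 𝒰' C'} (h' : IsCoefSES α' β')
  {a : Mor 𝒰 A 𝒰' A'} {b : Mor 𝒰 B 𝒰' B'} {c : Mor 𝒰 C 𝒰' C'}
  (sq₁ : CommSq α a b α') (sq₂ : CommSq β b c β')

include sq₁ sq₂

/-- Naturality of `δ₁` for a morphism of short exact sequences (possibly changing the group). -/
theorem δ₁_natural : (δ₁ h').comp c.h1 = a.h2.comp (δ₁ h) := by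
  unfold δ₁
  refine SnakeWindow.delta_natural (isSES₁ h) (isSES₁ h') b.c₁ a.c₂ c.c₁
    (fun x => (sq₂.c₁ x).symm) (fun y x hyx => ?_) c.h1 a.h2
    (fun γ hγ => ⟨_, h1_of c γ hγ⟩)
    (fun γ hγ => ⟨_, h2_of a γ hγ⟩)
  have := LinearMap.congr_fun b.c₂_dC₁ y
  simp only [LinearMap.comp_apply] at this
  rw [← this, hyx, sq₁.c₂]

/-- Naturality of `δ₂`. -/
theorem δ₂_natural : (δ₂ h').comp c.h2 = a.h3.comp (δ₂ h) := by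
  unfold δ₂
  refine SnakeWindow.delta_natural (isSES₂ h) (isSES₂ h') b.c₂ a.c₃ c.c₂
    (fun x => (sq₂.c₂ x).symm) (fun y x hyx => ?_) c.h2 a.h3
    (fun γ hγ => ⟨_, h2_of c γ hγ⟩)
    (fun γ hγ => ⟨_, h3_of a γ hγ⟩)
  have := LinearMap.congr_fun b.c₃_dC₂ y
  simp only [LinearMap.comp_apply] at this
  rw [← this, hyx, sq₁.c₃]

/-- Naturality of `δ₀`. -/
theorem δ₀_natural : (δ₀ h').comp c.h0 = a.h1.comp (δ₀ h) := by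
  apply LinearMap.ext
  intro y
  obtain ⟨y0, rfl⟩ := (E₀ 𝒰 C).surjective y
  obtain ⟨β₀, α₀, hβα, rfl⟩ := SnakeWindow.exists_lift (isSES₀ h) y0
  have hd : dC₀ 𝒰' B' (b.c₀ β₀) = α'.c₁ (a.c₁ α₀) := by
    have := LinearMap.congr_fun b.c₁_dC₀ β₀
    simp only [LinearMap.comp_apply] at this
    rw [← this, hβα, sq₁.c₁]
  have hα₀ : dC₁ 𝒰 A α₀ = 0 := SnakeWindow.a2_of_mem (isSES₀ h) hβα
  have hα₀' : dC₁ 𝒰' A' (a.c₁ α₀) = 0 := SnakeWindow.a2_of_mem (isSES₀ h') hd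
  have hmem : β.c₀ β₀ ∈ H0 𝒰 C :=
    LinearMap.mem_ker.2 (SnakeWindow.c1_p1_of_mem (isSES₀ h) hβα)
  have hmem' : β'.c₀ (b.c₀ β₀) ∈ H0 𝒰' C' :=
    LinearMap.mem_ker.2 (SnakeWindow.c1_p1_of_mem (isSES₀ h') hd)
  have e1 : E₀ 𝒰 C (Hmid.of (β.c₀ β₀) (SnakeWindow.c1_p1_of_mem (isSES₀ h) hβα))
      = ⟨β.c₀ β₀, hmem⟩ := Subtype.ext (ConeWindow.equivKerOfZero_of _ _ _)
  have e2 : c.h0 ⟨β.c₀ β₀, hmem⟩ = ⟨β'.c₀ (b.c₀ β₀), hmem'⟩ :=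
    Subtype.ext (sq₂.c₀ β₀)
  rw [LinearMap.comp_apply, LinearMap.comp_apply, e1, e2, δ₀_of h β₀ α₀ hβα hmem hα₀,
    δ₀_of h' (b.c₀ β₀) (a.c₁ α₀) hd hmem' hα₀']
  rw [h1_of]

end Natural

section Constructors

variable (𝒰)

/-- A short exact sequence of `Rep k G` (stated on underlying maps) gives an `IsCoefSES`. -/
theorem isCoefSES_ofHom (φ : A ⟶ B) (ψ : B ⟶ C)
    (hinj : Function.Injective (Mor.ofHom 𝒰 φ).φ) (hsurj : Function.Surjective (Mor.ofHom 𝒰 ψ).φ)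
    (hex : Function.Exact (Mor.ofHom 𝒰 φ).φ (Mor.ofHom 𝒰 ψ).φ) (hB : IsUSmooth 𝒰 B) :
    IsCoefSES (Mor.ofHom 𝒰 φ) (Mor.ofHom 𝒰 ψ) where
  fα _ := rfl
  fβ _ := rfl
  inj := hinj
  surj := hsurj
  exact := hex
  usmooth := hB

variable {𝒰}
variable {Γ : Type} [Group Γ] (𝒱 : NBasis Γ) (r : Γ →* G)

/-- Uniform smoothness is inherited by restriction along a continuous homomorphism. -/
theorem IsUSmooth.res {M : Rep.{0, 0, 0} k G} (hM : IsUSmooth 𝒰 M) (hr : IsCont 𝒰 𝒱 r) :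
    IsUSmooth 𝒱 (Rep.res r M) := by
  obtain ⟨U, hU, hfix⟩ := hM
  obtain ⟨V, hV, hle⟩ := hr U hU
  exact ⟨V, hV, fun s hs m => hfix (r s) (hle s hs) m⟩

/-- A `Mor` over the identity of `G`, restricted to `Γ` along `r`. -/
def resMor (α : Mor 𝒰 A 𝒰 B) (hα : ∀ g, α.f g = g) :
    Mor 𝒱 (Rep.res r A) 𝒱 (Rep.res r B) where
  f := MonoidHom.id Γ
  cont := isCont_id 𝒱
  φ := α.φ
  equivar g a := by
    have := α.equivar (r g) a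
    rw [hα] at this
    exact this

@[simp] theorem resMor_φ (α : Mor 𝒰 A 𝒰 B) (hα : ∀ g, α.f g = g) :
    (resMor 𝒱 r α hα).φ = α.φ := rfl

/-- The restriction of a short exact sequence of coefficients to `Γ`. -/
theorem IsCoefSES.res {α : Mor 𝒰 A 𝒰 B} {β : Mor 𝒰 B 𝒰 C} (h : IsCoefSES α β)
    (hr : IsCont 𝒰 𝒱 r) : IsCoefSES (resMor 𝒱 r α h.fα) (resMor 𝒱 r β h.fβ) where
  fα _ := rfl
  fβ _ := rfl
  inj := h.inj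
  surj := h.surj
  exact := h.exact
  usmooth := IsUSmooth.res 𝒱 r h.usmooth hr

/-- The restriction square. -/
theorem commSq_res (α : Mor 𝒰 A 𝒰 B) (hα : ∀ g, α.f g = g) (hr : IsCont 𝒰 𝒱 r) :
    CommSq α (Mor.res 𝒰 𝒱 r hr A) (Mor.res 𝒰 𝒱 r hr B) (resMor 𝒱 r α hα) where
  hf g := by
    change α.f (r g) = r g
    rw [hα]
  hφ _ := rfl

/-- **`δ` commutes with restriction** (degree `1 → 2`). -/
theorem δ₁_res {α : Mor 𝒰 A 𝒰 B} {β : Mor 𝒰 B 𝒰 C} (h : IsCoefSES α β) (hr : IsCont 𝒰 𝒱 r) :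
    (δ₁ (h.res 𝒱 r hr)).comp (Mor.res 𝒰 𝒱 r hr C).h1 =
      (Mor.res 𝒰 𝒱 r hr A).h2.comp (δ₁ h) :=
  δ₁_natural h (h.res 𝒱 r hr) (commSq_res 𝒱 r α h.fα hr) (commSq_res 𝒱 r β h.fβ hr)

/-- **`δ` commutes with restriction** (degree `2 → 3`). -/
theorem δ₂_res {α : Mor 𝒰 A 𝒰 B} {β : Mor 𝒰 B 𝒰 C} (h : IsCoefSES α β) (hr : IsCont 𝒰 𝒱 r) :
    (δ₂ (h.res 𝒱 r hr)).comp (Mor.res 𝒰 𝒱 r hr C).h2 =
      (Mor.res 𝒰 𝒱 r hr A).h3.comp (δ₂ h) :=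
  δ₂_natural h (h.res 𝒱 r hr) (commSq_res 𝒱 r α h.fα hr) (commSq_res 𝒱 r β h.fβ hr)

/-- **`δ` commutes with restriction** (degree `0 → 1`). -/
theorem δ₀_res {α : Mor 𝒰 A 𝒰 B} {β : Mor 𝒰 B 𝒰 C} (h : IsCoefSES α β) (hr : IsCont 𝒰 𝒱 r) :
    (δ₀ (h.res 𝒱 r hr)).comp (Mor.res 𝒰 𝒱 r hr C).h0 =
      (Mor.res 𝒰 𝒱 r hr A).h1.comp (δ₀ h) :=
  δ₀_natural h (h.res 𝒱 r hr) (commSq_res 𝒱 r α h.fα hr) (commSq_res 𝒱 r β h.fβ hr)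

end Constructors

end Fermat.Agent.S55.Formal.CoefLES
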