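/-
S55 / formal end (helper87): the permutation module `k[G/P] = Rep.ofMulAction k G (G ⧸ P)` is the
module coinduced from the trivial representation of `P`, for a subgroup `P` of finite index:

  `permIsoCoind P : Rep.ofMulAction k G (G ⧸ P) ≅ Rep.coind P.subtype (Rep.trivial k P k)`,
  `[gP] ↦ (the indicator function of P g⁻¹)`,   inverse  `f ↦ ∑_{gP} f (g⁻¹) • [gP]`.

Mathlib only.
-/
import Mathlib

set_option autoImplicit false

open CategoryTheory

universe u v

namespace Fermat.Agent.S55.Formal.CoindPerm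

noncomputable section

variable {k : Type u} {G : Type v} [CommRing k] [Group G] (P : Subgroup G)

/-- the function `g ↦ x.coeff (g⁻¹ P)` attached to `x : k[G/P]` -/
def toFunc (x : MonoidAlgebra k (G ⧸ P)) :
    Representation.coindV P.subtype (Rep.trivial k P k).ρ :=
  ⟨fun g => x.coeff ((g⁻¹ : G) : G ⧸ P), fun s g => by
    have h : (((P.subtype s * g)⁻¹ : G) : G ⧸ P) = ((g⁻¹ : G) : G ⧸ P) := by
      rw [QuotientGroup.eq]
      simp
    change x.coeff (((P.subtype s * g)⁻¹ : G) : G ⧸ P) = x.coeff ((g⁻¹ : G) : G ⧸ P)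
    rw [h]⟩

@[simp] lemma toFunc_coe (x : MonoidAlgebra k (G ⧸ P)) (g : G) :
    (toFunc P x).1 g = x.coeff ((g⁻¹ : G) : G ⧸ P) := rfl

/-- `f (g⁻¹)` only depends on `gP`. -/
lemma apply_inv_out [P.FiniteIndex] (f : Representation.coindV P.subtype (Rep.trivial k P k).ρ)
    (g : G) : f.1 (((g : G ⧸ P).out)⁻¹) = f.1 g⁻¹ := by
  obtain ⟨s, hs⟩ := QuotientGroup.mk_out_eq_mul P g
  rw [hs, mul_inv_rev]
  have := f.2 s⁻¹ g⁻¹
  simpa using this

/-- The linear equivalence `k[G/P] ≃ coind_P^G k`. -/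
def linEquiv [P.FiniteIndex] :
    MonoidAlgebra k (G ⧸ P) ≃ₗ[k] Representation.coindV P.subtype (Rep.trivial k P k).ρ where
  toFun := toFunc P
  map_add' x y := by
    apply Subtype.ext
    funext g
    simp
  map_smul' c x := by
    apply Subtype.ext
    funext g
    simp
  invFun f := MonoidAlgebra.ofCoeff (Finsupp.equivFunOnFinite.symm fun c => f.1 (c.out)⁻¹)
  left_inv x := by
    apply MonoidAlgebra.coeffEquiv.injective
    ext c
    simp
  right_inv f := by
    apply Subtype.ext
    funext g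
    simp only [toFunc_coe, Finsupp.equivFunOnFinite_symm_apply_apply]
    rw [apply_inv_out, inv_inv]

lemma linEquiv_single [P.FiniteIndex] [DecidableEq (G ⧸ P)] (c : G ⧸ P) (r : k) (g : G) :
    (linEquiv P (MonoidAlgebra.single c r)).1 g = if c = ((g⁻¹ : G) : G ⧸ P) then r else 0 := by
  change (MonoidAlgebra.single c r).coeff ((g⁻¹ : G) : G ⧸ P) = _
  rw [MonoidAlgebra.coeff_single, Finsupp.single_apply]

/-- equivariance -/
lemma linEquiv_equivariant [P.FiniteIndex] (x : G) :
    (linEquiv P).toLinearMap ∘ₗ (Representation.ofMulAction k G (G ⧸ P) x) =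
      (Rep.coind P.subtype (Rep.trivial k P k)).ρ x ∘ₗ (linEquiv P).toLinearMap := by
  classical
  apply MonoidAlgebra.lhom_ext'
  intro c
  apply LinearMap.ext
  intro r
  apply Subtype.ext
  funext g
  simp only [LinearMap.comp_apply, MonoidAlgebra.lsingle_apply, LinearEquiv.coe_coe,
    Representation.ofMulAction_single]
  rw [linEquiv_single]
  change _ = (linEquiv P (MonoidAlgebra.single c r)).1 (g * x)
  rw [linEquiv_single]
  have h : x • c = ((g⁻¹ : G) : G ⧸ P) ↔ c = (((g * x)⁻¹ : G) : G ⧸ P) := by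
    rw [mul_inv_rev]
    constructor
    · intro h
      have h' : c = x⁻¹ • ((g⁻¹ : G) : G ⧸ P) := by rw [← h, inv_smul_smul]
      rw [h']
      rfl
    · intro h
      rw [h]
      change ((x * (x⁻¹ * g⁻¹) : G) : G ⧸ P) = _
      rw [mul_inv_cancel_left]
  simp only [h]

/-- **`k[G/P] ≅ coind_P^G k`.** -/
def permIsoCoind [P.FiniteIndex] :
    Rep.ofMulAction k G (G ⧸ P) ≅ Rep.coind P.subtype (Rep.trivial k P k) :=
  Rep.mkIso (Representation.Equiv.mk (linEquiv P) (linEquiv_equivariant P))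

end

end Fermat.Agent.S55.Formal.CoindPerm
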