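/-
S55 / Formal row 145 (helper28): functor laws for the LC cohomology maps `Mor.h0 .. h3`
(`id`, `comp`, `add`, `smul`, `zero`, restriction vs coefficient maps), the generic additivity lemma
for "linear functors given by hand" on finite direct sums, and functoriality of `Rep.dualTwist`.
-/
import Mathlib
import Fermat.Agent.S55.Formal.LC
import Fermat.Prelude.Def_GroupCohomology_Selmer

set_option autoImplicit false

open CategoryTheory

namespace Fermat.Agent.S55.Formal.Functor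

open Fermat.Agent.S55.Formal

variable {k : Type} [CommRing k] {G : Type} [Group G] {G' : Type} [Group G'] {G'' : Type}
  [Group G'']

/-! ### (1) Functor laws -/

section Laws

variable {𝒰 : NBasis G} {A : Rep.{0, 0, 0} k G} {𝒰' : NBasis G'} {B : Rep.{0, 0, 0} k G'}
  {𝒰'' : NBasis G''} {C : Rep.{0, 0, 0} k G''}

/-- A `Mor` is determined by its group homomorphism and its coefficient map. -/
theorem mor_ext {α β : Mor 𝒰 A 𝒰' B} (hf : α.f = β.f) (hφ : α.φ = β.φ) : α = β := by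
  cases α
  cases β
  simp only [Mor.mk.injEq]
  exact ⟨hf, hφ⟩

/-- elementwise description of `h1` -/
theorem h1_of (α : Mor 𝒰 A 𝒰' B) (x : ↥(C₁ 𝒰 A)) (hx : dC₁ 𝒰 A x = 0)
    (hx' : dC₁ 𝒰' B (α.c₁ x) = 0) :
    α.h1 (Hmid.of x hx) = Hmid.of (α.c₁ x) hx' := rfl

/-- elementwise description of `h2` -/
theorem h2_of (α : Mor 𝒰 A 𝒰' B) (x : ↥(C₂ 𝒰 A)) (hx : dC₂ 𝒰 A x = 0)
    (hx' : dC₂ 𝒰' B (α.c₂ x) = 0) :
    α.h2 (Hmid.of x hx) = Hmid.of (α.c₂ x) hx' := rfl

/-- elementwise description of `h3` -/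
theorem h3_of (α : Mor 𝒰 A 𝒰' B) (x : ↥(C₃ 𝒰 A)) (hx : dC₃ 𝒰 A x = 0)
    (hx' : dC₃ 𝒰' B (α.c₃ x) = 0) :
    α.h3 (Hmid.of x hx) = Hmid.of (α.c₃ x) hx' := rfl

/-! #### composition -/

variable (α : Mor 𝒰 A 𝒰' B) (β : Mor 𝒰' B 𝒰'' C)

theorem comp_c₀ : (α.comp β).c₀ = β.c₀ ∘ₗ α.c₀ := rfl
theorem comp_c₁ : (α.comp β).c₁ = β.c₁ ∘ₗ α.c₁ := rfl
theorem comp_c₂ : (α.comp β).c₂ = β.c₂ ∘ₗ α.c₂ := rfl
theorem comp_c₃ : (α.comp β).c₃ = β.c₃ ∘ₗ α.c₃ := rfl

theorem comp_h0 : (α.comp β).h0 = β.h0 ∘ₗ α.h0 := rfl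

theorem comp_h1 : (α.comp β).h1 = β.h1 ∘ₗ α.h1 := by
  apply LinearMap.ext
  intro x
  obtain ⟨b, hb, rfl⟩ := Hmid.exists_of x
  rfl

theorem comp_h2 : (α.comp β).h2 = β.h2 ∘ₗ α.h2 := by
  apply LinearMap.ext
  intro x
  obtain ⟨b, hb, rfl⟩ := Hmid.exists_of x
  rfl

theorem comp_h3 : (α.comp β).h3 = β.h3 ∘ₗ α.h3 := by
  apply LinearMap.ext
  intro x
  obtain ⟨b, hb, rfl⟩ := Hmid.exists_of x
  rfl

end Laws

/-! #### coefficient maps: identity, composition, sums, scalars, zero -/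

section Coef

variable (𝒰 : NBasis G) {A A' A'' : Rep.{0, 0, 0} k G}

theorem ofHom_id_c₀ : (Mor.ofHom 𝒰 (𝟙 A)).c₀ = LinearMap.id := rfl
theorem ofHom_id_c₁ : (Mor.ofHom 𝒰 (𝟙 A)).c₁ = LinearMap.id := rfl
theorem ofHom_id_c₂ : (Mor.ofHom 𝒰 (𝟙 A)).c₂ = LinearMap.id := rfl
theorem ofHom_id_c₃ : (Mor.ofHom 𝒰 (𝟙 A)).c₃ = LinearMap.id := rfl

theorem ofHom_id_h0 : (Mor.ofHom 𝒰 (𝟙 A)).h0 = LinearMap.id := rfl

theorem ofHom_id_h1 : (Mor.ofHom 𝒰 (𝟙 A)).h1 = LinearMap.id := by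
  apply LinearMap.ext
  intro x
  obtain ⟨b, hb, rfl⟩ := Hmid.exists_of x
  rfl

theorem ofHom_id_h2 : (Mor.ofHom 𝒰 (𝟙 A)).h2 = LinearMap.id := by
  apply LinearMap.ext
  intro x
  obtain ⟨b, hb, rfl⟩ := Hmid.exists_of x
  rfl

theorem ofHom_id_h3 : (Mor.ofHom 𝒰 (𝟙 A)).h3 = LinearMap.id := by
  apply LinearMap.ext
  intro x
  obtain ⟨b, hb, rfl⟩ := Hmid.exists_of x
  rfl

variable (φ : A ⟶ A') (ψ : A' ⟶ A'')

theorem ofHom_comp : Mor.ofHom 𝒰 (φ ≫ ψ) = (Mor.ofHom 𝒰 φ).comp (Mor.ofHom 𝒰 ψ) :=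
  mor_ext rfl rfl

theorem ofHom_comp_h0 :
    (Mor.ofHom 𝒰 (φ ≫ ψ)).h0 = (Mor.ofHom 𝒰 ψ).h0 ∘ₗ (Mor.ofHom 𝒰 φ).h0 := by
  rw [ofHom_comp, comp_h0]

theorem ofHom_comp_h1 :
    (Mor.ofHom 𝒰 (φ ≫ ψ)).h1 = (Mor.ofHom 𝒰 ψ).h1 ∘ₗ (Mor.ofHom 𝒰 φ).h1 := by
  rw [ofHom_comp, comp_h1]

theorem ofHom_comp_h2 :
    (Mor.ofHom 𝒰 (φ ≫ ψ)).h2 = (Mor.ofHom 𝒰 ψ).h2 ∘ₗ (Mor.ofHom 𝒰 φ).h2 := by
  rw [ofHom_comp, comp_h2]

theorem ofHom_comp_h3 :
    (Mor.ofHom 𝒰 (φ ≫ ψ)).h3 = (Mor.ofHom 𝒰 ψ).h3 ∘ₗ (Mor.ofHom 𝒰 φ).h3 := by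
  rw [ofHom_comp, comp_h3]

variable (φ₁ φ₂ : A ⟶ A') (c : k)

theorem ofHom_add_φ : (Mor.ofHom 𝒰 (φ₁ + φ₂)).φ = (Mor.ofHom 𝒰 φ₁).φ + (Mor.ofHom 𝒰 φ₂).φ := rfl
theorem ofHom_smul_φ : (Mor.ofHom 𝒰 (c • φ₁)).φ = c • (Mor.ofHom 𝒰 φ₁).φ := rfl
theorem ofHom_zero_φ : (Mor.ofHom 𝒰 (0 : A ⟶ A')).φ = 0 := rfl

theorem ofHom_add_h0 :
    (Mor.ofHom 𝒰 (φ₁ + φ₂)).h0 = (Mor.ofHom 𝒰 φ₁).h0 + (Mor.ofHom 𝒰 φ₂).h0 := by
  apply LinearMap.ext
  intro x
  apply Subtype.ext
  apply Subtype.ext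
  rfl

theorem ofHom_smul_h0 : (Mor.ofHom 𝒰 (c • φ₁)).h0 = c • (Mor.ofHom 𝒰 φ₁).h0 := by
  apply LinearMap.ext
  intro x
  apply Subtype.ext
  apply Subtype.ext
  rfl

theorem ofHom_zero_h0 : (Mor.ofHom 𝒰 (0 : A ⟶ A')).h0 = 0 := by
  apply LinearMap.ext
  intro x
  apply Subtype.ext
  apply Subtype.ext
  rfl

theorem ofHom_add_c₁ :
    (Mor.ofHom 𝒰 (φ₁ + φ₂)).c₁ = (Mor.ofHom 𝒰 φ₁).c₁ + (Mor.ofHom 𝒰 φ₂).c₁ := by
  apply LinearMap.ext
  intro x
  apply Subtype.ext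
  rfl

theorem ofHom_add_c₂ :
    (Mor.ofHom 𝒰 (φ₁ + φ₂)).c₂ = (Mor.ofHom 𝒰 φ₁).c₂ + (Mor.ofHom 𝒰 φ₂).c₂ := by
  apply LinearMap.ext
  intro x
  apply Subtype.ext
  rfl

theorem ofHom_add_c₃ :
    (Mor.ofHom 𝒰 (φ₁ + φ₂)).c₃ = (Mor.ofHom 𝒰 φ₁).c₃ + (Mor.ofHom 𝒰 φ₂).c₃ := by
  apply LinearMap.ext
  intro x
  apply Subtype.ext
  rfl

theorem ofHom_smul_c₁ : (Mor.ofHom 𝒰 (c • φ₁)).c₁ = c • (Mor.ofHom 𝒰 φ₁).c₁ := by
  apply LinearMap.ext
  intro x
  apply Subtype.ext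
  rfl

theorem ofHom_smul_c₂ : (Mor.ofHom 𝒰 (c • φ₁)).c₂ = c • (Mor.ofHom 𝒰 φ₁).c₂ := by
  apply LinearMap.ext
  intro x
  apply Subtype.ext
  rfl

theorem ofHom_smul_c₃ : (Mor.ofHom 𝒰 (c • φ₁)).c₃ = c • (Mor.ofHom 𝒰 φ₁).c₃ := by
  apply LinearMap.ext
  intro x
  apply Subtype.ext
  rfl

/-! #### generic additivity of `Hmid.mapOfComm` in the middle map -/

section HmidLin

variable {X Y Z X' Y' Z' : Type} [AddCommGroup X] [Module k X] [AddCommGroup Y] [Module k Y]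
  [AddCommGroup Z] [Module k Z] [AddCommGroup X'] [Module k X'] [AddCommGroup Y'] [Module k Y']
  [AddCommGroup Z'] [Module k Z'] {f : X →ₗ[k] Y} {g : Y →ₗ[k] Z} {f' : X' →ₗ[k] Y'}
  {g' : Y' →ₗ[k] Z'}

theorem hmid_of_congr {b b' : Y} (h : b = b') (hb : g b = 0) (hb' : g b' = 0) :
    (Hmid.of b hb : Hmid f g) = Hmid.of b' hb' := by
  subst h
  rfl

theorem mapOfComm_ker (φB : Y →ₗ[k] Y') (φC : Z →ₗ[k] Z') (h2 : φC ∘ₗ g = g' ∘ₗ φB) (b : Y)
    (hb : g b = 0) : g' (φB b) = 0 := by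
  have := LinearMap.congr_fun h2 b
  simp only [LinearMap.comp_apply] at this
  rw [← this, hb, map_zero]

theorem mapOfComm_eq_add (φA ψA χA : X →ₗ[k] X') (φB ψB χB : Y →ₗ[k] Y')
    (φC ψC χC : Z →ₗ[k] Z')
    (h1 : φB ∘ₗ f = f' ∘ₗ φA) (h2 : φC ∘ₗ g = g' ∘ₗ φB)
    (h1' : ψB ∘ₗ f = f' ∘ₗ ψA) (h2' : ψC ∘ₗ g = g' ∘ₗ ψB)
    (h1'' : χB ∘ₗ f = f' ∘ₗ χA) (h2'' : χC ∘ₗ g = g' ∘ₗ χB) (hB : φB = ψB + χB) :
    Hmid.mapOfComm φA φB φC h1 h2 =
      Hmid.mapOfComm ψA ψB ψC h1' h2' + Hmid.mapOfComm χA χB χC h1'' h2'' := by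
  apply LinearMap.ext
  intro x
  obtain ⟨b, hb, rfl⟩ := Hmid.exists_of x
  rw [LinearMap.add_apply,
    Hmid.mapOfComm_of φA φB φC h1 h2 b hb (mapOfComm_ker φB φC h2 b hb),
    Hmid.mapOfComm_of ψA ψB ψC h1' h2' b hb (mapOfComm_ker ψB ψC h2' b hb),
    Hmid.mapOfComm_of χA χB χC h1'' h2'' b hb (mapOfComm_ker χB χC h2'' b hb),
    ← Hmid.of_add]
  exact hmid_of_congr (by rw [hB]; rfl) _ _

theorem mapOfComm_eq_smul (c : k) (φA ψA : X →ₗ[k] X') (φB ψB : Y →ₗ[k] Y')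
    (φC ψC : Z →ₗ[k] Z')
    (h1 : φB ∘ₗ f = f' ∘ₗ φA) (h2 : φC ∘ₗ g = g' ∘ₗ φB)
    (h1' : ψB ∘ₗ f = f' ∘ₗ ψA) (h2' : ψC ∘ₗ g = g' ∘ₗ ψB) (hB : φB = c • ψB) :
    Hmid.mapOfComm φA φB φC h1 h2 = c • Hmid.mapOfComm ψA ψB ψC h1' h2' := by
  apply LinearMap.ext
  intro x
  obtain ⟨b, hb, rfl⟩ := Hmid.exists_of x
  rw [LinearMap.smul_apply,
    Hmid.mapOfComm_of φA φB φC h1 h2 b hb (mapOfComm_ker φB φC h2 b hb),
    Hmid.mapOfComm_of ψA ψB ψC h1' h2' b hb (mapOfComm_ker ψB ψC h2' b hb),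
    ← Hmid.of_smul]
  exact hmid_of_congr (by rw [hB]; rfl) _ _

theorem mapOfComm_eq_zero (φA : X →ₗ[k] X') (φB : Y →ₗ[k] Y') (φC : Z →ₗ[k] Z')
    (h1 : φB ∘ₗ f = f' ∘ₗ φA) (h2 : φC ∘ₗ g = g' ∘ₗ φB) (hB : φB = 0) :
    Hmid.mapOfComm φA φB φC h1 h2 = 0 := by
  apply LinearMap.ext
  intro x
  obtain ⟨b, hb, rfl⟩ := Hmid.exists_of x
  rw [LinearMap.zero_apply,
    Hmid.mapOfComm_of φA φB φC h1 h2 b hb (mapOfComm_ker φB φC h2 b hb), ← Hmid.of_zero]
  exact hmid_of_congr (by rw [hB]; rfl) _ _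

end HmidLin

theorem ofHom_zero_c₁ : (Mor.ofHom 𝒰 (0 : A ⟶ A')).c₁ = 0 := by
  apply LinearMap.ext
  intro x
  apply Subtype.ext
  rfl

theorem ofHom_zero_c₂ : (Mor.ofHom 𝒰 (0 : A ⟶ A')).c₂ = 0 := by
  apply LinearMap.ext
  intro x
  apply Subtype.ext
  rfl

theorem ofHom_zero_c₃ : (Mor.ofHom 𝒰 (0 : A ⟶ A')).c₃ = 0 := by
  apply LinearMap.ext
  intro x
  apply Subtype.ext
  rfl

theorem ofHom_add_h1 :
    (Mor.ofHom 𝒰 (φ₁ + φ₂)).h1 = (Mor.ofHom 𝒰 φ₁).h1 + (Mor.ofHom 𝒰 φ₂).h1 :=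
  mapOfComm_eq_add _ _ _ _ _ _ _ _ _ _ _ _ _ _ _ (ofHom_add_c₁ 𝒰 φ₁ φ₂)

theorem ofHom_add_h2 :
    (Mor.ofHom 𝒰 (φ₁ + φ₂)).h2 = (Mor.ofHom 𝒰 φ₁).h2 + (Mor.ofHom 𝒰 φ₂).h2 :=
  mapOfComm_eq_add _ _ _ _ _ _ _ _ _ _ _ _ _ _ _ (ofHom_add_c₂ 𝒰 φ₁ φ₂)

theorem ofHom_add_h3 :
    (Mor.ofHom 𝒰 (φ₁ + φ₂)).h3 = (Mor.ofHom 𝒰 φ₁).h3 + (Mor.ofHom 𝒰 φ₂).h3 :=
  mapOfComm_eq_add _ _ _ _ _ _ _ _ _ _ _ _ _ _ _ (ofHom_add_c₃ 𝒰 φ₁ φ₂)

theorem ofHom_smul_h1 : (Mor.ofHom 𝒰 (c • φ₁)).h1 = c • (Mor.ofHom 𝒰 φ₁).h1 :=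
  mapOfComm_eq_smul c _ _ _ _ _ _ _ _ _ _ (ofHom_smul_c₁ 𝒰 φ₁ c)

theorem ofHom_smul_h2 : (Mor.ofHom 𝒰 (c • φ₁)).h2 = c • (Mor.ofHom 𝒰 φ₁).h2 :=
  mapOfComm_eq_smul c _ _ _ _ _ _ _ _ _ _ (ofHom_smul_c₂ 𝒰 φ₁ c)

theorem ofHom_smul_h3 : (Mor.ofHom 𝒰 (c • φ₁)).h3 = c • (Mor.ofHom 𝒰 φ₁).h3 :=
  mapOfComm_eq_smul c _ _ _ _ _ _ _ _ _ _ (ofHom_smul_c₃ 𝒰 φ₁ c)

theorem ofHom_zero_h1 : (Mor.ofHom 𝒰 (0 : A ⟶ A')).h1 = 0 :=
  mapOfComm_eq_zero _ _ _ _ _ (ofHom_zero_c₁ 𝒰)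

theorem ofHom_zero_h2 : (Mor.ofHom 𝒰 (0 : A ⟶ A')).h2 = 0 :=
  mapOfComm_eq_zero _ _ _ _ _ (ofHom_zero_c₂ 𝒰)

theorem ofHom_zero_h3 : (Mor.ofHom 𝒰 (0 : A ⟶ A')).h3 = 0 :=
  mapOfComm_eq_zero _ _ _ _ _ (ofHom_zero_c₃ 𝒰)

end Coef

/-! #### restriction commutes with coefficient maps -/

section ResCoef

variable (𝒰 : NBasis G) (𝒰' : NBasis G') (f : G' →* G) (hf : IsCont 𝒰 𝒰' f)
  {A A' : Rep.{0, 0, 0} k G} (φ : A ⟶ A')

/-- restriction commutes with coefficient maps, as morphisms of situations -/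
theorem ofHom_comp_res :
    (Mor.ofHom 𝒰 φ).comp (Mor.res 𝒰 𝒰' f hf A') =
      (Mor.res 𝒰 𝒰' f hf A).comp (Mor.ofHom 𝒰' ((Rep.resFunctor f).map φ)) :=
  mor_ext rfl rfl

theorem ofHom_res_h0 :
    (Mor.res 𝒰 𝒰' f hf A').h0 ∘ₗ (Mor.ofHom 𝒰 φ).h0 =
      (Mor.ofHom 𝒰' ((Rep.resFunctor f).map φ)).h0 ∘ₗ (Mor.res 𝒰 𝒰' f hf A).h0 := by
  rw [← comp_h0, ← comp_h0, ofHom_comp_res]

theorem ofHom_res_h1 :
    (Mor.res 𝒰 𝒰' f hf A').h1 ∘ₗ (Mor.ofHom 𝒰 φ).h1 =
      (Mor.ofHom 𝒰' ((Rep.resFunctor f).map φ)).h1 ∘ₗ (Mor.res 𝒰 𝒰' f hf A).h1 := by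
  rw [← comp_h1, ← comp_h1, ofHom_comp_res]

theorem ofHom_res_h2 :
    (Mor.res 𝒰 𝒰' f hf A').h2 ∘ₗ (Mor.ofHom 𝒰 φ).h2 =
      (Mor.ofHom 𝒰' ((Rep.resFunctor f).map φ)).h2 ∘ₗ (Mor.res 𝒰 𝒰' f hf A).h2 := by
  rw [← comp_h2, ← comp_h2, ofHom_comp_res]

theorem ofHom_res_h3 :
    (Mor.res 𝒰 𝒰' f hf A').h3 ∘ₗ (Mor.ofHom 𝒰 φ).h3 =
      (Mor.ofHom 𝒰' ((Rep.resFunctor f).map φ)).h3 ∘ₗ (Mor.res 𝒰 𝒰' f hf A).h3 := by
  rw [← comp_h3, ← comp_h3, ofHom_comp_res]

/-- transitivity of restriction -/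
theorem res_comp_res (𝒰'' : NBasis G'') (f' : G'' →* G') (hf' : IsCont 𝒰' 𝒰'' f')
    (hff' : IsCont 𝒰 𝒰'' (f.comp f')) :
    (Mor.res 𝒰 𝒰' f hf A).comp (Mor.res 𝒰' 𝒰'' f' hf' (Rep.res f A)) =
      Mor.res 𝒰 𝒰'' (f.comp f') hff' A :=
  mor_ext rfl rfl

end ResCoef

/-! ### (2) Generic additivity: linear functors given by hand -/

section LinFunctor

universe u v w

/-- A `k`-linear-module-valued additive functor on a preadditive category `C`, given by hand.
(For `C = Rep.{0,0,0} k G`: `N ↦ H3c N`, `N ↦ Module.Dual k (H0 (N.dualTwist χ))`, ...) -/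
structure LinFunctor (k : Type) [CommRing k] (C : Type u) [Category.{v} C] [Preadditive C] where
  /-- on objects -/
  obj : C → Type w
  /-- the additive group structure -/
  acg : ∀ N, AddCommGroup (obj N)
  /-- the module structure -/
  mod : ∀ N, Module k (obj N)
  /-- on morphisms -/
  map : ∀ {N N' : C}, (N ⟶ N') → (obj N →ₗ[k] obj N')
  map_id : ∀ N : C, map (𝟙 N) = LinearMap.id
  map_comp : ∀ {N N' N'' : C} (φ : N ⟶ N') (ψ : N' ⟶ N''), map (φ ≫ ψ) = map ψ ∘ₗ map φ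
  map_add : ∀ {N N' : C} (φ ψ : N ⟶ N'), map (φ + ψ) = map φ + map ψ

/-- The contravariant version. -/
structure LinCofunctor (k : Type) [CommRing k] (C : Type u) [Category.{v} C] [Preadditive C] where
  /-- on objects -/
  obj : C → Type w
  /-- the additive group structure -/
  acg : ∀ N, AddCommGroup (obj N)
  /-- the module structure -/
  mod : ∀ N, Module k (obj N)
  /-- on morphisms (reversing arrows) -/
  map : ∀ {N N' : C}, (N ⟶ N') → (obj N' →ₗ[k] obj N)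
  map_id : ∀ N : C, map (𝟙 N) = LinearMap.id
  map_comp : ∀ {N N' N'' : C} (φ : N ⟶ N') (ψ : N' ⟶ N''), map (φ ≫ ψ) = map φ ∘ₗ map ψ
  map_add : ∀ {N N' : C} (φ ψ : N ⟶ N'), map (φ + ψ) = map φ + map ψ

attribute [instance] LinFunctor.acg LinFunctor.mod LinCofunctor.acg LinCofunctor.mod

variable {k : Type} [CommRing k] {C : Type u} [Category.{v} C] [Preadditive C]

namespace LinFunctor

variable (T T' : LinFunctor.{u, v, w} k C)

theorem map_zero {N N' : C} : T.map (0 : N ⟶ N') = 0 := by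
  have h := T.map_add (0 : N ⟶ N') 0
  rw [add_zero] at h
  exact left_eq_add.mp h

theorem map_sum {ι : Type*} (s : Finset ι) {N N' : C} (φ : ι → (N ⟶ N')) :
    T.map (∑ j ∈ s, φ j) = ∑ j ∈ s, T.map (φ j) := by
  classical
  induction s using Finset.induction_on with
  | empty => simp only [Finset.sum_empty, map_zero]
  | insert a s ha ih => rw [Finset.sum_insert ha, Finset.sum_insert ha, T.map_add, ih]

theorem map_comp_apply {N N' N'' : C} (φ : N ⟶ N') (ψ : N' ⟶ N'') (x : T.obj N) :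
    T.map (φ ≫ ψ) x = T.map ψ (T.map φ x) := by
  rw [T.map_comp]
  rfl

theorem map_id_apply (N : C) (x : T.obj N) : T.map (𝟙 N) x = x := by
  rw [T.map_id]
  rfl

/-- a natural transformation between linear functors given by hand -/
structure NatTrans where
  /-- the components -/
  app : ∀ N : C, T.obj N →ₗ[k] T'.obj N
  naturality : ∀ {N N' : C} (φ : N ⟶ N') (x : T.obj N), T'.map φ (app N x) = app N' (T.map φ x)

variable {T T'} (η : NatTrans T T')

/-- the decomposition of an element along `𝟙 P = ∑ p_j ≫ i_j` -/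
theorem eq_sum_of_total {ι : Type*} [Fintype ι] {P : C} {B : ι → C} (i : ∀ j, B j ⟶ P)
    (p : ∀ j, P ⟶ B j) (total : ∑ j, p j ≫ i j = 𝟙 P) (x : T.obj P) :
    x = ∑ j, T.map (i j) (T.map (p j) x) := by
  conv_lhs => rw [← T.map_id_apply P x, ← total, T.map_sum, LinearMap.sum_apply]
  exact Finset.sum_congr rfl fun j _ => T.map_comp_apply _ _ _

/-- **Additivity, injective part**: if `𝟙 P = ∑ p_j ≫ i_j` through the `B j` and `η` is injective
on every `B j` then `η` is injective on `P`. -/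
theorem NatTrans.injective_of_total {ι : Type*} [Fintype ι] {P : C} {B : ι → C}
    (i : ∀ j, B j ⟶ P) (p : ∀ j, P ⟶ B j) (total : ∑ j, p j ≫ i j = 𝟙 P)
    (h : ∀ j, Function.Injective (η.app (B j))) : Function.Injective (η.app P) := by
  rw [← LinearMap.ker_eq_bot, LinearMap.ker_eq_bot']
  intro x hx
  rw [eq_sum_of_total i p total x]
  refine Finset.sum_eq_zero fun j _ => ?_
  have : T.map (p j) x = 0 := by
    apply h j
    rw [← η.naturality, hx, _root_.map_zero, _root_.map_zero]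
  rw [this, _root_.map_zero]

/-- **Additivity, surjective part**. -/
theorem NatTrans.surjective_of_total {ι : Type*} [Fintype ι] {P : C} {B : ι → C}
    (i : ∀ j, B j ⟶ P) (p : ∀ j, P ⟶ B j) (total : ∑ j, p j ≫ i j = 𝟙 P)
    (h : ∀ j, Function.Surjective (η.app (B j))) : Function.Surjective (η.app P) := by
  intro y
  choose x hx using fun j => h j (T'.map (p j) y)
  refine ⟨∑ j, T.map (i j) (x j), ?_⟩
  rw [_root_.map_sum]
  conv_rhs => rw [eq_sum_of_total i p total y]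
  refine Finset.sum_congr rfl fun j _ => ?_
  rw [← η.naturality, hx]

/-- **Additivity, bijective part**. -/
theorem NatTrans.bijective_of_total {ι : Type*} [Fintype ι] {P : C} {B : ι → C}
    (i : ∀ j, B j ⟶ P) (p : ∀ j, P ⟶ B j) (total : ∑ j, p j ≫ i j = 𝟙 P)
    (h : ∀ j, Function.Bijective (η.app (B j))) : Function.Bijective (η.app P) :=
  ⟨η.injective_of_total i p total fun j => (h j).1,
    η.surjective_of_total i p total fun j => (h j).2⟩

/-- a retract of an object on which `η` is bijective -/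
theorem NatTrans.bijective_of_retract {P B : C} (i : B ⟶ P) (p : P ⟶ B) (hpi : p ≫ i = 𝟙 P)
    (h : Function.Bijective (η.app B)) : Function.Bijective (η.app P) :=
  η.bijective_of_total (ι := Unit) (fun _ => i) (fun _ => p) (by simpa using hpi) fun _ => h

open Limits in
/-- Mathlib biproducts: bijectivity on the summands gives bijectivity on the biproduct. -/
theorem NatTrans.bijective_biproduct {ι : Type} [Fintype ι] (B : ι → C) [HasBiproduct B]
    (h : ∀ j, Function.Bijective (η.app (B j))) : Function.Bijective (η.app (⨁ B)) :=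
  η.bijective_of_total (biproduct.ι B) (biproduct.π B) (biproduct.total) h

open Limits in
/-- Mathlib biproducts, injective part. -/
theorem NatTrans.injective_biproduct {ι : Type} [Fintype ι] (B : ι → C) [HasBiproduct B]
    (h : ∀ j, Function.Injective (η.app (B j))) : Function.Injective (η.app (⨁ B)) :=
  η.injective_of_total (biproduct.ι B) (biproduct.π B) (biproduct.total) h

open Limits in
/-- Mathlib biproducts, surjective part. -/
theorem NatTrans.surjective_biproduct {ι : Type} [Fintype ι] (B : ι → C) [HasBiproduct B]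
    (h : ∀ j, Function.Surjective (η.app (B j))) : Function.Surjective (η.app (⨁ B)) :=
  η.surjective_of_total (biproduct.ι B) (biproduct.π B) (biproduct.total) h

end LinFunctor

namespace LinCofunctor

variable (T T' : LinCofunctor.{u, v, w} k C)

theorem map_zero {N N' : C} : T.map (0 : N ⟶ N') = 0 := by
  have h := T.map_add (0 : N ⟶ N') 0
  rw [add_zero] at h
  exact left_eq_add.mp h

theorem map_sum {ι : Type*} (s : Finset ι) {N N' : C} (φ : ι → (N ⟶ N')) :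
    T.map (∑ j ∈ s, φ j) = ∑ j ∈ s, T.map (φ j) := by
  classical
  induction s using Finset.induction_on with
  | empty => simp only [Finset.sum_empty, map_zero]
  | insert a s ha ih => rw [Finset.sum_insert ha, Finset.sum_insert ha, T.map_add, ih]

theorem map_comp_apply {N N' N'' : C} (φ : N ⟶ N') (ψ : N' ⟶ N'') (x : T.obj N'') :
    T.map (φ ≫ ψ) x = T.map φ (T.map ψ x) := by
  rw [T.map_comp]
  rfl

theorem map_id_apply (N : C) (x : T.obj N) : T.map (𝟙 N) x = x := by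
  rw [T.map_id]
  rfl

/-- a natural transformation between contravariant linear functors given by hand -/
structure NatTrans where
  /-- the components -/
  app : ∀ N : C, T.obj N →ₗ[k] T'.obj N
  naturality : ∀ {N N' : C} (φ : N ⟶ N') (x : T.obj N'), T'.map φ (app N' x) = app N (T.map φ x)

variable {T T'} (η : NatTrans T T')

/-- the decomposition of an element along `𝟙 P = ∑ p_j ≫ i_j` -/
theorem eq_sum_of_total {ι : Type*} [Fintype ι] {P : C} {B : ι → C} (i : ∀ j, B j ⟶ P)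
    (p : ∀ j, P ⟶ B j) (total : ∑ j, p j ≫ i j = 𝟙 P) (x : T.obj P) :
    x = ∑ j, T.map (p j) (T.map (i j) x) := by
  conv_lhs => rw [← T.map_id_apply P x, ← total, T.map_sum, LinearMap.sum_apply]
  exact Finset.sum_congr rfl fun j _ => T.map_comp_apply _ _ _

/-- **Additivity (contravariant), injective part**. -/
theorem NatTrans.injective_of_total {ι : Type*} [Fintype ι] {P : C} {B : ι → C}
    (i : ∀ j, B j ⟶ P) (p : ∀ j, P ⟶ B j) (total : ∑ j, p j ≫ i j = 𝟙 P)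
    (h : ∀ j, Function.Injective (η.app (B j))) : Function.Injective (η.app P) := by
  rw [← LinearMap.ker_eq_bot, LinearMap.ker_eq_bot']
  intro x hx
  rw [eq_sum_of_total i p total x]
  refine Finset.sum_eq_zero fun j _ => ?_
  have : T.map (i j) x = 0 := by
    apply h j
    rw [← η.naturality, hx, _root_.map_zero, _root_.map_zero]
  rw [this, _root_.map_zero]

/-- **Additivity (contravariant), surjective part**. -/
theorem NatTrans.surjective_of_total {ι : Type*} [Fintype ι] {P : C} {B : ι → C}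
    (i : ∀ j, B j ⟶ P) (p : ∀ j, P ⟶ B j) (total : ∑ j, p j ≫ i j = 𝟙 P)
    (h : ∀ j, Function.Surjective (η.app (B j))) : Function.Surjective (η.app P) := by
  intro y
  choose x hx using fun j => h j (T'.map (i j) y)
  refine ⟨∑ j, T.map (p j) (x j), ?_⟩
  rw [_root_.map_sum]
  conv_rhs => rw [eq_sum_of_total i p total y]
  refine Finset.sum_congr rfl fun j _ => ?_
  rw [← η.naturality, hx]

/-- **Additivity (contravariant), bijective part**. -/
theorem NatTrans.bijective_of_total {ι : Type*} [Fintype ι] {P : C} {B : ι → C}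
    (i : ∀ j, B j ⟶ P) (p : ∀ j, P ⟶ B j) (total : ∑ j, p j ≫ i j = 𝟙 P)
    (h : ∀ j, Function.Bijective (η.app (B j))) : Function.Bijective (η.app P) :=
  ⟨η.injective_of_total i p total fun j => (h j).1,
    η.surjective_of_total i p total fun j => (h j).2⟩

/-- a retract of an object on which `η` is bijective -/
theorem NatTrans.bijective_of_retract {P B : C} (i : B ⟶ P) (p : P ⟶ B) (hpi : p ≫ i = 𝟙 P)
    (h : Function.Bijective (η.app B)) : Function.Bijective (η.app P) :=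
  η.bijective_of_total (ι := Unit) (fun _ => i) (fun _ => p) (by simpa using hpi) fun _ => h

open Limits in
/-- Mathlib biproducts (contravariant case). -/
theorem NatTrans.bijective_biproduct {ι : Type} [Fintype ι] (B : ι → C) [HasBiproduct B]
    (h : ∀ j, Function.Bijective (η.app (B j))) : Function.Bijective (η.app (⨁ B)) :=
  η.bijective_of_total (biproduct.ι B) (biproduct.π B) (biproduct.total) h

end LinCofunctor

end LinFunctor

/-! ### (3) Functoriality of `Rep.dualTwist` -/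

section DualTwist

variable {k : Type} [CommRing k] {G : Type} [Group G] (χ : G →* kˣ)
  {N N' N'' : Rep.{0, 0, 0} k G}

/-- The transpose `N'.dualTwist χ ⟶ N.dualTwist χ`, `f ↦ f ∘ φ`, of `φ : N ⟶ N'`. -/
noncomputable def dualTwistMap (φ : N ⟶ N') : N'.dualTwist χ ⟶ N.dualTwist χ :=
  Rep.ofHom (LinearMap.intertwiningMap_of_isIntertwiningMap _ _
    (Module.Dual.transpose (R := k) φ.hom.toLinearMap) (by
      intro g f
      apply LinearMap.ext
      intro n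
      show (χ g : k) • f (N'.ρ g⁻¹ (φ.hom.toLinearMap n)) =
        (χ g : k) • f (φ.hom.toLinearMap (N.ρ g⁻¹ n))
      rw [show φ.hom.toLinearMap (N.ρ g⁻¹ n) = N'.ρ g⁻¹ (φ.hom.toLinearMap n) from
        Rep.hom_comm_apply φ g⁻¹ n]))

theorem dualTwistMap_apply (φ : N ⟶ N') (f : N'.dualTwist χ) (n : N) :
    ((dualTwistMap χ φ).hom f : Module.Dual k N) n = (f : Module.Dual k N') (φ.hom n) := rfl

theorem dualTwistMap_hom (φ : N ⟶ N') :
    (dualTwistMap χ φ).hom.toLinearMap = Module.Dual.transpose (R := k) φ.hom.toLinearMap := rfl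

theorem dualTwistMap_id : dualTwistMap χ (𝟙 N) = 𝟙 (N.dualTwist χ) := rfl

theorem dualTwistMap_comp (φ : N ⟶ N') (ψ : N' ⟶ N'') :
    dualTwistMap χ (φ ≫ ψ) = dualTwistMap χ ψ ≫ dualTwistMap χ φ := rfl

theorem dualTwistMap_add (φ ψ : N ⟶ N') :
    dualTwistMap χ (φ + ψ) = dualTwistMap χ φ + dualTwistMap χ ψ := by
  apply Rep.hom_ext
  apply Representation.IntertwiningMap.ext
  apply LinearMap.ext
  intro f
  apply LinearMap.ext
  intro n
  exact map_add (f : Module.Dual k N') _ _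

theorem dualTwistMap_smul (c : k) (φ : N ⟶ N') :
    dualTwistMap χ (c • φ) = c • dualTwistMap χ φ := by
  apply Rep.hom_ext
  apply Representation.IntertwiningMap.ext
  apply LinearMap.ext
  intro f
  apply LinearMap.ext
  intro n
  exact map_smul (f : Module.Dual k N') c _

theorem dualTwistMap_zero : dualTwistMap χ (0 : N ⟶ N') = 0 := by
  apply Rep.hom_ext
  apply Representation.IntertwiningMap.ext
  apply LinearMap.ext
  intro f
  apply LinearMap.ext
  intro n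
  exact map_zero (f : Module.Dual k N')

/-- `φ` surjective ⇒ the transpose is injective (any commutative ring) -/
theorem dualTwistMap_injective_of_surjective (φ : N ⟶ N') (h : Function.Surjective φ.hom) :
    Function.Injective (dualTwistMap χ φ).hom := by
  intro f f' hff'
  exact LinearMap.dualMap_injective_of_surjective (f := φ.hom.toLinearMap) h hff'

end DualTwist

section DualTwistField

variable {k : Type} [Field k] {G : Type} [Group G] (χ : G →* kˣ)
  {N N' N'' : Rep.{0, 0, 0} k G}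

/-- over a field: `φ` injective ⇒ the transpose is surjective -/
theorem dualTwistMap_surjective_of_injective (φ : N ⟶ N') (h : Function.Injective φ.hom) :
    Function.Surjective (dualTwistMap χ φ).hom := by
  intro f
  obtain ⟨f', hf'⟩ := LinearMap.dualMap_surjective_of_injective
    (f := φ.hom.toLinearMap) h (f : Module.Dual k N)
  exact ⟨f', hf'⟩

/-- over a field: exactness of `N ⟶ N' ⟶ N''` at `N'` gives exactness of the transposes at
`N'.dualTwist χ`. -/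
theorem dualTwistMap_exact (φ : N ⟶ N') (ψ : N' ⟶ N'')
    (h : Function.Exact φ.hom ψ.hom) :
    Function.Exact (dualTwistMap χ ψ).hom (dualTwistMap χ φ).hom := by
  intro f
  constructor
  · intro hf
    -- `f ∘ φ = 0`, so `f` vanishes on `ker ψ = range φ`, hence factors through `ψ`
    have hker : LinearMap.ker ψ.hom.toLinearMap ≤ LinearMap.ker (f : Module.Dual k N') := by
      intro x hx
      obtain ⟨y, rfl⟩ := (h x).mp hx
      exact LinearMap.congr_fun hf y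
    have hmem : (f : Module.Dual k N') ∈ LinearMap.range ψ.hom.toLinearMap.dualMap := by
      rw [LinearMap.range_dualMap_eq_dualAnnihilator_ker, Submodule.mem_dualAnnihilator]
      intro x hx
      exact hker hx
    obtain ⟨f'', hf''⟩ := hmem
    exact ⟨f'', hf''⟩
  · rintro ⟨f'', rfl⟩
    apply LinearMap.ext
    intro n
    show (f'' : Module.Dual k N'') (ψ.hom (φ.hom n)) = 0
    rw [(h (φ.hom n)).mpr ⟨n, rfl⟩, map_zero]

end DualTwistField

/-! ### (4) Instances: the LC cohomology functors, dualising, precomposing with `dualTwist` -/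

section Instances

variable {k : Type} [CommRing k] {G : Type} [Group G]

/-- `N ↦ H⁰(N)` as a linear functor given by hand -/
def hF0 (𝒰 : NBasis G) : LinFunctor.{1, 0, 0} k (Rep.{0, 0, 0} k G) where
  obj N := ↥(H0 𝒰 N)
  acg _ := inferInstance
  mod _ := inferInstance
  map φ := (Mor.ofHom 𝒰 φ).h0
  map_id _ := ofHom_id_h0 𝒰
  map_comp φ ψ := ofHom_comp_h0 𝒰 φ ψ
  map_add φ ψ := ofHom_add_h0 𝒰 φ ψ

/-- `N ↦ H¹(N)` as a linear functor given by hand -/
def hF1 (𝒰 : NBasis G) : LinFunctor.{1, 0, 0} k (Rep.{0, 0, 0} k G) where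
  obj N := H1 𝒰 N
  acg _ := inferInstance
  mod _ := inferInstance
  map φ := (Mor.ofHom 𝒰 φ).h1
  map_id _ := ofHom_id_h1 𝒰
  map_comp φ ψ := ofHom_comp_h1 𝒰 φ ψ
  map_add φ ψ := ofHom_add_h1 𝒰 φ ψ

/-- `N ↦ H²(N)` as a linear functor given by hand -/
def hF2 (𝒰 : NBasis G) : LinFunctor.{1, 0, 0} k (Rep.{0, 0, 0} k G) where
  obj N := H2 𝒰 N
  acg _ := inferInstance
  mod _ := inferInstance
  map φ := (Mor.ofHom 𝒰 φ).h2
  map_id _ := ofHom_id_h2 𝒰
  map_comp φ ψ := ofHom_comp_h2 𝒰 φ ψ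
  map_add φ ψ := ofHom_add_h2 𝒰 φ ψ

/-- `N ↦ H³(N)` as a linear functor given by hand -/
def hF3 (𝒰 : NBasis G) : LinFunctor.{1, 0, 0} k (Rep.{0, 0, 0} k G) where
  obj N := H3 𝒰 N
  acg _ := inferInstance
  mod _ := inferInstance
  map φ := (Mor.ofHom 𝒰 φ).h3
  map_id _ := ofHom_id_h3 𝒰
  map_comp φ ψ := ofHom_comp_h3 𝒰 φ ψ
  map_add φ ψ := ofHom_add_h3 𝒰 φ ψ

universe u v w

variable {C : Type u} [Category.{v} C] [Preadditive C]

/-- the `k`-dual of a contravariant functor is covariant -/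
def LinCofunctor.dual (T : LinCofunctor.{u, v, w} k C) : LinFunctor.{u, v, w} k C where
  obj N := Module.Dual k (T.obj N)
  acg _ := inferInstance
  mod _ := inferInstance
  map φ := (T.map φ).dualMap
  map_id N := by rw [T.map_id]; exact LinearMap.dualMap_id
  map_comp φ ψ := by rw [T.map_comp]; exact LinearMap.dualMap_comp_dualMap _ _ |>.symm
  map_add φ ψ := by
    rw [T.map_add]
    apply LinearMap.ext
    intro f
    apply LinearMap.ext
    intro x
    simp only [LinearMap.dualMap_apply, LinearMap.add_apply]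
    exact _root_.map_add f _ _

/-- the `k`-dual of a covariant functor is contravariant -/
def LinFunctor.dual (T : LinFunctor.{u, v, w} k C) : LinCofunctor.{u, v, w} k C where
  obj N := Module.Dual k (T.obj N)
  acg _ := inferInstance
  mod _ := inferInstance
  map φ := (T.map φ).dualMap
  map_id N := by rw [T.map_id]; exact LinearMap.dualMap_id
  map_comp φ ψ := by rw [T.map_comp]; exact LinearMap.dualMap_comp_dualMap _ _ |>.symm
  map_add φ ψ := by
    rw [T.map_add]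
    apply LinearMap.ext
    intro f
    apply LinearMap.ext
    intro x
    simp only [LinearMap.dualMap_apply, LinearMap.add_apply]
    exact _root_.map_add f _ _

/-- precomposition of a covariant functor with `N ↦ N.dualTwist χ` is contravariant -/
noncomputable def LinFunctor.dualTwistComp (T : LinFunctor.{1, 0, w} k (Rep.{0, 0, 0} k G))
    (χ : G →* kˣ) : LinCofunctor.{1, 0, w} k (Rep.{0, 0, 0} k G) where
  obj N := T.obj (N.dualTwist χ)
  acg _ := inferInstance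
  mod _ := inferInstance
  map φ := T.map (dualTwistMap χ φ)
  map_id N := by rw [dualTwistMap_id, T.map_id]
  map_comp φ ψ := by rw [dualTwistMap_comp, T.map_comp]
  map_add φ ψ := by rw [dualTwistMap_add, T.map_add]

/-- precomposition of a contravariant functor with `N ↦ N.dualTwist χ` is covariant -/
noncomputable def LinCofunctor.dualTwistComp (T : LinCofunctor.{1, 0, w} k (Rep.{0, 0, 0} k G))
    (χ : G →* kˣ) : LinFunctor.{1, 0, w} k (Rep.{0, 0, 0} k G) where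
  obj N := T.obj (N.dualTwist χ)
  acg _ := inferInstance
  mod _ := inferInstance
  map φ := T.map (dualTwistMap χ φ)
  map_id N := by rw [dualTwistMap_id, T.map_id]
  map_comp φ ψ := by rw [dualTwistMap_comp, T.map_comp]
  map_add φ ψ := by rw [dualTwistMap_add, T.map_add]

/-- `N ↦ Module.Dual k (H^i (N.dualTwist χ))`, covariant in `N` (here for a general `T`). -/
noncomputable def LinFunctor.dualOfDualTwist (T : LinFunctor.{1, 0, w} k (Rep.{0, 0, 0} k G))
    (χ : G →* kˣ) : LinFunctor.{1, 0, w} k (Rep.{0, 0, 0} k G) :=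
  (T.dualTwistComp χ).dual

end Instances

/-! ### (5) The concrete finite product `∀ j, B j` in `Rep k G` with its `ι_j`, `π_j` -/

section PiRep

variable {k : Type} [CommRing k] {G : Type} [Group G] {ι : Type}
  (B : ι → Rep.{0, 0, 0} k G)

/-- the product representation on `∀ j, B j` (componentwise action) -/
def piRepresentation : Representation k G (∀ j, B j) where
  toFun g := LinearMap.pi fun j => (B j).ρ g ∘ₗ LinearMap.proj j
  map_one' := by
    apply LinearMap.ext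
    intro x
    funext j
    simp
  map_mul' g h := by
    apply LinearMap.ext
    intro x
    funext j
    simp

@[simp] theorem piRepresentation_apply (g : G) (x : ∀ j, B j) (j : ι) :
    piRepresentation B g x j = (B j).ρ g (x j) := rfl

/-- the product `∀ j, B j` as an object of `Rep k G` -/
def piRep : Rep.{0, 0, 0} k G := Rep.of (piRepresentation B)

/-- the projection `π_j` -/
def piRepProj (j : ι) : piRep B ⟶ B j :=
  Rep.ofHom (σ := (B j).ρ) (LinearMap.intertwiningMap_of_isIntertwiningMap _ _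
    (LinearMap.proj (R := k) (φ := fun j => (B j : Type)) j) (fun _ _ => rfl))

@[simp] theorem piRepProj_apply (j : ι) (x : piRep B) : (piRepProj B j).hom x = x j := rfl

variable [DecidableEq ι]

/-- the inclusion `ι_j` -/
def piRepInj (j : ι) : B j ⟶ piRep B :=
  Rep.ofHom (ρ := (B j).ρ) (LinearMap.intertwiningMap_of_isIntertwiningMap _ _
    (LinearMap.single k (fun j => (B j : Type)) j) (by
      intro g v
      funext j'
      by_cases h : j' = j
      · subst h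
        simp
      · simp [Pi.single_eq_of_ne h]))

@[simp] theorem piRepInj_apply (j : ι) (x : B j) : (piRepInj B j).hom x = Pi.single j x := rfl

theorem piRepInj_proj (j : ι) : piRepInj B j ≫ piRepProj B j = 𝟙 (B j) := by
  apply Rep.hom_ext
  apply Representation.IntertwiningMap.ext
  apply LinearMap.ext
  intro x
  show (Pi.single j x : ∀ j, B j) j = x
  simp

theorem piRepInj_proj_of_ne {j j' : ι} (h : j ≠ j') : piRepInj B j ≫ piRepProj B j' = 0 := by
  apply Rep.hom_ext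
  apply Representation.IntertwiningMap.ext
  apply LinearMap.ext
  intro x
  show (Pi.single j x : ∀ j, B j) j' = 0
  simp [Pi.single_eq_of_ne h.symm]

theorem piRep_total [Fintype ι] : ∑ j, piRepProj B j ≫ piRepInj B j = 𝟙 (piRep B) := by
  apply Rep.hom_ext
  apply Representation.IntertwiningMap.ext
  apply LinearMap.ext
  intro x
  have h : ∀ s : Finset ι, (∑ j ∈ s, piRepProj B j ≫ piRepInj B j).hom x =
      ∑ j ∈ s, (Pi.single j (x j) : ∀ j, B j) := by
    intro s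
    induction s using Finset.induction_on with
    | empty => rfl
    | insert a s ha ih =>
      rw [Finset.sum_insert ha, Finset.sum_insert ha, ← ih]
      rfl
  show (∑ j, piRepProj B j ≫ piRepInj B j).hom x = x
  rw [h]
  exact Finset.univ_sum_single x

/-- **Additivity on the concrete product**: if `η` is bijective on each `B j` it is bijective on
`∀ j, B j`. -/
theorem LinFunctor.NatTrans.bijective_piRep [Fintype ι]
    {T T' : LinFunctor.{1, 0, 0} k (Rep.{0, 0, 0} k G)} (η : LinFunctor.NatTrans T T')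
    (h : ∀ j, Function.Bijective (η.app (B j))) : Function.Bijective (η.app (piRep B)) :=
  η.bijective_of_total (piRepInj B) (piRepProj B) (piRep_total B) h

/-- contravariant version -/
theorem LinCofunctor.NatTrans.bijective_piRep [Fintype ι]
    {T T' : LinCofunctor.{1, 0, 0} k (Rep.{0, 0, 0} k G)} (η : LinCofunctor.NatTrans T T')
    (h : ∀ j, Function.Bijective (η.app (B j))) : Function.Bijective (η.app (piRep B)) :=
  η.bijective_of_total (piRepInj B) (piRepProj B) (piRep_total B) h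

end PiRep

end Fermat.Agent.S55.Formal.Functor
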