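/-
S55 / Formal end, lemma row 158 (helper75): FUNCTOR LAWS for the compactly supported cohomology and
the local product cohomology of a `Site`, in the coefficient variable.

For `φ : A ⟶ B` in `Rep k X.G` write `φ₊` for `ConeSES.H2cmap / H3cmap / P1map / P2map / P3map` of
`Mor.ofHom X.𝒰 φ`.
* `H2cmap_id, H2cmap_comp, H2cmap_add, H2cmap_smul, H2cmap_zero` (and the same for the others);
* `hFc2 hFc3 hFP1 hFP2 hFP3 : Functor.LinFunctor k (Rep k X.G)`;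
* natural transformations `natLoc₁ : hF1 ⟹ hFP1`, `natι₂ : hFP1 ⟹ hFc2`, `natπ₂ : hFc2 ⟹ hF2`,
  `natLoc₂ : hF2 ⟹ hFP2`, `natι₃ : hFP2 ⟹ hFc3`, `natπ₃ : hFc3 ⟹ hF3`, `natLoc₃ : hF3 ⟹ hFP3`;
* `bijective_pow` (+ `injective_pow`, `surjective_pow`): a natural transformation between ANY two
  `LinFunctor`s on `Rep k G` which is bijective on `B` is bijective on `Perm.powRep B d`.
-/
import Mathlib
import Fermat.Agent.S55.Formal.ConeSES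
import Fermat.Agent.S55.Formal.Functor
import Fermat.Agent.S55.Formal.Perm

set_option autoImplicit false

open CategoryTheory groupCohomology

namespace Fermat.Agent.S55.Formal.ConeFunctor

open Fermat.Agent.S55.Formal Fermat.Agent.S55.Formal.ConeSES Fermat.Agent.S55.Formal.Functor

/-! ### generic laws for `Hmid.map` -/

section HmidMap

variable {k : Type} [CommRing k]
variable {X Y Z X' Y' Z' X'' Y'' Z'' : Type} [AddCommGroup X] [Module k X] [AddCommGroup Y]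
  [Module k Y] [AddCommGroup Z] [Module k Z] [AddCommGroup X'] [Module k X'] [AddCommGroup Y']
  [Module k Y'] [AddCommGroup Z'] [Module k Z'] [AddCommGroup X''] [Module k X'']
  [AddCommGroup Y''] [Module k Y''] [AddCommGroup Z''] [Module k Z'']
  {f : X →ₗ[k] Y} {g : Y →ₗ[k] Z} {f' : X' →ₗ[k] Y'} {g' : Y' →ₗ[k] Z'}
  {f'' : X'' →ₗ[k] Y''} {g'' : Y'' →ₗ[k] Z''}

theorem hmid_map_id (φ : Y →ₗ[k] Y) (hker : ∀ b, g b = 0 → g (φ b) = 0)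
    (hrange : ∀ a, ∃ a', f a' = φ (f a)) (h : ∀ b, φ b = b) :
    Hmid.map (f := f) (g := g) φ hker hrange = LinearMap.id := by
  apply LinearMap.ext
  intro x
  obtain ⟨b, hb, rfl⟩ := Hmid.exists_of x
  rw [Hmid.map_of, LinearMap.id_apply]
  exact hmid_of_congr (h b) _ hb

theorem hmid_map_comp (φ : Y →ₗ[k] Y') (hker : ∀ b, g b = 0 → g' (φ b) = 0)
    (hrange : ∀ a, ∃ a', f' a' = φ (f a))
    (ψ : Y' →ₗ[k] Y'') (hker' : ∀ b, g' b = 0 → g'' (ψ b) = 0)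
    (hrange' : ∀ a, ∃ a', f'' a' = ψ (f' a))
    (χ : Y →ₗ[k] Y'') (hker'' : ∀ b, g b = 0 → g'' (χ b) = 0)
    (hrange'' : ∀ a, ∃ a', f'' a' = χ (f a)) (h : ∀ b, χ b = ψ (φ b)) :
    Hmid.map (f := f) (g := g) χ hker'' hrange'' =
      (Hmid.map ψ hker' hrange').comp (Hmid.map φ hker hrange) := by
  apply LinearMap.ext
  intro x
  obtain ⟨b, hb, rfl⟩ := Hmid.exists_of x
  rw [LinearMap.comp_apply, Hmid.map_of, Hmid.map_of, Hmid.map_of]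
  exact hmid_of_congr (h b) _ _

theorem hmid_map_add (φ ψ χ : Y →ₗ[k] Y') (hker : ∀ b, g b = 0 → g' (φ b) = 0)
    (hrange : ∀ a, ∃ a', f' a' = φ (f a)) (hker' : ∀ b, g b = 0 → g' (ψ b) = 0)
    (hrange' : ∀ a, ∃ a', f' a' = ψ (f a)) (hker'' : ∀ b, g b = 0 → g' (χ b) = 0)
    (hrange'' : ∀ a, ∃ a', f' a' = χ (f a)) (h : ∀ b, χ b = φ b + ψ b) :
    Hmid.map (f := f) (g := g) χ hker'' hrange'' =
      Hmid.map φ hker hrange + Hmid.map ψ hker' hrange' := by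
  apply LinearMap.ext
  intro x
  obtain ⟨b, hb, rfl⟩ := Hmid.exists_of x
  rw [LinearMap.add_apply, Hmid.map_of, Hmid.map_of, Hmid.map_of, ← Hmid.of_add]
  exact hmid_of_congr (h b) _ _

theorem hmid_map_smul (c : k) (φ χ : Y →ₗ[k] Y') (hker : ∀ b, g b = 0 → g' (φ b) = 0)
    (hrange : ∀ a, ∃ a', f' a' = φ (f a)) (hker'' : ∀ b, g b = 0 → g' (χ b) = 0)
    (hrange'' : ∀ a, ∃ a', f' a' = χ (f a)) (h : ∀ b, χ b = c • φ b) :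
    Hmid.map (f := f) (g := g) χ hker'' hrange'' = c • Hmid.map φ hker hrange := by
  apply LinearMap.ext
  intro x
  obtain ⟨b, hb, rfl⟩ := Hmid.exists_of x
  rw [LinearMap.smul_apply, Hmid.map_of, Hmid.map_of, ← Hmid.of_smul]
  exact hmid_of_congr (h b) _ _

theorem hmid_map_zero (χ : Y →ₗ[k] Y') (hker'' : ∀ b, g b = 0 → g' (χ b) = 0)
    (hrange'' : ∀ a, ∃ a', f' a' = χ (f a)) (h : ∀ b, χ b = 0) :
    Hmid.map (f := f) (g := g) χ hker'' hrange'' = 0 := by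
  apply LinearMap.ext
  intro x
  obtain ⟨b, hb, rfl⟩ := Hmid.exists_of x
  rw [LinearMap.zero_apply, Hmid.map_of, ← Hmid.of_zero]
  exact hmid_of_congr (h b) _ _

end HmidMap

variable {k : Type} [CommRing k] (X : Site) {A B C : Rep.{0, 0, 0} k X.G}

/-- the hypothesis `α.f = id` for a coefficient morphism -/
lemma ofHom_f (φ : A ⟶ B) : ∀ g, (Mor.ofHom X.𝒰 φ).f g = g := fun _ => rfl

/-! ### cochain-level laws -/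

section Cochain

variable (φ : A ⟶ B) (ψ : B ⟶ C) (φ₁ φ₂ : A ⟶ B) (c : k)

lemma dmap₁_id (b : X.D₁ A) : dmap₁ X (Mor.ofHom X.𝒰 (𝟙 A)) (ofHom_f X _) b = b := rfl
lemma dmap₂_id (b : X.D₂ A) : dmap₂ X (Mor.ofHom X.𝒰 (𝟙 A)) (ofHom_f X _) b = b := rfl
lemma dmap₃_id (b : X.D₃ A) : dmap₃ X (Mor.ofHom X.𝒰 (𝟙 A)) (ofHom_f X _) b = b := rfl
lemma kmap₂_id (x : ↥(C₂ X.𝒰 A) × X.D₁ A) :
    kmap₂ X (Mor.ofHom X.𝒰 (𝟙 A)) (ofHom_f X _) x = x := rfl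
lemma kmap₃_id (x : ↥(C₃ X.𝒰 A) × X.D₂ A) :
    kmap₃ X (Mor.ofHom X.𝒰 (𝟙 A)) (ofHom_f X _) x = x := rfl

lemma dmap₁_comp (b : X.D₁ A) : dmap₁ X (Mor.ofHom X.𝒰 (φ ≫ ψ)) (ofHom_f X _) b =
    dmap₁ X (Mor.ofHom X.𝒰 ψ) (ofHom_f X _) (dmap₁ X (Mor.ofHom X.𝒰 φ) (ofHom_f X _) b) := rfl
lemma dmap₂_comp (b : X.D₂ A) : dmap₂ X (Mor.ofHom X.𝒰 (φ ≫ ψ)) (ofHom_f X _) b =
    dmap₂ X (Mor.ofHom X.𝒰 ψ) (ofHom_f X _) (dmap₂ X (Mor.ofHom X.𝒰 φ) (ofHom_f X _) b) := rfl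
lemma dmap₃_comp (b : X.D₃ A) : dmap₃ X (Mor.ofHom X.𝒰 (φ ≫ ψ)) (ofHom_f X _) b =
    dmap₃ X (Mor.ofHom X.𝒰 ψ) (ofHom_f X _) (dmap₃ X (Mor.ofHom X.𝒰 φ) (ofHom_f X _) b) := rfl
lemma kmap₂_comp (x : ↥(C₂ X.𝒰 A) × X.D₁ A) :
    kmap₂ X (Mor.ofHom X.𝒰 (φ ≫ ψ)) (ofHom_f X _) x =
      kmap₂ X (Mor.ofHom X.𝒰 ψ) (ofHom_f X _) (kmap₂ X (Mor.ofHom X.𝒰 φ) (ofHom_f X _) x) := rfl
lemma kmap₃_comp (x : ↥(C₃ X.𝒰 A) × X.D₂ A) :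
    kmap₃ X (Mor.ofHom X.𝒰 (φ ≫ ψ)) (ofHom_f X _) x =
      kmap₃ X (Mor.ofHom X.𝒰 ψ) (ofHom_f X _) (kmap₃ X (Mor.ofHom X.𝒰 φ) (ofHom_f X _) x) := rfl

lemma dmap₁_add (b : X.D₁ A) : dmap₁ X (Mor.ofHom X.𝒰 (φ₁ + φ₂)) (ofHom_f X _) b =
    dmap₁ X (Mor.ofHom X.𝒰 φ₁) (ofHom_f X _) b + dmap₁ X (Mor.ofHom X.𝒰 φ₂) (ofHom_f X _) b :=
  funext fun _ => Subtype.ext rfl
lemma dmap₂_add (b : X.D₂ A) : dmap₂ X (Mor.ofHom X.𝒰 (φ₁ + φ₂)) (ofHom_f X _) b =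
    dmap₂ X (Mor.ofHom X.𝒰 φ₁) (ofHom_f X _) b + dmap₂ X (Mor.ofHom X.𝒰 φ₂) (ofHom_f X _) b :=
  funext fun _ => Subtype.ext rfl
lemma dmap₃_add (b : X.D₃ A) : dmap₃ X (Mor.ofHom X.𝒰 (φ₁ + φ₂)) (ofHom_f X _) b =
    dmap₃ X (Mor.ofHom X.𝒰 φ₁) (ofHom_f X _) b + dmap₃ X (Mor.ofHom X.𝒰 φ₂) (ofHom_f X _) b :=
  funext fun _ => Subtype.ext rfl
lemma kmap₂_add (x : ↥(C₂ X.𝒰 A) × X.D₁ A) :
    kmap₂ X (Mor.ofHom X.𝒰 (φ₁ + φ₂)) (ofHom_f X _) x =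
      kmap₂ X (Mor.ofHom X.𝒰 φ₁) (ofHom_f X _) x + kmap₂ X (Mor.ofHom X.𝒰 φ₂) (ofHom_f X _) x :=
  Prod.ext (Subtype.ext rfl) (dmap₁_add X φ₁ φ₂ x.2)
lemma kmap₃_add (x : ↥(C₃ X.𝒰 A) × X.D₂ A) :
    kmap₃ X (Mor.ofHom X.𝒰 (φ₁ + φ₂)) (ofHom_f X _) x =
      kmap₃ X (Mor.ofHom X.𝒰 φ₁) (ofHom_f X _) x + kmap₃ X (Mor.ofHom X.𝒰 φ₂) (ofHom_f X _) x :=
  Prod.ext (Subtype.ext rfl) (dmap₂_add X φ₁ φ₂ x.2)

lemma dmap₁_smul (b : X.D₁ A) : dmap₁ X (Mor.ofHom X.𝒰 (c • φ)) (ofHom_f X _) b =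
    c • dmap₁ X (Mor.ofHom X.𝒰 φ) (ofHom_f X _) b :=
  funext fun _ => Subtype.ext rfl
lemma dmap₂_smul (b : X.D₂ A) : dmap₂ X (Mor.ofHom X.𝒰 (c • φ)) (ofHom_f X _) b =
    c • dmap₂ X (Mor.ofHom X.𝒰 φ) (ofHom_f X _) b :=
  funext fun _ => Subtype.ext rfl
lemma dmap₃_smul (b : X.D₃ A) : dmap₃ X (Mor.ofHom X.𝒰 (c • φ)) (ofHom_f X _) b =
    c • dmap₃ X (Mor.ofHom X.𝒰 φ) (ofHom_f X _) b :=
  funext fun _ => Subtype.ext rfl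
lemma kmap₂_smul (x : ↥(C₂ X.𝒰 A) × X.D₁ A) :
    kmap₂ X (Mor.ofHom X.𝒰 (c • φ)) (ofHom_f X _) x =
      c • kmap₂ X (Mor.ofHom X.𝒰 φ) (ofHom_f X _) x :=
  Prod.ext (Subtype.ext rfl) (dmap₁_smul X φ c x.2)
lemma kmap₃_smul (x : ↥(C₃ X.𝒰 A) × X.D₂ A) :
    kmap₃ X (Mor.ofHom X.𝒰 (c • φ)) (ofHom_f X _) x =
      c • kmap₃ X (Mor.ofHom X.𝒰 φ) (ofHom_f X _) x :=
  Prod.ext (Subtype.ext rfl) (dmap₂_smul X φ c x.2)

end Cochain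

/-! ### the induced maps on cohomology: functor laws -/

section Laws

variable (φ : A ⟶ B) (ψ : B ⟶ C) (φ₁ φ₂ : A ⟶ B) (c : k)

/-- `φ₊` on `P¹` -/
abbrev P1hom : X.P1 A →ₗ[k] X.P1 B := P1map X (Mor.ofHom X.𝒰 φ) (ofHom_f X φ)
/-- `φ₊` on `P²` -/
abbrev P2hom : X.P2 A →ₗ[k] X.P2 B := P2map X (Mor.ofHom X.𝒰 φ) (ofHom_f X φ)
/-- `φ₊` on `P³` -/
abbrev P3hom : X.P3 A →ₗ[k] X.P3 B := P3map X (Mor.ofHom X.𝒰 φ) (ofHom_f X φ)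
/-- `φ₊` on `H²_c` -/
abbrev H2chom : X.H2c A →ₗ[k] X.H2c B := H2cmap X (Mor.ofHom X.𝒰 φ) (ofHom_f X φ)
/-- `φ₊` on `H³_c` -/
abbrev H3chom : X.H3c A →ₗ[k] X.H3c B := H3cmap X (Mor.ofHom X.𝒰 φ) (ofHom_f X φ)

theorem P1map_id : P1map X (Mor.ofHom X.𝒰 (𝟙 A)) (ofHom_f X _) = LinearMap.id :=
  hmid_map_id _ _ _ (dmap₁_id X)
theorem P2map_id : P2map X (Mor.ofHom X.𝒰 (𝟙 A)) (ofHom_f X _) = LinearMap.id :=
  hmid_map_id _ _ _ (dmap₂_id X)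
theorem P3map_id : P3map X (Mor.ofHom X.𝒰 (𝟙 A)) (ofHom_f X _) = LinearMap.id :=
  hmid_map_id _ _ _ (dmap₃_id X)
theorem H2cmap_id : H2cmap X (Mor.ofHom X.𝒰 (𝟙 A)) (ofHom_f X _) = LinearMap.id :=
  hmid_map_id _ _ _ (kmap₂_id X)
theorem H3cmap_id : H3cmap X (Mor.ofHom X.𝒰 (𝟙 A)) (ofHom_f X _) = LinearMap.id :=
  hmid_map_id _ _ _ (kmap₃_id X)

theorem P1map_comp : P1map X (Mor.ofHom X.𝒰 (φ ≫ ψ)) (ofHom_f X _) =
    (P1map X (Mor.ofHom X.𝒰 ψ) (ofHom_f X _)).comp (P1map X (Mor.ofHom X.𝒰 φ) (ofHom_f X _)) :=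
  hmid_map_comp _ _ _ _ _ _ _ _ _ (dmap₁_comp X φ ψ)
theorem P2map_comp : P2map X (Mor.ofHom X.𝒰 (φ ≫ ψ)) (ofHom_f X _) =
    (P2map X (Mor.ofHom X.𝒰 ψ) (ofHom_f X _)).comp (P2map X (Mor.ofHom X.𝒰 φ) (ofHom_f X _)) :=
  hmid_map_comp _ _ _ _ _ _ _ _ _ (dmap₂_comp X φ ψ)
theorem P3map_comp : P3map X (Mor.ofHom X.𝒰 (φ ≫ ψ)) (ofHom_f X _) =
    (P3map X (Mor.ofHom X.𝒰 ψ) (ofHom_f X _)).comp (P3map X (Mor.ofHom X.𝒰 φ) (ofHom_f X _)) :=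
  hmid_map_comp _ _ _ _ _ _ _ _ _ (dmap₃_comp X φ ψ)
theorem H2cmap_comp : H2cmap X (Mor.ofHom X.𝒰 (φ ≫ ψ)) (ofHom_f X _) =
    (H2cmap X (Mor.ofHom X.𝒰 ψ) (ofHom_f X _)).comp (H2cmap X (Mor.ofHom X.𝒰 φ) (ofHom_f X _)) :=
  hmid_map_comp _ _ _ _ _ _ _ _ _ (kmap₂_comp X φ ψ)
theorem H3cmap_comp : H3cmap X (Mor.ofHom X.𝒰 (φ ≫ ψ)) (ofHom_f X _) =
    (H3cmap X (Mor.ofHom X.𝒰 ψ) (ofHom_f X _)).comp (H3cmap X (Mor.ofHom X.𝒰 φ) (ofHom_f X _)) :=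
  hmid_map_comp _ _ _ _ _ _ _ _ _ (kmap₃_comp X φ ψ)

theorem P1map_add : P1map X (Mor.ofHom X.𝒰 (φ₁ + φ₂)) (ofHom_f X _) =
    P1map X (Mor.ofHom X.𝒰 φ₁) (ofHom_f X _) + P1map X (Mor.ofHom X.𝒰 φ₂) (ofHom_f X _) :=
  hmid_map_add _ _ _ _ _ _ _ _ _ (dmap₁_add X φ₁ φ₂)
theorem P2map_add : P2map X (Mor.ofHom X.𝒰 (φ₁ + φ₂)) (ofHom_f X _) =
    P2map X (Mor.ofHom X.𝒰 φ₁) (ofHom_f X _) + P2map X (Mor.ofHom X.𝒰 φ₂) (ofHom_f X _) :=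
  hmid_map_add _ _ _ _ _ _ _ _ _ (dmap₂_add X φ₁ φ₂)
theorem P3map_add : P3map X (Mor.ofHom X.𝒰 (φ₁ + φ₂)) (ofHom_f X _) =
    P3map X (Mor.ofHom X.𝒰 φ₁) (ofHom_f X _) + P3map X (Mor.ofHom X.𝒰 φ₂) (ofHom_f X _) :=
  hmid_map_add _ _ _ _ _ _ _ _ _ (dmap₃_add X φ₁ φ₂)
theorem H2cmap_add : H2cmap X (Mor.ofHom X.𝒰 (φ₁ + φ₂)) (ofHom_f X _) =
    H2cmap X (Mor.ofHom X.𝒰 φ₁) (ofHom_f X _) + H2cmap X (Mor.ofHom X.𝒰 φ₂) (ofHom_f X _) :=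
  hmid_map_add _ _ _ _ _ _ _ _ _ (kmap₂_add X φ₁ φ₂)
theorem H3cmap_add : H3cmap X (Mor.ofHom X.𝒰 (φ₁ + φ₂)) (ofHom_f X _) =
    H3cmap X (Mor.ofHom X.𝒰 φ₁) (ofHom_f X _) + H3cmap X (Mor.ofHom X.𝒰 φ₂) (ofHom_f X _) :=
  hmid_map_add _ _ _ _ _ _ _ _ _ (kmap₃_add X φ₁ φ₂)

theorem P1map_smul : P1map X (Mor.ofHom X.𝒰 (c • φ)) (ofHom_f X _) =
    c • P1map X (Mor.ofHom X.𝒰 φ) (ofHom_f X _) :=
  hmid_map_smul c _ _ _ _ _ _ (dmap₁_smul X φ c)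
theorem P2map_smul : P2map X (Mor.ofHom X.𝒰 (c • φ)) (ofHom_f X _) =
    c • P2map X (Mor.ofHom X.𝒰 φ) (ofHom_f X _) :=
  hmid_map_smul c _ _ _ _ _ _ (dmap₂_smul X φ c)
theorem P3map_smul : P3map X (Mor.ofHom X.𝒰 (c • φ)) (ofHom_f X _) =
    c • P3map X (Mor.ofHom X.𝒰 φ) (ofHom_f X _) :=
  hmid_map_smul c _ _ _ _ _ _ (dmap₃_smul X φ c)
theorem H2cmap_smul : H2cmap X (Mor.ofHom X.𝒰 (c • φ)) (ofHom_f X _) =
    c • H2cmap X (Mor.ofHom X.𝒰 φ) (ofHom_f X _) :=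
  hmid_map_smul c _ _ _ _ _ _ (kmap₂_smul X φ c)
theorem H3cmap_smul : H3cmap X (Mor.ofHom X.𝒰 (c • φ)) (ofHom_f X _) =
    c • H3cmap X (Mor.ofHom X.𝒰 φ) (ofHom_f X _) :=
  hmid_map_smul c _ _ _ _ _ _ (kmap₃_smul X φ c)

theorem P1map_zero : P1map X (Mor.ofHom X.𝒰 (0 : A ⟶ B)) (ofHom_f X _) = 0 :=
  hmid_map_zero _ _ _ (fun _ => funext fun _ => Subtype.ext rfl)
theorem P2map_zero : P2map X (Mor.ofHom X.𝒰 (0 : A ⟶ B)) (ofHom_f X _) = 0 :=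
  hmid_map_zero _ _ _ (fun _ => funext fun _ => Subtype.ext rfl)
theorem P3map_zero : P3map X (Mor.ofHom X.𝒰 (0 : A ⟶ B)) (ofHom_f X _) = 0 :=
  hmid_map_zero _ _ _ (fun _ => funext fun _ => Subtype.ext rfl)
theorem H2cmap_zero : H2cmap X (Mor.ofHom X.𝒰 (0 : A ⟶ B)) (ofHom_f X _) = 0 :=
  hmid_map_zero _ _ _ (fun _ => Prod.ext (Subtype.ext rfl) (funext fun _ => Subtype.ext rfl))
theorem H3cmap_zero : H3cmap X (Mor.ofHom X.𝒰 (0 : A ⟶ B)) (ofHom_f X _) = 0 :=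
  hmid_map_zero _ _ _ (fun _ => Prod.ext (Subtype.ext rfl) (funext fun _ => Subtype.ext rfl))

end Laws

/-! ### packaging as `LinFunctor`s -/

section Package

/-- `N ↦ P¹(N)` (local product `H¹`) as a linear functor -/
def hFP1 : LinFunctor.{1, 0, 0} k (Rep.{0, 0, 0} k X.G) where
  obj N := X.P1 N
  acg _ := inferInstance
  mod _ := inferInstance
  map φ := P1map X (Mor.ofHom X.𝒰 φ) (ofHom_f X φ)
  map_id _ := P1map_id X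
  map_comp φ ψ := P1map_comp X φ ψ
  map_add φ ψ := P1map_add X φ ψ

/-- `N ↦ P²(N)` (local product `H²`) as a linear functor -/
def hFP2 : LinFunctor.{1, 0, 0} k (Rep.{0, 0, 0} k X.G) where
  obj N := X.P2 N
  acg _ := inferInstance
  mod _ := inferInstance
  map φ := P2map X (Mor.ofHom X.𝒰 φ) (ofHom_f X φ)
  map_id _ := P2map_id X
  map_comp φ ψ := P2map_comp X φ ψ
  map_add φ ψ := P2map_add X φ ψ

/-- `N ↦ P³(N)` (local product `H³`) as a linear functor -/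
def hFP3 : LinFunctor.{1, 0, 0} k (Rep.{0, 0, 0} k X.G) where
  obj N := X.P3 N
  acg _ := inferInstance
  mod _ := inferInstance
  map φ := P3map X (Mor.ofHom X.𝒰 φ) (ofHom_f X φ)
  map_id _ := P3map_id X
  map_comp φ ψ := P3map_comp X φ ψ
  map_add φ ψ := P3map_add X φ ψ

/-- `N ↦ H²_c(N)` as a linear functor -/
def hFc2 : LinFunctor.{1, 0, 0} k (Rep.{0, 0, 0} k X.G) where
  obj N := X.H2c N
  acg _ := inferInstance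
  mod _ := inferInstance
  map φ := H2cmap X (Mor.ofHom X.𝒰 φ) (ofHom_f X φ)
  map_id _ := H2cmap_id X
  map_comp φ ψ := H2cmap_comp X φ ψ
  map_add φ ψ := H2cmap_add X φ ψ

/-- `N ↦ H³_c(N)` as a linear functor -/
def hFc3 : LinFunctor.{1, 0, 0} k (Rep.{0, 0, 0} k X.G) where
  obj N := X.H3c N
  acg _ := inferInstance
  mod _ := inferInstance
  map φ := H3cmap X (Mor.ofHom X.𝒰 φ) (ofHom_f X φ)
  map_id _ := H3cmap_id X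
  map_comp φ ψ := H3cmap_comp X φ ψ
  map_add φ ψ := H3cmap_add X φ ψ

@[simp] lemma hFP1_obj (N : Rep.{0, 0, 0} k X.G) : (hFP1 (k := k) X).obj N = X.P1 N := rfl
@[simp] lemma hFP2_obj (N : Rep.{0, 0, 0} k X.G) : (hFP2 (k := k) X).obj N = X.P2 N := rfl
@[simp] lemma hFP3_obj (N : Rep.{0, 0, 0} k X.G) : (hFP3 (k := k) X).obj N = X.P3 N := rfl
@[simp] lemma hFc2_obj (N : Rep.{0, 0, 0} k X.G) : (hFc2 (k := k) X).obj N = X.H2c N := rfl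
@[simp] lemma hFc3_obj (N : Rep.{0, 0, 0} k X.G) : (hFc3 (k := k) X).obj N = X.H3c N := rfl

lemma hFP1_map (φ : A ⟶ B) :
    (hFP1 X).map φ = P1map X (Mor.ofHom X.𝒰 φ) (ofHom_f X φ) := rfl
lemma hFP2_map (φ : A ⟶ B) :
    (hFP2 X).map φ = P2map X (Mor.ofHom X.𝒰 φ) (ofHom_f X φ) := rfl
lemma hFP3_map (φ : A ⟶ B) :
    (hFP3 X).map φ = P3map X (Mor.ofHom X.𝒰 φ) (ofHom_f X φ) := rfl
lemma hFc2_map (φ : A ⟶ B) :
    (hFc2 X).map φ = H2cmap X (Mor.ofHom X.𝒰 φ) (ofHom_f X φ) := rfl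
lemma hFc3_map (φ : A ⟶ B) :
    (hFc3 X).map φ = H3cmap X (Mor.ofHom X.𝒰 φ) (ofHom_f X φ) := rfl

/-- `loc₁ : H¹ ⟹ P¹` -/
def natLoc₁ : LinFunctor.NatTrans (hF1 (k := k) X.𝒰) (hFP1 X) where
  app N := X.loc₁ N
  naturality φ x := (loc₁_natural X (Mor.ofHom X.𝒰 φ) (ofHom_f X φ) x).symm

/-- `ι₂ : P¹ ⟹ H²_c` -/
def natι₂ : LinFunctor.NatTrans (hFP1 (k := k) X) (hFc2 X) where
  app N := X.ι₂ N
  naturality φ x := (ι₂_natural X (Mor.ofHom X.𝒰 φ) (ofHom_f X φ) x).symm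

/-- `π₂ : H²_c ⟹ H²` -/
def natπ₂ : LinFunctor.NatTrans (hFc2 (k := k) X) (hF2 X.𝒰) where
  app N := X.π₂ N
  naturality φ x := (π₂_natural X (Mor.ofHom X.𝒰 φ) (ofHom_f X φ) x).symm

/-- `loc₂ : H² ⟹ P²` -/
def natLoc₂ : LinFunctor.NatTrans (hF2 (k := k) X.𝒰) (hFP2 X) where
  app N := X.loc₂ N
  naturality φ x := (loc₂_natural X (Mor.ofHom X.𝒰 φ) (ofHom_f X φ) x).symm

/-- `ι₃ : P² ⟹ H³_c` -/
def natι₃ : LinFunctor.NatTrans (hFP2 (k := k) X) (hFc3 X) where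
  app N := X.ι₃ N
  naturality φ x := (ι₃_natural X (Mor.ofHom X.𝒰 φ) (ofHom_f X φ) x).symm

/-- `π₃ : H³_c ⟹ H³` -/
def natπ₃ : LinFunctor.NatTrans (hFc3 (k := k) X) (hF3 X.𝒰) where
  app N := X.π₃ N
  naturality φ x := (π₃_natural X (Mor.ofHom X.𝒰 φ) (ofHom_f X φ) x).symm

/-- `loc₃ : H³ ⟹ P³` -/
def natLoc₃ : LinFunctor.NatTrans (hF3 (k := k) X.𝒰) (hFP3 X) where
  app N := X.loc₃ N
  naturality φ x := (loc₃_natural X (Mor.ofHom X.𝒰 φ) (ofHom_f X φ) x).symm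

@[simp] lemma natLoc₁_app (N : Rep.{0, 0, 0} k X.G) : (natLoc₁ X).app N = X.loc₁ N := rfl
@[simp] lemma natι₂_app (N : Rep.{0, 0, 0} k X.G) : (natι₂ X).app N = X.ι₂ N := rfl
@[simp] lemma natπ₂_app (N : Rep.{0, 0, 0} k X.G) : (natπ₂ X).app N = X.π₂ N := rfl
@[simp] lemma natLoc₂_app (N : Rep.{0, 0, 0} k X.G) : (natLoc₂ X).app N = X.loc₂ N := rfl
@[simp] lemma natι₃_app (N : Rep.{0, 0, 0} k X.G) : (natι₃ X).app N = X.ι₃ N := rfl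
@[simp] lemma natπ₃_app (N : Rep.{0, 0, 0} k X.G) : (natπ₃ X).app N = X.π₃ N := rfl
@[simp] lemma natLoc₃_app (N : Rep.{0, 0, 0} k X.G) : (natLoc₃ X).app N = X.loc₃ N := rfl

end Package

/-! ### additivity over `Perm.powRep` for an arbitrary natural transformation -/

section Pow

universe w

variable {G : Type} [Group G] {T T' : LinFunctor.{1, 0, w} k (Rep.{0, 0, 0} k G)}
  (η : LinFunctor.NatTrans T T') (M : Rep.{0, 0, 0} k G) (d : ℕ)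

/-- a natural transformation which is injective on `M` is injective on `M^d` -/
theorem injective_pow (h : Function.Injective (η.app M)) :
    Function.Injective (η.app (Perm.powRep M d)) :=
  η.injective_of_total (Perm.powι M d) (Perm.powπ M d) (Perm.sum_powπ_powι M d) fun _ => h

/-- a natural transformation which is surjective on `M` is surjective on `M^d` -/
theorem surjective_pow (h : Function.Surjective (η.app M)) :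
    Function.Surjective (η.app (Perm.powRep M d)) :=
  η.surjective_of_total (Perm.powι M d) (Perm.powπ M d) (Perm.sum_powπ_powι M d) fun _ => h

/-- a natural transformation which is bijective on `M` is bijective on `M^d` -/
theorem bijective_pow (h : Function.Bijective (η.app M)) :
    Function.Bijective (η.app (Perm.powRep M d)) :=
  η.bijective_of_total (Perm.powι M d) (Perm.powπ M d) (Perm.sum_powπ_powι M d) fun _ => h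

/-- the permutation-module version: bijective on `k[G/P]` gives bijective on `k[G/P]^d` -/
theorem bijective_permPow (P : Subgroup G) (h : Function.Bijective (η.app (Perm.perm k P))) :
    Function.Bijective (η.app (Perm.permPow k P d)) :=
  bijective_pow η _ d h

end Pow

end Fermat.Agent.S55.Formal.ConeFunctor
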