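import Mathlib
import Fermat.Agent.S55.Formal.Site
import Fermat.Agent.S55.Formal.CoefLES

/-!
# S55 / Formal / ConeSES: compactly supported cohomology in the coefficient variable

For a `Site` `X` and a `Mor` `α : A → B` over the identity of `X.G`:
* `dmap₀..dmap₄ : X.D_j A → X.D_j B`, `kmap₁..kmap₄` on the cone pieces, commuting with all
  differentials and with the restriction maps;
* induced maps `P1map P2map P3map`, `H2cmap H3cmap`, compatible with `loc_j`, `ι_j`, `π_j`.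

For a short exact sequence (`CoefLES.IsCoefSES α β`):
* `isSESc` : the cone window `(k₁, k₂, k₃)` is a `SnakeWindow.IsSES`;
  `isSESD` : the local product window `(e₀, e₁, e₂)` too;
* `δc : H²_c(C) → H³_c(A)`, `δP : P¹(C) → P²(A)` with exactness
  `H²_c(A) → H²_c(B) → H²_c(C) -δc→ H³_c(A) → H³_c(B) → H³_c(C)`,
  and the compatibilities `π₃ ∘ δc = δ₂ ∘ π₂`, `δc ∘ ι₂ = - ι₃ ∘ δP`.
-/

set_option autoImplicit false

open CategoryTheory groupCohomology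

namespace Fermat.Agent.S55.Formal.ConeSES

open Fermat.Agent.S55.Formal Fermat.Agent.S55.Formal.CoefLES

variable {k : Type} [CommRing k] (X : Site) {A B C : Rep.{0, 0, 0} k X.G}

section SiteOf

variable (M : Rep.{0, 0, 0} k X.G)

lemma e₁_r₁ (a : ↥(C₁ X.𝒰 M)) (ha : dC₁ X.𝒰 M a = 0) : X.e₁ M (X.r₁ M a) = 0 := by
  have := LinearMap.congr_fun (X.r₂_dC₁ M) a
  simp only [LinearMap.comp_apply] at this
  rw [← this, ha, map_zero]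

lemma e₂_r₂ (a : ↥(C₂ X.𝒰 M)) (ha : dC₂ X.𝒰 M a = 0) : X.e₂ M (X.r₂ M a) = 0 := by
  have := LinearMap.congr_fun (X.r₃_dC₂ M) a
  simp only [LinearMap.comp_apply] at this
  rw [← this, ha, map_zero]

lemma e₃_r₃ (a : ↥(C₃ X.𝒰 M)) (ha : dC₃ X.𝒰 M a = 0) : X.e₃ M (X.r₃ M a) = 0 := by
  have := LinearMap.congr_fun (X.r₄_dC₃ M) a
  simp only [LinearMap.comp_apply] at this
  rw [← this, ha, map_zero]

lemma k₂_inr (b : X.D₁ M) (hb : X.e₁ M b = 0) : X.k₂ M ((0 : ↥(C₂ X.𝒰 M)), b) = 0 := by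
  simp [hb]

lemma k₃_inr (b : X.D₂ M) (hb : X.e₂ M b = 0) : X.k₃ M ((0 : ↥(C₃ X.𝒰 M)), b) = 0 := by
  simp [hb]

lemma dC₂_fst (x : ↥(C₂ X.𝒰 M) × X.D₁ M) (hx : X.k₂ M x = 0) : dC₂ X.𝒰 M x.1 = 0 :=
  congrArg Prod.fst hx

lemma dC₃_fst (x : ↥(C₃ X.𝒰 M) × X.D₂ M) (hx : X.k₃ M x = 0) : dC₃ X.𝒰 M x.1 = 0 :=
  congrArg Prod.fst hx

theorem loc₁_of (a : ↥(C₁ X.𝒰 M)) (ha : dC₁ X.𝒰 M a = 0) :
    X.loc₁ M (Hmid.of a ha) = Hmid.of (X.r₁ M a) (e₁_r₁ X M a ha) := rfl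

theorem loc₂_of (a : ↥(C₂ X.𝒰 M)) (ha : dC₂ X.𝒰 M a = 0) :
    X.loc₂ M (Hmid.of a ha) = Hmid.of (X.r₂ M a) (e₂_r₂ X M a ha) := rfl

theorem loc₃_of (a : ↥(C₃ X.𝒰 M)) (ha : dC₃ X.𝒰 M a = 0) :
    X.loc₃ M (Hmid.of a ha) = Hmid.of (X.r₃ M a) (e₃_r₃ X M a ha) := rfl

theorem ι₂_of (b : X.D₁ M) (hb : X.e₁ M b = 0) :
    X.ι₂ M (Hmid.of b hb) = Hmid.of ((0 : ↥(C₂ X.𝒰 M)), b) (k₂_inr X M b hb) := rfl

theorem ι₃_of (b : X.D₂ M) (hb : X.e₂ M b = 0) :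
    X.ι₃ M (Hmid.of b hb) = Hmid.of ((0 : ↥(C₃ X.𝒰 M)), b) (k₃_inr X M b hb) := rfl

theorem π₂_of (x : ↥(C₂ X.𝒰 M) × X.D₁ M) (hx : X.k₂ M x = 0) :
    X.π₂ M (Hmid.of x hx) = Hmid.of x.1 (dC₂_fst X M x hx) := rfl

theorem π₃_of (x : ↥(C₃ X.𝒰 M) × X.D₂ M) (hx : X.k₃ M x = 0) :
    X.π₃ M (Hmid.of x hx) = Hmid.of x.1 (dC₃_fst X M x hx) := rfl

end SiteOf

section Functor

variable (α : Mor X.𝒰 A X.𝒰 B) (hα : ∀ g, α.f g = g)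

/-- the local morphism at `v` induced by a coefficient morphism -/
def locMor (v : X.I) : Mor (X.𝒱 v) (X.loc A v) (X.𝒱 v) (X.loc B v) :=
  resMor (X.𝒱 v) (X.ι v) α hα

/-- the restriction square at `v` -/
theorem sq (v : X.I) : CommSq α (X.res A v) (X.res B v) (locMor X α hα v) :=
  commSq_res (X.𝒱 v) (X.ι v) α hα (X.cont v)

/-- `D₀ A → D₀ B` -/
def dmap₀ : X.D₀ A →ₗ[k] X.D₀ B := LinearMap.pi fun v => (locMor X α hα v).c₀ ∘ₗ LinearMap.proj v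
/-- `D₁ A → D₁ B` -/
def dmap₁ : X.D₁ A →ₗ[k] X.D₁ B := LinearMap.pi fun v => (locMor X α hα v).c₁ ∘ₗ LinearMap.proj v
/-- `D₂ A → D₂ B` -/
def dmap₂ : X.D₂ A →ₗ[k] X.D₂ B := LinearMap.pi fun v => (locMor X α hα v).c₂ ∘ₗ LinearMap.proj v
/-- `D₃ A → D₃ B` -/
def dmap₃ : X.D₃ A →ₗ[k] X.D₃ B := LinearMap.pi fun v => (locMor X α hα v).c₃ ∘ₗ LinearMap.proj v
/-- `D₄ A → D₄ B` -/
def dmap₄ : X.D₄ A →ₗ[k] X.D₄ B := LinearMap.pi fun v => (locMor X α hα v).p₄ ∘ₗ LinearMap.proj v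

@[simp] lemma dmap₀_apply (b : X.D₀ A) (v : X.I) :
    dmap₀ X α hα b v = (locMor X α hα v).c₀ (b v) := rfl
@[simp] lemma dmap₁_apply (b : X.D₁ A) (v : X.I) :
    dmap₁ X α hα b v = (locMor X α hα v).c₁ (b v) := rfl
@[simp] lemma dmap₂_apply (b : X.D₂ A) (v : X.I) :
    dmap₂ X α hα b v = (locMor X α hα v).c₂ (b v) := rfl
@[simp] lemma dmap₃_apply (b : X.D₃ A) (v : X.I) :
    dmap₃ X α hα b v = (locMor X α hα v).c₃ (b v) := rfl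
@[simp] lemma dmap₄_apply (b : X.D₄ A) (v : X.I) :
    dmap₄ X α hα b v = (locMor X α hα v).p₄ (b v) := rfl

/-! #### commutation with the local differentials -/

lemma e₀_dmap (b : X.D₀ A) : X.e₀ B (dmap₀ X α hα b) = dmap₁ X α hα (X.e₀ A b) := by
  funext v
  exact (LinearMap.congr_fun (locMor X α hα v).c₁_dC₀ (b v)).symm

lemma e₁_dmap (b : X.D₁ A) : X.e₁ B (dmap₁ X α hα b) = dmap₂ X α hα (X.e₁ A b) := by
  funext v
  exact (LinearMap.congr_fun (locMor X α hα v).c₂_dC₁ (b v)).symm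

lemma e₂_dmap (b : X.D₂ A) : X.e₂ B (dmap₂ X α hα b) = dmap₃ X α hα (X.e₂ A b) := by
  funext v
  exact (LinearMap.congr_fun (locMor X α hα v).c₃_dC₂ (b v)).symm

lemma e₃_dmap (b : X.D₃ A) : X.e₃ B (dmap₃ X α hα b) = dmap₄ X α hα (X.e₃ A b) := by
  funext v
  exact (LinearMap.congr_fun (locMor X α hα v).p₄_dC₃ (b v)).symm

/-! #### commutation with the restriction maps -/

lemma r₀_c₀ (a : ↥(C₀ X.𝒰 A)) : X.r₀ B (α.c₀ a) = dmap₀ X α hα (X.r₀ A a) := by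
  funext v
  exact (sq X α hα v).c₀ a

lemma r₁_c₁ (a : ↥(C₁ X.𝒰 A)) : X.r₁ B (α.c₁ a) = dmap₁ X α hα (X.r₁ A a) := by
  funext v
  exact (sq X α hα v).c₁ a

lemma r₂_c₂ (a : ↥(C₂ X.𝒰 A)) : X.r₂ B (α.c₂ a) = dmap₂ X α hα (X.r₂ A a) := by
  funext v
  exact (sq X α hα v).c₂ a

lemma r₃_c₃ (a : ↥(C₃ X.𝒰 A)) : X.r₃ B (α.c₃ a) = dmap₃ X α hα (X.r₃ A a) := by
  funext v
  exact (sq X α hα v).c₃ a

/-! #### the maps on the cone pieces -/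

/-- `C₁ × D₀` -/
def kmap₁ : (↥(C₁ X.𝒰 A) × X.D₀ A) →ₗ[k] (↥(C₁ X.𝒰 B) × X.D₀ B) :=
  LinearMap.prodMap α.c₁ (dmap₀ X α hα)
/-- `C₂ × D₁` -/
def kmap₂ : (↥(C₂ X.𝒰 A) × X.D₁ A) →ₗ[k] (↥(C₂ X.𝒰 B) × X.D₁ B) :=
  LinearMap.prodMap α.c₂ (dmap₁ X α hα)
/-- `C₃ × D₂` -/
def kmap₃ : (↥(C₃ X.𝒰 A) × X.D₂ A) →ₗ[k] (↥(C₃ X.𝒰 B) × X.D₂ B) :=
  LinearMap.prodMap α.c₃ (dmap₂ X α hα)
/-- `C₄ × D₃` -/
def kmap₄ : ((X.G × X.G × X.G × X.G → A) × X.D₃ A) →ₗ[k]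
    ((X.G × X.G × X.G × X.G → B) × X.D₃ B) :=
  LinearMap.prodMap α.p₄ (dmap₃ X α hα)

@[simp] lemma kmap₁_apply (x : ↥(C₁ X.𝒰 A) × X.D₀ A) :
    kmap₁ X α hα x = (α.c₁ x.1, dmap₀ X α hα x.2) := rfl
@[simp] lemma kmap₂_apply (x : ↥(C₂ X.𝒰 A) × X.D₁ A) :
    kmap₂ X α hα x = (α.c₂ x.1, dmap₁ X α hα x.2) := rfl
@[simp] lemma kmap₃_apply (x : ↥(C₃ X.𝒰 A) × X.D₂ A) :
    kmap₃ X α hα x = (α.c₃ x.1, dmap₂ X α hα x.2) := rfl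
@[simp] lemma kmap₄_apply (x : (X.G × X.G × X.G × X.G → A) × X.D₃ A) :
    kmap₄ X α hα x = (α.p₄ x.1, dmap₃ X α hα x.2) := rfl

lemma k₁_kmap (x : ↥(C₁ X.𝒰 A) × X.D₀ A) :
    X.k₁ B (kmap₁ X α hα x) = kmap₂ X α hα (X.k₁ A x) := by
  refine Prod.ext ?_ ?_
  · exact (LinearMap.congr_fun α.c₂_dC₁ x.1).symm
  · simp only [Site.k₁_apply, kmap₁_apply, kmap₂_apply, map_sub, r₁_c₁ X α hα, e₀_dmap]

lemma k₂_kmap (x : ↥(C₂ X.𝒰 A) × X.D₁ A) :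
    X.k₂ B (kmap₂ X α hα x) = kmap₃ X α hα (X.k₂ A x) := by
  refine Prod.ext ?_ ?_
  · exact (LinearMap.congr_fun α.c₃_dC₂ x.1).symm
  · simp only [Site.k₂_apply, kmap₂_apply, kmap₃_apply, map_sub, r₂_c₂ X α hα, e₁_dmap]

lemma k₃_kmap (x : ↥(C₃ X.𝒰 A) × X.D₂ A) :
    X.k₃ B (kmap₃ X α hα x) = kmap₄ X α hα (X.k₃ A x) := by
  refine Prod.ext ?_ ?_
  · exact (LinearMap.congr_fun α.p₄_dC₃ x.1).symm
  · simp only [Site.k₃_apply, kmap₃_apply, kmap₄_apply, map_sub, r₃_c₃ X α hα, e₂_dmap]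

/-! #### the induced maps on cohomology -/

/-- `P¹(A) → P¹(B)` -/
def P1map : X.P1 A →ₗ[k] X.P1 B :=
  Hmid.map (dmap₁ X α hα) (fun b hb => by rw [e₁_dmap, hb, map_zero])
    (fun a => ⟨dmap₀ X α hα a, e₀_dmap X α hα a⟩)

/-- `P²(A) → P²(B)` -/
def P2map : X.P2 A →ₗ[k] X.P2 B :=
  Hmid.map (dmap₂ X α hα) (fun b hb => by rw [e₂_dmap, hb, map_zero])
    (fun a => ⟨dmap₁ X α hα a, e₁_dmap X α hα a⟩)

/-- `P³(A) → P³(B)` -/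
def P3map : X.P3 A →ₗ[k] X.P3 B :=
  Hmid.map (dmap₃ X α hα) (fun b hb => by rw [e₃_dmap, hb, map_zero])
    (fun a => ⟨dmap₂ X α hα a, e₂_dmap X α hα a⟩)

/-- `H²_c(A) → H²_c(B)` -/
def H2cmap : X.H2c A →ₗ[k] X.H2c B :=
  Hmid.map (kmap₂ X α hα) (fun b hb => by rw [k₂_kmap, hb, map_zero])
    (fun a => ⟨kmap₁ X α hα a, k₁_kmap X α hα a⟩)

/-- `H³_c(A) → H³_c(B)` -/
def H3cmap : X.H3c A →ₗ[k] X.H3c B :=
  Hmid.map (kmap₃ X α hα) (fun b hb => by rw [k₃_kmap, hb, map_zero])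
    (fun a => ⟨kmap₂ X α hα a, k₂_kmap X α hα a⟩)

lemma e₁_dmap_eq_zero (b : X.D₁ A) (hb : X.e₁ A b = 0) : X.e₁ B (dmap₁ X α hα b) = 0 := by
  rw [e₁_dmap, hb, map_zero]

lemma e₂_dmap_eq_zero (b : X.D₂ A) (hb : X.e₂ A b = 0) : X.e₂ B (dmap₂ X α hα b) = 0 := by
  rw [e₂_dmap, hb, map_zero]

lemma e₃_dmap_eq_zero (b : X.D₃ A) (hb : X.e₃ A b = 0) : X.e₃ B (dmap₃ X α hα b) = 0 := by
  rw [e₃_dmap, hb, map_zero]

lemma k₂_kmap_eq_zero (x : ↥(C₂ X.𝒰 A) × X.D₁ A) (hx : X.k₂ A x = 0) :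
    X.k₂ B (kmap₂ X α hα x) = 0 := by
  rw [k₂_kmap, hx, map_zero]

lemma k₃_kmap_eq_zero (x : ↥(C₃ X.𝒰 A) × X.D₂ A) (hx : X.k₃ A x = 0) :
    X.k₃ B (kmap₃ X α hα x) = 0 := by
  rw [k₃_kmap, hx, map_zero]

theorem P1map_of (b : X.D₁ A) (hb : X.e₁ A b = 0) :
    P1map X α hα (Hmid.of b hb) = Hmid.of (dmap₁ X α hα b) (e₁_dmap_eq_zero X α hα b hb) := rfl

theorem P2map_of (b : X.D₂ A) (hb : X.e₂ A b = 0) :
    P2map X α hα (Hmid.of b hb) = Hmid.of (dmap₂ X α hα b) (e₂_dmap_eq_zero X α hα b hb) := rfl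

theorem P3map_of (b : X.D₃ A) (hb : X.e₃ A b = 0) :
    P3map X α hα (Hmid.of b hb) = Hmid.of (dmap₃ X α hα b) (e₃_dmap_eq_zero X α hα b hb) := rfl

theorem H2cmap_of (x : ↥(C₂ X.𝒰 A) × X.D₁ A) (hx : X.k₂ A x = 0) :
    H2cmap X α hα (Hmid.of x hx) = Hmid.of (kmap₂ X α hα x) (k₂_kmap_eq_zero X α hα x hx) := rfl

theorem H3cmap_of (x : ↥(C₃ X.𝒰 A) × X.D₂ A) (hx : X.k₃ A x = 0) :
    H3cmap X α hα (Hmid.of x hx) = Hmid.of (kmap₃ X α hα x) (k₃_kmap_eq_zero X α hα x hx) := rfl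

/-! #### naturality of the 8-term sequence in the coefficients -/

theorem loc₁_natural (x : H1 X.𝒰 A) : X.loc₁ B (α.h1 x) = P1map X α hα (X.loc₁ A x) := by
  obtain ⟨a, ha, rfl⟩ := Hmid.exists_of x
  rw [h1_of, loc₁_of, loc₁_of, P1map_of]
  exact Hmid.of_eq_of_iff.2 ⟨0, by rw [map_zero, r₁_c₁ X α hα, sub_self]⟩

theorem loc₂_natural (x : H2 X.𝒰 A) : X.loc₂ B (α.h2 x) = P2map X α hα (X.loc₂ A x) := by
  obtain ⟨a, ha, rfl⟩ := Hmid.exists_of x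
  rw [h2_of, loc₂_of, loc₂_of, P2map_of]
  exact Hmid.of_eq_of_iff.2 ⟨0, by rw [map_zero, r₂_c₂ X α hα, sub_self]⟩

theorem loc₃_natural (x : H3 X.𝒰 A) : X.loc₃ B (α.h3 x) = P3map X α hα (X.loc₃ A x) := by
  obtain ⟨a, ha, rfl⟩ := Hmid.exists_of x
  rw [h3_of, loc₃_of, loc₃_of, P3map_of]
  exact Hmid.of_eq_of_iff.2 ⟨0, by rw [map_zero, r₃_c₃ X α hα, sub_self]⟩

theorem ι₂_natural (x : X.P1 A) : X.ι₂ B (P1map X α hα x) = H2cmap X α hα (X.ι₂ A x) := by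
  obtain ⟨b, hb, rfl⟩ := Hmid.exists_of x
  rw [P1map_of, ι₂_of, ι₂_of, H2cmap_of]
  exact Hmid.of_eq_of_iff.2 ⟨0, by simp⟩

theorem ι₃_natural (x : X.P2 A) : X.ι₃ B (P2map X α hα x) = H3cmap X α hα (X.ι₃ A x) := by
  obtain ⟨b, hb, rfl⟩ := Hmid.exists_of x
  rw [P2map_of, ι₃_of, ι₃_of, H3cmap_of]
  exact Hmid.of_eq_of_iff.2 ⟨0, by simp⟩

theorem π₂_natural (x : X.H2c A) : X.π₂ B (H2cmap X α hα x) = α.h2 (X.π₂ A x) := by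
  obtain ⟨y, hy, rfl⟩ := Hmid.exists_of x
  rw [H2cmap_of, π₂_of, π₂_of, h2_of]
  rfl

theorem π₃_natural (x : X.H3c A) : X.π₃ B (H3cmap X α hα x) = α.h3 (X.π₃ A x) := by
  obtain ⟨y, hy, rfl⟩ := Hmid.exists_of x
  rw [H3cmap_of, π₃_of, π₃_of, h3_of]
  rfl

end Functor

section SES

variable {α : Mor X.𝒰 A X.𝒰 B} {β : Mor X.𝒰 B X.𝒰 C} (h : IsCoefSES α β)

/-- the restricted short exact sequence at the place `v` -/
theorem locSES (v : X.I) : IsCoefSES (locMor X α h.fα v) (locMor X β h.fβ v) :=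
  h.res (X.𝒱 v) (X.ι v) (X.cont v)

/-! #### degreewise exactness of the local product complex -/

theorem dmap₀_surjective : Function.Surjective (dmap₀ X β h.fβ) := fun y =>
  ⟨fun v => (c₀_surjective (locSES X h v) (y v)).choose,
    funext fun v => (c₀_surjective (locSES X h v) (y v)).choose_spec⟩

theorem dmap₁_surjective : Function.Surjective (dmap₁ X β h.fβ) := fun y =>
  ⟨fun v => (c₁_surjective (locSES X h v) (y v)).choose,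
    funext fun v => (c₁_surjective (locSES X h v) (y v)).choose_spec⟩

theorem dmap₂_surjective : Function.Surjective (dmap₂ X β h.fβ) := fun y =>
  ⟨fun v => (c₂_surjective (locSES X h v) (y v)).choose,
    funext fun v => (c₂_surjective (locSES X h v) (y v)).choose_spec⟩

theorem dmap₁_injective : Function.Injective (dmap₁ X α h.fα) := fun _ _ hxy =>
  funext fun v => c₁_injective (locSES X h v) (congrFun hxy v)

theorem dmap₂_injective : Function.Injective (dmap₂ X α h.fα) := fun _ _ hxy =>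
  funext fun v => c₂_injective (locSES X h v) (congrFun hxy v)

theorem dmap₃_injective : Function.Injective (dmap₃ X α h.fα) := fun _ _ hxy =>
  funext fun v => c₃_injective (locSES X h v) (congrFun hxy v)

theorem exact_dmap₀ : Function.Exact (dmap₀ X α h.fα) (dmap₀ X β h.fβ) := by
  intro y
  constructor
  · intro hy
    have : ∀ v, ∃ a, (locMor X α h.fα v).c₀ a = y v := fun v =>
      (exact_c₀ (locSES X h v) (y v)).1 (congrFun hy v)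
    exact ⟨fun v => (this v).choose, funext fun v => (this v).choose_spec⟩
  · rintro ⟨a, rfl⟩
    funext v
    exact (exact_c₀ (locSES X h v) _).2 ⟨a v, rfl⟩

theorem exact_dmap₁ : Function.Exact (dmap₁ X α h.fα) (dmap₁ X β h.fβ) := by
  intro y
  constructor
  · intro hy
    have : ∀ v, ∃ a, (locMor X α h.fα v).c₁ a = y v := fun v =>
      (exact_c₁ (locSES X h v) (y v)).1 (congrFun hy v)
    exact ⟨fun v => (this v).choose, funext fun v => (this v).choose_spec⟩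
  · rintro ⟨a, rfl⟩
    funext v
    exact (exact_c₁ (locSES X h v) _).2 ⟨a v, rfl⟩

theorem exact_dmap₂ : Function.Exact (dmap₂ X α h.fα) (dmap₂ X β h.fβ) := by
  intro y
  constructor
  · intro hy
    have : ∀ v, ∃ a, (locMor X α h.fα v).c₂ a = y v := fun v =>
      (exact_c₂ (locSES X h v) (y v)).1 (congrFun hy v)
    exact ⟨fun v => (this v).choose, funext fun v => (this v).choose_spec⟩
  · rintro ⟨a, rfl⟩
    funext v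
    exact (exact_c₂ (locSES X h v) _).2 ⟨a v, rfl⟩

/-- The local product window `(e₀, e₁, e₂)` is a short exact sequence of windows. -/
theorem isSESD : SnakeWindow.IsSES (X.e₀ A) (X.e₁ A) (X.e₂ A) (X.e₀ B) (X.e₁ B) (X.e₂ B)
    (X.e₀ C) (X.e₁ C) (X.e₂ C)
    (dmap₀ X α h.fα) (dmap₁ X α h.fα) (dmap₂ X α h.fα) (dmap₃ X α h.fα)
    (dmap₀ X β h.fβ) (dmap₁ X β h.fβ) (dmap₂ X β h.fβ) (dmap₃ X β h.fβ) where
  aa1 := LinearMap.congr_fun (X.e₁_e₀ A)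
  aa2 := LinearMap.congr_fun (X.e₂_e₁ A)
  bb1 := LinearMap.congr_fun (X.e₁_e₀ B)
  bb2 := LinearMap.congr_fun (X.e₂_e₁ B)
  cc1 := LinearMap.congr_fun (X.e₁_e₀ C)
  cc2 := LinearMap.congr_fun (X.e₂_e₁ C)
  ia0 := e₀_dmap X α h.fα
  ia1 := e₁_dmap X α h.fα
  ia2 := e₂_dmap X α h.fα
  pb0 := e₀_dmap X β h.fβ
  pb1 := e₁_dmap X β h.fβ
  pb2 := e₂_dmap X β h.fβ
  inj2 := dmap₂_injective X h
  inj3 := dmap₃_injective X h
  surj0 := dmap₀_surjective X h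
  surj1 := dmap₁_surjective X h
  ex1 := exact_dmap₁ X h
  ex2 := exact_dmap₂ X h

/-! #### the cone window -/

theorem k₂_k₁ (M : Rep.{0, 0, 0} k X.G) (x : ↥(C₁ X.𝒰 M) × X.D₀ M) : X.k₂ M (X.k₁ M x) = 0 :=
  LinearMap.congr_fun (ConeWindow.coneD_comp_coneD (dC₁ X.𝒰 M) (dC₂ X.𝒰 M) (X.e₀ M) (X.e₁ M)
    (X.r₁ M) (X.r₂ M) (LinearMap.ext (dC₂_dC₁ X.𝒰 M)) (X.e₁_e₀ M) (X.r₂_dC₁ M)) x

theorem k₃_k₂ (M : Rep.{0, 0, 0} k X.G) (x : ↥(C₂ X.𝒰 M) × X.D₁ M) : X.k₃ M (X.k₂ M x) = 0 :=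
  LinearMap.congr_fun (ConeWindow.coneD_comp_coneD (dC₂ X.𝒰 M) (dC₃ X.𝒰 M) (X.e₁ M) (X.e₂ M)
    (X.r₂ M) (X.r₃ M) (LinearMap.ext (dC₃_dC₂ X.𝒰 M)) (X.e₂_e₁ M) (X.r₃_dC₂ M)) x

theorem exact_kmap₂ : Function.Exact (kmap₂ X α h.fα) (kmap₂ X β h.fβ) := by
  intro y
  constructor
  · intro hy
    obtain ⟨a, ha⟩ := (exact_c₂ h y.1).1 (congrArg Prod.fst hy)
    obtain ⟨b, hb⟩ := (exact_dmap₁ X h y.2).1 (congrArg Prod.snd hy)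
    exact ⟨(a, b), Prod.ext ha hb⟩
  · rintro ⟨a, rfl⟩
    exact Prod.ext ((exact_c₂ h _).2 ⟨a.1, rfl⟩) ((exact_dmap₁ X h _).2 ⟨a.2, rfl⟩)

theorem exact_kmap₃ : Function.Exact (kmap₃ X α h.fα) (kmap₃ X β h.fβ) := by
  intro y
  constructor
  · intro hy
    obtain ⟨a, ha⟩ := (exact_c₃ h y.1).1 (congrArg Prod.fst hy)
    obtain ⟨b, hb⟩ := (exact_dmap₂ X h y.2).1 (congrArg Prod.snd hy)
    exact ⟨(a, b), Prod.ext ha hb⟩
  · rintro ⟨a, rfl⟩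
    exact Prod.ext ((exact_c₃ h _).2 ⟨a.1, rfl⟩) ((exact_dmap₂ X h _).2 ⟨a.2, rfl⟩)

/-- The cone window `(k₁, k₂, k₃)` is a short exact sequence of windows. -/
theorem isSESc : SnakeWindow.IsSES (X.k₁ A) (X.k₂ A) (X.k₃ A) (X.k₁ B) (X.k₂ B) (X.k₃ B)
    (X.k₁ C) (X.k₂ C) (X.k₃ C)
    (kmap₁ X α h.fα) (kmap₂ X α h.fα) (kmap₃ X α h.fα) (kmap₄ X α h.fα)
    (kmap₁ X β h.fβ) (kmap₂ X β h.fβ) (kmap₃ X β h.fβ) (kmap₄ X β h.fβ) where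
  aa1 := k₂_k₁ X A
  aa2 := k₃_k₂ X A
  bb1 := k₂_k₁ X B
  bb2 := k₃_k₂ X B
  cc1 := k₂_k₁ X C
  cc2 := k₃_k₂ X C
  ia0 := k₁_kmap X α h.fα
  ia1 := k₂_kmap X α h.fα
  ia2 := k₃_kmap X α h.fα
  pb0 := k₁_kmap X β h.fβ
  pb1 := k₂_kmap X β h.fβ
  pb2 := k₃_kmap X β h.fβ
  inj2 := fun x y hxy => Prod.ext (c₃_injective h (congrArg Prod.fst hxy))
    (dmap₂_injective X h (congrArg Prod.snd hxy))
  inj3 := fun x y hxy => Prod.ext (p₄_injective h (congrArg Prod.fst hxy))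
    (dmap₃_injective X h (congrArg Prod.snd hxy))
  surj0 := fun y => by
    obtain ⟨a, ha⟩ := c₁_surjective h y.1
    obtain ⟨b, hb⟩ := dmap₀_surjective X h y.2
    exact ⟨(a, b), Prod.ext ha hb⟩
  surj1 := fun y => by
    obtain ⟨a, ha⟩ := c₂_surjective h y.1
    obtain ⟨b, hb⟩ := dmap₁_surjective X h y.2
    exact ⟨(a, b), Prod.ext ha hb⟩
  ex1 := exact_kmap₂ X h
  ex2 := exact_kmap₃ X h

/-- the connecting map `H²_c(C) → H³_c(A)` -/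
noncomputable def δc : X.H2c C →ₗ[k] X.H3c A := SnakeWindow.delta (isSESc X h)

/-- the connecting map `P¹(C) → P²(A)` of the local product complex -/
noncomputable def δP : X.P1 C →ₗ[k] X.P2 A := SnakeWindow.delta (isSESD X h)

/-- Formula for `δc`: if `k₂ y = kmap₃ α x` then `δc [kmap₂ β y] = [x]`. -/
theorem δc_of (y : ↥(C₂ X.𝒰 B) × X.D₁ B) (x : ↥(C₃ X.𝒰 A) × X.D₂ A)
    (hyx : X.k₂ B y = kmap₃ X α h.fα x) (h1 : X.k₂ C (kmap₂ X β h.fβ y) = 0)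
    (h2 : X.k₃ A x = 0) :
    δc X h (Hmid.of (kmap₂ X β h.fβ y) h1) = Hmid.of x h2 :=
  SnakeWindow.delta_of (isSESc X h) hyx

/-- Formula for `δP`. -/
theorem δP_of (y : X.D₁ B) (x : X.D₂ A)
    (hyx : X.e₁ B y = dmap₂ X α h.fα x) (h1 : X.e₁ C (dmap₁ X β h.fβ y) = 0)
    (h2 : X.e₂ A x = 0) :
    δP X h (Hmid.of (dmap₁ X β h.fβ y) h1) = Hmid.of x h2 :=
  SnakeWindow.delta_of (isSESD X h) hyx

theorem exact_H2c : Function.Exact (H2cmap X α h.fα) (H2cmap X β h.fβ) :=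
  SnakeWindow.exact_Hi1_Hp1 (isSESc X h)

theorem exact_H2c_δc : Function.Exact (H2cmap X β h.fβ) (δc X h) :=
  SnakeWindow.exact_Hp1_delta (isSESc X h)

theorem exact_δc_H3c : Function.Exact (δc X h) (H3cmap X α h.fα) :=
  SnakeWindow.exact_delta_Hi2 (isSESc X h)

theorem exact_H3c : Function.Exact (H3cmap X α h.fα) (H3cmap X β h.fβ) :=
  SnakeWindow.exact_Hi2_Hp2 (isSESc X h)

theorem exact_P1 : Function.Exact (P1map X α h.fα) (P1map X β h.fβ) :=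
  SnakeWindow.exact_Hi1_Hp1 (isSESD X h)

theorem exact_P1_δP : Function.Exact (P1map X β h.fβ) (δP X h) :=
  SnakeWindow.exact_Hp1_delta (isSESD X h)

theorem exact_δP_P2 : Function.Exact (δP X h) (P2map X α h.fα) :=
  SnakeWindow.exact_delta_Hi2 (isSESD X h)

theorem exact_P2 : Function.Exact (P2map X α h.fα) (P2map X β h.fβ) :=
  SnakeWindow.exact_Hi2_Hp2 (isSESD X h)

/-! #### compatibilities of the connecting maps -/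

/-- `π₃ ∘ δc = δ₂ ∘ π₂ : H²_c(C) → H³(A)`. -/
theorem π₃_δc : (X.π₃ A).comp (δc X h) = (δ₂ h).comp (X.π₂ C) := by
  unfold δc δ₂
  refine (SnakeWindow.delta_natural (isSESc X h) (isSES₂ h)
    (LinearMap.fst k ↥(C₂ X.𝒰 B) (X.D₁ B)) (LinearMap.fst k ↥(C₃ X.𝒰 A) (X.D₂ A))
    (LinearMap.fst k ↥(C₂ X.𝒰 C) (X.D₁ C)) (fun _ => rfl)
    (fun y x hyx => congrArg Prod.fst hyx) (X.π₂ C) (X.π₃ A)
    (fun γ hγ => ⟨_, π₂_of X C γ hγ⟩) (fun γ hγ => ⟨_, π₃_of X A γ hγ⟩)).symm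

/-- `loc₂ ∘ δ₁ = δP ∘ loc₁ : H¹(C) → P²(A)`. -/
theorem loc₂_δ₁ : (X.loc₂ A).comp (δ₁ h) = (δP X h).comp (X.loc₁ C) := by
  unfold δP δ₁
  refine (SnakeWindow.delta_natural (isSES₁ h) (isSESD X h) (X.r₁ B) (X.r₂ A) (X.r₁ C)
    (fun x => (r₁_c₁ X β h.fβ x).symm) (fun y x hyx => ?_) (X.loc₁ C) (X.loc₂ A)
    (fun γ hγ => ⟨_, loc₁_of X C γ hγ⟩) (fun γ hγ => ⟨_, loc₂_of X A γ hγ⟩)).symm
  have := LinearMap.congr_fun (X.r₂_dC₁ B) y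
  simp only [LinearMap.comp_apply] at this
  rw [← this, hyx, r₂_c₂ X α h.fα]

theorem neg_inr_mem (b : X.D₂ A) (hb : X.e₂ A b = 0) :
    X.k₃ A (-((0 : ↥(C₃ X.𝒰 A)), b)) = 0 := by
  rw [map_neg, k₃_inr X A b hb, neg_zero]

/-- `δc ∘ ι₂ = - ι₃ ∘ δP : P¹(C) → H³_c(A)`. -/
theorem δc_ι₂ : (δc X h).comp (X.ι₂ C) = -((X.ι₃ A).comp (δP X h)) := by
  have key := SnakeWindow.delta_natural (isSESD X h) (isSESc X h)
    (LinearMap.inr k ↥(C₂ X.𝒰 B) (X.D₁ B)) (-(LinearMap.inr k ↥(C₃ X.𝒰 A) (X.D₂ A)))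
    (LinearMap.inr k ↥(C₂ X.𝒰 C) (X.D₁ C))
    (fun x => by
      refine Prod.ext ?_ rfl
      change β.c₂ 0 = 0
      exact map_zero _)
    (fun y x hyx => by
      refine Prod.ext ?_ ?_
      · simp
      · simp [hyx])
    (X.ι₂ C) (-(X.ι₃ A))
    (fun γ hγ => ⟨_, ι₂_of X C γ hγ⟩)
    (fun γ hγ => ⟨neg_inr_mem X γ hγ, by
      rw [LinearMap.neg_apply, ι₃_of]
      change -(Hmid.mk _ _ _) = Hmid.mk _ _ _
      rw [← map_neg]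
      rfl⟩)
  unfold δc δP
  rw [key, LinearMap.neg_comp]

end SES

end Fermat.Agent.S55.Formal.ConeSES
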