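import Mathlib
import Fermat.Agent.S55.Formal.ConeSES
import Fermat.Agent.S55.Formal.CoefLES

/-!
# S55 / Formal / ConeRightExact: right exactness at the top of the window

For a short exact sequence of coefficients `0 → A → B → C → 0` (`CoefLES.IsCoefSES α β`):

* `h2_surjective` : (single group) `H³(A) = 0 ⇒ H²(B) → H²(C)` is onto;
* `exact_dmap₃`, `dmap₄_injective` : degree 3 / 4 exactness of the local product complex;
* `P2map_surjective` : `(∀ v, H³(Γ_v, A) = 0) ⇒ P²(B) → P²(C)` is onto;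
* `H3cmap_surjective` : `H³(G, C) = 0 → (∀ v, H³(Γ_v, A) = 0) → H³_c(B) → H³_c(C)` is onto;
* `H3c_rightExact` : the presentation form `H³_c(A) → H³_c(B) → H³_c(C) → 0`.
-/

set_option autoImplicit false

open CategoryTheory groupCohomology

namespace Fermat.Agent.S55.Formal.ConeRightExact

open Fermat.Agent.S55.Formal Fermat.Agent.S55.Formal.CoefLES Fermat.Agent.S55.Formal.ConeSES

section Single

variable {k : Type} [CommRing k] {G : Type} [Group G]
variable {𝒰 : NBasis G} {A B C : Rep.{0, 0, 0} k G}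
variable {α : Mor 𝒰 A 𝒰 B} {β : Mor 𝒰 B 𝒰 C}

/-- Under `Vanish₃`, every class of `H³` is zero. -/
theorem h3_eq_zero (hV : Vanish₃ 𝒰 A) (x : H3 𝒰 A) : x = 0 := by
  obtain ⟨f, hf, rfl⟩ := Hmid.exists_of x
  rw [Hmid.of_eq_zero_iff]
  exact hV f hf

/-- (1) `H³(A) = 0 ⇒ H²(B) → H²(C)` is surjective. -/
theorem h2_surjective (h : IsCoefSES α β) (hV : Vanish₃ 𝒰 A) : Function.Surjective β.h2 := by
  intro x
  exact (exact_h2_δ₂ h x).1 (h3_eq_zero hV _)

end Single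

section SiteSES

variable {k : Type} [CommRing k] (X : Site) {A B C : Rep.{0, 0, 0} k X.G}
variable {α : Mor X.𝒰 A X.𝒰 B} {β : Mor X.𝒰 B X.𝒰 C} (h : IsCoefSES α β)

theorem dmap₃_surjective : Function.Surjective (dmap₃ X β h.fβ) := fun y =>
  ⟨fun v => (c₃_surjective (locSES X h v) (y v)).choose,
    funext fun v => (c₃_surjective (locSES X h v) (y v)).choose_spec⟩

theorem dmap₄_injective : Function.Injective (dmap₄ X α h.fα) := fun _ _ hxy =>
  funext fun v => p₄_injective (locSES X h v) (congrFun hxy v)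

theorem exact_dmap₃ : Function.Exact (dmap₃ X α h.fα) (dmap₃ X β h.fβ) := by
  intro y
  constructor
  · intro hy
    have : ∀ v, ∃ a, (locMor X α h.fα v).c₃ a = y v := fun v =>
      (exact_c₃ (locSES X h v) (y v)).1 (congrFun hy v)
    exact ⟨fun v => (this v).choose, funext fun v => (this v).choose_spec⟩
  · rintro ⟨a, rfl⟩
    funext v
    exact (exact_c₃ (locSES X h v) _).2 ⟨a v, rfl⟩

/-- local `Vanish₃` at all places, in product form: a `3`-cocycle of the product complex is a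
coboundary. -/
theorem exists_e₂_eq (hV : ∀ v, Vanish₃ (X.𝒱 v) (X.loc A v)) (a : X.D₃ A)
    (ha : X.e₃ A a = 0) : ∃ a' : X.D₂ A, X.e₂ A a' = a := by
  have : ∀ v, ∃ b : ↥(C₂ (X.𝒱 v) (X.loc A v)), dC₂ (X.𝒱 v) (X.loc A v) b = a v := fun v =>
    hV v (a v) (congrFun ha v)
  exact ⟨fun v => (this v).choose, funext fun v => (this v).choose_spec⟩

/-- (2) `(∀ v, H³(Γ_v, A) = 0) ⇒ P²(B) → P²(C)` is surjective. -/
theorem P2map_surjective (hV : ∀ v, Vanish₃ (X.𝒱 v) (X.loc A v)) :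
    Function.Surjective (P2map X β h.fβ) := by
  intro x
  obtain ⟨c, hc, rfl⟩ := Hmid.exists_of x
  obtain ⟨b, hb⟩ := dmap₂_surjective X h c
  -- `e₂ b` dies in `D₃ C`, hence comes from `D₃ A`
  have h1 : dmap₃ X β h.fβ (X.e₂ B b) = 0 := by
    rw [← e₂_dmap, hb, hc]
  obtain ⟨a, ha⟩ := (exact_dmap₃ X h (X.e₂ B b)).1 h1
  -- `a` is a cocycle
  have h2 : X.e₃ A a = 0 := by
    apply dmap₄_injective X h
    rw [← e₃_dmap, ha, map_zero]
    exact LinearMap.congr_fun (X.e₃_e₂ B) b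
  obtain ⟨a', ha'⟩ := exists_e₂_eq X hV a h2
  -- corrected lift
  have h3 : X.e₂ B (b - dmap₂ X α h.fα a') = 0 := by
    rw [map_sub, e₂_dmap, ha', ha, sub_self]
  refine ⟨Hmid.of (b - dmap₂ X α h.fα a') h3, ?_⟩
  rw [P2map_of]
  refine Hmid.of_eq_of_iff.2 ⟨0, ?_⟩
  rw [map_zero, map_sub, hb]
  have : dmap₂ X β h.fβ (dmap₂ X α h.fα a') = 0 := (exact_dmap₂ X h _).2 ⟨a', rfl⟩
  rw [this, sub_zero, sub_self]

/-- (3) `H³(G, C) = 0 → (∀ v, H³(Γ_v, A) = 0) → H³_c(B) → H³_c(C)` is surjective. -/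
theorem H3cmap_surjective (hC : Vanish₃ X.𝒰 C) (hV : ∀ v, Vanish₃ (X.𝒱 v) (X.loc A v)) :
    Function.Surjective (H3cmap X β h.fβ) := by
  intro x
  obtain ⟨y, rfl⟩ := X.ι₃_surjective C hC x
  obtain ⟨z, rfl⟩ := P2map_surjective X h hV y
  exact ⟨X.ι₃ B z, (ι₃_natural X β h.fβ z).symm⟩

/-- (4) presentation form: `H³_c(A) → H³_c(B) → H³_c(C) → 0` is exact. -/
theorem H3c_rightExact (hC : Vanish₃ X.𝒰 C) (hV : ∀ v, Vanish₃ (X.𝒱 v) (X.loc A v)) :
    Function.Exact (H3cmap X α h.fα) (H3cmap X β h.fβ) ∧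
      Function.Surjective (H3cmap X β h.fβ) :=
  ⟨exact_H3c X h, H3cmap_surjective X h hC hV⟩

/-- `P²(A) → P²(B) → P²(C) → 0` is exact under the local vanishing. -/
theorem P2_rightExact (hV : ∀ v, Vanish₃ (X.𝒱 v) (X.loc A v)) :
    Function.Exact (P2map X α h.fα) (P2map X β h.fβ) ∧
      Function.Surjective (P2map X β h.fβ) :=
  ⟨exact_P2 X h, P2map_surjective X h hV⟩

end SiteSES

end Fermat.Agent.S55.Formal.ConeRightExact
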