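import Mathlib
import Fermat.Agent.S55.Formal.ConeSES

/-!
# S55 / Formal / ConeSES2: complements to `ConeSES`

* squares: `dmap`, `kmap`, `P_jmap`, `H_jcmap` respect commuting squares of coefficient maps
  (hence composition) and the identity;
* the shifted local window `(e₁, e₂, e₃)`, `δP₂ : P²(C) → P³(A)`, exactness;
* right exactness: `P2map β` and `H3cmap β` are onto under the `Vanish₃` hypotheses;
* naturality of `δc`, `δP` for a morphism of two short exact sequences of coefficients.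
-/

set_option autoImplicit false

open CategoryTheory groupCohomology

namespace Fermat.Agent.S55.Formal.ConeSES2

open Fermat.Agent.S55.Formal Fermat.Agent.S55.Formal.CoefLES Fermat.Agent.S55.Formal.ConeSES

variable {k : Type} [CommRing k] (X : Site)

section Squares

variable {A B A' B' : Rep.{0, 0, 0} k X.G}
  {α : Mor X.𝒰 A X.𝒰 B} {a : Mor X.𝒰 A X.𝒰 A'} {b : Mor X.𝒰 B X.𝒰 B'} {α' : Mor X.𝒰 A' X.𝒰 B'}
  (hα : ∀ g, α.f g = g) (ha : ∀ g, a.f g = g) (hb : ∀ g, b.f g = g) (hα' : ∀ g, α'.f g = g)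
  (sq : CommSq α a b α')

include sq

/-- the local square at `v` -/
theorem locSq (v : X.I) :
    CommSq (locMor X α hα v) (locMor X a ha v) (locMor X b hb v) (locMor X α' hα' v) where
  hf _ := rfl
  hφ := sq.hφ

theorem dmap₀_sq (x : X.D₀ A) :
    dmap₀ X b hb (dmap₀ X α hα x) = dmap₀ X α' hα' (dmap₀ X a ha x) :=
  funext fun v => (locSq X hα ha hb hα' sq v).c₀ (x v)

theorem dmap₁_sq (x : X.D₁ A) :
    dmap₁ X b hb (dmap₁ X α hα x) = dmap₁ X α' hα' (dmap₁ X a ha x) :=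
  funext fun v => (locSq X hα ha hb hα' sq v).c₁ (x v)

theorem dmap₂_sq (x : X.D₂ A) :
    dmap₂ X b hb (dmap₂ X α hα x) = dmap₂ X α' hα' (dmap₂ X a ha x) :=
  funext fun v => (locSq X hα ha hb hα' sq v).c₂ (x v)

theorem dmap₃_sq (x : X.D₃ A) :
    dmap₃ X b hb (dmap₃ X α hα x) = dmap₃ X α' hα' (dmap₃ X a ha x) :=
  funext fun v => (locSq X hα ha hb hα' sq v).c₃ (x v)

theorem kmap₂_sq (x : ↥(C₂ X.𝒰 A) × X.D₁ A) :
    kmap₂ X b hb (kmap₂ X α hα x) = kmap₂ X α' hα' (kmap₂ X a ha x) :=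
  Prod.ext (sq.c₂ x.1) (dmap₁_sq X hα ha hb hα' sq x.2)

theorem kmap₃_sq (x : ↥(C₃ X.𝒰 A) × X.D₂ A) :
    kmap₃ X b hb (kmap₃ X α hα x) = kmap₃ X α' hα' (kmap₃ X a ha x) :=
  Prod.ext (sq.c₃ x.1) (dmap₂_sq X hα ha hb hα' sq x.2)

theorem P1map_sq (x : X.P1 A) :
    P1map X b hb (P1map X α hα x) = P1map X α' hα' (P1map X a ha x) := by
  obtain ⟨y, hy, rfl⟩ := Hmid.exists_of x
  rw [P1map_of, P1map_of, P1map_of, P1map_of]
  exact Hmid.of_eq_of_iff.2 ⟨0, by rw [map_zero, dmap₁_sq X hα ha hb hα' sq, sub_self]⟩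

theorem P2map_sq (x : X.P2 A) :
    P2map X b hb (P2map X α hα x) = P2map X α' hα' (P2map X a ha x) := by
  obtain ⟨y, hy, rfl⟩ := Hmid.exists_of x
  rw [P2map_of, P2map_of, P2map_of, P2map_of]
  exact Hmid.of_eq_of_iff.2 ⟨0, by rw [map_zero, dmap₂_sq X hα ha hb hα' sq, sub_self]⟩

theorem P3map_sq (x : X.P3 A) :
    P3map X b hb (P3map X α hα x) = P3map X α' hα' (P3map X a ha x) := by
  obtain ⟨y, hy, rfl⟩ := Hmid.exists_of x
  rw [P3map_of, P3map_of, P3map_of, P3map_of]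
  exact Hmid.of_eq_of_iff.2 ⟨0, by rw [map_zero, dmap₃_sq X hα ha hb hα' sq, sub_self]⟩

theorem H2cmap_sq (x : X.H2c A) :
    H2cmap X b hb (H2cmap X α hα x) = H2cmap X α' hα' (H2cmap X a ha x) := by
  obtain ⟨y, hy, rfl⟩ := Hmid.exists_of x
  rw [H2cmap_of, H2cmap_of, H2cmap_of, H2cmap_of]
  exact Hmid.of_eq_of_iff.2 ⟨0, by rw [map_zero, kmap₂_sq X hα ha hb hα' sq, sub_self]⟩

theorem H3cmap_sq (x : X.H3c A) :
    H3cmap X b hb (H3cmap X α hα x) = H3cmap X α' hα' (H3cmap X a ha x) := by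
  obtain ⟨y, hy, rfl⟩ := Hmid.exists_of x
  rw [H3cmap_of, H3cmap_of, H3cmap_of, H3cmap_of]
  exact Hmid.of_eq_of_iff.2 ⟨0, by rw [map_zero, kmap₃_sq X hα ha hb hα' sq, sub_self]⟩

end Squares

section Triangles

/-! #### identity and composition (triangle form: `γ = β ∘ α` on coefficients) -/

variable {G : Type} [Group G] {𝒰 : NBasis G} {A B C : Rep.{0, 0, 0} k G}
  {α : Mor 𝒰 A 𝒰 B} {β : Mor 𝒰 B 𝒰 C} {γ : Mor 𝒰 A 𝒰 C}
  (hα : ∀ g, α.f g = g) (hβ : ∀ g, β.f g = g) (hγ : ∀ g, γ.f g = g)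
  (hφ : ∀ x, γ.φ x = β.φ (α.φ x))

include hα hβ hγ hφ

omit hα hβ hγ in
theorem c₀_tri (x : ↥(C₀ 𝒰 A)) : γ.c₀ x = β.c₀ (α.c₀ x) := Subtype.ext (hφ _)

theorem c₁_tri (x : ↥(C₁ 𝒰 A)) : γ.c₁ x = β.c₁ (α.c₁ x) := by
  apply Subtype.ext
  funext g
  simp only [Mor.c₁_coe, Mor.p₁_apply, hα, hβ, hγ, hφ]

theorem c₂_tri (x : ↥(C₂ 𝒰 A)) : γ.c₂ x = β.c₂ (α.c₂ x) := by
  apply Subtype.ext
  funext ⟨g, g'⟩
  simp only [Mor.c₂_coe, Mor.p₂_apply, hα, hβ, hγ, hφ]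

theorem c₃_tri (x : ↥(C₃ 𝒰 A)) : γ.c₃ x = β.c₃ (α.c₃ x) := by
  apply Subtype.ext
  funext ⟨g, g', g''⟩
  simp only [Mor.c₃_coe, Mor.p₃_apply, hα, hβ, hγ, hφ]

end Triangles

section Identity

variable {G : Type} [Group G] {𝒰 : NBasis G} {A : Rep.{0, 0, 0} k G}
  {α : Mor 𝒰 A 𝒰 A} (hα : ∀ g, α.f g = g) (hφ : ∀ x, α.φ x = x)

include hα hφ

omit hα in
theorem c₀_id (x : ↥(C₀ 𝒰 A)) : α.c₀ x = x := Subtype.ext (hφ _)

theorem c₁_id (x : ↥(C₁ 𝒰 A)) : α.c₁ x = x := by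
  apply Subtype.ext
  funext g
  simp only [Mor.c₁_coe, Mor.p₁_apply, hα, hφ]

theorem c₂_id (x : ↥(C₂ 𝒰 A)) : α.c₂ x = x := by
  apply Subtype.ext
  funext ⟨g, g'⟩
  simp only [Mor.c₂_coe, Mor.p₂_apply, hα, hφ]

theorem c₃_id (x : ↥(C₃ 𝒰 A)) : α.c₃ x = x := by
  apply Subtype.ext
  funext ⟨g, g', g''⟩
  simp only [Mor.c₃_coe, Mor.p₃_apply, hα, hφ]

end Identity

section SiteTriangles

variable {A B C : Rep.{0, 0, 0} k X.G}
  {α : Mor X.𝒰 A X.𝒰 B} {β : Mor X.𝒰 B X.𝒰 C} {γ : Mor X.𝒰 A X.𝒰 C}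
  (hα : ∀ g, α.f g = g) (hβ : ∀ g, β.f g = g) (hγ : ∀ g, γ.f g = g)
  (hφ : ∀ x, γ.φ x = β.φ (α.φ x))

include hφ

theorem dmap₁_tri (x : X.D₁ A) : dmap₁ X γ hγ x = dmap₁ X β hβ (dmap₁ X α hα x) :=
  funext fun v => c₁_tri (α := locMor X α hα v) (β := locMor X β hβ v) (γ := locMor X γ hγ v)
    (fun _ => rfl) (fun _ => rfl) (fun _ => rfl) hφ (x v)

theorem dmap₂_tri (x : X.D₂ A) : dmap₂ X γ hγ x = dmap₂ X β hβ (dmap₂ X α hα x) :=
  funext fun v => c₂_tri (α := locMor X α hα v) (β := locMor X β hβ v) (γ := locMor X γ hγ v)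
    (fun _ => rfl) (fun _ => rfl) (fun _ => rfl) hφ (x v)

theorem dmap₃_tri (x : X.D₃ A) : dmap₃ X γ hγ x = dmap₃ X β hβ (dmap₃ X α hα x) :=
  funext fun v => c₃_tri (α := locMor X α hα v) (β := locMor X β hβ v) (γ := locMor X γ hγ v)
    (fun _ => rfl) (fun _ => rfl) (fun _ => rfl) hφ (x v)

theorem kmap₂_tri (x : ↥(C₂ X.𝒰 A) × X.D₁ A) :
    kmap₂ X γ hγ x = kmap₂ X β hβ (kmap₂ X α hα x) :=
  Prod.ext (c₂_tri hα hβ hγ hφ x.1) (dmap₁_tri X hα hβ hγ hφ x.2)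

theorem kmap₃_tri (x : ↥(C₃ X.𝒰 A) × X.D₂ A) :
    kmap₃ X γ hγ x = kmap₃ X β hβ (kmap₃ X α hα x) :=
  Prod.ext (c₃_tri hα hβ hγ hφ x.1) (dmap₂_tri X hα hβ hγ hφ x.2)

/-- `P1map` of a composite. -/
theorem P1map_comp : P1map X γ hγ = (P1map X β hβ).comp (P1map X α hα) := by
  apply LinearMap.ext
  intro x
  obtain ⟨y, hy, rfl⟩ := Hmid.exists_of x
  rw [LinearMap.comp_apply, P1map_of, P1map_of, P1map_of]
  exact Hmid.of_eq_of_iff.2 ⟨0, by rw [map_zero, dmap₁_tri X hα hβ hγ hφ, sub_self]⟩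

/-- `P2map` of a composite. -/
theorem P2map_comp : P2map X γ hγ = (P2map X β hβ).comp (P2map X α hα) := by
  apply LinearMap.ext
  intro x
  obtain ⟨y, hy, rfl⟩ := Hmid.exists_of x
  rw [LinearMap.comp_apply, P2map_of, P2map_of, P2map_of]
  exact Hmid.of_eq_of_iff.2 ⟨0, by rw [map_zero, dmap₂_tri X hα hβ hγ hφ, sub_self]⟩

/-- `P3map` of a composite. -/
theorem P3map_comp : P3map X γ hγ = (P3map X β hβ).comp (P3map X α hα) := by
  apply LinearMap.ext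
  intro x
  obtain ⟨y, hy, rfl⟩ := Hmid.exists_of x
  rw [LinearMap.comp_apply, P3map_of, P3map_of, P3map_of]
  exact Hmid.of_eq_of_iff.2 ⟨0, by rw [map_zero, dmap₃_tri X hα hβ hγ hφ, sub_self]⟩

/-- `H2cmap` of a composite. -/
theorem H2cmap_comp : H2cmap X γ hγ = (H2cmap X β hβ).comp (H2cmap X α hα) := by
  apply LinearMap.ext
  intro x
  obtain ⟨y, hy, rfl⟩ := Hmid.exists_of x
  rw [LinearMap.comp_apply, H2cmap_of, H2cmap_of, H2cmap_of]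
  exact Hmid.of_eq_of_iff.2 ⟨0, by rw [map_zero, kmap₂_tri X hα hβ hγ hφ, sub_self]⟩

/-- `H3cmap` of a composite. -/
theorem H3cmap_comp : H3cmap X γ hγ = (H3cmap X β hβ).comp (H3cmap X α hα) := by
  apply LinearMap.ext
  intro x
  obtain ⟨y, hy, rfl⟩ := Hmid.exists_of x
  rw [LinearMap.comp_apply, H3cmap_of, H3cmap_of, H3cmap_of]
  exact Hmid.of_eq_of_iff.2 ⟨0, by rw [map_zero, kmap₃_tri X hα hβ hγ hφ, sub_self]⟩

end SiteTriangles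

section SiteIdentity

variable {A : Rep.{0, 0, 0} k X.G} {α : Mor X.𝒰 A X.𝒰 A} (hα : ∀ g, α.f g = g)
  (hφ : ∀ x, α.φ x = x)

include hφ

theorem dmap₁_id (x : X.D₁ A) : dmap₁ X α hα x = x :=
  funext fun v => c₁_id (α := locMor X α hα v) (fun _ => rfl) hφ (x v)

theorem dmap₂_id (x : X.D₂ A) : dmap₂ X α hα x = x :=
  funext fun v => c₂_id (α := locMor X α hα v) (fun _ => rfl) hφ (x v)

theorem dmap₃_id (x : X.D₃ A) : dmap₃ X α hα x = x :=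
  funext fun v => c₃_id (α := locMor X α hα v) (fun _ => rfl) hφ (x v)

theorem P1map_id : P1map X α hα = LinearMap.id := by
  apply LinearMap.ext
  intro x
  obtain ⟨y, hy, rfl⟩ := Hmid.exists_of x
  rw [P1map_of, LinearMap.id_apply]
  exact Hmid.of_eq_of_iff.2 ⟨0, by rw [map_zero, dmap₁_id X hα hφ, sub_self]⟩

theorem P2map_id : P2map X α hα = LinearMap.id := by
  apply LinearMap.ext
  intro x
  obtain ⟨y, hy, rfl⟩ := Hmid.exists_of x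
  rw [P2map_of, LinearMap.id_apply]
  exact Hmid.of_eq_of_iff.2 ⟨0, by rw [map_zero, dmap₂_id X hα hφ, sub_self]⟩

theorem H2cmap_id : H2cmap X α hα = LinearMap.id := by
  apply LinearMap.ext
  intro x
  obtain ⟨y, hy, rfl⟩ := Hmid.exists_of x
  rw [H2cmap_of, LinearMap.id_apply]
  refine Hmid.of_eq_of_iff.2 ⟨0, ?_⟩
  rw [map_zero, kmap₂_apply, c₂_id hα hφ, dmap₁_id X hα hφ, sub_self]

theorem H3cmap_id : H3cmap X α hα = LinearMap.id := by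
  apply LinearMap.ext
  intro x
  obtain ⟨y, hy, rfl⟩ := Hmid.exists_of x
  rw [H3cmap_of, LinearMap.id_apply]
  refine Hmid.of_eq_of_iff.2 ⟨0, ?_⟩
  rw [map_zero, kmap₃_apply, c₃_id hα hφ, dmap₂_id X hα hφ, sub_self]

end SiteIdentity

section Shifted

variable {A B C : Rep.{0, 0, 0} k X.G}
  {α : Mor X.𝒰 A X.𝒰 B} {β : Mor X.𝒰 B X.𝒰 C} (h : IsCoefSES α β)

theorem dmap₄_injective : Function.Injective (dmap₄ X α h.fα) := fun _ _ hxy =>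
  funext fun v => p₄_injective (locSES X h v) (congrFun hxy v)

theorem exact_dmap₃ : Function.Exact (dmap₃ X α h.fα) (dmap₃ X β h.fβ) := by
  intro y
  constructor
  · intro hy
    have : ∀ v, ∃ a, (locMor X α h.fα v).c₃ a = y v := fun v =>
      (exact_c₃ (locSES X h v) (y v)).1 (congrFun hy v)
    exact ⟨fun v => (this v).choose, funext fun v => (this v).choose_spec⟩
  · rintro ⟨a, rfl⟩
    funext v
    exact (exact_c₃ (locSES X h v) _).2 ⟨a v, rfl⟩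

/-- The shifted local product window `(e₁, e₂, e₃)` is a short exact sequence of windows. -/
theorem isSESD₂ : SnakeWindow.IsSES (X.e₁ A) (X.e₂ A) (X.e₃ A) (X.e₁ B) (X.e₂ B) (X.e₃ B)
    (X.e₁ C) (X.e₂ C) (X.e₃ C)
    (dmap₁ X α h.fα) (dmap₂ X α h.fα) (dmap₃ X α h.fα) (dmap₄ X α h.fα)
    (dmap₁ X β h.fβ) (dmap₂ X β h.fβ) (dmap₃ X β h.fβ) (dmap₄ X β h.fβ) where
  aa1 := LinearMap.congr_fun (X.e₂_e₁ A)
  aa2 := LinearMap.congr_fun (X.e₃_e₂ A)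
  bb1 := LinearMap.congr_fun (X.e₂_e₁ B)
  bb2 := LinearMap.congr_fun (X.e₃_e₂ B)
  cc1 := LinearMap.congr_fun (X.e₂_e₁ C)
  cc2 := LinearMap.congr_fun (X.e₃_e₂ C)
  ia0 := e₁_dmap X α h.fα
  ia1 := e₂_dmap X α h.fα
  ia2 := e₃_dmap X α h.fα
  pb0 := e₁_dmap X β h.fβ
  pb1 := e₂_dmap X β h.fβ
  pb2 := e₃_dmap X β h.fβ
  inj2 := dmap₃_injective X h
  inj3 := dmap₄_injective X h
  surj0 := dmap₁_surjective X h
  surj1 := dmap₂_surjective X h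
  ex1 := exact_dmap₂ X h
  ex2 := exact_dmap₃ X h

/-- the connecting map `P²(C) → P³(A)` of the local product complex -/
noncomputable def δP₂ : X.P2 C →ₗ[k] X.P3 A := SnakeWindow.delta (isSESD₂ X h)

theorem δP₂_of (y : X.D₂ B) (x : X.D₃ A)
    (hyx : X.e₂ B y = dmap₃ X α h.fα x) (h1 : X.e₂ C (dmap₂ X β h.fβ y) = 0)
    (h2 : X.e₃ A x = 0) :
    δP₂ X h (Hmid.of (dmap₂ X β h.fβ y) h1) = Hmid.of x h2 :=
  SnakeWindow.delta_of (isSESD₂ X h) hyx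

theorem exact_P2_δP₂ : Function.Exact (P2map X β h.fβ) (δP₂ X h) :=
  SnakeWindow.exact_Hp1_delta (isSESD₂ X h)

theorem exact_δP₂_P3 : Function.Exact (δP₂ X h) (P3map X α h.fα) :=
  SnakeWindow.exact_delta_Hi2 (isSESD₂ X h)

theorem exact_P3 : Function.Exact (P3map X α h.fα) (P3map X β h.fβ) :=
  SnakeWindow.exact_Hi2_Hp2 (isSESD₂ X h)

/-- `loc₃ ∘ δ₂ = δP₂ ∘ loc₂ : H²(C) → P³(A)`. -/
theorem loc₃_δ₂ : (X.loc₃ A).comp (δ₂ h) = (δP₂ X h).comp (X.loc₂ C) := by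
  unfold δP₂ δ₂
  refine (SnakeWindow.delta_natural (isSES₂ h) (isSESD₂ X h) (X.r₂ B) (X.r₃ A) (X.r₂ C)
    (fun x => (r₂_c₂ X β h.fβ x).symm) (fun y x hyx => ?_) (X.loc₂ C) (X.loc₃ A)
    (fun γ hγ => ⟨_, loc₂_of X C γ hγ⟩) (fun γ hγ => ⟨_, loc₃_of X A γ hγ⟩)).symm
  have := LinearMap.congr_fun (X.r₃_dC₂ B) y
  simp only [LinearMap.comp_apply] at this
  rw [← this, hyx, r₃_c₃ X α h.fα]

/-! #### right exactness -/

/-- If all local `H³(Γ_v, A)` vanish, `P³(A) = 0`. -/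
theorem P3_eq_zero (hA : ∀ v, Vanish₃ (X.𝒱 v) (X.loc A v)) (x : X.P3 A) : x = 0 := by
  obtain ⟨b, hb, rfl⟩ := Hmid.exists_of x
  rw [Hmid.of_eq_zero_iff]
  have : ∀ v, ∃ c : ↥(C₂ (X.𝒱 v) (X.loc A v)), dC₂ (X.𝒱 v) (X.loc A v) c = b v := fun v =>
    hA v (b v) (congrFun hb v)
  exact ⟨fun v => (this v).choose, funext fun v => (this v).choose_spec⟩

/-- `P²(B) → P²(C)` is onto if the local `H³(Γ_v, A)` vanish. -/
theorem P2map_surjective (hA : ∀ v, Vanish₃ (X.𝒱 v) (X.loc A v)) :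
    Function.Surjective (P2map X β h.fβ) := fun y =>
  (exact_P2_δP₂ X h y).1 (P3_eq_zero X hA _)

/-- **Right exactness of `H³_c`**: `H³_c(B) → H³_c(C)` is onto if `H³(G, C) = 0` and all local
`H³(Γ_v, A)` vanish. -/
theorem H3cmap_surjective (hC : Vanish₃ X.𝒰 C) (hA : ∀ v, Vanish₃ (X.𝒱 v) (X.loc A v)) :
    Function.Surjective (H3cmap X β h.fβ) := by
  intro z
  obtain ⟨y, rfl⟩ := X.ι₃_surjective C hC z
  obtain ⟨y', rfl⟩ := P2map_surjective X h hA y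
  exact ⟨X.ι₃ B y', (ι₃_natural X β h.fβ y').symm⟩

/-- `H³_c(A) → H³_c(B) → H³_c(C) → 0` in one statement. -/
theorem H3c_right_exact (hC : Vanish₃ X.𝒰 C) (hA : ∀ v, Vanish₃ (X.𝒱 v) (X.loc A v)) :
    Function.Exact (H3cmap X α h.fα) (H3cmap X β h.fβ) ∧
      Function.Surjective (H3cmap X β h.fβ) :=
  ⟨exact_H3c X h, H3cmap_surjective X h hC hA⟩

end Shifted

section NaturalDelta

variable {A B C A' B' C' : Rep.{0, 0, 0} k X.G}
  {α : Mor X.𝒰 A X.𝒰 B} {β : Mor X.𝒰 B X.𝒰 C} (h : IsCoefSES α β)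
  {α' : Mor X.𝒰 A' X.𝒰 B'} {β' : Mor X.𝒰 B' X.𝒰 C'} (h' : IsCoefSES α' β')
  {a : Mor X.𝒰 A X.𝒰 A'} {b : Mor X.𝒰 B X.𝒰 B'} {c : Mor X.𝒰 C X.𝒰 C'}
  (ha : ∀ g, a.f g = g) (hb : ∀ g, b.f g = g) (hc : ∀ g, c.f g = g)
  (sq₁ : CommSq α a b α') (sq₂ : CommSq β b c β')

include hb sq₁ sq₂

/-- **Naturality of `δc`** for a morphism of short exact sequences of coefficients. -/
theorem δc_natural :
    (δc X h').comp (H2cmap X c hc) = (H3cmap X a ha).comp (δc X h) := by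
  unfold δc
  refine SnakeWindow.delta_natural (isSESc X h) (isSESc X h') (kmap₂ X b hb) (kmap₃ X a ha)
    (kmap₂ X c hc) (fun x => (kmap₂_sq X h.fβ hb hc h'.fβ sq₂ x).symm) (fun y x hyx => ?_)
    (H2cmap X c hc) (H3cmap X a ha)
    (fun γ hγ => ⟨_, H2cmap_of X c hc γ hγ⟩) (fun γ hγ => ⟨_, H3cmap_of X a ha γ hγ⟩)
  rw [k₂_kmap, hyx, kmap₃_sq X h.fα ha hb h'.fα sq₁]

/-- **Naturality of `δP`**. -/
theorem δP_natural :
    (δP X h').comp (P1map X c hc) = (P2map X a ha).comp (δP X h) := by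
  unfold δP
  refine SnakeWindow.delta_natural (isSESD X h) (isSESD X h') (dmap₁ X b hb) (dmap₂ X a ha)
    (dmap₁ X c hc) (fun x => (dmap₁_sq X h.fβ hb hc h'.fβ sq₂ x).symm) (fun y x hyx => ?_)
    (P1map X c hc) (P2map X a ha)
    (fun γ hγ => ⟨_, P1map_of X c hc γ hγ⟩) (fun γ hγ => ⟨_, P2map_of X a ha γ hγ⟩)
  rw [e₁_dmap, hyx, dmap₂_sq X h.fα ha hb h'.fα sq₁]

/-- **Naturality of `δP₂`**. -/
theorem δP₂_natural :
    (δP₂ X h').comp (P2map X c hc) = (P3map X a ha).comp (δP₂ X h) := by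
  unfold δP₂
  refine SnakeWindow.delta_natural (isSESD₂ X h) (isSESD₂ X h') (dmap₂ X b hb) (dmap₃ X a ha)
    (dmap₂ X c hc) (fun x => (dmap₂_sq X h.fβ hb hc h'.fβ sq₂ x).symm) (fun y x hyx => ?_)
    (P2map X c hc) (P3map X a ha)
    (fun γ hγ => ⟨_, P2map_of X c hc γ hγ⟩) (fun γ hγ => ⟨_, P3map_of X a ha γ hγ⟩)
  rw [e₂_dmap, hyx, dmap₃_sq X h.fα ha hb h'.fα sq₁]

end NaturalDelta

end Fermat.Agent.S55.Formal.ConeSES2
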