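/-
S55 / Formal end (helper76): FUNCTORIALITY of the `Site` constructions in the coefficients.

For a coefficient map `α : Mor X.𝒰 A X.𝒰 B` over the identity of `X.G` (`hα : ∀ g, α.f g = g`; e.g.
`Mor.ofHom X.𝒰 φ`): local maps `X.locMor α hα v`, product chain maps `mapD₀..mapD₃`, cone chain maps
`mapK₁..mapK₄`, and the induced maps `mapP1 mapP2 mapH2c mapH3c`, commuting with
`loc₁ ι₂ π₂ loc₂ ι₃ π₃`.
-/
import Fermat.Agent.S55.Formal.Site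
import Fermat.Agent.S55.Formal.CoefLES

set_option autoImplicit false

open CategoryTheory groupCohomology

namespace Fermat.Agent.S55.Formal

namespace Site

variable {k : Type} [CommRing k] (X : Site) {A B : Rep.{0, 0, 0} k X.G}
  (α : Mor X.𝒰 A X.𝒰 B) (hα : ∀ g, α.f g = g)

/-- the coefficient map restricted to the local group at `v` -/
def locMor (v : X.I) : Mor (X.𝒱 v) (X.loc A v) (X.𝒱 v) (X.loc B v) :=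
  CoefLES.resMor (X.𝒱 v) (X.ι v) α hα

theorem commSq_loc (v : X.I) : CoefLES.CommSq α (X.res A v) (X.res B v) (X.locMor α hα v) :=
  CoefLES.commSq_res (X.𝒱 v) (X.ι v) α hα (X.cont v)

/-- product chain map -/
def mapD₀ : X.D₀ A →ₗ[k] X.D₀ B := LinearMap.pi fun v => (X.locMor α hα v).c₀ ∘ₗ LinearMap.proj v
/-- product chain map -/
def mapD₁ : X.D₁ A →ₗ[k] X.D₁ B := LinearMap.pi fun v => (X.locMor α hα v).c₁ ∘ₗ LinearMap.proj v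
/-- product chain map -/
def mapD₂ : X.D₂ A →ₗ[k] X.D₂ B := LinearMap.pi fun v => (X.locMor α hα v).c₂ ∘ₗ LinearMap.proj v
/-- product chain map -/
def mapD₃ : X.D₃ A →ₗ[k] X.D₃ B := LinearMap.pi fun v => (X.locMor α hα v).c₃ ∘ₗ LinearMap.proj v
/-- product chain map -/
def mapD₄ : X.D₄ A →ₗ[k] X.D₄ B := LinearMap.pi fun v => (X.locMor α hα v).p₄ ∘ₗ LinearMap.proj v

@[simp] lemma mapD₀_apply (b : X.D₀ A) (v : X.I) :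
    X.mapD₀ α hα b v = (X.locMor α hα v).c₀ (b v) := rfl
@[simp] lemma mapD₁_apply (b : X.D₁ A) (v : X.I) :
    X.mapD₁ α hα b v = (X.locMor α hα v).c₁ (b v) := rfl
@[simp] lemma mapD₂_apply (b : X.D₂ A) (v : X.I) :
    X.mapD₂ α hα b v = (X.locMor α hα v).c₂ (b v) := rfl
@[simp] lemma mapD₃_apply (b : X.D₃ A) (v : X.I) :
    X.mapD₃ α hα b v = (X.locMor α hα v).c₃ (b v) := rfl
@[simp] lemma mapD₄_apply (b : X.D₄ A) (v : X.I) :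
    X.mapD₄ α hα b v = (X.locMor α hα v).p₄ (b v) := rfl

lemma mapD₁_e₀ : X.mapD₁ α hα ∘ₗ X.e₀ A = X.e₀ B ∘ₗ X.mapD₀ α hα := by
  refine LinearMap.ext fun b => funext fun v => ?_
  exact LinearMap.congr_fun (X.locMor α hα v).c₁_dC₀ (b v)

lemma mapD₂_e₁ : X.mapD₂ α hα ∘ₗ X.e₁ A = X.e₁ B ∘ₗ X.mapD₁ α hα := by
  refine LinearMap.ext fun b => funext fun v => ?_
  exact LinearMap.congr_fun (X.locMor α hα v).c₂_dC₁ (b v)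

lemma mapD₃_e₂ : X.mapD₃ α hα ∘ₗ X.e₂ A = X.e₂ B ∘ₗ X.mapD₂ α hα := by
  refine LinearMap.ext fun b => funext fun v => ?_
  exact LinearMap.congr_fun (X.locMor α hα v).c₃_dC₂ (b v)

lemma mapD₄_e₃ : X.mapD₄ α hα ∘ₗ X.e₃ A = X.e₃ B ∘ₗ X.mapD₃ α hα := by
  refine LinearMap.ext fun b => funext fun v => ?_
  exact LinearMap.congr_fun (X.locMor α hα v).p₄_dC₃ (b v)

lemma r₀_c₀ : X.r₀ B ∘ₗ α.c₀ = X.mapD₀ α hα ∘ₗ X.r₀ A := by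
  refine LinearMap.ext fun a => funext fun v => ?_
  exact (X.commSq_loc α hα v).c₀ a

lemma r₁_c₁ : X.r₁ B ∘ₗ α.c₁ = X.mapD₁ α hα ∘ₗ X.r₁ A := by
  refine LinearMap.ext fun a => funext fun v => ?_
  exact (X.commSq_loc α hα v).c₁ a

lemma r₂_c₂ : X.r₂ B ∘ₗ α.c₂ = X.mapD₂ α hα ∘ₗ X.r₂ A := by
  refine LinearMap.ext fun a => funext fun v => ?_
  exact (X.commSq_loc α hα v).c₂ a

lemma r₃_c₃ : X.r₃ B ∘ₗ α.c₃ = X.mapD₃ α hα ∘ₗ X.r₃ A := by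
  refine LinearMap.ext fun a => funext fun v => ?_
  exact (X.commSq_loc α hα v).c₃ a

/-- cone chain map -/
def mapK₁ : (↥(C₁ X.𝒰 A) × X.D₀ A) →ₗ[k] (↥(C₁ X.𝒰 B) × X.D₀ B) := α.c₁.prodMap (X.mapD₀ α hα)
/-- cone chain map -/
def mapK₂ : (↥(C₂ X.𝒰 A) × X.D₁ A) →ₗ[k] (↥(C₂ X.𝒰 B) × X.D₁ B) := α.c₂.prodMap (X.mapD₁ α hα)
/-- cone chain map -/
def mapK₃ : (↥(C₃ X.𝒰 A) × X.D₂ A) →ₗ[k] (↥(C₃ X.𝒰 B) × X.D₂ B) := α.c₃.prodMap (X.mapD₂ α hα)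
/-- cone chain map -/
def mapK₄ : ((X.G × X.G × X.G × X.G → A) × X.D₃ A) →ₗ[k] ((X.G × X.G × X.G × X.G → B) × X.D₃ B) :=
  α.p₄.prodMap (X.mapD₃ α hα)

@[simp] lemma mapK₁_apply (x : ↥(C₁ X.𝒰 A) × X.D₀ A) :
    X.mapK₁ α hα x = (α.c₁ x.1, X.mapD₀ α hα x.2) := rfl
@[simp] lemma mapK₂_apply (x : ↥(C₂ X.𝒰 A) × X.D₁ A) :
    X.mapK₂ α hα x = (α.c₂ x.1, X.mapD₁ α hα x.2) := rfl
@[simp] lemma mapK₃_apply (x : ↥(C₃ X.𝒰 A) × X.D₂ A) :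
    X.mapK₃ α hα x = (α.c₃ x.1, X.mapD₂ α hα x.2) := rfl
@[simp] lemma mapK₄_apply (x : (X.G × X.G × X.G × X.G → A) × X.D₃ A) :
    X.mapK₄ α hα x = (α.p₄ x.1, X.mapD₃ α hα x.2) := rfl

lemma mapK₂_k₁ : X.mapK₂ α hα ∘ₗ X.k₁ A = X.k₁ B ∘ₗ X.mapK₁ α hα := by
  refine LinearMap.ext fun x => ?_
  have h1 := LinearMap.congr_fun α.c₂_dC₁ x.1
  have h2 := LinearMap.congr_fun (X.r₁_c₁ α hα) x.1
  have h3 := LinearMap.congr_fun (X.mapD₁_e₀ α hα) x.2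
  simp only [LinearMap.comp_apply] at h1 h2 h3
  simp only [LinearMap.comp_apply, k₁_apply, mapK₂_apply, mapK₁_apply, map_sub, h1, h2, h3]

lemma mapK₃_k₂ : X.mapK₃ α hα ∘ₗ X.k₂ A = X.k₂ B ∘ₗ X.mapK₂ α hα := by
  refine LinearMap.ext fun x => ?_
  have h1 := LinearMap.congr_fun α.c₃_dC₂ x.1
  have h2 := LinearMap.congr_fun (X.r₂_c₂ α hα) x.1
  have h3 := LinearMap.congr_fun (X.mapD₂_e₁ α hα) x.2
  simp only [LinearMap.comp_apply] at h1 h2 h3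
  simp only [LinearMap.comp_apply, k₂_apply, mapK₃_apply, mapK₂_apply, map_sub, h1, h2, h3]

lemma mapK₄_k₃ : X.mapK₄ α hα ∘ₗ X.k₃ A = X.k₃ B ∘ₗ X.mapK₃ α hα := by
  refine LinearMap.ext fun x => ?_
  have h1 := LinearMap.congr_fun α.p₄_dC₃ x.1
  have h2 := LinearMap.congr_fun (X.r₃_c₃ α hα) x.1
  have h3 := LinearMap.congr_fun (X.mapD₃_e₂ α hα) x.2
  simp only [LinearMap.comp_apply] at h1 h2 h3
  simp only [LinearMap.comp_apply, k₃_apply, mapK₄_apply, mapK₃_apply, map_sub, h1, h2, h3]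

/-- `Π_v H¹(Γ_v, A) → Π_v H¹(Γ_v, B)` -/
def mapP1 : X.P1 A →ₗ[k] X.P1 B :=
  Hmid.mapOfComm (X.mapD₀ α hα) (X.mapD₁ α hα) (X.mapD₂ α hα) (X.mapD₁_e₀ α hα) (X.mapD₂_e₁ α hα)
/-- `Π_v H²(Γ_v, A) → Π_v H²(Γ_v, B)` -/
def mapP2 : X.P2 A →ₗ[k] X.P2 B :=
  Hmid.mapOfComm (X.mapD₁ α hα) (X.mapD₂ α hα) (X.mapD₃ α hα) (X.mapD₂_e₁ α hα) (X.mapD₃_e₂ α hα)
/-- `H²_c(A) → H²_c(B)` -/
def mapH2c : X.H2c A →ₗ[k] X.H2c B :=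
  Hmid.mapOfComm (X.mapK₁ α hα) (X.mapK₂ α hα) (X.mapK₃ α hα) (X.mapK₂_k₁ α hα) (X.mapK₃_k₂ α hα)
/-- `H³_c(A) → H³_c(B)` -/
def mapH3c : X.H3c A →ₗ[k] X.H3c B :=
  Hmid.mapOfComm (X.mapK₂ α hα) (X.mapK₃ α hα) (X.mapK₄ α hα) (X.mapK₃_k₂ α hα) (X.mapK₄_k₃ α hα)

theorem loc₁_of (M : Rep.{0, 0, 0} k X.G) (a : ↥(C₁ X.𝒰 M)) (ha : dC₁ X.𝒰 M a = 0)
    (ha' : X.e₁ M (X.r₁ M a) = 0) : X.loc₁ M (Hmid.of a ha) = Hmid.of (X.r₁ M a) ha' := rfl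

theorem loc₂_of (M : Rep.{0, 0, 0} k X.G) (a : ↥(C₂ X.𝒰 M)) (ha : dC₂ X.𝒰 M a = 0)
    (ha' : X.e₂ M (X.r₂ M a) = 0) : X.loc₂ M (Hmid.of a ha) = Hmid.of (X.r₂ M a) ha' := rfl

theorem ι₂_of (M : Rep.{0, 0, 0} k X.G) (b : X.D₁ M) (hb : X.e₁ M b = 0)
    (hb' : X.k₂ M ((0 : ↥(C₂ X.𝒰 M)), b) = 0) :
    X.ι₂ M (Hmid.of b hb) = Hmid.of ((0 : ↥(C₂ X.𝒰 M)), b) hb' := rfl

theorem ι₃_of (M : Rep.{0, 0, 0} k X.G) (b : X.D₂ M) (hb : X.e₂ M b = 0)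
    (hb' : X.k₃ M ((0 : ↥(C₃ X.𝒰 M)), b) = 0) :
    X.ι₃ M (Hmid.of b hb) = Hmid.of ((0 : ↥(C₃ X.𝒰 M)), b) hb' := rfl

theorem π₂_of (M : Rep.{0, 0, 0} k X.G) (x : ↥(C₂ X.𝒰 M) × X.D₁ M) (hx : X.k₂ M x = 0)
    (hx' : dC₂ X.𝒰 M x.1 = 0) : X.π₂ M (Hmid.of x hx) = Hmid.of x.1 hx' := rfl

theorem π₃_of (M : Rep.{0, 0, 0} k X.G) (x : ↥(C₃ X.𝒰 M) × X.D₂ M) (hx : X.k₃ M x = 0)
    (hx' : dC₃ X.𝒰 M x.1 = 0) : X.π₃ M (Hmid.of x hx) = Hmid.of x.1 hx' := rfl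

theorem mapP1_of (b : X.D₁ A) (hb : X.e₁ A b = 0) (hb' : X.e₁ B (X.mapD₁ α hα b) = 0) :
    X.mapP1 α hα (Hmid.of b hb) = Hmid.of (X.mapD₁ α hα b) hb' := rfl

theorem mapP2_of (b : X.D₂ A) (hb : X.e₂ A b = 0) (hb' : X.e₂ B (X.mapD₂ α hα b) = 0) :
    X.mapP2 α hα (Hmid.of b hb) = Hmid.of (X.mapD₂ α hα b) hb' := rfl

theorem mapH2c_of (x : ↥(C₂ X.𝒰 A) × X.D₁ A) (hx : X.k₂ A x = 0)
    (hx' : X.k₂ B (X.mapK₂ α hα x) = 0) :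
    X.mapH2c α hα (Hmid.of x hx) = Hmid.of (X.mapK₂ α hα x) hx' := rfl

theorem mapH3c_of (x : ↥(C₃ X.𝒰 A) × X.D₂ A) (hx : X.k₃ A x = 0)
    (hx' : X.k₃ B (X.mapK₃ α hα x) = 0) :
    X.mapH3c α hα (Hmid.of x hx) = Hmid.of (X.mapK₃ α hα x) hx' := rfl

theorem mapP1_loc₁ (x : H1 X.𝒰 A) : X.mapP1 α hα (X.loc₁ A x) = X.loc₁ B (α.h1 x) := by
  obtain ⟨a, ha, rfl⟩ := Hmid.exists_of x
  have h2 := LinearMap.congr_fun (X.r₁_c₁ α hα) a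
  simp only [LinearMap.comp_apply] at h2
  have ha1 : X.e₁ A (X.r₁ A a) = 0 := by
    have := LinearMap.congr_fun (X.r₂_dC₁ A) a
    simp only [LinearMap.comp_apply] at this
    rw [← this, ha, map_zero]
  have ha2 : dC₁ X.𝒰 B (α.c₁ a) = 0 := CoefLES.dC₁_c₁ α a ha
  have ha3 : X.e₁ B (X.r₁ B (α.c₁ a)) = 0 := by
    have := LinearMap.congr_fun (X.r₂_dC₁ B) (α.c₁ a)
    simp only [LinearMap.comp_apply] at this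
    rw [← this, ha2, map_zero]
  have ha4 : X.e₁ B (X.mapD₁ α hα (X.r₁ A a)) = 0 := by rw [← h2]; exact ha3
  rw [X.loc₁_of A a ha ha1, X.mapP1_of α hα _ ha1 ha4, CoefLES.h1_of α a ha,
    X.loc₁_of B _ ha2 ha3]
  exact Hmid.of_eq_of_iff.2 ⟨0, by rw [map_zero, h2, sub_self]⟩

theorem mapP2_loc₂ (x : H2 X.𝒰 A) : X.mapP2 α hα (X.loc₂ A x) = X.loc₂ B (α.h2 x) := by
  obtain ⟨a, ha, rfl⟩ := Hmid.exists_of x
  have h2 := LinearMap.congr_fun (X.r₂_c₂ α hα) a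
  simp only [LinearMap.comp_apply] at h2
  have ha1 : X.e₂ A (X.r₂ A a) = 0 := by
    have := LinearMap.congr_fun (X.r₃_dC₂ A) a
    simp only [LinearMap.comp_apply] at this
    rw [← this, ha, map_zero]
  have ha2 : dC₂ X.𝒰 B (α.c₂ a) = 0 := CoefLES.dC₂_c₂ α a ha
  have ha3 : X.e₂ B (X.r₂ B (α.c₂ a)) = 0 := by
    have := LinearMap.congr_fun (X.r₃_dC₂ B) (α.c₂ a)
    simp only [LinearMap.comp_apply] at this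
    rw [← this, ha2, map_zero]
  have ha4 : X.e₂ B (X.mapD₂ α hα (X.r₂ A a)) = 0 := by rw [← h2]; exact ha3
  rw [X.loc₂_of A a ha ha1, X.mapP2_of α hα _ ha1 ha4, CoefLES.h2_of α a ha,
    X.loc₂_of B _ ha2 ha3]
  exact Hmid.of_eq_of_iff.2 ⟨0, by rw [map_zero, h2, sub_self]⟩

theorem mapH2c_ι₂ (y : X.P1 A) : X.mapH2c α hα (X.ι₂ A y) = X.ι₂ B (X.mapP1 α hα y) := by
  obtain ⟨b, hb, rfl⟩ := Hmid.exists_of y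
  have hb1 : X.k₂ A ((0 : ↥(C₂ X.𝒰 A)), b) = 0 := by simp [hb]
  have hb2 : X.e₁ B (X.mapD₁ α hα b) = 0 := by
    have := LinearMap.congr_fun (X.mapD₂_e₁ α hα) b
    simp only [LinearMap.comp_apply] at this
    rw [← this, hb, map_zero]
  have hb3 : X.k₂ B ((0 : ↥(C₂ X.𝒰 B)), X.mapD₁ α hα b) = 0 := by simp [hb2]
  have hb4 : X.k₂ B (X.mapK₂ α hα ((0 : ↥(C₂ X.𝒰 A)), b)) = 0 := by
    simpa using hb3
  rw [X.ι₂_of A b hb hb1, X.mapH2c_of α hα _ hb1 hb4, X.mapP1_of α hα b hb hb2,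
    X.ι₂_of B _ hb2 hb3]
  exact Hmid.of_eq_of_iff.2 ⟨0, by simp⟩

theorem mapH3c_ι₃ (y : X.P2 A) : X.mapH3c α hα (X.ι₃ A y) = X.ι₃ B (X.mapP2 α hα y) := by
  obtain ⟨b, hb, rfl⟩ := Hmid.exists_of y
  have hb1 : X.k₃ A ((0 : ↥(C₃ X.𝒰 A)), b) = 0 := by simp [hb]
  have hb2 : X.e₂ B (X.mapD₂ α hα b) = 0 := by
    have := LinearMap.congr_fun (X.mapD₃_e₂ α hα) b
    simp only [LinearMap.comp_apply] at this
    rw [← this, hb, map_zero]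
  have hb3 : X.k₃ B ((0 : ↥(C₃ X.𝒰 B)), X.mapD₂ α hα b) = 0 := by simp [hb2]
  have hb4 : X.k₃ B (X.mapK₃ α hα ((0 : ↥(C₃ X.𝒰 A)), b)) = 0 := by
    simpa using hb3
  rw [X.ι₃_of A b hb hb1, X.mapH3c_of α hα _ hb1 hb4, X.mapP2_of α hα b hb hb2,
    X.ι₃_of B _ hb2 hb3]
  exact Hmid.of_eq_of_iff.2 ⟨0, by simp⟩

theorem π₂_mapH2c (x : X.H2c A) : X.π₂ B (X.mapH2c α hα x) = α.h2 (X.π₂ A x) := by
  obtain ⟨b, hb, rfl⟩ := Hmid.exists_of x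
  rfl

theorem π₃_mapH3c (x : X.H3c A) : X.π₃ B (X.mapH3c α hα x) = α.h3 (X.π₃ A x) := by
  obtain ⟨b, hb, rfl⟩ := Hmid.exists_of x
  rfl

end Site

end Fermat.Agent.S55.Formal
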