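import Mathlib
import Fermat.Agent.S55.Formal.SiteMap
import Fermat.Agent.S55.Formal.ConeSES2

/-!
# S55 / Formal / ConeSESBridge

`Formal/SiteMap.lean` (helper76: `X.mapD_j`, `X.mapK_j`, `X.mapP1`, `X.mapP2`, `X.mapH2c`, `X.mapH3c`)
and `Formal/ConeSES.lean` (helper13: `dmap_j`, `kmap_j`, `P1map`, `P2map`, `H2cmap`, `H3cmap`) define
the same coefficient functoriality of a `Site`; all identifications are `rfl`.  This file records
them and restates the long exact sequence of `ConeSES` / `ConeSES2` in the `SiteMap` names.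
-/

set_option autoImplicit false

open CategoryTheory groupCohomology

namespace Fermat.Agent.S55.Formal.ConeSESBridge

open Fermat.Agent.S55.Formal Fermat.Agent.S55.Formal.CoefLES Fermat.Agent.S55.Formal.ConeSES
  Fermat.Agent.S55.Formal.ConeSES2

variable {k : Type} [CommRing k] (X : Site)

section Names

variable {A B : Rep.{0, 0, 0} k X.G} (α : Mor X.𝒰 A X.𝒰 B) (hα : ∀ g, α.f g = g)

theorem locMor_eq (v : X.I) : locMor X α hα v = X.locMor α hα v := rfl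
theorem dmap₀_eq : dmap₀ X α hα = X.mapD₀ α hα := rfl
theorem dmap₁_eq : dmap₁ X α hα = X.mapD₁ α hα := rfl
theorem dmap₂_eq : dmap₂ X α hα = X.mapD₂ α hα := rfl
theorem dmap₃_eq : dmap₃ X α hα = X.mapD₃ α hα := rfl
theorem dmap₄_eq : dmap₄ X α hα = X.mapD₄ α hα := rfl
theorem kmap₁_eq : kmap₁ X α hα = X.mapK₁ α hα := rfl
theorem kmap₂_eq : kmap₂ X α hα = X.mapK₂ α hα := rfl
theorem kmap₃_eq : kmap₃ X α hα = X.mapK₃ α hα := rfl
theorem kmap₄_eq : kmap₄ X α hα = X.mapK₄ α hα := rfl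
theorem P1map_eq : P1map X α hα = X.mapP1 α hα := rfl
theorem P2map_eq : P2map X α hα = X.mapP2 α hα := rfl
theorem H2cmap_eq : H2cmap X α hα = X.mapH2c α hα := rfl
theorem H3cmap_eq : H3cmap X α hα = X.mapH3c α hα := rfl

end Names

section LES

variable {A B C : Rep.{0, 0, 0} k X.G}
  {α : Mor X.𝒰 A X.𝒰 B} {β : Mor X.𝒰 B X.𝒰 C} (h : IsCoefSES α β)

/-- `H²_c(A) → H²_c(B) → H²_c(C)` -/
theorem exact_mapH2c : Function.Exact (X.mapH2c α h.fα) (X.mapH2c β h.fβ) := exact_H2c X h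

/-- `H²_c(B) → H²_c(C) -δc→ H³_c(A)` -/
theorem exact_mapH2c_δc : Function.Exact (X.mapH2c β h.fβ) (δc X h) := exact_H2c_δc X h

/-- `H²_c(C) -δc→ H³_c(A) → H³_c(B)` -/
theorem exact_δc_mapH3c : Function.Exact (δc X h) (X.mapH3c α h.fα) := exact_δc_H3c X h

/-- `H³_c(A) → H³_c(B) → H³_c(C)` -/
theorem exact_mapH3c : Function.Exact (X.mapH3c α h.fα) (X.mapH3c β h.fβ) := exact_H3c X h

/-- right exactness of `H³_c` -/
theorem mapH3c_surjective (hC : Vanish₃ X.𝒰 C) (hA : ∀ v, Vanish₃ (X.𝒱 v) (X.loc A v)) :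
    Function.Surjective (X.mapH3c β h.fβ) := H3cmap_surjective X h hC hA

theorem exact_mapP1 : Function.Exact (X.mapP1 α h.fα) (X.mapP1 β h.fβ) := exact_P1 X h

theorem exact_mapP1_δP : Function.Exact (X.mapP1 β h.fβ) (δP X h) := exact_P1_δP X h

theorem exact_δP_mapP2 : Function.Exact (δP X h) (X.mapP2 α h.fα) := exact_δP_P2 X h

theorem exact_mapP2 : Function.Exact (X.mapP2 α h.fα) (X.mapP2 β h.fβ) := exact_P2 X h

theorem mapP2_surjective (hA : ∀ v, Vanish₃ (X.𝒱 v) (X.loc A v)) :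
    Function.Surjective (X.mapP2 β h.fβ) := P2map_surjective X h hA

/-- Formula for `δc` in the `SiteMap` names. -/
theorem δc_of' (y : ↥(C₂ X.𝒰 B) × X.D₁ B) (x : ↥(C₃ X.𝒰 A) × X.D₂ A)
    (hyx : X.k₂ B y = X.mapK₃ α h.fα x) (h1 : X.k₂ C (X.mapK₂ β h.fβ y) = 0)
    (h2 : X.k₃ A x = 0) :
    δc X h (Hmid.of (X.mapK₂ β h.fβ y) h1) = Hmid.of x h2 :=
  δc_of X h y x hyx h1 h2

/-- every class of `H²_c(C)` is `[mapK₂ β y]` with `k₂ y = mapK₃ α x` -/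
theorem exists_lift_H2c (z : X.H2c C) :
    ∃ (y : ↥(C₂ X.𝒰 B) × X.D₁ B) (x : ↥(C₃ X.𝒰 A) × X.D₂ A)
      (_ : X.k₂ B y = X.mapK₃ α h.fα x) (h1 : X.k₂ C (X.mapK₂ β h.fβ y) = 0)
      (h2 : X.k₃ A x = 0), z = Hmid.of (X.mapK₂ β h.fβ y) h1 ∧ δc X h z = Hmid.of x h2 := by
  obtain ⟨y, x, hyx, rfl⟩ := SnakeWindow.exists_lift (isSESc X h) z
  exact ⟨y, x, hyx, SnakeWindow.c1_p1_of_mem (isSESc X h) hyx,
    SnakeWindow.a2_of_mem (isSESc X h) hyx, rfl, δc_of X h y x hyx _ _⟩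

end LES

section Natural

variable {A B C A' B' C' : Rep.{0, 0, 0} k X.G}
  {α : Mor X.𝒰 A X.𝒰 B} {β : Mor X.𝒰 B X.𝒰 C} (h : IsCoefSES α β)
  {α' : Mor X.𝒰 A' X.𝒰 B'} {β' : Mor X.𝒰 B' X.𝒰 C'} (h' : IsCoefSES α' β')
  {a : Mor X.𝒰 A X.𝒰 A'} {b : Mor X.𝒰 B X.𝒰 B'} {c : Mor X.𝒰 C X.𝒰 C'}
  (ha : ∀ g, a.f g = g) (hb : ∀ g, b.f g = g) (hc : ∀ g, c.f g = g)
  (sq₁ : CommSq α a b α') (sq₂ : CommSq β b c β')

include hb sq₁ sq₂ in
/-- naturality of `δc` in the `SiteMap` names -/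
theorem δc_natural' :
    (δc X h').comp (X.mapH2c c hc) = (X.mapH3c a ha).comp (δc X h) :=
  δc_natural X h h' ha hb hc sq₁ sq₂

end Natural

end Fermat.Agent.S55.Formal.ConeSESBridge
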