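/-
S55 / Formal / CupWindow  (helper33)

Interface-independent, Mathlib only.  Explicit cup products on the product-shaped
inhomogeneous cochains  `A`, `G → A`, `G × G → A`, `G × G × G → A`, `G × G × G × G → A`
(these are exactly the shapes of Mathlib's `groupCohomology.d₀₁, d₁₂, d₂₃` and of the Prelude's
level-constant cochains), for a `G`-equivariant bilinear map `β : A → B → C`:

  `(a ∪ b)(g₁,…,g_{i+j}) = β (a(g₁,…,g_i)) (g₁⋯g_i • b(g_{i+1},…,g_{i+j}))`

and the Leibniz rule `d(a ∪ b) = da ∪ b + (-1)^i a ∪ db` in every shape of total degree `≤ 3`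
(so up to the differential `C³ → C⁴`).  Consequences: cocycle ∪ cocycle is a cocycle,
coboundary ∪ cocycle and cocycle ∪ coboundary are coboundaries (all shapes of total degree `≤ 3`);
naturality under restriction along a group homomorphism and under change of coefficients;
stability of right-invariance under a subgroup acting trivially on the coefficients.
-/
import Mathlib

set_option autoImplicit false

namespace Fermat.Agent.S55.Formal.CupWindow

variable {k : Type*} [CommRing k] {G : Type*} [Group G]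

/-! ## The differentials `C⁰ → C¹ → C² → C³ → C⁴` on product-shaped cochains -/

section Differentials

variable {A : Type*} [AddCommGroup A] [Module k A] (ρ : Representation k G A)

/-- `d⁰ : A → (G → A)`, `m ↦ (g ↦ g m - m)`. -/
def d01 : A →ₗ[k] (G → A) where
  toFun m g := ρ g m - m
  map_add' x y := by funext g; simp only [map_add, Pi.add_apply]; abel
  map_smul' r x := by funext g; simp only [map_smul, Pi.smul_apply, RingHom.id_apply, smul_sub]

/-- `d¹ : (G → A) → (G × G → A)`. -/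
def d12 : (G → A) →ₗ[k] (G × G → A) where
  toFun f g := ρ g.1 (f g.2) - f (g.1 * g.2) + f g.1
  map_add' x y := by funext g; simp only [map_add, Pi.add_apply]; abel
  map_smul' r x := by
    funext g; simp only [map_smul, Pi.smul_apply, RingHom.id_apply, smul_sub, smul_add]

/-- `d² : (G × G → A) → (G × G × G → A)`. -/
def d23 : (G × G → A) →ₗ[k] (G × G × G → A) where
  toFun f g :=
    ρ g.1 (f (g.2.1, g.2.2)) - f (g.1 * g.2.1, g.2.2) + f (g.1, g.2.1 * g.2.2) - f (g.1, g.2.1)
  map_add' x y := by funext g; simp only [map_add, Pi.add_apply]; abel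
  map_smul' r x := by
    funext g; simp only [map_smul, Pi.smul_apply, RingHom.id_apply, smul_sub, smul_add]

/-- `d³ : (G × G × G → A) → (G × G × G × G → A)`. -/
def d34 : (G × G × G → A) →ₗ[k] (G × G × G × G → A) where
  toFun f g :=
    ρ g.1 (f (g.2.1, g.2.2.1, g.2.2.2)) - f (g.1 * g.2.1, g.2.2.1, g.2.2.2)
      + f (g.1, g.2.1 * g.2.2.1, g.2.2.2) - f (g.1, g.2.1, g.2.2.1 * g.2.2.2)
      + f (g.1, g.2.1, g.2.2.1)
  map_add' x y := by funext g; simp only [map_add, Pi.add_apply]; abel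
  map_smul' r x := by
    funext g; simp only [map_smul, Pi.smul_apply, RingHom.id_apply, smul_sub, smul_add]

@[simp] lemma d01_apply (m : A) (g : G) : d01 ρ m g = ρ g m - m := rfl

@[simp] lemma d12_apply (f : G → A) (g : G × G) :
    d12 ρ f g = ρ g.1 (f g.2) - f (g.1 * g.2) + f g.1 := rfl

@[simp] lemma d23_apply (f : G × G → A) (g : G × G × G) :
    d23 ρ f g =
      ρ g.1 (f (g.2.1, g.2.2)) - f (g.1 * g.2.1, g.2.2) + f (g.1, g.2.1 * g.2.2)
        - f (g.1, g.2.1) := rfl

@[simp] lemma d34_apply (f : G × G × G → A) (g : G × G × G × G) :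
    d34 ρ f g =
      ρ g.1 (f (g.2.1, g.2.2.1, g.2.2.2)) - f (g.1 * g.2.1, g.2.2.1, g.2.2.2)
        + f (g.1, g.2.1 * g.2.2.1, g.2.2.2) - f (g.1, g.2.1, g.2.2.1 * g.2.2.2)
        + f (g.1, g.2.1, g.2.2.1) := rfl

theorem d12_d01 (m : A) : d12 ρ (d01 ρ m) = 0 := by
  funext g
  simp only [d12_apply, d01_apply, map_sub, map_mul, Module.End.mul_apply, Pi.zero_apply]
  abel

theorem d23_d12 (f : G → A) : d23 ρ (d12 ρ f) = 0 := by
  funext g
  simp only [d23_apply, d12_apply, map_sub, map_add, map_mul, Module.End.mul_apply,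
    Pi.zero_apply, mul_assoc]
  abel

theorem d34_d23 (f : G × G → A) : d34 ρ (d23 ρ f) = 0 := by
  funext g
  simp only [d34_apply, d23_apply, map_sub, map_add, map_mul, Module.End.mul_apply,
    Pi.zero_apply, mul_assoc]
  abel

theorem d12_comp_d01 : (d12 ρ).comp (d01 ρ) = 0 := LinearMap.ext fun m => d12_d01 ρ m

theorem d23_comp_d12 : (d23 ρ).comp (d12 ρ) = 0 := LinearMap.ext fun f => d23_d12 ρ f

theorem d34_comp_d23 : (d34 ρ).comp (d23 ρ) = 0 := LinearMap.ext fun f => d34_d23 ρ f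

end Differentials

/-! ## Cup products on cochains -/

section Cup

variable {A B C : Type*} [AddCommGroup A] [Module k A] [AddCommGroup B] [Module k B]
  [AddCommGroup C] [Module k C]
variable (ρB : Representation k G B) (β : A →ₗ[k] B →ₗ[k] C)

/-- `(0, q)`-cup product, `q ≥ 1` (`X` is the index type of the second cochain):
`(a ∪ b)(x) = β a (b x)`.  For `q = 0` the cup product is `β a b` itself. -/
def cup0 (X : Type*) : A →ₗ[k] (X → B) →ₗ[k] (X → C) :=
  LinearMap.mk₂ k (fun a b x => β a (b x))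
    (fun a a' b => by funext x; simp only [map_add, LinearMap.add_apply, Pi.add_apply])
    (fun r a b => by funext x; simp only [map_smul, LinearMap.smul_apply, Pi.smul_apply])
    (fun a b b' => by funext x; simp only [Pi.add_apply, map_add])
    (fun r a b => by funext x; simp only [Pi.smul_apply, map_smul])

/-- `(1, q)`-cup product, `q ≥ 1`: `(a ∪ b)(g, x) = β (a g) (g • b x)`. -/
def cup1 (X : Type*) : (G → A) →ₗ[k] (X → B) →ₗ[k] (G × X → C) :=
  LinearMap.mk₂ k (fun a b g => β (a g.1) (ρB g.1 (b g.2)))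
    (fun a a' b => by funext x; simp only [map_add, LinearMap.add_apply, Pi.add_apply])
    (fun r a b => by funext x; simp only [map_smul, LinearMap.smul_apply, Pi.smul_apply])
    (fun a b b' => by funext x; simp only [Pi.add_apply, map_add])
    (fun r a b => by funext x; simp only [Pi.smul_apply, map_smul])

/-- `(2, q)`-cup product, `q ≥ 1`: `(a ∪ b)(g, h, x) = β (a (g, h)) (gh • b x)`. -/
def cup2 (X : Type*) : (G × G → A) →ₗ[k] (X → B) →ₗ[k] (G × G × X → C) :=
  LinearMap.mk₂ k (fun a b g => β (a (g.1, g.2.1)) (ρB (g.1 * g.2.1) (b g.2.2)))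
    (fun a a' b => by funext x; simp only [map_add, LinearMap.add_apply, Pi.add_apply])
    (fun r a b => by funext x; simp only [map_smul, LinearMap.smul_apply, Pi.smul_apply])
    (fun a b b' => by funext x; simp only [Pi.add_apply, map_add])
    (fun r a b => by funext x; simp only [Pi.smul_apply, map_smul])

/-- `(3, q)`-cup product, `q ≥ 1`. -/
def cup3 (X : Type*) : (G × G × G → A) →ₗ[k] (X → B) →ₗ[k] (G × G × G × X → C) :=
  LinearMap.mk₂ k
    (fun a b g => β (a (g.1, g.2.1, g.2.2.1)) (ρB (g.1 * g.2.1 * g.2.2.1) (b g.2.2.2)))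
    (fun a a' b => by funext x; simp only [map_add, LinearMap.add_apply, Pi.add_apply])
    (fun r a b => by funext x; simp only [map_smul, LinearMap.smul_apply, Pi.smul_apply])
    (fun a b b' => by funext x; simp only [Pi.add_apply, map_add])
    (fun r a b => by funext x; simp only [Pi.smul_apply, map_smul])

/-- `(1, 0)`-cup product: `(a ∪ b)(g) = β (a g) (g • b)`. -/
def cup10 : (G → A) →ₗ[k] B →ₗ[k] (G → C) :=
  LinearMap.mk₂ k (fun a b g => β (a g) (ρB g b))
    (fun a a' b => by funext x; simp only [map_add, LinearMap.add_apply, Pi.add_apply])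
    (fun r a b => by funext x; simp only [map_smul, LinearMap.smul_apply, Pi.smul_apply])
    (fun a b b' => by funext x; simp only [Pi.add_apply, map_add])
    (fun r a b => by funext x; simp only [Pi.smul_apply, map_smul])

/-- `(2, 0)`-cup product: `(a ∪ b)(g, h) = β (a (g, h)) (gh • b)`. -/
def cup20 : (G × G → A) →ₗ[k] B →ₗ[k] (G × G → C) :=
  LinearMap.mk₂ k (fun a b g => β (a g) (ρB (g.1 * g.2) b))
    (fun a a' b => by funext x; simp only [map_add, LinearMap.add_apply, Pi.add_apply])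
    (fun r a b => by funext x; simp only [map_smul, LinearMap.smul_apply, Pi.smul_apply])
    (fun a b b' => by funext x; simp only [Pi.add_apply, map_add])
    (fun r a b => by funext x; simp only [Pi.smul_apply, map_smul])

/-- `(3, 0)`-cup product. -/
def cup30 : (G × G × G → A) →ₗ[k] B →ₗ[k] (G × G × G → C) :=
  LinearMap.mk₂ k (fun a b g => β (a g) (ρB (g.1 * g.2.1 * g.2.2) b))
    (fun a a' b => by funext x; simp only [map_add, LinearMap.add_apply, Pi.add_apply])
    (fun r a b => by funext x; simp only [map_smul, LinearMap.smul_apply, Pi.smul_apply])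
    (fun a b b' => by funext x; simp only [Pi.add_apply, map_add])
    (fun r a b => by funext x; simp only [Pi.smul_apply, map_smul])

/-- `(4, 0)`-cup product. -/
def cup40 : (G × G × G × G → A) →ₗ[k] B →ₗ[k] (G × G × G × G → C) :=
  LinearMap.mk₂ k (fun a b g => β (a g) (ρB (g.1 * g.2.1 * g.2.2.1 * g.2.2.2) b))
    (fun a a' b => by funext x; simp only [map_add, LinearMap.add_apply, Pi.add_apply])
    (fun r a b => by funext x; simp only [map_smul, LinearMap.smul_apply, Pi.smul_apply])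
    (fun a b b' => by funext x; simp only [Pi.add_apply, map_add])
    (fun r a b => by funext x; simp only [Pi.smul_apply, map_smul])

@[simp] lemma cup0_apply (X : Type*) (a : A) (b : X → B) (x : X) :
    cup0 β X a b x = β a (b x) := rfl

@[simp] lemma cup1_apply (X : Type*) (a : G → A) (b : X → B) (g : G × X) :
    cup1 ρB β X a b g = β (a g.1) (ρB g.1 (b g.2)) := rfl

@[simp] lemma cup2_apply (X : Type*) (a : G × G → A) (b : X → B) (g : G × G × X) :
    cup2 ρB β X a b g = β (a (g.1, g.2.1)) (ρB (g.1 * g.2.1) (b g.2.2)) := rfl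

@[simp] lemma cup3_apply (X : Type*) (a : G × G × G → A) (b : X → B) (g : G × G × G × X) :
    cup3 ρB β X a b g =
      β (a (g.1, g.2.1, g.2.2.1)) (ρB (g.1 * g.2.1 * g.2.2.1) (b g.2.2.2)) := rfl

@[simp] lemma cup10_apply (a : G → A) (b : B) (g : G) :
    cup10 ρB β a b g = β (a g) (ρB g b) := rfl

@[simp] lemma cup20_apply (a : G × G → A) (b : B) (g : G × G) :
    cup20 ρB β a b g = β (a g) (ρB (g.1 * g.2) b) := rfl

@[simp] lemma cup30_apply (a : G × G × G → A) (b : B) (g : G × G × G) :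
    cup30 ρB β a b g = β (a g) (ρB (g.1 * g.2.1 * g.2.2) b) := rfl

@[simp] lemma cup40_apply (a : G × G × G × G → A) (b : B) (g : G × G × G × G) :
    cup40 ρB β a b g = β (a g) (ρB (g.1 * g.2.1 * g.2.2.1 * g.2.2.2) b) := rfl

end Cup

/-! ## The Leibniz rule, all shapes of total degree `≤ 3` -/

section Leibniz

variable {A B C : Type*} [AddCommGroup A] [Module k A] [AddCommGroup B] [Module k B]
  [AddCommGroup C] [Module k C]
variable (ρA : Representation k G A) (ρB : Representation k G B) (ρC : Representation k G C)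
  (β : A →ₗ[k] B →ₗ[k] C)

/-- `β` is `G`-equivariant: `g • β a b = β (g • a) (g • b)`. -/
def Equivariant : Prop := ∀ (g : G) (a : A) (b : B), ρC g (β a b) = β (ρA g a) (ρB g b)

variable {ρA ρB ρC β}

/-- Leibniz `(0,0)`. -/
theorem leibniz00 (hβ : Equivariant ρA ρB ρC β) (a : A) (b : B) :
    d01 ρC (β a b) = cup10 ρB β (d01 ρA a) b + cup0 β G a (d01 ρB b) := by
  funext g
  simp only [d01_apply, cup10_apply, cup0_apply, Pi.add_apply, hβ g a b, map_sub,
    LinearMap.sub_apply]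
  abel

/-- Leibniz `(0,1)`. -/
theorem leibniz01 (hβ : Equivariant ρA ρB ρC β) (a : A) (b : G → B) :
    d12 ρC (cup0 β G a b) = cup1 ρB β G (d01 ρA a) b + cup0 β (G × G) a (d12 ρB b) := by
  funext g
  simp only [d12_apply, d01_apply, cup1_apply, cup0_apply, Pi.add_apply, hβ _ _ _, map_sub,
    map_add, LinearMap.sub_apply]
  abel

/-- Leibniz `(1,0)`. -/
theorem leibniz10 (hβ : Equivariant ρA ρB ρC β) (a : G → A) (b : B) :
    d12 ρC (cup10 ρB β a b) = cup20 ρB β (d12 ρA a) b - cup1 ρB β G a (d01 ρB b) := by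
  funext g
  simp only [d12_apply, d01_apply, cup1_apply, cup10_apply, cup20_apply, Pi.sub_apply,
    hβ _ _ _, map_sub, map_add, LinearMap.sub_apply, LinearMap.add_apply, map_mul,
    Module.End.mul_apply]
  abel

/-- Leibniz `(0,2)`. -/
theorem leibniz02 (hβ : Equivariant ρA ρB ρC β) (a : A) (b : G × G → B) :
    d23 ρC (cup0 β (G × G) a b) =
      cup1 ρB β (G × G) (d01 ρA a) b + cup0 β (G × G × G) a (d23 ρB b) := by
  funext g
  simp only [d23_apply, d01_apply, cup1_apply, cup0_apply, Pi.add_apply, hβ _ _ _, map_sub,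
    map_add, LinearMap.sub_apply]
  abel

/-- Leibniz `(1,1)`. -/
theorem leibniz11 (hβ : Equivariant ρA ρB ρC β) (a : G → A) (b : G → B) :
    d23 ρC (cup1 ρB β G a b) =
      cup2 ρB β G (d12 ρA a) b - cup1 ρB β (G × G) a (d12 ρB b) := by
  funext g
  simp only [d23_apply, d12_apply, cup1_apply, cup2_apply, Pi.sub_apply,
    hβ _ _ _, map_sub, map_add, LinearMap.sub_apply, LinearMap.add_apply, map_mul,
    Module.End.mul_apply]
  abel

/-- Leibniz `(2,0)`. -/
theorem leibniz20 (hβ : Equivariant ρA ρB ρC β) (a : G × G → A) (b : B) :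
    d23 ρC (cup20 ρB β a b) = cup30 ρB β (d23 ρA a) b + cup2 ρB β G a (d01 ρB b) := by
  funext g
  simp only [d23_apply, d01_apply, cup2_apply, cup20_apply, cup30_apply, Pi.add_apply,
    hβ _ _ _, map_sub, map_add, LinearMap.sub_apply, LinearMap.add_apply, map_mul,
    Module.End.mul_apply, mul_assoc]
  abel

/-- Leibniz `(0,3)`. -/
theorem leibniz03 (hβ : Equivariant ρA ρB ρC β) (a : A) (b : G × G × G → B) :
    d34 ρC (cup0 β (G × G × G) a b) =
      cup1 ρB β (G × G × G) (d01 ρA a) b + cup0 β (G × G × G × G) a (d34 ρB b) := by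
  funext g
  simp only [d34_apply, d01_apply, cup1_apply, cup0_apply, Pi.add_apply, hβ _ _ _, map_sub,
    map_add, LinearMap.sub_apply]
  abel

/-- Leibniz `(1,2)`. -/
theorem leibniz12 (hβ : Equivariant ρA ρB ρC β) (a : G → A) (b : G × G → B) :
    d34 ρC (cup1 ρB β (G × G) a b) =
      cup2 ρB β (G × G) (d12 ρA a) b - cup1 ρB β (G × G × G) a (d23 ρB b) := by
  funext g
  simp only [d34_apply, d23_apply, d12_apply, cup1_apply, cup2_apply, Pi.sub_apply,
    hβ _ _ _, map_sub, map_add, LinearMap.sub_apply, LinearMap.add_apply, map_mul,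
    Module.End.mul_apply]
  abel

/-- Leibniz `(2,1)`. -/
theorem leibniz21 (hβ : Equivariant ρA ρB ρC β) (a : G × G → A) (b : G → B) :
    d34 ρC (cup2 ρB β G a b) =
      cup3 ρB β G (d23 ρA a) b + cup2 ρB β (G × G) a (d12 ρB b) := by
  funext g
  simp only [d34_apply, d23_apply, d12_apply, cup2_apply, cup3_apply, Pi.add_apply,
    hβ _ _ _, map_sub, map_add, LinearMap.sub_apply, LinearMap.add_apply, map_mul,
    Module.End.mul_apply, mul_assoc]
  abel

/-- Leibniz `(3,0)`. -/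
theorem leibniz30 (hβ : Equivariant ρA ρB ρC β) (a : G × G × G → A) (b : B) :
    d34 ρC (cup30 ρB β a b) = cup40 ρB β (d34 ρA a) b - cup3 ρB β G a (d01 ρB b) := by
  funext g
  simp only [d34_apply, d01_apply, cup3_apply, cup30_apply, cup40_apply, Pi.sub_apply,
    hβ _ _ _, map_sub, map_add, LinearMap.sub_apply, LinearMap.add_apply, map_mul,
    Module.End.mul_apply, mul_assoc]
  abel

end Leibniz

/-! ## Consequences: cocycles, coboundaries, explicit primitives -/

section Descent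

variable {A B C : Type*} [AddCommGroup A] [Module k A] [AddCommGroup B] [Module k B]
  [AddCommGroup C] [Module k C]
variable {ρA : Representation k G A} {ρB : Representation k G B} {ρC : Representation k G C}
  {β : A →ₗ[k] B →ₗ[k] C}

/-! ### cocycle ∪ cocycle is a cocycle -/

theorem d01_cup00 (hβ : Equivariant ρA ρB ρC β) {a : A} {b : B}
    (ha : d01 ρA a = 0) (hb : d01 ρB b = 0) : d01 ρC (β a b) = 0 := by
  rw [leibniz00 hβ, ha, hb]; simp

theorem d12_cup01 (hβ : Equivariant ρA ρB ρC β) {a : A} {b : G → B}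
    (ha : d01 ρA a = 0) (hb : d12 ρB b = 0) : d12 ρC (cup0 β G a b) = 0 := by
  rw [leibniz01 hβ, ha, hb]; simp

theorem d12_cup10 (hβ : Equivariant ρA ρB ρC β) {a : G → A} {b : B}
    (ha : d12 ρA a = 0) (hb : d01 ρB b = 0) : d12 ρC (cup10 ρB β a b) = 0 := by
  rw [leibniz10 hβ, ha, hb]; simp

theorem d23_cup02 (hβ : Equivariant ρA ρB ρC β) {a : A} {b : G × G → B}
    (ha : d01 ρA a = 0) (hb : d23 ρB b = 0) : d23 ρC (cup0 β (G × G) a b) = 0 := by
  rw [leibniz02 hβ, ha, hb]; simp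

theorem d23_cup11 (hβ : Equivariant ρA ρB ρC β) {a : G → A} {b : G → B}
    (ha : d12 ρA a = 0) (hb : d12 ρB b = 0) : d23 ρC (cup1 ρB β G a b) = 0 := by
  rw [leibniz11 hβ, ha, hb]; simp

theorem d23_cup20 (hβ : Equivariant ρA ρB ρC β) {a : G × G → A} {b : B}
    (ha : d23 ρA a = 0) (hb : d01 ρB b = 0) : d23 ρC (cup20 ρB β a b) = 0 := by
  rw [leibniz20 hβ, ha, hb]; simp

theorem d34_cup03 (hβ : Equivariant ρA ρB ρC β) {a : A} {b : G × G × G → B}
    (ha : d01 ρA a = 0) (hb : d34 ρB b = 0) : d34 ρC (cup0 β (G × G × G) a b) = 0 := by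
  rw [leibniz03 hβ, ha, hb]; simp

theorem d34_cup12 (hβ : Equivariant ρA ρB ρC β) {a : G → A} {b : G × G → B}
    (ha : d12 ρA a = 0) (hb : d23 ρB b = 0) : d34 ρC (cup1 ρB β (G × G) a b) = 0 := by
  rw [leibniz12 hβ, ha, hb]; simp

theorem d34_cup21 (hβ : Equivariant ρA ρB ρC β) {a : G × G → A} {b : G → B}
    (ha : d23 ρA a = 0) (hb : d12 ρB b = 0) : d34 ρC (cup2 ρB β G a b) = 0 := by
  rw [leibniz21 hβ, ha, hb]; simp

theorem d34_cup30 (hβ : Equivariant ρA ρB ρC β) {a : G × G × G → A} {b : B}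
    (ha : d34 ρA a = 0) (hb : d01 ρB b = 0) : d34 ρC (cup30 ρB β a b) = 0 := by
  rw [leibniz30 hβ, ha, hb]; simp

/-! ### coboundary ∪ cocycle: explicit primitive -/

theorem cup10_d01 (hβ : Equivariant ρA ρB ρC β) (a' : A) {b : B} (hb : d01 ρB b = 0) :
    cup10 ρB β (d01 ρA a') b = d01 ρC (β a' b) := by
  rw [leibniz00 hβ, hb]; simp

theorem cup11_d01 (hβ : Equivariant ρA ρB ρC β) (a' : A) {b : G → B} (hb : d12 ρB b = 0) :
    cup1 ρB β G (d01 ρA a') b = d12 ρC (cup0 β G a' b) := by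
  rw [leibniz01 hβ, hb]; simp

theorem cup12_d01 (hβ : Equivariant ρA ρB ρC β) (a' : A) {b : G × G → B}
    (hb : d23 ρB b = 0) :
    cup1 ρB β (G × G) (d01 ρA a') b = d23 ρC (cup0 β (G × G) a' b) := by
  rw [leibniz02 hβ, hb]; simp

theorem cup20_d12 (hβ : Equivariant ρA ρB ρC β) (a' : G → A) {b : B} (hb : d01 ρB b = 0) :
    cup20 ρB β (d12 ρA a') b = d12 ρC (cup10 ρB β a' b) := by
  rw [leibniz10 hβ, hb]; simp

theorem cup21_d12 (hβ : Equivariant ρA ρB ρC β) (a' : G → A) {b : G → B}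
    (hb : d12 ρB b = 0) :
    cup2 ρB β G (d12 ρA a') b = d23 ρC (cup1 ρB β G a' b) := by
  rw [leibniz11 hβ, hb]; simp

theorem cup30_d23 (hβ : Equivariant ρA ρB ρC β) (a' : G × G → A) {b : B}
    (hb : d01 ρB b = 0) :
    cup30 ρB β (d23 ρA a') b = d23 ρC (cup20 ρB β a' b) := by
  rw [leibniz20 hβ, hb]; simp

/-! ### cocycle ∪ coboundary: explicit primitive -/

theorem cup01_d01 (hβ : Equivariant ρA ρB ρC β) {a : A} (ha : d01 ρA a = 0) (b' : B) :
    cup0 β G a (d01 ρB b') = d01 ρC (β a b') := by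
  rw [leibniz00 hβ, ha]; simp

theorem cup02_d12 (hβ : Equivariant ρA ρB ρC β) {a : A} (ha : d01 ρA a = 0) (b' : G → B) :
    cup0 β (G × G) a (d12 ρB b') = d12 ρC (cup0 β G a b') := by
  rw [leibniz01 hβ, ha]; simp

theorem cup03_d23 (hβ : Equivariant ρA ρB ρC β) {a : A} (ha : d01 ρA a = 0)
    (b' : G × G → B) :
    cup0 β (G × G × G) a (d23 ρB b') = d23 ρC (cup0 β (G × G) a b') := by
  rw [leibniz02 hβ, ha]; simp

theorem cup11_d01_right (hβ : Equivariant ρA ρB ρC β) {a : G → A} (ha : d12 ρA a = 0)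
    (b' : B) :
    cup1 ρB β G a (d01 ρB b') = - d12 ρC (cup10 ρB β a b') := by
  rw [leibniz10 hβ, ha]; simp

theorem cup12_d12_right (hβ : Equivariant ρA ρB ρC β) {a : G → A} (ha : d12 ρA a = 0)
    (b' : G → B) :
    cup1 ρB β (G × G) a (d12 ρB b') = - d23 ρC (cup1 ρB β G a b') := by
  rw [leibniz11 hβ, ha]; simp

theorem cup21_d01_right (hβ : Equivariant ρA ρB ρC β) {a : G × G → A} (ha : d23 ρA a = 0)
    (b' : B) :
    cup2 ρB β G a (d01 ρB b') = d23 ρC (cup20 ρB β a b') := by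
  rw [leibniz20 hβ, ha]; simp

end Descent

/-! ## Naturality: restriction along a group homomorphism, change of coefficients -/

section Naturality

variable {H : Type*} [Group H] (f : H →* G)
variable {A B C : Type*} [AddCommGroup A] [Module k A] [AddCommGroup B] [Module k B]
  [AddCommGroup C] [Module k C]
variable (ρ : Representation k G A) (ρB : Representation k G B) (β : A →ₗ[k] B →ₗ[k] C)

/-- The triple product map `f × f × f`. -/
def map3 : H × H × H → G × G × G := Prod.map f (Prod.map f f)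

/-- The fourfold product map. -/
def map4 : H × H × H × H → G × G × G × G := Prod.map f (Prod.map f (Prod.map f f))

theorem d01_comp_hom (m : A) : d01 (ρ.comp f) m = d01 ρ m ∘ f := rfl

theorem d12_comp_hom (a : G → A) :
    d12 (ρ.comp f) (a ∘ f) = d12 ρ a ∘ Prod.map f f := by
  funext g
  simp only [d12_apply, Function.comp_apply, MonoidHom.comp_apply, Prod.map_fst, Prod.map_snd,
    map_mul]

theorem d23_comp_hom (a : G × G → A) :
    d23 (ρ.comp f) (a ∘ Prod.map f f) = d23 ρ a ∘ map3 f := by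
  funext g
  simp only [d23_apply, map3, Function.comp_apply, MonoidHom.comp_apply, Prod.map_fst,
    Prod.map_snd, Prod.map_apply, map_mul]

theorem d34_comp_hom (a : G × G × G → A) :
    d34 (ρ.comp f) (a ∘ map3 f) = d34 ρ a ∘ map4 f := by
  funext g
  simp only [d34_apply, map3, map4, Function.comp_apply, MonoidHom.comp_apply, Prod.map_fst,
    Prod.map_snd, Prod.map_apply, map_mul]

theorem cup0_comp {X Y : Type*} (φ : Y → X) (a : A) (b : X → B) :
    cup0 β Y a (b ∘ φ) = cup0 β X a b ∘ φ := rfl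

theorem cup1_comp_hom {X Y : Type*} (φ : Y → X) (a : G → A) (b : X → B) :
    cup1 (ρB.comp f) β Y (a ∘ f) (b ∘ φ) = cup1 ρB β X a b ∘ Prod.map f φ := rfl

theorem cup2_comp_hom {X Y : Type*} (φ : Y → X) (a : G × G → A) (b : X → B) :
    cup2 (ρB.comp f) β Y (a ∘ Prod.map f f) (b ∘ φ) =
      cup2 ρB β X a b ∘ Prod.map f (Prod.map f φ) := by
  funext g
  simp only [cup2_apply, Function.comp_apply, MonoidHom.comp_apply, Prod.map_fst, Prod.map_snd,
    Prod.map_apply, map_mul]

theorem cup3_comp_hom {X Y : Type*} (φ : Y → X) (a : G × G × G → A) (b : X → B) :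
    cup3 (ρB.comp f) β Y (a ∘ map3 f) (b ∘ φ) =
      cup3 ρB β X a b ∘ Prod.map f (Prod.map f (Prod.map f φ)) := by
  funext g
  simp only [cup3_apply, map3, Function.comp_apply, MonoidHom.comp_apply, Prod.map_fst,
    Prod.map_snd, Prod.map_apply, map_mul]

theorem cup10_comp_hom (a : G → A) (b : B) :
    cup10 (ρB.comp f) β (a ∘ f) b = cup10 ρB β a b ∘ f := rfl

theorem cup20_comp_hom (a : G × G → A) (b : B) :
    cup20 (ρB.comp f) β (a ∘ Prod.map f f) b = cup20 ρB β a b ∘ Prod.map f f := by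
  funext g
  simp only [cup20_apply, Function.comp_apply, MonoidHom.comp_apply, Prod.map_fst, Prod.map_snd,
    map_mul]

theorem cup30_comp_hom (a : G × G × G → A) (b : B) :
    cup30 (ρB.comp f) β (a ∘ map3 f) b = cup30 ρB β a b ∘ map3 f := by
  funext g
  simp only [cup30_apply, map3, Function.comp_apply, MonoidHom.comp_apply, Prod.map_fst,
    Prod.map_snd, map_mul]

/-- The restricted pairing is equivariant for the restricted actions. -/
theorem Equivariant.comp_hom {ρA : Representation k G A} {ρC : Representation k G C}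
    (hβ : Equivariant ρA ρB ρC β) : Equivariant (ρA.comp f) (ρB.comp f) (ρC.comp f) β :=
  fun h a b => hβ (f h) a b

/-! ### change of coefficients -/

variable {A' B' C' : Type*} [AddCommGroup A'] [Module k A'] [AddCommGroup B'] [Module k B']
  [AddCommGroup C'] [Module k C']

theorem d01_map {ρ' : Representation k G A'} (φ : A →ₗ[k] A')
    (hφ : ∀ g a, φ (ρ g a) = ρ' g (φ a)) (m : A) : d01 ρ' (φ m) = φ ∘ d01 ρ m := by
  funext g; simp only [d01_apply, Function.comp_apply, map_sub, hφ]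

theorem d12_map {ρ' : Representation k G A'} (φ : A →ₗ[k] A')
    (hφ : ∀ g a, φ (ρ g a) = ρ' g (φ a)) (a : G → A) : d12 ρ' (φ ∘ a) = φ ∘ d12 ρ a := by
  funext g; simp only [d12_apply, Function.comp_apply, map_sub, map_add, hφ]

theorem d23_map {ρ' : Representation k G A'} (φ : A →ₗ[k] A')
    (hφ : ∀ g a, φ (ρ g a) = ρ' g (φ a)) (a : G × G → A) : d23 ρ' (φ ∘ a) = φ ∘ d23 ρ a := by
  funext g; simp only [d23_apply, Function.comp_apply, map_sub, map_add, hφ]

theorem d34_map {ρ' : Representation k G A'} (φ : A →ₗ[k] A')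
    (hφ : ∀ g a, φ (ρ g a) = ρ' g (φ a)) (a : G × G × G → A) :
    d34 ρ' (φ ∘ a) = φ ∘ d34 ρ a := by
  funext g; simp only [d34_apply, Function.comp_apply, map_sub, map_add, hφ]

/-- Post-composition of the pairing with a linear map. -/
theorem cup0_postcomp (ψ : C →ₗ[k] C') (X : Type*) (a : A) (b : X → B) :
    cup0 (β.compr₂ ψ) X a b = ψ ∘ cup0 β X a b := rfl

theorem cup1_postcomp (ψ : C →ₗ[k] C') (X : Type*) (a : G → A) (b : X → B) :
    cup1 ρB (β.compr₂ ψ) X a b = ψ ∘ cup1 ρB β X a b := rfl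

theorem cup2_postcomp (ψ : C →ₗ[k] C') (X : Type*) (a : G × G → A) (b : X → B) :
    cup2 ρB (β.compr₂ ψ) X a b = ψ ∘ cup2 ρB β X a b := rfl

theorem cup3_postcomp (ψ : C →ₗ[k] C') (X : Type*) (a : G × G × G → A) (b : X → B) :
    cup3 ρB (β.compr₂ ψ) X a b = ψ ∘ cup3 ρB β X a b := rfl

/-- Pre-composition of the pairing with equivariant maps in both variables. -/
theorem cup1_precomp {ρB' : Representation k G B'} (φA : A' →ₗ[k] A) (φB : B' →ₗ[k] B)
    (hφB : ∀ g b, φB (ρB' g b) = ρB g (φB b)) (X : Type*) (a : G → A') (b : X → B') :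
    cup1 ρB' (β.compl₁₂ φA φB) X a b = cup1 ρB β X (φA ∘ a) (φB ∘ b) := by
  funext g; simp only [cup1_apply, LinearMap.compl₁₂_apply, Function.comp_apply, hφB]

theorem cup2_precomp {ρB' : Representation k G B'} (φA : A' →ₗ[k] A) (φB : B' →ₗ[k] B)
    (hφB : ∀ g b, φB (ρB' g b) = ρB g (φB b)) (X : Type*) (a : G × G → A') (b : X → B') :
    cup2 ρB' (β.compl₁₂ φA φB) X a b = cup2 ρB β X (φA ∘ a) (φB ∘ b) := by
  funext g; simp only [cup2_apply, LinearMap.compl₁₂_apply, Function.comp_apply, hφB]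

theorem cup0_precomp (φA : A' →ₗ[k] A) (φB : B' →ₗ[k] B) (X : Type*) (a : A') (b : X → B') :
    cup0 (β.compl₁₂ φA φB) X a b = cup0 β X (φA a) (φB ∘ b) := rfl

end Naturality

/-! ## Right-invariance (level constancy) is preserved -/

section Invariance

variable {A B C : Type*} [AddCommGroup A] [Module k A] [AddCommGroup B] [Module k B]
  [AddCommGroup C] [Module k C]
variable (U : Subgroup G)

/-- `f : G → X` is right-`U`-invariant. -/
def RInv₁ {X : Type*} (f : G → X) : Prop := ∀ g : G, ∀ u ∈ U, f (g * u) = f g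

/-- `f : G × G → X` is right-`U`-invariant in both variables. -/
def RInv₂ {X : Type*} (f : G × G → X) : Prop :=
  ∀ g g' : G, ∀ u ∈ U, ∀ u' ∈ U, f (g * u, g' * u') = f (g, g')

/-- `f : G × G × G → X` is right-`U`-invariant in all variables. -/
def RInv₃ {X : Type*} (f : G × G × G → X) : Prop :=
  ∀ g g' g'' : G, ∀ u ∈ U, ∀ u' ∈ U, ∀ u'' ∈ U, f (g * u, g' * u', g'' * u'') = f (g, g', g'')

/-- `f : G × G × G × G → X` is right-`U`-invariant in all variables. -/
def RInv₄ {X : Type*} (f : G × G × G × G → X) : Prop :=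
  ∀ g₁ g₂ g₃ g₄ : G, ∀ u₁ ∈ U, ∀ u₂ ∈ U, ∀ u₃ ∈ U, ∀ u₄ ∈ U,
    f (g₁ * u₁, g₂ * u₂, g₃ * u₃, g₄ * u₄) = f (g₁, g₂, g₃, g₄)

/-- `U` acts trivially on `A`. -/
def ActsTrivially (ρ : Representation k G A) : Prop := ∀ u ∈ U, ∀ a : A, ρ u a = a

variable {U}

lemma swap_mul [hU : U.Normal] (g : G) {u : G} (hu : u ∈ U) :
    ∃ v ∈ U, u * g = g * v :=
  ⟨g⁻¹ * u * g, by simpa using hU.conj_mem u hu g⁻¹, by group⟩

theorem rinv₁_d01 {ρ : Representation k G A} (m : A) (hm : ∀ u ∈ U, ρ u m = m) :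
    RInv₁ U (d01 ρ m) := by
  intro g u hu
  simp only [d01_apply, map_mul, Module.End.mul_apply, hm u hu]

theorem rinv₂_d12 [U.Normal] {ρ : Representation k G A} (hρ : ActsTrivially U ρ) {f : G → A}
    (hf : RInv₁ U f) : RInv₂ U (d12 ρ f) := by
  intro g g' u hu u' hu'
  obtain ⟨v, hv, hvg⟩ := swap_mul g' hu
  have h1 : g * u * (g' * u') = g * g' * (v * u') := by
    rw [mul_assoc g u, ← mul_assoc u g', hvg]; group
  simp only [d12_apply, map_mul, Module.End.mul_apply, hρ u hu, hf g' u' hu', hf g u hu, h1,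
    hf (g * g') (v * u') (U.mul_mem hv hu')]

theorem rinv₃_d23 [U.Normal] {ρ : Representation k G A} (hρ : ActsTrivially U ρ)
    {f : G × G → A} (hf : RInv₂ U f) : RInv₃ U (d23 ρ f) := by
  intro g g' g'' u hu u' hu' u'' hu''
  obtain ⟨v, hv, hvg⟩ := swap_mul g' hu
  obtain ⟨v', hv', hvg'⟩ := swap_mul g'' hu'
  have h1 : g * u * (g' * u') = g * g' * (v * u') := by
    rw [mul_assoc g u, ← mul_assoc u g', hvg]; group
  have h2 : g' * u' * (g'' * u'') = g' * g'' * (v' * u'') := by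
    rw [mul_assoc g' u', ← mul_assoc u' g'', hvg']; group
  simp only [d23_apply, map_mul, Module.End.mul_apply, hρ u hu, h1, h2,
    hf g' g'' u' hu' u'' hu'', hf (g * g') g'' (v * u') (U.mul_mem hv hu') u'' hu'',
    hf g (g' * g'') u hu (v' * u'') (U.mul_mem hv' hu''), hf g g' u hu u' hu']

theorem rinv₄_d34 [U.Normal] {ρ : Representation k G A} (hρ : ActsTrivially U ρ)
    {f : G × G × G → A} (hf : RInv₃ U f) : RInv₄ U (d34 ρ f) := by
  intro g₁ g₂ g₃ g₄ u₁ hu₁ u₂ hu₂ u₃ hu₃ u₄ hu₄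
  obtain ⟨v₁, hv₁, e₁⟩ := swap_mul g₂ hu₁
  obtain ⟨v₂, hv₂, e₂⟩ := swap_mul g₃ hu₂
  obtain ⟨v₃, hv₃, e₃⟩ := swap_mul g₄ hu₃
  have h1 : g₁ * u₁ * (g₂ * u₂) = g₁ * g₂ * (v₁ * u₂) := by
    rw [mul_assoc g₁ u₁, ← mul_assoc u₁ g₂, e₁]; group
  have h2 : g₂ * u₂ * (g₃ * u₃) = g₂ * g₃ * (v₂ * u₃) := by
    rw [mul_assoc g₂ u₂, ← mul_assoc u₂ g₃, e₂]; group
  have h3 : g₃ * u₃ * (g₄ * u₄) = g₃ * g₄ * (v₃ * u₄) := by
    rw [mul_assoc g₃ u₃, ← mul_assoc u₃ g₄, e₃]; group
  simp only [d34_apply, map_mul, Module.End.mul_apply, hρ u₁ hu₁, h1, h2, h3,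
    hf g₂ g₃ g₄ u₂ hu₂ u₃ hu₃ u₄ hu₄,
    hf (g₁ * g₂) g₃ g₄ (v₁ * u₂) (U.mul_mem hv₁ hu₂) u₃ hu₃ u₄ hu₄,
    hf g₁ (g₂ * g₃) g₄ u₁ hu₁ (v₂ * u₃) (U.mul_mem hv₂ hu₃) u₄ hu₄,
    hf g₁ g₂ (g₃ * g₄) u₁ hu₁ u₂ hu₂ (v₃ * u₄) (U.mul_mem hv₃ hu₄),
    hf g₁ g₂ g₃ u₁ hu₁ u₂ hu₂ u₃ hu₃]

variable {ρB : Representation k G B} {β : A →ₗ[k] B →ₗ[k] C}

theorem rinv₁_cup0 (a : A) {b : G → B} (hb : RInv₁ U b) : RInv₁ U (cup0 β G a b) := by
  intro g u hu; simp only [cup0_apply, hb g u hu]

theorem rinv₂_cup0 (a : A) {b : G × G → B} (hb : RInv₂ U b) : RInv₂ U (cup0 β (G × G) a b) := by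
  intro g g' u hu u' hu'; simp only [cup0_apply, hb g g' u hu u' hu']

theorem rinv₃_cup0 (a : A) {b : G × G × G → B} (hb : RInv₃ U b) :
    RInv₃ U (cup0 β (G × G × G) a b) := by
  intro g g' g'' u hu u' hu' u'' hu''; simp only [cup0_apply, hb g g' g'' u hu u' hu' u'' hu'']

theorem rinv₁_cup10 (hρ : ActsTrivially U ρB) {a : G → A} (ha : RInv₁ U a) (b : B) :
    RInv₁ U (cup10 ρB β a b) := by
  intro g u hu
  simp only [cup10_apply, ha g u hu, map_mul, Module.End.mul_apply, hρ u hu]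

theorem rinv₂_cup20 (hρ : ActsTrivially U ρB) {a : G × G → A} (ha : RInv₂ U a) (b : B) :
    RInv₂ U (cup20 ρB β a b) := by
  intro g g' u hu u' hu'
  simp only [cup20_apply, ha g g' u hu u' hu', map_mul, Module.End.mul_apply, hρ u hu,
    hρ u' hu']

theorem rinv₃_cup30 (hρ : ActsTrivially U ρB) {a : G × G × G → A} (ha : RInv₃ U a) (b : B) :
    RInv₃ U (cup30 ρB β a b) := by
  intro g g' g'' u hu u' hu' u'' hu''
  simp only [cup30_apply, ha g g' g'' u hu u' hu' u'' hu'', map_mul, Module.End.mul_apply,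
    hρ u hu, hρ u' hu', hρ u'' hu'']

theorem rinv₂_cup11 (hρ : ActsTrivially U ρB) {a : G → A} (ha : RInv₁ U a) {b : G → B}
    (hb : RInv₁ U b) : RInv₂ U (cup1 ρB β G a b) := by
  intro g g' u hu u' hu'
  simp only [cup1_apply, ha g u hu, hb g' u' hu', map_mul, Module.End.mul_apply, hρ u hu]

theorem rinv₃_cup12 (hρ : ActsTrivially U ρB) {a : G → A} (ha : RInv₁ U a) {b : G × G → B}
    (hb : RInv₂ U b) : RInv₃ U (cup1 ρB β (G × G) a b) := by
  intro g g' g'' u hu u' hu' u'' hu''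
  simp only [cup1_apply, ha g u hu, hb g' g'' u' hu' u'' hu'', map_mul, Module.End.mul_apply,
    hρ u hu]

theorem rinv₃_cup21 (hρ : ActsTrivially U ρB) {a : G × G → A} (ha : RInv₂ U a) {b : G → B}
    (hb : RInv₁ U b) : RInv₃ U (cup2 ρB β G a b) := by
  intro g g' g'' u hu u' hu' u'' hu''
  simp only [cup2_apply, ha g g' u hu u' hu', hb g'' u'' hu'', map_mul, Module.End.mul_apply,
    hρ u hu, hρ u' hu']

end Invariance

/-! ## Bridge to Mathlib's `groupCohomology` low-degree API (all by `rfl`) -/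

section Bridge

universe u w

variable {k G : Type u} [CommRing k] [Group G] (A : Rep.{max u w} k G)

theorem d₀₁_hom_eq : (groupCohomology.d₀₁ A).hom = d01 A.ρ := rfl

theorem d₁₂_hom_eq : (groupCohomology.d₁₂ A).hom = d12 A.ρ := rfl

theorem d₂₃_hom_eq : (groupCohomology.d₂₃ A).hom = d23 A.ρ := rfl

theorem mem_cocycles₁_iff_d12 (f : G → A) :
    f ∈ groupCohomology.cocycles₁ A ↔ d12 A.ρ f = 0 := Iff.rfl

theorem mem_cocycles₂_iff_d23 (f : G × G → A) :
    f ∈ groupCohomology.cocycles₂ A ↔ d23 A.ρ f = 0 := Iff.rfl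

theorem mem_coboundaries₁_iff_d01 (f : G → A) :
    f ∈ groupCohomology.coboundaries₁ A ↔ ∃ m : A, d01 A.ρ m = f := Iff.rfl

theorem mem_coboundaries₂_iff_d12 (f : G × G → A) :
    f ∈ groupCohomology.coboundaries₂ A ↔ ∃ x : G → A, d12 A.ρ x = f := Iff.rfl

end Bridge

end Fermat.Agent.S55.Formal.CupWindow
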