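/-
S55 / Formal / CupCone  (helper33)

Cup product of the mapping cone of the localisation maps with the global complex.

`G` a group, `f v : H v →* G` a family of "local" groups (`v : ι`, dependent types).  For a
representation `ρ` of `G` on `A`:

* `Loc^j(A) := ∀ v, (H v)^j → A`  with componentwise differentials `e01, e12, e23`
  (for the restricted representations `ρ.comp (f v)`),
* restriction maps `r0, r1, r2, r3, r4 : C^j(G, A) → Loc^j(A)`,  `a ↦ (a ∘ (f v)^j)_v`,
* `Cone^i(A) := C^i(G, A) × Loc^{i-1}(A)` with the differential of `Formal/ConeWindow.lean`: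
  `k (a, b) = (d a, r a - e b)`.

For an equivariant pairing `β : A × B → C` the cup product
`Cone^i(A) × C^j(G, B) → Cone^{i+j}(C)`,  `(a, b) ∪ c = (a ∪ c, (b_v ∪ res_v c)_v)`
satisfies the Leibniz rule `k (x ∪ c) = k x ∪ c + (-1)^i x ∪ d c`.
Shapes `(1,0), (1,1), (2,0)` (full Leibniz, total degree `≤ 2 → 3`) and `(2,1), (3,0), (1,2)`
(cocycle ∪ cocycle is a cocycle, total degree `3 → 4`), with the explicit primitives needed for
the descent to cohomology and for the `δ`-compatibility of the pairings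
`H²_c × H¹ → H³_c`, `H³_c × H⁰ → H³_c`.
-/
import Mathlib
import Fermat.Agent.S55.Formal.CupWindow
import Fermat.Agent.S55.Formal.ConeWindow

set_option autoImplicit false
set_option linter.unusedSimpArgs false

namespace Fermat.Agent.S55.Formal.CupCone

open Fermat.Agent.S55.Formal.CupWindow Fermat.Agent.S55.Formal.ConeWindow

/-! ## Restriction maps -/

section Res

variable (k : Type*) [CommRing k] (A : Type*) [AddCommGroup A] [Module k A]
variable {G : Type*} [Group G] {ι : Type*} {H : ι → Type*} [∀ v, Group (H v)]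
  (f : ∀ v, H v →* G)

/-- Restriction `C⁰(G, A) = A → Loc⁰(A)`: the diagonal. -/
def r0 (ι : Type*) : A →ₗ[k] (ι → A) := LinearMap.pi fun _ => LinearMap.id

/-- Restriction `C¹(G, A) → Loc¹(A)`. -/
def r1 : (G → A) →ₗ[k] (∀ v, H v → A) := LinearMap.pi fun v => LinearMap.funLeft k A (f v)

/-- Restriction `C²(G, A) → Loc²(A)`. -/
def r2 : (G × G → A) →ₗ[k] (∀ v, H v × H v → A) :=
  LinearMap.pi fun v => LinearMap.funLeft k A (Prod.map (f v) (f v))

/-- Restriction `C³(G, A) → Loc³(A)`. -/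
def r3 : (G × G × G → A) →ₗ[k] (∀ v, H v × H v × H v → A) :=
  LinearMap.pi fun v => LinearMap.funLeft k A (map3 (f v))

/-- Restriction `C⁴(G, A) → Loc⁴(A)`. -/
def r4 : (G × G × G × G → A) →ₗ[k] (∀ v, H v × H v × H v × H v → A) :=
  LinearMap.pi fun v => LinearMap.funLeft k A (map4 (f v))

variable {k A}

@[simp] lemma r0_apply (a : A) (v : ι) : r0 k A ι a v = a := rfl
@[simp] lemma r1_apply (a : G → A) (v : ι) : r1 k A f a v = a ∘ f v := rfl
@[simp] lemma r2_apply (a : G × G → A) (v : ι) :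
    r2 k A f a v = a ∘ Prod.map (f v) (f v) := rfl
@[simp] lemma r3_apply (a : G × G × G → A) (v : ι) : r3 k A f a v = a ∘ map3 (f v) := rfl
@[simp] lemma r4_apply (a : G × G × G × G → A) (v : ι) : r4 k A f a v = a ∘ map4 (f v) := rfl

end Res

variable {k : Type*} [CommRing k] {G : Type*} [Group G]
variable {ι : Type*} {H : ι → Type*} [∀ v, Group (H v)] (f : ∀ v, H v →* G)

/-! ## Local complexes, restriction maps, cone differentials -/

section Loc

variable {A : Type*} [AddCommGroup A] [Module k A] (ρ : Representation k G A)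

/-- Componentwise `d⁰` on `Loc⁰(A) = ι → A`. -/
def e01 : (ι → A) →ₗ[k] (∀ v, H v → A) :=
  LinearMap.pi fun v => d01 (ρ.comp (f v)) ∘ₗ LinearMap.proj v

/-- Componentwise `d¹` on `Loc¹(A)`. -/
def e12 : (∀ v, H v → A) →ₗ[k] (∀ v, H v × H v → A) :=
  LinearMap.pi fun v => d12 (ρ.comp (f v)) ∘ₗ LinearMap.proj v

/-- Componentwise `d²` on `Loc²(A)`. -/
def e23 : (∀ v, H v × H v → A) →ₗ[k] (∀ v, H v × H v × H v → A) :=
  LinearMap.pi fun v => d23 (ρ.comp (f v)) ∘ₗ LinearMap.proj v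

/-- Componentwise `d³` on `Loc³(A)`. -/
def e34 : (∀ v, H v × H v × H v → A) →ₗ[k] (∀ v, H v × H v × H v × H v → A) :=
  LinearMap.pi fun v => d34 (ρ.comp (f v)) ∘ₗ LinearMap.proj v

@[simp] lemma e01_apply (b : ι → A) (v : ι) : e01 f ρ b v = d01 (ρ.comp (f v)) (b v) := rfl
@[simp] lemma e12_apply (b : ∀ v, H v → A) (v : ι) :
    e12 f ρ b v = d12 (ρ.comp (f v)) (b v) := rfl
@[simp] lemma e23_apply (b : ∀ v, H v × H v → A) (v : ι) :
    e23 f ρ b v = d23 (ρ.comp (f v)) (b v) := rfl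
@[simp] lemma e34_apply (b : ∀ v, H v × H v × H v → A) (v : ι) :
    e34 f ρ b v = d34 (ρ.comp (f v)) (b v) := rfl

/-- The restriction maps form a chain map. -/
theorem r1_d01 (m : A) : r1 k A f (d01 ρ m) = e01 f ρ (r0 k A ι m) := by
  funext v; rfl

theorem r2_d12 (a : G → A) : r2 k A f (d12 ρ a) = e12 f ρ (r1 k A f a) := by
  funext v; exact (d12_comp_hom (f v) ρ a).symm

theorem r3_d23 (a : G × G → A) : r3 k A f (d23 ρ a) = e23 f ρ (r2 k A f a) := by
  funext v; exact (d23_comp_hom (f v) ρ a).symm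

theorem r4_d34 (a : G × G × G → A) : r4 k A f (d34 ρ a) = e34 f ρ (r3 k A f a) := by
  funext v; exact (d34_comp_hom (f v) ρ a).symm

theorem r1_comp_d01 : r1 k A f ∘ₗ d01 ρ = e01 f ρ ∘ₗ r0 k A ι :=
  LinearMap.ext fun m => r1_d01 f ρ m

theorem r2_comp_d12 : r2 k A f ∘ₗ d12 ρ = e12 f ρ ∘ₗ r1 k A f :=
  LinearMap.ext fun a => r2_d12 f ρ a

theorem r3_comp_d23 : r3 k A f ∘ₗ d23 ρ = e23 f ρ ∘ₗ r2 k A f :=
  LinearMap.ext fun a => r3_d23 f ρ a

theorem r4_comp_d34 : r4 k A f ∘ₗ d34 ρ = e34 f ρ ∘ₗ r3 k A f :=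
  LinearMap.ext fun a => r4_d34 f ρ a

theorem e12_e01 (b : ι → A) : e12 f ρ (e01 f ρ b) = 0 := by
  funext v; exact d12_d01 (ρ.comp (f v)) (b v)

theorem e23_e12 (b : ∀ v, H v → A) : e23 f ρ (e12 f ρ b) = 0 := by
  funext v; exact d23_d12 (ρ.comp (f v)) (b v)

theorem e34_e23 (b : ∀ v, H v × H v → A) : e34 f ρ (e23 f ρ b) = 0 := by
  funext v; exact d34_d23 (ρ.comp (f v)) (b v)

theorem e12_comp_e01 : e12 f ρ ∘ₗ e01 f ρ = 0 := LinearMap.ext fun b => e12_e01 f ρ b
theorem e23_comp_e12 : e23 f ρ ∘ₗ e12 f ρ = 0 := LinearMap.ext fun b => e23_e12 f ρ b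
theorem e34_comp_e23 : e34 f ρ ∘ₗ e23 f ρ = 0 := LinearMap.ext fun b => e34_e23 f ρ b

/-- The cone differential `Cone¹ → Cone²`. -/
def k12 : ((G → A) × (ι → A)) →ₗ[k] ((G × G → A) × (∀ v, H v → A)) :=
  coneD (d12 ρ) (r1 k A f) (e01 f ρ)

/-- The cone differential `Cone² → Cone³`. -/
def k23 : ((G × G → A) × (∀ v, H v → A)) →ₗ[k] ((G × G × G → A) × (∀ v, H v × H v → A)) :=
  coneD (d23 ρ) (r2 k A f) (e12 f ρ)

/-- The cone differential `Cone³ → Cone⁴`. -/
def k34 : ((G × G × G → A) × (∀ v, H v × H v → A)) →ₗ[k]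
    ((G × G × G × G → A) × (∀ v, H v × H v × H v → A)) :=
  coneD (d34 ρ) (r3 k A f) (e23 f ρ)

@[simp] lemma k12_apply (x : (G → A) × (ι → A)) :
    k12 f ρ x = (d12 ρ x.1, r1 k A f x.1 - e01 f ρ x.2) := rfl

@[simp] lemma k23_apply (x : (G × G → A) × (∀ v, H v → A)) :
    k23 f ρ x = (d23 ρ x.1, r2 k A f x.1 - e12 f ρ x.2) := rfl

@[simp] lemma k34_apply (x : (G × G × G → A) × (∀ v, H v × H v → A)) :
    k34 f ρ x = (d34 ρ x.1, r3 k A f x.1 - e23 f ρ x.2) := rfl

theorem k23_comp_k12 : k23 f ρ ∘ₗ k12 f ρ = 0 :=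
  coneD_comp_coneD _ _ _ _ _ _ (d23_comp_d12 ρ) (e12_comp_e01 f ρ) (r2_comp_d12 f ρ)

theorem k34_comp_k23 : k34 f ρ ∘ₗ k23 f ρ = 0 :=
  coneD_comp_coneD _ _ _ _ _ _ (d34_comp_d23 ρ) (e23_comp_e12 f ρ) (r3_comp_d23 f ρ)

end Loc

/-! ## The cone cup products -/

section ConeCup

variable {A B C : Type*} [AddCommGroup A] [Module k A] [AddCommGroup B] [Module k B]
  [AddCommGroup C] [Module k C]
variable (ρB : Representation k G B) (β : A →ₗ[k] B →ₗ[k] C)

/-- `Cone¹(A) × C⁰(B) → Cone¹(C)`. -/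
def ccup10 : ((G → A) × (ι → A)) →ₗ[k] B →ₗ[k] ((G → C) × (ι → C)) :=
  LinearMap.mk₂ k (fun x c => (cup10 ρB β x.1 c, fun v => β (x.2 v) c))
    (fun x x' c => by
      refine Prod.ext ?_ ?_
      · simp only [Prod.fst_add, map_add, LinearMap.add_apply]
      · funext v; simp only [Prod.snd_add, Pi.add_apply, map_add, LinearMap.add_apply])
    (fun r x c => by
      refine Prod.ext ?_ ?_
      · simp only [Prod.smul_fst, map_smul, LinearMap.smul_apply]
      · funext v; simp only [Prod.smul_snd, Pi.smul_apply, map_smul, LinearMap.smul_apply])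
    (fun x c c' => by
      refine Prod.ext ?_ ?_
      · simp only [map_add, Prod.fst_add]
      · funext v; simp only [map_add, Prod.snd_add, Pi.add_apply])
    (fun r x c => by
      refine Prod.ext ?_ ?_
      · simp only [map_smul, Prod.smul_fst]
      · funext v; simp only [map_smul, Prod.smul_snd, Pi.smul_apply])

/-- `Cone¹(A) × C¹(B) → Cone²(C)`. -/
def ccup11 : ((G → A) × (ι → A)) →ₗ[k] (G → B) →ₗ[k] ((G × G → C) × (∀ v, H v → C)) :=
  LinearMap.mk₂ k
    (fun x c => (cup1 ρB β G x.1 c, fun v => cup0 β (H v) (x.2 v) (c ∘ f v)))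
    (fun x x' c => by
      refine Prod.ext ?_ ?_
      · simp only [Prod.fst_add, map_add, LinearMap.add_apply]
      · funext v; simp only [Prod.snd_add, Pi.add_apply, map_add, LinearMap.add_apply])
    (fun r x c => by
      refine Prod.ext ?_ ?_
      · simp only [Prod.smul_fst, map_smul, LinearMap.smul_apply]
      · funext v; simp only [Prod.smul_snd, Pi.smul_apply, map_smul, LinearMap.smul_apply])
    (fun x c c' => by
      refine Prod.ext ?_ ?_
      · simp only [map_add, Prod.fst_add]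
      · funext v
        have : (c + c') ∘ f v = c ∘ f v + c' ∘ f v := rfl
        simp only [this, map_add, Prod.snd_add, Pi.add_apply])
    (fun r x c => by
      refine Prod.ext ?_ ?_
      · simp only [map_smul, Prod.smul_fst]
      · funext v
        have : (r • c) ∘ f v = r • (c ∘ f v) := rfl
        simp only [this, map_smul, Prod.smul_snd, Pi.smul_apply])

/-- `Cone²(A) × C⁰(B) → Cone²(C)`. -/
def ccup20 :
    ((G × G → A) × (∀ v, H v → A)) →ₗ[k] B →ₗ[k] ((G × G → C) × (∀ v, H v → C)) :=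
  LinearMap.mk₂ k
    (fun x c => (cup20 ρB β x.1 c, fun v => cup10 (ρB.comp (f v)) β (x.2 v) c))
    (fun x x' c => by
      refine Prod.ext ?_ ?_
      · simp only [Prod.fst_add, map_add, LinearMap.add_apply]
      · funext v; simp only [Prod.snd_add, Pi.add_apply, map_add, LinearMap.add_apply])
    (fun r x c => by
      refine Prod.ext ?_ ?_
      · simp only [Prod.smul_fst, map_smul, LinearMap.smul_apply]
      · funext v; simp only [Prod.smul_snd, Pi.smul_apply, map_smul, LinearMap.smul_apply])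
    (fun x c c' => by
      refine Prod.ext ?_ ?_
      · simp only [map_add, Prod.fst_add]
      · funext v; simp only [map_add, Prod.snd_add, Pi.add_apply])
    (fun r x c => by
      refine Prod.ext ?_ ?_
      · simp only [map_smul, Prod.smul_fst]
      · funext v; simp only [map_smul, Prod.smul_snd, Pi.smul_apply])

/-- `Cone²(A) × C¹(B) → Cone³(C)`. -/
def ccup21 : ((G × G → A) × (∀ v, H v → A)) →ₗ[k] (G → B) →ₗ[k]
    ((G × G × G → C) × (∀ v, H v × H v → C)) :=
  LinearMap.mk₂ k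
    (fun x c => (cup2 ρB β G x.1 c,
      fun v => cup1 (ρB.comp (f v)) β (H v) (x.2 v) (c ∘ f v)))
    (fun x x' c => by
      refine Prod.ext ?_ ?_
      · simp only [Prod.fst_add, map_add, LinearMap.add_apply]
      · funext v; simp only [Prod.snd_add, Pi.add_apply, map_add, LinearMap.add_apply])
    (fun r x c => by
      refine Prod.ext ?_ ?_
      · simp only [Prod.smul_fst, map_smul, LinearMap.smul_apply]
      · funext v; simp only [Prod.smul_snd, Pi.smul_apply, map_smul, LinearMap.smul_apply])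
    (fun x c c' => by
      refine Prod.ext ?_ ?_
      · simp only [map_add, Prod.fst_add]
      · funext v
        have : (c + c') ∘ f v = c ∘ f v + c' ∘ f v := rfl
        simp only [this, map_add, Prod.snd_add, Pi.add_apply])
    (fun r x c => by
      refine Prod.ext ?_ ?_
      · simp only [map_smul, Prod.smul_fst]
      · funext v
        have : (r • c) ∘ f v = r • (c ∘ f v) := rfl
        simp only [this, map_smul, Prod.smul_snd, Pi.smul_apply])

/-- `Cone³(A) × C⁰(B) → Cone³(C)`. -/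
def ccup30 : ((G × G × G → A) × (∀ v, H v × H v → A)) →ₗ[k] B →ₗ[k]
    ((G × G × G → C) × (∀ v, H v × H v → C)) :=
  LinearMap.mk₂ k
    (fun x c => (cup30 ρB β x.1 c, fun v => cup20 (ρB.comp (f v)) β (x.2 v) c))
    (fun x x' c => by
      refine Prod.ext ?_ ?_
      · simp only [Prod.fst_add, map_add, LinearMap.add_apply]
      · funext v; simp only [Prod.snd_add, Pi.add_apply, map_add, LinearMap.add_apply])
    (fun r x c => by
      refine Prod.ext ?_ ?_
      · simp only [Prod.smul_fst, map_smul, LinearMap.smul_apply]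
      · funext v; simp only [Prod.smul_snd, Pi.smul_apply, map_smul, LinearMap.smul_apply])
    (fun x c c' => by
      refine Prod.ext ?_ ?_
      · simp only [map_add, Prod.fst_add]
      · funext v; simp only [map_add, Prod.snd_add, Pi.add_apply])
    (fun r x c => by
      refine Prod.ext ?_ ?_
      · simp only [map_smul, Prod.smul_fst]
      · funext v; simp only [map_smul, Prod.smul_snd, Pi.smul_apply])

/-- `Cone¹(A) × C²(B) → Cone³(C)`. -/
def ccup12 : ((G → A) × (ι → A)) →ₗ[k] (G × G → B) →ₗ[k]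
    ((G × G × G → C) × (∀ v, H v × H v → C)) :=
  LinearMap.mk₂ k
    (fun x c => (cup1 ρB β (G × G) x.1 c,
      fun v => cup0 β (H v × H v) (x.2 v) (c ∘ Prod.map (f v) (f v))))
    (fun x x' c => by
      refine Prod.ext ?_ ?_
      · simp only [Prod.fst_add, map_add, LinearMap.add_apply]
      · funext v; simp only [Prod.snd_add, Pi.add_apply, map_add, LinearMap.add_apply])
    (fun r x c => by
      refine Prod.ext ?_ ?_
      · simp only [Prod.smul_fst, map_smul, LinearMap.smul_apply]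
      · funext v; simp only [Prod.smul_snd, Pi.smul_apply, map_smul, LinearMap.smul_apply])
    (fun x c c' => by
      refine Prod.ext ?_ ?_
      · simp only [map_add, Prod.fst_add]
      · funext v
        have : (c + c') ∘ Prod.map (f v) (f v) =
            c ∘ Prod.map (f v) (f v) + c' ∘ Prod.map (f v) (f v) := rfl
        simp only [this, map_add, Prod.snd_add, Pi.add_apply])
    (fun r x c => by
      refine Prod.ext ?_ ?_
      · simp only [map_smul, Prod.smul_fst]
      · funext v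
        have : (r • c) ∘ Prod.map (f v) (f v) = r • (c ∘ Prod.map (f v) (f v)) := rfl
        simp only [this, map_smul, Prod.smul_snd, Pi.smul_apply])

@[simp] lemma ccup10_apply (x : (G → A) × (ι → A)) (c : B) :
    ccup10 ρB β x c = (cup10 ρB β x.1 c, fun v => β (x.2 v) c) := rfl

@[simp] lemma ccup11_apply (x : (G → A) × (ι → A)) (c : G → B) :
    ccup11 f ρB β x c =
      (cup1 ρB β G x.1 c, fun v => cup0 β (H v) (x.2 v) (c ∘ f v)) := rfl

@[simp] lemma ccup20_apply (x : (G × G → A) × (∀ v, H v → A)) (c : B) :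
    ccup20 f ρB β x c =
      (cup20 ρB β x.1 c, fun v => cup10 (ρB.comp (f v)) β (x.2 v) c) := rfl

@[simp] lemma ccup21_apply (x : (G × G → A) × (∀ v, H v → A)) (c : G → B) :
    ccup21 f ρB β x c =
      (cup2 ρB β G x.1 c, fun v => cup1 (ρB.comp (f v)) β (H v) (x.2 v) (c ∘ f v)) := rfl

@[simp] lemma ccup30_apply (x : (G × G × G → A) × (∀ v, H v × H v → A)) (c : B) :
    ccup30 f ρB β x c =
      (cup30 ρB β x.1 c, fun v => cup20 (ρB.comp (f v)) β (x.2 v) c) := rfl

@[simp] lemma ccup12_apply (x : (G → A) × (ι → A)) (c : G × G → B) :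
    ccup12 f ρB β x c =
      (cup1 ρB β (G × G) x.1 c,
        fun v => cup0 β (H v × H v) (x.2 v) (c ∘ Prod.map (f v) (f v))) := rfl

end ConeCup

/-! ## The Leibniz rule on the cone -/

section ConeLeibniz

variable {A B C : Type*} [AddCommGroup A] [Module k A] [AddCommGroup B] [Module k B]
  [AddCommGroup C] [Module k C]
variable {ρA : Representation k G A} {ρB : Representation k G B} {ρC : Representation k G C}
  {β : A →ₗ[k] B →ₗ[k] C}

/-- Cone Leibniz, shape `(1,0)`:  `k (x ∪ c) = k x ∪ c - x ∪ d c`. -/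
theorem cone_leibniz10 (hβ : Equivariant ρA ρB ρC β) (x : (G → A) × (ι → A)) (c : B) :
    k12 f ρC (ccup10 ρB β x c) =
      ccup20 f ρB β (k12 f ρA x) c - ccup11 f ρB β x (d01 ρB c) := by
  refine Prod.ext ?_ ?_
  · simp only [k12_apply, ccup10_apply, ccup20_apply, ccup11_apply, Prod.fst_sub]
    exact leibniz10 hβ x.1 c
  · funext v
    simp only [k12_apply, ccup10_apply, ccup20_apply, ccup11_apply, Prod.snd_sub, Pi.sub_apply,
      r1_apply, e01_apply, map_sub, LinearMap.sub_apply]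
    rw [← cup10_comp_hom (f v) ρB β x.1 c, leibniz00 (hβ.comp_hom (f v) ρB β) (x.2 v) c,
      ← d01_comp_hom (f v) ρB c]
    abel

/-- Cone Leibniz, shape `(1,1)`:  `k (x ∪ c) = k x ∪ c - x ∪ d c`. -/
theorem cone_leibniz11 (hβ : Equivariant ρA ρB ρC β) (x : (G → A) × (ι → A)) (c : G → B) :
    k23 f ρC (ccup11 f ρB β x c) =
      ccup21 f ρB β (k12 f ρA x) c - ccup12 f ρB β x (d12 ρB c) := by
  refine Prod.ext ?_ ?_
  · simp only [k23_apply, k12_apply, ccup11_apply, ccup21_apply, ccup12_apply, Prod.fst_sub]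
    exact leibniz11 hβ x.1 c
  · funext v
    simp only [k23_apply, k12_apply, ccup11_apply, ccup21_apply, ccup12_apply, Prod.snd_sub,
      Pi.sub_apply, r2_apply, r1_apply, e12_apply, e01_apply, map_sub, LinearMap.sub_apply]
    rw [← cup1_comp_hom (f v) ρB β (f v) x.1 c,
      leibniz01 (hβ.comp_hom (f v) ρB β) (x.2 v) (c ∘ f v), ← d12_comp_hom (f v) ρB c]
    abel

/-- Cone Leibniz, shape `(2,0)`:  `k (x ∪ c) = k x ∪ c + x ∪ d c`. -/
theorem cone_leibniz20 (hβ : Equivariant ρA ρB ρC β) (x : (G × G → A) × (∀ v, H v → A))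
    (c : B) :
    k23 f ρC (ccup20 f ρB β x c) =
      ccup30 f ρB β (k23 f ρA x) c + ccup21 f ρB β x (d01 ρB c) := by
  refine Prod.ext ?_ ?_
  · simp only [k23_apply, ccup20_apply, ccup30_apply, ccup21_apply, Prod.fst_add]
    exact leibniz20 hβ x.1 c
  · funext v
    simp only [k23_apply, ccup20_apply, ccup30_apply, ccup21_apply, Prod.snd_add, Pi.add_apply,
      Pi.sub_apply, r2_apply, e12_apply, map_sub, LinearMap.sub_apply]
    rw [← cup20_comp_hom (f v) ρB β x.1 c, leibniz10 (hβ.comp_hom (f v) ρB β) (x.2 v) c,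
      ← d01_comp_hom (f v) ρB c]
    abel

/-! ### total degree `3 → 4`: the two components -/

theorem k34_ccup21_fst (hβ : Equivariant ρA ρB ρC β) (x : (G × G → A) × (∀ v, H v → A))
    (c : G → B) :
    (k34 f ρC (ccup21 f ρB β x c)).1 =
      cup3 ρB β G (k23 f ρA x).1 c + cup2 ρB β (G × G) x.1 (d12 ρB c) := by
  simp only [k34_apply, k23_apply, ccup21_apply]
  exact leibniz21 hβ x.1 c

theorem k34_ccup21_snd (hβ : Equivariant ρA ρB ρC β) (x : (G × G → A) × (∀ v, H v → A))
    (c : G → B) (v : ι) :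
    (k34 f ρC (ccup21 f ρB β x c)).2 v =
      cup2 (ρB.comp (f v)) β (H v) ((k23 f ρA x).2 v) (c ∘ f v)
        + cup1 (ρB.comp (f v)) β (H v × H v) (x.2 v) (d12 ρB c ∘ Prod.map (f v) (f v)) := by
  simp only [k34_apply, k23_apply, ccup21_apply, Pi.sub_apply, r3_apply, r2_apply, e23_apply,
    e12_apply, map_sub, LinearMap.sub_apply]
  have h := cup2_comp_hom (f v) ρB β (f v) x.1 c
  have h' : Prod.map (f v) (Prod.map (f v) (f v)) = map3 (f v) := rfl
  rw [h'] at h
  rw [← h, leibniz11 (hβ.comp_hom (f v) ρB β) (x.2 v) (c ∘ f v), ← d12_comp_hom (f v) ρB c]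
  abel

theorem k34_ccup30_fst (hβ : Equivariant ρA ρB ρC β)
    (x : (G × G × G → A) × (∀ v, H v × H v → A)) (c : B) :
    (k34 f ρC (ccup30 f ρB β x c)).1 =
      cup40 ρB β (k34 f ρA x).1 c - cup3 ρB β G x.1 (d01 ρB c) := by
  simp only [k34_apply, ccup30_apply]
  exact leibniz30 hβ x.1 c

theorem k34_ccup30_snd (hβ : Equivariant ρA ρB ρC β)
    (x : (G × G × G → A) × (∀ v, H v × H v → A)) (c : B) (v : ι) :
    (k34 f ρC (ccup30 f ρB β x c)).2 v =
      cup30 (ρB.comp (f v)) β ((k34 f ρA x).2 v) c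
        - cup2 (ρB.comp (f v)) β (H v) (x.2 v) (d01 ρB c ∘ f v) := by
  simp only [k34_apply, ccup30_apply, Pi.sub_apply, r3_apply, e23_apply, map_sub,
    LinearMap.sub_apply]
  rw [← cup30_comp_hom (f v) ρB β x.1 c, leibniz20 (hβ.comp_hom (f v) ρB β) (x.2 v) c,
    ← d01_comp_hom (f v) ρB c]
  abel

theorem k34_ccup12_fst (hβ : Equivariant ρA ρB ρC β) (x : (G → A) × (ι → A))
    (c : G × G → B) :
    (k34 f ρC (ccup12 f ρB β x c)).1 =
      cup2 ρB β (G × G) (k12 f ρA x).1 c - cup1 ρB β (G × G × G) x.1 (d23 ρB c) := by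
  simp only [k34_apply, k12_apply, ccup12_apply]
  exact leibniz12 hβ x.1 c

theorem k34_ccup12_snd (hβ : Equivariant ρA ρB ρC β) (x : (G → A) × (ι → A))
    (c : G × G → B) (v : ι) :
    (k34 f ρC (ccup12 f ρB β x c)).2 v =
      cup1 (ρB.comp (f v)) β (H v × H v) ((k12 f ρA x).2 v) (c ∘ Prod.map (f v) (f v))
        - cup0 β (H v × H v × H v) (x.2 v) (d23 ρB c ∘ map3 (f v)) := by
  simp only [k34_apply, k12_apply, ccup12_apply, Pi.sub_apply, r3_apply, r1_apply, e23_apply,
    e01_apply, map_sub, LinearMap.sub_apply]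
  have h := cup1_comp_hom (f v) ρB β (Prod.map (f v) (f v)) x.1 c
  have h' : Prod.map (f v) (Prod.map (f v) (f v)) = map3 (f v) := rfl
  rw [h'] at h
  rw [← h, leibniz02 (hβ.comp_hom (f v) ρB β) (x.2 v) (c ∘ Prod.map (f v) (f v)),
    ← d23_comp_hom (f v) ρB c]
  abel

end ConeLeibniz

/-! ## Descent to cohomology: cocycles, coboundaries, explicit primitives -/

section ConeDescent

variable {A B C : Type*} [AddCommGroup A] [Module k A] [AddCommGroup B] [Module k B]
  [AddCommGroup C] [Module k C]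
variable {ρA : Representation k G A} {ρB : Representation k G B} {ρC : Representation k G C}
  {β : A →ₗ[k] B →ₗ[k] C}

/-! ### cocycle ∪ cocycle is a cocycle -/

theorem k12_ccup10_eq_zero (hβ : Equivariant ρA ρB ρC β) {x : (G → A) × (ι → A)} {c : B}
    (hx : k12 f ρA x = 0) (hc : d01 ρB c = 0) : k12 f ρC (ccup10 ρB β x c) = 0 := by
  rw [cone_leibniz10 f hβ, hx, hc]
  simp only [map_zero, LinearMap.zero_apply, sub_zero, add_zero, zero_add, neg_zero, zero_sub,
    neg_neg, sub_neg_eq_add, add_sub_cancel_right, Prod.fst_zero, Prod.snd_zero, Pi.zero_apply]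

theorem k23_ccup11_eq_zero (hβ : Equivariant ρA ρB ρC β) {x : (G → A) × (ι → A)} {c : G → B}
    (hx : k12 f ρA x = 0) (hc : d12 ρB c = 0) : k23 f ρC (ccup11 f ρB β x c) = 0 := by
  rw [cone_leibniz11 f hβ, hx, hc]
  simp only [map_zero, LinearMap.zero_apply, sub_zero, add_zero, zero_add, neg_zero, zero_sub,
    neg_neg, sub_neg_eq_add, add_sub_cancel_right, Prod.fst_zero, Prod.snd_zero, Pi.zero_apply]

theorem k23_ccup20_eq_zero (hβ : Equivariant ρA ρB ρC β)
    {x : (G × G → A) × (∀ v, H v → A)} {c : B}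
    (hx : k23 f ρA x = 0) (hc : d01 ρB c = 0) : k23 f ρC (ccup20 f ρB β x c) = 0 := by
  rw [cone_leibniz20 f hβ, hx, hc]
  simp only [map_zero, LinearMap.zero_apply, sub_zero, add_zero, zero_add, neg_zero, zero_sub,
    neg_neg, sub_neg_eq_add, add_sub_cancel_right, Prod.fst_zero, Prod.snd_zero, Pi.zero_apply]

theorem k34_ccup21_eq_zero (hβ : Equivariant ρA ρB ρC β)
    {x : (G × G → A) × (∀ v, H v → A)} {c : G → B}
    (hx : k23 f ρA x = 0) (hc : d12 ρB c = 0) : k34 f ρC (ccup21 f ρB β x c) = 0 := by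
  refine Prod.ext ?_ ?_
  · rw [k34_ccup21_fst f hβ, hx, hc]
    simp only [map_zero, LinearMap.zero_apply, sub_zero, add_zero, zero_add, neg_zero, zero_sub,
      neg_neg, sub_neg_eq_add, add_sub_cancel_right, Prod.fst_zero, Prod.snd_zero, Pi.zero_apply]
  · funext v
    rw [k34_ccup21_snd f hβ, hx, hc]
    have h0 : ((0 : G × G → B) ∘ Prod.map (f v) (f v)) = 0 := rfl
    rw [h0]
    simp only [map_zero, LinearMap.zero_apply, sub_zero, add_zero, zero_add, neg_zero, zero_sub,
      neg_neg, sub_neg_eq_add, add_sub_cancel_right, Prod.fst_zero, Prod.snd_zero, Pi.zero_apply]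

theorem k34_ccup30_eq_zero (hβ : Equivariant ρA ρB ρC β)
    {x : (G × G × G → A) × (∀ v, H v × H v → A)} {c : B}
    (hx : k34 f ρA x = 0) (hc : d01 ρB c = 0) : k34 f ρC (ccup30 f ρB β x c) = 0 := by
  refine Prod.ext ?_ ?_
  · rw [k34_ccup30_fst f hβ, hx, hc]
    simp only [map_zero, LinearMap.zero_apply, sub_zero, add_zero, zero_add, neg_zero, zero_sub,
      neg_neg, sub_neg_eq_add, add_sub_cancel_right, Prod.fst_zero, Prod.snd_zero, Pi.zero_apply]
  · funext v
    rw [k34_ccup30_snd f hβ, hx, hc]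
    have h0 : ((0 : G → B) ∘ f v) = 0 := rfl
    rw [h0]
    simp only [map_zero, LinearMap.zero_apply, sub_zero, add_zero, zero_add, neg_zero, zero_sub,
      neg_neg, sub_neg_eq_add, add_sub_cancel_right, Prod.fst_zero, Prod.snd_zero, Pi.zero_apply]

theorem k34_ccup12_eq_zero (hβ : Equivariant ρA ρB ρC β)
    {x : (G → A) × (ι → A)} {c : G × G → B}
    (hx : k12 f ρA x = 0) (hc : d23 ρB c = 0) : k34 f ρC (ccup12 f ρB β x c) = 0 := by
  refine Prod.ext ?_ ?_
  · rw [k34_ccup12_fst f hβ, hx, hc]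
    simp only [map_zero, LinearMap.zero_apply, sub_zero, add_zero, zero_add, neg_zero, zero_sub,
      neg_neg, sub_neg_eq_add, add_sub_cancel_right, Prod.fst_zero, Prod.snd_zero, Pi.zero_apply]
  · funext v
    rw [k34_ccup12_snd f hβ, hx, hc]
    have h0 : ((0 : G × G × G → B) ∘ map3 (f v)) = 0 := rfl
    rw [h0]
    simp only [map_zero, LinearMap.zero_apply, sub_zero, add_zero, zero_add, neg_zero, zero_sub,
      neg_neg, sub_neg_eq_add, add_sub_cancel_right, Prod.fst_zero, Prod.snd_zero, Pi.zero_apply]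

/-! ### coboundary ∪ cocycle: explicit primitive -/

theorem ccup20_k12 (hβ : Equivariant ρA ρB ρC β) (x' : (G → A) × (ι → A)) {c : B}
    (hc : d01 ρB c = 0) :
    ccup20 f ρB β (k12 f ρA x') c = k12 f ρC (ccup10 ρB β x' c) := by
  rw [cone_leibniz10 f hβ, hc]
  simp only [map_zero, LinearMap.zero_apply, sub_zero, add_zero, zero_add, neg_zero, zero_sub,
    neg_neg, sub_neg_eq_add, add_sub_cancel_right, Prod.fst_zero, Prod.snd_zero, Pi.zero_apply]

theorem ccup21_k12 (hβ : Equivariant ρA ρB ρC β) (x' : (G → A) × (ι → A)) {c : G → B}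
    (hc : d12 ρB c = 0) :
    ccup21 f ρB β (k12 f ρA x') c = k23 f ρC (ccup11 f ρB β x' c) := by
  rw [cone_leibniz11 f hβ, hc]
  simp only [map_zero, LinearMap.zero_apply, sub_zero, add_zero, zero_add, neg_zero, zero_sub,
    neg_neg, sub_neg_eq_add, add_sub_cancel_right, Prod.fst_zero, Prod.snd_zero, Pi.zero_apply]

theorem ccup30_k23 (hβ : Equivariant ρA ρB ρC β) (x' : (G × G → A) × (∀ v, H v → A)) {c : B}
    (hc : d01 ρB c = 0) :
    ccup30 f ρB β (k23 f ρA x') c = k23 f ρC (ccup20 f ρB β x' c) := by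
  rw [cone_leibniz20 f hβ, hc]
  simp only [map_zero, LinearMap.zero_apply, sub_zero, add_zero, zero_add, neg_zero, zero_sub,
    neg_neg, sub_neg_eq_add, add_sub_cancel_right, Prod.fst_zero, Prod.snd_zero, Pi.zero_apply]

/-! ### cocycle ∪ coboundary: explicit primitive -/

theorem ccup11_d01 (hβ : Equivariant ρA ρB ρC β) {x : (G → A) × (ι → A)}
    (hx : k12 f ρA x = 0) (c' : B) :
    ccup11 f ρB β x (d01 ρB c') = - k12 f ρC (ccup10 ρB β x c') := by
  rw [cone_leibniz10 f hβ, hx]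
  simp only [map_zero, LinearMap.zero_apply, sub_zero, add_zero, zero_add, neg_zero, zero_sub,
    neg_neg, sub_neg_eq_add, add_sub_cancel_right, Prod.fst_zero, Prod.snd_zero, Pi.zero_apply]

theorem ccup12_d12 (hβ : Equivariant ρA ρB ρC β) {x : (G → A) × (ι → A)}
    (hx : k12 f ρA x = 0) (c' : G → B) :
    ccup12 f ρB β x (d12 ρB c') = - k23 f ρC (ccup11 f ρB β x c') := by
  rw [cone_leibniz11 f hβ, hx]
  simp only [map_zero, LinearMap.zero_apply, sub_zero, add_zero, zero_add, neg_zero, zero_sub,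
    neg_neg, sub_neg_eq_add, add_sub_cancel_right, Prod.fst_zero, Prod.snd_zero, Pi.zero_apply]

theorem ccup21_d01 (hβ : Equivariant ρA ρB ρC β) {x : (G × G → A) × (∀ v, H v → A)}
    (hx : k23 f ρA x = 0) (c' : B) :
    ccup21 f ρB β x (d01 ρB c') = k23 f ρC (ccup20 f ρB β x c') := by
  rw [cone_leibniz20 f hβ, hx]
  simp only [map_zero, LinearMap.zero_apply, sub_zero, add_zero, zero_add, neg_zero, zero_sub,
    neg_neg, sub_neg_eq_add, add_sub_cancel_right, Prod.fst_zero, Prod.snd_zero, Pi.zero_apply]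

end ConeDescent

/-! ## Level constancy -/

section ConeInvariance

variable {A B C : Type*} [AddCommGroup A] [Module k A] [AddCommGroup B] [Module k B]
  [AddCommGroup C] [Module k C]
variable {K : Type*} [Group K] (φ : K →* G) {U : Subgroup G}

theorem rinv₁_comp_hom {X : Type*} {c : G → X} (hc : RInv₁ U c) :
    RInv₁ (U.comap φ) (c ∘ φ) := by
  intro g u hu
  simp only [Function.comp_apply, map_mul]
  exact hc (φ g) (φ u) hu

theorem rinv₂_comp_hom {X : Type*} {c : G × G → X} (hc : RInv₂ U c) :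
    RInv₂ (U.comap φ) (c ∘ Prod.map φ φ) := by
  intro g g' u hu u' hu'
  simp only [Function.comp_apply, Prod.map_apply, map_mul]
  exact hc (φ g) (φ g') (φ u) hu (φ u') hu'

theorem rinv₃_comp_hom {X : Type*} {c : G × G × G → X} (hc : RInv₃ U c) :
    RInv₃ (U.comap φ) (c ∘ map3 φ) := by
  intro g g' g'' u hu u' hu' u'' hu''
  simp only [Function.comp_apply, map3, Prod.map_apply, map_mul]
  exact hc (φ g) (φ g') (φ g'') (φ u) hu (φ u') hu' (φ u'') hu''

theorem actsTrivially_comp_hom {ρ : Representation k G A} (hρ : ActsTrivially U ρ) :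
    ActsTrivially (U.comap φ) (ρ.comp φ) :=
  fun u hu a => hρ (φ u) hu a

variable {ρB : Representation k G B} {β : A →ₗ[k] B →ₗ[k] C}

/-- Level constancy of `x ∪ c` in the shape `(2,1)`. -/
theorem rinv_ccup21 (hρ : ActsTrivially U ρB) {x : (G × G → A) × (∀ v, H v → A)}
    (hx1 : RInv₂ U x.1) (hx2 : ∀ v, RInv₁ (U.comap (f v)) (x.2 v)) {c : G → B}
    (hc : RInv₁ U c) :
    RInv₃ U (ccup21 f ρB β x c).1 ∧ ∀ v, RInv₂ (U.comap (f v)) ((ccup21 f ρB β x c).2 v) :=
  ⟨rinv₃_cup21 hρ hx1 hc, fun v =>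
    rinv₂_cup11 (actsTrivially_comp_hom (f v) hρ) (hx2 v) (rinv₁_comp_hom (f v) hc)⟩

/-- Level constancy of `x ∪ c` in the shape `(3,0)`. -/
theorem rinv_ccup30 (hρ : ActsTrivially U ρB) {x : (G × G × G → A) × (∀ v, H v × H v → A)}
    (hx1 : RInv₃ U x.1) (hx2 : ∀ v, RInv₂ (U.comap (f v)) (x.2 v)) (c : B) :
    RInv₃ U (ccup30 f ρB β x c).1 ∧ ∀ v, RInv₂ (U.comap (f v)) ((ccup30 f ρB β x c).2 v) :=
  ⟨rinv₃_cup30 hρ hx1 c, fun v =>
    rinv₂_cup20 (actsTrivially_comp_hom (f v) hρ) (hx2 v) c⟩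

/-- Level constancy of `x ∪ c` in the shape `(2,0)`. -/
theorem rinv_ccup20 (hρ : ActsTrivially U ρB) {x : (G × G → A) × (∀ v, H v → A)}
    (hx1 : RInv₂ U x.1) (hx2 : ∀ v, RInv₁ (U.comap (f v)) (x.2 v)) (c : B) :
    RInv₂ U (ccup20 f ρB β x c).1 ∧ ∀ v, RInv₁ (U.comap (f v)) ((ccup20 f ρB β x c).2 v) :=
  ⟨rinv₂_cup20 hρ hx1 c, fun v =>
    rinv₁_cup10 (actsTrivially_comp_hom (f v) hρ) (hx2 v) c⟩

/-- Level constancy of `x ∪ c` in the shape `(1,1)`. -/
theorem rinv_ccup11 (hρ : ActsTrivially U ρB) {x : (G → A) × (ι → A)}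
    (hx1 : RInv₁ U x.1) {c : G → B} (hc : RInv₁ U c) :
    RInv₂ U (ccup11 f ρB β x c).1 ∧ ∀ v, RInv₁ (U.comap (f v)) ((ccup11 f ρB β x c).2 v) :=
  ⟨rinv₂_cup11 hρ hx1 hc, fun v => rinv₁_cup0 (x.2 v) (rinv₁_comp_hom (f v) hc)⟩

end ConeInvariance

end Fermat.Agent.S55.Formal.CupCone
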