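/-
S55 / Formal / HmidPair  (helper33)

Bilinear pairings induced on the middle cohomology `Hmid` (of `Formal/Hmid.lean`) by a bilinear
map of cochains which sends (cocycle, cocycle) to a cocycle and (coboundary, cocycle),
(cocycle, coboundary) to coboundaries.  Three shapes:

* `hPair      : Hmid fA gA →ₗ Hmid fB gB →ₗ Hmid fC gC`,
* `hPairLeft  : ↥(ker gA)  →ₗ Hmid fB gB →ₗ Hmid fC gC`   (degree-0 cohomology on the left),
* `hPairRight : Hmid fA gA →ₗ ↥(ker gB)  →ₗ Hmid fC gC`   (degree-0 cohomology on the right),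

each with its `Hmid.of` specification lemma (by `rfl`).  Mathlib + `Formal/Hmid.lean` only.
-/
import Mathlib
import Fermat.Agent.S55.Formal.Hmid

set_option autoImplicit false

namespace Fermat.Agent.S55.Formal.HmidPair

open Fermat.Agent.S55.Formal

variable {k : Type*} [CommRing k]
variable {A0 A1 A2 B0 B1 B2 C0 C1 C2 : Type*}
  [AddCommGroup A0] [Module k A0] [AddCommGroup A1] [Module k A1] [AddCommGroup A2] [Module k A2]
  [AddCommGroup B0] [Module k B0] [AddCommGroup B1] [Module k B1] [AddCommGroup B2] [Module k B2]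
  [AddCommGroup C0] [Module k C0] [AddCommGroup C1] [Module k C1] [AddCommGroup C2] [Module k C2]
  {fA : A0 →ₗ[k] A1} {gA : A1 →ₗ[k] A2} {fB : B0 →ₗ[k] B1} {gB : B1 →ₗ[k] B2}
  {fC : C0 →ₗ[k] C1} {gC : C1 →ₗ[k] C2}

/-- Restriction of a bilinear map to cocycles. -/
def zPair (m : A1 →ₗ[k] B1 →ₗ[k] C1)
    (hz : ∀ a b, gA a = 0 → gB b = 0 → gC (m a b) = 0) :
    ↥(LinearMap.ker gA) →ₗ[k] ↥(LinearMap.ker gB) →ₗ[k] ↥(LinearMap.ker gC) :=
  LinearMap.mk₂ k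
    (fun a b => ⟨m a b, LinearMap.mem_ker.mpr
      (hz a b (LinearMap.mem_ker.mp a.2) (LinearMap.mem_ker.mp b.2))⟩)
    (fun a a' b => Subtype.ext (by simp only [Submodule.coe_add, map_add, LinearMap.add_apply]))
    (fun r a b => Subtype.ext (by simp only [Submodule.coe_smul, map_smul, LinearMap.smul_apply]))
    (fun a b b' => Subtype.ext (by simp only [Submodule.coe_add, map_add]))
    (fun r a b => Subtype.ext (by simp only [Submodule.coe_smul, map_smul]))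

@[simp] lemma zPair_coe (m : A1 →ₗ[k] B1 →ₗ[k] C1)
    (hz : ∀ a b, gA a = 0 → gB b = 0 → gC (m a b) = 0)
    (a : ↥(LinearMap.ker gA)) (b : ↥(LinearMap.ker gB)) :
    ((zPair m hz a b : ↥(LinearMap.ker gC)) : C1) = m a b := rfl

/-- Pairing `ker gA × Hmid fB gB → Hmid fC gC`. -/
def hPairLeft (m : A1 →ₗ[k] B1 →ₗ[k] C1)
    (hz : ∀ a b, gA a = 0 → gB b = 0 → gC (m a b) = 0)
    (hr : ∀ a b0, gA a = 0 → ∃ c0, fC c0 = m a (fB b0)) :
    ↥(LinearMap.ker gA) →ₗ[k] Hmid fB gB →ₗ[k] Hmid fC gC where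
  toFun a := Submodule.liftQ _ (Hmid.mk fC gC ∘ₗ zPair m hz a) (by
    rintro ⟨b, hb⟩ ⟨b0, hb0⟩
    simp only [Submodule.subtype_apply] at hb0
    rw [LinearMap.mem_ker, LinearMap.comp_apply, Hmid.mk_eq_zero_iff]
    obtain ⟨c0, hc0⟩ := hr a b0 (LinearMap.mem_ker.mp a.2)
    exact ⟨c0, by rw [hc0, zPair_coe, hb0]⟩)
  map_add' a a' := by
    apply LinearMap.ext
    intro y
    obtain ⟨b, rfl⟩ := Hmid.mk_surjective fB gB y
    simp only [Hmid.mk, Submodule.mkQ_apply, Submodule.liftQ_apply, LinearMap.add_apply,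
      LinearMap.comp_apply, map_add]
  map_smul' r a := by
    apply LinearMap.ext
    intro y
    obtain ⟨b, rfl⟩ := Hmid.mk_surjective fB gB y
    simp only [Hmid.mk, Submodule.mkQ_apply, Submodule.liftQ_apply, LinearMap.smul_apply,
      LinearMap.comp_apply, map_smul, RingHom.id_apply]

theorem hPairLeft_of (m : A1 →ₗ[k] B1 →ₗ[k] C1)
    (hz : ∀ a b, gA a = 0 → gB b = 0 → gC (m a b) = 0)
    (hr : ∀ a b0, gA a = 0 → ∃ c0, fC c0 = m a (fB b0))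
    (a : ↥(LinearMap.ker gA)) (b : B1) (hb : gB b = 0) :
    hPairLeft m hz hr a (Hmid.of b hb) =
      Hmid.of (m a b) (hz a b (LinearMap.mem_ker.mp a.2) hb) := rfl

/-- Pairing `Hmid fA gA × Hmid fB gB → Hmid fC gC`. -/
def hPair (m : A1 →ₗ[k] B1 →ₗ[k] C1)
    (hz : ∀ a b, gA a = 0 → gB b = 0 → gC (m a b) = 0)
    (hl : ∀ a0 b, gB b = 0 → ∃ c0, fC c0 = m (fA a0) b)
    (hr : ∀ a b0, gA a = 0 → ∃ c0, fC c0 = m a (fB b0)) :
    Hmid fA gA →ₗ[k] Hmid fB gB →ₗ[k] Hmid fC gC :=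
  Submodule.liftQ _ (hPairLeft m hz hr) (by
    rintro ⟨a, ha⟩ ⟨a0, ha0⟩
    simp only [Submodule.subtype_apply] at ha0
    rw [LinearMap.mem_ker]
    apply LinearMap.ext
    intro y
    obtain ⟨b, hb, rfl⟩ := Hmid.exists_of y
    rw [hPairLeft_of, LinearMap.zero_apply, Hmid.of_eq_zero_iff]
    obtain ⟨c0, hc0⟩ := hl a0 b hb
    exact ⟨c0, by rw [hc0, ha0]⟩)

theorem hPair_of (m : A1 →ₗ[k] B1 →ₗ[k] C1)
    (hz : ∀ a b, gA a = 0 → gB b = 0 → gC (m a b) = 0)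
    (hl : ∀ a0 b, gB b = 0 → ∃ c0, fC c0 = m (fA a0) b)
    (hr : ∀ a b0, gA a = 0 → ∃ c0, fC c0 = m a (fB b0))
    (a : A1) (ha : gA a = 0) (b : B1) (hb : gB b = 0) :
    hPair m hz hl hr (Hmid.of a ha) (Hmid.of b hb) = Hmid.of (m a b) (hz a b ha hb) := rfl

/-- Pairing `Hmid fA gA × ker gB → Hmid fC gC`. -/
def hPairRight (m : A1 →ₗ[k] B1 →ₗ[k] C1)
    (hz : ∀ a b, gA a = 0 → gB b = 0 → gC (m a b) = 0)
    (hl : ∀ a0 b, gB b = 0 → ∃ c0, fC c0 = m (fA a0) b) :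
    Hmid fA gA →ₗ[k] ↥(LinearMap.ker gB) →ₗ[k] Hmid fC gC :=
  Submodule.liftQ _ ((zPair m hz).compr₂ (Hmid.mk fC gC)) (by
    rintro ⟨a, ha⟩ ⟨a0, ha0⟩
    simp only [Submodule.subtype_apply] at ha0
    rw [LinearMap.mem_ker]
    apply LinearMap.ext
    intro b
    rw [LinearMap.compr₂_apply, LinearMap.zero_apply, Hmid.mk_eq_zero_iff]
    obtain ⟨c0, hc0⟩ := hl a0 b (LinearMap.mem_ker.mp b.2)
    exact ⟨c0, by rw [hc0, zPair_coe, ha0]⟩)

theorem hPairRight_of (m : A1 →ₗ[k] B1 →ₗ[k] C1)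
    (hz : ∀ a b, gA a = 0 → gB b = 0 → gC (m a b) = 0)
    (hl : ∀ a0 b, gB b = 0 → ∃ c0, fC c0 = m (fA a0) b)
    (a : A1) (ha : gA a = 0) (b : ↥(LinearMap.ker gB)) :
    hPairRight m hz hl (Hmid.of a ha) b =
      Hmid.of (m a b) (hz a b ha (LinearMap.mem_ker.mp b.2)) := rfl

end Fermat.Agent.S55.Formal.HmidPair
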