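/-
S55 / Formal / CupLC  (helper33)

Cup products in the language of `Formal/LC.lean`: for `A B C : Rep.{0,0,0} k G` and an
equivariant pairing `β : A → B → C`, the cup product of level-constant cochains is level constant
(right-invariant in each variable and with values fixed by some `U ∈ 𝒰`), giving bilinear maps
`cupCᵢⱼ : ↥(Cᵢ 𝒰 A) →ₗ ↥(Cⱼ 𝒰 B) →ₗ ↥(Cᵢ₊ⱼ 𝒰 C)`, the Leibniz rule for the LC differentials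
`dCᵢ`, and the induced pairings on the cohomology groups `H0 .. H3` of `Formal/LC.lean`.
-/
import Mathlib
import Fermat.Agent.S55.Formal.LC
import Fermat.Agent.S55.Formal.CupWindow
import Fermat.Agent.S55.Formal.HmidPair

set_option autoImplicit false
set_option linter.unusedSimpArgs false
set_option linter.unusedVariables false

open CategoryTheory groupCohomology

namespace Fermat.Agent.S55.Formal.CupLC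

open Fermat.Agent.S55.Formal Fermat.Agent.S55.Formal.CupWindow

variable {k : Type} [CommRing k] {G : Type} [Group G]

/-! ## Preliminaries -/

section Prelim

variable (M : Rep.{0, 0, 0} k G)

/-- If a normal subgroup `W` fixes `m`, then `x s y` and `x y` act in the same way on `m`
for `s ∈ W`. -/
lemma ρ_mul_mem_mul {W : Subgroup G} (hW : W.Normal) {m : M} (hm : ∀ t ∈ W, M.ρ t m = m)
    (x y : G) {s : G} (hs : s ∈ W) : M.ρ (x * s * y) m = M.ρ (x * y) m := by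
  have e : x * s * y = x * y * (y⁻¹ * s * y) := by group
  rw [e, map_mul, Module.End.mul_apply, hm _ (hW.conj_mem' s hs y)]

/-- If `W` fixes `m`, then `x s` and `x` act in the same way on `m` for `s ∈ W`. -/
lemma ρ_mul_mem {W : Subgroup G} {m : M} (hm : ∀ t ∈ W, M.ρ t m = m)
    (x : G) {s : G} (hs : s ∈ W) : M.ρ (x * s) m = M.ρ x m := by
  rw [map_mul, Module.End.mul_apply, hm s hs]

end Prelim

variable (𝒰 : NBasis G) {A B C : Rep.{0, 0, 0} k G} (β : A →ₗ[k] B →ₗ[k] C)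

/-- Equivariance of the pairing, in the form of `Formal/CupWindow.lean`. -/
abbrev Equi : Prop := Equivariant A.ρ B.ρ C.ρ β

/-! ## Cups of LC cochains are LC -/

section Membership

variable {𝒰 β}

lemma cup00_mem (hβ : Equi β) {a : A} (ha : a ∈ C₀ 𝒰 A) {b : B} (hb : b ∈ C₀ 𝒰 B) :
    β a b ∈ C₀ 𝒰 C := by
  obtain ⟨U, hU, ha⟩ := ha
  obtain ⟨V, hV, hb⟩ := hb
  obtain ⟨W, hW, hle⟩ := 𝒰.inf hU hV
  exact ⟨W, hW, fun s hs => by rw [hβ, ha s (hle hs).1, hb s (hle hs).2]⟩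

lemma cup01_mem (hβ : Equi β) {a : A} (ha : a ∈ C₀ 𝒰 A) {b : G → B} (hb : b ∈ C₁ 𝒰 B) :
    cup0 β G a b ∈ C₁ 𝒰 C := by
  obtain ⟨U, hU, ha⟩ := ha
  obtain ⟨V, hV, hb⟩ := hb
  obtain ⟨W, hW, hle⟩ := 𝒰.inf hU hV
  refine ⟨W, hW, fun s hs g => ⟨?_, ?_⟩⟩
  · simp only [cup0_apply, (hb s (hle hs).2 g).1]
  · simp only [cup0_apply, hβ _ _ _, ha s (hle hs).1, (hb s (hle hs).2 g).2]

lemma cup10_mem (hβ : Equi β) {a : G → A} (ha : a ∈ C₁ 𝒰 A) {b : B} (hb : b ∈ C₀ 𝒰 B) :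
    cup10 B.ρ β a b ∈ C₁ 𝒰 C := by
  obtain ⟨U, hU, ha⟩ := ha
  obtain ⟨V, hV, hb⟩ := hb
  obtain ⟨W, hW, hle⟩ := 𝒰.inf hU hV
  have hN := 𝒰.normal hW
  have hbW : ∀ t ∈ W, B.ρ t b = b := fun t ht => hb t (hle ht).2
  refine ⟨W, hW, fun s hs g => ⟨?_, ?_⟩⟩
  · simp only [cup10_apply, (ha s (hle hs).1 g).1, ρ_mul_mem B hbW g hs]
  · simp only [cup10_apply, hβ _ _ _, (ha s (hle hs).1 g).2, ρ_conj_fix B hN hbW g hs]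

lemma cup11_mem (hβ : Equi β) {a : G → A} (ha : a ∈ C₁ 𝒰 A) {b : G → B} (hb : b ∈ C₁ 𝒰 B) :
    cup1 B.ρ β G a b ∈ C₂ 𝒰 C := by
  obtain ⟨U, hU, ha⟩ := ha
  obtain ⟨V, hV, hb⟩ := hb
  obtain ⟨W, hW, hle⟩ := 𝒰.inf hU hV
  have hN := 𝒰.normal hW
  have hbW : ∀ h, ∀ t ∈ W, B.ρ t (b h) = b h := fun h t ht => (hb t (hle ht).2 h).2
  refine ⟨W, hW, fun s hs g h => ⟨?_, ?_, ?_⟩⟩
  · simp only [cup1_apply, (ha s (hle hs).1 g).1, ρ_mul_mem B (hbW h) g hs]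
  · simp only [cup1_apply, (hb s (hle hs).2 h).1]
  · simp only [cup1_apply, hβ _ _ _, (ha s (hle hs).1 g).2, ρ_conj_fix B hN (hbW h) g hs]

lemma cup02_mem (hβ : Equi β) {a : A} (ha : a ∈ C₀ 𝒰 A) {b : G × G → B} (hb : b ∈ C₂ 𝒰 B) :
    cup0 β (G × G) a b ∈ C₂ 𝒰 C := by
  obtain ⟨U, hU, ha⟩ := ha
  obtain ⟨V, hV, hb⟩ := hb
  obtain ⟨W, hW, hle⟩ := 𝒰.inf hU hV
  refine ⟨W, hW, fun s hs g h => ⟨?_, ?_, ?_⟩⟩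
  · simp only [cup0_apply, (hb s (hle hs).2 g h).1]
  · simp only [cup0_apply, (hb s (hle hs).2 g h).2.1]
  · simp only [cup0_apply, hβ _ _ _, ha s (hle hs).1, (hb s (hle hs).2 g h).2.2]

lemma cup20_mem (hβ : Equi β) {a : G × G → A} (ha : a ∈ C₂ 𝒰 A) {b : B} (hb : b ∈ C₀ 𝒰 B) :
    cup20 B.ρ β a b ∈ C₂ 𝒰 C := by
  obtain ⟨U, hU, ha⟩ := ha
  obtain ⟨V, hV, hb⟩ := hb
  obtain ⟨W, hW, hle⟩ := 𝒰.inf hU hV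
  have hN := 𝒰.normal hW
  have hbW : ∀ t ∈ W, B.ρ t b = b := fun t ht => hb t (hle ht).2
  refine ⟨W, hW, fun s hs g h => ⟨?_, ?_, ?_⟩⟩
  · simp only [cup20_apply, (ha s (hle hs).1 g h).1, ρ_mul_mem_mul B hN hbW g h hs]
  · simp only [cup20_apply, (ha s (hle hs).1 g h).2.1, ← mul_assoc, ρ_mul_mem B hbW (g * h) hs]
  · simp only [cup20_apply, hβ _ _ _, (ha s (hle hs).1 g h).2.2, ρ_conj_fix B hN hbW (g * h) hs]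

lemma cup21_mem (hβ : Equi β) {a : G × G → A} (ha : a ∈ C₂ 𝒰 A) {b : G → B}
    (hb : b ∈ C₁ 𝒰 B) : cup2 B.ρ β G a b ∈ C₃ 𝒰 C := by
  obtain ⟨U, hU, ha⟩ := ha
  obtain ⟨V, hV, hb⟩ := hb
  obtain ⟨W, hW, hle⟩ := 𝒰.inf hU hV
  have hN := 𝒰.normal hW
  have hbW : ∀ j, ∀ t ∈ W, B.ρ t (b j) = b j := fun j t ht => (hb t (hle ht).2 j).2
  refine ⟨W, hW, fun s hs g h j => ⟨?_, ?_, ?_, ?_⟩⟩
  · simp only [cup2_apply, (ha s (hle hs).1 g h).1, ρ_mul_mem_mul B hN (hbW j) g h hs]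
  · simp only [cup2_apply, (ha s (hle hs).1 g h).2.1, ← mul_assoc,
      ρ_mul_mem B (hbW j) (g * h) hs]
  · simp only [cup2_apply, (hb s (hle hs).2 j).1]
  · simp only [cup2_apply, hβ _ _ _, (ha s (hle hs).1 g h).2.2,
      ρ_conj_fix B hN (hbW j) (g * h) hs]

lemma cup12_mem (hβ : Equi β) {a : G → A} (ha : a ∈ C₁ 𝒰 A) {b : G × G → B}
    (hb : b ∈ C₂ 𝒰 B) : cup1 B.ρ β (G × G) a b ∈ C₃ 𝒰 C := by
  obtain ⟨U, hU, ha⟩ := ha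
  obtain ⟨V, hV, hb⟩ := hb
  obtain ⟨W, hW, hle⟩ := 𝒰.inf hU hV
  have hN := 𝒰.normal hW
  have hbW : ∀ h j, ∀ t ∈ W, B.ρ t (b (h, j)) = b (h, j) :=
    fun h j t ht => (hb t (hle ht).2 h j).2.2
  refine ⟨W, hW, fun s hs g h j => ⟨?_, ?_, ?_, ?_⟩⟩
  · simp only [cup1_apply, (ha s (hle hs).1 g).1, ρ_mul_mem B (hbW h j) g hs]
  · simp only [cup1_apply, (hb s (hle hs).2 h j).1]
  · simp only [cup1_apply, (hb s (hle hs).2 h j).2.1]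
  · simp only [cup1_apply, hβ _ _ _, (ha s (hle hs).1 g).2, ρ_conj_fix B hN (hbW h j) g hs]

lemma cup30_mem (hβ : Equi β) {a : G × G × G → A} (ha : a ∈ C₃ 𝒰 A) {b : B}
    (hb : b ∈ C₀ 𝒰 B) : cup30 B.ρ β a b ∈ C₃ 𝒰 C := by
  obtain ⟨U, hU, ha⟩ := ha
  obtain ⟨V, hV, hb⟩ := hb
  obtain ⟨W, hW, hle⟩ := 𝒰.inf hU hV
  have hN := 𝒰.normal hW
  have hbW : ∀ t ∈ W, B.ρ t b = b := fun t ht => hb t (hle ht).2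
  refine ⟨W, hW, fun s hs g h j => ⟨?_, ?_, ?_, ?_⟩⟩
  · have e : g * s * h * j = g * s * (h * j) := by group
    have e' : g * h * j = g * (h * j) := by group
    simp only [cup30_apply, (ha s (hle hs).1 g h j).1, e, e', ρ_mul_mem_mul B hN hbW g (h * j) hs]
  · simp only [cup30_apply, (ha s (hle hs).1 g h j).2.1, ← mul_assoc,
      ρ_mul_mem_mul B hN hbW (g * h) j hs]
  · simp only [cup30_apply, (ha s (hle hs).1 g h j).2.2.1, ← mul_assoc,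
      ρ_mul_mem B hbW (g * h * j) hs]
  · simp only [cup30_apply, hβ _ _ _, (ha s (hle hs).1 g h j).2.2.2,
      ρ_conj_fix B hN hbW (g * h * j) hs]

lemma cup03_mem (hβ : Equi β) {a : A} (ha : a ∈ C₀ 𝒰 A) {b : G × G × G → B}
    (hb : b ∈ C₃ 𝒰 B) : cup0 β (G × G × G) a b ∈ C₃ 𝒰 C := by
  obtain ⟨U, hU, ha⟩ := ha
  obtain ⟨V, hV, hb⟩ := hb
  obtain ⟨W, hW, hle⟩ := 𝒰.inf hU hV
  refine ⟨W, hW, fun s hs g h j => ⟨?_, ?_, ?_, ?_⟩⟩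
  · simp only [cup0_apply, (hb s (hle hs).2 g h j).1]
  · simp only [cup0_apply, (hb s (hle hs).2 g h j).2.1]
  · simp only [cup0_apply, (hb s (hle hs).2 g h j).2.2.1]
  · simp only [cup0_apply, hβ _ _ _, ha s (hle hs).1, (hb s (hle hs).2 g h j).2.2.2]

end Membership

/-! ## The cup products as bilinear maps of LC cochains -/

section Maps

variable {β}

/-- `C⁰ × C⁰ → C⁰` -/
def cupC₀₀ (hβ : Equi β) : ↥(C₀ 𝒰 A) →ₗ[k] ↥(C₀ 𝒰 B) →ₗ[k] ↥(C₀ 𝒰 C) :=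
  LinearMap.mk₂ k (fun a b => ⟨β (a : A) (b : B), cup00_mem hβ a.2 b.2⟩)
    (fun a a' b => Subtype.ext (by
      simp only [Submodule.coe_add, map_add, LinearMap.add_apply]))
    (fun r a b => Subtype.ext (by
      simp only [Submodule.coe_smul, map_smul, LinearMap.smul_apply]))
    (fun a b b' => Subtype.ext (by simp only [Submodule.coe_add, map_add]))
    (fun r a b => Subtype.ext (by simp only [Submodule.coe_smul, map_smul]))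

@[simp] lemma cupC₀₀_coe (hβ : Equi β) (a : ↥(C₀ 𝒰 A)) (b : ↥(C₀ 𝒰 B)) :
    ((cupC₀₀ 𝒰 hβ a b : ↥(C₀ 𝒰 C)) : _) = β (a : A) (b : B) := rfl

/-- `C⁰ × C¹ → C¹` -/
def cupC₀₁ (hβ : Equi β) : ↥(C₀ 𝒰 A) →ₗ[k] ↥(C₁ 𝒰 B) →ₗ[k] ↥(C₁ 𝒰 C) :=
  LinearMap.mk₂ k (fun a b => ⟨cup0 β G (a : A) (b : G → B), cup01_mem hβ a.2 b.2⟩)
    (fun a a' b => Subtype.ext (by
      simp only [Submodule.coe_add, map_add, LinearMap.add_apply]))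
    (fun r a b => Subtype.ext (by
      simp only [Submodule.coe_smul, map_smul, LinearMap.smul_apply]))
    (fun a b b' => Subtype.ext (by simp only [Submodule.coe_add, map_add]))
    (fun r a b => Subtype.ext (by simp only [Submodule.coe_smul, map_smul]))

@[simp] lemma cupC₀₁_coe (hβ : Equi β) (a : ↥(C₀ 𝒰 A)) (b : ↥(C₁ 𝒰 B)) :
    ((cupC₀₁ 𝒰 hβ a b : ↥(C₁ 𝒰 C)) : _) = cup0 β G (a : A) (b : G → B) := rfl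

/-- `C¹ × C⁰ → C¹` -/
def cupC₁₀ (hβ : Equi β) : ↥(C₁ 𝒰 A) →ₗ[k] ↥(C₀ 𝒰 B) →ₗ[k] ↥(C₁ 𝒰 C) :=
  LinearMap.mk₂ k (fun a b => ⟨cup10 B.ρ β (a : G → A) (b : B), cup10_mem hβ a.2 b.2⟩)
    (fun a a' b => Subtype.ext (by
      simp only [Submodule.coe_add, map_add, LinearMap.add_apply]))
    (fun r a b => Subtype.ext (by
      simp only [Submodule.coe_smul, map_smul, LinearMap.smul_apply]))
    (fun a b b' => Subtype.ext (by simp only [Submodule.coe_add, map_add]))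
    (fun r a b => Subtype.ext (by simp only [Submodule.coe_smul, map_smul]))

@[simp] lemma cupC₁₀_coe (hβ : Equi β) (a : ↥(C₁ 𝒰 A)) (b : ↥(C₀ 𝒰 B)) :
    ((cupC₁₀ 𝒰 hβ a b : ↥(C₁ 𝒰 C)) : _) = cup10 B.ρ β (a : G → A) (b : B) := rfl

/-- `C¹ × C¹ → C²` -/
def cupC₁₁ (hβ : Equi β) : ↥(C₁ 𝒰 A) →ₗ[k] ↥(C₁ 𝒰 B) →ₗ[k] ↥(C₂ 𝒰 C) :=
  LinearMap.mk₂ k (fun a b => ⟨cup1 B.ρ β G (a : G → A) (b : G → B), cup11_mem hβ a.2 b.2⟩)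
    (fun a a' b => Subtype.ext (by
      simp only [Submodule.coe_add, map_add, LinearMap.add_apply]))
    (fun r a b => Subtype.ext (by
      simp only [Submodule.coe_smul, map_smul, LinearMap.smul_apply]))
    (fun a b b' => Subtype.ext (by simp only [Submodule.coe_add, map_add]))
    (fun r a b => Subtype.ext (by simp only [Submodule.coe_smul, map_smul]))

@[simp] lemma cupC₁₁_coe (hβ : Equi β) (a : ↥(C₁ 𝒰 A)) (b : ↥(C₁ 𝒰 B)) :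
    ((cupC₁₁ 𝒰 hβ a b : ↥(C₂ 𝒰 C)) : _) = cup1 B.ρ β G (a : G → A) (b : G → B) := rfl

/-- `C⁰ × C² → C²` -/
def cupC₀₂ (hβ : Equi β) : ↥(C₀ 𝒰 A) →ₗ[k] ↥(C₂ 𝒰 B) →ₗ[k] ↥(C₂ 𝒰 C) :=
  LinearMap.mk₂ k (fun a b => ⟨cup0 β (G × G) (a : A) (b : G × G → B), cup02_mem hβ a.2 b.2⟩)
    (fun a a' b => Subtype.ext (by
      simp only [Submodule.coe_add, map_add, LinearMap.add_apply]))
    (fun r a b => Subtype.ext (by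
      simp only [Submodule.coe_smul, map_smul, LinearMap.smul_apply]))
    (fun a b b' => Subtype.ext (by simp only [Submodule.coe_add, map_add]))
    (fun r a b => Subtype.ext (by simp only [Submodule.coe_smul, map_smul]))

@[simp] lemma cupC₀₂_coe (hβ : Equi β) (a : ↥(C₀ 𝒰 A)) (b : ↥(C₂ 𝒰 B)) :
    ((cupC₀₂ 𝒰 hβ a b : ↥(C₂ 𝒰 C)) : _) = cup0 β (G × G) (a : A) (b : G × G → B) := rfl

/-- `C² × C⁰ → C²` -/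
def cupC₂₀ (hβ : Equi β) : ↥(C₂ 𝒰 A) →ₗ[k] ↥(C₀ 𝒰 B) →ₗ[k] ↥(C₂ 𝒰 C) :=
  LinearMap.mk₂ k (fun a b => ⟨cup20 B.ρ β (a : G × G → A) (b : B), cup20_mem hβ a.2 b.2⟩)
    (fun a a' b => Subtype.ext (by
      simp only [Submodule.coe_add, map_add, LinearMap.add_apply]))
    (fun r a b => Subtype.ext (by
      simp only [Submodule.coe_smul, map_smul, LinearMap.smul_apply]))
    (fun a b b' => Subtype.ext (by simp only [Submodule.coe_add, map_add]))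
    (fun r a b => Subtype.ext (by simp only [Submodule.coe_smul, map_smul]))

@[simp] lemma cupC₂₀_coe (hβ : Equi β) (a : ↥(C₂ 𝒰 A)) (b : ↥(C₀ 𝒰 B)) :
    ((cupC₂₀ 𝒰 hβ a b : ↥(C₂ 𝒰 C)) : _) = cup20 B.ρ β (a : G × G → A) (b : B) := rfl

/-- `C² × C¹ → C³` -/
def cupC₂₁ (hβ : Equi β) : ↥(C₂ 𝒰 A) →ₗ[k] ↥(C₁ 𝒰 B) →ₗ[k] ↥(C₃ 𝒰 C) :=
  LinearMap.mk₂ k (fun a b => ⟨cup2 B.ρ β G (a : G × G → A) (b : G → B), cup21_mem hβ a.2 b.2⟩)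
    (fun a a' b => Subtype.ext (by
      simp only [Submodule.coe_add, map_add, LinearMap.add_apply]))
    (fun r a b => Subtype.ext (by
      simp only [Submodule.coe_smul, map_smul, LinearMap.smul_apply]))
    (fun a b b' => Subtype.ext (by simp only [Submodule.coe_add, map_add]))
    (fun r a b => Subtype.ext (by simp only [Submodule.coe_smul, map_smul]))

@[simp] lemma cupC₂₁_coe (hβ : Equi β) (a : ↥(C₂ 𝒰 A)) (b : ↥(C₁ 𝒰 B)) :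
    ((cupC₂₁ 𝒰 hβ a b : ↥(C₃ 𝒰 C)) : _) = cup2 B.ρ β G (a : G × G → A) (b : G → B) := rfl

/-- `C¹ × C² → C³` -/
def cupC₁₂ (hβ : Equi β) : ↥(C₁ 𝒰 A) →ₗ[k] ↥(C₂ 𝒰 B) →ₗ[k] ↥(C₃ 𝒰 C) :=
  LinearMap.mk₂ k (fun a b => ⟨cup1 B.ρ β (G × G) (a : G → A) (b : G × G → B), cup12_mem hβ a.2 b.2⟩)
    (fun a a' b => Subtype.ext (by
      simp only [Submodule.coe_add, map_add, LinearMap.add_apply]))
    (fun r a b => Subtype.ext (by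
      simp only [Submodule.coe_smul, map_smul, LinearMap.smul_apply]))
    (fun a b b' => Subtype.ext (by simp only [Submodule.coe_add, map_add]))
    (fun r a b => Subtype.ext (by simp only [Submodule.coe_smul, map_smul]))

@[simp] lemma cupC₁₂_coe (hβ : Equi β) (a : ↥(C₁ 𝒰 A)) (b : ↥(C₂ 𝒰 B)) :
    ((cupC₁₂ 𝒰 hβ a b : ↥(C₃ 𝒰 C)) : _) = cup1 B.ρ β (G × G) (a : G → A) (b : G × G → B) := rfl

/-- `C³ × C⁰ → C³` -/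
def cupC₃₀ (hβ : Equi β) : ↥(C₃ 𝒰 A) →ₗ[k] ↥(C₀ 𝒰 B) →ₗ[k] ↥(C₃ 𝒰 C) :=
  LinearMap.mk₂ k (fun a b => ⟨cup30 B.ρ β (a : G × G × G → A) (b : B), cup30_mem hβ a.2 b.2⟩)
    (fun a a' b => Subtype.ext (by
      simp only [Submodule.coe_add, map_add, LinearMap.add_apply]))
    (fun r a b => Subtype.ext (by
      simp only [Submodule.coe_smul, map_smul, LinearMap.smul_apply]))
    (fun a b b' => Subtype.ext (by simp only [Submodule.coe_add, map_add]))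
    (fun r a b => Subtype.ext (by simp only [Submodule.coe_smul, map_smul]))

@[simp] lemma cupC₃₀_coe (hβ : Equi β) (a : ↥(C₃ 𝒰 A)) (b : ↥(C₀ 𝒰 B)) :
    ((cupC₃₀ 𝒰 hβ a b : ↥(C₃ 𝒰 C)) : _) = cup30 B.ρ β (a : G × G × G → A) (b : B) := rfl

/-- `C⁰ × C³ → C³` -/
def cupC₀₃ (hβ : Equi β) : ↥(C₀ 𝒰 A) →ₗ[k] ↥(C₃ 𝒰 B) →ₗ[k] ↥(C₃ 𝒰 C) :=
  LinearMap.mk₂ k (fun a b => ⟨cup0 β (G × G × G) (a : A) (b : G × G × G → B), cup03_mem hβ a.2 b.2⟩)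
    (fun a a' b => Subtype.ext (by
      simp only [Submodule.coe_add, map_add, LinearMap.add_apply]))
    (fun r a b => Subtype.ext (by
      simp only [Submodule.coe_smul, map_smul, LinearMap.smul_apply]))
    (fun a b b' => Subtype.ext (by simp only [Submodule.coe_add, map_add]))
    (fun r a b => Subtype.ext (by simp only [Submodule.coe_smul, map_smul]))

@[simp] lemma cupC₀₃_coe (hβ : Equi β) (a : ↥(C₀ 𝒰 A)) (b : ↥(C₃ 𝒰 B)) :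
    ((cupC₀₃ 𝒰 hβ a b : ↥(C₃ 𝒰 C)) : _) = cup0 β (G × G × G) (a : A) (b : G × G × G → B) := rfl

end Maps

/-! ## Bridge between the differentials of `LC.lean` and of `CupWindow.lean` -/

section BridgeD

variable (M : Rep.{0, 0, 0} k G)

lemma d₃₄_eq : d₃₄ M = d34 M.ρ := rfl

variable {𝒰} {M}

lemma dC₀_eq_zero_iff {m : ↥(C₀ 𝒰 M)} : dC₀ 𝒰 M m = 0 ↔ d01 M.ρ (m : M) = 0 :=
  ⟨fun h => congrArg Subtype.val h, fun h => Subtype.ext h⟩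

lemma dC₁_eq_zero_iff {f : ↥(C₁ 𝒰 M)} : dC₁ 𝒰 M f = 0 ↔ d12 M.ρ (f : G → M) = 0 :=
  ⟨fun h => congrArg Subtype.val h, fun h => Subtype.ext h⟩

lemma dC₂_eq_zero_iff {f : ↥(C₂ 𝒰 M)} : dC₂ 𝒰 M f = 0 ↔ d23 M.ρ (f : G × G → M) = 0 :=
  ⟨fun h => congrArg Subtype.val h, fun h => Subtype.ext h⟩

lemma dC₃_eq_zero_iff {f : ↥(C₃ 𝒰 M)} : dC₃ 𝒰 M f = 0 ↔ d34 M.ρ (f : G × G × G → M) = 0 :=
  Iff.rfl

end BridgeD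

/-! ## Induced pairings on cohomology -/

section Cohomology

open HmidPair

variable {β}

/-- `H¹(A) × H¹(B) → H²(C)`. -/
def cupH₁₁ (hβ : Equi β) : H1 𝒰 A →ₗ[k] H1 𝒰 B →ₗ[k] H2 𝒰 C :=
  hPair (cupC₁₁ 𝒰 hβ)
    (fun a b ha hb => dC₂_eq_zero_iff.mpr
      (d23_cup11 hβ (dC₁_eq_zero_iff.mp ha) (dC₁_eq_zero_iff.mp hb)))
    (fun a0 b hb => ⟨cupC₀₁ 𝒰 hβ a0 b, Subtype.ext
      (cup11_d01 hβ (a0 : A) (dC₁_eq_zero_iff.mp hb)).symm⟩)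
    (fun a b0 ha => ⟨-cupC₁₀ 𝒰 hβ a b0, Subtype.ext (by
      have h := cup11_d01_right hβ (dC₁_eq_zero_iff.mp ha) (b0 : B)
      simp only [map_neg, NegMemClass.coe_neg, dC₁_coe, cupC₁₀_coe, cupC₁₁_coe, dC₀_coe]
      exact h.symm)⟩)

/-- `H²(A) × H¹(B) → H³(C)`. -/
def cupH₂₁ (hβ : Equi β) : H2 𝒰 A →ₗ[k] H1 𝒰 B →ₗ[k] H3 𝒰 C :=
  hPair (cupC₂₁ 𝒰 hβ)
    (fun a b ha hb => dC₃_eq_zero_iff.mpr
      (d34_cup21 hβ (dC₂_eq_zero_iff.mp ha) (dC₁_eq_zero_iff.mp hb)))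
    (fun a0 b hb => ⟨cupC₁₁ 𝒰 hβ a0 b, Subtype.ext
      (cup21_d12 hβ (a0 : G → A) (dC₁_eq_zero_iff.mp hb)).symm⟩)
    (fun a b0 ha => ⟨cupC₂₀ 𝒰 hβ a b0, Subtype.ext
      (cup21_d01_right hβ (dC₂_eq_zero_iff.mp ha) (b0 : B)).symm⟩)

/-- `H¹(A) × H²(B) → H³(C)`. -/
def cupH₁₂ (hβ : Equi β) : H1 𝒰 A →ₗ[k] H2 𝒰 B →ₗ[k] H3 𝒰 C :=
  hPair (cupC₁₂ 𝒰 hβ)
    (fun a b ha hb => dC₃_eq_zero_iff.mpr
      (d34_cup12 hβ (dC₁_eq_zero_iff.mp ha) (dC₂_eq_zero_iff.mp hb)))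
    (fun a0 b hb => ⟨cupC₀₂ 𝒰 hβ a0 b, Subtype.ext
      (cup12_d01 hβ (a0 : A) (dC₂_eq_zero_iff.mp hb)).symm⟩)
    (fun a b0 ha => ⟨-cupC₁₁ 𝒰 hβ a b0, Subtype.ext (by
      have h := cup12_d12_right hβ (dC₁_eq_zero_iff.mp ha) (b0 : G → B)
      simp only [map_neg, NegMemClass.coe_neg, dC₂_coe, cupC₁₁_coe, cupC₁₂_coe, dC₁_coe]
      exact h.symm)⟩)

/-- `H²(A) × H⁰(B) → H²(C)`. -/
def cupH₂₀ (hβ : Equi β) : H2 𝒰 A →ₗ[k] ↥(H0 𝒰 B) →ₗ[k] H2 𝒰 C :=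
  hPairRight (cupC₂₀ 𝒰 hβ)
    (fun a b ha hb => dC₂_eq_zero_iff.mpr
      (d23_cup20 hβ (dC₂_eq_zero_iff.mp ha) (dC₀_eq_zero_iff.mp hb)))
    (fun a0 b hb => ⟨cupC₁₀ 𝒰 hβ a0 b, Subtype.ext
      (cup20_d12 hβ (a0 : G → A) (dC₀_eq_zero_iff.mp hb)).symm⟩)

/-- `H⁰(A) × H²(B) → H²(C)`. -/
def cupH₀₂ (hβ : Equi β) : ↥(H0 𝒰 A) →ₗ[k] H2 𝒰 B →ₗ[k] H2 𝒰 C :=
  hPairLeft (cupC₀₂ 𝒰 hβ)
    (fun a b ha hb => dC₂_eq_zero_iff.mpr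
      (d23_cup02 hβ (dC₀_eq_zero_iff.mp ha) (dC₂_eq_zero_iff.mp hb)))
    (fun a b0 ha => ⟨cupC₀₁ 𝒰 hβ a b0, Subtype.ext
      (cup02_d12 hβ (dC₀_eq_zero_iff.mp ha) (b0 : G → B)).symm⟩)

/-- `H³(A) × H⁰(B) → H³(C)`. -/
def cupH₃₀ (hβ : Equi β) : H3 𝒰 A →ₗ[k] ↥(H0 𝒰 B) →ₗ[k] H3 𝒰 C :=
  hPairRight (cupC₃₀ 𝒰 hβ)
    (fun a b ha hb => dC₃_eq_zero_iff.mpr
      (d34_cup30 hβ (dC₃_eq_zero_iff.mp ha) (dC₀_eq_zero_iff.mp hb)))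
    (fun a0 b hb => ⟨cupC₂₀ 𝒰 hβ a0 b, Subtype.ext
      (cup30_d23 hβ (a0 : G × G → A) (dC₀_eq_zero_iff.mp hb)).symm⟩)

/-- `H¹(A) × H⁰(B) → H¹(C)`. -/
def cupH₁₀ (hβ : Equi β) : H1 𝒰 A →ₗ[k] ↥(H0 𝒰 B) →ₗ[k] H1 𝒰 C :=
  hPairRight (cupC₁₀ 𝒰 hβ)
    (fun a b ha hb => dC₁_eq_zero_iff.mpr
      (d12_cup10 hβ (dC₁_eq_zero_iff.mp ha) (dC₀_eq_zero_iff.mp hb)))
    (fun a0 b hb => ⟨cupC₀₀ 𝒰 hβ a0 b, Subtype.ext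
      (cup10_d01 hβ (a0 : A) (dC₀_eq_zero_iff.mp hb)).symm⟩)

/-- `H⁰(A) × H¹(B) → H¹(C)`. -/
def cupH₀₁ (hβ : Equi β) : ↥(H0 𝒰 A) →ₗ[k] H1 𝒰 B →ₗ[k] H1 𝒰 C :=
  hPairLeft (cupC₀₁ 𝒰 hβ)
    (fun a b ha hb => dC₁_eq_zero_iff.mpr
      (d12_cup01 hβ (dC₀_eq_zero_iff.mp ha) (dC₁_eq_zero_iff.mp hb)))
    (fun a b0 ha => ⟨cupC₀₀ 𝒰 hβ a b0, Subtype.ext
      (cup01_d01 hβ (dC₀_eq_zero_iff.mp ha) (b0 : B)).symm⟩)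

/-! ### specification on representatives (all `rfl`) -/

theorem cupH₁₁_of (hβ : Equi β) (a : ↥(C₁ 𝒰 A)) (ha : dC₁ 𝒰 A a = 0) (b : ↥(C₁ 𝒰 B))
    (hb : dC₁ 𝒰 B b = 0) (h : dC₂ 𝒰 C (cupC₁₁ 𝒰 hβ a b) = 0) :
    cupH₁₁ 𝒰 hβ (Hmid.of a ha) (Hmid.of b hb) = Hmid.of (cupC₁₁ 𝒰 hβ a b) h := rfl

theorem cupH₂₁_of (hβ : Equi β) (a : ↥(C₂ 𝒰 A)) (ha : dC₂ 𝒰 A a = 0) (b : ↥(C₁ 𝒰 B))
    (hb : dC₁ 𝒰 B b = 0) (h : dC₃ 𝒰 C (cupC₂₁ 𝒰 hβ a b) = 0) :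
    cupH₂₁ 𝒰 hβ (Hmid.of a ha) (Hmid.of b hb) = Hmid.of (cupC₂₁ 𝒰 hβ a b) h := rfl

theorem cupH₁₂_of (hβ : Equi β) (a : ↥(C₁ 𝒰 A)) (ha : dC₁ 𝒰 A a = 0) (b : ↥(C₂ 𝒰 B))
    (hb : dC₂ 𝒰 B b = 0) (h : dC₃ 𝒰 C (cupC₁₂ 𝒰 hβ a b) = 0) :
    cupH₁₂ 𝒰 hβ (Hmid.of a ha) (Hmid.of b hb) = Hmid.of (cupC₁₂ 𝒰 hβ a b) h := rfl

theorem cupH₂₀_of (hβ : Equi β) (a : ↥(C₂ 𝒰 A)) (ha : dC₂ 𝒰 A a = 0) (b : ↥(H0 𝒰 B))
    (h : dC₂ 𝒰 C (cupC₂₀ 𝒰 hβ a b) = 0) :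
    cupH₂₀ 𝒰 hβ (Hmid.of a ha) b = Hmid.of (cupC₂₀ 𝒰 hβ a b) h := rfl

theorem cupH₀₂_of (hβ : Equi β) (a : ↥(H0 𝒰 A)) (b : ↥(C₂ 𝒰 B)) (hb : dC₂ 𝒰 B b = 0)
    (h : dC₂ 𝒰 C (cupC₀₂ 𝒰 hβ a b) = 0) :
    cupH₀₂ 𝒰 hβ a (Hmid.of b hb) = Hmid.of (cupC₀₂ 𝒰 hβ a b) h := rfl

theorem cupH₃₀_of (hβ : Equi β) (a : ↥(C₃ 𝒰 A)) (ha : dC₃ 𝒰 A a = 0) (b : ↥(H0 𝒰 B))
    (h : dC₃ 𝒰 C (cupC₃₀ 𝒰 hβ a b) = 0) :
    cupH₃₀ 𝒰 hβ (Hmid.of a ha) b = Hmid.of (cupC₃₀ 𝒰 hβ a b) h := rfl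

theorem cupH₁₀_of (hβ : Equi β) (a : ↥(C₁ 𝒰 A)) (ha : dC₁ 𝒰 A a = 0) (b : ↥(H0 𝒰 B))
    (h : dC₁ 𝒰 C (cupC₁₀ 𝒰 hβ a b) = 0) :
    cupH₁₀ 𝒰 hβ (Hmid.of a ha) b = Hmid.of (cupC₁₀ 𝒰 hβ a b) h := rfl

theorem cupH₀₁_of (hβ : Equi β) (a : ↥(H0 𝒰 A)) (b : ↥(C₁ 𝒰 B)) (hb : dC₁ 𝒰 B b = 0)
    (h : dC₁ 𝒰 C (cupC₀₁ 𝒰 hβ a b) = 0) :
    cupH₀₁ 𝒰 hβ a (Hmid.of b hb) = Hmid.of (cupC₀₁ 𝒰 hβ a b) h := rfl

end Cohomology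

/-! ## Naturality -/

section Naturality

variable {𝒰}
variable {G' : Type} [Group G'] {𝒰' : NBasis G'} {A' B' C' : Rep.{0, 0, 0} k G'}
  {β} {β' : A' →ₗ[k] B' →ₗ[k] C'}
  (αA : Mor 𝒰 A 𝒰' A') (αB : Mor 𝒰 B 𝒰' B') (αC : Mor 𝒰 C 𝒰' C')

/-- Compatibility of three morphisms of situations with the pairings. -/
structure Compat (β : A →ₗ[k] B →ₗ[k] C) (β' : A' →ₗ[k] B' →ₗ[k] C') : Prop where
  fB : αB.f = αA.f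
  fC : αC.f = αA.f
  pair : ∀ a b, αC.φ (β a b) = β' (αA.φ a) (αB.φ b)

variable {αA αB αC}

theorem Compat.p₁_cup01 (h : Compat αA αB αC β β') (a : A) (b : G → B) :
    αC.p₁ (cup0 β G a b) = cup0 β' G' (αA.φ a) (αB.p₁ b) := by
  funext g
  simp only [Mor.p₁_apply, cup0_apply, h.pair, h.fB, h.fC]

theorem Compat.p₁_cup10 (h : Compat αA αB αC β β') (a : G → A) (b : B) :
    αC.p₁ (cup10 B.ρ β a b) = cup10 B'.ρ β' (αA.p₁ a) (αB.φ b) := by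
  funext g
  simp only [Mor.p₁_apply, cup10_apply, h.pair, h.fC, ← h.fB, αB.equivar]

theorem Compat.p₂_cup11 (h : Compat αA αB αC β β') (a : G → A) (b : G → B) :
    αC.p₂ (cup1 B.ρ β G a b) = cup1 B'.ρ β' G' (αA.p₁ a) (αB.p₁ b) := by
  funext ⟨g, g'⟩
  simp only [Mor.p₂_apply, Mor.p₁_apply, cup1_apply, h.pair, h.fC, ← h.fB, αB.equivar]

theorem Compat.p₂_cup20 (h : Compat αA αB αC β β') (a : G × G → A) (b : B) :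
    αC.p₂ (cup20 B.ρ β a b) = cup20 B'.ρ β' (αA.p₂ a) (αB.φ b) := by
  funext ⟨g, g'⟩
  simp only [Mor.p₂_apply, cup20_apply, h.pair, h.fC, ← h.fB, ← map_mul, αB.equivar]

theorem Compat.p₂_cup02 (h : Compat αA αB αC β β') (a : A) (b : G × G → B) :
    αC.p₂ (cup0 β (G × G) a b) = cup0 β' (G' × G') (αA.φ a) (αB.p₂ b) := by
  funext ⟨g, g'⟩
  simp only [Mor.p₂_apply, cup0_apply, h.pair, h.fB, h.fC]

theorem Compat.p₃_cup21 (h : Compat αA αB αC β β') (a : G × G → A) (b : G → B) :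
    αC.p₃ (cup2 B.ρ β G a b) = cup2 B'.ρ β' G' (αA.p₂ a) (αB.p₁ b) := by
  funext ⟨g, g', g''⟩
  simp only [Mor.p₃_apply, Mor.p₂_apply, Mor.p₁_apply, cup2_apply, h.pair, h.fC, ← h.fB,
    ← map_mul, αB.equivar]

theorem Compat.p₃_cup12 (h : Compat αA αB αC β β') (a : G → A) (b : G × G → B) :
    αC.p₃ (cup1 B.ρ β (G × G) a b) = cup1 B'.ρ β' (G' × G') (αA.p₁ a) (αB.p₂ b) := by
  funext ⟨g, g', g''⟩
  simp only [Mor.p₃_apply, Mor.p₂_apply, Mor.p₁_apply, cup1_apply, h.pair, h.fC, ← h.fB,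
    αB.equivar]

theorem Compat.p₃_cup30 (h : Compat αA αB αC β β') (a : G × G × G → A) (b : B) :
    αC.p₃ (cup30 B.ρ β a b) = cup30 B'.ρ β' (αA.p₃ a) (αB.φ b) := by
  funext ⟨g, g', g''⟩
  simp only [Mor.p₃_apply, cup30_apply, h.pair, h.fC, ← h.fB, ← map_mul, αB.equivar]

/-! ### on LC cochains -/

theorem Compat.c₁_cupC₀₁ (h : Compat αA αB αC β β') (hβ : Equi β) (hβ' : Equi β')
    (a : ↥(C₀ 𝒰 A)) (b : ↥(C₁ 𝒰 B)) :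
    αC.c₁ (cupC₀₁ 𝒰 hβ a b) = cupC₀₁ 𝒰' hβ' (αA.c₀ a) (αB.c₁ b) :=
  Subtype.ext (h.p₁_cup01 (a : A) (b : G → B))

theorem Compat.c₁_cupC₁₀ (h : Compat αA αB αC β β') (hβ : Equi β) (hβ' : Equi β')
    (a : ↥(C₁ 𝒰 A)) (b : ↥(C₀ 𝒰 B)) :
    αC.c₁ (cupC₁₀ 𝒰 hβ a b) = cupC₁₀ 𝒰' hβ' (αA.c₁ a) (αB.c₀ b) :=
  Subtype.ext (h.p₁_cup10 (a : G → A) (b : B))

theorem Compat.c₂_cupC₁₁ (h : Compat αA αB αC β β') (hβ : Equi β) (hβ' : Equi β')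
    (a : ↥(C₁ 𝒰 A)) (b : ↥(C₁ 𝒰 B)) :
    αC.c₂ (cupC₁₁ 𝒰 hβ a b) = cupC₁₁ 𝒰' hβ' (αA.c₁ a) (αB.c₁ b) :=
  Subtype.ext (h.p₂_cup11 (a : G → A) (b : G → B))

theorem Compat.c₂_cupC₂₀ (h : Compat αA αB αC β β') (hβ : Equi β) (hβ' : Equi β')
    (a : ↥(C₂ 𝒰 A)) (b : ↥(C₀ 𝒰 B)) :
    αC.c₂ (cupC₂₀ 𝒰 hβ a b) = cupC₂₀ 𝒰' hβ' (αA.c₂ a) (αB.c₀ b) :=
  Subtype.ext (h.p₂_cup20 (a : G × G → A) (b : B))

theorem Compat.c₂_cupC₀₂ (h : Compat αA αB αC β β') (hβ : Equi β) (hβ' : Equi β')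
    (a : ↥(C₀ 𝒰 A)) (b : ↥(C₂ 𝒰 B)) :
    αC.c₂ (cupC₀₂ 𝒰 hβ a b) = cupC₀₂ 𝒰' hβ' (αA.c₀ a) (αB.c₂ b) :=
  Subtype.ext (h.p₂_cup02 (a : A) (b : G × G → B))

theorem Compat.c₃_cupC₂₁ (h : Compat αA αB αC β β') (hβ : Equi β) (hβ' : Equi β')
    (a : ↥(C₂ 𝒰 A)) (b : ↥(C₁ 𝒰 B)) :
    αC.c₃ (cupC₂₁ 𝒰 hβ a b) = cupC₂₁ 𝒰' hβ' (αA.c₂ a) (αB.c₁ b) :=
  Subtype.ext (h.p₃_cup21 (a : G × G → A) (b : G → B))

theorem Compat.c₃_cupC₁₂ (h : Compat αA αB αC β β') (hβ : Equi β) (hβ' : Equi β')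
    (a : ↥(C₁ 𝒰 A)) (b : ↥(C₂ 𝒰 B)) :
    αC.c₃ (cupC₁₂ 𝒰 hβ a b) = cupC₁₂ 𝒰' hβ' (αA.c₁ a) (αB.c₂ b) :=
  Subtype.ext (h.p₃_cup12 (a : G → A) (b : G × G → B))

theorem Compat.c₃_cupC₃₀ (h : Compat αA αB αC β β') (hβ : Equi β) (hβ' : Equi β')
    (a : ↥(C₃ 𝒰 A)) (b : ↥(C₀ 𝒰 B)) :
    αC.c₃ (cupC₃₀ 𝒰 hβ a b) = cupC₃₀ 𝒰' hβ' (αA.c₃ a) (αB.c₀ b) :=
  Subtype.ext (h.p₃_cup30 (a : G × G × G → A) (b : B))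

/-! ### on cohomology -/

lemma of_congr {X0 X1 X2 : Type*} [AddCommGroup X0] [Module k X0] [AddCommGroup X1]
    [Module k X1] [AddCommGroup X2] [Module k X2] {f : X0 →ₗ[k] X1} {g : X1 →ₗ[k] X2}
    {b b' : X1} (e : b = b') (hb : g b = 0) (hb' : g b' = 0) :
    (Hmid.of b hb : Hmid f g) = Hmid.of b' hb' := by
  subst e; rfl

theorem Compat.h2_cupH₁₁ (h : Compat αA αB αC β β') (hβ : Equi β) (hβ' : Equi β')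
    (x : H1 𝒰 A) (y : H1 𝒰 B) :
    αC.h2 (cupH₁₁ 𝒰 hβ x y) = cupH₁₁ 𝒰' hβ' (αA.h1 x) (αB.h1 y) := by
  obtain ⟨a, ha, rfl⟩ := Hmid.exists_of x
  obtain ⟨b, hb, rfl⟩ := Hmid.exists_of y
  simp only [cupH₁₁, Mor.h1, Mor.h2, Hmid.mapOfComm, Hmid.map_of, HmidPair.hPair_of]
  exact of_congr (h.c₂_cupC₁₁ hβ hβ' a b) _ _

theorem Compat.h3_cupH₂₁ (h : Compat αA αB αC β β') (hβ : Equi β) (hβ' : Equi β')
    (x : H2 𝒰 A) (y : H1 𝒰 B) :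
    αC.h3 (cupH₂₁ 𝒰 hβ x y) = cupH₂₁ 𝒰' hβ' (αA.h2 x) (αB.h1 y) := by
  obtain ⟨a, ha, rfl⟩ := Hmid.exists_of x
  obtain ⟨b, hb, rfl⟩ := Hmid.exists_of y
  simp only [cupH₂₁, Mor.h1, Mor.h2, Mor.h3, Hmid.mapOfComm, Hmid.map_of, HmidPair.hPair_of]
  exact of_congr (h.c₃_cupC₂₁ hβ hβ' a b) _ _

theorem Compat.h3_cupH₁₂ (h : Compat αA αB αC β β') (hβ : Equi β) (hβ' : Equi β')
    (x : H1 𝒰 A) (y : H2 𝒰 B) :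
    αC.h3 (cupH₁₂ 𝒰 hβ x y) = cupH₁₂ 𝒰' hβ' (αA.h1 x) (αB.h2 y) := by
  obtain ⟨a, ha, rfl⟩ := Hmid.exists_of x
  obtain ⟨b, hb, rfl⟩ := Hmid.exists_of y
  simp only [cupH₁₂, Mor.h1, Mor.h2, Mor.h3, Hmid.mapOfComm, Hmid.map_of, HmidPair.hPair_of]
  exact of_congr (h.c₃_cupC₁₂ hβ hβ' a b) _ _

theorem Compat.h2_cupH₂₀ (h : Compat αA αB αC β β') (hβ : Equi β) (hβ' : Equi β')
    (x : H2 𝒰 A) (y : ↥(H0 𝒰 B)) :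
    αC.h2 (cupH₂₀ 𝒰 hβ x y) = cupH₂₀ 𝒰' hβ' (αA.h2 x) (αB.h0 y) := by
  obtain ⟨a, ha, rfl⟩ := Hmid.exists_of x
  simp only [cupH₂₀, Mor.h2, Hmid.mapOfComm, Hmid.map_of, HmidPair.hPairRight_of]
  exact of_congr (h.c₂_cupC₂₀ hβ hβ' a y) _ _

theorem Compat.h2_cupH₀₂ (h : Compat αA αB αC β β') (hβ : Equi β) (hβ' : Equi β')
    (x : ↥(H0 𝒰 A)) (y : H2 𝒰 B) :
    αC.h2 (cupH₀₂ 𝒰 hβ x y) = cupH₀₂ 𝒰' hβ' (αA.h0 x) (αB.h2 y) := by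
  obtain ⟨b, hb, rfl⟩ := Hmid.exists_of y
  simp only [cupH₀₂, Mor.h2, Hmid.mapOfComm, Hmid.map_of, HmidPair.hPairLeft_of]
  exact of_congr (h.c₂_cupC₀₂ hβ hβ' x b) _ _

theorem Compat.h3_cupH₃₀ (h : Compat αA αB αC β β') (hβ : Equi β) (hβ' : Equi β')
    (x : H3 𝒰 A) (y : ↥(H0 𝒰 B)) :
    αC.h3 (cupH₃₀ 𝒰 hβ x y) = cupH₃₀ 𝒰' hβ' (αA.h3 x) (αB.h0 y) := by
  obtain ⟨a, ha, rfl⟩ := Hmid.exists_of x
  simp only [cupH₃₀, Mor.h3, Hmid.mapOfComm, Hmid.map_of, HmidPair.hPairRight_of]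
  exact of_congr (h.c₃_cupC₃₀ hβ hβ' a y) _ _

/-- Restriction along a continuous homomorphism is compatible with any pairing. -/
theorem compat_res (f : G' →* G) (hf : IsCont 𝒰 𝒰' f) (β : A →ₗ[k] B →ₗ[k] C) :
    Compat (Mor.res 𝒰 𝒰' f hf A) (Mor.res 𝒰 𝒰' f hf B) (Mor.res 𝒰 𝒰' f hf C) β β :=
  ⟨rfl, rfl, fun _ _ => rfl⟩

/-- The restricted pairing is equivariant. -/
theorem equi_res (f : G' →* G) (hβ : Equi β) :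
    Equi (A := Rep.res f A) (B := Rep.res f B) (C := Rep.res f C) β :=
  fun g a b => hβ (f g) a b

end Naturality

end Fermat.Agent.S55.Formal.CupLC
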