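/-
S55 / Formal / CupDeltaLocal  (helper27)

δ-compatibility and projection formulas of the cup products of `CupLC`, for a SINGLE group with
basis `(G, 𝒰)` (the local half of (5)+(6) of lemma row 154; consumer: `LocalDuality`).

Two coefficient sequences `R -i→ Q -π→ M` and `M' -π'→ Q' -i'→ R'` (both `IsCoefSES`), equivariant
pairings `βR : R × R' → C`, `βQ : Q × Q' → C`, `βM : M × M' → C`, adjoint to each other: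
`βQ (i r) q' = βR r (i' q')`, `βQ q (π' m') = βM (π q) m'`.  Then for `x ∈ H¹(M)`, `z ∈ H⁰(R')`:

  `(δ₁ x) ∪ z = x ∪ (δ₀ z)`   in `H²(C)`        (`cupH₂₀_δ₁`; the sign is `+1`).

Cochain computation: `x = [π bt]`, `d bt = i σ`, `z = i' yt`, `d yt = π' a`; then
`d (bt ∪ yt) = d bt ∪ yt - bt ∪ d yt = σ ∪ z - x ∪ a`.
-/
import Fermat.Agent.S55.Formal.CupLC
import Fermat.Agent.S55.Formal.CoefLES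

set_option autoImplicit false

open CategoryTheory groupCohomology

namespace Fermat.Agent.S55.Formal.CupDeltaLocal

open Fermat.Agent.S55.Formal Fermat.Agent.S55.Formal.CupWindow Fermat.Agent.S55.Formal.CupLC
  Fermat.Agent.S55.Formal.CoefLES

variable {k : Type} [CommRing k] {G : Type} [Group G] {𝒰 : NBasis G}

section Delta

variable {R Q M R' Q' M' C : Rep.{0, 0, 0} k G}
  {i : Mor 𝒰 R 𝒰 Q} {π : Mor 𝒰 Q 𝒰 M} {π' : Mor 𝒰 M' 𝒰 Q'} {i' : Mor 𝒰 Q' 𝒰 R'}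
  {βR : R →ₗ[k] R' →ₗ[k] C} {βQ : Q →ₗ[k] Q' →ₗ[k] C} {βM : M →ₗ[k] M' →ₗ[k] C}

/-- The cochain identity: `d (bt ∪ yt) = σ ∪ (i' yt) - (π bt) ∪ a` when `d bt = i σ`,
`d yt = π' a`. -/
theorem dC₁_cupC₁₀_lift (hS : IsCoefSES i π) (hS' : IsCoefSES π' i')
    (hβR : Equi βR) (hβQ : Equi βQ) (hβM : Equi βM)
    (hadjR : ∀ r q', βQ (i.φ r) q' = βR r (i'.φ q'))
    (hadjM : ∀ q m', βQ q (π'.φ m') = βM (π.φ q) m')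
    (bt : ↥(C₁ 𝒰 Q)) (σ : ↥(C₂ 𝒰 R)) (hσ : dC₁ 𝒰 Q bt = i.c₂ σ)
    (yt : ↥(C₀ 𝒰 Q')) (a : ↥(C₁ 𝒰 M')) (ha : dC₀ 𝒰 Q' yt = π'.c₁ a) :
    dC₁ 𝒰 C (cupC₁₀ 𝒰 hβQ bt yt) =
      cupC₂₀ 𝒰 hβR σ (i'.c₀ yt) - cupC₁₁ 𝒰 hβM (π.c₁ bt) a := by
  apply Subtype.ext
  have h1 := leibniz10 hβQ (bt : G → Q) (yt : Q')
  have hσ' : d12 Q.ρ (bt : G → Q) = i.p₂ (σ : G × G → R) := congrArg Subtype.val hσ
  have ha' : d01 Q'.ρ (yt : Q') = π'.p₁ (a : G → M') := congrArg Subtype.val ha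
  rw [hσ', ha'] at h1
  simp only [dC₁_coe, cupC₁₀_coe, AddSubgroupClass.coe_sub, cupC₂₀_coe, cupC₁₁_coe, Mor.c₀_coe,
    Mor.c₁_coe]
  refine h1.trans ?_
  funext ⟨g, h⟩
  simp only [Pi.sub_apply, cup20_apply, cup1_apply, Mor.p₂_apply, Mor.p₁_apply, hS.fα, hS.fβ,
    hS'.fα, hadjR, hadjM, equivβ hS', ← equivα hS']

/-- **δ-compatibility of the local cup products**: `(δ₁ x) ∪ z = x ∪ (δ₀ z)`. -/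
theorem cupH₂₀_δ₁ (hS : IsCoefSES i π) (hS' : IsCoefSES π' i')
    (hβR : Equi βR) (hβQ : Equi βQ) (hβM : Equi βM)
    (hadjR : ∀ r q', βQ (i.φ r) q' = βR r (i'.φ q'))
    (hadjM : ∀ q m', βQ q (π'.φ m') = βM (π.φ q) m')
    (x : H1 𝒰 M) (z : ↥(H0 𝒰 R')) :
    cupH₂₀ 𝒰 hβR (δ₁ hS x) z = cupH₁₁ 𝒰 hβM x (δ₀ hS' z) := by
  obtain ⟨m, hm, rfl⟩ := Hmid.exists_of x
  -- lift `m` to `Q`
  obtain ⟨bt, rfl⟩ := c₁_surjective hS m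
  -- `d bt` comes from `R`
  have h0 : π.c₂ (dC₁ 𝒰 Q bt) = 0 := by
    have := LinearMap.congr_fun π.c₂_dC₁ bt
    simp only [LinearMap.comp_apply] at this
    rw [this, hm]
  obtain ⟨σ, hσ⟩ := (exact_c₂ hS (dC₁ 𝒰 Q bt)).mp h0
  have hσ0 : dC₂ 𝒰 R σ = 0 := by
    apply c₃_injective hS
    have := LinearMap.congr_fun i.c₃_dC₂ σ
    simp only [LinearMap.comp_apply] at this
    rw [map_zero, this, hσ, dC₂_dC₁]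
  have hδ₁ : δ₁ hS (Hmid.of (π.c₁ bt) hm) = Hmid.of σ hσ0 := δ₁_of hS bt σ hσ.symm hm hσ0
  -- lift `z` to `Q'`
  obtain ⟨z, hzmem⟩ := z
  obtain ⟨yt, rfl⟩ := c₀_surjective hS' z
  have h0' : i'.c₁ (dC₀ 𝒰 Q' yt) = 0 := by
    have := LinearMap.congr_fun i'.c₁_dC₀ yt
    simp only [LinearMap.comp_apply] at this
    rw [this]
    exact LinearMap.mem_ker.mp hzmem
  obtain ⟨a, ha⟩ := (exact_c₁ hS' (dC₀ 𝒰 Q' yt)).mp h0'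
  have ha0 : dC₁ 𝒰 M' a = 0 := by
    apply c₂_injective hS'
    have := LinearMap.congr_fun π'.c₂_dC₁ a
    simp only [LinearMap.comp_apply] at this
    rw [map_zero, this, ha, dC₁_dC₀]
  have hδ₀ : δ₀ hS' ⟨i'.c₀ yt, hzmem⟩ = Hmid.of a ha0 := δ₀_of hS' yt a ha.symm hzmem ha0
  rw [hδ₁, hδ₀]
  -- both sides on representatives
  have key := dC₁_cupC₁₀_lift hS hS' hβR hβQ hβM hadjR hadjM bt σ hσ.symm yt a ha.symm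
  have hL : dC₂ 𝒰 C (cupC₂₀ 𝒰 hβR σ (i'.c₀ yt)) = 0 :=
    dC₂_eq_zero_iff.mpr (d23_cup20 hβR (dC₂_eq_zero_iff.mp hσ0)
      (dC₀_eq_zero_iff.mp (LinearMap.mem_ker.mp hzmem)))
  have hR : dC₂ 𝒰 C (cupC₁₁ 𝒰 hβM (π.c₁ bt) a) = 0 :=
    dC₂_eq_zero_iff.mpr (d23_cup11 hβM (dC₁_eq_zero_iff.mp hm) (dC₁_eq_zero_iff.mp ha0))
  have e1 : cupH₂₀ 𝒰 hβR (Hmid.of σ hσ0) ⟨i'.c₀ yt, hzmem⟩ =
      Hmid.of (cupC₂₀ 𝒰 hβR σ (i'.c₀ yt)) hL := rfl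
  have e2 : cupH₁₁ 𝒰 hβM (Hmid.of (π.c₁ bt) hm) (Hmid.of a ha0) =
      Hmid.of (cupC₁₁ 𝒰 hβM (π.c₁ bt) a) hR := rfl
  have e3 : (Hmid.of (cupC₂₀ 𝒰 hβR σ (i'.c₀ yt)) hL : H2 𝒰 C) =
      Hmid.of (cupC₁₁ 𝒰 hβM (π.c₁ bt) a) hR :=
    Hmid.of_eq_of_iff.mpr ⟨cupC₁₀ 𝒰 hβQ bt yt, key⟩
  exact e1.trans (e3.trans e2.symm)

end Delta

/-! ### projection formulas -/

section Projection

variable {A₁ A₂ B₁ B₂ C : Rep.{0, 0, 0} k G}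
  {β₁ : A₁ →ₗ[k] B₁ →ₗ[k] C} {β₂ : A₂ →ₗ[k] B₂ →ₗ[k] C}
  (α : Mor 𝒰 A₁ 𝒰 A₂) (γ : Mor 𝒰 B₂ 𝒰 B₁)

/-- **Projection formula** for `H² × H⁰ → H²`: if `β₂ (α a) b = β₁ a (γ b)` then
`(α x) ∪ y = x ∪ (γ y)`. -/
theorem cupH₂₀_proj (hα : ∀ g, α.f g = g) (hγ : ∀ g, γ.f g = g) (hβ₁ : Equi β₁) (hβ₂ : Equi β₂)
    (hadj : ∀ a b, β₂ (α.φ a) b = β₁ a (γ.φ b)) (x : H2 𝒰 A₁) (y : ↥(H0 𝒰 B₂)) :
    cupH₂₀ 𝒰 hβ₂ (α.h2 x) y = cupH₂₀ 𝒰 hβ₁ x (γ.h0 y) := by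
  obtain ⟨a, ha, rfl⟩ := Hmid.exists_of x
  have hγe : ∀ g b, γ.φ (B₂.ρ g b) = B₁.ρ g (γ.φ b) := fun g b => by
    have := γ.equivar g b
    rwa [hγ] at this
  have e : cupC₂₀ 𝒰 hβ₂ (α.c₂ a) (y : ↥(C₀ 𝒰 B₂)) = cupC₂₀ 𝒰 hβ₁ a (γ.c₀ (y : ↥(C₀ 𝒰 B₂))) := by
    apply Subtype.ext
    funext ⟨g, h⟩
    simp only [cupC₂₀_coe, cup20_apply, Mor.c₂_coe, Mor.p₂_apply, Mor.c₀_coe, hα, hadj, hγe]
  simp only [cupH₂₀, Mor.h2, Hmid.mapOfComm, Hmid.map_of, HmidPair.hPairRight_of]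
  exact of_congr e _ _

/-- **Projection formula** for `H¹ × H¹ → H²`. -/
theorem cupH₁₁_proj (hα : ∀ g, α.f g = g) (hγ : ∀ g, γ.f g = g) (hβ₁ : Equi β₁) (hβ₂ : Equi β₂)
    (hadj : ∀ a b, β₂ (α.φ a) b = β₁ a (γ.φ b)) (x : H1 𝒰 A₁) (y : H1 𝒰 B₂) :
    cupH₁₁ 𝒰 hβ₂ (α.h1 x) y = cupH₁₁ 𝒰 hβ₁ x (γ.h1 y) := by
  obtain ⟨a, ha, rfl⟩ := Hmid.exists_of x
  obtain ⟨b, hb, rfl⟩ := Hmid.exists_of y
  have hγe : ∀ g b, γ.φ (B₂.ρ g b) = B₁.ρ g (γ.φ b) := fun g b => by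
    have := γ.equivar g b
    rwa [hγ] at this
  have e : cupC₁₁ 𝒰 hβ₂ (α.c₁ a) b = cupC₁₁ 𝒰 hβ₁ a (γ.c₁ b) := by
    apply Subtype.ext
    funext ⟨g, h⟩
    simp only [cupC₁₁_coe, cup1_apply, Mor.c₁_coe, Mor.p₁_apply, hα, hγ, hadj, hγe]
  simp only [cupH₁₁, Mor.h1, Hmid.mapOfComm, Hmid.map_of, HmidPair.hPair_of]
  exact of_congr e _ _

/-- **Projection formula** for `H¹ × H⁰ → H¹`. -/
theorem cupH₁₀_proj (hα : ∀ g, α.f g = g) (hγ : ∀ g, γ.f g = g) (hβ₁ : Equi β₁) (hβ₂ : Equi β₂)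
    (hadj : ∀ a b, β₂ (α.φ a) b = β₁ a (γ.φ b)) (x : H1 𝒰 A₁) (y : ↥(H0 𝒰 B₂)) :
    cupH₁₀ 𝒰 hβ₂ (α.h1 x) y = cupH₁₀ 𝒰 hβ₁ x (γ.h0 y) := by
  obtain ⟨a, ha, rfl⟩ := Hmid.exists_of x
  have hγe : ∀ g b, γ.φ (B₂.ρ g b) = B₁.ρ g (γ.φ b) := fun g b => by
    have := γ.equivar g b
    rwa [hγ] at this
  have e : cupC₁₀ 𝒰 hβ₂ (α.c₁ a) (y : ↥(C₀ 𝒰 B₂)) = cupC₁₀ 𝒰 hβ₁ a (γ.c₀ (y : ↥(C₀ 𝒰 B₂))) := by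
    apply Subtype.ext
    funext g
    simp only [cupC₁₀_coe, cup10_apply, Mor.c₁_coe, Mor.p₁_apply, Mor.c₀_coe, hα, hadj, hγe]
  simp only [cupH₁₀, Mor.h1, Hmid.mapOfComm, Hmid.map_of, HmidPair.hPairRight_of]
  exact of_congr e _ _

end Projection

end Fermat.Agent.S55.Formal.CupDeltaLocal
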