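import Mathlib

/-!
# S55 / Formal: low-degree cup products on inhomogeneous cochains and the Leibniz rule

`A B C : Rep k G`, `β : A →ₗ[k] B →ₗ[k] C` a `G`-equivariant bilinear pairing
(`β (g a) (g b) = g (β a b)`).  In Mathlib's low-degree language (`A`, `G → A`, `G × G → A`,
`G × G × G → A`, differentials `d₀₁ d₁₂ d₂₃`) we define the cup products
`(a ∪ b)(g₁,…,g_{i+j}) = β (a(g₁,…,g_i)) ((g₁⋯g_i) • b(g_{i+1},…,g_{i+j}))` for `i + j ≤ 3`
as `k`-bilinear maps `cupᵢⱼ`, and prove the Leibniz rule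
`d (a ∪ b) = da ∪ b + (-1)^i a ∪ db` for all `i + j ≤ 2`.
-/

set_option autoImplicit false

universe u

open groupCohomology

namespace Fermat.Agent.S55.Formal.CupLeibniz

variable {k G : Type u} [CommRing k] [Group G] {A B C : Rep k G}

/-- `G`-equivariance of a bilinear pairing. -/
def IsEquivariant (β : A →ₗ[k] B →ₗ[k] C) : Prop :=
  ∀ (g : G) (a : A) (b : B), β (A.ρ g a) (B.ρ g b) = C.ρ g (β a b)

variable (β : A →ₗ[k] B →ₗ[k] C)

/-! ### the cup products -/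

/-- `C⁰ × C⁰ → C⁰`. -/
def cup00 : A →ₗ[k] B →ₗ[k] C := β

/-- `C⁰ × C¹ → C¹`: `(a ∪ f)(g) = β a (f g)`. -/
def cup01 : A →ₗ[k] (G → B) →ₗ[k] (G → C) :=
  LinearMap.mk₂ k (fun a f g => β a (f g))
    (fun a a' f => by funext g; simp)
    (fun c a f => by funext g; simp)
    (fun a f f' => by funext g; simp)
    (fun c a f => by funext g; simp)

/-- `C¹ × C⁰ → C¹`: `(f ∪ b)(g) = β (f g) (g b)`. -/
def cup10 : (G → A) →ₗ[k] B →ₗ[k] (G → C) :=
  LinearMap.mk₂ k (fun f b g => β (f g) (B.ρ g b))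
    (fun f f' b => by funext g; simp)
    (fun c f b => by funext g; simp)
    (fun f b b' => by funext g; simp)
    (fun c f b => by funext g; simp)

/-- `C¹ × C¹ → C²`: `(f ∪ f')(g, h) = β (f g) (g (f' h))`. -/
def cup11 : (G → A) →ₗ[k] (G → B) →ₗ[k] (G × G → C) :=
  LinearMap.mk₂ k (fun f f' x => β (f x.1) (B.ρ x.1 (f' x.2)))
    (fun f₁ f₂ f' => by funext x; simp)
    (fun c f f' => by funext x; simp)
    (fun f f₁ f₂ => by funext x; simp)
    (fun c f f' => by funext x; simp)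

/-- `C⁰ × C² → C²`. -/
def cup02 : A →ₗ[k] (G × G → B) →ₗ[k] (G × G → C) :=
  LinearMap.mk₂ k (fun a F x => β a (F x))
    (fun a a' F => by funext x; simp)
    (fun c a F => by funext x; simp)
    (fun a F F' => by funext x; simp)
    (fun c a F => by funext x; simp)

/-- `C² × C⁰ → C²`: `(F ∪ b)(g, h) = β (F (g, h)) (gh b)`. -/
def cup20 : (G × G → A) →ₗ[k] B →ₗ[k] (G × G → C) :=
  LinearMap.mk₂ k (fun F b x => β (F x) (B.ρ (x.1 * x.2) b))
    (fun F F' b => by funext x; simp)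
    (fun c F b => by funext x; simp)
    (fun F b b' => by funext x; simp)
    (fun c F b => by funext x; simp)

/-- `C¹ × C² → C³`: `(f ∪ F)(g, h, j) = β (f g) (g (F (h, j)))`. -/
def cup12 : (G → A) →ₗ[k] (G × G → B) →ₗ[k] (G × G × G → C) :=
  LinearMap.mk₂ k (fun f F x => β (f x.1) (B.ρ x.1 (F (x.2.1, x.2.2))))
    (fun f f' F => by funext x; simp)
    (fun c f F => by funext x; simp)
    (fun f F F' => by funext x; simp)
    (fun c f F => by funext x; simp)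

/-- `C² × C¹ → C³`: `(F ∪ f)(g, h, j) = β (F (g, h)) (gh (f j))`. -/
def cup21 : (G × G → A) →ₗ[k] (G → B) →ₗ[k] (G × G × G → C) :=
  LinearMap.mk₂ k (fun F f x => β (F (x.1, x.2.1)) (B.ρ (x.1 * x.2.1) (f x.2.2)))
    (fun F F' f => by funext x; simp)
    (fun c F f => by funext x; simp)
    (fun F f f' => by funext x; simp)
    (fun c F f => by funext x; simp)

/-- `C⁰ × C³ → C³`. -/
def cup03 : A →ₗ[k] (G × G × G → B) →ₗ[k] (G × G × G → C) :=
  LinearMap.mk₂ k (fun a T x => β a (T x))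
    (fun a a' T => by funext x; simp)
    (fun c a T => by funext x; simp)
    (fun a T T' => by funext x; simp)
    (fun c a T => by funext x; simp)

/-- `C³ × C⁰ → C³`: `(T ∪ b)(g, h, j) = β (T (g, h, j)) (ghj b)`. -/
def cup30 : (G × G × G → A) →ₗ[k] B →ₗ[k] (G × G × G → C) :=
  LinearMap.mk₂ k (fun T b x => β (T x) (B.ρ (x.1 * x.2.1 * x.2.2) b))
    (fun T T' b => by funext x; simp)
    (fun c T b => by funext x; simp)
    (fun T b b' => by funext x; simp)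
    (fun c T b => by funext x; simp)

@[simp] lemma cup00_apply (a : A) (b : B) : cup00 β a b = β a b := rfl
@[simp] lemma cup01_apply (a : A) (f : G → B) (g : G) : cup01 β a f g = β a (f g) := rfl
@[simp] lemma cup10_apply (f : G → A) (b : B) (g : G) :
    cup10 β f b g = β (f g) (B.ρ g b) := rfl
@[simp] lemma cup11_apply (f : G → A) (f' : G → B) (x : G × G) :
    cup11 β f f' x = β (f x.1) (B.ρ x.1 (f' x.2)) := rfl
@[simp] lemma cup02_apply (a : A) (F : G × G → B) (x : G × G) : cup02 β a F x = β a (F x) := rfl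
@[simp] lemma cup20_apply (F : G × G → A) (b : B) (x : G × G) :
    cup20 β F b x = β (F x) (B.ρ (x.1 * x.2) b) := rfl
@[simp] lemma cup12_apply (f : G → A) (F : G × G → B) (x : G × G × G) :
    cup12 β f F x = β (f x.1) (B.ρ x.1 (F (x.2.1, x.2.2))) := rfl
@[simp] lemma cup21_apply (F : G × G → A) (f : G → B) (x : G × G × G) :
    cup21 β F f x = β (F (x.1, x.2.1)) (B.ρ (x.1 * x.2.1) (f x.2.2)) := rfl
@[simp] lemma cup03_apply (a : A) (T : G × G × G → B) (x : G × G × G) :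
    cup03 β a T x = β a (T x) := rfl
@[simp] lemma cup30_apply (T : G × G × G → A) (b : B) (x : G × G × G) :
    cup30 β T b x = β (T x) (B.ρ (x.1 * x.2.1 * x.2.2) b) := rfl

/-! ### the Leibniz rule -/

variable {β}

/-- `(0,0)`: `d (a ∪ b) = da ∪ b + a ∪ db`. -/
theorem d₀₁_cup00 (hβ : IsEquivariant β) (a : A) (b : B) :
    (d₀₁ C).hom (cup00 β a b) =
      cup10 β ((d₀₁ A).hom a) b + cup01 β a ((d₀₁ B).hom b) := by
  funext g
  simp only [cup00_apply, Pi.add_apply, cup10_apply, cup01_apply]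
  rw [d₀₁_hom_apply, d₀₁_hom_apply, d₀₁_hom_apply, ← hβ g a b]
  simp only [map_sub, LinearMap.sub_apply]
  abel

/-- `(0,1)`: `d (a ∪ f) = da ∪ f + a ∪ df`. -/
theorem d₁₂_cup01 (hβ : IsEquivariant β) (a : A) (f : G → B) :
    (d₁₂ C).hom (cup01 β a f) =
      cup11 β ((d₀₁ A).hom a) f + cup02 β a ((d₁₂ B).hom f) := by
  funext x
  simp only [Pi.add_apply, cup11_apply, cup02_apply]
  rw [d₁₂_hom_apply, d₁₂_hom_apply, d₀₁_hom_apply]
  simp only [cup01_apply]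
  rw [← hβ x.1 a (f x.2)]
  simp only [map_sub, map_add, LinearMap.sub_apply]
  abel

/-- `(1,0)`: `d (f ∪ b) = df ∪ b - f ∪ db`. -/
theorem d₁₂_cup10 (hβ : IsEquivariant β) (f : G → A) (b : B) :
    (d₁₂ C).hom (cup10 β f b) =
      cup20 β ((d₁₂ A).hom f) b - cup11 β f ((d₀₁ B).hom b) := by
  funext x
  simp only [Pi.sub_apply, cup20_apply, cup11_apply]
  rw [d₁₂_hom_apply, d₁₂_hom_apply, d₀₁_hom_apply]
  simp only [cup10_apply]
  rw [← hβ x.1 (f x.2) (B.ρ x.2 b)]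
  simp only [map_sub, map_add, map_mul, Module.End.mul_apply, LinearMap.sub_apply,
    LinearMap.add_apply]
  abel

/-- `(1,1)`: `d (f ∪ f') = df ∪ f' - f ∪ df'`. -/
theorem d₂₃_cup11 (hβ : IsEquivariant β) (f : G → A) (f' : G → B) :
    (d₂₃ C).hom (cup11 β f f') =
      cup21 β ((d₁₂ A).hom f) f' - cup12 β f ((d₁₂ B).hom f') := by
  funext x
  simp only [Pi.sub_apply, cup21_apply, cup12_apply]
  rw [d₂₃_hom_apply, d₁₂_hom_apply, d₁₂_hom_apply]
  simp only [cup11_apply]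
  rw [← hβ x.1 (f x.2.1) (B.ρ x.2.1 (f' x.2.2))]
  simp only [map_sub, map_add, map_mul, Module.End.mul_apply, LinearMap.sub_apply,
    LinearMap.add_apply]
  abel

/-- `(0,2)`: `d (a ∪ F) = da ∪ F + a ∪ dF`. -/
theorem d₂₃_cup02 (hβ : IsEquivariant β) (a : A) (F : G × G → B) :
    (d₂₃ C).hom (cup02 β a F) =
      cup12 β ((d₀₁ A).hom a) F + cup03 β a ((d₂₃ B).hom F) := by
  funext x
  simp only [Pi.add_apply, cup12_apply, cup03_apply]
  rw [d₂₃_hom_apply, d₂₃_hom_apply, d₀₁_hom_apply]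
  simp only [cup02_apply]
  rw [← hβ x.1 a (F (x.2.1, x.2.2))]
  simp only [map_sub, map_add, LinearMap.sub_apply]
  abel

/-- `(2,0)`: `d (F ∪ b) = dF ∪ b + F ∪ db`. -/
theorem d₂₃_cup20 (hβ : IsEquivariant β) (F : G × G → A) (b : B) :
    (d₂₃ C).hom (cup20 β F b) =
      cup30 β ((d₂₃ A).hom F) b + cup21 β F ((d₀₁ B).hom b) := by
  funext x
  simp only [Pi.add_apply, cup30_apply, cup21_apply]
  rw [d₂₃_hom_apply, d₂₃_hom_apply, d₀₁_hom_apply]
  simp only [cup20_apply]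
  rw [← hβ x.1 (F (x.2.1, x.2.2)) (B.ρ (x.2.1 * x.2.2) b)]
  simp only [map_sub, map_add, map_mul, Module.End.mul_apply, LinearMap.sub_apply,
    LinearMap.add_apply, mul_assoc]
  abel

/-! ### consequences in degrees `≤ 2`: cocycles and coboundaries -/

/-- invariant `∪` 1-cocycle is a 1-cocycle. -/
theorem d₁₂_cup01_eq_zero (hβ : IsEquivariant β) {a : A} (ha : (d₀₁ A).hom a = 0) {f : G → B}
    (hf : (d₁₂ B).hom f = 0) : (d₁₂ C).hom (cup01 β a f) = 0 := by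
  rw [d₁₂_cup01 hβ, ha, hf]; simp

/-- 1-cocycle `∪` invariant is a 1-cocycle. -/
theorem d₁₂_cup10_eq_zero (hβ : IsEquivariant β) {f : G → A} (hf : (d₁₂ A).hom f = 0) {b : B}
    (hb : (d₀₁ B).hom b = 0) : (d₁₂ C).hom (cup10 β f b) = 0 := by
  rw [d₁₂_cup10 hβ, hf, hb]; simp

/-- 1-cocycle `∪` 1-cocycle is a 2-cocycle. -/
theorem d₂₃_cup11_eq_zero (hβ : IsEquivariant β) {f : G → A} (hf : (d₁₂ A).hom f = 0)
    {f' : G → B} (hf' : (d₁₂ B).hom f' = 0) : (d₂₃ C).hom (cup11 β f f') = 0 := by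
  rw [d₂₃_cup11 hβ, hf, hf']; simp

/-- invariant `∪` 2-cocycle is a 2-cocycle. -/
theorem d₂₃_cup02_eq_zero (hβ : IsEquivariant β) {a : A} (ha : (d₀₁ A).hom a = 0)
    {F : G × G → B} (hF : (d₂₃ B).hom F = 0) : (d₂₃ C).hom (cup02 β a F) = 0 := by
  rw [d₂₃_cup02 hβ, ha, hF]; simp

/-- 2-cocycle `∪` invariant is a 2-cocycle. -/
theorem d₂₃_cup20_eq_zero (hβ : IsEquivariant β) {F : G × G → A} (hF : (d₂₃ A).hom F = 0)
    {b : B} (hb : (d₀₁ B).hom b = 0) : (d₂₃ C).hom (cup20 β F b) = 0 := by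
  rw [d₂₃_cup20 hβ, hF, hb]; simp

/-- 1-coboundary `∪` 1-cocycle is a 2-coboundary, with explicit primitive. -/
theorem cup11_d₀₁_left (hβ : IsEquivariant β) (a : A) {f' : G → B}
    (hf' : (d₁₂ B).hom f' = 0) :
    cup11 β ((d₀₁ A).hom a) f' = (d₁₂ C).hom (cup01 β a f') := by
  rw [d₁₂_cup01 hβ, hf']; simp

/-- 1-cocycle `∪` 1-coboundary is a 2-coboundary, with explicit primitive. -/
theorem cup11_d₀₁_right (hβ : IsEquivariant β) {f : G → A} (hf : (d₁₂ A).hom f = 0) (b : B) :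
    cup11 β f ((d₀₁ B).hom b) = (d₁₂ C).hom (-(cup10 β f b)) := by
  rw [map_neg, d₁₂_cup10 hβ, hf]; simp

/-- invariant `∪` 2-coboundary is a 2-coboundary. -/
theorem cup02_d₁₂ (hβ : IsEquivariant β) {a : A} (ha : (d₀₁ A).hom a = 0) (f : G → B) :
    cup02 β a ((d₁₂ B).hom f) = (d₁₂ C).hom (cup01 β a f) := by
  rw [d₁₂_cup01 hβ, ha]; simp

/-- 2-coboundary `∪` invariant is a 2-coboundary. -/
theorem cup20_d₁₂ (hβ : IsEquivariant β) (f : G → A) {b : B} (hb : (d₀₁ B).hom b = 0) :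
    cup20 β ((d₁₂ A).hom f) b = (d₁₂ C).hom (cup10 β f b) := by
  rw [d₁₂_cup10 hβ, hb]; simp

/-- invariant `∪` 1-coboundary is a 1-coboundary. -/
theorem cup01_d₀₁ (hβ : IsEquivariant β) {a : A} (ha : (d₀₁ A).hom a = 0) (b : B) :
    cup01 β a ((d₀₁ B).hom b) = (d₀₁ C).hom (cup00 β a b) := by
  rw [d₀₁_cup00 hβ, ha]; simp

/-- 1-coboundary `∪` invariant is a 1-coboundary. -/
theorem cup10_d₀₁ (hβ : IsEquivariant β) (a : A) {b : B} (hb : (d₀₁ B).hom b = 0) :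
    cup10 β ((d₀₁ A).hom a) b = (d₀₁ C).hom (cup00 β a b) := by
  rw [d₀₁_cup00 hβ, hb]; simp

/-! ### invariance under a subgroup (level-constancy) -/

section level

variable (β) (U : Subgroup G)

/-- right-`U`-invariance of a 1-cochain. -/
def RightInv₁ {X : Type*} (f : G → X) : Prop := ∀ g, ∀ s ∈ U, f (g * s) = f g

/-- right-`U × U`-invariance of a 2-cochain. -/
def RightInv₂ {X : Type*} (F : G × G → X) : Prop :=
  ∀ g h, ∀ s ∈ U, ∀ s' ∈ U, F (g * s, h * s') = F (g, h)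

/-- right-`U × U × U`-invariance of a 3-cochain. -/
def RightInv₃ {X : Type*} (T : G × G × G → X) : Prop :=
  ∀ g h j, ∀ s ∈ U, ∀ s' ∈ U, ∀ s'' ∈ U, T (g * s, h * s', j * s'') = T (g, h, j)

variable {U}

theorem rightInv₁_cup01 (a : A) {f : G → B} (hf : RightInv₁ U f) : RightInv₁ U (cup01 β a f) := by
  intro g s hs
  simp only [cup01_apply, hf g s hs]

theorem rightInv₁_cup10 {f : G → A} (hf : RightInv₁ U f) {b : B} (hb : ∀ s ∈ U, B.ρ s b = b) :
    RightInv₁ U (cup10 β f b) := by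
  intro g s hs
  simp only [cup10_apply, hf g s hs, map_mul, Module.End.mul_apply, hb s hs]

theorem rightInv₂_cup11 {f : G → A} (hf : RightInv₁ U f) {f' : G → B} (hf' : RightInv₁ U f')
    (hfix : ∀ s ∈ U, ∀ h, B.ρ s (f' h) = f' h) : RightInv₂ U (cup11 β f f') := by
  intro g h s hs s' hs'
  simp only [cup11_apply, hf g s hs, hf' h s' hs', map_mul, Module.End.mul_apply, hfix s hs]

theorem rightInv₂_cup02 (a : A) {F : G × G → B} (hF : RightInv₂ U F) :
    RightInv₂ U (cup02 β a F) := by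
  intro g h s hs s' hs'
  simp only [cup02_apply, hF g h s hs s' hs']

theorem rightInv₂_cup20 [U.Normal] {F : G × G → A} (hF : RightInv₂ U F) {b : B}
    (hb : ∀ s ∈ U, B.ρ s b = b) : RightInv₂ U (cup20 β F b) := by
  intro g h s hs s' hs'
  simp only [cup20_apply, hF g h s hs s' hs']
  congr 1
  have h1 : g * s * (h * s') = (g * h) * ((h⁻¹ * s * h) * s') := by group
  have h2 : h⁻¹ * s * h ∈ U := by
    have := Subgroup.Normal.conj_mem ‹U.Normal› s hs h⁻¹
    simpa using this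
  rw [h1, map_mul, Module.End.mul_apply, hb _ (U.mul_mem h2 hs')]

theorem rightInv₃_cup12 {f : G → A} (hf : RightInv₁ U f) {F : G × G → B} (hF : RightInv₂ U F)
    (hfix : ∀ s ∈ U, ∀ x, B.ρ s (F x) = F x) : RightInv₃ U (cup12 β f F) := by
  intro g h j s hs s' hs' s'' hs''
  simp only [cup12_apply, hf g s hs, hF h j s' hs' s'' hs'', map_mul, Module.End.mul_apply,
    hfix s hs]

theorem rightInv₃_cup21 [U.Normal] {F : G × G → A} (hF : RightInv₂ U F) {f : G → B}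
    (hf : RightInv₁ U f) (hfix : ∀ s ∈ U, ∀ x, B.ρ s (f x) = f x) :
    RightInv₃ U (cup21 β F f) := by
  intro g h j s hs s' hs' s'' hs''
  simp only [cup21_apply, hF g h s hs s' hs', hf j s'' hs'']
  congr 1
  have h1 : g * s * (h * s') = (g * h) * ((h⁻¹ * s * h) * s') := by group
  have h2 : h⁻¹ * s * h ∈ U := by
    have := Subgroup.Normal.conj_mem ‹U.Normal› s hs h⁻¹
    simpa using this
  rw [h1, map_mul, Module.End.mul_apply, hfix _ (U.mul_mem h2 hs')]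

end level

/-! ### degree `4`: the differential `d₃₄` and the Leibniz rule in total degree `3` -/

section deg4

variable (A) in
/-- The third differential of the inhomogeneous cochain complex, in low-degree language:
`(dT)(g,h,j,l) = g T(h,j,l) - T(gh,j,l) + T(g,hj,l) - T(g,h,jl) + T(g,h,j)`. -/
def d₃₄ : (G × G × G → A) →ₗ[k] (G × G × G × G → A) where
  toFun T x := A.ρ x.1 (T (x.2.1, x.2.2.1, x.2.2.2)) - T (x.1 * x.2.1, x.2.2.1, x.2.2.2)
    + T (x.1, x.2.1 * x.2.2.1, x.2.2.2) - T (x.1, x.2.1, x.2.2.1 * x.2.2.2)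
    + T (x.1, x.2.1, x.2.2.1)
  map_add' T T' := by funext x; simp only [Pi.add_apply, map_add]; abel
  map_smul' c T := by
    funext x
    simp only [Pi.smul_apply, map_smul, RingHom.id_apply, smul_add, smul_sub]

@[simp] lemma d₃₄_apply (T : G × G × G → A) (x : G × G × G × G) :
    d₃₄ A T x = A.ρ x.1 (T (x.2.1, x.2.2.1, x.2.2.2)) - T (x.1 * x.2.1, x.2.2.1, x.2.2.2)
      + T (x.1, x.2.1 * x.2.2.1, x.2.2.2) - T (x.1, x.2.1, x.2.2.1 * x.2.2.2)
      + T (x.1, x.2.1, x.2.2.1) := rfl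

/-- `d₃₄ ∘ d₂₃ = 0`. -/
theorem d₃₄_d₂₃ (F : G × G → A) : d₃₄ A ((d₂₃ A).hom F) = 0 := by
  funext x
  simp only [d₃₄_apply, d₂₃_hom_apply, Pi.zero_apply, map_sub, map_add, map_mul,
    Module.End.mul_apply, mul_assoc]
  abel

variable (β)

/-- `C² × C² → C⁴`. -/
def cup22 : (G × G → A) →ₗ[k] (G × G → B) →ₗ[k] (G × G × G × G → C) :=
  LinearMap.mk₂ k
    (fun F F' x => β (F (x.1, x.2.1)) (B.ρ (x.1 * x.2.1) (F' (x.2.2.1, x.2.2.2))))
    (fun F₁ F₂ F' => by funext x; simp)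
    (fun c F F' => by funext x; simp)
    (fun F F₁ F₂ => by funext x; simp)
    (fun c F F' => by funext x; simp)

/-- `C³ × C¹ → C⁴`. -/
def cup31 : (G × G × G → A) →ₗ[k] (G → B) →ₗ[k] (G × G × G × G → C) :=
  LinearMap.mk₂ k
    (fun T f x => β (T (x.1, x.2.1, x.2.2.1)) (B.ρ (x.1 * x.2.1 * x.2.2.1) (f x.2.2.2)))
    (fun T₁ T₂ f => by funext x; simp)
    (fun c T f => by funext x; simp)
    (fun T f₁ f₂ => by funext x; simp)
    (fun c T f => by funext x; simp)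

/-- `C¹ × C³ → C⁴`. -/
def cup13 : (G → A) →ₗ[k] (G × G × G → B) →ₗ[k] (G × G × G × G → C) :=
  LinearMap.mk₂ k
    (fun f T x => β (f x.1) (B.ρ x.1 (T (x.2.1, x.2.2.1, x.2.2.2))))
    (fun f₁ f₂ T => by funext x; simp)
    (fun c f T => by funext x; simp)
    (fun f T₁ T₂ => by funext x; simp)
    (fun c f T => by funext x; simp)

/-- `C⁰ × C⁴ → C⁴`. -/
def cup04 : A →ₗ[k] (G × G × G × G → B) →ₗ[k] (G × G × G × G → C) :=
  LinearMap.mk₂ k (fun a Q x => β a (Q x))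
    (fun a a' Q => by funext x; simp)
    (fun c a Q => by funext x; simp)
    (fun a Q Q' => by funext x; simp)
    (fun c a Q => by funext x; simp)

/-- `C⁴ × C⁰ → C⁴`. -/
def cup40 : (G × G × G × G → A) →ₗ[k] B →ₗ[k] (G × G × G × G → C) :=
  LinearMap.mk₂ k (fun Q b x => β (Q x) (B.ρ (x.1 * x.2.1 * x.2.2.1 * x.2.2.2) b))
    (fun Q Q' b => by funext x; simp)
    (fun c Q b => by funext x; simp)
    (fun Q b b' => by funext x; simp)
    (fun c Q b => by funext x; simp)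

@[simp] lemma cup22_apply (F : G × G → A) (F' : G × G → B) (x : G × G × G × G) :
    cup22 β F F' x = β (F (x.1, x.2.1)) (B.ρ (x.1 * x.2.1) (F' (x.2.2.1, x.2.2.2))) := rfl
@[simp] lemma cup31_apply (T : G × G × G → A) (f : G → B) (x : G × G × G × G) :
    cup31 β T f x =
      β (T (x.1, x.2.1, x.2.2.1)) (B.ρ (x.1 * x.2.1 * x.2.2.1) (f x.2.2.2)) := rfl
@[simp] lemma cup13_apply (f : G → A) (T : G × G × G → B) (x : G × G × G × G) :
    cup13 β f T x = β (f x.1) (B.ρ x.1 (T (x.2.1, x.2.2.1, x.2.2.2))) := rfl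
@[simp] lemma cup04_apply (a : A) (Q : G × G × G × G → B) (x : G × G × G × G) :
    cup04 β a Q x = β a (Q x) := rfl
@[simp] lemma cup40_apply (Q : G × G × G × G → A) (b : B) (x : G × G × G × G) :
    cup40 β Q b x = β (Q x) (B.ρ (x.1 * x.2.1 * x.2.2.1 * x.2.2.2) b) := rfl

variable {β}

/-- `(2,1)`: `d (F ∪ f) = dF ∪ f + F ∪ df`. -/
theorem d₃₄_cup21 (hβ : IsEquivariant β) (F : G × G → A) (f : G → B) :
    d₃₄ C (cup21 β F f) = cup31 β ((d₂₃ A).hom F) f + cup22 β F ((d₁₂ B).hom f) := by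
  funext x
  simp only [Pi.add_apply, cup31_apply, cup22_apply, d₃₄_apply, cup21_apply]
  rw [d₂₃_hom_apply, d₁₂_hom_apply]
  rw [← hβ x.1 (F (x.2.1, x.2.2.1)) (B.ρ (x.2.1 * x.2.2.1) (f x.2.2.2))]
  simp only [map_sub, map_add, map_mul, Module.End.mul_apply, LinearMap.sub_apply,
    LinearMap.add_apply, mul_assoc]
  abel

/-- `(1,2)`: `d (f ∪ F) = df ∪ F - f ∪ dF`. -/
theorem d₃₄_cup12 (hβ : IsEquivariant β) (f : G → A) (F : G × G → B) :
    d₃₄ C (cup12 β f F) = cup22 β ((d₁₂ A).hom f) F - cup13 β f ((d₂₃ B).hom F) := by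
  funext x
  simp only [Pi.sub_apply, cup22_apply, cup13_apply, d₃₄_apply, cup12_apply]
  rw [d₂₃_hom_apply, d₁₂_hom_apply]
  rw [← hβ x.1 (f x.2.1) (B.ρ x.2.1 (F (x.2.2.1, x.2.2.2)))]
  simp only [map_sub, map_add, map_mul, Module.End.mul_apply, LinearMap.sub_apply,
    LinearMap.add_apply]
  abel

/-- `(3,0)`: `d (T ∪ b) = dT ∪ b - T ∪ db`. -/
theorem d₃₄_cup30 (hβ : IsEquivariant β) (T : G × G × G → A) (b : B) :
    d₃₄ C (cup30 β T b) = cup40 β (d₃₄ A T) b - cup31 β T ((d₀₁ B).hom b) := by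
  funext x
  simp only [Pi.sub_apply, cup40_apply, cup31_apply, d₃₄_apply, cup30_apply]
  rw [d₀₁_hom_apply]
  rw [← hβ x.1 (T (x.2.1, x.2.2.1, x.2.2.2)) (B.ρ (x.2.1 * x.2.2.1 * x.2.2.2) b)]
  simp only [map_sub, map_add, map_mul, Module.End.mul_apply, LinearMap.sub_apply,
    LinearMap.add_apply, mul_assoc]
  abel

/-- `(0,3)`: `d (a ∪ T) = da ∪ T + a ∪ dT`. -/
theorem d₃₄_cup03 (hβ : IsEquivariant β) (a : A) (T : G × G × G → B) :
    d₃₄ C (cup03 β a T) = cup13 β ((d₀₁ A).hom a) T + cup04 β a (d₃₄ B T) := by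
  funext x
  simp only [Pi.add_apply, cup13_apply, cup04_apply, d₃₄_apply, cup03_apply]
  rw [d₀₁_hom_apply]
  rw [← hβ x.1 a (T (x.2.1, x.2.2.1, x.2.2.2))]
  simp only [map_sub, map_add, LinearMap.sub_apply]
  abel

end deg4

end Fermat.Agent.S55.Formal.CupLeibniz
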