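/-
S55 / Formal end: the middle homology of a product of complexes is the product of the middle
homologies (`Hmid.piEquiv`), and its instances for the local product complex of a `Site`:
`X.P1equiv M : X.P1 M ≃ₗ[k] ∀ v, H1 (X.𝒱 v) (X.loc M v)`, `X.P2equiv`, `X.P3equiv`.
(Part (2) of lemma row 154, Formal/CupSite.)  Owner: helper27.
-/
import Fermat.Agent.S55.Formal.Site

set_option autoImplicit false

namespace Fermat.Agent.S55.Formal

namespace Hmid

variable {k : Type*} [CommRing k] {ι : Type*}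
  {A B C : ι → Type*} [∀ v, AddCommGroup (A v)] [∀ v, Module k (A v)]
  [∀ v, AddCommGroup (B v)] [∀ v, Module k (B v)] [∀ v, AddCommGroup (C v)] [∀ v, Module k (C v)]

/-- The componentwise map `Π_v A_v → Π_v B_v`. -/
def piMap (f : ∀ v, A v →ₗ[k] B v) : (∀ v, A v) →ₗ[k] (∀ v, B v) :=
  LinearMap.pi fun v => f v ∘ₗ LinearMap.proj v

@[simp] lemma piMap_apply (f : ∀ v, A v →ₗ[k] B v) (a : ∀ v, A v) (v : ι) :
    piMap f a v = f v (a v) := rfl

variable (f : ∀ v, A v →ₗ[k] B v) (g : ∀ v, B v →ₗ[k] C v)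

/-- The projection of the middle homology of a product complex to the `v`-th factor. -/
def piProj (v : ι) : Hmid (piMap f) (piMap g) →ₗ[k] Hmid (f v) (g v) :=
  Hmid.map (LinearMap.proj v)
    (fun b hb => by
      have := congrFun hb v
      simpa using this)
    (fun a => ⟨a v, rfl⟩)

@[simp] lemma piProj_of (v : ι) (b : ∀ v, B v) (hb : piMap g b = 0) :
    piProj f g v (Hmid.of b hb) = Hmid.of (b v) (by have := congrFun hb v; simpa using this) :=
  rfl

/-- The comparison map `H(Π_v C_v) → Π_v H(C_v)`. -/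
def piToPi : Hmid (piMap f) (piMap g) →ₗ[k] ∀ v, Hmid (f v) (g v) :=
  LinearMap.pi fun v => piProj f g v

@[simp] lemma piToPi_apply (x : Hmid (piMap f) (piMap g)) (v : ι) :
    piToPi f g x v = piProj f g v x := rfl

lemma piToPi_injective : Function.Injective (piToPi f g) := by
  rw [← LinearMap.ker_eq_bot, LinearMap.ker_eq_bot']
  intro x hx
  obtain ⟨b, hb, rfl⟩ := Hmid.exists_of x
  have h : ∀ v, ∃ a : A v, f v a = b v := by
    intro v
    have := congrFun hx v
    rw [piToPi_apply, piProj_of] at this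
    exact Hmid.of_eq_zero_iff.mp this
  choose a ha using h
  exact Hmid.of_eq_zero_iff.mpr ⟨a, funext fun v => ha v⟩

lemma piToPi_surjective : Function.Surjective (piToPi f g) := by
  intro y
  have h : ∀ v, ∃ (b : B v) (hb : g v b = 0), y v = Hmid.of b hb := fun v => Hmid.exists_of (y v)
  choose b hb hy using h
  refine ⟨Hmid.of b (funext fun v => hb v), funext fun v => ?_⟩
  rw [piToPi_apply, piProj_of, hy v]

/-- **The middle homology of a product of complexes is the product of the middle homologies.** -/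
noncomputable def piEquiv : Hmid (piMap f) (piMap g) ≃ₗ[k] ∀ v, Hmid (f v) (g v) :=
  LinearEquiv.ofBijective (piToPi f g) ⟨piToPi_injective f g, piToPi_surjective f g⟩

@[simp] lemma piEquiv_of (b : ∀ v, B v) (hb : piMap g b = 0) (v : ι) :
    piEquiv f g (Hmid.of b hb) v =
      Hmid.of (b v) (by have := congrFun hb v; simpa using this) := rfl

lemma piEquiv_apply (x : Hmid (piMap f) (piMap g)) (v : ι) :
    piEquiv f g x v = piProj f g v x := rfl

/-- The class of a family of cocycles. -/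
lemma piEquiv_symm_of (b : ∀ v, B v) (hb : ∀ v, g v (b v) = 0) :
    (piEquiv f g).symm (fun v => Hmid.of (b v) (hb v)) = Hmid.of b (funext fun v => hb v) := by
  rw [LinearEquiv.symm_apply_eq]
  funext v
  rw [piEquiv_of]

end Hmid

namespace Site

variable {k : Type} [CommRing k] (X : Site) (M : Rep.{0, 0, 0} k X.G)

lemma e₀_eq_piMap : X.e₀ M = Hmid.piMap fun v => dC₀ (X.𝒱 v) (X.loc M v) := rfl
lemma e₁_eq_piMap : X.e₁ M = Hmid.piMap fun v => dC₁ (X.𝒱 v) (X.loc M v) := rfl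
lemma e₂_eq_piMap : X.e₂ M = Hmid.piMap fun v => dC₂ (X.𝒱 v) (X.loc M v) := rfl
lemma e₃_eq_piMap : X.e₃ M = Hmid.piMap fun v => dC₃ (X.𝒱 v) (X.loc M v) := rfl

/-- `P¹(M) = Π_v H¹(Γ_v, M)`. -/
noncomputable def P1equiv : X.P1 M ≃ₗ[k] ∀ v : X.I, H1 (X.𝒱 v) (X.loc M v) :=
  Hmid.piEquiv (fun v => dC₀ (X.𝒱 v) (X.loc M v)) (fun v => dC₁ (X.𝒱 v) (X.loc M v))

/-- `P²(M) = Π_v H²(Γ_v, M)`. -/
noncomputable def P2equiv : X.P2 M ≃ₗ[k] ∀ v : X.I, H2 (X.𝒱 v) (X.loc M v) :=
  Hmid.piEquiv (fun v => dC₁ (X.𝒱 v) (X.loc M v)) (fun v => dC₂ (X.𝒱 v) (X.loc M v))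

/-- `P³(M) = Π_v H³(Γ_v, M)`. -/
noncomputable def P3equiv : X.P3 M ≃ₗ[k] ∀ v : X.I, H3 (X.𝒱 v) (X.loc M v) :=
  Hmid.piEquiv (fun v => dC₂ (X.𝒱 v) (X.loc M v)) (fun v => dC₃ (X.𝒱 v) (X.loc M v))

@[simp] lemma P1equiv_of (b : X.D₁ M) (hb : X.e₁ M b = 0) (v : X.I) :
    X.P1equiv M (Hmid.of b hb) v =
      Hmid.of (b v) (by have := congrFun hb v; simpa using this) := rfl

@[simp] lemma P2equiv_of (b : X.D₂ M) (hb : X.e₂ M b = 0) (v : X.I) :
    X.P2equiv M (Hmid.of b hb) v =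
      Hmid.of (b v) (by have := congrFun hb v; simpa using this) := rfl

@[simp] lemma P3equiv_of (b : X.D₃ M) (hb : X.e₃ M b = 0) (v : X.I) :
    X.P3equiv M (Hmid.of b hb) v =
      Hmid.of (b v) (by have := congrFun hb v; simpa using this) := rfl

/-- The `v`-component of `loc₁` is the restriction map `H¹(G, M) → H¹(Γ_v, M)`. -/
lemma P1equiv_loc₁ (x : H1 X.𝒰 M) (v : X.I) :
    X.P1equiv M (X.loc₁ M x) v = (X.res M v).h1 x := by
  obtain ⟨b, hb, rfl⟩ := Hmid.exists_of x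
  rfl

/-- The `v`-component of `loc₂` is the restriction map `H²(G, M) → H²(Γ_v, M)`. -/
lemma P2equiv_loc₂ (x : H2 X.𝒰 M) (v : X.I) :
    X.P2equiv M (X.loc₂ M x) v = (X.res M v).h2 x := by
  obtain ⟨b, hb, rfl⟩ := Hmid.exists_of x
  rfl

/-- The `v`-component of `loc₃` is the restriction map `H³(G, M) → H³(Γ_v, M)`. -/
lemma P3equiv_loc₃ (x : H3 X.𝒰 M) (v : X.I) :
    X.P3equiv M (X.loc₃ M x) v = (X.res M v).h3 x := by
  obtain ⟨b, hb, rfl⟩ := Hmid.exists_of x
  rfl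

end Site

end Fermat.Agent.S55.Formal
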