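/-
S55 / Formal / CupSiteLocal  (helper27; part (2) of lemma row 154, split with helper33 #1699)

LOCAL product cups on a `Site`: for `A B C : Rep k X.G` and an equivariant pairing `β`,
* cochain level: `X.cupD₁₁ : D₁ A →ₗ D₁ B →ₗ D₂ C`, `X.cupD₂₀ : D₂ A →ₗ D₀ B →ₗ D₂ C`,
  `X.cupD₀₁`, `X.cupD₁₀` (componentwise `CupLC.cupCᵢⱼ` for `(X.𝒱 v, X.loc _ v)`);
* cohomology level: `X.cupP11 : P1 A →ₗ P1 B →ₗ P2 C`,
  `X.cupP20 : P2 A →ₗ ↥(ker (X.e₀ B)) →ₗ P2 C`, with `Hmid.of` specification lemmas (`rfl`);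
* under `P?equiv` (of `HmidPi`) they are the componentwise `CupLC.cupH₁₁`, `CupLC.cupH₂₀`;
* `X.loc₀ : ↥(H0 X.𝒰 B) →ₗ ↥(ker (X.e₀ B))` (restriction of invariants).
-/
import Fermat.Agent.S55.Formal.HmidPi
import Fermat.Agent.S55.Formal.CupLC

set_option autoImplicit false

open CategoryTheory groupCohomology

namespace Fermat.Agent.S55.Formal.CupSiteLocal

open Fermat.Agent.S55.Formal Fermat.Agent.S55.Formal.CupWindow Fermat.Agent.S55.Formal.CupLC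

/-! ### the cochain identities behind `CupLC.cupH₁₁`, `CupLC.cupH₂₀`, in `dC`-language -/

section Local

variable {k : Type} [CommRing k] {G : Type} [Group G] (𝒰 : NBasis G)
  {A B C : Rep.{0, 0, 0} k G} {β : A →ₗ[k] B →ₗ[k] C}

lemma dC₂_cupC₁₁ (hβ : Equi β) {a : ↥(C₁ 𝒰 A)} {b : ↥(C₁ 𝒰 B)} (ha : dC₁ 𝒰 A a = 0)
    (hb : dC₁ 𝒰 B b = 0) : dC₂ 𝒰 C (cupC₁₁ 𝒰 hβ a b) = 0 :=
  dC₂_eq_zero_iff.mpr (d23_cup11 hβ (dC₁_eq_zero_iff.mp ha) (dC₁_eq_zero_iff.mp hb))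

lemma dC₁_cupC₀₁ (hβ : Equi β) (a0 : ↥(C₀ 𝒰 A)) {b : ↥(C₁ 𝒰 B)} (hb : dC₁ 𝒰 B b = 0) :
    dC₁ 𝒰 C (cupC₀₁ 𝒰 hβ a0 b) = cupC₁₁ 𝒰 hβ (dC₀ 𝒰 A a0) b :=
  Subtype.ext (cup11_d01 hβ (a0 : A) (dC₁_eq_zero_iff.mp hb)).symm

lemma dC₁_neg_cupC₁₀ (hβ : Equi β) {a : ↥(C₁ 𝒰 A)} (ha : dC₁ 𝒰 A a = 0) (b0 : ↥(C₀ 𝒰 B)) :
    dC₁ 𝒰 C (-cupC₁₀ 𝒰 hβ a b0) = cupC₁₁ 𝒰 hβ a (dC₀ 𝒰 B b0) :=
  Subtype.ext (by
    have h := cup11_d01_right hβ (dC₁_eq_zero_iff.mp ha) (b0 : B)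
    simp only [map_neg, NegMemClass.coe_neg, dC₁_coe, cupC₁₀_coe, cupC₁₁_coe, dC₀_coe]
    exact h.symm)

lemma dC₂_cupC₂₀ (hβ : Equi β) {a : ↥(C₂ 𝒰 A)} {b : ↥(C₀ 𝒰 B)} (ha : dC₂ 𝒰 A a = 0)
    (hb : dC₀ 𝒰 B b = 0) : dC₂ 𝒰 C (cupC₂₀ 𝒰 hβ a b) = 0 :=
  dC₂_eq_zero_iff.mpr (d23_cup20 hβ (dC₂_eq_zero_iff.mp ha) (dC₀_eq_zero_iff.mp hb))

lemma dC₁_cupC₁₀ (hβ : Equi β) (a0 : ↥(C₁ 𝒰 A)) {b : ↥(C₀ 𝒰 B)} (hb : dC₀ 𝒰 B b = 0) :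
    dC₁ 𝒰 C (cupC₁₀ 𝒰 hβ a0 b) = cupC₂₀ 𝒰 hβ (dC₁ 𝒰 A a0) b :=
  Subtype.ext (cup20_d12 hβ (a0 : G → A) (dC₀_eq_zero_iff.mp hb)).symm

end Local

end Fermat.Agent.S55.Formal.CupSiteLocal

namespace Fermat.Agent.S55.Formal

open Fermat.Agent.S55.Formal.CupWindow Fermat.Agent.S55.Formal.CupLC
  Fermat.Agent.S55.Formal.CupSiteLocal

namespace Site

variable {k : Type} [CommRing k] (X : Site) {A B C : Rep.{0, 0, 0} k X.G}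
  {β : A →ₗ[k] B →ₗ[k] C}

/-- The pairing restricted to the local group at `v` is equivariant. -/
lemma equiLoc (hβ : Equi β) (v : X.I) :
    Equi (A := X.loc A v) (B := X.loc B v) (C := X.loc C v) β :=
  equi_res (X.ι v) hβ

/-! ### cochain level -/

/-- componentwise cup `D⁰(A) × D¹(B) → D¹(C)` -/
def cupD₀₁ (hβ : Equi β) : X.D₀ A →ₗ[k] X.D₁ B →ₗ[k] X.D₁ C :=
  LinearMap.mk₂ k (fun a b v => cupC₀₁ (X.𝒱 v) (X.equiLoc hβ v) (a v) (b v))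
    (fun a a' b => funext fun v => by simp only [Pi.add_apply, map_add, LinearMap.add_apply])
    (fun r a b => funext fun v => by simp only [Pi.smul_apply, map_smul, LinearMap.smul_apply])
    (fun a b b' => funext fun v => by simp only [Pi.add_apply, map_add])
    (fun r a b => funext fun v => by simp only [Pi.smul_apply, map_smul])

/-- componentwise cup `D¹(A) × D⁰(B) → D¹(C)` -/
def cupD₁₀ (hβ : Equi β) : X.D₁ A →ₗ[k] X.D₀ B →ₗ[k] X.D₁ C :=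
  LinearMap.mk₂ k (fun a b v => cupC₁₀ (X.𝒱 v) (X.equiLoc hβ v) (a v) (b v))
    (fun a a' b => funext fun v => by simp only [Pi.add_apply, map_add, LinearMap.add_apply])
    (fun r a b => funext fun v => by simp only [Pi.smul_apply, map_smul, LinearMap.smul_apply])
    (fun a b b' => funext fun v => by simp only [Pi.add_apply, map_add])
    (fun r a b => funext fun v => by simp only [Pi.smul_apply, map_smul])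

/-- componentwise cup `D¹(A) × D¹(B) → D²(C)` -/
def cupD₁₁ (hβ : Equi β) : X.D₁ A →ₗ[k] X.D₁ B →ₗ[k] X.D₂ C :=
  LinearMap.mk₂ k (fun a b v => cupC₁₁ (X.𝒱 v) (X.equiLoc hβ v) (a v) (b v))
    (fun a a' b => funext fun v => by simp only [Pi.add_apply, map_add, LinearMap.add_apply])
    (fun r a b => funext fun v => by simp only [Pi.smul_apply, map_smul, LinearMap.smul_apply])
    (fun a b b' => funext fun v => by simp only [Pi.add_apply, map_add])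
    (fun r a b => funext fun v => by simp only [Pi.smul_apply, map_smul])

/-- componentwise cup `D²(A) × D⁰(B) → D²(C)` -/
def cupD₂₀ (hβ : Equi β) : X.D₂ A →ₗ[k] X.D₀ B →ₗ[k] X.D₂ C :=
  LinearMap.mk₂ k (fun a b v => cupC₂₀ (X.𝒱 v) (X.equiLoc hβ v) (a v) (b v))
    (fun a a' b => funext fun v => by simp only [Pi.add_apply, map_add, LinearMap.add_apply])
    (fun r a b => funext fun v => by simp only [Pi.smul_apply, map_smul, LinearMap.smul_apply])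
    (fun a b b' => funext fun v => by simp only [Pi.add_apply, map_add])
    (fun r a b => funext fun v => by simp only [Pi.smul_apply, map_smul])

@[simp] lemma cupD₀₁_apply (hβ : Equi β) (a : X.D₀ A) (b : X.D₁ B) (v : X.I) :
    X.cupD₀₁ hβ a b v = cupC₀₁ (X.𝒱 v) (X.equiLoc hβ v) (a v) (b v) := rfl
@[simp] lemma cupD₁₀_apply (hβ : Equi β) (a : X.D₁ A) (b : X.D₀ B) (v : X.I) :
    X.cupD₁₀ hβ a b v = cupC₁₀ (X.𝒱 v) (X.equiLoc hβ v) (a v) (b v) := rfl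
@[simp] lemma cupD₁₁_apply (hβ : Equi β) (a : X.D₁ A) (b : X.D₁ B) (v : X.I) :
    X.cupD₁₁ hβ a b v = cupC₁₁ (X.𝒱 v) (X.equiLoc hβ v) (a v) (b v) := rfl
@[simp] lemma cupD₂₀_apply (hβ : Equi β) (a : X.D₂ A) (b : X.D₀ B) (v : X.I) :
    X.cupD₂₀ hβ a b v = cupC₂₀ (X.𝒱 v) (X.equiLoc hβ v) (a v) (b v) := rfl

lemma e_eq_zero_comp₁ {M : Rep.{0, 0, 0} k X.G} {b : X.D₁ M} (hb : X.e₁ M b = 0) (v : X.I) :
    dC₁ (X.𝒱 v) (X.loc M v) (b v) = 0 := congrFun hb v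
lemma e_eq_zero_comp₀ {M : Rep.{0, 0, 0} k X.G} {b : X.D₀ M} (hb : X.e₀ M b = 0) (v : X.I) :
    dC₀ (X.𝒱 v) (X.loc M v) (b v) = 0 := congrFun hb v
lemma e_eq_zero_comp₂ {M : Rep.{0, 0, 0} k X.G} {b : X.D₂ M} (hb : X.e₂ M b = 0) (v : X.I) :
    dC₂ (X.𝒱 v) (X.loc M v) (b v) = 0 := congrFun hb v

/-- cocycle ∪ cocycle is a cocycle -/
lemma e₂_cupD₁₁ (hβ : Equi β) {a : X.D₁ A} {b : X.D₁ B} (ha : X.e₁ A a = 0)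
    (hb : X.e₁ B b = 0) : X.e₂ C (X.cupD₁₁ hβ a b) = 0 :=
  funext fun v => dC₂_cupC₁₁ (X.𝒱 v) (X.equiLoc hβ v) (X.e_eq_zero_comp₁ ha v)
    (X.e_eq_zero_comp₁ hb v)

lemma e₁_cupD₀₁ (hβ : Equi β) (a0 : X.D₀ A) {b : X.D₁ B} (hb : X.e₁ B b = 0) :
    X.e₁ C (X.cupD₀₁ hβ a0 b) = X.cupD₁₁ hβ (X.e₀ A a0) b :=
  funext fun v => dC₁_cupC₀₁ (X.𝒱 v) (X.equiLoc hβ v) (a0 v) (X.e_eq_zero_comp₁ hb v)

lemma e₁_neg_cupD₁₀ (hβ : Equi β) {a : X.D₁ A} (ha : X.e₁ A a = 0) (b0 : X.D₀ B) :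
    X.e₁ C (-X.cupD₁₀ hβ a b0) = X.cupD₁₁ hβ a (X.e₀ B b0) :=
  funext fun v => dC₁_neg_cupC₁₀ (X.𝒱 v) (X.equiLoc hβ v) (X.e_eq_zero_comp₁ ha v) (b0 v)

lemma e₂_cupD₂₀ (hβ : Equi β) {a : X.D₂ A} {b : X.D₀ B} (ha : X.e₂ A a = 0)
    (hb : X.e₀ B b = 0) : X.e₂ C (X.cupD₂₀ hβ a b) = 0 :=
  funext fun v => dC₂_cupC₂₀ (X.𝒱 v) (X.equiLoc hβ v) (X.e_eq_zero_comp₂ ha v)
    (X.e_eq_zero_comp₀ hb v)

lemma e₁_cupD₁₀ (hβ : Equi β) (a0 : X.D₁ A) {b : X.D₀ B} (hb : X.e₀ B b = 0) :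
    X.e₁ C (X.cupD₁₀ hβ a0 b) = X.cupD₂₀ hβ (X.e₁ A a0) b :=
  funext fun v => dC₁_cupC₁₀ (X.𝒱 v) (X.equiLoc hβ v) (a0 v) (X.e_eq_zero_comp₀ hb v)

/-! ### cohomology level -/

/-- **Local product cup** `P¹(A) × P¹(B) → P²(C)`. -/
def cupP11 (β : A →ₗ[k] B →ₗ[k] C) (hβ : Equi β) : X.P1 A →ₗ[k] X.P1 B →ₗ[k] X.P2 C :=
  HmidPair.hPair (X.cupD₁₁ hβ)
    (fun _ _ ha hb => X.e₂_cupD₁₁ hβ ha hb)
    (fun a0 b hb => ⟨X.cupD₀₁ hβ a0 b, X.e₁_cupD₀₁ hβ a0 hb⟩)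
    (fun a b0 ha => ⟨-X.cupD₁₀ hβ a b0, X.e₁_neg_cupD₁₀ hβ ha b0⟩)

/-- **Local product cup** `P²(A) × Π_v H⁰(Γ_v, B) → P²(C)`. -/
def cupP20 (β : A →ₗ[k] B →ₗ[k] C) (hβ : Equi β) :
    X.P2 A →ₗ[k] ↥(LinearMap.ker (X.e₀ B)) →ₗ[k] X.P2 C :=
  HmidPair.hPairRight (X.cupD₂₀ hβ)
    (fun _ _ ha hb => X.e₂_cupD₂₀ hβ ha hb)
    (fun a0 b hb => ⟨X.cupD₁₀ hβ a0 b, X.e₁_cupD₁₀ hβ a0 hb⟩)

theorem cupP11_of (hβ : Equi β) (a : X.D₁ A) (ha : X.e₁ A a = 0) (b : X.D₁ B)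
    (hb : X.e₁ B b = 0) :
    X.cupP11 β hβ (Hmid.of a ha) (Hmid.of b hb) =
      Hmid.of (X.cupD₁₁ hβ a b) (X.e₂_cupD₁₁ hβ ha hb) := rfl

theorem cupP20_of (hβ : Equi β) (a : X.D₂ A) (ha : X.e₂ A a = 0)
    (b : ↥(LinearMap.ker (X.e₀ B))) :
    X.cupP20 β hβ (Hmid.of a ha) b =
      Hmid.of (X.cupD₂₀ hβ a b) (X.e₂_cupD₂₀ hβ ha (LinearMap.mem_ker.mp b.2)) := rfl

/-! ### the components -/

/-- the `v`-component of a family of local invariants -/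
def kerE₀Proj (B : Rep.{0, 0, 0} k X.G) (v : X.I) :
    ↥(LinearMap.ker (X.e₀ B)) →ₗ[k] ↥(H0 (X.𝒱 v) (X.loc B v)) :=
  (LinearMap.proj v).restrict fun _ hb =>
    LinearMap.mem_ker.mpr (X.e_eq_zero_comp₀ (LinearMap.mem_ker.mp hb) v)

@[simp] lemma kerE₀Proj_coe (B : Rep.{0, 0, 0} k X.G) (v : X.I)
    (b : ↥(LinearMap.ker (X.e₀ B))) :
    ((X.kerE₀Proj B v b : ↥(H0 (X.𝒱 v) (X.loc B v))) : ↥(C₀ (X.𝒱 v) (X.loc B v))) =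
      (b : X.D₀ B) v := rfl

/-- `cupP11` is the componentwise cup product `H¹(Γ_v, A) × H¹(Γ_v, B) → H²(Γ_v, C)`. -/
theorem P2equiv_cupP11 (hβ : Equi β) (x : X.P1 A) (y : X.P1 B) (v : X.I) :
    X.P2equiv C (X.cupP11 β hβ x y) v =
      cupH₁₁ (X.𝒱 v) (X.equiLoc hβ v) (X.P1equiv A x v) (X.P1equiv B y v) := by
  obtain ⟨a, ha, rfl⟩ := Hmid.exists_of x
  obtain ⟨b, hb, rfl⟩ := Hmid.exists_of y
  rfl

/-- `cupP20` is the componentwise cup product `H²(Γ_v, A) × H⁰(Γ_v, B) → H²(Γ_v, C)`. -/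
theorem P2equiv_cupP20 (hβ : Equi β) (x : X.P2 A) (y : ↥(LinearMap.ker (X.e₀ B))) (v : X.I) :
    X.P2equiv C (X.cupP20 β hβ x y) v =
      cupH₂₀ (X.𝒱 v) (X.equiLoc hβ v) (X.P2equiv A x v) (X.kerE₀Proj B v y) := by
  obtain ⟨a, ha, rfl⟩ := Hmid.exists_of x
  rfl

/-! ### restriction of global invariants -/

/-- `H⁰(G, B) → Π_v H⁰(Γ_v, B)` -/
def loc₀ (B : Rep.{0, 0, 0} k X.G) : ↥(H0 X.𝒰 B) →ₗ[k] ↥(LinearMap.ker (X.e₀ B)) :=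
  (X.r₀ B).restrict fun m hm => by
    rw [LinearMap.mem_ker] at hm ⊢
    have := LinearMap.congr_fun (X.r₁_dC₀ B) m
    simp only [LinearMap.comp_apply] at this
    rw [← this, hm, map_zero]

@[simp] lemma loc₀_coe (B : Rep.{0, 0, 0} k X.G) (m : ↥(H0 X.𝒰 B)) :
    ((X.loc₀ B m : ↥(LinearMap.ker (X.e₀ B))) : X.D₀ B) = X.r₀ B (m : ↥(C₀ X.𝒰 B)) := rfl

lemma kerE₀Proj_loc₀ (B : Rep.{0, 0, 0} k X.G) (m : ↥(H0 X.𝒰 B)) (v : X.I) :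
    X.kerE₀Proj B v (X.loc₀ B m) = (X.res B v).h0 m := rfl

end Site

end Fermat.Agent.S55.Formal
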