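/-
S55 / Formal / CupSite  (helper33; lemma row 154, parts (1), (3), (4), (5), (6);
part (2) = `Formal/CupSiteLocal.lean` by helper27, whose `X.cupD??`, `X.cupP11`, `X.cupP20`, `X.loc₀`
are used here)

Cone cup products of a `Site` at cohomology level.

For `X : Site`, representations `A B C` of `X.G` and an equivariant pairing `β : A × B → C`
(`hβ : CupLC.Equi β`, the predicate of `Formal/CupLC.lean`), the cone cup products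
`(a, (b_v)) ∪ c = (a ∪ c, (b_v ∪ res_v c)_v)`  (`m11 m20 m21 m30` on cochains) induce

* `cup21 X hβ : X.H2c A →ₗ H1 X.𝒰 B →ₗ X.H3c C`,
* `cup30 X hβ : X.H3c A →ₗ ↥(H0 X.𝒰 B) →ₗ X.H3c C`,

with `Hmid.of` specifications (`cup21_of`, `cup30_of`, by `rfl`), the cone Leibniz rule
`cone_leibniz20`, and

(3) `cup21_ι₂ : cup21 (ι₂ p) y = ι₃ (cupP11 p (loc₁ y))`,
    `cup30_ι₃ : cup30 (ι₃ p) y = ι₃ (cupP20 p (loc₀ y))`, `π₃_cup21`, `π₃_cup30`;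
(4) `cup30_eq_push` : cup with an invariant `y` is the push-forward `X.mapH3c` along `a ↦ β a y`
    (`pushMor`; single group: `cupH₁₀/₂₀/₃₀_eq_push`);
(5) `mapH3c_cup21`, `mapH3c_cup30` (covariant naturality, `CupLC.Compat`) and the projection formulas
    `cup21_proj`, `cup30_proj` for adjoint coefficient maps (`Adj f g β β₁ : β₁ (f a) b₁ = β a (g b₁)`;
    single group: `Adj.cupH₁₁ …`);
(6) `cup30_δc : cup30 βR (δc x) y = - cup21 βM x (δ₀ y)` (sign `ε = -1`) for dual short exact sequences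
    of coefficients with adjoint pairings, and the single-group analogue
    `cupH₂₀_δ₁ : cupH₂₀ βR (δ₁ x) y = cupH₁₁ βM x (δ₀ y)` (sign `ε' = +1`).
-/
import Fermat.Agent.S55.Formal.CupLC
import Fermat.Agent.S55.Formal.CupSiteLocal
import Fermat.Agent.S55.Formal.Site
import Fermat.Agent.S55.Formal.ConeSESBridge

set_option autoImplicit false
set_option linter.unusedSimpArgs false
set_option linter.unusedVariables false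
set_option linter.unusedSectionVars false

open CategoryTheory groupCohomology

namespace Fermat.Agent.S55.Formal.CupSite

open Fermat.Agent.S55.Formal Fermat.Agent.S55.Formal.CupWindow Fermat.Agent.S55.Formal.CupLC
  Fermat.Agent.S55.Formal.HmidPair

/-! ## Part 0: the Leibniz rule on LC cochains (a single group) -/

section LCLeibniz

variable {k : Type} [CommRing k] {G : Type} [Group G] (𝒰 : NBasis G)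
  {A B C : Rep.{0, 0, 0} k G} {β : A →ₗ[k] B →ₗ[k] C} (hβ : Equi β)

theorem leibnizC₀₀ (a : ↥(C₀ 𝒰 A)) (b : ↥(C₀ 𝒰 B)) :
    dC₀ 𝒰 C (cupC₀₀ 𝒰 hβ a b) = cupC₁₀ 𝒰 hβ (dC₀ 𝒰 A a) b + cupC₀₁ 𝒰 hβ a (dC₀ 𝒰 B b) :=
  Subtype.ext (leibniz00 hβ (a : A) (b : B))

theorem leibnizC₀₁ (a : ↥(C₀ 𝒰 A)) (b : ↥(C₁ 𝒰 B)) :
    dC₁ 𝒰 C (cupC₀₁ 𝒰 hβ a b) = cupC₁₁ 𝒰 hβ (dC₀ 𝒰 A a) b + cupC₀₂ 𝒰 hβ a (dC₁ 𝒰 B b) :=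
  Subtype.ext (leibniz01 hβ (a : A) (b : G → B))

theorem leibnizC₁₀ (a : ↥(C₁ 𝒰 A)) (b : ↥(C₀ 𝒰 B)) :
    dC₁ 𝒰 C (cupC₁₀ 𝒰 hβ a b) = cupC₂₀ 𝒰 hβ (dC₁ 𝒰 A a) b - cupC₁₁ 𝒰 hβ a (dC₀ 𝒰 B b) :=
  Subtype.ext (leibniz10 hβ (a : G → A) (b : B))

theorem leibnizC₁₁ (a : ↥(C₁ 𝒰 A)) (b : ↥(C₁ 𝒰 B)) :
    dC₂ 𝒰 C (cupC₁₁ 𝒰 hβ a b) = cupC₂₁ 𝒰 hβ (dC₁ 𝒰 A a) b - cupC₁₂ 𝒰 hβ a (dC₁ 𝒰 B b) :=
  Subtype.ext (leibniz11 hβ (a : G → A) (b : G → B))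

theorem leibnizC₂₀ (a : ↥(C₂ 𝒰 A)) (b : ↥(C₀ 𝒰 B)) :
    dC₂ 𝒰 C (cupC₂₀ 𝒰 hβ a b) = cupC₃₀ 𝒰 hβ (dC₂ 𝒰 A a) b + cupC₂₁ 𝒰 hβ a (dC₀ 𝒰 B b) :=
  Subtype.ext (leibniz20 hβ (a : G × G → A) (b : B))

theorem leibnizC₀₂ (a : ↥(C₀ 𝒰 A)) (b : ↥(C₂ 𝒰 B)) :
    dC₂ 𝒰 C (cupC₀₂ 𝒰 hβ a b) = cupC₁₂ 𝒰 hβ (dC₀ 𝒰 A a) b + cupC₀₃ 𝒰 hβ a (dC₂ 𝒰 B b) :=
  Subtype.ext (leibniz02 hβ (a : A) (b : G × G → B))

/-- `d (a ∪ b) = 0` for a `2`-cocycle `a` and a `1`-cocycle `b`. -/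
theorem dC₃_cupC₂₁ {a : ↥(C₂ 𝒰 A)} (ha : dC₂ 𝒰 A a = 0) {b : ↥(C₁ 𝒰 B)} (hb : dC₁ 𝒰 B b = 0) :
    dC₃ 𝒰 C (cupC₂₁ 𝒰 hβ a b) = 0 :=
  dC₃_eq_zero_iff.mpr (d34_cup21 hβ (dC₂_eq_zero_iff.mp ha) (dC₁_eq_zero_iff.mp hb))

/-- `d (a ∪ b) = 0` for a `3`-cocycle `a` and a `0`-cocycle `b`. -/
theorem dC₃_cupC₃₀ {a : ↥(C₃ 𝒰 A)} (ha : dC₃ 𝒰 A a = 0) {b : ↥(C₀ 𝒰 B)} (hb : dC₀ 𝒰 B b = 0) :
    dC₃ 𝒰 C (cupC₃₀ 𝒰 hβ a b) = 0 :=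
  dC₃_eq_zero_iff.mpr (d34_cup30 hβ (dC₃_eq_zero_iff.mp ha) (dC₀_eq_zero_iff.mp hb))

end LCLeibniz


section LCPrimitives

variable {k : Type} [CommRing k] {G : Type} [Group G] (𝒰 : NBasis G)
  {A B C : Rep.{0, 0, 0} k G} {β : A →ₗ[k] B →ₗ[k] C} (hβ : Equi β)

theorem cupC₁₁_dC₀_left (a' : ↥(C₀ 𝒰 A)) {b : ↥(C₁ 𝒰 B)} (hb : dC₁ 𝒰 B b = 0) :
    cupC₁₁ 𝒰 hβ (dC₀ 𝒰 A a') b = dC₁ 𝒰 C (cupC₀₁ 𝒰 hβ a' b) :=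
  Subtype.ext (cup11_d01 hβ (a' : A) (dC₁_eq_zero_iff.mp hb))

theorem cupC₂₁_dC₁_left (a' : ↥(C₁ 𝒰 A)) {b : ↥(C₁ 𝒰 B)} (hb : dC₁ 𝒰 B b = 0) :
    cupC₂₁ 𝒰 hβ (dC₁ 𝒰 A a') b = dC₂ 𝒰 C (cupC₁₁ 𝒰 hβ a' b) :=
  Subtype.ext (cup21_d12 hβ (a' : G → A) (dC₁_eq_zero_iff.mp hb))

theorem cupC₂₀_dC₁_left (a' : ↥(C₁ 𝒰 A)) {b : ↥(C₀ 𝒰 B)} (hb : dC₀ 𝒰 B b = 0) :
    cupC₂₀ 𝒰 hβ (dC₁ 𝒰 A a') b = dC₁ 𝒰 C (cupC₁₀ 𝒰 hβ a' b) :=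
  Subtype.ext (cup20_d12 hβ (a' : G → A) (dC₀_eq_zero_iff.mp hb))

theorem cupC₃₀_dC₂_left (a' : ↥(C₂ 𝒰 A)) {b : ↥(C₀ 𝒰 B)} (hb : dC₀ 𝒰 B b = 0) :
    cupC₃₀ 𝒰 hβ (dC₂ 𝒰 A a') b = dC₂ 𝒰 C (cupC₂₀ 𝒰 hβ a' b) :=
  Subtype.ext (cup30_d23 hβ (a' : G × G → A) (dC₀_eq_zero_iff.mp hb))

end LCPrimitives

/-! ## Part 1: the cone cups of a site -/

section SiteCups

variable {k : Type} [CommRing k] (X : Site) {A B C : Rep.{0, 0, 0} k X.G}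
  {β : A →ₗ[k] B →ₗ[k] C} (hβ : Equi β)

/-- restriction to the local group at `v` is compatible with the pairing -/
theorem compatLoc (β : A →ₗ[k] B →ₗ[k] C) (v : X.I) :
    Compat (X.res A v) (X.res B v) (X.res C v) β β :=
  compat_res (X.ι v) (X.cont v) β

/-! ### restriction is multiplicative -/

theorem r₁_cupC₀₁ (a : ↥(C₀ X.𝒰 A)) (c : ↥(C₁ X.𝒰 B)) :
    X.r₁ C (cupC₀₁ X.𝒰 hβ a c) = X.cupD₀₁ hβ (X.r₀ A a) (X.r₁ B c) :=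
  funext fun v => (compatLoc X β v).c₁_cupC₀₁ hβ (X.equiLoc hβ v) a c

theorem r₁_cupC₁₀ (a : ↥(C₁ X.𝒰 A)) (c : ↥(C₀ X.𝒰 B)) :
    X.r₁ C (cupC₁₀ X.𝒰 hβ a c) = X.cupD₁₀ hβ (X.r₁ A a) (X.r₀ B c) :=
  funext fun v => (compatLoc X β v).c₁_cupC₁₀ hβ (X.equiLoc hβ v) a c

theorem r₂_cupC₁₁ (a : ↥(C₁ X.𝒰 A)) (c : ↥(C₁ X.𝒰 B)) :
    X.r₂ C (cupC₁₁ X.𝒰 hβ a c) = X.cupD₁₁ hβ (X.r₁ A a) (X.r₁ B c) :=
  funext fun v => (compatLoc X β v).c₂_cupC₁₁ hβ (X.equiLoc hβ v) a c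

theorem r₂_cupC₂₀ (a : ↥(C₂ X.𝒰 A)) (c : ↥(C₀ X.𝒰 B)) :
    X.r₂ C (cupC₂₀ X.𝒰 hβ a c) = X.cupD₂₀ hβ (X.r₂ A a) (X.r₀ B c) :=
  funext fun v => (compatLoc X β v).c₂_cupC₂₀ hβ (X.equiLoc hβ v) a c

/-! ### the cone cups on cochains -/

/-- `(a, b) ∪ c = (a ∪ c, b ∪ res c)` : `K¹(A) × C¹(B) → K²(C)` -/
def m11 : (↥(C₁ X.𝒰 A) × X.D₀ A) →ₗ[k] ↥(C₁ X.𝒰 B) →ₗ[k] (↥(C₂ X.𝒰 C) × X.D₁ C) :=
  LinearMap.mk₂ k (fun x c => (cupC₁₁ X.𝒰 hβ x.1 c, X.cupD₀₁ hβ x.2 (X.r₁ B c)))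
    (fun x x' c => by
      simp only [Prod.fst_add, Prod.snd_add, map_add, LinearMap.add_apply, Prod.mk_add_mk])
    (fun r x c => by
      simp only [Prod.smul_fst, Prod.smul_snd, map_smul, LinearMap.smul_apply, Prod.smul_mk])
    (fun x c c' => by simp only [map_add, Prod.mk_add_mk])
    (fun r x c => by simp only [map_smul, Prod.smul_mk])

/-- `(a, b) ∪ c = (a ∪ c, b ∪ res c)` : `K²(A) × C⁰(B) → K²(C)` -/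
def m20 : (↥(C₂ X.𝒰 A) × X.D₁ A) →ₗ[k] ↥(C₀ X.𝒰 B) →ₗ[k] (↥(C₂ X.𝒰 C) × X.D₁ C) :=
  LinearMap.mk₂ k (fun x c => (cupC₂₀ X.𝒰 hβ x.1 c, X.cupD₁₀ hβ x.2 (X.r₀ B c)))
    (fun x x' c => by
      simp only [Prod.fst_add, Prod.snd_add, map_add, LinearMap.add_apply, Prod.mk_add_mk])
    (fun r x c => by
      simp only [Prod.smul_fst, Prod.smul_snd, map_smul, LinearMap.smul_apply, Prod.smul_mk])
    (fun x c c' => by simp only [map_add, Prod.mk_add_mk])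
    (fun r x c => by simp only [map_smul, Prod.smul_mk])

/-- `(a, b) ∪ c = (a ∪ c, b ∪ res c)` : `K²(A) × C¹(B) → K³(C)` -/
def m21 : (↥(C₂ X.𝒰 A) × X.D₁ A) →ₗ[k] ↥(C₁ X.𝒰 B) →ₗ[k] (↥(C₃ X.𝒰 C) × X.D₂ C) :=
  LinearMap.mk₂ k (fun x c => (cupC₂₁ X.𝒰 hβ x.1 c, X.cupD₁₁ hβ x.2 (X.r₁ B c)))
    (fun x x' c => by
      simp only [Prod.fst_add, Prod.snd_add, map_add, LinearMap.add_apply, Prod.mk_add_mk])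
    (fun r x c => by
      simp only [Prod.smul_fst, Prod.smul_snd, map_smul, LinearMap.smul_apply, Prod.smul_mk])
    (fun x c c' => by simp only [map_add, Prod.mk_add_mk])
    (fun r x c => by simp only [map_smul, Prod.smul_mk])

/-- `(a, b) ∪ c = (a ∪ c, b ∪ res c)` : `K³(A) × C⁰(B) → K³(C)` -/
def m30 : (↥(C₃ X.𝒰 A) × X.D₂ A) →ₗ[k] ↥(C₀ X.𝒰 B) →ₗ[k] (↥(C₃ X.𝒰 C) × X.D₂ C) :=
  LinearMap.mk₂ k (fun x c => (cupC₃₀ X.𝒰 hβ x.1 c, X.cupD₂₀ hβ x.2 (X.r₀ B c)))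
    (fun x x' c => by
      simp only [Prod.fst_add, Prod.snd_add, map_add, LinearMap.add_apply, Prod.mk_add_mk])
    (fun r x c => by
      simp only [Prod.smul_fst, Prod.smul_snd, map_smul, LinearMap.smul_apply, Prod.smul_mk])
    (fun x c c' => by simp only [map_add, Prod.mk_add_mk])
    (fun r x c => by simp only [map_smul, Prod.smul_mk])

@[simp] lemma m11_apply (x : ↥(C₁ X.𝒰 A) × X.D₀ A) (c : ↥(C₁ X.𝒰 B)) :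
    m11 X hβ x c = (cupC₁₁ X.𝒰 hβ x.1 c, X.cupD₀₁ hβ x.2 (X.r₁ B c)) := rfl
@[simp] lemma m20_apply (x : ↥(C₂ X.𝒰 A) × X.D₁ A) (c : ↥(C₀ X.𝒰 B)) :
    m20 X hβ x c = (cupC₂₀ X.𝒰 hβ x.1 c, X.cupD₁₀ hβ x.2 (X.r₀ B c)) := rfl
@[simp] lemma m21_apply (x : ↥(C₂ X.𝒰 A) × X.D₁ A) (c : ↥(C₁ X.𝒰 B)) :
    m21 X hβ x c = (cupC₂₁ X.𝒰 hβ x.1 c, X.cupD₁₁ hβ x.2 (X.r₁ B c)) := rfl
@[simp] lemma m30_apply (x : ↥(C₃ X.𝒰 A) × X.D₂ A) (c : ↥(C₀ X.𝒰 B)) :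
    m30 X hβ x c = (cupC₃₀ X.𝒰 hβ x.1 c, X.cupD₂₀ hβ x.2 (X.r₀ B c)) := rfl

/-! ### the Leibniz rule on the cone -/

/-- restriction commutes with `d` (degree `0`), applied -/
lemma r₁_dC₀_apply (M : Rep.{0, 0, 0} k X.G) (c : ↥(C₀ X.𝒰 M)) :
    X.r₁ M (dC₀ X.𝒰 M c) = X.e₀ M (X.r₀ M c) :=
  LinearMap.congr_fun (X.r₁_dC₀ M) c

/-- restriction commutes with `d` (degree `1`), applied -/
lemma r₂_dC₁_apply (M : Rep.{0, 0, 0} k X.G) (c : ↥(C₁ X.𝒰 M)) :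
    X.r₂ M (dC₁ X.𝒰 M c) = X.e₁ M (X.r₁ M c) :=
  LinearMap.congr_fun (X.r₂_dC₁ M) c

/-- **cone Leibniz rule** in bidegree `(2,0)`:
`k ((a,b) ∪ c) = k (a,b) ∪ c + (a,b) ∪ d c`. -/
theorem cone_leibniz20 (x : ↥(C₂ X.𝒰 A) × X.D₁ A) (c : ↥(C₀ X.𝒰 B)) :
    X.k₂ C (m20 X hβ x c) = m30 X hβ (X.k₂ A x) c + m21 X hβ x (dC₀ X.𝒰 B c) := by
  refine Prod.ext ?_ ?_
  · exact leibnizC₂₀ X.𝒰 hβ x.1 c
  · funext v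
    simp only [Site.k₂_apply, m20_apply, m30_apply, m21_apply, Prod.snd_add, Pi.add_apply,
      Pi.sub_apply, Site.e₁_apply, Site.cupD₁₀_apply, Site.cupD₂₀_apply, Site.cupD₁₁_apply, r₂_cupC₂₀,
      r₁_dC₀_apply, Site.e₀_apply, leibnizC₁₀, map_sub, LinearMap.sub_apply]
    abel

/-- `k ((a,b) ∪ c) = k (a,b) ∪ c` for a `1`-cocycle `c` (bidegree `(1,1)`). -/
theorem k₂_m11 (x : ↥(C₁ X.𝒰 A) × X.D₀ A) {c : ↥(C₁ X.𝒰 B)} (hc : dC₁ X.𝒰 B c = 0) :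
    X.k₂ C (m11 X hβ x c) = m21 X hβ (X.k₁ A x) c := by
  have hcv : ∀ v, dC₁ (X.𝒱 v) (X.loc B v) ((X.res B v).c₁ c) = 0 := fun v => by
    have := LinearMap.congr_fun (X.res B v).c₂_dC₁ c
    simp only [LinearMap.comp_apply] at this
    rw [← this, hc, map_zero]
  refine Prod.ext ?_ ?_
  · exact (cupC₂₁_dC₁_left X.𝒰 hβ x.1 hc).symm
  · funext v
    simp only [Site.k₂_apply, Site.k₁_apply, m11_apply, m21_apply, Pi.sub_apply, Site.e₁_apply,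
      Site.cupD₀₁_apply, Site.cupD₁₁_apply, r₂_cupC₁₁, Site.e₀_apply, map_sub, LinearMap.sub_apply]
    rw [show X.r₁ B c v = (X.res B v).c₁ c from rfl,
      cupC₁₁_dC₀_left (X.𝒱 v) (X.equiLoc hβ v) (x.2 v) (hcv v)]

/-- `(a,b) ∪ c` is a cone cocycle if `(a,b)` is a cone `2`-cocycle and `c` a `1`-cocycle. -/
theorem k₃_m21 {x : ↥(C₂ X.𝒰 A) × X.D₁ A} (hx : X.k₂ A x = 0) {c : ↥(C₁ X.𝒰 B)}
    (hc : dC₁ X.𝒰 B c = 0) : X.k₃ C (m21 X hβ x c) = 0 := by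
  have hx1 : dC₂ X.𝒰 A x.1 = 0 := congrArg Prod.fst hx
  have hx2 : X.r₂ A x.1 = X.e₁ A x.2 := sub_eq_zero.mp (congrArg Prod.snd hx)
  have hcv : ∀ v, dC₁ (X.𝒱 v) (X.loc B v) ((X.res B v).c₁ c) = 0 := fun v => by
    have := LinearMap.congr_fun (X.res B v).c₂_dC₁ c
    simp only [LinearMap.comp_apply] at this
    rw [← this, hc, map_zero]
  refine Prod.ext ?_ ?_
  · exact dC₃_cupC₂₁ X.𝒰 hβ hx1 hc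
  · funext v
    have h1 : (X.res C v).c₃ (cupC₂₁ X.𝒰 hβ x.1 c) =
        cupC₂₁ (X.𝒱 v) (X.equiLoc hβ v) ((X.res A v).c₂ x.1) ((X.res B v).c₁ c) :=
      (compatLoc X β v).c₃_cupC₂₁ hβ (X.equiLoc hβ v) x.1 c
    have h2 : (X.res A v).c₂ x.1 = dC₁ (X.𝒱 v) (X.loc A v) (x.2 v) := congrFun hx2 v
    simp only [Site.k₃_apply, m21_apply, Pi.sub_apply, Site.r₃_apply, Site.e₂_apply,
      Site.cupD₁₁_apply, Site.r₁_apply, Prod.snd_zero, Pi.zero_apply]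
    rw [h1, h2, cupC₂₁_dC₁_left (X.𝒱 v) (X.equiLoc hβ v) (x.2 v) (hcv v)]
    exact sub_self _

/-- `(a,b) ∪ c` is a cone cocycle if `(a,b)` is a cone `3`-cocycle and `c` a `0`-cocycle. -/
theorem k₃_m30 {x : ↥(C₃ X.𝒰 A) × X.D₂ A} (hx : X.k₃ A x = 0) {c : ↥(C₀ X.𝒰 B)}
    (hc : dC₀ X.𝒰 B c = 0) : X.k₃ C (m30 X hβ x c) = 0 := by
  have hx1 : dC₃ X.𝒰 A x.1 = 0 := congrArg Prod.fst hx
  have hx2 : X.r₃ A x.1 = X.e₂ A x.2 := sub_eq_zero.mp (congrArg Prod.snd hx)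
  have hcv : ∀ v, dC₀ (X.𝒱 v) (X.loc B v) ((X.res B v).c₀ c) = 0 := fun v => by
    have := LinearMap.congr_fun (X.res B v).c₁_dC₀ c
    simp only [LinearMap.comp_apply] at this
    rw [← this, hc, map_zero]
  refine Prod.ext ?_ ?_
  · exact dC₃_cupC₃₀ X.𝒰 hβ hx1 hc
  · funext v
    have h1 : (X.res C v).c₃ (cupC₃₀ X.𝒰 hβ x.1 c) =
        cupC₃₀ (X.𝒱 v) (X.equiLoc hβ v) ((X.res A v).c₃ x.1) ((X.res B v).c₀ c) :=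
      (compatLoc X β v).c₃_cupC₃₀ hβ (X.equiLoc hβ v) x.1 c
    have h2 : (X.res A v).c₃ x.1 = dC₂ (X.𝒱 v) (X.loc A v) (x.2 v) := congrFun hx2 v
    simp only [Site.k₃_apply, m30_apply, Pi.sub_apply, Site.r₃_apply, Site.e₂_apply,
      Site.cupD₂₀_apply, Site.r₀_apply, Prod.snd_zero, Pi.zero_apply]
    rw [h1, h2, cupC₃₀_dC₂_left (X.𝒱 v) (X.equiLoc hβ v) (x.2 v) (hcv v)]
    exact sub_self _

/-- `k ((a,b) ∪ c) = k (a,b) ∪ c` for a `0`-cocycle `c`. -/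
theorem k₂_m20_of_cocycle (x : ↥(C₂ X.𝒰 A) × X.D₁ A) {c : ↥(C₀ X.𝒰 B)}
    (hc : dC₀ X.𝒰 B c = 0) : X.k₂ C (m20 X hβ x c) = m30 X hβ (X.k₂ A x) c := by
  rw [cone_leibniz20, hc, map_zero, add_zero]

/-- `k ((a,b) ∪ c) = (a,b) ∪ d c` for a cone `2`-cocycle `(a,b)`. -/
theorem k₂_m20_of_cocycle_left {x : ↥(C₂ X.𝒰 A) × X.D₁ A} (hx : X.k₂ A x = 0)
    (c : ↥(C₀ X.𝒰 B)) : X.k₂ C (m20 X hβ x c) = m21 X hβ x (dC₀ X.𝒰 B c) := by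
  rw [cone_leibniz20, hx, map_zero, LinearMap.zero_apply, zero_add]

/-! ### the cone cups on cohomology -/

/-- **`H²_c(A) × H¹(B) → H³_c(C)`**. -/
def cup21 : X.H2c A →ₗ[k] H1 X.𝒰 B →ₗ[k] X.H3c C :=
  hPair (m21 X hβ)
    (fun x c hx hc => k₃_m21 X hβ hx hc)
    (fun x0 c hc => ⟨m11 X hβ x0 c, k₂_m11 X hβ x0 hc⟩)
    (fun x c0 hx => ⟨m20 X hβ x c0, k₂_m20_of_cocycle_left X hβ hx c0⟩)

/-- **`H³_c(A) × H⁰(B) → H³_c(C)`**. -/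
def cup30 : X.H3c A →ₗ[k] ↥(H0 X.𝒰 B) →ₗ[k] X.H3c C :=
  hPairRight (m30 X hβ)
    (fun x c hx hc => k₃_m30 X hβ hx hc)
    (fun x0 c hc => ⟨m20 X hβ x0 c, k₂_m20_of_cocycle X hβ x0 hc⟩)

theorem cup21_of (x : ↥(C₂ X.𝒰 A) × X.D₁ A) (hx : X.k₂ A x = 0) (c : ↥(C₁ X.𝒰 B))
    (hc : dC₁ X.𝒰 B c = 0) :
    cup21 X hβ (Hmid.of x hx) (Hmid.of c hc) = Hmid.of (m21 X hβ x c) (k₃_m21 X hβ hx hc) :=
  rfl

theorem cup30_of (x : ↥(C₃ X.𝒰 A) × X.D₂ A) (hx : X.k₃ A x = 0) (c : ↥(H0 X.𝒰 B)) :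
    cup30 X hβ (Hmid.of x hx) c =
      Hmid.of (m30 X hβ x c) (k₃_m30 X hβ hx (LinearMap.mem_ker.mp c.2)) :=
  rfl

end SiteCups

/-! ## Part 3: compatibility with `ι₂`, `ι₃` -/

section IotaCompat

variable {k : Type} [CommRing k] (X : Site) {A B C : Rep.{0, 0, 0} k X.G}
  {β : A →ₗ[k] B →ₗ[k] C} (hβ : Equi β)

/-- `(0, b) ∪ c = (0, b ∪ res c)` :  `ι₂ p ∪ y = ι₃ (p ∪ loc₁ y)`. -/
theorem cup21_ι₂ (p : X.P1 A) (y : H1 X.𝒰 B) :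
    cup21 X hβ (X.ι₂ A p) y = X.ι₃ C (X.cupP11 β hβ p (X.loc₁ B y)) := by
  obtain ⟨b, hb, rfl⟩ := Hmid.exists_of p
  obtain ⟨c, hc, rfl⟩ := Hmid.exists_of y
  have e : m21 X hβ ((0 : ↥(C₂ X.𝒰 A)), b) c =
      ((0 : ↥(C₃ X.𝒰 C)), X.cupD₁₁ hβ b (X.r₁ B c)) :=
    Prod.ext (LinearMap.map_zero₂ _ _) rfl
  have U1 : cup21 X hβ (X.ι₂ A (Hmid.of b hb)) (Hmid.of c hc) =
      Hmid.of (m21 X hβ ((0 : ↥(C₂ X.𝒰 A)), b) c)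
        (k₃_m21 X hβ (ConeSES.k₂_inr X A b hb) hc) := rfl
  have U2 : X.ι₃ C (X.cupP11 β hβ (Hmid.of b hb) (X.loc₁ B (Hmid.of c hc))) =
      Hmid.of ((0 : ↥(C₃ X.𝒰 C)), X.cupD₁₁ hβ b (X.r₁ B c))
        (ConeSES.k₃_inr X C _ (X.e₂_cupD₁₁ hβ hb (ConeSES.e₁_r₁ X B c hc))) := rfl
  exact U1.trans ((of_congr e _ _).trans U2.symm)

/-- `(0, b) ∪ c = (0, b ∪ res c)` :  `ι₃ p ∪ y = ι₃ (p ∪ loc₀ y)`. -/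
theorem cup30_ι₃ (p : X.P2 A) (y : ↥(H0 X.𝒰 B)) :
    cup30 X hβ (X.ι₃ A p) y = X.ι₃ C (X.cupP20 β hβ p (X.loc₀ B y)) := by
  obtain ⟨b, hb, rfl⟩ := Hmid.exists_of p
  have e : m30 X hβ ((0 : ↥(C₃ X.𝒰 A)), b) (y : ↥(C₀ X.𝒰 B)) =
      ((0 : ↥(C₃ X.𝒰 C)), X.cupD₂₀ hβ b (X.r₀ B (y : ↥(C₀ X.𝒰 B)))) :=
    Prod.ext (LinearMap.map_zero₂ _ _) rfl
  have U1 : cup30 X hβ (X.ι₃ A (Hmid.of b hb)) y =
      Hmid.of (m30 X hβ ((0 : ↥(C₃ X.𝒰 A)), b) (y : ↥(C₀ X.𝒰 B)))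
        (k₃_m30 X hβ (ConeSES.k₃_inr X A b hb) (LinearMap.mem_ker.mp y.2)) := rfl
  have U2 : X.ι₃ C (X.cupP20 β hβ (Hmid.of b hb) (X.loc₀ B y)) =
      Hmid.of ((0 : ↥(C₃ X.𝒰 C)), X.cupD₂₀ hβ b (X.r₀ B (y : ↥(C₀ X.𝒰 B))))
        (ConeSES.k₃_inr X C _ (X.e₂_cupD₂₀ hβ hb
          (LinearMap.mem_ker.mp (X.loc₀ B y).2))) := rfl
  exact U1.trans ((of_congr e _ _).trans U2.symm)

/-- `π₃ (x ∪ y) = π₂ x ∪ y`. -/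
theorem π₃_cup21 (x : X.H2c A) (y : H1 X.𝒰 B) :
    X.π₃ C (cup21 X hβ x y) = cupH₂₁ X.𝒰 hβ (X.π₂ A x) y := by
  obtain ⟨a, ha, rfl⟩ := Hmid.exists_of x
  obtain ⟨c, hc, rfl⟩ := Hmid.exists_of y
  rfl

/-- `π₃ (x ∪ y) = π₃ x ∪ y`. -/
theorem π₃_cup30 (x : X.H3c A) (y : ↥(H0 X.𝒰 B)) :
    X.π₃ C (cup30 X hβ x y) = cupH₃₀ X.𝒰 hβ (X.π₃ A x) y := by
  obtain ⟨a, ha, rfl⟩ := Hmid.exists_of x
  rfl

end IotaCompat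

/-! ## Part 4/5: coefficient maps (single group, cochain level) -/

section Adjoint

variable {k : Type} [CommRing k] {G : Type} [Group G] {𝒰 : NBasis G}
  {A A₁ B B₁ C : Rep.{0, 0, 0} k G}

/-- Invariance of a class of `H⁰`. -/
theorem H0_inv {M : Rep.{0, 0, 0} k G} (y : ↥(H0 𝒰 M)) (g : G) :
    M.ρ g ((y : ↥(C₀ 𝒰 M)) : M) = ((y : ↥(C₀ 𝒰 M)) : M) := by
  have h := congrFun (dC₀_eq_zero_iff.mp (LinearMap.mem_ker.mp y.2)) g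
  simpa [d01_apply, sub_eq_zero] using h

/-- Coefficient maps `f : A → A₁`, `g : B₁ → B` over the identity of `G` which are adjoint for the
pairings `β : A × B → C` and `β₁ : A₁ × B₁ → C`:  `β₁ (f a) b₁ = β a (g b₁)`. -/
structure Adj (f : Mor 𝒰 A 𝒰 A₁) (g : Mor 𝒰 B₁ 𝒰 B) (β : A →ₗ[k] B →ₗ[k] C)
    (β₁ : A₁ →ₗ[k] B₁ →ₗ[k] C) : Prop where
  ff : ∀ x, f.f x = x
  gf : ∀ x, g.f x = x
  adj : ∀ a b₁, β₁ (f.φ a) b₁ = β a (g.φ b₁)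

namespace Adj

variable {f : Mor 𝒰 A 𝒰 A₁} {g : Mor 𝒰 B₁ 𝒰 B} {β : A →ₗ[k] B →ₗ[k] C}
  {β₁ : A₁ →ₗ[k] B₁ →ₗ[k] C} (h : Adj f g β β₁) (hβ : Equi β) (hβ₁ : Equi β₁)

include h

theorem geq (x : G) (b₁ : B₁) : g.φ (B₁.ρ x b₁) = B.ρ x (g.φ b₁) := by
  have := g.equivar x b₁
  rwa [h.gf] at this

theorem cupC₁₀ (a : ↥(C₁ 𝒰 A)) (c : ↥(C₀ 𝒰 B₁)) :
    CupLC.cupC₁₀ 𝒰 hβ₁ (f.c₁ a) c = CupLC.cupC₁₀ 𝒰 hβ a (g.c₀ c) := by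
  apply Subtype.ext
  funext x
  simp only [cupC₁₀_coe, cup10_apply, Mor.c₁_coe, Mor.p₁_apply, Mor.c₀_coe, h.ff, h.adj, h.geq]

theorem cupC₁₁ (a : ↥(C₁ 𝒰 A)) (c : ↥(C₁ 𝒰 B₁)) :
    CupLC.cupC₁₁ 𝒰 hβ₁ (f.c₁ a) c = CupLC.cupC₁₁ 𝒰 hβ a (g.c₁ c) := by
  apply Subtype.ext
  funext ⟨x, y⟩
  simp only [cupC₁₁_coe, cup1_apply, Mor.c₁_coe, Mor.p₁_apply, h.ff, h.gf, h.adj, h.geq]

theorem cupC₂₀ (a : ↥(C₂ 𝒰 A)) (c : ↥(C₀ 𝒰 B₁)) :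
    CupLC.cupC₂₀ 𝒰 hβ₁ (f.c₂ a) c = CupLC.cupC₂₀ 𝒰 hβ a (g.c₀ c) := by
  apply Subtype.ext
  funext ⟨x, y⟩
  simp only [cupC₂₀_coe, cup20_apply, Mor.c₂_coe, Mor.p₂_apply, Mor.c₀_coe, h.ff, h.adj, h.geq]

theorem cupC₂₁ (a : ↥(C₂ 𝒰 A)) (c : ↥(C₁ 𝒰 B₁)) :
    CupLC.cupC₂₁ 𝒰 hβ₁ (f.c₂ a) c = CupLC.cupC₂₁ 𝒰 hβ a (g.c₁ c) := by
  apply Subtype.ext
  funext ⟨x, y, z⟩
  simp only [cupC₂₁_coe, cup2_apply, Mor.c₂_coe, Mor.p₂_apply, Mor.c₁_coe, Mor.p₁_apply, h.ff,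
    h.gf, h.adj, h.geq]

theorem cupC₃₀ (a : ↥(C₃ 𝒰 A)) (c : ↥(C₀ 𝒰 B₁)) :
    CupLC.cupC₃₀ 𝒰 hβ₁ (f.c₃ a) c = CupLC.cupC₃₀ 𝒰 hβ a (g.c₀ c) := by
  apply Subtype.ext
  funext ⟨x, y, z⟩
  simp only [cupC₃₀_coe, cup30_apply, Mor.c₃_coe, Mor.p₃_apply, Mor.c₀_coe, h.ff, h.adj, h.geq]

end Adj

/-- Cochain-level criterion: `[u] = -[v]` if `u + v` is a coboundary. -/
theorem of_eq_neg_of {X0 X1 X2 : Type*} [AddCommGroup X0] [Module k X0] [AddCommGroup X1]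
    [Module k X1] [AddCommGroup X2] [Module k X2] {f : X0 →ₗ[k] X1} {g : X1 →ₗ[k] X2}
    {u v : X1} (hu : g u = 0) (hv : g v = 0) (t : X0) (ht : f t = u + v) :
    (Hmid.of u hu : Hmid f g) = - Hmid.of v hv := by
  rw [eq_neg_iff_add_eq_zero, ← Hmid.of_add hu hv, Hmid.of_eq_zero_iff]
  exact ⟨t, ht⟩

/-- Cochain-level criterion: `[u] = [v]` if `u - v` is a coboundary. -/
theorem of_eq_of_of {X0 X1 X2 : Type*} [AddCommGroup X0] [Module k X0] [AddCommGroup X1]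
    [Module k X1] [AddCommGroup X2] [Module k X2] {f : X0 →ₗ[k] X1} {g : X1 →ₗ[k] X2}
    {u v : X1} (hu : g u = 0) (hv : g v = 0) (t : X0) (ht : f t = u - v) :
    (Hmid.of u hu : Hmid f g) = Hmid.of v hv :=
  Hmid.of_eq_of_iff.mpr ⟨t, ht⟩

/-- Induction on two classes of middle cohomology. -/
theorem hmid_ind₂ {k : Type*} [CommRing k] {X0 X1 X2 Y0 Y1 Y2 : Type*} [AddCommGroup X0]
    [Module k X0] [AddCommGroup X1] [Module k X1] [AddCommGroup X2] [Module k X2]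
    [AddCommGroup Y0] [Module k Y0] [AddCommGroup Y1] [Module k Y1] [AddCommGroup Y2]
    [Module k Y2] {f : X0 →ₗ[k] X1} {g : X1 →ₗ[k] X2} {f' : Y0 →ₗ[k] Y1} {g' : Y1 →ₗ[k] Y2}
    {P : Hmid f g → Hmid f' g' → Prop}
    (h : ∀ a ha c hc, P (Hmid.of a ha) (Hmid.of c hc)) (x : Hmid f g) (y : Hmid f' g') :
    P x y := by
  obtain ⟨a, ha, rfl⟩ := Hmid.exists_of x
  obtain ⟨c, hc, rfl⟩ := Hmid.exists_of y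
  exact h a ha c hc

/-- Induction on one class of middle cohomology. -/
theorem hmid_ind₁ {k : Type*} [CommRing k] {X0 X1 X2 : Type*} [AddCommGroup X0]
    [Module k X0] [AddCommGroup X1] [Module k X1] [AddCommGroup X2] [Module k X2]
    {f : X0 →ₗ[k] X1} {g : X1 →ₗ[k] X2} {P : Hmid f g → Prop}
    (h : ∀ a ha, P (Hmid.of a ha)) (x : Hmid f g) : P x := by
  obtain ⟨a, ha, rfl⟩ := Hmid.exists_of x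
  exact h a ha

end Adjoint

/-! ## Part 4 (single group): cup with an invariant is a push-forward -/

section PushLC

variable {k : Type} [CommRing k] {G : Type} [Group G] (𝒰 : NBasis G)
  {A B C : Rep.{0, 0, 0} k G} {β : A →ₗ[k] B →ₗ[k] C} (hβ : Equi β)

/-- The coefficient map `a ↦ β a y` attached to an invariant `y ∈ H⁰(B)`. -/
def pushMor (y : ↥(H0 𝒰 B)) : Mor 𝒰 A 𝒰 C where
  f := MonoidHom.id G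
  cont := isCont_id 𝒰
  φ := β.flip ((y : ↥(C₀ 𝒰 B)) : B)
  equivar g a := by
    simp only [LinearMap.flip_apply, MonoidHom.id_apply]
    rw [hβ g a, H0_inv y g]

@[simp] lemma pushMor_f (y : ↥(H0 𝒰 B)) (g : G) : (pushMor 𝒰 hβ y).f g = g := rfl
@[simp] lemma pushMor_φ (y : ↥(H0 𝒰 B)) (a : A) :
    (pushMor 𝒰 hβ y).φ a = β a ((y : ↥(C₀ 𝒰 B)) : B) := rfl

variable {𝒰} (α : Mor 𝒰 A 𝒰 C) (hα : ∀ g, α.f g = g) (y : ↥(H0 𝒰 B))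
  (hφ : ∀ a, α.φ a = β a ((y : ↥(C₀ 𝒰 B)) : B))

include hα hφ

theorem cupC₁₀_eq_push (a : ↥(C₁ 𝒰 A)) : cupC₁₀ 𝒰 hβ a (y : ↥(C₀ 𝒰 B)) = α.c₁ a := by
  apply Subtype.ext
  funext x
  simp only [cupC₁₀_coe, cup10_apply, Mor.c₁_coe, Mor.p₁_apply, hα, hφ, H0_inv y]

theorem cupC₂₀_eq_push (a : ↥(C₂ 𝒰 A)) : cupC₂₀ 𝒰 hβ a (y : ↥(C₀ 𝒰 B)) = α.c₂ a := by
  apply Subtype.ext
  funext ⟨x, x'⟩
  simp only [cupC₂₀_coe, cup20_apply, Mor.c₂_coe, Mor.p₂_apply, hα, hφ, H0_inv y]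

theorem cupC₃₀_eq_push (a : ↥(C₃ 𝒰 A)) : cupC₃₀ 𝒰 hβ a (y : ↥(C₀ 𝒰 B)) = α.c₃ a := by
  apply Subtype.ext
  funext ⟨x, x', x''⟩
  simp only [cupC₃₀_coe, cup30_apply, Mor.c₃_coe, Mor.p₃_apply, hα, hφ, H0_inv y]

/-- `x ∪ y = ŷ_* x` on `H¹`. -/
theorem cupH₁₀_eq_push (x : H1 𝒰 A) : cupH₁₀ 𝒰 hβ x y = α.h1 x := by
  obtain ⟨a, ha, rfl⟩ := Hmid.exists_of x
  have hz : dC₁ 𝒰 C (cupC₁₀ 𝒰 hβ a (y : ↥(C₀ 𝒰 B))) = 0 := by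
    rw [cupC₁₀_eq_push hβ α hα y hφ a]
    exact CoefLES.dC₁_c₁ α a ha
  exact (cupH₁₀_of 𝒰 hβ a ha y hz).trans
    ((of_congr (cupC₁₀_eq_push hβ α hα y hφ a) _ _).trans (CoefLES.h1_of α a ha).symm)

/-- `x ∪ y = ŷ_* x` on `H²`. -/
theorem cupH₂₀_eq_push (x : H2 𝒰 A) : cupH₂₀ 𝒰 hβ x y = α.h2 x := by
  obtain ⟨a, ha, rfl⟩ := Hmid.exists_of x
  have hz : dC₂ 𝒰 C (cupC₂₀ 𝒰 hβ a (y : ↥(C₀ 𝒰 B))) = 0 := by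
    rw [cupC₂₀_eq_push hβ α hα y hφ a]
    exact CoefLES.dC₂_c₂ α a ha
  exact (cupH₂₀_of 𝒰 hβ a ha y hz).trans
    ((of_congr (cupC₂₀_eq_push hβ α hα y hφ a) _ _).trans (CoefLES.h2_of α a ha).symm)

/-- `x ∪ y = ŷ_* x` on `H³`. -/
theorem cupH₃₀_eq_push (x : H3 𝒰 A) : cupH₃₀ 𝒰 hβ x y = α.h3 x := by
  obtain ⟨a, ha, rfl⟩ := Hmid.exists_of x
  have hz : dC₃ 𝒰 C (cupC₃₀ 𝒰 hβ a (y : ↥(C₀ 𝒰 B))) = 0 := by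
    rw [cupC₃₀_eq_push hβ α hα y hφ a]
    exact CoefLES.dC₃_c₃ α a ha
  exact (cupH₃₀_of 𝒰 hβ a ha y hz).trans
    ((of_congr (cupC₃₀_eq_push hβ α hα y hφ a) _ _).trans (CoefLES.h3_of α a ha).symm)

end PushLC

/-! ## Part 5 (single group): projection formulas -/

section ProjLC

variable {k : Type} [CommRing k] {G : Type} [Group G] {𝒰 : NBasis G}
  {A A₁ B B₁ C : Rep.{0, 0, 0} k G}
  {f : Mor 𝒰 A 𝒰 A₁} {g : Mor 𝒰 B₁ 𝒰 B} {β : A →ₗ[k] B →ₗ[k] C}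
  {β₁ : A₁ →ₗ[k] B₁ →ₗ[k] C} (h : Adj f g β β₁) (hβ : Equi β) (hβ₁ : Equi β₁)

include h

theorem Adj.cupH₁₁ (x : H1 𝒰 A) (y : H1 𝒰 B₁) :
    CupLC.cupH₁₁ 𝒰 hβ₁ (f.h1 x) y = CupLC.cupH₁₁ 𝒰 hβ x (g.h1 y) := by
  obtain ⟨a, ha, rfl⟩ := Hmid.exists_of x
  obtain ⟨c, hc, rfl⟩ := Hmid.exists_of y
  rw [CoefLES.h1_of f a ha, CoefLES.h1_of g c hc]
  simp only [CupLC.cupH₁₁, HmidPair.hPair_of]
  exact of_congr (h.cupC₁₁ hβ hβ₁ a c) _ _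

theorem Adj.cupH₂₁ (x : H2 𝒰 A) (y : H1 𝒰 B₁) :
    CupLC.cupH₂₁ 𝒰 hβ₁ (f.h2 x) y = CupLC.cupH₂₁ 𝒰 hβ x (g.h1 y) := by
  obtain ⟨a, ha, rfl⟩ := Hmid.exists_of x
  obtain ⟨c, hc, rfl⟩ := Hmid.exists_of y
  rw [CoefLES.h2_of f a ha, CoefLES.h1_of g c hc]
  simp only [CupLC.cupH₂₁, HmidPair.hPair_of]
  exact of_congr (h.cupC₂₁ hβ hβ₁ a c) _ _

theorem Adj.cupH₂₀ (x : H2 𝒰 A) (y : ↥(H0 𝒰 B₁)) :
    CupLC.cupH₂₀ 𝒰 hβ₁ (f.h2 x) y = CupLC.cupH₂₀ 𝒰 hβ x (g.h0 y) := by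
  obtain ⟨a, ha, rfl⟩ := Hmid.exists_of x
  rw [CoefLES.h2_of f a ha]
  simp only [CupLC.cupH₂₀, HmidPair.hPairRight_of]
  exact of_congr (h.cupC₂₀ hβ hβ₁ a y) _ _

theorem Adj.cupH₃₀ (x : H3 𝒰 A) (y : ↥(H0 𝒰 B₁)) :
    CupLC.cupH₃₀ 𝒰 hβ₁ (f.h3 x) y = CupLC.cupH₃₀ 𝒰 hβ x (g.h0 y) := by
  obtain ⟨a, ha, rfl⟩ := Hmid.exists_of x
  rw [CoefLES.h3_of f a ha]
  simp only [CupLC.cupH₃₀, HmidPair.hPairRight_of]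
  exact of_congr (h.cupC₃₀ hβ hβ₁ a y) _ _

end ProjLC

/-! ## Part 6 (single group): compatibility with the connecting maps -/

section DeltaLC

open CoefLES

variable {k : Type} [CommRing k] {G : Type} [Group G] {𝒰 : NBasis G}

/-- Every class `y ∈ H⁰(C)` lifts to `yt ∈ C⁰(B)` with `d yt = α a`, and then `δ₀ y = [a]`. -/
theorem exists_lift_H0 {A B C : Rep.{0, 0, 0} k G} {α : Mor 𝒰 A 𝒰 B} {β : Mor 𝒰 B 𝒰 C}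
    (h : IsCoefSES α β) (y : ↥(H0 𝒰 C)) :
    ∃ (yt : ↥(C₀ 𝒰 B)) (a : ↥(C₁ 𝒰 A)) (_ : dC₀ 𝒰 B yt = α.c₁ a) (ha : dC₁ 𝒰 A a = 0),
      β.c₀ yt = (y : ↥(C₀ 𝒰 C)) ∧ δ₀ h y = Hmid.of a ha := by
  obtain ⟨yt, hyt⟩ := c₀_surjective h (y : ↥(C₀ 𝒰 C))
  have h1 : β.c₁ (dC₀ 𝒰 B yt) = 0 := by
    have := LinearMap.congr_fun β.c₁_dC₀ yt
    simp only [LinearMap.comp_apply] at this
    rw [this, hyt]
    exact LinearMap.mem_ker.mp y.2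
  obtain ⟨a, ha⟩ := (exact_c₁ h (dC₀ 𝒰 B yt)).mp h1
  have ha2 : dC₁ 𝒰 A a = 0 := by
    apply c₂_injective h
    have := LinearMap.congr_fun α.c₂_dC₁ a
    simp only [LinearMap.comp_apply] at this
    rw [this, ha, dC₁_dC₀, map_zero]
  have hmem : β.c₀ yt ∈ H0 𝒰 C := by rw [hyt]; exact y.2
  refine ⟨yt, a, ha.symm, ha2, hyt, ?_⟩
  have hδ := δ₀_of h yt a ha.symm hmem ha2
  rw [← hδ]
  congr 1
  exact Subtype.ext hyt.symm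

variable {R Q M R' Q' M' C : Rep.{0, 0, 0} k G}
  {i : Mor 𝒰 R 𝒰 Q} {π : Mor 𝒰 Q 𝒰 M} (h : IsCoefSES i π)
  {π' : Mor 𝒰 M' 𝒰 Q'} {i' : Mor 𝒰 Q' 𝒰 R'} (h' : IsCoefSES π' i')
  {βR : R →ₗ[k] R' →ₗ[k] C} {βQ : Q →ₗ[k] Q' →ₗ[k] C} {βM : M →ₗ[k] M' →ₗ[k] C}
  (hβR : Equi βR) (hβQ : Equi βQ) (hβM : Equi βM)

include hβQ in
/-- **δ-compatibility, single group** (`ε' = +1`): for dual short exact sequences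
`R → Q → M`, `M' → Q' → R'` with adjoint pairings,
`δ₁ x ∪ y = x ∪ δ₀ y` in `H²(C)` for `x ∈ H¹(M)`, `y ∈ H⁰(R')`. -/
theorem cupH₂₀_δ₁ (hR : Adj i i' βR βQ) (hM : Adj π π' βQ βM) (x : H1 𝒰 M) (y : ↥(H0 𝒰 R')) :
    cupH₂₀ 𝒰 hβR (δ₁ h x) y = cupH₁₁ 𝒰 hβM x (δ₀ h' y) := by
  obtain ⟨bt, σ, hbσ, rfl⟩ := SnakeWindow.exists_lift (isSES₁ h) x
  obtain ⟨yt, a, hya, ha, hyt, hδ⟩ := exists_lift_H0 h' y
  rw [hδ, δ₁_of h bt σ hbσ _ (SnakeWindow.a2_of_mem (isSES₁ h) hbσ)]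
  simp only [cupH₂₀, cupH₁₁, HmidPair.hPairRight_of, HmidPair.hPair_of]
  refine of_eq_of_of _ _ (cupC₁₀ 𝒰 hβQ bt yt) ?_
  rw [leibnizC₁₀, hbσ, hya, hR.cupC₂₀ hβR hβQ, ← hM.cupC₁₁ hβQ hβM, hyt]

end DeltaLC

/-! ## Parts 4, 5, 6 on a site -/

section SiteCoef

open CoefLES

variable {k : Type} [CommRing k] (X : Site)

/-! ### (4) cup with an invariant is a push-forward -/

section Push

variable {A B C : Rep.{0, 0, 0} k X.G} {β : A →ₗ[k] B →ₗ[k] C} (hβ : Equi β)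
  (α : Mor X.𝒰 A X.𝒰 C) (hα : ∀ g, α.f g = g) (y : ↥(H0 X.𝒰 B))
  (hφ : ∀ a, α.φ a = β a ((y : ↥(C₀ X.𝒰 B)) : B))

include hφ

theorem m30_eq_push (x : ↥(C₃ X.𝒰 A) × X.D₂ A) :
    m30 X hβ x (y : ↥(C₀ X.𝒰 B)) = X.mapK₃ α hα x := by
  refine Prod.ext (cupC₃₀_eq_push hβ α hα y hφ x.1) (funext fun v => ?_)
  exact cupC₂₀_eq_push (X.equiLoc hβ v) (X.locMor α hα v) (fun _ => rfl) ((X.res B v).h0 y) hφ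
    (x.2 v)

/-- **Cup with an invariant = push-forward**: if `α : A → C` is `a ↦ β a y` for an invariant `y`,
then `x ∪ y = α_* x` on `H³_c`. -/
theorem cup30_eq_push (x : X.H3c A) : cup30 X hβ x y = X.mapH3c α hα x := by
  obtain ⟨a, ha, rfl⟩ := Hmid.exists_of x
  have hz : X.k₃ C (X.mapK₃ α hα a) = 0 := by
    rw [← m30_eq_push X hβ α hα y hφ a]
    exact k₃_m30 X hβ ha (LinearMap.mem_ker.mp y.2)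
  exact (cup30_of X hβ a ha y).trans
    ((of_congr (m30_eq_push X hβ α hα y hφ a) _ _).trans (X.mapH3c_of α hα a ha hz).symm)

end Push

/-- the push-forward version with the canonical `pushMor` -/
theorem cup30_eq_pushMor {A B C : Rep.{0, 0, 0} k X.G} {β : A →ₗ[k] B →ₗ[k] C} (hβ : Equi β)
    (y : ↥(H0 X.𝒰 B)) (x : X.H3c A) :
    cup30 X hβ x y = X.mapH3c (pushMor X.𝒰 hβ y) (fun _ => rfl) x :=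
  cup30_eq_push X hβ (pushMor X.𝒰 hβ y) (fun _ => rfl) y (fun _ => rfl) x

/-! ### (5a) covariant naturality in the coefficients -/

section Covariant

variable {A B C A' B' C' : Rep.{0, 0, 0} k X.G} {β : A →ₗ[k] B →ₗ[k] C}
  {β' : A' →ₗ[k] B' →ₗ[k] C'} (hβ : Equi β) (hβ' : Equi β')
  {f : Mor X.𝒰 A X.𝒰 A'} {g : Mor X.𝒰 B X.𝒰 B'} {e : Mor X.𝒰 C X.𝒰 C'}
  (hf : ∀ x, f.f x = x) (hg : ∀ x, g.f x = x) (he : ∀ x, e.f x = x)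
  (hc : Compat f g e β β')

include hc hg

/-- the local morphisms are compatible with the pairings -/
theorem compat_locMor (v : X.I) :
    Compat (X.locMor f hf v) (X.locMor g hg v) (X.locMor e he v) β β' :=
  ⟨rfl, rfl, hc.pair⟩

theorem mapK₃_m21 (x : ↥(C₂ X.𝒰 A) × X.D₁ A) (c : ↥(C₁ X.𝒰 B)) :
    X.mapK₃ e he (m21 X hβ x c) = m21 X hβ' (X.mapK₂ f hf x) (g.c₁ c) := by
  refine Prod.ext (hc.c₃_cupC₂₁ hβ hβ' x.1 c) (funext fun v => ?_)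
  have h1 := (compat_locMor X hf hg he hc v).c₂_cupC₁₁ (X.equiLoc hβ v) (X.equiLoc hβ' v)
    (x.2 v) ((X.res B v).c₁ c)
  have h2 : (X.res B' v).c₁ (g.c₁ c) = (X.locMor g hg v).c₁ ((X.res B v).c₁ c) :=
    (X.commSq_loc g hg v).c₁ c
  simp only [Site.mapK₃_apply, Site.mapK₂_apply, m21_apply, Site.mapD₂_apply, Site.mapD₁_apply,
    Site.cupD₁₁_apply, Site.r₁_apply]
  rw [h1, h2]

theorem mapK₃_m30 (x : ↥(C₃ X.𝒰 A) × X.D₂ A) (c : ↥(C₀ X.𝒰 B)) :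
    X.mapK₃ e he (m30 X hβ x c) = m30 X hβ' (X.mapK₃ f hf x) (g.c₀ c) := by
  refine Prod.ext (hc.c₃_cupC₃₀ hβ hβ' x.1 c) (funext fun v => ?_)
  have h1 := (compat_locMor X hf hg he hc v).c₂_cupC₂₀ (X.equiLoc hβ v) (X.equiLoc hβ' v)
    (x.2 v) ((X.res B v).c₀ c)
  have h2 : (X.res B' v).c₀ (g.c₀ c) = (X.locMor g hg v).c₀ ((X.res B v).c₀ c) :=
    (X.commSq_loc g hg v).c₀ c
  simp only [Site.mapK₃_apply, m30_apply, Site.mapD₂_apply, Site.cupD₂₀_apply, Site.r₀_apply]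
  rw [h1, h2]

theorem mapH3c_cup21_of (a : ↥(C₂ X.𝒰 A) × X.D₁ A) (ha : X.k₂ A a = 0) (c : ↥(C₁ X.𝒰 B))
    (hc' : dC₁ X.𝒰 B c = 0) :
    X.mapH3c e he (cup21 X hβ (Hmid.of a ha) (Hmid.of c hc')) =
      cup21 X hβ' (X.mapH2c f hf (Hmid.of a ha)) (g.h1 (Hmid.of c hc')) := by
  have h2 : X.k₂ A' (X.mapK₂ f hf a) = 0 := ConeSES.k₂_kmap_eq_zero X f hf a ha
  have h1 : dC₁ X.𝒰 B' (g.c₁ c) = 0 := CoefLES.dC₁_c₁ g c hc'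
  have hz : X.k₃ C' (X.mapK₃ e he (m21 X hβ a c)) = 0 := by
    rw [mapK₃_m21 X hβ hβ' hf hg he hc]
    exact k₃_m21 X hβ' h2 h1
  have e1 : X.mapH3c e he (cup21 X hβ (Hmid.of a ha) (Hmid.of c hc')) =
      Hmid.of (X.mapK₃ e he (m21 X hβ a c)) hz := rfl
  have e2 : cup21 X hβ' (X.mapH2c f hf (Hmid.of a ha)) (g.h1 (Hmid.of c hc')) =
      Hmid.of (m21 X hβ' (X.mapK₂ f hf a) (g.c₁ c)) (k₃_m21 X hβ' h2 h1) := rfl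
  exact e1.trans ((of_congr (mapK₃_m21 X hβ hβ' hf hg he hc a c) _ _).trans e2.symm)

/-- **Naturality of `cup21`** for compatible coefficient maps. -/
theorem mapH3c_cup21 (x : X.H2c A) (y : H1 X.𝒰 B) :
    X.mapH3c e he (cup21 X hβ x y) = cup21 X hβ' (X.mapH2c f hf x) (g.h1 y) :=
  hmid_ind₂ (P := fun x y => X.mapH3c e he (cup21 X hβ x y) =
    cup21 X hβ' (X.mapH2c f hf x) (g.h1 y))
    (fun a ha c hc' => mapH3c_cup21_of X hβ hβ' hf hg he hc a ha c hc') x y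

/-- **Naturality of `cup30`** for compatible coefficient maps. -/
theorem mapH3c_cup30 (x : X.H3c A) (y : ↥(H0 X.𝒰 B)) :
    X.mapH3c e he (cup30 X hβ x y) = cup30 X hβ' (X.mapH3c f hf x) (g.h0 y) := by
  obtain ⟨a, ha, rfl⟩ := Hmid.exists_of x
  have h2 : X.k₃ A' (X.mapK₃ f hf a) = 0 := ConeSES.k₃_kmap_eq_zero X f hf a ha
  have h1 : dC₀ X.𝒰 B' (g.c₀ (y : ↥(C₀ X.𝒰 B))) = 0 := LinearMap.mem_ker.mp (g.h0 y).2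
  have hz : X.k₃ C' (X.mapK₃ e he (m30 X hβ a (y : ↥(C₀ X.𝒰 B)))) = 0 := by
    rw [mapK₃_m30 X hβ hβ' hf hg he hc]
    exact k₃_m30 X hβ' h2 h1
  have e1 : X.mapH3c e he (cup30 X hβ (Hmid.of a ha) y) =
      Hmid.of (X.mapK₃ e he (m30 X hβ a (y : ↥(C₀ X.𝒰 B)))) hz := rfl
  have e2 : cup30 X hβ' (X.mapH3c f hf (Hmid.of a ha)) (g.h0 y) =
      Hmid.of (m30 X hβ' (X.mapK₃ f hf a) (g.c₀ (y : ↥(C₀ X.𝒰 B)))) (k₃_m30 X hβ' h2 h1) := rfl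
  exact e1.trans ((of_congr (mapK₃_m30 X hβ hβ' hf hg he hc a _) _ _).trans e2.symm)

end Covariant

/-! ### (5b) the projection formula -/

section Projection

variable {A A₁ B B₁ C : Rep.{0, 0, 0} k X.G}
  {f : Mor X.𝒰 A X.𝒰 A₁} {g : Mor X.𝒰 B₁ X.𝒰 B} {β : A →ₗ[k] B →ₗ[k] C}
  {β₁ : A₁ →ₗ[k] B₁ →ₗ[k] C} (h : Adj f g β β₁) (hβ : Equi β) (hβ₁ : Equi β₁)

include h

/-- adjointness passes to the local groups -/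
theorem Adj.loc (v : X.I) :
    Adj (A := X.loc A v) (A₁ := X.loc A₁ v) (B := X.loc B v) (B₁ := X.loc B₁ v)
      (C := X.loc C v) (X.locMor f h.ff v) (X.locMor g h.gf v) β β₁ :=
  ⟨fun _ => rfl, fun _ => rfl, h.adj⟩

theorem Adj.m21 (x : ↥(C₂ X.𝒰 A) × X.D₁ A) (c : ↥(C₁ X.𝒰 B₁)) :
    CupSite.m21 X hβ₁ (X.mapK₂ f h.ff x) c = CupSite.m21 X hβ x (g.c₁ c) := by
  refine Prod.ext (h.cupC₂₁ hβ hβ₁ x.1 c) (funext fun v => ?_)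
  have h1 := (h.loc X v).cupC₁₁ (X.equiLoc hβ v) (X.equiLoc hβ₁ v) (x.2 v) ((X.res B₁ v).c₁ c)
  have h2 : (X.res B v).c₁ (g.c₁ c) = (X.locMor g h.gf v).c₁ ((X.res B₁ v).c₁ c) :=
    (X.commSq_loc g h.gf v).c₁ c
  simp only [Site.mapK₂_apply, m21_apply, Site.mapD₁_apply, Site.cupD₁₁_apply, Site.r₁_apply]
  rw [h1, h2]

theorem Adj.m30 (x : ↥(C₃ X.𝒰 A) × X.D₂ A) (c : ↥(C₀ X.𝒰 B₁)) :
    CupSite.m30 X hβ₁ (X.mapK₃ f h.ff x) c = CupSite.m30 X hβ x (g.c₀ c) := by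
  refine Prod.ext (h.cupC₃₀ hβ hβ₁ x.1 c) (funext fun v => ?_)
  have h1 := (h.loc X v).cupC₂₀ (X.equiLoc hβ v) (X.equiLoc hβ₁ v) (x.2 v) ((X.res B₁ v).c₀ c)
  have h2 : (X.res B v).c₀ (g.c₀ c) = (X.locMor g h.gf v).c₀ ((X.res B₁ v).c₀ c) :=
    (X.commSq_loc g h.gf v).c₀ c
  simp only [Site.mapK₃_apply, m30_apply, Site.mapD₂_apply, Site.cupD₂₀_apply, Site.r₀_apply]
  rw [h1, h2]

theorem Adj.m20 (x : ↥(C₂ X.𝒰 A) × X.D₁ A) (c : ↥(C₀ X.𝒰 B₁)) :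
    CupSite.m20 X hβ₁ (X.mapK₂ f h.ff x) c = CupSite.m20 X hβ x (g.c₀ c) := by
  refine Prod.ext (h.cupC₂₀ hβ hβ₁ x.1 c) (funext fun v => ?_)
  have h1 := (h.loc X v).cupC₁₀ (X.equiLoc hβ v) (X.equiLoc hβ₁ v) (x.2 v) ((X.res B₁ v).c₀ c)
  have h2 : (X.res B v).c₀ (g.c₀ c) = (X.locMor g h.gf v).c₀ ((X.res B₁ v).c₀ c) :=
    (X.commSq_loc g h.gf v).c₀ c
  simp only [Site.mapK₂_apply, m20_apply, Site.mapD₁_apply, Site.cupD₁₀_apply, Site.r₀_apply]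
  rw [h1, h2]

theorem cup21_proj_of (a : ↥(C₂ X.𝒰 A) × X.D₁ A) (ha : X.k₂ A a = 0) (c : ↥(C₁ X.𝒰 B₁))
    (hc : dC₁ X.𝒰 B₁ c = 0) :
    cup21 X hβ₁ (X.mapH2c f h.ff (Hmid.of a ha)) (Hmid.of c hc) =
      cup21 X hβ (Hmid.of a ha) (g.h1 (Hmid.of c hc)) := by
  have h2 : X.k₂ A₁ (X.mapK₂ f h.ff a) = 0 := ConeSES.k₂_kmap_eq_zero X f h.ff a ha
  have h1 : dC₁ X.𝒰 B (g.c₁ c) = 0 := CoefLES.dC₁_c₁ g c hc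
  have e1 : cup21 X hβ₁ (X.mapH2c f h.ff (Hmid.of a ha)) (Hmid.of c hc) =
      Hmid.of (m21 X hβ₁ (X.mapK₂ f h.ff a) c) (k₃_m21 X hβ₁ h2 hc) := rfl
  have e2 : cup21 X hβ (Hmid.of a ha) (g.h1 (Hmid.of c hc)) =
      Hmid.of (m21 X hβ a (g.c₁ c)) (k₃_m21 X hβ ha h1) := rfl
  exact e1.trans ((of_congr (h.m21 X hβ hβ₁ a c) _ _).trans e2.symm)

/-- **Projection formula** for `cup21`: `f_* x ∪ y₁ = x ∪ g_* y₁` if `β₁ (f a) b₁ = β a (g b₁)`. -/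
theorem cup21_proj (x : X.H2c A) (y : H1 X.𝒰 B₁) :
    cup21 X hβ₁ (X.mapH2c f h.ff x) y = cup21 X hβ x (g.h1 y) :=
  hmid_ind₂ (P := fun x y => cup21 X hβ₁ (X.mapH2c f h.ff x) y = cup21 X hβ x (g.h1 y))
    (fun a ha c hc => cup21_proj_of X h hβ hβ₁ a ha c hc) x y

theorem cup30_proj_of (a : ↥(C₃ X.𝒰 A) × X.D₂ A) (ha : X.k₃ A a = 0) (y : ↥(H0 X.𝒰 B₁)) :
    cup30 X hβ₁ (X.mapH3c f h.ff (Hmid.of a ha)) y = cup30 X hβ (Hmid.of a ha) (g.h0 y) := by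
  have h2 : X.k₃ A₁ (X.mapK₃ f h.ff a) = 0 := ConeSES.k₃_kmap_eq_zero X f h.ff a ha
  have e1 : cup30 X hβ₁ (X.mapH3c f h.ff (Hmid.of a ha)) y =
      Hmid.of (m30 X hβ₁ (X.mapK₃ f h.ff a) (y : ↥(C₀ X.𝒰 B₁)))
        (k₃_m30 X hβ₁ h2 (LinearMap.mem_ker.mp y.2)) := rfl
  have e2 : cup30 X hβ (Hmid.of a ha) (g.h0 y) =
      Hmid.of (m30 X hβ a (g.c₀ (y : ↥(C₀ X.𝒰 B₁))))
        (k₃_m30 X hβ ha (LinearMap.mem_ker.mp (g.h0 y).2)) := rfl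
  exact e1.trans ((of_congr (h.m30 X hβ hβ₁ a _) _ _).trans e2.symm)

/-- **Projection formula** for `cup30`. -/
theorem cup30_proj (x : X.H3c A) (y : ↥(H0 X.𝒰 B₁)) :
    cup30 X hβ₁ (X.mapH3c f h.ff x) y = cup30 X hβ x (g.h0 y) :=
  hmid_ind₁ (P := fun x => cup30 X hβ₁ (X.mapH3c f h.ff x) y = cup30 X hβ x (g.h0 y))
    (fun a ha => cup30_proj_of X h hβ hβ₁ a ha y) x

end Projection

/-! ### (6) compatibility with the connecting maps -/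

section Delta

variable {R Q M R' Q' M' C : Rep.{0, 0, 0} k X.G}
  {i : Mor X.𝒰 R X.𝒰 Q} {π : Mor X.𝒰 Q X.𝒰 M} (h : IsCoefSES i π)
  {π' : Mor X.𝒰 M' X.𝒰 Q'} {i' : Mor X.𝒰 Q' X.𝒰 R'} (h' : IsCoefSES π' i')
  {βR : R →ₗ[k] R' →ₗ[k] C} {βQ : Q →ₗ[k] Q' →ₗ[k] C} {βM : M →ₗ[k] M' →ₗ[k] C}
  (hβR : Equi βR) (hβQ : Equi βQ) (hβM : Equi βM)

include hβQ in
/-- cochain-level form of the δ-compatibility: if `k zt = i w` and `d yt = π' a` then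
`w ∪ i' yt + π zt ∪ a = k (zt ∪ yt)`. -/
theorem cup30_δc_of (hR : Adj i i' βR βQ) (hM : Adj π π' βQ βM)
    (zt : ↥(C₂ X.𝒰 Q) × X.D₁ Q) (w : ↥(C₃ X.𝒰 R) × X.D₂ R)
    (hzw : X.k₂ Q zt = X.mapK₃ i h.fα w) (h1 : X.k₂ M (X.mapK₂ π h.fβ zt) = 0)
    (h2 : X.k₃ R w = 0) (yt : ↥(C₀ X.𝒰 Q')) (a : ↥(C₁ X.𝒰 M'))
    (hya : dC₀ X.𝒰 Q' yt = π'.c₁ a) (ha : dC₁ X.𝒰 M' a = 0)
    (hy0 : dC₀ X.𝒰 R' (i'.c₀ yt) = 0) :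
    (Hmid.of (m30 X hβR w (i'.c₀ yt)) (k₃_m30 X hβR h2 hy0) : X.H3c C) =
      - Hmid.of (m21 X hβM (X.mapK₂ π h.fβ zt) a) (k₃_m21 X hβM h1 ha) := by
  refine of_eq_neg_of _ _ (m20 X hβQ zt yt) ?_
  rw [cone_leibniz20, hzw, hya, hR.m30 X hβR hβQ, ← hM.m21 X hβQ hβM]

include hβQ in
/-- **δ-compatibility on the cone** (`ε = -1`): for dual short exact sequences
`R -i→ Q -π→ M`, `M' -π'→ Q' -i'→ R'` and pairings with `βQ (i r) q' = βR r (i' q')`,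
`βM (π q) m' = βQ q (π' m')`:
`δc x ∪ y = - x ∪ δ₀ y` in `H³_c(C)` for `x ∈ H²_c(M)`, `y ∈ H⁰(R')`. -/
theorem cup30_δc (hR : Adj i i' βR βQ) (hM : Adj π π' βQ βM) (x : X.H2c M)
    (y : ↥(H0 X.𝒰 R')) :
    cup30 X hβR (ConeSES.δc X h x) y = - cup21 X hβM x (δ₀ h' y) := by
  have A1 := ConeSESBridge.exists_lift_H2c X h x
  have A2 := exists_lift_H0 h' y
  obtain ⟨zt, w, hzw, h1, h2, hx, hδc⟩ := A1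
  obtain ⟨yt, a, hya, ha, hyt, hδ⟩ := A2
  have hy0 : dC₀ X.𝒰 R' (i'.c₀ yt) = 0 := by rw [hyt]; exact LinearMap.mem_ker.mp y.2
  have hy' : y = ⟨i'.c₀ yt, LinearMap.mem_ker.mpr hy0⟩ := Subtype.ext hyt.symm
  have key := cup30_δc_of X h hβR hβQ hβM hR hM zt w hzw h1 h2 yt a hya ha hy0
  have e1 : cup30 X hβR (ConeSES.δc X h x) y =
      Hmid.of (m30 X hβR w (i'.c₀ yt)) (k₃_m30 X hβR h2 hy0) := by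
    rw [hδc, hy']
    rfl
  have e2 : cup21 X hβM x (δ₀ h' y) =
      Hmid.of (m21 X hβM (X.mapK₂ π h.fβ zt) a) (k₃_m21 X hβM h1 ha) := by
    rw [hδ, hx]
    rfl
  rw [e1, e2, key]

end Delta

end SiteCoef

end Fermat.Agent.S55.Formal.CupSite
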