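/-
S55 / Formal / CupSiteNat (helper13; lemma row 154 part (5), global half)

PROJECTION FORMULAS (= naturality in the coefficients) for the cone cup products of
`Formal/CupSite.lean`.  For coefficient maps over the identity `α : A₁ → A₂`, `γ : B₂ → B₁` and
equivariant pairings `β₁ : A₁ × B₁ → C`, `β₂ : A₂ × B₂ → C` adjoint to each other
(`β₂ (α a) b = β₁ a (γ b)`):

* `cup30_proj : cup30 β₂ (mapH3c α x) y = cup30 β₁ x (γ.h0 y)`,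
* `cup21_proj : cup21 β₂ (mapH2c α x) y = cup21 β₁ x (γ.h1 y)`,

both from equalities at cochain level (`m30_proj`, `m21_proj`).  Also the local product versions
`cupP11_proj`, and the covariant naturality in the target `C`.
-/
import Fermat.Agent.S55.Formal.CupSite

set_option autoImplicit false

open CategoryTheory groupCohomology

namespace Fermat.Agent.S55.Formal.CupSiteNat

open Fermat.Agent.S55.Formal Fermat.Agent.S55.Formal.CupWindow Fermat.Agent.S55.Formal.CupLC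
  Fermat.Agent.S55.Formal.HmidPair Fermat.Agent.S55.Formal.CupSite

/-! ### one group, cochain level -/

section OneGroup

variable {k : Type} [CommRing k] {G : Type} [Group G] (𝒰 : NBasis G)
  {A₁ A₂ B₁ B₂ C : Rep.{0, 0, 0} k G}
  {β₁ : A₁ →ₗ[k] B₁ →ₗ[k] C} {β₂ : A₂ →ₗ[k] B₂ →ₗ[k] C}
  (α : Mor 𝒰 A₁ 𝒰 A₂) (γ : Mor 𝒰 B₂ 𝒰 B₁)
  (hα : ∀ g, α.f g = g) (hγ : ∀ g, γ.f g = g) (hβ₁ : Equi β₁) (hβ₂ : Equi β₂)
  (hadj : ∀ a b, β₂ (α.φ a) b = β₁ a (γ.φ b))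

include hγ in
theorem equivar_of_id (g : G) (b : B₂) : γ.φ (B₂.ρ g b) = B₁.ρ g (γ.φ b) := by
  have := γ.equivar g b
  rwa [hγ] at this

include hα hγ hadj

theorem cupC₁₁_proj (a : ↥(C₁ 𝒰 A₁)) (b : ↥(C₁ 𝒰 B₂)) :
    cupC₁₁ 𝒰 hβ₂ (α.c₁ a) b = cupC₁₁ 𝒰 hβ₁ a (γ.c₁ b) := by
  apply Subtype.ext
  funext ⟨g, h⟩
  simp only [cupC₁₁_coe, cup1_apply, Mor.c₁_coe, Mor.p₁_apply, hα, hγ, hadj,
    equivar_of_id 𝒰 γ hγ]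

theorem cupC₂₀_proj (a : ↥(C₂ 𝒰 A₁)) (b : ↥(C₀ 𝒰 B₂)) :
    cupC₂₀ 𝒰 hβ₂ (α.c₂ a) b = cupC₂₀ 𝒰 hβ₁ a (γ.c₀ b) := by
  apply Subtype.ext
  funext ⟨g, h⟩
  simp only [cupC₂₀_coe, cup20_apply, Mor.c₂_coe, Mor.p₂_apply, Mor.c₀_coe, hα, hadj,
    equivar_of_id 𝒰 γ hγ]

theorem cupC₂₁_proj (a : ↥(C₂ 𝒰 A₁)) (b : ↥(C₁ 𝒰 B₂)) :
    cupC₂₁ 𝒰 hβ₂ (α.c₂ a) b = cupC₂₁ 𝒰 hβ₁ a (γ.c₁ b) := by
  apply Subtype.ext
  funext ⟨g, h, j⟩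
  simp only [cupC₂₁_coe, cup2_apply, Mor.c₂_coe, Mor.p₂_apply, Mor.c₁_coe, Mor.p₁_apply, hα, hγ,
    hadj, equivar_of_id 𝒰 γ hγ]

theorem cupC₃₀_proj (a : ↥(C₃ 𝒰 A₁)) (b : ↥(C₀ 𝒰 B₂)) :
    cupC₃₀ 𝒰 hβ₂ (α.c₃ a) b = cupC₃₀ 𝒰 hβ₁ a (γ.c₀ b) := by
  apply Subtype.ext
  funext ⟨g, h, j⟩
  simp only [cupC₃₀_coe, cup30_apply, Mor.c₃_coe, Mor.p₃_apply, Mor.c₀_coe, hα, hadj,
    equivar_of_id 𝒰 γ hγ]

end OneGroup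

/-! ### the site, cochain level -/

section SiteLevel

variable {k : Type} [CommRing k] (X : Site) {A₁ A₂ B₁ B₂ C : Rep.{0, 0, 0} k X.G}
  {β₁ : A₁ →ₗ[k] B₁ →ₗ[k] C} {β₂ : A₂ →ₗ[k] B₂ →ₗ[k] C}
  (α : Mor X.𝒰 A₁ X.𝒰 A₂) (γ : Mor X.𝒰 B₂ X.𝒰 B₁)
  (hα : ∀ g, α.f g = g) (hγ : ∀ g, γ.f g = g) (hβ₁ : Equi β₁) (hβ₂ : Equi β₂)
  (hadj : ∀ a b, β₂ (α.φ a) b = β₁ a (γ.φ b))

include hα hγ hadj

theorem cupD₁₁_proj (a : X.D₁ A₁) (b : X.D₁ B₂) :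
    X.cupD₁₁ hβ₂ (X.mapD₁ α hα a) b = X.cupD₁₁ hβ₁ a (X.mapD₁ γ hγ b) :=
  funext fun v => cupC₁₁_proj (X.𝒱 v) (X.locMor α hα v) (X.locMor γ hγ v) (fun _ => rfl)
    (fun _ => rfl) (X.equiLoc hβ₁ v) (X.equiLoc hβ₂ v) hadj (a v) (b v)

theorem cupD₂₀_proj (a : X.D₂ A₁) (b : X.D₀ B₂) :
    X.cupD₂₀ hβ₂ (X.mapD₂ α hα a) b = X.cupD₂₀ hβ₁ a (X.mapD₀ γ hγ b) :=
  funext fun v => cupC₂₀_proj (X.𝒱 v) (X.locMor α hα v) (X.locMor γ hγ v) (fun _ => rfl)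
    (fun _ => rfl) (X.equiLoc hβ₁ v) (X.equiLoc hβ₂ v) hadj (a v) (b v)

/-- cochain-level projection formula for the cone cup `K² × C¹ → K³` -/
theorem m21_proj (x : ↥(C₂ X.𝒰 A₁) × X.D₁ A₁) (c : ↥(C₁ X.𝒰 B₂)) :
    m21 X hβ₂ (X.mapK₂ α hα x) c = m21 X hβ₁ x (γ.c₁ c) := by
  refine Prod.ext ?_ ?_
  · exact cupC₂₁_proj X.𝒰 α γ hα hγ hβ₁ hβ₂ hadj x.1 c
  · simp only [m21_apply, Site.mapK₂_apply]
    rw [cupD₁₁_proj X α γ hα hγ hβ₁ hβ₂ hadj]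
    congr 1
    exact (LinearMap.congr_fun (X.r₁_c₁ γ hγ) c).symm

/-- cochain-level projection formula for the cone cup `K³ × C⁰ → K³` -/
theorem m30_proj (x : ↥(C₃ X.𝒰 A₁) × X.D₂ A₁) (c : ↥(C₀ X.𝒰 B₂)) :
    m30 X hβ₂ (X.mapK₃ α hα x) c = m30 X hβ₁ x (γ.c₀ c) := by
  refine Prod.ext ?_ ?_
  · exact cupC₃₀_proj X.𝒰 α γ hα hγ hβ₁ hβ₂ hadj x.1 c
  · simp only [m30_apply, Site.mapK₃_apply]
    rw [cupD₂₀_proj X α γ hα hγ hβ₁ hβ₂ hadj]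
    congr 1

/-! ### cohomology level -/

set_option maxHeartbeats 1000000 in
/-- **Projection formula** for `H³_c × H⁰ → H³_c`:
`cup30 β₂ (α_* x) y = cup30 β₁ x (γ_* y)` when `β₂ (α a) b = β₁ a (γ b)`. -/
theorem cup30_proj (x : X.H3c A₁) (y : ↥(H0 X.𝒰 B₂)) :
    cup30 X hβ₂ (X.mapH3c α hα x) y = cup30 X hβ₁ x (γ.h0 y) := by
  obtain ⟨a, ha, rfl⟩ := Hmid.exists_of x
  have ha' : X.k₃ A₂ (X.mapK₃ α hα a) = 0 := by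
    have := LinearMap.congr_fun (X.mapK₄_k₃ α hα) a
    simp only [LinearMap.comp_apply] at this
    rw [← this, ha, map_zero]
  have e := m30_proj X α γ hα hγ hβ₁ hβ₂ hadj a (y : ↥(C₀ X.𝒰 B₂))
  have h1 : X.mapH3c α hα (Hmid.of a ha) = Hmid.of (X.mapK₃ α hα a) ha' := rfl
  rw [h1]
  refine Eq.trans (cup30_of X hβ₂ _ ha' y) ?_
  refine Eq.trans ?_ (cup30_of X hβ₁ a ha (γ.h0 y)).symm
  exact of_congr e _ _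

set_option maxHeartbeats 1000000 in
/-- **Projection formula** for `H²_c × H¹ → H³_c`:
`cup21 β₂ (α_* x) y = cup21 β₁ x (γ_* y)` when `β₂ (α a) b = β₁ a (γ b)`. -/
theorem cup21_proj (x : X.H2c A₁) (y : H1 X.𝒰 B₂) :
    cup21 X hβ₂ (X.mapH2c α hα x) y = cup21 X hβ₁ x (γ.h1 y) := by
  obtain ⟨a, ha, rfl⟩ := Hmid.exists_of x
  obtain ⟨b, hb, rfl⟩ := Hmid.exists_of y
  have ha' : X.k₂ A₂ (X.mapK₂ α hα a) = 0 := by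
    have := LinearMap.congr_fun (X.mapK₃_k₂ α hα) a
    simp only [LinearMap.comp_apply] at this
    rw [← this, ha, map_zero]
  have e := m21_proj X α γ hα hγ hβ₁ hβ₂ hadj a b
  have h1 : X.mapH2c α hα (Hmid.of a ha) = Hmid.of (X.mapK₂ α hα a) ha' :=
    X.mapH2c_of α hα a ha ha'
  have h2 : γ.h1 (Hmid.of b hb) = Hmid.of (γ.c₁ b) (CoefLES.dC₁_c₁ γ b hb) :=
    CoefLES.h1_of γ b hb
  have h3 := cup21_of X hβ₂ (X.mapK₂ α hα a) ha' b hb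
  have h4 := cup21_of X hβ₁ a ha (γ.c₁ b) (CoefLES.dC₁_c₁ γ b hb)
  exact (congrArg (fun z => cup21 X hβ₂ z (Hmid.of b hb)) h1).trans
    (h3.trans ((of_congr e _ _).trans
      (h4.symm.trans (congrArg (fun z => cup21 X hβ₁ (Hmid.of a ha) z) h2.symm))))

end SiteLevel

end Fermat.Agent.S55.Formal.CupSiteNat
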