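/-
S55 / Formal / DeltaCompat (helper32): the cochain-level identities behind the δ-compatibility
`⟨z, δ'y⟩_M = -⟨δz, y⟩_R` of the cone pairing (step (ii) of report 1326).

Setting: `R Q M` and `R' Q' M'` representations of `G` with linear maps
`R -i→ Q -π→ M` and `M' -π'→ Q' -i'→ R'` (the dual sequence), equivariant pairings
`βR : R × R' → C`, `βQ : Q × Q' → C`, `βM : M × M' → C`, adjoint to each other:
`βQ (i r) q' = βR r (i' q')`, `βQ q (π' m') = βM (π q) m'`.

* a class `z ∈ H²_c(M)` is represented by `(x, (b_v))`, lifted to `(xt, (bt_v))` with values in `Q`;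
  `δ z` is represented by `(ρ₃, (σ_v))` with `i ∘ ρ₃ = d xt`, `i ∘ σ_v = res_v xt - d bt_v`;
* `y ∈ H⁰(R')` is lifted to `yt ∈ Q'`; `δ' y` is represented by `a` with `π' ∘ a = d yt`.

`global_identity` : `x ∪ a = d (xt ∪ yt) - ρ₃ ∪ y`.
`local_identity`  : `b ∪ a - Xt ∪ yt = -(σ ∪ y) - d (bt ∪ yt)`   (`Xt = res xt`).

Hence, if `d ε = ρ₃ ∪ y`, then `ε' := xt ∪ yt - ε` satisfies `d ε' = x ∪ a` and
`b_v ∪ a_v - res_v ε' = -(σ_v ∪ y - res_v ε) - d (bt_v ∪ yt)` : the two sums of local invariants are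
opposite.
-/
import Fermat.Agent.S55.Formal.CupLeibniz

set_option autoImplicit false

universe u

open groupCohomology

namespace Fermat.Agent.S55.Formal.DeltaCompat

open Fermat.Agent.S55.Formal.CupLeibniz

variable {k G : Type u} [CommRing k] [Group G]
variable {R Q M R' Q' M' C : Rep k G}
variable (i : R →ₗ[k] Q) (π : Q →ₗ[k] M) (π' : M' →ₗ[k] Q') (i' : Q' →ₗ[k] R')
variable (βR : R →ₗ[k] R' →ₗ[k] C) (βQ : Q →ₗ[k] Q' →ₗ[k] C) (βM : M →ₗ[k] M' →ₗ[k] C)

/-! ### transport of cups along the adjoint maps -/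

section Transport

variable {i π π' i' βR βQ βM}

theorem cup30_adjR (hadjR : ∀ r q', βQ (i r) q' = βR r (i' q'))
    (hi' : ∀ g q', i' (Q'.ρ g q') = R'.ρ g (i' q'))
    (ρ₃ : G × G × G → R) (yt : Q') :
    cup30 βQ (fun t => i (ρ₃ t)) yt = cup30 βR ρ₃ (i' yt) := by
  funext t
  simp only [cup30_apply, hadjR, hi']

theorem cup20_adjR (hadjR : ∀ r q', βQ (i r) q' = βR r (i' q'))
    (hi' : ∀ g q', i' (Q'.ρ g q') = R'.ρ g (i' q'))
    (σ₂ : G × G → R) (yt : Q') :
    cup20 βQ (fun t => i (σ₂ t)) yt = cup20 βR σ₂ (i' yt) := by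
  funext t
  simp only [cup20_apply, hadjR, hi']

theorem cup21_adjM (hadjM : ∀ q m', βQ q (π' m') = βM (π q) m')
    (hπ' : ∀ g m', π' (M'.ρ g m') = Q'.ρ g (π' m'))
    (xt : G × G → Q) (a : G → M') :
    cup21 βQ xt (fun g => π' (a g)) = cup21 βM (fun t => π (xt t)) a := by
  funext t
  simp only [cup21_apply, ← hπ', hadjM]

theorem cup11_adjM (hadjM : ∀ q m', βQ q (π' m') = βM (π q) m')
    (hπ' : ∀ g m', π' (M'.ρ g m') = Q'.ρ g (π' m'))
    (bt : G → Q) (a : G → M') :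
    cup11 βQ bt (fun g => π' (a g)) = cup11 βM (fun g => π (bt g)) a := by
  funext t
  simp only [cup11_apply, ← hπ', hadjM]

end Transport

/-! ### invariant second factor: the cup is a push-forward -/

section Invariant

variable {βR}

theorem cup30_of_invariant (ρ₃ : G × G × G → R) {y : R'} (hy : ∀ g, R'.ρ g y = y) :
    cup30 βR ρ₃ y = fun t => βR (ρ₃ t) y := by
  funext t
  simp only [cup30_apply, hy]

theorem cup20_of_invariant (σ₂ : G × G → R) {y : R'} (hy : ∀ g, R'.ρ g y = y) :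
    cup20 βR σ₂ y = fun t => βR (σ₂ t) y := by
  funext t
  simp only [cup20_apply, hy]

end Invariant

/-! ### the two identities -/

section Identities

variable {i π π' i' βR βQ βM}

/-- **Global identity**: `x ∪ a = d (xt ∪ yt) - ρ₃ ∪ y`. -/
theorem global_identity (hβQ : IsEquivariant βQ)
    (hadjR : ∀ r q', βQ (i r) q' = βR r (i' q'))
    (hadjM : ∀ q m', βQ q (π' m') = βM (π q) m')
    (hi' : ∀ g q', i' (Q'.ρ g q') = R'.ρ g (i' q'))
    (hπ' : ∀ g m', π' (M'.ρ g m') = Q'.ρ g (π' m'))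
    (xt : G × G → Q) (ρ₃ : G × G × G → R) (hρ : (d₂₃ Q).hom xt = fun t => i (ρ₃ t))
    (yt : Q') (a : G → M') (ha : (d₀₁ Q').hom yt = fun g => π' (a g)) :
    cup21 βM (fun t => π (xt t)) a =
      (d₂₃ C).hom (cup20 βQ xt yt) - cup30 βR ρ₃ (i' yt) := by
  rw [d₂₃_cup20 hβQ, hρ, ha, cup30_adjR hadjR hi', cup21_adjM hadjM hπ']
  abel

/-- **Local identity**: `b ∪ a - Xt ∪ yt = -(σ ∪ y) - d (bt ∪ yt)`. -/
theorem local_identity (hβQ : IsEquivariant βQ)
    (hadjR : ∀ r q', βQ (i r) q' = βR r (i' q'))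
    (hadjM : ∀ q m', βQ q (π' m') = βM (π q) m')
    (hi' : ∀ g q', i' (Q'.ρ g q') = R'.ρ g (i' q'))
    (hπ' : ∀ g m', π' (M'.ρ g m') = Q'.ρ g (π' m'))
    (bt : G → Q) (Xt : G × G → Q) (σ₂ : G × G → R)
    (hσ : Xt - (d₁₂ Q).hom bt = fun t => i (σ₂ t))
    (yt : Q') (a : G → M') (ha : (d₀₁ Q').hom yt = fun g => π' (a g)) :
    cup11 βM (fun g => π (bt g)) a - cup20 βQ Xt yt =
      -(cup20 βR σ₂ (i' yt)) - (d₁₂ C).hom (cup10 βQ bt yt) := by
  have h1 : (d₁₂ Q).hom bt = Xt - fun t => i (σ₂ t) := by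
    rw [← hσ]; abel
  rw [d₁₂_cup10 hβQ, ha, cup11_adjM hadjM hπ', h1, map_sub, LinearMap.sub_apply,
    cup20_adjR hadjR hi']
  abel

/-- **Consequence, global part**: if `d ε = ρ₃ ∪ y` then `ε' := xt ∪ yt - ε` is a primitive of
`x ∪ a`. -/
theorem d₂₃_primitive (hβQ : IsEquivariant βQ)
    (hadjR : ∀ r q', βQ (i r) q' = βR r (i' q'))
    (hadjM : ∀ q m', βQ q (π' m') = βM (π q) m')
    (hi' : ∀ g q', i' (Q'.ρ g q') = R'.ρ g (i' q'))
    (hπ' : ∀ g m', π' (M'.ρ g m') = Q'.ρ g (π' m'))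
    (xt : G × G → Q) (ρ₃ : G × G × G → R) (hρ : (d₂₃ Q).hom xt = fun t => i (ρ₃ t))
    (yt : Q') (a : G → M') (ha : (d₀₁ Q').hom yt = fun g => π' (a g))
    (ε : G × G → C) (hε : (d₂₃ C).hom ε = cup30 βR ρ₃ (i' yt)) :
    (d₂₃ C).hom (cup20 βQ xt yt - ε) = cup21 βM (fun t => π (xt t)) a := by
  rw [global_identity hβQ hadjR hadjM hi' hπ' xt ρ₃ hρ yt a ha, map_sub, hε]

/-- **Consequence, local part**: with `E` the restriction of `ε` and `Xt` the restriction of `xt`,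
`b ∪ a - res ε' = -(σ ∪ y - res ε) - d (bt ∪ yt)`. -/
theorem local_difference (hβQ : IsEquivariant βQ)
    (hadjR : ∀ r q', βQ (i r) q' = βR r (i' q'))
    (hadjM : ∀ q m', βQ q (π' m') = βM (π q) m')
    (hi' : ∀ g q', i' (Q'.ρ g q') = R'.ρ g (i' q'))
    (hπ' : ∀ g m', π' (M'.ρ g m') = Q'.ρ g (π' m'))
    (bt : G → Q) (Xt : G × G → Q) (σ₂ : G × G → R)
    (hσ : Xt - (d₁₂ Q).hom bt = fun t => i (σ₂ t))
    (yt : Q') (a : G → M') (ha : (d₀₁ Q').hom yt = fun g => π' (a g)) (E : G × G → C) :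
    cup11 βM (fun g => π (bt g)) a - (cup20 βQ Xt yt - E) =
      -(cup20 βR σ₂ (i' yt) - E) - (d₁₂ C).hom (cup10 βQ bt yt) := by
  have := local_identity hβQ hadjR hadjM hi' hπ' bt Xt σ₂ hσ yt a ha
  have e : cup11 βM (fun g => π (bt g)) a - (cup20 βQ Xt yt - E) =
      (cup11 βM (fun g => π (bt g)) a - cup20 βQ Xt yt) + E := by abel
  rw [e, this]
  abel

end Identities

/-! ### restriction along a group homomorphism -/

section Restriction

variable {H : Type u} [Group H] (r : H →* G) {A B : Rep k G} (β : A →ₗ[k] B →ₗ[k] C)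

/-- the same bilinear map, seen as a pairing of the restricted representations. -/
def resPairing : (Rep.res r A) →ₗ[k] (Rep.res r B) →ₗ[k] (Rep.res r C) := β

theorem isEquivariant_resPairing {β : A →ₗ[k] B →ₗ[k] C} (hβ : IsEquivariant β) :
    IsEquivariant (resPairing r β) :=
  fun h a b => hβ (r h) a b

theorem cup20_res (F : G × G → A) (b : B) :
    cup20 (resPairing r β) (fun t : H × H => (F (r t.1, r t.2) : Rep.res r A)) b =
      fun t : H × H => cup20 β F b (r t.1, r t.2) := by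
  funext t
  simp only [cup20_apply, map_mul]
  rfl

theorem cup11_res (f : G → A) (f' : G → B) :
    cup11 (resPairing r β) (fun h : H => (f (r h) : Rep.res r A))
        (fun h : H => (f' (r h) : Rep.res r B)) =
      fun t : H × H => cup11 β f f' (r t.1, r t.2) := by
  funext t
  simp only [cup11_apply]
  rfl

theorem cup10_res (f : G → A) (b : B) :
    cup10 (resPairing r β) (fun h : H => (f (r h) : Rep.res r A)) b =
      fun h : H => cup10 β f b (r h) := by
  funext t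
  simp only [cup10_apply]
  rfl

end Restriction

end Fermat.Agent.S55.Formal.DeltaCompat
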