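/-
S55 / formal end (helper87): the DIRECT-SUMMAND step (3a) of the dévissage of route #1234.

* `bijective_of_retract`: a natural map which is bijective on `N` is bijective on every retract
  `M` of `N` (plain functions, no structure needed).
* For a subgroup `U ≤ G` of finite index `n` invertible in `k` and `M : Rep k G`, the coinduced
  module `I U M := Rep.coind U.subtype (Rep.res U.subtype M)` (Mathlib's object of Shapiro's lemma:
  `U`-equivariant functions `G → M`) receives `unit M : M ⟶ I U M`, `m ↦ (g ↦ g • m)`, and maps back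
  by `avg M : I U M ⟶ M`, `f ↦ n⁻¹ ∑_{gU} g • f (g⁻¹)`, with `unit ≫ avg = 𝟙`; both are natural.
* `Rep.coind U.subtype` preserves concrete short exact sequences
  (injective / exact in the middle / surjective).

Mathlib only.
-/
import Mathlib

set_option autoImplicit false

open CategoryTheory

universe u v w t

namespace Fermat.Agent.S55.Formal.Summand

/-! ### (i) the retract lemma -/

/-- If `φ'` is bijective and `(φ : A → B)` is a retract of `(φ' : A' → B')`, then `φ` is
bijective. -/
theorem bijective_of_retract {A B A' B' : Type*} (a : A → A') (ar : A' → A) (b : B → B')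
    (br : B' → B) (φ : A → B) (φ' : A' → B')
    (ha : ∀ x, ar (a x) = x) (hb : ∀ y, br (b y) = y)
    (h1 : ∀ x, φ' (a x) = b (φ x)) (h2 : ∀ x', φ (ar x') = br (φ' x'))
    (hφ' : Function.Bijective φ') : Function.Bijective φ := by
  refine ⟨fun x y hxy => ?_, fun y => ?_⟩
  · have h : φ' (a x) = φ' (a y) := by rw [h1, h1, hxy]
    have := hφ'.1 h
    rw [← ha x, ← ha y, this]
  · obtain ⟨x', hx'⟩ := hφ'.2 (b y)
    exact ⟨ar x', by rw [h2, hx', hb]⟩

/-- Injectivity part alone (needs only one square and one retraction). -/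
theorem injective_of_retract {A B A' B' : Type*} (a : A → A') (ar : A' → A) (b : B → B')
    (φ : A → B) (φ' : A' → B') (ha : ∀ x, ar (a x) = x) (h1 : ∀ x, φ' (a x) = b (φ x))
    (hφ' : Function.Injective φ') : Function.Injective φ := by
  intro x y hxy
  have h : φ' (a x) = φ' (a y) := by rw [h1, h1, hxy]
  have := hφ' h
  rw [← ha x, ← ha y, this]

/-- Surjectivity part alone. -/
theorem surjective_of_retract {A B A' B' : Type*} (ar : A' → A) (b : B → B')
    (br : B' → B) (φ : A → B) (φ' : A' → B') (hb : ∀ y, br (b y) = y)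
    (h2 : ∀ x', φ (ar x') = br (φ' x')) (hφ' : Function.Surjective φ') :
    Function.Surjective φ := by
  intro y
  obtain ⟨x', hx'⟩ := hφ' (b y)
  exact ⟨ar x', by rw [h2, hx', hb]⟩

/-! ### (ii) `M` is a natural direct summand of `I U M = coind_U^G res_U^G M` -/

noncomputable section


variable {k : Type u} {G : Type v} [CommRing k] [Group G] (U : Subgroup G)

/-- `I U M = coind_U^G res_U^G M`: the `U`-equivariant functions `G → M`, `G` acting by right
translation. -/
abbrev I (M : Rep.{max v w} k G) : Rep.{max v w} k G :=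
  Rep.coind U.subtype (Rep.res U.subtype M)

/-- The unit `M ⟶ I U M`, `m ↦ (g ↦ g • m)`. -/
def unit (M : Rep.{max v w} k G) : M ⟶ I U M :=
  Rep.resCoindToHom U.subtype M (Rep.res U.subtype M) (𝟙 _)

@[simp] lemma unit_hom_apply_coe (M : Rep.{max v w} k G) (m : M) (g : G) :
    ((unit U M).hom m).1 g = M.ρ g m := rfl

variable {U}

/-- the summand `g • f (g⁻¹)` only depends on the coset `gU`. -/
lemma term_mul_right (M : Rep.{max v w} k G) (f : I U M) (g : G) (s : U) :
    M.ρ (g * s) (f.1 (g * s)⁻¹) = M.ρ g (f.1 g⁻¹) := by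
  have h := f.2 s⁻¹ g⁻¹
  have h' : (g * (s : G))⁻¹ = U.subtype s⁻¹ * g⁻¹ := by simp
  rw [h', h]
  simp [← Module.End.mul_apply, ← map_mul]

lemma term_out (M : Rep.{max v w} k G) (f : I U M) (g : G) :
    M.ρ ((g : G ⧸ U).out) (f.1 ((g : G ⧸ U).out)⁻¹) = M.ρ g (f.1 g⁻¹) := by
  obtain ⟨s, hs⟩ := QuotientGroup.mk_out_eq_mul U g
  rw [hs, term_mul_right]

variable (U)

/-- The averaging map as a linear map. -/
def avgLin (M : Rep.{max v w} k G) [U.FiniteIndex] : (I U M).V →ₗ[k] M.V :=
  letI : Fintype (G ⧸ U) := Fintype.ofFinite _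
  Ring.inverse (U.index : k) • ∑ c : G ⧸ U,
    (M.ρ c.out) ∘ₗ (LinearMap.proj (c.out)⁻¹) ∘ₗ (Submodule.subtype _)

lemma avgLin_apply (M : Rep.{max v w} k G) [U.FiniteIndex] [Fintype (G ⧸ U)] (f : I U M) :
    avgLin U M f = Ring.inverse (U.index : k) • ∑ c : G ⧸ U, M.ρ c.out (f.1 (c.out)⁻¹) := by
  unfold avgLin
  simp only [LinearMap.smul_apply, LinearMap.sum_apply, LinearMap.comp_apply]
  congr 1
  refine Finset.sum_congr (by ext; simp) (fun c _ => rfl)

lemma avgLin_equivariant (M : Rep.{max v w} k G) [U.FiniteIndex] (x : G) (f : I U M) :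
    avgLin U M ((I U M).ρ x f) = M.ρ x (avgLin U M f) := by
  let _ : Fintype (G ⧸ U) := Fintype.ofFinite _
  rw [avgLin_apply, avgLin_apply, map_smul]
  congr 1
  -- the function on cosets
  set T : G ⧸ U → M.V := fun c => M.ρ c.out (f.1 (c.out)⁻¹) with hT
  have key : ∀ c : G ⧸ U, M.ρ c.out (((I U M).ρ x f).1 (c.out)⁻¹) = M.ρ x (T (x⁻¹ • c)) := by
    intro c
    have h1 : ((I U M).ρ x f).1 (c.out)⁻¹ = f.1 ((c.out)⁻¹ * x) := rfl
    have h2 : x⁻¹ • c = ((x⁻¹ * c.out : G) : G ⧸ U) := by
      conv_lhs => rw [← QuotientGroup.out_eq' c]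
      rfl
    rw [h1, hT]
    simp only
    rw [h2, term_out]
    simp [← Module.End.mul_apply, ← map_mul]
  rw [Finset.sum_congr rfl (fun c _ => key c), ← map_sum]
  congr 1
  exact Equiv.sum_comp (MulAction.toPerm x⁻¹) T

/-- The averaging map `I U M ⟶ M`, `f ↦ [G:U]⁻¹ ∑_{gU} g • f (g⁻¹)`. -/
def avg (M : Rep.{max v w} k G) [U.FiniteIndex] : I U M ⟶ M :=
  Rep.ofHom ⟨avgLin U M, fun x => LinearMap.ext fun f => avgLin_equivariant U M x f⟩

lemma avg_hom_apply (M : Rep.{max v w} k G) [U.FiniteIndex] [Fintype (G ⧸ U)] (f : I U M) :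
    (avg U M).hom f = Ring.inverse (U.index : k) • ∑ c : G ⧸ U, M.ρ c.out (f.1 (c.out)⁻¹) :=
  avgLin_apply U M f

/-- `avg` is a retraction of `unit` when the index is invertible in `k`. -/
lemma unit_avg_apply (M : Rep.{max v w} k G) [U.FiniteIndex] (h : IsUnit (U.index : k)) (m : M) :
    (avg U M).hom ((unit U M).hom m) = m := by
  let _ : Fintype (G ⧸ U) := Fintype.ofFinite _
  rw [avg_hom_apply]
  have : ∀ c : G ⧸ U, M.ρ c.out (((unit U M).hom m).1 (c.out)⁻¹) = m := by
    intro c
    rw [unit_hom_apply_coe]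
    simp [← Module.End.mul_apply, ← map_mul]
  rw [Finset.sum_congr rfl (fun c _ => this c)]
  simp only [Finset.sum_const, Finset.card_univ]
  rw [← Nat.card_eq_fintype_card, ← Subgroup.index_eq_card, ← Nat.cast_smul_eq_nsmul k, smul_smul,
    Ring.inverse_mul_cancel _ h, one_smul]

lemma unit_avg (M : Rep.{max v w} k G) [U.FiniteIndex] (h : IsUnit (U.index : k)) :
    unit U M ≫ avg U M = 𝟙 M := by
  ext m
  exact unit_avg_apply U M h m

/-- functoriality of `I U` in `M`. -/
abbrev Imap {M N : Rep.{max v w} k G} (φ : M ⟶ N) : I U M ⟶ I U N :=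
  Rep.coindMap U.subtype ((Rep.resFunctor U.subtype).map φ)

@[simp] lemma Imap_hom_apply_coe {M N : Rep.{max v w} k G} (φ : M ⟶ N) (f : I U M) (g : G) :
    ((Imap U φ).hom f).1 g = φ.hom (f.1 g) := rfl

lemma unit_naturality {M N : Rep.{max v w} k G} (φ : M ⟶ N) :
    unit U M ≫ Imap U φ = φ ≫ unit U N := by
  ext m g
  change φ.hom (M.ρ g m) = N.ρ g (φ.hom m)
  exact Rep.hom_comm_apply φ g m

lemma avg_naturality {M N : Rep.{max v w} k G} [U.FiniteIndex] (φ : M ⟶ N) :
    Imap U φ ≫ avg U N = avg U M ≫ φ := by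
  let _ : Fintype (G ⧸ U) := Fintype.ofFinite _
  ext f
  change (avg U N).hom ((Imap U φ).hom f) = φ.hom ((avg U M).hom f)
  rw [avg_hom_apply, avg_hom_apply, map_smul, map_sum]
  congr 1
  refine Finset.sum_congr rfl fun c _ => ?_
  rw [Imap_hom_apply_coe]
  exact (Rep.hom_comm_apply φ _ _).symm

/-- The functor `M ↦ I U M = coind_U^G res_U^G M`. -/
abbrev IFunctor : Rep.{max v w} k G ⥤ Rep.{max v w} k G :=
  Rep.resFunctor U.subtype ⋙ Rep.coindFunctor k U.subtype

/-- `unit` as a natural transformation. -/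
def unitNat : 𝟭 (Rep.{max v w} k G) ⟶ IFunctor U where
  app M := unit U M
  naturality _ _ φ := (unit_naturality U φ).symm

/-- `avg` as a natural transformation. -/
def avgNat [U.FiniteIndex] : IFunctor U ⟶ 𝟭 (Rep.{max v w} k G) where
  app M := avg U M
  naturality _ _ φ := avg_naturality U φ

lemma unitNat_avgNat [U.FiniteIndex] (h : IsUnit (U.index : k)) :
    unitNat U ≫ avgNat U = 𝟙 (𝟭 (Rep.{max v w} k G)) := by
  ext M : 2
  exact unit_avg U M h

end

/-! ### (iii) `coind` from a subgroup preserves concrete short exact sequences -/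

section CoindExact

variable {k : Type u} {G : Type v} [CommRing k] [Group G] (U : Subgroup G)

theorem coindMap_hom_apply_coe {A B : Rep.{t} k U} (φ : A ⟶ B) (f : Rep.coind U.subtype A) (g : G) :
    ((Rep.coindMap U.subtype φ).hom f).1 g = φ.hom (f.1 g) := rfl

/-- `coind` preserves injectivity. -/
theorem coindMap_injective {A B : Rep.{t} k U} (φ : A ⟶ B) (h : Function.Injective φ.hom) :
    Function.Injective (Rep.coindMap U.subtype φ).hom := by
  intro f f' hff'
  refine Subtype.ext (funext fun g => h ?_)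
  have := congrArg (fun e : Rep.coind U.subtype B => e.1 g) hff'
  exact this

/-- `coind` from a subgroup preserves surjectivity (Mathlib's `PreservesEpimorphisms`). -/
theorem coindMap_surjective {B C : Rep.{t} k U} (ψ : B ⟶ C) (h : Function.Surjective ψ.hom) :
    Function.Surjective (Rep.coindMap U.subtype ψ).hom := by
  have : Epi ψ := (Rep.epi_iff_surjective ψ).2 h
  have : Epi ((Rep.coindFunctor k U.subtype).map ψ) := inferInstance
  exact (Rep.epi_iff_surjective _).1 this

/-- `coind` preserves exactness in the middle of a concrete left exact sequence. -/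
theorem coindMap_exact {A B C : Rep.{t} k U} (φ : A ⟶ B) (ψ : B ⟶ C)
    (hφ : Function.Injective φ.hom) (hex : ∀ b, ψ.hom b = 0 ↔ ∃ a, φ.hom a = b)
    (f : Rep.coind U.subtype B) :
    (Rep.coindMap U.subtype ψ).hom f = 0 ↔ ∃ e, (Rep.coindMap U.subtype φ).hom e = f := by
  constructor
  · intro hf
    have hf' : ∀ g : G, ψ.hom (f.1 g) = 0 := fun g =>
      congrArg (fun e : Rep.coind U.subtype C => e.1 g) hf
    choose e he using fun g => (hex (f.1 g)).1 (hf' g)
    refine ⟨⟨e, fun s g => hφ ?_⟩, Subtype.ext (funext fun g => he g)⟩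
    rw [he, Rep.hom_comm_apply, he]
    exact f.2 s g
  · rintro ⟨e, rfl⟩
    refine Subtype.ext (funext fun g => ?_)
    exact (hex _).2 ⟨e.1 g, rfl⟩

end CoindExact

end Fermat.Agent.S55.Formal.Summand
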