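/-
S55 / formal end (helper87): complements to `Formal/Summand.lean` for the dévissage (3a)/(3b).

* `coind_ρ_eq_one`, `coind_ρ_eq_one_of_normal`, `coind_res_ρ_eq_one(_of_normal)`: an element of `G`
  all of whose conjugates lie in `U` and act trivially on `A : Rep k U` acts trivially on
  `coind_U^G A`; so smoothness ("an open normal subgroup acts trivially") and unramifiedness
  ("inertia acts trivially") pass from `A` to `coind_U^G A`.
* `coindVEquivFun`: `coind_U^G A ≃ₗ (U \ G → A)` (evaluation at coset representatives), hence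
  `finite_coind` and `finrank_coind : finrank (coind_U^G A) = [G:U] * finrank A`.
* `nonempty_iso_trivial_of_finrank_eq_one`: a line with trivial action is `≅ Rep.trivial k G k`
  (the base case of `Unipotent.induction_on`), and `nonempty_coind_iso_of_finrank_eq_one`.

Mathlib only.
-/
import Mathlib

set_option autoImplicit false

open CategoryTheory

universe u v w t

namespace Fermat.Agent.S55.Formal.SummandAdm

section Ring

variable {k : Type u} {G : Type v} [CommRing k] [Group G] (U : Subgroup G)

/-! ### trivial action transfers to `coind` -/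

theorem coind_ρ_apply_coe (A : Rep.{t} k U) (g h : G) (f : Rep.coind U.subtype A) :
    (((Rep.coind U.subtype A).ρ g) f).1 h = f.1 (h * g) := rfl

/-- An element all of whose conjugates lie in `U` and act trivially on `A` acts trivially on
`coind_U^G A`. -/
theorem coind_ρ_eq_one (A : Rep.{t} k U) (g : G)
    (hg : ∀ h : G, ∃ hu : h * g * h⁻¹ ∈ U, A.ρ ⟨h * g * h⁻¹, hu⟩ = 1) :
    (Rep.coind U.subtype A).ρ g = 1 := by
  refine LinearMap.ext fun f => Subtype.ext (funext fun h => ?_)
  obtain ⟨hu, h1⟩ := hg h
  have h2 := f.2 ⟨h * g * h⁻¹, hu⟩ h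
  rw [h1] at h2
  rw [coind_ρ_apply_coe]
  have h3 : U.subtype ⟨h * g * h⁻¹, hu⟩ * h = h * g := by simp
  rw [h3] at h2
  exact h2

/-- A normal subgroup `N ≤ U` of `G` acting trivially on `A` acts trivially on `coind_U^G A`. -/
theorem coind_ρ_eq_one_of_normal (N : Subgroup G) [N.Normal] (hNU : N ≤ U) (A : Rep.{t} k U)
    (hA : ∀ (n : G) (hn : n ∈ N), A.ρ ⟨n, hNU hn⟩ = 1) (n : G) (hn : n ∈ N) :
    (Rep.coind U.subtype A).ρ n = 1 :=
  coind_ρ_eq_one U A n fun h =>
    ⟨hNU (Subgroup.Normal.conj_mem ‹_› n hn h), hA _ (Subgroup.Normal.conj_mem ‹_› n hn h)⟩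

/-- Version for `coind_U^G res_U^G M`. -/
theorem coind_res_ρ_eq_one (M : Rep.{t} k G) (g : G)
    (hg : ∀ h : G, h * g * h⁻¹ ∈ U ∧ M.ρ (h * g * h⁻¹) = 1) :
    (Rep.coind U.subtype (Rep.res U.subtype M)).ρ g = 1 :=
  coind_ρ_eq_one U _ g fun h => ⟨(hg h).1, (hg h).2⟩

theorem coind_res_ρ_eq_one_of_normal (N : Subgroup G) [N.Normal] (hNU : N ≤ U) (M : Rep.{t} k G)
    (hM : ∀ n ∈ N, M.ρ n = 1) (n : G) (hn : n ∈ N) :
    (Rep.coind U.subtype (Rep.res U.subtype M)).ρ n = 1 :=
  coind_ρ_eq_one_of_normal U N hNU _ (fun n hn => hM n hn) n hn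


/-! ### `coind_U^G A` as functions on right cosets -/

/-- right cosets `U \ G` -/
abbrev RCosets : Type v := Quotient (QuotientGroup.rightRel U)

variable {U} in
/-- the class `U g` -/
abbrev rmk (g : G) : RCosets U := Quotient.mk (QuotientGroup.rightRel U) g

theorem rmk_mul (s : U) (g : G) : rmk ((s : G) * g) = (rmk g : RCosets U) :=
  Quotient.sound (QuotientGroup.rightRel_apply.2 (by simp))

theorem mul_out_inv_mem (g : G) : g * ((rmk g : RCosets U).out)⁻¹ ∈ U :=
  QuotientGroup.rightRel_apply.1 (Quotient.mk_out (s := QuotientGroup.rightRel U) g)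

/-- the `U`-component of `g` w.r.t. the chosen representative of `U g`. -/
noncomputable def rcomp (g : G) : U := ⟨g * ((rmk g : RCosets U).out)⁻¹, mul_out_inv_mem U g⟩

theorem rcomp_mul_out (g : G) : (rcomp U g : G) * (rmk g : RCosets U).out = g := by
  simp [rcomp]

theorem rcomp_mul (s : U) (g : G) : rcomp U ((s : G) * g) = s * rcomp U g := by
  ext
  simp [rcomp, rmk_mul, mul_assoc]

theorem rcomp_out (c : RCosets U) : rcomp U c.out = 1 := by
  ext
  have : (rmk c.out : RCosets U) = c := Quotient.out_eq c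
  simp [rcomp, this]

/-- `coind_U^G A ≃ (U \ G → A)` by evaluation at coset representatives. -/
noncomputable def coindVEquivFun (A : Rep.{t} k U) :
    Representation.coindV U.subtype A.ρ ≃ₗ[k] (RCosets U → A) where
  toFun f c := f.1 c.out
  map_add' _ _ := rfl
  map_smul' _ _ := rfl
  invFun φ := ⟨fun g => A.ρ (rcomp U g) (φ (rmk g)), fun s g => by
    change A.ρ (rcomp U ((s : G) * g)) (φ (rmk ((s : G) * g))) = A.ρ s (A.ρ (rcomp U g) (φ (rmk g)))
    rw [rcomp_mul, rmk_mul, map_mul]
    rfl⟩
  left_inv f := by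
    refine Subtype.ext (funext fun g => ?_)
    change A.ρ (rcomp U g) (f.1 (rmk g : RCosets U).out) = f.1 g
    have := f.2 (rcomp U g) (rmk g : RCosets U).out
    rw [← this]
    exact congrArg f.1 (rcomp_mul_out U g)
  right_inv φ := by
    funext c
    change A.ρ (rcomp U c.out) (φ (rmk c.out)) = φ c
    rw [rcomp_out, map_one]
    have : (rmk c.out : RCosets U) = c := Quotient.out_eq c
    rw [this]
    rfl

instance [U.FiniteIndex] : Finite (RCosets U) :=
  Finite.of_equiv _ (QuotientGroup.quotientRightRelEquivQuotientLeftRel U).symm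

theorem card_rcosets : Nat.card (RCosets U) = U.index := by
  rw [Subgroup.index_eq_card]
  exact Nat.card_congr (QuotientGroup.quotientRightRelEquivQuotientLeftRel U)

instance finite_coind [U.FiniteIndex] (A : Rep.{t} k U) [Module.Finite k A] :
    Module.Finite k (Rep.coind U.subtype A) :=
  Module.Finite.equiv (coindVEquivFun U A).symm

theorem finrank_coind [U.FiniteIndex] [Nontrivial k] (A : Rep.{t} k U) [Module.Finite k A] [Module.Free k A] :
    Module.finrank k (Rep.coind U.subtype A) = U.index * Module.finrank k A := by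
  let _ : Fintype (RCosets U) := Fintype.ofFinite _
  rw [LinearEquiv.finrank_eq (coindVEquivFun U A), Module.finrank_pi_fintype]
  simp [← card_rcosets, Nat.card_eq_fintype_card]


end Ring

section Field

variable {k : Type u} {G : Type v} [Field k] [Group G]

/-- a trivial line is isomorphic to the trivial representation on `k`. -/
theorem nonempty_iso_trivial_of_finrank_eq_one (A : Rep.{u} k G)
    (h1 : Module.finrank k A = 1) (htriv : ∀ g, A.ρ g = 1) :
    Nonempty (A ≅ Rep.trivial k G k) := by
  obtain ⟨e⟩ := Module.nonempty_linearEquiv_of_finrank_eq_one (R := k) (M := A) h1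
  refine ⟨(Rep.mkIso (ρ := A.ρ) (σ := Representation.trivial k G k)
    (Representation.Equiv.mk e.symm fun g => ?_))⟩
  rw [htriv g]
  rfl


/-- Base case of the dévissage: for a line `A` with trivial `U`-action, `coind_U^G A` is the
coinduced module of the trivial representation on `k`. -/
theorem nonempty_coind_iso_of_finrank_eq_one (U : Subgroup G) (A : Rep.{u} k U)
    (h1 : Module.finrank k A = 1) (htriv : ∀ g, A.ρ g = 1) :
    Nonempty (Rep.coind U.subtype A ≅ Rep.coind U.subtype (Rep.trivial k U k)) := by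
  obtain ⟨e⟩ := nonempty_iso_trivial_of_finrank_eq_one A h1 htriv
  exact ⟨(Rep.coindFunctor k U.subtype).mapIso e⟩

end Field

end Fermat.Agent.S55.Formal.SummandAdm
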