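/-
S55 / formal end (helper87): route step (i) — dévissage of the vanishing statements
`Vanish₃ 𝒰 N`, `Vanish₂ 𝒰 N` of `Formal/LC.lean`.

* `Vanish₃.of_retract`, `Vanish₂.of_retract` : vanishing passes to retracts;
* `exists_lift_C₁/C₂`, `exists_descent_C₂/C₃` : for a short exact sequence `0 → A → B → C → 0` with
  `B` uniformly smooth, LC cochains of `C` lift to `B` and LC cochains of `B` killed by `ψ` come
  from `A`;
* `Vanish₃.of_ses`, `Vanish₂.of_ses` : half-exactness: vanishing for `A` and `C` gives it for `B`;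
* `vanish₃_of_base`, `vanish₂_of_base` : for `k = ZMod p`: if `Vanish` holds for the permutation
  modules `coind_P^G k` for all "open" subgroups `P` (containing a member of `𝒰`), it holds for
  every finite-dimensional uniformly smooth `N` (Sylow + `Summand.unit/avg` + `Unipotent.induction_on`).
-/
import Fermat.Agent.S55.Formal.LC
import Fermat.Agent.S55.Formal.Summand
import Fermat.Agent.S55.Formal.SummandAdm
import Fermat.Agent.S55.Unipotent

set_option autoImplicit false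

open CategoryTheory groupCohomology

namespace Fermat.Agent.S55.Formal.Vanish3

open Fermat.Agent.S55.Formal

variable {k : Type} [CommRing k] {G : Type} [Group G] (𝒰 : NBasis G)

/-! ### retracts -/

section Retract

variable {N N' : Rep.{0, 0, 0} k G} (i : N ⟶ N') (r : N' ⟶ N)

theorem Vanish₃.of_retract (hir : ∀ n, r.hom (i.hom n) = n) (h : Vanish₃ 𝒰 N') : Vanish₃ 𝒰 N := by
  intro f hf
  set α := Mor.ofHom 𝒰 i with hα
  set β := Mor.ofHom 𝒰 r with hβ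
  have h1 : dC₃ 𝒰 N' (α.c₃ f) = 0 := by
    have := LinearMap.congr_fun α.p₄_dC₃ f
    simp only [LinearMap.comp_apply] at this
    rw [← this, hf, map_zero]
  obtain ⟨b', hb'⟩ := h (α.c₃ f) h1
  refine ⟨β.c₂ b', ?_⟩
  have h2 := LinearMap.congr_fun β.c₃_dC₂ b'
  simp only [LinearMap.comp_apply] at h2
  rw [← h2, hb']
  apply Subtype.ext
  funext x
  exact hir _

theorem Vanish₂.of_retract (hir : ∀ n, r.hom (i.hom n) = n) (h : Vanish₂ 𝒰 N') : Vanish₂ 𝒰 N := by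
  intro f hf
  set α := Mor.ofHom 𝒰 i with hα
  set β := Mor.ofHom 𝒰 r with hβ
  have h1 : dC₂ 𝒰 N' (α.c₂ f) = 0 := by
    have := LinearMap.congr_fun α.c₃_dC₂ f
    simp only [LinearMap.comp_apply] at this
    rw [← this, hf, map_zero]
  obtain ⟨b', hb'⟩ := h (α.c₂ f) h1
  refine ⟨β.c₁ b', ?_⟩
  have h2 := LinearMap.congr_fun β.c₂_dC₁ b'
  simp only [LinearMap.comp_apply] at h2
  rw [← h2, hb']
  apply Subtype.ext
  funext x
  exact hir _

theorem Vanish₃.of_iso (e : N ≅ N') (h : Vanish₃ 𝒰 N') : Vanish₃ 𝒰 N :=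
  Vanish₃.of_retract 𝒰 e.hom e.inv (fun n => Rep.inv_hom_apply _ _ e n) h

theorem Vanish₂.of_iso (e : N ≅ N') (h : Vanish₂ 𝒰 N') : Vanish₂ 𝒰 N :=
  Vanish₂.of_retract 𝒰 e.hom e.inv (fun n => Rep.inv_hom_apply _ _ e n) h

end Retract

/-! ### short exact sequences of uniformly smooth modules -/

section SES

variable {A B C : Rep.{0, 0, 0} k G} (φ : A ⟶ B) (ψ : B ⟶ C)

/-- LC `1`-cochains lift along a surjection out of a uniformly smooth module. -/
theorem exists_lift_C₁ (hψ : Function.Surjective ψ.hom) (hB : IsUSmooth 𝒰 B)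
    (c : ↥(C₁ 𝒰 C)) : ∃ b : ↥(C₁ 𝒰 B), (Mor.ofHom 𝒰 ψ).c₁ b = c := by
  obtain ⟨U, hU, hc⟩ := c.2
  obtain ⟨V, hV, hBV⟩ := hB
  obtain ⟨W, hW, hle⟩ := 𝒰.inf hU hV
  refine ⟨⟨fun x => Function.surjInv hψ (c.1 x), W, hW, fun s hs g => ⟨?_, ?_⟩⟩, ?_⟩
  · exact congrArg _ (hc s (hle hs).1 g).1
  · exact hBV s (hle hs).2 _
  · apply Subtype.ext
    funext x
    exact Function.surjInv_eq hψ (c.1 x)

/-- LC `2`-cochains lift along a surjection out of a uniformly smooth module. -/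
theorem exists_lift_C₂ (hψ : Function.Surjective ψ.hom) (hB : IsUSmooth 𝒰 B)
    (c : ↥(C₂ 𝒰 C)) : ∃ b : ↥(C₂ 𝒰 B), (Mor.ofHom 𝒰 ψ).c₂ b = c := by
  obtain ⟨U, hU, hc⟩ := c.2
  obtain ⟨V, hV, hBV⟩ := hB
  obtain ⟨W, hW, hle⟩ := 𝒰.inf hU hV
  refine ⟨⟨fun x => Function.surjInv hψ (c.1 x), W, hW, fun s hs g h => ⟨?_, ?_, ?_⟩⟩, ?_⟩
  · exact congrArg _ (hc s (hle hs).1 g h).1
  · exact congrArg _ (hc s (hle hs).1 g h).2.1
  · exact hBV s (hle hs).2 _
  · apply Subtype.ext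
    funext x
    exact Function.surjInv_eq hψ (c.1 x)

/-- An LC `2`-cochain of `B` killed by `ψ` comes from an LC `2`-cochain of `A`. -/
theorem exists_descent_C₂ (hφ : Function.Injective φ.hom)
    (hex : ∀ b, ψ.hom b = 0 ↔ ∃ a, φ.hom a = b)
    (f : ↥(C₂ 𝒰 B)) (hf : (Mor.ofHom 𝒰 ψ).c₂ f = 0) :
    ∃ a : ↥(C₂ 𝒰 A), (Mor.ofHom 𝒰 φ).c₂ a = f := by
  have hf' : ∀ x, ψ.hom (f.1 x) = 0 := fun x =>
    congrFun (congrArg Subtype.val hf) x
  choose a ha using fun x => (hex (f.1 x)).1 (hf' x)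
  obtain ⟨U, hU, hfU⟩ := f.2
  refine ⟨⟨a, U, hU, fun s hs g h => ⟨hφ ?_, hφ ?_, hφ ?_⟩⟩, ?_⟩
  · rw [ha, ha]; exact (hfU s hs g h).1
  · rw [ha, ha]; exact (hfU s hs g h).2.1
  · rw [Rep.hom_comm_apply, ha]; exact (hfU s hs g h).2.2
  · apply Subtype.ext
    funext x
    exact ha x

/-- An LC `3`-cochain of `B` killed by `ψ` comes from an LC `3`-cochain of `A`. -/
theorem exists_descent_C₃ (hφ : Function.Injective φ.hom)
    (hex : ∀ b, ψ.hom b = 0 ↔ ∃ a, φ.hom a = b)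
    (f : ↥(C₃ 𝒰 B)) (hf : (Mor.ofHom 𝒰 ψ).c₃ f = 0) :
    ∃ a : ↥(C₃ 𝒰 A), (Mor.ofHom 𝒰 φ).c₃ a = f := by
  have hf' : ∀ x, ψ.hom (f.1 x) = 0 := fun x =>
    congrFun (congrArg Subtype.val hf) x
  choose a ha using fun x => (hex (f.1 x)).1 (hf' x)
  obtain ⟨U, hU, hfU⟩ := f.2
  refine ⟨⟨a, U, hU, fun s hs g h j => ⟨hφ ?_, hφ ?_, hφ ?_, hφ ?_⟩⟩, ?_⟩
  · rw [ha, ha]; exact (hfU s hs g h j).1
  · rw [ha, ha]; exact (hfU s hs g h j).2.1
  · rw [ha, ha]; exact (hfU s hs g h j).2.2.1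
  · rw [Rep.hom_comm_apply, ha]; exact (hfU s hs g h j).2.2.2
  · apply Subtype.ext
    funext x
    exact ha x

/-- `p₄` of an injective coefficient map is injective. -/
theorem p₄_injective (hφ : Function.Injective φ.hom) :
    Function.Injective (Mor.ofHom 𝒰 φ).p₄ := by
  intro x y hxy
  funext g
  exact hφ (congrFun hxy g)

theorem c₃_injective (hφ : Function.Injective φ.hom) :
    Function.Injective (Mor.ofHom 𝒰 φ).c₃ := by
  intro x y hxy
  apply Subtype.ext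
  funext g
  exact hφ (congrFun (congrArg Subtype.val hxy) g)

/-- **Half-exactness in degree 3.** -/
theorem Vanish₃.of_ses (hφ : Function.Injective φ.hom) (hψ : Function.Surjective ψ.hom)
    (hex : ∀ b, ψ.hom b = 0 ↔ ∃ a, φ.hom a = b) (hB : IsUSmooth 𝒰 B)
    (hA : Vanish₃ 𝒰 A) (hC : Vanish₃ 𝒰 C) : Vanish₃ 𝒰 B := by
  intro f hf
  set α := Mor.ofHom 𝒰 φ with hα
  set β := Mor.ofHom 𝒰 ψ with hβ
  -- the image in `C` is a coboundary
  have h1 : dC₃ 𝒰 C (β.c₃ f) = 0 := by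
    have := LinearMap.congr_fun β.p₄_dC₃ f
    simp only [LinearMap.comp_apply] at this
    rw [← this, hf, map_zero]
  obtain ⟨c, hc⟩ := hC (β.c₃ f) h1
  obtain ⟨c', hc'⟩ := exists_lift_C₂ 𝒰 ψ hψ hB c
  -- correct `f`
  have h2 : β.c₃ (f - dC₂ 𝒰 B c') = 0 := by
    have := LinearMap.congr_fun β.c₃_dC₂ c'
    simp only [LinearMap.comp_apply] at this
    rw [map_sub, this, hc', hc, sub_self]
  obtain ⟨a, ha⟩ := exists_descent_C₃ 𝒰 φ ψ hφ hex (f - dC₂ 𝒰 B c') h2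
  have h3 : dC₃ 𝒰 A a = 0 := by
    apply p₄_injective 𝒰 φ hφ
    have := LinearMap.congr_fun α.p₄_dC₃ a
    simp only [LinearMap.comp_apply] at this
    rw [this, ha, map_sub, hf, dC₃_dC₂, sub_zero, map_zero]
  obtain ⟨a₂, ha₂⟩ := hA a h3
  refine ⟨c' + α.c₂ a₂, ?_⟩
  have h4 := LinearMap.congr_fun α.c₃_dC₂ a₂
  simp only [LinearMap.comp_apply] at h4
  rw [map_add, ← h4, ha₂, ha]
  abel

/-- **Half-exactness in degree 2.** -/
theorem Vanish₂.of_ses (hφ : Function.Injective φ.hom) (hψ : Function.Surjective ψ.hom)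
    (hex : ∀ b, ψ.hom b = 0 ↔ ∃ a, φ.hom a = b) (hB : IsUSmooth 𝒰 B)
    (hA : Vanish₂ 𝒰 A) (hC : Vanish₂ 𝒰 C) : Vanish₂ 𝒰 B := by
  intro f hf
  set α := Mor.ofHom 𝒰 φ with hα
  set β := Mor.ofHom 𝒰 ψ with hβ
  have h1 : dC₂ 𝒰 C (β.c₂ f) = 0 := by
    have := LinearMap.congr_fun β.c₃_dC₂ f
    simp only [LinearMap.comp_apply] at this
    rw [← this, hf, map_zero]
  obtain ⟨c, hc⟩ := hC (β.c₂ f) h1
  obtain ⟨c', hc'⟩ := exists_lift_C₁ 𝒰 ψ hψ hB c
  have h2 : β.c₂ (f - dC₁ 𝒰 B c') = 0 := by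
    have := LinearMap.congr_fun β.c₂_dC₁ c'
    simp only [LinearMap.comp_apply] at this
    rw [map_sub, this, hc', hc, sub_self]
  obtain ⟨a, ha⟩ := exists_descent_C₂ 𝒰 φ ψ hφ hex (f - dC₁ 𝒰 B c') h2
  have h3 : dC₂ 𝒰 A a = 0 := by
    apply c₃_injective 𝒰 φ hφ
    have := LinearMap.congr_fun α.c₃_dC₂ a
    simp only [LinearMap.comp_apply] at this
    rw [this, ha, map_sub, hf, dC₂_dC₁, sub_zero, map_zero]
  obtain ⟨a₁, ha₁⟩ := hA a h3
  refine ⟨c' + α.c₁ a₁, ?_⟩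
  have h4 := LinearMap.congr_fun α.c₂_dC₁ a₁
  simp only [LinearMap.comp_apply] at h4
  rw [map_add, ← h4, ha₁, ha]
  abel

end SES

/-! ### the dévissage for `k = ZMod p` -/

section Devissage

variable {p : ℕ} [hp : Fact p.Prime] {G : Type} [Group G] (𝒰 : NBasis G)

open Fermat.Agent.S55.Unipotent Fermat.Agent.S55.Formal.Summand
  Fermat.Agent.S55.Formal.SummandAdm

/-- The preimage in `G` of a Sylow `p`-subgroup of `G ⧸ U₀`. -/
theorem exists_sylow_preimage (U₀ : Subgroup G) [U₀.Normal] [U₀.FiniteIndex] :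
    ∃ P : Subgroup G, U₀ ≤ P ∧ P.FiniteIndex ∧ IsUnit ((P.index : ZMod p)) ∧
      ∀ g ∈ P, ∃ n : ℕ, g ^ (p ^ n) ∈ U₀ := by
  obtain ⟨Q⟩ : Nonempty (Sylow p (G ⧸ U₀)) := inferInstance
  refine ⟨(Q : Subgroup (G ⧸ U₀)).comap (QuotientGroup.mk' U₀), ?_, ?_, ?_, ?_⟩
  · intro s hs
    rw [Subgroup.mem_comap]
    have : QuotientGroup.mk' U₀ s = 1 := (QuotientGroup.eq_one_iff s).2 hs
    rw [this]
    exact Subgroup.one_mem _
  · refine ⟨?_⟩
    rw [Subgroup.index_comap_of_surjective _ (QuotientGroup.mk'_surjective U₀)]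
    exact Subgroup.FiniteIndex.index_ne_zero
  · rw [Subgroup.index_comap_of_surjective _ (QuotientGroup.mk'_surjective U₀)]
    rw [isUnit_iff_ne_zero, Ne, ZMod.natCast_eq_zero_iff]
    exact Q.not_dvd_index
  · intro g hg
    rw [Subgroup.mem_comap] at hg
    obtain ⟨n, hn⟩ := Q.isPGroup' ⟨QuotientGroup.mk' U₀ g, hg⟩
    refine ⟨n, ?_⟩
    have h1 : (QuotientGroup.mk' U₀ g) ^ (p ^ n) = 1 := by
      have := congrArg Subtype.val hn
      simpa using this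
    rw [← map_pow] at h1
    exact (QuotientGroup.eq_one_iff _).1 h1

/-- The induction: a property `V` of representations of `G` which holds for zero modules, is
stable under isomorphism and under extensions of finite-dimensional uniformly smooth modules, and
holds for `coind_P^G 𝔽_p`, holds for all `coind_P^G A`, `A` a finite-dimensional `P`-module on
which `U₀` acts trivially and `P` acts unipotently. -/
theorem coind_induction (V : Rep.{0, 0, 0} (ZMod p) G → Prop)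
    (hzero : ∀ N : Rep.{0, 0, 0} (ZMod p) G, Subsingleton N → V N)
    (hiso : ∀ (N N' : Rep.{0, 0, 0} (ZMod p) G), (N ≅ N') → V N' → V N)
    (hses : ∀ (A B C : Rep.{0, 0, 0} (ZMod p) G) (φ : A ⟶ B) (ψ : B ⟶ C),
      Function.Injective φ.hom → Function.Surjective ψ.hom →
      (∀ b, ψ.hom b = 0 ↔ ∃ a, φ.hom a = b) →
      IsUSmooth 𝒰 A → IsUSmooth 𝒰 B → IsUSmooth 𝒰 C →
      FiniteDimensional (ZMod p) A → FiniteDimensional (ZMod p) B → FiniteDimensional (ZMod p) C →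
      V A → V C → V B)
    (P U₀ : Subgroup G) (hU₀ : 𝒰.mem U₀) (hle : U₀ ≤ P)
    (hbase : V (Rep.coind P.subtype (Rep.trivial (ZMod p) P (ZMod p))))
    (A : Rep.{0, 0, 0} (ZMod p) P) [FiniteDimensional (ZMod p) A] (hA : IsPPower A.ρ)
    (hAtriv : ∀ (s : G) (hs : s ∈ U₀), A.ρ ⟨s, hle hs⟩ = 1) :
    V (Rep.coind P.subtype A) := by
  have hnorm : U₀.Normal := 𝒰.normal hU₀
  have hPfin : P.FiniteIndex := by
    have := 𝒰.finiteIndex hU₀
    exact Subgroup.finiteIndex_of_le hle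
  have hsmooth : ∀ B : Rep.{0, 0, 0} (ZMod p) P,
      (∀ (s : G) (hs : s ∈ U₀), B.ρ ⟨s, hle hs⟩ = 1) → IsUSmooth 𝒰 (Rep.coind P.subtype B) :=
    fun B hB => ⟨U₀, hU₀, fun s hs m => by
      rw [coind_ρ_eq_one_of_normal P U₀ hle B hB s hs]
      rfl⟩
  revert hAtriv
  refine Unipotent.induction_on
    (P := fun A : Rep.{0, 0, 0} (ZMod p) P =>
      (∀ (s : G) (hs : s ∈ U₀), A.ρ ⟨s, hle hs⟩ = 1) → V (Rep.coind P.subtype A))
    ?_ ?_ ?_ A hA
  · -- zero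
    intro A hsub _
    exact hzero _ ⟨fun a b => Subtype.ext (funext fun g => Subsingleton.elim _ _)⟩
  · -- trivial line
    intro A h1 htriv _
    obtain ⟨e⟩ := nonempty_coind_iso_of_finrank_eq_one P A h1 htriv
    exact hiso _ _ e hbase
  · -- extensions
    intro A B C φ ψ hφ hψ hex hfA hfC _ _ ihA ihC hBtriv
    have hAt : ∀ (s : G) (hs : s ∈ U₀), A.ρ ⟨s, hle hs⟩ = 1 := by
      intro s hs
      refine LinearMap.ext fun a => hφ ?_
      rw [Rep.hom_comm_apply, hBtriv s hs]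
      rfl
    have hCt : ∀ (s : G) (hs : s ∈ U₀), C.ρ ⟨s, hle hs⟩ = 1 := by
      intro s hs
      refine LinearMap.ext fun c => ?_
      obtain ⟨b, rfl⟩ := hψ c
      rw [← Rep.hom_comm_apply, hBtriv s hs]
      rfl
    have hfB : FiniteDimensional (ZMod p) B :=
      Module.Finite.of_exact (f := φ.hom.toLinearMap) (g := ψ.hom.toLinearMap)
        (fun b => hex b) hψ
    exact hses _ _ _ (Rep.coindMap P.subtype φ) (Rep.coindMap P.subtype ψ)
      (coindMap_injective P φ hφ) (coindMap_surjective P ψ hψ) (coindMap_exact P φ ψ hφ hex)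
      (hsmooth A hAt) (hsmooth B hBtriv) (hsmooth C hCt)
      (finite_coind P A) (finite_coind P B) (finite_coind P C) (ihA hAt) (ihC hCt)

/-- **Generic dévissage**: a property `V` of finite-dimensional uniformly smooth
`𝔽_p`-representations of `G` which holds for zero modules, passes to retracts, is stable under
extensions, and holds for the permutation modules `coind_P^G 𝔽_p` (`P` open), holds for all
finite-dimensional uniformly smooth `N`. -/
theorem devissage (V : Rep.{0, 0, 0} (ZMod p) G → Prop)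
    (hzero : ∀ N : Rep.{0, 0, 0} (ZMod p) G, Subsingleton N → V N)
    (hretract : ∀ (N N' : Rep.{0, 0, 0} (ZMod p) G) (i : N ⟶ N') (r : N' ⟶ N),
      (∀ n, r.hom (i.hom n) = n) → V N' → V N)
    (hses : ∀ (A B C : Rep.{0, 0, 0} (ZMod p) G) (φ : A ⟶ B) (ψ : B ⟶ C),
      Function.Injective φ.hom → Function.Surjective ψ.hom →
      (∀ b, ψ.hom b = 0 ↔ ∃ a, φ.hom a = b) →
      IsUSmooth 𝒰 A → IsUSmooth 𝒰 B → IsUSmooth 𝒰 C →
      FiniteDimensional (ZMod p) A → FiniteDimensional (ZMod p) B → FiniteDimensional (ZMod p) C →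
      V A → V C → V B)
    (hbase : ∀ P : Subgroup G, (∃ U, 𝒰.mem U ∧ U ≤ P) →
      V (Rep.coind P.subtype (Rep.trivial (ZMod p) P (ZMod p))))
    (N : Rep.{0, 0, 0} (ZMod p) G) [FiniteDimensional (ZMod p) N] (hN : IsUSmooth 𝒰 N) :
    V N := by
  obtain ⟨U₀, hU₀, hfix⟩ := hN
  have hnorm : U₀.Normal := 𝒰.normal hU₀
  have hfin : U₀.FiniteIndex := 𝒰.finiteIndex hU₀
  obtain ⟨P, hle, hPfin, hunit, hpow⟩ := exists_sylow_preimage (p := p) U₀
  have hρ : ∀ s ∈ U₀, N.ρ s = 1 := fun s hs => LinearMap.ext fun m => hfix s hs m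
  have hpp : IsPPower (Rep.res P.subtype N).ρ := by
    intro g
    obtain ⟨n, hn⟩ := hpow g g.2
    refine ⟨n, ?_⟩
    change (N.ρ (g : G)) ^ (p ^ n) = 1
    rw [← map_pow]
    exact hρ _ hn
  have hI : V (I P N) :=
    coind_induction 𝒰 V hzero
      (fun N N' e h => hretract N N' e.hom e.inv (fun n => Rep.inv_hom_apply _ _ e n) h) hses
      P U₀ hU₀ hle (hbase P ⟨U₀, hU₀, hle⟩) (Rep.res P.subtype N) hpp (fun s hs => hρ s hs)
  exact hretract _ _ (unit P N) (avg P N) (unit_avg_apply P N hunit) hI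

theorem vanish₃_of_subsingleton (N : Rep.{0, 0, 0} (ZMod p) G) (h : Subsingleton N) :
    Vanish₃ 𝒰 N := by
  intro f _
  refine ⟨0, ?_⟩
  apply Subtype.ext
  funext x
  exact Subsingleton.elim _ _

theorem vanish₂_of_subsingleton (N : Rep.{0, 0, 0} (ZMod p) G) (h : Subsingleton N) :
    Vanish₂ 𝒰 N := by
  intro f _
  refine ⟨0, ?_⟩
  apply Subtype.ext
  funext x
  exact Subsingleton.elim _ _

/-- **Dévissage of `Vanish₃`**: from the permutation modules `coind_P^G 𝔽_p`, `P` open, to all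
finite-dimensional uniformly smooth modules. -/
theorem vanish₃_of_base
    (hbase : ∀ P : Subgroup G, (∃ U, 𝒰.mem U ∧ U ≤ P) →
      Vanish₃ 𝒰 (Rep.coind P.subtype (Rep.trivial (ZMod p) P (ZMod p))))
    (N : Rep.{0, 0, 0} (ZMod p) G) [FiniteDimensional (ZMod p) N] (hN : IsUSmooth 𝒰 N) :
    Vanish₃ 𝒰 N :=
  devissage 𝒰 (Vanish₃ 𝒰) (vanish₃_of_subsingleton 𝒰)
    (fun _ _ i r hir h => Vanish₃.of_retract 𝒰 i r hir h)
    (fun _ _ _ φ ψ hφ hψ hex _ hB _ _ _ _ hA hC => Vanish₃.of_ses 𝒰 φ ψ hφ hψ hex hB hA hC)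
    hbase N hN

/-- **Dévissage of `Vanish₂`.** -/
theorem vanish₂_of_base
    (hbase : ∀ P : Subgroup G, (∃ U, 𝒰.mem U ∧ U ≤ P) →
      Vanish₂ 𝒰 (Rep.coind P.subtype (Rep.trivial (ZMod p) P (ZMod p))))
    (N : Rep.{0, 0, 0} (ZMod p) G) [FiniteDimensional (ZMod p) N] (hN : IsUSmooth 𝒰 N) :
    Vanish₂ 𝒰 N :=
  devissage 𝒰 (Vanish₂ 𝒰) (vanish₂_of_subsingleton 𝒰)
    (fun _ _ i r hir h => Vanish₂.of_retract 𝒰 i r hir h)
    (fun _ _ _ φ ψ hφ hψ hex _ hB _ _ _ _ hA hC => Vanish₂.of_ses 𝒰 φ ψ hφ hψ hex hB hA hC)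
    hbase N hN

end Devissage

end Fermat.Agent.S55.Formal.Vanish3
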