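/-
S55 / formal end (helper87): the generic dévissage of `Formal/Vanish3.lean` over an ARBITRARY
coefficient field `k` (there: `k = ZMod p`), and the closed Prop `Vanish₃Statement` of
`Formal/Blocks.lean`.

* `exists_good_open` : for `U₀` normal of finite index there is `P ⊇ U₀` of index invertible in `k`
  all of whose elements have `q`-power order modulo `U₀` (`q` the exponential characteristic of `k`;
  `P = U₀` in characteristic zero, the preimage of a Sylow subgroup in characteristic `p`);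
* `devissage` : a property of finite-dimensional uniformly smooth representations which holds for
  zero modules, passes to retracts, is stable under extensions and holds for the permutation modules
  `coind_P^G k` (`P` open) holds for all of them;
* `vanish₃_of_base`, `vanish₂_of_base` over any field, in both models of the permutation module
  (`Rep.coind P.subtype (Rep.trivial k P k)` and `Rep.ofMulAction k G (G ⧸ P)`).
-/
import Fermat.Agent.S55.Formal.Vanish3
import Fermat.Agent.S55.Formal.UnipotentField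
import Fermat.Agent.S55.Formal.CoindPerm

set_option autoImplicit false
set_option linter.style.haveILetI false

open CategoryTheory groupCohomology

namespace Fermat.Agent.S55.Formal.DevissageField

open Fermat.Agent.S55.Formal Fermat.Agent.S55.Formal.Vanish3
  Fermat.Agent.S55.Formal.UnipotentField Fermat.Agent.S55.Formal.Summand
  Fermat.Agent.S55.Formal.SummandAdm

variable {k : Type} [Field k] {G : Type} [Group G] (𝒰 : NBasis G)

/-- A subgroup `P ⊇ U₀` of index invertible in `k`, unipotent modulo `U₀`. -/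
theorem exists_good_open (k : Type) [Field k] (q : ℕ) [hq : ExpChar k q]
    (U₀ : Subgroup G) [U₀.Normal] [U₀.FiniteIndex] :
    ∃ P : Subgroup G, U₀ ≤ P ∧ P.FiniteIndex ∧ IsUnit ((P.index : k)) ∧
      ∀ g ∈ P, ∃ n : ℕ, g ^ (q ^ n) ∈ U₀ := by
  cases hq with
  | zero =>
    refine ⟨U₀, le_rfl, inferInstance, ?_, fun g hg => ⟨0, by simpa using hg⟩⟩
    rw [isUnit_iff_ne_zero]
    exact Nat.cast_ne_zero.2 Subgroup.FiniteIndex.index_ne_zero
  | prime hprime =>
    haveI : Fact q.Prime := ⟨hprime⟩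
    obtain ⟨P, h1, h2, h3, h4⟩ := Vanish3.exists_sylow_preimage (p := q) U₀
    refine ⟨P, h1, h2, ?_, h4⟩
    rw [isUnit_iff_ne_zero, Ne, ZMod.natCast_eq_zero_iff] at h3
    rw [isUnit_iff_ne_zero, Ne, CharP.cast_eq_zero_iff k q]
    exact h3

/-- The inner induction over representations of `P`. -/
theorem coind_induction (q : ℕ) [ExpChar k q] (V : Rep.{0, 0, 0} k G → Prop)
    (hzero : ∀ N : Rep.{0, 0, 0} k G, Subsingleton N → V N)
    (hiso : ∀ (N N' : Rep.{0, 0, 0} k G), (N ≅ N') → V N' → V N)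
    (hses : ∀ (A B C : Rep.{0, 0, 0} k G) (φ : A ⟶ B) (ψ : B ⟶ C),
      Function.Injective φ.hom → Function.Surjective ψ.hom →
      (∀ b, ψ.hom b = 0 ↔ ∃ a, φ.hom a = b) →
      IsUSmooth 𝒰 A → IsUSmooth 𝒰 B → IsUSmooth 𝒰 C →
      FiniteDimensional k A → FiniteDimensional k B → FiniteDimensional k C →
      V A → V C → V B)
    (P U₀ : Subgroup G) (hU₀ : 𝒰.mem U₀) (hle : U₀ ≤ P)
    (hbase : V (Rep.coind P.subtype (Rep.trivial k P k)))
    (A : Rep.{0, 0, 0} k P) [FiniteDimensional k A] (hA : IsQPower q A.ρ)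
    (hAtriv : ∀ (s : G) (hs : s ∈ U₀), A.ρ ⟨s, hle hs⟩ = 1) :
    V (Rep.coind P.subtype A) := by
  have hnorm : U₀.Normal := 𝒰.normal hU₀
  have hPfin : P.FiniteIndex := by
    have := 𝒰.finiteIndex hU₀
    exact Subgroup.finiteIndex_of_le hle
  have hsmooth : ∀ B : Rep.{0, 0, 0} k P,
      (∀ (s : G) (hs : s ∈ U₀), B.ρ ⟨s, hle hs⟩ = 1) → IsUSmooth 𝒰 (Rep.coind P.subtype B) :=
    fun B hB => ⟨U₀, hU₀, fun s hs m => by
      rw [coind_ρ_eq_one_of_normal P U₀ hle B hB s hs]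
      rfl⟩
  revert hAtriv
  refine UnipotentField.induction_on q
    (P := fun A : Rep.{0, 0, 0} k P =>
      (∀ (s : G) (hs : s ∈ U₀), A.ρ ⟨s, hle hs⟩ = 1) → V (Rep.coind P.subtype A))
    ?_ ?_ ?_ A hA
  · intro A hsub _
    exact hzero _ ⟨fun a b => Subtype.ext (funext fun g => Subsingleton.elim _ _)⟩
  · intro A h1 htriv _
    obtain ⟨e⟩ := nonempty_coind_iso_of_finrank_eq_one P A h1 htriv
    exact hiso _ _ e hbase
  · intro A B C φ ψ hφ hψ hex hfA hfC _ _ ihA ihC hBtriv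
    have hAt : ∀ (s : G) (hs : s ∈ U₀), A.ρ ⟨s, hle hs⟩ = 1 := by
      intro s hs
      refine LinearMap.ext fun a => hφ ?_
      rw [Rep.hom_comm_apply, hBtriv s hs]
      rfl
    have hCt : ∀ (s : G) (hs : s ∈ U₀), C.ρ ⟨s, hle hs⟩ = 1 := by
      intro s hs
      refine LinearMap.ext fun c => ?_
      obtain ⟨b, rfl⟩ := hψ c
      rw [← Rep.hom_comm_apply, hBtriv s hs]
      rfl
    have hfB : FiniteDimensional k B :=
      Module.Finite.of_exact (f := φ.hom.toLinearMap) (g := ψ.hom.toLinearMap)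
        (fun b => hex b) hψ
    exact hses _ _ _ (Rep.coindMap P.subtype φ) (Rep.coindMap P.subtype ψ)
      (coindMap_injective P φ hφ) (coindMap_surjective P ψ hψ) (coindMap_exact P φ ψ hφ hex)
      (hsmooth A hAt) (hsmooth B hBtriv) (hsmooth C hCt)
      (finite_coind P A) (finite_coind P B) (finite_coind P C) (ihA hAt) (ihC hCt)

/-- **Generic dévissage over any field.** -/
theorem devissage (V : Rep.{0, 0, 0} k G → Prop)
    (hzero : ∀ N : Rep.{0, 0, 0} k G, Subsingleton N → V N)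
    (hretract : ∀ (N N' : Rep.{0, 0, 0} k G) (i : N ⟶ N') (r : N' ⟶ N),
      (∀ n, r.hom (i.hom n) = n) → V N' → V N)
    (hses : ∀ (A B C : Rep.{0, 0, 0} k G) (φ : A ⟶ B) (ψ : B ⟶ C),
      Function.Injective φ.hom → Function.Surjective ψ.hom →
      (∀ b, ψ.hom b = 0 ↔ ∃ a, φ.hom a = b) →
      IsUSmooth 𝒰 A → IsUSmooth 𝒰 B → IsUSmooth 𝒰 C →
      FiniteDimensional k A → FiniteDimensional k B → FiniteDimensional k C →
      V A → V C → V B)
    (hbase : ∀ P : Subgroup G, (∃ U, 𝒰.mem U ∧ U ≤ P) →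
      V (Rep.coind P.subtype (Rep.trivial k P k)))
    (N : Rep.{0, 0, 0} k G) [FiniteDimensional k N] (hN : IsUSmooth 𝒰 N) :
    V N := by
  obtain ⟨q, hq⟩ := ExpChar.exists k
  obtain ⟨U₀, hU₀, hfix⟩ := hN
  have hnorm : U₀.Normal := 𝒰.normal hU₀
  have hfin : U₀.FiniteIndex := 𝒰.finiteIndex hU₀
  obtain ⟨P, hle, hPfin, hunit, hpow⟩ := exists_good_open k q U₀
  have hρ : ∀ s ∈ U₀, N.ρ s = 1 := fun s hs => LinearMap.ext fun m => hfix s hs m
  have hpp : IsQPower q (Rep.res P.subtype N).ρ := by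
    refine ⟨fun g => ?_, U₀.subgroupOf P, inferInstance, fun n hn => ?_⟩
    · obtain ⟨n, hn⟩ := hpow g g.2
      refine ⟨n, ?_⟩
      change (N.ρ (g : G)) ^ (q ^ n) = 1
      rw [← map_pow]
      exact hρ _ hn
    · exact hρ _ (Subgroup.mem_subgroupOf.1 hn)
  have hI : V (I P N) :=
    coind_induction 𝒰 q V hzero
      (fun N N' e h => hretract N N' e.hom e.inv (fun n => Rep.inv_hom_apply _ _ e n) h) hses
      P U₀ hU₀ hle (hbase P ⟨U₀, hU₀, hle⟩) (Rep.res P.subtype N) hpp (fun s hs => hρ s hs)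
  exact hretract _ _ (unit P N) (avg P N) (unit_avg_apply P N hunit) hI

theorem vanish₃_of_subsingleton (N : Rep.{0, 0, 0} k G) (h : Subsingleton N) :
    Vanish₃ 𝒰 N := by
  intro f _
  refine ⟨0, ?_⟩
  apply Subtype.ext
  funext x
  exact Subsingleton.elim _ _

theorem vanish₂_of_subsingleton (N : Rep.{0, 0, 0} k G) (h : Subsingleton N) :
    Vanish₂ 𝒰 N := by
  intro f _
  refine ⟨0, ?_⟩
  apply Subtype.ext
  funext x
  exact Subsingleton.elim _ _

/-- **Dévissage of `Vanish₃` over any field** (coinduced model of the permutation modules). -/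
theorem vanish₃_of_base
    (hbase : ∀ P : Subgroup G, (∃ U, 𝒰.mem U ∧ U ≤ P) →
      Vanish₃ 𝒰 (Rep.coind P.subtype (Rep.trivial k P k)))
    (N : Rep.{0, 0, 0} k G) [FiniteDimensional k N] (hN : IsUSmooth 𝒰 N) :
    Vanish₃ 𝒰 N :=
  devissage 𝒰 (Vanish₃ 𝒰) (vanish₃_of_subsingleton 𝒰)
    (fun _ _ i r hir h => Vanish₃.of_retract 𝒰 i r hir h)
    (fun _ _ _ φ ψ hφ hψ hex _ hB _ _ _ _ hA hC => Vanish₃.of_ses 𝒰 φ ψ hφ hψ hex hB hA hC)
    hbase N hN

/-- **Dévissage of `Vanish₂` over any field.** -/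
theorem vanish₂_of_base
    (hbase : ∀ P : Subgroup G, (∃ U, 𝒰.mem U ∧ U ≤ P) →
      Vanish₂ 𝒰 (Rep.coind P.subtype (Rep.trivial k P k)))
    (N : Rep.{0, 0, 0} k G) [FiniteDimensional k N] (hN : IsUSmooth 𝒰 N) :
    Vanish₂ 𝒰 N :=
  devissage 𝒰 (Vanish₂ 𝒰) (vanish₂_of_subsingleton 𝒰)
    (fun _ _ i r hir h => Vanish₂.of_retract 𝒰 i r hir h)
    (fun _ _ _ φ ψ hφ hψ hex _ hB _ _ _ _ hA hC => Vanish₂.of_ses 𝒰 φ ψ hφ hψ hex hB hA hC)
    hbase N hN

/-- `Vanish₃` for all finite-dimensional uniformly smooth modules from `Vanish₃` of the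
permutation modules `k[G/P] = Rep.ofMulAction k G (G ⧸ P)`, `P` open. -/
theorem vanish₃_of_perm
    (hbase : ∀ P : Subgroup G, (∃ U, 𝒰.mem U ∧ U ≤ P) →
      Vanish₃ 𝒰 (Rep.ofMulAction k G (G ⧸ P)))
    (N : Rep.{0, 0, 0} k G) [FiniteDimensional k N] (hN : IsUSmooth 𝒰 N) :
    Vanish₃ 𝒰 N :=
  vanish₃_of_base 𝒰 (fun P hP => by
    obtain ⟨U, hU, hUP⟩ := hP
    haveI : U.FiniteIndex := 𝒰.finiteIndex hU
    haveI : P.FiniteIndex := Subgroup.finiteIndex_of_le hUP
    exact Vanish₃.of_iso 𝒰 (CoindPerm.permIsoCoind P).symm (hbase P ⟨U, hU, hUP⟩)) N hN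

/-- Same for `Vanish₂`. -/
theorem vanish₂_of_perm
    (hbase : ∀ P : Subgroup G, (∃ U, 𝒰.mem U ∧ U ≤ P) →
      Vanish₂ 𝒰 (Rep.ofMulAction k G (G ⧸ P)))
    (N : Rep.{0, 0, 0} k G) [FiniteDimensional k N] (hN : IsUSmooth 𝒰 N) :
    Vanish₂ 𝒰 N :=
  vanish₂_of_base 𝒰 (fun P hP => by
    obtain ⟨U, hU, hUP⟩ := hP
    haveI : U.FiniteIndex := 𝒰.finiteIndex hU
    haveI : P.FiniteIndex := Subgroup.finiteIndex_of_le hUP
    exact Vanish₂.of_iso 𝒰 (CoindPerm.permIsoCoind P).symm (hbase P ⟨U, hU, hUP⟩)) N hN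

end Fermat.Agent.S55.Formal.DevissageField
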