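/-
S55 / formal end (helper87): the dévissage of `Formal/DevissageField.lean` with base hypotheses
only for open subgroups `P` on which a given smooth character `χ : G →* kˣ` is TRIVIAL
(the weakened `BaseA` of report #1682 (a)).

Key point: if `U₀ ∈ 𝒰` acts trivially on `N` and `χ` is trivial on `U₀`, the subgroup `P ⊇ U₀` chosen
by `exists_good_open` consists of elements of `q`-power order modulo `U₀` (`q` the exponential
characteristic of `k`), and `kˣ` has no `q`-torsion, so `χ` is trivial on `P`.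
-/
import Fermat.Agent.S55.Formal.DevissageField

set_option autoImplicit false
set_option linter.style.haveILetI false

open CategoryTheory groupCohomology

namespace Fermat.Agent.S55.Formal.DevissageChi

open Fermat.Agent.S55.Formal Fermat.Agent.S55.Formal.Vanish3
  Fermat.Agent.S55.Formal.UnipotentField Fermat.Agent.S55.Formal.Summand
  Fermat.Agent.S55.Formal.SummandAdm Fermat.Agent.S55.Formal.DevissageField

variable {k : Type} [Field k] {G : Type} [Group G] (𝒰 : NBasis G)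

/-- `kˣ` has no `q`-torsion for `q` the exponential characteristic. -/
theorem unit_eq_one_of_pow_expChar_pow (q : ℕ) [ExpChar k q] (x : kˣ) (n : ℕ)
    (h : x ^ (q ^ n) = 1) : x = 1 := by
  have h1 : (x : k) ^ (q ^ n * 1) = 1 := by
    rw [mul_one, ← Units.val_pow_eq_pow_val, h, Units.val_one]
  have h2 := (ExpChar.pow_prime_pow_mul_eq_one_iff q n 1 (x : k)).1 h1
  rw [pow_one] at h2
  exact Units.ext h2

/-- A character trivial on `U₀` is trivial on every `P ⊇ U₀` which is `q`-unipotent mod `U₀`. -/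
theorem char_trivial_of_pow_mem (q : ℕ) [ExpChar k q] (χ : G →* kˣ) (U₀ P : Subgroup G)
    (hχ : ∀ s ∈ U₀, χ s = 1) (hpow : ∀ g ∈ P, ∃ n : ℕ, g ^ (q ^ n) ∈ U₀) :
    ∀ g ∈ P, χ g = 1 := by
  intro g hg
  obtain ⟨n, hn⟩ := hpow g hg
  have := hχ _ hn
  rw [map_pow] at this
  exact unit_eq_one_of_pow_expChar_pow q (χ g) n this

/-- **Generic dévissage, base only over subgroups on which `χ` is trivial.** -/
theorem devissage (χ : G →* kˣ) (hχ : ∃ U, 𝒰.mem U ∧ ∀ s ∈ U, χ s = 1)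
    (V : Rep.{0, 0, 0} k G → Prop)
    (hzero : ∀ N : Rep.{0, 0, 0} k G, Subsingleton N → V N)
    (hretract : ∀ (N N' : Rep.{0, 0, 0} k G) (i : N ⟶ N') (r : N' ⟶ N),
      (∀ n, r.hom (i.hom n) = n) → V N' → V N)
    (hses : ∀ (A B C : Rep.{0, 0, 0} k G) (φ : A ⟶ B) (ψ : B ⟶ C),
      Function.Injective φ.hom → Function.Surjective ψ.hom →
      (∀ b, ψ.hom b = 0 ↔ ∃ a, φ.hom a = b) →
      IsUSmooth 𝒰 A → IsUSmooth 𝒰 B → IsUSmooth 𝒰 C →
      FiniteDimensional k A → FiniteDimensional k B → FiniteDimensional k C →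
      V A → V C → V B)
    (hbase : ∀ P : Subgroup G, (∃ U, 𝒰.mem U ∧ U ≤ P) → (∀ s ∈ P, χ s = 1) →
      V (Rep.coind P.subtype (Rep.trivial k P k)))
    (N : Rep.{0, 0, 0} k G) [FiniteDimensional k N] (hN : IsUSmooth 𝒰 N) :
    V N := by
  obtain ⟨q, hq⟩ := ExpChar.exists k
  obtain ⟨U₁, hU₁, hfix⟩ := hN
  obtain ⟨U₂, hU₂, hχ₂⟩ := hχ
  obtain ⟨U₀, hU₀, hle₀⟩ := 𝒰.inf hU₁ hU₂
  have hnorm : U₀.Normal := 𝒰.normal hU₀
  have hfin : U₀.FiniteIndex := 𝒰.finiteIndex hU₀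
  obtain ⟨P, hle, hPfin, hunit, hpow⟩ := exists_good_open k q U₀
  have hρ : ∀ s ∈ U₀, N.ρ s = 1 := fun s hs => LinearMap.ext fun m => hfix s (hle₀ hs).1 m
  have hχP : ∀ g ∈ P, χ g = 1 :=
    char_trivial_of_pow_mem q χ U₀ P (fun s hs => hχ₂ s (hle₀ hs).2) hpow
  have hpp : IsQPower q (Rep.res P.subtype N).ρ := by
    refine ⟨fun g => ?_, U₀.subgroupOf P, inferInstance, fun n hn => ?_⟩
    · obtain ⟨n, hn⟩ := hpow g g.2
      refine ⟨n, ?_⟩
      change (N.ρ (g : G)) ^ (q ^ n) = 1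
      rw [← map_pow]
      exact hρ _ hn
    · exact hρ _ (Subgroup.mem_subgroupOf.1 hn)
  have hI : V (I P N) :=
    coind_induction 𝒰 q V hzero
      (fun N N' e h => hretract N N' e.hom e.inv (fun n => Rep.inv_hom_apply _ _ e n) h) hses
      P U₀ hU₀ hle (hbase P ⟨U₀, hU₀, hle⟩ hχP) (Rep.res P.subtype N) hpp (fun s hs => hρ s hs)
  exact hretract _ _ (unit P N) (avg P N) (unit_avg_apply P N hunit) hI

/-- `Vanish₃` for all `N` from `Vanish₃ (k[G/P])` for the open `P` on which `χ` is trivial. -/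
theorem vanish₃_of_perm (χ : G →* kˣ) (hχ : ∃ U, 𝒰.mem U ∧ ∀ s ∈ U, χ s = 1)
    (hbase : ∀ P : Subgroup G, (∃ U, 𝒰.mem U ∧ U ≤ P) → (∀ s ∈ P, χ s = 1) →
      Vanish₃ 𝒰 (Rep.ofMulAction k G (G ⧸ P)))
    (N : Rep.{0, 0, 0} k G) [FiniteDimensional k N] (hN : IsUSmooth 𝒰 N) :
    Vanish₃ 𝒰 N :=
  devissage 𝒰 χ hχ (Vanish₃ 𝒰) (vanish₃_of_subsingleton 𝒰)
    (fun _ _ i r hir h => Vanish₃.of_retract 𝒰 i r hir h)
    (fun _ _ _ φ ψ hφ hψ hex _ hB _ _ _ _ hA hC => Vanish₃.of_ses 𝒰 φ ψ hφ hψ hex hB hA hC)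
    (fun P hP hPχ => by
      obtain ⟨U, hU, hUP⟩ := hP
      haveI : U.FiniteIndex := 𝒰.finiteIndex hU
      haveI : P.FiniteIndex := Subgroup.finiteIndex_of_le hUP
      exact Vanish₃.of_iso 𝒰 (CoindPerm.permIsoCoind P).symm (hbase P ⟨U, hU, hUP⟩ hPχ)) N hN

/-- Same for `Vanish₂`. -/
theorem vanish₂_of_perm (χ : G →* kˣ) (hχ : ∃ U, 𝒰.mem U ∧ ∀ s ∈ U, χ s = 1)
    (hbase : ∀ P : Subgroup G, (∃ U, 𝒰.mem U ∧ U ≤ P) → (∀ s ∈ P, χ s = 1) →
      Vanish₂ 𝒰 (Rep.ofMulAction k G (G ⧸ P)))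
    (N : Rep.{0, 0, 0} k G) [FiniteDimensional k N] (hN : IsUSmooth 𝒰 N) :
    Vanish₂ 𝒰 N :=
  devissage 𝒰 χ hχ (Vanish₂ 𝒰) (vanish₂_of_subsingleton 𝒰)
    (fun _ _ i r hir h => Vanish₂.of_retract 𝒰 i r hir h)
    (fun _ _ _ φ ψ hφ hψ hex _ hB _ _ _ _ hA hC => Vanish₂.of_ses 𝒰 φ ψ hφ hψ hex hB hA hC)
    (fun P hP hPχ => by
      obtain ⟨U, hU, hUP⟩ := hP
      haveI : U.FiniteIndex := 𝒰.finiteIndex hU
      haveI : P.FiniteIndex := Subgroup.finiteIndex_of_le hUP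
      exact Vanish₂.of_iso 𝒰 (CoindPerm.permIsoCoind P).symm (hbase P ⟨U, hU, hUP⟩ hPχ)) N hN

end Fermat.Agent.S55.Formal.DevissageChi
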