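/-
S55 / Formal / DualAssembly (helper32): the PURE LINEAR ALGEBRA skeleton of the formal duality
argument (helper76, report 1326).  Mathlib only; no cochains occur here.

* `mem_range_of_annihilates_ker`, `eq_zero_of_effaced` : the "effaceable δ-functor" step: a class
  `x ∈ H¹(M')` which dies in `H¹(Q')` and pairs to zero with all of `H²_c(M)` is zero, given that
  `φ³` is onto for `R` and into for `Q`.
* `bijective_of_injective_of_injective` : two injections `V ↪ W^*`, `W ↪ V^*` of finite-dimensional
  spaces are bijections (local `H¹`-duality by symmetry).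
* `finrank_ker_eq_finrank_ker` : the final numerics `dim Ш² = dim Ш¹` from the compatibility of the
  global pairing `H²_c(M) × H¹(M') → k` with the sum of the local pairings.
-/
import Mathlib

set_option autoImplicit false

open Module

namespace Fermat.Agent.S55.Formal.DualAssembly

variable {k : Type*} [Field k]

section Effaced

variable {T2M T3R T3Q H0Q H0R H1M H1Q : Type*}
  [AddCommGroup T2M] [Module k T2M] [AddCommGroup T3R] [Module k T3R]
  [AddCommGroup T3Q] [Module k T3Q] [AddCommGroup H0Q] [Module k H0Q]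
  [AddCommGroup H0R] [Module k H0R] [AddCommGroup H1M] [Module k H1M]
  [AddCommGroup H1Q] [Module k H1Q]

/-- If `φ³_R : T³(R) → H⁰(R')^*` is onto and `φ³_Q : T³(Q) → H⁰(Q')^*` is into, an element
`y ∈ H⁰(R')` pairing to zero with `ker (T³(R) → T³(Q))` comes from `H⁰(Q')`. -/
theorem mem_range_of_annihilates_ker
    (f : T3R →ₗ[k] T3Q) (g : H0Q →ₗ[k] H0R)
    (pR : T3R →ₗ[k] H0R →ₗ[k] k) (pQ : T3Q →ₗ[k] H0Q →ₗ[k] k)
    (hnat : ∀ t y, pQ (f t) y = pR t (g y))
    (hRsurj : Function.Surjective pR) (hQinj : Function.Injective pQ)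
    (y : H0R) (hy : ∀ t, f t = 0 → pR t y = 0) : y ∈ LinearMap.range g := by
  by_contra hmem
  obtain ⟨lam, hlam, hmap⟩ :=
    Submodule.exists_dual_map_eq_bot_of_notMem (R := k) hmem inferInstance
  obtain ⟨t, rfl⟩ := hRsurj lam
  have hft : f t = 0 := by
    apply hQinj
    rw [map_zero]
    ext y'
    rw [hnat, LinearMap.zero_apply]
    have : pR t (g y') ∈ (LinearMap.range g).map (pR t) :=
      Submodule.mem_map_of_mem (LinearMap.mem_range_self g y')
    rw [hmap] at this
    exact (Submodule.mem_bot k).1 this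
  exact hlam (hy t hft)

/-- **Effaced classes pair nontrivially.**  Rows
`T²(M) -δ→ T³(R) -f→ T³(Q)` and `H⁰(Q') -g→ H⁰(R') -δ'→ H¹(M') -h→ H¹(Q')` exact at the middle
spots; `pM z (δ' y) = ε • pR (δ z) y` with `ε ≠ 0`; `pQ (f t) y = pR t (g y)`; `φ³_R` onto and
`φ³_Q` into.  Then every `x ∈ H¹(M')` with `h x = 0` and `pM z x = 0` for all `z` vanishes. -/
theorem eq_zero_of_effaced
    (δ : T2M →ₗ[k] T3R) (f : T3R →ₗ[k] T3Q) (hδf : Function.Exact δ f)
    (g : H0Q →ₗ[k] H0R) (δ' : H0R →ₗ[k] H1M) (h : H1M →ₗ[k] H1Q)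
    (hgδ' : Function.Exact g δ') (hδ'h : Function.Exact δ' h)
    (pM : T2M →ₗ[k] H1M →ₗ[k] k) (pR : T3R →ₗ[k] H0R →ₗ[k] k) (pQ : T3Q →ₗ[k] H0Q →ₗ[k] k)
    (ε : k) (hε : ε ≠ 0) (hδcompat : ∀ z y, pM z (δ' y) = ε * pR (δ z) y)
    (hnat : ∀ t y, pQ (f t) y = pR t (g y))
    (hRsurj : Function.Surjective pR) (hQinj : Function.Injective pQ)
    (x : H1M) (hx : h x = 0) (hpair : ∀ z, pM z x = 0) : x = 0 := by
  obtain ⟨y, rfl⟩ := (hδ'h x).1 hx
  have hy : ∀ t, f t = 0 → pR t y = 0 := by
    intro t ht
    obtain ⟨z, rfl⟩ := (hδf t).1 ht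
    have := hpair z
    rw [hδcompat] at this
    exact (mul_eq_zero.1 this).resolve_left hε
  obtain ⟨y', rfl⟩ := mem_range_of_annihilates_ker f g pR pQ hnat hRsurj hQinj y hy
  exact (hgδ' (g y')).2 ⟨y', rfl⟩

end Effaced

section Symmetric

variable {V W : Type*} [AddCommGroup V] [Module k V] [AddCommGroup W] [Module k W]
  [FiniteDimensional k V] [FiniteDimensional k W]

/-- Two injections `V ↪ W^*` and `W ↪ V^*` between finite-dimensional spaces are bijections (and
the dimensions agree). -/
theorem bijective_of_injective_of_injective (a : V →ₗ[k] Dual k W) (b : W →ₗ[k] Dual k V)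
    (ha : Function.Injective a) (hb : Function.Injective b) :
    finrank k V = finrank k W ∧ Function.Bijective a ∧ Function.Bijective b := by
  have h1 : finrank k V ≤ finrank k W := by
    have := LinearMap.finrank_le_finrank_of_injective ha
    rwa [Subspace.dual_finrank_eq] at this
  have h2 : finrank k W ≤ finrank k V := by
    have := LinearMap.finrank_le_finrank_of_injective hb
    rwa [Subspace.dual_finrank_eq] at this
  have h : finrank k V = finrank k W := le_antisymm h1 h2
  refine ⟨h, ⟨ha, ?_⟩, ⟨hb, ?_⟩⟩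
  · exact (LinearMap.injective_iff_surjective_of_finrank_eq_finrank
      (by rw [Subspace.dual_finrank_eq, h])).1 ha
  · exact (LinearMap.injective_iff_surjective_of_finrank_eq_finrank
      (by rw [Subspace.dual_finrank_eq, h])).1 hb

/-- An injection `V ↪ W^*` between finite-dimensional spaces of the same dimension is bijective. -/
theorem bijective_of_injective_of_finrank_eq (a : V →ₗ[k] Dual k W)
    (ha : Function.Injective a) (h : finrank k V = finrank k W) : Function.Bijective a :=
  ⟨ha, (LinearMap.injective_iff_surjective_of_finrank_eq_finrank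
    (by rw [Subspace.dual_finrank_eq, h])).1 ha⟩

end Symmetric

section Numerics

variable {P T H2 P2 H P' : Type*}
  [AddCommGroup P] [Module k P] [AddCommGroup T] [Module k T] [AddCommGroup H2] [Module k H2]
  [AddCommGroup P2] [Module k P2] [AddCommGroup H] [Module k H] [AddCommGroup P'] [Module k P']

/-- `dim coker (P¹(M) → H²_c(M)) = dim ker (H¹(M') → P¹(M'))` from the two dualities and their
compatibility. -/
theorem finrank_quotient_range_eq_finrank_ker [FiniteDimensional k H] [FiniteDimensional k P']
    (a : P →ₗ[k] T) (b : H →ₗ[k] P')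
    (lam : P →ₗ[k] Dual k P') (iot : T →ₗ[k] Dual k H)
    (hlam : Function.Surjective lam) (hiot : Function.Bijective iot)
    (hcompat : ∀ y h, iot (a y) h = lam y (b h)) :
    finrank k (T ⧸ LinearMap.range a) = finrank k (LinearMap.ker b) := by
  -- transport along `iot`
  let e : T ≃ₗ[k] Dual k H := LinearEquiv.ofBijective iot hiot
  have hrange : (LinearMap.range a).map (e : T →ₗ[k] Dual k H) = LinearMap.range b.dualMap := by
    ext φ
    constructor
    · rintro ⟨t, ⟨y, rfl⟩, rfl⟩
      refine ⟨lam y, ?_⟩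
      ext h
      simp only [LinearMap.dualMap_apply]
      exact (hcompat y h).symm
    · rintro ⟨ψ, rfl⟩
      obtain ⟨y, rfl⟩ := hlam ψ
      refine ⟨a y, ⟨y, rfl⟩, ?_⟩
      ext h
      simp only [LinearMap.dualMap_apply]
      exact hcompat y h
  have e' : (T ⧸ LinearMap.range a) ≃ₗ[k] (Dual k H ⧸ LinearMap.range b.dualMap) :=
    Submodule.Quotient.equiv _ _ e hrange
  rw [e'.finrank_eq]
  have h1 := Submodule.finrank_quotient_add_finrank (LinearMap.range b.dualMap)
  have h2 := LinearMap.finrank_range_dualMap_eq_finrank_range b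
  have h3 := LinearMap.finrank_range_add_finrank_ker b
  have h4 : finrank k (Dual k H) = finrank k H := Subspace.dual_finrank_eq
  omega

/-- **The final numerics of Poitou–Tate.**  `P¹(M) -a→ H²_c(M) -c→ H²(M) -d→ P²(M)` exact at the
two middle spots, `b : H¹(M') → P¹(M')`, local duality `lam` (onto), global duality `iot`
(bijective), compatible.  Then `Ш²(M) = ker d` and `Ш¹(M') = ker b` have the same (finite)
dimension. -/
theorem finrank_ker_eq_finrank_ker [FiniteDimensional k H] [FiniteDimensional k P']
    (a : P →ₗ[k] T) (c : T →ₗ[k] H2) (d : H2 →ₗ[k] P2) (b : H →ₗ[k] P')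
    (hac : Function.Exact a c) (hcd : Function.Exact c d)
    (lam : P →ₗ[k] Dual k P') (iot : T →ₗ[k] Dual k H)
    (hlam : Function.Surjective lam) (hiot : Function.Bijective iot)
    (hcompat : ∀ y h, iot (a y) h = lam y (b h)) :
    FiniteDimensional k (LinearMap.ker d) ∧
      finrank k (LinearMap.ker d) = finrank k (LinearMap.ker b) := by
  have hT : FiniteDimensional k T :=
    FiniteDimensional.of_injective iot hiot.1
  have hker : LinearMap.ker d = LinearMap.range c := by
    ext x
    exact hcd x
  have hkerc : LinearMap.ker c = LinearMap.range a := by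
    ext x
    exact hac x
  have e : (T ⧸ LinearMap.range a) ≃ₗ[k] LinearMap.ker d := by
    rw [hker, ← hkerc]
    exact c.quotKerEquivRange
  refine ⟨e.finiteDimensional, ?_⟩
  rw [← e.finrank_eq]
  exact finrank_quotient_range_eq_finrank_ker a b lam iot hlam hiot hcompat

end Numerics

end Fermat.Agent.S55.Formal.DualAssembly
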