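import Mathlib
import Fermat.Prelude.Def_GroupCohomology_Selmer

/-!
# S55 / Formal: basic API of `Rep.dualTwist`  (`M' = Hom_k(M, k) ⊗ χ`)

* `dualTwistMap χ φ : B.dualTwist χ ⟶ A.dualTwist χ` for `φ : A ⟶ B` (transpose), with
  `dualTwistMap_id`, `dualTwistMap_comp` (contravariant), `_add`, `_zero`, `_smul`, `_neg`, `_sub`;
* `dualTwistMap_injective` (from surjective), and over a field `dualTwistMap_surjective` (from
  injective) and `dualTwistMap_exact` (exactness is preserved, arrows reversed);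
* `dualTwistIso χ e : B.dualTwist χ ≅ A.dualTwist χ` for `e : A ≅ B`;
* `evalHom χ M : M ⟶ (M.dualTwist χ).dualTwist χ` (biduality), natural (`evalHom_naturality`),
  and an iso `evalIso` when `M` is reflexive (e.g. finite-dimensional over a field);
* `resDualTwistIso f χ M : Rep.res f (M.dualTwist χ) ≅ (Rep.res f M).dualTwist (χ.comp f)`
  (identity on the underlying module).
-/

set_option autoImplicit false

open CategoryTheory Module

namespace Fermat.Agent.S55.Formal.DualTwistApi

section CommRing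

variable {k G : Type} [CommRing k] [Group G] (χ : G →* kˣ)

/-- the twisted dual action, evaluated. -/
theorem dualTwist_ρ_apply_apply (A : Rep.{0, 0, 0} k G) (g : G) (f : Module.Dual k A) (a : A) :
    (A.dualTwist χ).ρ g f a = (χ g : k) * f (A.ρ g⁻¹ a) := rfl

/-- The transpose `f ↦ f ∘ φ` of a morphism, as a morphism of twisted duals. -/
noncomputable def dualTwistMap {A B : Rep.{0, 0, 0} k G} (φ : A ⟶ B) :
    B.dualTwist χ ⟶ A.dualTwist χ :=
  Rep.ofHom (ρ := B.ρ.dual.twist χ) (σ := A.ρ.dual.twist χ)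
    ⟨φ.hom.toLinearMap.dualMap, fun g => by
      ext f a
      change (χ g : k) * f (B.ρ g⁻¹ (φ.hom a)) = (χ g : k) * f (φ.hom (A.ρ g⁻¹ a))
      rw [Rep.hom_comm_apply]⟩

@[simp] theorem dualTwistMap_apply {A B : Rep.{0, 0, 0} k G} (φ : A ⟶ B)
    (f : Module.Dual k B) (a : A) : (dualTwistMap χ φ).hom f a = f (φ.hom a) := rfl

theorem dualTwistMap_hom_toLinearMap {A B : Rep.{0, 0, 0} k G} (φ : A ⟶ B) :
    (dualTwistMap χ φ).hom.toLinearMap = φ.hom.toLinearMap.dualMap := rfl

theorem dualTwistMap_id (A : Rep.{0, 0, 0} k G) : dualTwistMap χ (𝟙 A) = 𝟙 (A.dualTwist χ) := by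
  apply Rep.hom_ext
  ext f a
  rfl

theorem dualTwistMap_comp {A B C : Rep.{0, 0, 0} k G} (φ : A ⟶ B) (ψ : B ⟶ C) :
    dualTwistMap χ (φ ≫ ψ) = dualTwistMap χ ψ ≫ dualTwistMap χ φ := by
  apply Rep.hom_ext
  ext f a
  rfl

theorem dualTwistMap_zero (A B : Rep.{0, 0, 0} k G) :
    dualTwistMap χ (0 : A ⟶ B) = 0 := by
  apply Rep.hom_ext
  ext f a
  change f ((0 : A ⟶ B).hom a) = 0
  rw [show (0 : A ⟶ B).hom a = 0 from rfl, map_zero]

theorem dualTwistMap_add {A B : Rep.{0, 0, 0} k G} (φ ψ : A ⟶ B) :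
    dualTwistMap χ (φ + ψ) = dualTwistMap χ φ + dualTwistMap χ ψ := by
  apply Rep.hom_ext
  ext f a
  change f ((φ + ψ).hom a) = f (φ.hom a) + f (ψ.hom a)
  rw [show (φ + ψ).hom a = φ.hom a + ψ.hom a from rfl, map_add]

theorem dualTwistMap_neg {A B : Rep.{0, 0, 0} k G} (φ : A ⟶ B) :
    dualTwistMap χ (-φ) = -dualTwistMap χ φ := by
  apply Rep.hom_ext
  ext f a
  change f ((-φ).hom a) = -f (φ.hom a)
  rw [show (-φ).hom a = -φ.hom a from rfl, map_neg]

theorem dualTwistMap_sub {A B : Rep.{0, 0, 0} k G} (φ ψ : A ⟶ B) :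
    dualTwistMap χ (φ - ψ) = dualTwistMap χ φ - dualTwistMap χ ψ := by
  rw [sub_eq_add_neg, dualTwistMap_add, dualTwistMap_neg, ← sub_eq_add_neg]

/-- transpose of a surjection is injective. -/
theorem dualTwistMap_injective {A B : Rep.{0, 0, 0} k G} (φ : A ⟶ B)
    (h : Function.Surjective φ.hom) : Function.Injective (dualTwistMap χ φ).hom :=
  LinearMap.dualMap_injective_of_surjective (f := φ.hom.toLinearMap) h

/-- An isomorphism induces an isomorphism of twisted duals. -/
noncomputable def dualTwistIso {A B : Rep.{0, 0, 0} k G} (e : A ≅ B) :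
    B.dualTwist χ ≅ A.dualTwist χ where
  hom := dualTwistMap χ e.hom
  inv := dualTwistMap χ e.inv
  hom_inv_id := by rw [← dualTwistMap_comp, e.inv_hom_id, dualTwistMap_id]
  inv_hom_id := by rw [← dualTwistMap_comp, e.hom_inv_id, dualTwistMap_id]

/-! ### Biduality -/

/-- The evaluation map `M ⟶ M''`. -/
noncomputable def evalHom (M : Rep.{0, 0, 0} k G) : M ⟶ (M.dualTwist χ).dualTwist χ :=
  Rep.ofHom (ρ := M.ρ) (σ := (M.dualTwist χ).ρ.dual.twist χ)
    ⟨Module.Dual.eval k M, fun g => by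
      ext m f
      change f (M.ρ g m) = (χ g : k) * ((χ g⁻¹ : k) * f (M.ρ g⁻¹⁻¹ m))
      rw [inv_inv, ← mul_assoc, ← Units.val_mul, ← map_mul, mul_inv_cancel, map_one, Units.val_one,
        one_mul]⟩

@[simp] theorem evalHom_apply (M : Rep.{0, 0, 0} k G) (m : M) (f : Module.Dual k M) :
    (evalHom χ M).hom m f = f m := rfl

theorem evalHom_naturality {A B : Rep.{0, 0, 0} k G} (φ : A ⟶ B) :
    evalHom χ A ≫ dualTwistMap χ (dualTwistMap χ φ) = φ ≫ evalHom χ B := by
  apply Rep.hom_ext
  ext a f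
  rfl

/-- Biduality is an isomorphism on reflexive modules (e.g. finite-dimensional over a field). -/
noncomputable def evalIso (M : Rep.{0, 0, 0} k G) [Module.IsReflexive k M] :
    M ≅ (M.dualTwist χ).dualTwist χ :=
  Rep.mkIso (ρ := M.ρ) (σ := (M.dualTwist χ).ρ.dual.twist χ)
    (Representation.Equiv.mk (Module.evalEquiv k M) (fun g => by
      ext m f
      change f (M.ρ g m) = (χ g : k) * ((χ g⁻¹ : k) * f (M.ρ g⁻¹⁻¹ m))
      rw [inv_inv, ← mul_assoc, ← Units.val_mul, ← map_mul, mul_inv_cancel, map_one, Units.val_one,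
        one_mul]))

@[simp] theorem evalIso_hom_apply (M : Rep.{0, 0, 0} k G) [Module.IsReflexive k M] (m : M)
    (f : Module.Dual k M) : (evalIso χ M).hom.hom m f = f m := rfl


/-! ### Invariants of the twisted dual = equivariant maps to `k(χ)` -/

/-- `f ∈ H⁰(G, M')` iff `f : M → k(χ)` is equivariant. -/
theorem dualTwist_fixed_iff (M : Rep.{0, 0, 0} k G) (f : Module.Dual k M) :
    (∀ g, (M.dualTwist χ).ρ g f = f) ↔ ∀ g a, f (M.ρ g a) = (χ g : k) * f a := by
  constructor
  · intro h g a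
    have h1 : (M.dualTwist χ).ρ g f (M.ρ g a) = f (M.ρ g a) := by rw [h g]
    rw [dualTwist_ρ_apply_apply] at h1
    have h2 : M.ρ g⁻¹ (M.ρ g a) = a := by
      rw [← Module.End.mul_apply, ← map_mul, inv_mul_cancel, map_one, Module.End.one_apply]
    rw [h2] at h1
    exact h1.symm
  · intro h g
    ext a
    rw [dualTwist_ρ_apply_apply]
    have := h g (M.ρ g⁻¹ a)
    rw [← Module.End.mul_apply, ← map_mul, mul_inv_cancel, map_one, Module.End.one_apply] at this
    exact this.symm

/-- the module `k(χ)` (`= μ_p` for the cyclotomic character). -/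
noncomputable abbrev kTwist : Rep.{0, 0, 0} k G := Rep.of ((Representation.trivial k G k).twist χ)

theorem kTwist_ρ_apply (g : G) (x : k) : (kTwist χ).ρ g x = (χ g : k) * x := rfl

/-- an invariant functional of `M'` as a morphism `M ⟶ k(χ)`. -/
noncomputable def homOfFixed (M : Rep.{0, 0, 0} k G) (f : Module.Dual k M)
    (hf : ∀ g, (M.dualTwist χ).ρ g f = f) : M ⟶ kTwist χ :=
  Rep.ofHom (ρ := M.ρ) (σ := (Representation.trivial k G k).twist χ)
    ⟨f, fun g => by
      ext a
      exact (dualTwist_fixed_iff χ M f).mp hf g a⟩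

@[simp] theorem homOfFixed_apply (M : Rep.{0, 0, 0} k G) (f : Module.Dual k M)
    (hf : ∀ g, (M.dualTwist χ).ρ g f = f) (a : M) : (homOfFixed χ M f hf).hom a = f a := rfl

/-- conversely a morphism `M ⟶ k(χ)` is an invariant functional of `M'`. -/
theorem fixed_of_hom (M : Rep.{0, 0, 0} k G) (φ : M ⟶ kTwist χ) (g : G) :
    (M.dualTwist χ).ρ g φ.hom.toLinearMap = φ.hom.toLinearMap :=
  (dualTwist_fixed_iff χ M φ.hom.toLinearMap).mpr (fun g a => Rep.hom_comm_apply φ g a) g

/-! ### Restriction -/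

/-- restriction commutes with twisted duals (identity on the underlying module). -/
noncomputable def resDualTwistIso {H : Type} [Group H] (f : H →* G) (M : Rep.{0, 0, 0} k G) :
    Rep.res f (M.dualTwist χ) ≅ (Rep.res f M).dualTwist (χ.comp f) :=
  Rep.mkIso (ρ := (Rep.res f (M.dualTwist χ)).ρ) (σ := (Rep.res f M).ρ.dual.twist (χ.comp f))
    (Representation.Equiv.mk (LinearEquiv.refl k (Module.Dual k M)) (fun h => by
      ext φ m
      change (χ (f h) : k) * φ (M.ρ ((f h)⁻¹) m) = (χ (f h) : k) * φ (M.ρ (f h⁻¹) m)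
      rw [map_inv f h]))

@[simp] theorem resDualTwistIso_hom_apply {H : Type} [Group H] (f : H →* G) (M : Rep.{0, 0, 0} k G)
    (φ : Module.Dual k M) : (resDualTwistIso χ f M).hom.hom φ = φ := rfl

end CommRing

section Field

variable {k G : Type} [Field k] [Group G] (χ : G →* kˣ)

/-- over a field, the transpose of an injection is surjective. -/
theorem dualTwistMap_surjective {A B : Rep.{0, 0, 0} k G} (φ : A ⟶ B)
    (h : Function.Injective φ.hom) : Function.Surjective (dualTwistMap χ φ).hom :=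
  LinearMap.dualMap_surjective_of_injective (f := φ.hom.toLinearMap) h

/-- over a field, `dualTwist` is exact (arrows reversed). -/
theorem dualTwistMap_exact {A B C : Rep.{0, 0, 0} k G} (φ : A ⟶ B) (ψ : B ⟶ C)
    (h : Function.Exact φ.hom ψ.hom) :
    Function.Exact (dualTwistMap χ ψ).hom (dualTwistMap χ φ).hom := by
  have h' : Function.Exact φ.hom.toLinearMap ψ.hom.toLinearMap := h
  rw [LinearMap.exact_iff] at h'
  change Function.Exact ψ.hom.toLinearMap.dualMap φ.hom.toLinearMap.dualMap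
  rw [LinearMap.exact_iff, LinearMap.ker_dualMap_eq_dualAnnihilator_range,
    LinearMap.range_dualMap_eq_dualAnnihilator_ker, h']

/-- a short exact sequence dualises to a short exact sequence. -/
theorem dualTwist_shortExact {A B C : Rep.{0, 0, 0} k G} (φ : A ⟶ B) (ψ : B ⟶ C)
    (hφ : Function.Injective φ.hom) (hex : Function.Exact φ.hom ψ.hom)
    (hψ : Function.Surjective ψ.hom) :
    Function.Injective (dualTwistMap χ ψ).hom ∧
      Function.Exact (dualTwistMap χ ψ).hom (dualTwistMap χ φ).hom ∧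
      Function.Surjective (dualTwistMap χ φ).hom :=
  ⟨dualTwistMap_injective χ ψ hψ, dualTwistMap_exact χ φ ψ hex, dualTwistMap_surjective χ φ hφ⟩

/-- finite-dimensionality is inherited. -/
instance (M : Rep.{0, 0, 0} k G) [FiniteDimensional k M] : FiniteDimensional k (M.dualTwist χ) :=
  inferInstanceAs (FiniteDimensional k (Module.Dual k M))

end Field

end Fermat.Agent.S55.Formal.DualTwistApi
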