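import Mathlib

/-!
# Plain linear algebra behind the duality devissage of S55 (helper76 #1326 route)

Everything here is about vector spaces over a field `k` and explicit linear maps; no group
cohomology.  Three blocks:

* `eq_zero_of_effaceable`: the "effaceable delta-functor" argument, abstractly.
* `exact_dualMap`, `injective_of_dual_ladder`, `surjective_of_dual_ladder`,
  `bijective_of_dual_ladder`: the five lemma for a ladder whose bottom row is the dual of an
  exact row and whose squares commute up to nonzero scalars (pairing form).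
* `kerEquivDualQuot`, `finrank_ker_eq_finrank_quot`, `finite_ker_iff_finite_quot`,
  `kerEquivQuotRange`, `finrank_ker_eq_finrank_ker`: the final count
  `dim ker (H¹(M') → P¹(M')) = dim coker (P¹(M) → H²_c(M)) = dim ker (H²(M) → P²(M))`.
-/

namespace Fermat.Agent.S55.Formal.DualityAlgebra

open Module

variable {k : Type*} [Field k]

section Basic

variable {V W : Type*} [AddCommGroup V] [Module k V] [AddCommGroup W] [Module k W]

/-- A vector killed by every functional vanishing on a subspace lies in the subspace. -/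
theorem mem_of_forall_dual_eq_zero (U : Submodule k V) (y : V)
    (h : ∀ ψ : Dual k V, (∀ u ∈ U, ψ u = 0) → ψ y = 0) : y ∈ U := by
  rw [← Subspace.dualAnnihilator_dualCoannihilator_eq (W := U), Submodule.mem_dualCoannihilator]
  intro ψ hψ
  exact h ψ (fun u hu => (Submodule.mem_dualAnnihilator ψ).1 hψ u hu)

theorem smul_injective_iff {c : k} (hc : c ≠ 0) (f : V →ₗ[k] W) :
    Function.Injective (c • f) ↔ Function.Injective f := by
  constructor
  · intro h x y hxy
    apply h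
    simp [hxy]
  · intro h x y hxy
    apply h
    have := congrArg (fun z => c⁻¹ • z) hxy
    simpa [smul_smul, inv_mul_cancel₀ hc] using this

theorem smul_surjective_iff {c : k} (hc : c ≠ 0) (f : V →ₗ[k] W) :
    Function.Surjective (c • f) ↔ Function.Surjective f := by
  constructor
  · intro h w
    obtain ⟨x, hx⟩ := h w
    exact ⟨c • x, by simpa using hx⟩
  · intro h w
    obtain ⟨x, hx⟩ := h (c⁻¹ • w)
    exact ⟨x, by simp [hx, smul_smul, mul_inv_cancel₀ hc]⟩

theorem smul_bijective_iff {c : k} (hc : c ≠ 0) (f : V →ₗ[k] W) :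
    Function.Bijective (c • f) ↔ Function.Bijective f := by
  unfold Function.Bijective
  rw [smul_injective_iff hc, smul_surjective_iff hc]

end Basic

section Effaceable

variable {H2M H3R H3Q H0Q H0R H1M : Type*}
  [AddCommGroup H2M] [Module k H2M] [AddCommGroup H3R] [Module k H3R]
  [AddCommGroup H3Q] [Module k H3Q] [AddCommGroup H0Q] [Module k H0Q]
  [AddCommGroup H0R] [Module k H0R] [AddCommGroup H1M] [Module k H1M]

/-- **Effaceability ⇒ injectivity of the cup-product map** (abstract form of helper76 #1326).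

Picture: `0 → R → Q → M → 0` and its dual `0 → M' → Q' → R' → 0`;
`H2M = H²_c(M) -δ→ H3R = H³_c(R) -i→ H3Q = H³_c(Q)` exact at `H3R`,
`H0Q = H⁰(Q') -p'→ H0R = H⁰(R') -δ'→ H1M = H¹(M')` a complex,
`φR`, `φQ` the top-degree duality maps (natural: `hnat`), `ι` the map to be shown injective,
compatible with the connecting maps up to a nonzero scalar (`hcompat`).
Then `ι` is injective on the image of `δ'`. -/
theorem eq_zero_of_effaceable
    (δ : H2M →ₗ[k] H3R) (i : H3R →ₗ[k] H3Q) (hex : ∀ z, i z = 0 → ∃ w, δ w = z)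
    (p' : H0Q →ₗ[k] H0R) (δ' : H0R →ₗ[k] H1M) (hδp : ∀ w, δ' (p' w) = 0)
    (φR : H3R →ₗ[k] Dual k H0R) (φQ : H3Q →ₗ[k] Dual k H0Q)
    (hφR : Function.Surjective φR) (hφQ : Function.Injective φQ)
    (hnat : ∀ z w, φQ (i z) w = φR z (p' w))
    (ι : H1M →ₗ[k] Dual k H2M) (ε : k) (hε : ε ≠ 0)
    (hcompat : ∀ z y, ι (δ' y) z = ε * φR (δ z) y)
    (y : H0R) (h : ι (δ' y) = 0) : δ' y = 0 := by
  have hy : y ∈ LinearMap.range p' := by
    apply mem_of_forall_dual_eq_zero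
    intro ψ hψ
    obtain ⟨z, rfl⟩ := hφR ψ
    have hiz : i z = 0 := by
      apply hφQ
      rw [map_zero]
      ext w
      rw [hnat]
      exact hψ _ ⟨w, rfl⟩
    obtain ⟨w, rfl⟩ := hex z hiz
    have h1 := hcompat w y
    rw [h] at h1
    simp only [LinearMap.zero_apply] at h1
    rcases mul_eq_zero.1 h1.symm with h2 | h2
    · exact absurd h2 hε
    · exact h2
  obtain ⟨w, rfl⟩ := hy
  exact hδp w

/-- Variant: the conclusion for an element `x` which is known to be a `δ'`-image. -/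
theorem eq_zero_of_effaceable'
    (δ : H2M →ₗ[k] H3R) (i : H3R →ₗ[k] H3Q) (hex : ∀ z, i z = 0 → ∃ w, δ w = z)
    (p' : H0Q →ₗ[k] H0R) (δ' : H0R →ₗ[k] H1M) (hδp : ∀ w, δ' (p' w) = 0)
    (φR : H3R →ₗ[k] Dual k H0R) (φQ : H3Q →ₗ[k] Dual k H0Q)
    (hφR : Function.Surjective φR) (hφQ : Function.Injective φQ)
    (hnat : ∀ z w, φQ (i z) w = φR z (p' w))
    (ι : H1M →ₗ[k] Dual k H2M) (ε : k) (hε : ε ≠ 0)
    (hcompat : ∀ z y, ι (δ' y) z = ε * φR (δ z) y)
    (x : H1M) (hx : ∃ y, δ' y = x) (h : ι x = 0) : x = 0 := by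
  obtain ⟨y, rfl⟩ := hx
  exact eq_zero_of_effaceable δ i hex p' δ' hδp φR φQ hφR hφQ hnat ι ε hε hcompat y h

end Effaceable

section DualExact

variable {A B C : Type*} [AddCommGroup A] [Module k A] [AddCommGroup B] [Module k B]
  [AddCommGroup C] [Module k C]

/-- Dualising is exact over a field. -/
theorem exact_dualMap (f : A →ₗ[k] B) (g : B →ₗ[k] C) (h : Function.Exact f g) :
    Function.Exact g.dualMap f.dualMap := by
  rw [LinearMap.exact_iff]
  rw [LinearMap.ker_dualMap_eq_dualAnnihilator_range, LinearMap.range_dualMap_eq_dualAnnihilator_ker,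
    (LinearMap.exact_iff.1 h)]

/-- If the left map `X → Y*` of a pairing is bijective and `Y` is finite-dimensional, the right
map `Y → X*` is bijective too. -/
theorem flip_bijective_of_bijective {X Y : Type*} [AddCommGroup X] [Module k X]
    [AddCommGroup Y] [Module k Y] [FiniteDimensional k Y]
    (B : X →ₗ[k] Y →ₗ[k] k) (hB : Function.Bijective B) : Function.Bijective B.flip :=
  LinearMap.flip_bijective_iff₂.2 hB

end DualExact

section Ladder

variable {A1 A2 A3 A4 A5 B1 B2 B3 B4 B5 : Type*}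
  [AddCommGroup A1] [Module k A1] [AddCommGroup A2] [Module k A2] [AddCommGroup A3] [Module k A3]
  [AddCommGroup A4] [Module k A4] [AddCommGroup A5] [Module k A5]
  [AddCommGroup B1] [Module k B1] [AddCommGroup B2] [Module k B2] [AddCommGroup B3] [Module k B3]
  [AddCommGroup B4] [Module k B4] [AddCommGroup B5] [Module k B5]

/-- Four lemma (mono part) for a ladder in PAIRING form:
top row `A1 -t1→ A2 -t2→ A3 -t3→ A4` exact, pre-dual bottom row `B4 -s3→ B3 -s2→ B2 -s1→ B1`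
exact, vertical maps `v_j : A_j → (B_j)*`, squares commuting up to nonzero scalars. -/
theorem injective_of_dual_ladder
    (t1 : A1 →ₗ[k] A2) (t2 : A2 →ₗ[k] A3) (t3 : A3 →ₗ[k] A4)
    (s1 : B2 →ₗ[k] B1) (s2 : B3 →ₗ[k] B2) (s3 : B4 →ₗ[k] B3)
    (v1 : A1 →ₗ[k] Dual k B1) (v2 : A2 →ₗ[k] Dual k B2) (v3 : A3 →ₗ[k] Dual k B3)
    (v4 : A4 →ₗ[k] Dual k B4)
    (ht1 : Function.Exact t1 t2) (ht2 : Function.Exact t2 t3)
    (hs1 : Function.Exact s2 s1)
    (ε1 ε2 ε3 : k) (hε1 : ε1 ≠ 0) (hε2 : ε2 ≠ 0) (hε3 : ε3 ≠ 0)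
    (hc1 : ∀ a b, v2 (t1 a) b = ε1 * v1 a (s1 b))
    (hc2 : ∀ a b, v3 (t2 a) b = ε2 * v2 a (s2 b))
    (hc3 : ∀ a b, v4 (t3 a) b = ε3 * v3 a (s3 b))
    (h1 : Function.Surjective v1) (h2 : Function.Injective v2) (h4 : Function.Injective v4) :
    Function.Injective v3 := by
  have key := LinearMap.injective_of_surjective_of_injective_of_injective
    t1 t2 t3 s1.dualMap s2.dualMap s3.dualMap
    ((ε1 * ε2 * ε3) • v1) ((ε2 * ε3) • v2) (ε3 • v3) v4
    (by
      ext a b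
      simp only [LinearMap.coe_comp, Function.comp_apply, LinearMap.smul_apply,
        LinearMap.dualMap_apply, smul_eq_mul, hc1]
      ring)
    (by
      ext a b
      simp only [LinearMap.coe_comp, Function.comp_apply, LinearMap.smul_apply,
        LinearMap.dualMap_apply, smul_eq_mul, hc2]
      ring)
    (by
      ext a b
      simp only [LinearMap.coe_comp, Function.comp_apply, LinearMap.smul_apply,
        LinearMap.dualMap_apply, smul_eq_mul, hc3])
    ht1 ht2 (exact_dualMap s2 s1 hs1)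
    ((smul_surjective_iff (mul_ne_zero (mul_ne_zero hε1 hε2) hε3) v1).2 h1)
    ((smul_injective_iff (mul_ne_zero hε2 hε3) v2).2 h2) h4
  exact (smul_injective_iff hε3 v3).1 key

/-- Four lemma (epi part) for a ladder in PAIRING form:
top row `A2 -t2→ A3 -t3→ A4 -t4→ A5` exact at `A4`, pre-dual bottom row
`B5 -s4→ B4 -s3→ B3 -s2→ B2` exact, vertical maps `v_j : A_j → (B_j)*`,
squares commuting up to nonzero scalars. -/
theorem surjective_of_dual_ladder
    (t2 : A2 →ₗ[k] A3) (t3 : A3 →ₗ[k] A4) (t4 : A4 →ₗ[k] A5)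
    (s2 : B3 →ₗ[k] B2) (s3 : B4 →ₗ[k] B3) (s4 : B5 →ₗ[k] B4)
    (v2 : A2 →ₗ[k] Dual k B2) (v3 : A3 →ₗ[k] Dual k B3)
    (v4 : A4 →ₗ[k] Dual k B4) (v5 : A5 →ₗ[k] Dual k B5)
    (ht3 : Function.Exact t3 t4)
    (hs2 : Function.Exact s3 s2) (hs3 : Function.Exact s4 s3)
    (ε2 ε3 ε4 : k) (hε2 : ε2 ≠ 0) (hε3 : ε3 ≠ 0) (hε4 : ε4 ≠ 0)
    (hc2 : ∀ a b, v3 (t2 a) b = ε2 * v2 a (s2 b))
    (hc3 : ∀ a b, v4 (t3 a) b = ε3 * v3 a (s3 b))
    (hc4 : ∀ a b, v5 (t4 a) b = ε4 * v4 a (s4 b))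
    (h2 : Function.Surjective v2) (h4 : Function.Surjective v4) (h5 : Function.Injective v5) :
    Function.Surjective v3 := by
  have key := LinearMap.surjective_of_surjective_of_surjective_of_injective
    t2 t3 t4 s2.dualMap s3.dualMap s4.dualMap
    ((ε2 * ε3 * ε4) • v2) ((ε3 * ε4) • v3) (ε4 • v4) v5
    (by
      ext a b
      simp only [LinearMap.coe_comp, Function.comp_apply, LinearMap.smul_apply,
        LinearMap.dualMap_apply, smul_eq_mul, hc2]
      ring)
    (by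
      ext a b
      simp only [LinearMap.coe_comp, Function.comp_apply, LinearMap.smul_apply,
        LinearMap.dualMap_apply, smul_eq_mul, hc3]
      ring)
    (by
      ext a b
      simp only [LinearMap.coe_comp, Function.comp_apply, LinearMap.smul_apply,
        LinearMap.dualMap_apply, smul_eq_mul, hc4])
    ht3 (exact_dualMap s3 s2 hs2) (exact_dualMap s4 s3 hs3)
    ((smul_surjective_iff (mul_ne_zero (mul_ne_zero hε2 hε3) hε4) v2).2 h2)
    ((smul_surjective_iff hε4 v4).2 h4) h5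
  exact (smul_surjective_iff (mul_ne_zero hε3 hε4) v3).1 key

/-- **Five lemma in pairing form.** Top row `A1 → A2 → A3 → A4 → A5` exact, pre-dual bottom row
`B5 -s4→ B4 -s3→ B3 -s2→ B2 -s1→ B1` exact, `v_j : A_j → (B_j)*` with
`v_{j+1} (t_j a) b = ε_j * v_j a (s_j b)`, `ε_j ≠ 0`. -/
theorem bijective_of_dual_ladder
    (t1 : A1 →ₗ[k] A2) (t2 : A2 →ₗ[k] A3) (t3 : A3 →ₗ[k] A4) (t4 : A4 →ₗ[k] A5)
    (s1 : B2 →ₗ[k] B1) (s2 : B3 →ₗ[k] B2) (s3 : B4 →ₗ[k] B3) (s4 : B5 →ₗ[k] B4)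
    (v1 : A1 →ₗ[k] Dual k B1) (v2 : A2 →ₗ[k] Dual k B2) (v3 : A3 →ₗ[k] Dual k B3)
    (v4 : A4 →ₗ[k] Dual k B4) (v5 : A5 →ₗ[k] Dual k B5)
    (ht1 : Function.Exact t1 t2) (ht2 : Function.Exact t2 t3) (ht3 : Function.Exact t3 t4)
    (hs1 : Function.Exact s2 s1) (hs2 : Function.Exact s3 s2) (hs3 : Function.Exact s4 s3)
    (ε1 ε2 ε3 ε4 : k) (hε1 : ε1 ≠ 0) (hε2 : ε2 ≠ 0) (hε3 : ε3 ≠ 0) (hε4 : ε4 ≠ 0)
    (hc1 : ∀ a b, v2 (t1 a) b = ε1 * v1 a (s1 b))
    (hc2 : ∀ a b, v3 (t2 a) b = ε2 * v2 a (s2 b))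
    (hc3 : ∀ a b, v4 (t3 a) b = ε3 * v3 a (s3 b))
    (hc4 : ∀ a b, v5 (t4 a) b = ε4 * v4 a (s4 b))
    (h1 : Function.Surjective v1) (h2 : Function.Bijective v2) (h4 : Function.Bijective v4)
    (h5 : Function.Injective v5) : Function.Bijective v3 :=
  ⟨injective_of_dual_ladder t1 t2 t3 s1 s2 s3 v1 v2 v3 v4 ht1 ht2 hs1 ε1 ε2 ε3 hε1 hε2 hε3
      hc1 hc2 hc3 h1 h2.1 h4.1,
   surjective_of_dual_ladder t2 t3 t4 s2 s3 s4 v2 v3 v4 v5 ht3 hs2 hs3 ε2 ε3 ε4 hε2 hε3 hε4
      hc2 hc3 hc4 h2.2 h4.2 h5⟩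

end Ladder

section Count

variable {H H' P P' H2 P2 : Type*}
  [AddCommGroup H] [Module k H] [AddCommGroup H'] [Module k H']
  [AddCommGroup P] [Module k P] [AddCommGroup P'] [Module k P']
  [AddCommGroup H2] [Module k H2] [AddCommGroup P2] [Module k P2]

/-- The kernel of `g` is the preimage under `ιH` of the annihilator of the range of `f`, when
`f` and `g` are adjoint (up to a nonzero scalar) for the pairings `ιH`, `ιP` and `ιP` is
injective. -/
theorem mem_ker_iff_of_adjoint (f : P →ₗ[k] H) (g : H' →ₗ[k] P')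
    (ιH : H' →ₗ[k] Dual k H) (ιP : P' →ₗ[k] Dual k P) (hP : Function.Injective ιP)
    (ε : k) (hε : ε ≠ 0) (adj : ∀ x y, ιH y (f x) = ε * ιP (g y) x) (y : H') :
    y ∈ LinearMap.ker g ↔ ιH y ∈ (LinearMap.range f).dualAnnihilator := by
  rw [LinearMap.mem_ker, Submodule.mem_dualAnnihilator]
  constructor
  · rintro hy _ ⟨x, rfl⟩
    rw [adj, hy, map_zero, LinearMap.zero_apply, mul_zero]
  · intro hy
    apply hP
    rw [map_zero]
    ext x
    have := hy (f x) ⟨x, rfl⟩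
    rw [adj] at this
    rcases mul_eq_zero.1 this with h | h
    · exact absurd h hε
    · simpa using h

/-- `ker g ≃ (H ⧸ range f)*` for adjoint `f`, `g` w.r.t. a perfect pairing `ιH` and a
right-nondegenerate pairing `ιP`.
(Application: `f : P¹(M) → H²_c(M)`, `g : H¹(M') → P¹(M')`; `ker g = Ш¹(M')`.) -/
noncomputable def kerEquivDualQuot (f : P →ₗ[k] H) (g : H' →ₗ[k] P')
    (ιH : H' →ₗ[k] Dual k H) (ιP : P' →ₗ[k] Dual k P)
    (hH : Function.Bijective ιH) (hP : Function.Injective ιP)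
    (ε : k) (hε : ε ≠ 0) (adj : ∀ x y, ιH y (f x) = ε * ιP (g y) x) :
    LinearMap.ker g ≃ₗ[k] Dual k (H ⧸ LinearMap.range f) :=
  let e : H' ≃ₗ[k] Dual k H := LinearEquiv.ofBijective ιH hH
  have hker : LinearMap.ker g = (LinearMap.range f).dualAnnihilator.comap e.toLinearMap := by
    ext y
    rw [mem_ker_iff_of_adjoint f g ιH ιP hP ε hε adj]
    rfl
  (LinearEquiv.ofEq _ _ hker).trans
    ((e.submoduleMap ((LinearMap.range f).dualAnnihilator.comap e.toLinearMap)).trans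
      ((LinearEquiv.ofEq _ _ (by
          rw [Submodule.map_comap_eq_of_surjective e.surjective])).trans
        (Submodule.dualQuotEquivDualAnnihilator (LinearMap.range f)).symm))

theorem finite_ker_iff_finite_quot (f : P →ₗ[k] H) (g : H' →ₗ[k] P')
    (ιH : H' →ₗ[k] Dual k H) (ιP : P' →ₗ[k] Dual k P)
    (hH : Function.Bijective ιH) (hP : Function.Injective ιP)
    (ε : k) (hε : ε ≠ 0) (adj : ∀ x y, ιH y (f x) = ε * ιP (g y) x) :
    Module.Finite k (LinearMap.ker g) ↔ Module.Finite k (H ⧸ LinearMap.range f) := by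
  rw [Module.Finite.equiv_iff (kerEquivDualQuot f g ιH ιP hH hP ε hε adj)]
  exact Module.finite_dual_iff k

theorem finrank_ker_eq_finrank_quot (f : P →ₗ[k] H) (g : H' →ₗ[k] P')
    (ιH : H' →ₗ[k] Dual k H) (ιP : P' →ₗ[k] Dual k P)
    (hH : Function.Bijective ιH) (hP : Function.Injective ιP)
    (ε : k) (hε : ε ≠ 0) (adj : ∀ x y, ιH y (f x) = ε * ιP (g y) x)
    [Module.Finite k (H ⧸ LinearMap.range f)] :
    finrank k (LinearMap.ker g) = finrank k (H ⧸ LinearMap.range f) := by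
  rw [(kerEquivDualQuot f g ιH ιP hH hP ε hε adj).finrank_eq, Subspace.dual_finrank_eq]

/-- For `P -f→ H -h→ H2 -ℓ→ P2` exact at `H` and `H2`: `ker ℓ ≃ H ⧸ range f`.
(Application: `P¹(M) → H²_c(M) → H²(M) → P²(M)`; `ker ℓ = Ш²(M)`.) -/
noncomputable def kerEquivQuotRange (f : P →ₗ[k] H) (h : H →ₗ[k] H2) (ℓ : H2 →ₗ[k] P2)
    (hfh : Function.Exact f h) (hhℓ : Function.Exact h ℓ) :
    LinearMap.ker ℓ ≃ₗ[k] H ⧸ LinearMap.range f :=
  ((LinearEquiv.ofEq _ _ (LinearMap.exact_iff.1 hhℓ)).trans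
    (h.quotKerEquivRange.symm)).trans
    (Submodule.quotEquivOfEq _ _ (LinearMap.exact_iff.1 hfh))

/-- **The final count**: `dim Ш²(M) = dim Ш¹(M')` in plain-module form. -/
theorem finrank_ker_eq_finrank_ker (f : P →ₗ[k] H) (h : H →ₗ[k] H2) (ℓ : H2 →ₗ[k] P2)
    (hfh : Function.Exact f h) (hhℓ : Function.Exact h ℓ) (g : H' →ₗ[k] P')
    (ιH : H' →ₗ[k] Dual k H) (ιP : P' →ₗ[k] Dual k P)
    (hH : Function.Bijective ιH) (hP : Function.Injective ιP)
    (ε : k) (hε : ε ≠ 0) (adj : ∀ x y, ιH y (f x) = ε * ιP (g y) x)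
    [Module.Finite k (LinearMap.ker ℓ)] :
    finrank k (LinearMap.ker g) = finrank k (LinearMap.ker ℓ) := by
  have : Module.Finite k (H ⧸ LinearMap.range f) :=
    Module.Finite.equiv (kerEquivQuotRange f h ℓ hfh hhℓ)
  rw [finrank_ker_eq_finrank_quot f g ιH ιP hH hP ε hε adj,
    (kerEquivQuotRange f h ℓ hfh hhℓ).finrank_eq]

theorem finite_ker_of_finite_ker (f : P →ₗ[k] H) (h : H →ₗ[k] H2) (ℓ : H2 →ₗ[k] P2)
    (hfh : Function.Exact f h) (hhℓ : Function.Exact h ℓ) (g : H' →ₗ[k] P')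
    (ιH : H' →ₗ[k] Dual k H) (ιP : P' →ₗ[k] Dual k P)
    (hH : Function.Bijective ιH) (hP : Function.Injective ιP)
    (ε : k) (hε : ε ≠ 0) (adj : ∀ x y, ιH y (f x) = ε * ιP (g y) x)
    [Module.Finite k (LinearMap.ker ℓ)] : Module.Finite k (LinearMap.ker g) := by
  have : Module.Finite k (H ⧸ LinearMap.range f) :=
    Module.Finite.equiv (kerEquivQuotRange f h ℓ hfh hhℓ)
  exact (finite_ker_iff_finite_quot f g ιH ιP hH hP ε hε adj).2 inferInstance

end Count

end Fermat.Agent.S55.Formal.DualityAlgebra
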