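import Mathlib
import Fermat.Agent.S55.Formal.Summand

/-!
# Effaceability of degree-one classes in `I U M = coind_U^G res_U^G M`

A 1-cocycle `f : G → M` vanishing on the subgroup `U` becomes a coboundary after composing with
the unit `M ⟶ I U M`: the primitive is `f` itself, viewed as an element of `I U M`.
-/

namespace Fermat.Agent.S55.Formal.Efface

universe u v w

open Fermat.Agent.S55.Formal.Summand

variable {k : Type u} {G : Type v} [CommRing k] [Group G] (U : Subgroup G)
  (M : Rep.{max v w} k G)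

/-- A 1-cocycle vanishing on `U` is `U`-equivariant on the left: `f (u * g) = u • f g`. -/
theorem cocycle_mul_left (f : G → M) (hf : ∀ g h : G, f (g * h) = M.ρ g (f h) + f g)
    (hU : ∀ u ∈ U, f u = 0) (u : U) (g : G) : f ((u : G) * g) = M.ρ (u : G) (f g) := by
  rw [hf, hU u u.2, add_zero]

/-- The primitive: the cocycle itself, as an element of `I U M`. -/
def prim (f : G → M) (hf : ∀ g h : G, f (g * h) = M.ρ g (f h) + f g)
    (hU : ∀ u ∈ U, f u = 0) : I U M :=
  ⟨f, fun u g => cocycle_mul_left U M f hf hU u g⟩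

@[simp] theorem prim_coe (f : G → M) (hf : ∀ g h : G, f (g * h) = M.ρ g (f h) + f g)
    (hU : ∀ u ∈ U, f u = 0) (g : G) : (prim U M f hf hU).1 g = f g := rfl

/-- **Effaceability**: `unit ∘ f = d⁰ (prim f)`. -/
theorem unit_apply_eq (f : G → M) (hf : ∀ g h : G, f (g * h) = M.ρ g (f h) + f g)
    (hU : ∀ u ∈ U, f u = 0) (γ : G) :
    (unit U M).hom (f γ) = (I U M).ρ γ (prim U M f hf hU) - prim U M f hf hU := by
  apply Subtype.ext
  funext g
  change M.ρ g (f γ) = f (g * γ) - f g
  rw [hf, add_sub_cancel_right]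

section LowDegree

variable {k G : Type u} [CommRing k] [Group G] (U : Subgroup G) (M : Rep.{u} k G)

/-- The same statement in terms of Mathlib's `d₀₁` (everything in one universe, as in
`groupCohomology` low degree). -/
theorem unit_comp_eq_d₀₁ (f : G → M) (hf : ∀ g h : G, f (g * h) = M.ρ g (f h) + f g)
    (hU : ∀ u ∈ U, f u = 0) :
    (fun γ => (unit U M).hom (f γ)) =
      (groupCohomology.d₀₁ (I.{u, u, u} U M)).hom (prim.{u, u, u} U M f hf hU) := by
  funext γ
  rw [unit_apply_eq.{u, u, u} U M f hf hU γ]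
  rfl

/-- A 1-cocycle of `M` in Mathlib's sense vanishing on `U` maps to a 1-coboundary of `I U M`. -/
theorem unit_comp_mem_coboundaries₁ (f : G → M) (hf : f ∈ groupCohomology.cocycles₁ M)
    (hU : ∀ u ∈ U, f u = 0) :
    (fun γ => (unit U M).hom (f γ)) ∈ groupCohomology.coboundaries₁ (I.{u, u, u} U M) := by
  have hf' : ∀ g h : G, f (g * h) = M.ρ g (f h) + f g :=
    (groupCohomology.mem_cocycles₁_iff f).1 hf
  rw [unit_comp_eq_d₀₁ U M f hf' hU]
  exact ⟨_, rfl⟩

end LowDegree

end Fermat.Agent.S55.Formal.Efface
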