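/-
S55 / Formal end, lemma row 147 (helper75): EXPLICIT EFFACEMENT of a degree-one class of the twisted
dual `M' = M.dualTwist χ` in the twisted dual of the cover `I = Fun(G/U₁, M) ↠ M`.

(The file name `Efface.lean` of the row was already taken by helper13's cochain-level lemma, hence
`EffaceDual.lean`.)

* `dualTwistMap χ π : B.dualTwist χ ⟶ A.dualTwist χ` for `π : A ⟶ B` (transpose `f ↦ f ∘ π`);
* `Ifun U M : Rep k G` : functions `G ⧸ U → M` with `(g f)(x) = g (f (g⁻¹ x))`, `sumHom U M : Ifun U M ⟶ M`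
  the (surjective) sum map;
* `exists_cocycle_level` : every class in `H1 𝒰 N` is the class of an LC cocycle of explicit level;
* `efface` : for every `y : H1 𝒰 (M.dualTwist χ)` there are `I`, `π : I ⟶ M` surjective with `I`
  uniformly smooth and finite-dimensional such that `y` dies in `H1 𝒰 (I.dualTwist χ)`.
-/
import Mathlib
import Fermat.Agent.S55.Formal.LC
import Fermat.Prelude.Def_GroupCohomology_Selmer

set_option autoImplicit false

open CategoryTheory groupCohomology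

namespace Fermat.Agent.S55.Formal.EffaceDual

open Fermat.Agent.S55.Formal

variable {k : Type} [Field k] {G : Type} [Group G]

/-! ### the transpose -/

/-- The transpose `B' ⟶ A'`, `f ↦ f ∘ π`, of a morphism `π : A ⟶ B` (`X' = X.dualTwist χ`). -/
noncomputable def dualTwistMap (χ : G →* kˣ) {A B : Rep.{0, 0, 0} k G} (π : A ⟶ B) :
    B.dualTwist χ ⟶ A.dualTwist χ :=
  Rep.ofHom ⟨(π.hom.toLinearMap).dualMap, fun g => LinearMap.ext fun f => by
    apply LinearMap.ext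
    intro a
    show (χ g : k) • f (B.ρ g⁻¹ (π.hom a)) = (χ g : k) • f (π.hom (A.ρ g⁻¹ a))
    rw [Rep.hom_comm_apply]⟩

@[simp] lemma dualTwistMap_apply (χ : G →* kˣ) {A B : Rep.{0, 0, 0} k G} (π : A ⟶ B)
    (f : B.dualTwist χ) (a : A) :
    ((dualTwistMap χ π).hom f : Module.Dual k A) a = (f : Module.Dual k B) (π.hom a) := rfl

/-! ### the cover `Fun(G/U, M) ↠ M` -/

section Cover

variable (U : Subgroup G) (M : Rep.{0, 0, 0} k G)

/-- The diagonal action on functions `G ⧸ U → M`: `(g f)(x) = g (f (g⁻¹ x))`. -/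
def funRho : Representation k G ((G ⧸ U) → M) where
  toFun g :=
    { toFun := fun f x => M.ρ g (f (g⁻¹ • x))
      map_add' := fun f f' => funext fun x => by simp
      map_smul' := fun c f => funext fun x => by simp }
  map_one' := by
    apply LinearMap.ext
    intro f
    funext x
    simp
  map_mul' g h := by
    apply LinearMap.ext
    intro f
    funext x
    simp [mul_smul]

@[simp] lemma funRho_apply (g : G) (f : (G ⧸ U) → M) (x : G ⧸ U) :
    funRho U M g f x = M.ρ g (f (g⁻¹ • x)) := rfl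

/-- `I = Fun(G ⧸ U, M)` as a representation. -/
noncomputable abbrev Ifun : Rep.{0, 0, 0} k G := Rep.of (funRho U M)

variable [Fintype (G ⧸ U)]

/-- The sum map `Fun(G ⧸ U, M) → M`. -/
def sumLin : ((G ⧸ U) → M) →ₗ[k] M := ∑ x : G ⧸ U, LinearMap.proj x

@[simp] lemma sumLin_apply (f : (G ⧸ U) → M) : sumLin U M f = ∑ x : G ⧸ U, f x := by
  simp [sumLin]

lemma sumLin_equivariant (g : G) (f : (G ⧸ U) → M) :
    sumLin U M (funRho U M g f) = M.ρ g (sumLin U M f) := by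
  rw [sumLin_apply, sumLin_apply, map_sum]
  simp only [funRho_apply]
  exact Equiv.sum_comp (MulAction.toPerm g⁻¹) fun x => M.ρ g (f x)

/-- The sum map as a morphism of representations. -/
noncomputable def sumHom : Ifun U M ⟶ M :=
  Rep.ofHom ⟨sumLin U M, fun g => LinearMap.ext fun f => sumLin_equivariant U M g f⟩

@[simp] lemma sumHom_apply (f : Ifun U M) :
    (sumHom U M).hom f = ∑ x : G ⧸ U, (f : (G ⧸ U) → M) x := sumLin_apply U M f

lemma sumHom_surjective : Function.Surjective (sumHom U M).hom := by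
  classical
  intro m
  refine ⟨(Pi.single (QuotientGroup.mk 1 : G ⧸ U) m : (G ⧸ U) → M), ?_⟩
  rw [sumHom_apply]
  simp

end Cover


/-! ### smoothness and finiteness of the cover -/

section Smooth

variable (𝒰 : NBasis G) (U : Subgroup G) (M : Rep.{0, 0, 0} k G)

/-- A normal subgroup acts trivially on its own quotient. -/
lemma smul_quot_eq_of_mem [U.Normal] {s : G} (hs : s ∈ U) (x : G ⧸ U) : s • x = x := by
  induction x using QuotientGroup.induction_on with
  | H g =>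
    show ((s * g : G) : G ⧸ U) = (g : G ⧸ U)
    rw [QuotientGroup.eq]
    have h : (s * g)⁻¹ * g = g⁻¹ * s⁻¹ * g := by group
    rw [h]
    exact (inferInstance : U.Normal).conj_mem' s⁻¹ (U.inv_mem hs) g

lemma isUSmooth_Ifun (hU : 𝒰.mem U) (hM : IsUSmooth 𝒰 M) : IsUSmooth 𝒰 (Ifun U M) := by
  obtain ⟨V, hV, hVM⟩ := hM
  obtain ⟨W, hW, hWle⟩ := 𝒰.inf hU hV
  have : U.Normal := 𝒰.normal hU
  refine ⟨W, hW, fun s hs f => ?_⟩
  funext x
  show M.ρ s ((f : (G ⧸ U) → M) (s⁻¹ • x)) = (f : (G ⧸ U) → M) x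
  rw [hVM s (hWle hs).2, smul_quot_eq_of_mem U (U.inv_mem (hWle hs).1)]

lemma finite_Ifun [Finite (G ⧸ U)] [Module.Finite k M] : Module.Finite k (Ifun U M) :=
  (inferInstance : Module.Finite k ((G ⧸ U) → M))

/-- The twisted dual of a uniformly smooth module is uniformly smooth if `χ` is smooth. -/
lemma isUSmooth_dualTwist (χ : G →* kˣ) (hχ : ∃ U, 𝒰.mem U ∧ ∀ s ∈ U, χ s = 1)
    (hM : IsUSmooth 𝒰 M) : IsUSmooth 𝒰 (M.dualTwist χ) := by
  obtain ⟨V, hV, hVM⟩ := hM
  obtain ⟨V', hV', hχ'⟩ := hχ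
  obtain ⟨W, hW, hWle⟩ := 𝒰.inf hV hV'
  refine ⟨W, hW, fun s hs f => ?_⟩
  rw [Rep.dualTwist_ρ_apply, hχ' s (hWle hs).2, Units.val_one, one_smul]
  apply LinearMap.ext
  intro m
  show (f : Module.Dual k M) (M.ρ s⁻¹ m) = (f : Module.Dual k M) m
  rw [hVM s⁻¹ (V.inv_mem (hWle hs).1)]

end Smooth

/-! ### the level of a class -/

/-- Every class in `H1 𝒰 N` is the class of an LC cocycle, with an explicit level `U ∈ 𝒰`. -/
theorem exists_cocycle_level {k : Type} [CommRing k] (𝒰 : NBasis G) (N : Rep.{0, 0, 0} k G)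
    (y : H1 𝒰 N) :
    ∃ (c : ↥(C₁ 𝒰 N)) (hc : dC₁ 𝒰 N c = 0) (U : Subgroup G), 𝒰.mem U ∧ y = Hmid.of c hc ∧
      (∀ s ∈ U, ∀ g, (c : G → N) (g * s) = (c : G → N) g ∧
        N.ρ s ((c : G → N) g) = (c : G → N) g) ∧
      ∀ g h, (c : G → N) (g * h) = N.ρ g ((c : G → N) h) + (c : G → N) g := by
  obtain ⟨c, hc, rfl⟩ := Hmid.exists_of y
  obtain ⟨U, hU, hlev⟩ := c.2
  refine ⟨c, hc, U, hU, rfl, hlev, fun g h => ?_⟩
  have h1 := congrArg (fun z : ↥(C₂ 𝒰 N) => (z : G × G → N) (g, h)) hc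
  simp only [dC₁_coe, d₁₂_hom_apply, ZeroMemClass.coe_zero, Pi.zero_apply] at h1
  rw [sub_add_eq_add_sub, sub_eq_zero] at h1
  exact h1.symm


/-! ### the primitive and the key identity -/

section Key

variable (U : Subgroup G) [Fintype (G ⧸ U)] (χ : G →* kˣ) (M : Rep.{0, 0, 0} k G)

/-- The primitive `F f = - ∑_{x = gU} (c g) (f x)`. -/
noncomputable def prim (c : G → Module.Dual k M) : Module.Dual k ((G ⧸ U) → M) :=
  - ∑ x : G ⧸ U, (c x.out).comp (LinearMap.proj x)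

lemma prim_apply (c : G → Module.Dual k M) (f : (G ⧸ U) → M) :
    prim U M c f = - ∑ x : G ⧸ U, c x.out (f x) := by
  simp [prim]

omit [Fintype (G ⧸ U)] in
lemma c_out (c : G → Module.Dual k M) (hinv : ∀ s ∈ U, ∀ g, c (g * s) = c g) (g : G) :
    c ((g : G ⧸ U)).out = c g := by
  obtain ⟨h, hh⟩ := QuotientGroup.mk_out_eq_mul U g
  rw [hh, hinv _ h.2]

omit [Fintype (G ⧸ U)] in
lemma c_smul_out (c : G → Module.Dual k M) (hinv : ∀ s ∈ U, ∀ g, c (g * s) = c g) (g : G)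
    (x : G ⧸ U) : c (g • x).out = c (g * x.out) := by
  have hx : g • x = ((g * x.out : G) : G ⧸ U) := by
    conv_lhs => rw [← QuotientGroup.out_eq' x]
    rfl
  rw [hx, c_out U M c hinv]

/-- **Key identity**: `c g ∘ Σ = g • F - F` on `Fun(G ⧸ U, M)`. -/
lemma key (c : G → Module.Dual k M) (hinv : ∀ s ∈ U, ∀ g, c (g * s) = c g)
    (hcoc : ∀ g h, c (g * h) = (χ g : k) • (c h).comp (M.ρ g⁻¹) + c g)
    (g : G) (f : (G ⧸ U) → M) :
    c g (∑ x : G ⧸ U, f x) = (χ g : k) • prim U M c (funRho U M g⁻¹ f) - prim U M c f := by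
  have h1 : ∀ x : G ⧸ U, (χ g : k) • c x.out (M.ρ g⁻¹ (f (g • x))) =
      c (g • x).out (f (g • x)) - c g (f (g • x)) := by
    intro x
    rw [c_smul_out U M c hinv, hcoc g x.out]
    simp
  rw [prim_apply, prim_apply, smul_neg, Finset.smul_sum]
  simp only [funRho_apply, inv_inv]
  have e1 : ∑ x : G ⧸ U, c (g • x).out (f (g • x)) = ∑ y : G ⧸ U, c y.out (f y) :=
    Equiv.sum_comp (MulAction.toPerm g) fun y => c y.out (f y)
  have e2 : ∑ x : G ⧸ U, c g (f (g • x)) = ∑ y : G ⧸ U, c g (f y) :=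
    Equiv.sum_comp (MulAction.toPerm g) fun y => c g (f y)
  rw [Finset.sum_congr rfl fun x _ => h1 x, Finset.sum_sub_distrib, e1, e2, map_sum]
  abel

end Key

/-! ### the effacement theorem -/

/-- **Effacement** (row 147): every class `y ∈ H¹(G, M')`, `M' = M.dualTwist χ`, dies in
`H¹(G, I')` for a finite-dimensional uniformly smooth cover `π : I ↠ M`. -/
theorem efface (𝒰 : NBasis G) (χ : G →* kˣ) (hχ : ∃ U, 𝒰.mem U ∧ ∀ s ∈ U, χ s = 1)
    (M : Rep.{0, 0, 0} k G) (hM : IsUSmooth 𝒰 M) [FiniteDimensional k M]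
    (y : H1 𝒰 (M.dualTwist χ)) :
    ∃ (I : Rep.{0, 0, 0} k G) (π : I ⟶ M), IsUSmooth 𝒰 I ∧ FiniteDimensional k I ∧
      Function.Surjective π.hom ∧ (Mor.ofHom 𝒰 (dualTwistMap χ π)).h1 y = 0 := by
  obtain ⟨c, hc, U, hU, rfl, hlev, hcoc⟩ := exists_cocycle_level 𝒰 (M.dualTwist χ) y
  have := 𝒰.finiteIndex hU
  let _ : Fintype (G ⧸ U) := Fintype.ofFinite _
  have hI : IsUSmooth 𝒰 (Ifun U M) := isUSmooth_Ifun 𝒰 U M hU hM
  refine ⟨Ifun U M, sumHom U M, hI, finite_Ifun U M, sumHom_surjective U M, ?_⟩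
  have hI' : IsUSmooth 𝒰 ((Ifun U M).dualTwist χ) := isUSmooth_dualTwist 𝒰 (Ifun U M) χ hχ hI
  set α := Mor.ofHom 𝒰 (dualTwistMap χ (sumHom U M)) with hα
  have hb' : dC₁ 𝒰 ((Ifun U M).dualTwist χ) (α.c₁ c) = 0 := by
    have := LinearMap.congr_fun α.c₂_dC₁ c
    simp only [LinearMap.comp_apply] at this
    rw [← this, hc, map_zero]
  rw [show α.h1 (Hmid.of c hc) = Hmid.of (α.c₁ c) hb' from rfl, Hmid.of_eq_zero_iff]
  let c' : G → Module.Dual k M := fun g => ((c : G → M.dualTwist χ) g : Module.Dual k M)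
  have hF : (prim U M c' : (Ifun U M).dualTwist χ) ∈ C₀ 𝒰 ((Ifun U M).dualTwist χ) := by
    rw [hI'.C₀_eq_top]; exact Submodule.mem_top
  refine ⟨⟨prim U M c', hF⟩, Subtype.ext (funext fun g => ?_)⟩
  show ((Ifun U M).dualTwist χ).ρ g (prim U M c') - prim U M c' =
    (dualTwistMap χ (sumHom U M)).hom ((c : G → M.dualTwist χ) g)
  apply LinearMap.ext
  intro f
  have hk := key U χ M c' (fun s hs g => (hlev s hs g).1) (fun g h => hcoc g h) g f
  rw [Rep.dualTwist_ρ_apply]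
  show (χ g : k) • prim U M c' (funRho U M g⁻¹ f) - prim U M c' f = c' g ((sumHom U M).hom f)
  rw [sumHom_apply, hk]


/-- Any morphism `π' : B' ⟶ A'` acting as the transpose of `π` is `dualTwistMap χ π`. -/
lemma eq_dualTwistMap (χ : G →* kˣ) {A B : Rep.{0, 0, 0} k G} (π : A ⟶ B)
    (π' : B.dualTwist χ ⟶ A.dualTwist χ)
    (h : ∀ (f : B.dualTwist χ) (a : A),
      ((π'.hom f : Module.Dual k A) a) = (f : Module.Dual k B) (π.hom a)) :
    π' = dualTwistMap χ π := by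
  apply Rep.hom_ext
  ext f a
  exact h f a

/-- **Effacement**, stated for an arbitrary model `π'` of the transpose of `π` (so that it can be
combined with any other definition of the functor `dualTwist` on morphisms). -/
theorem efface' (𝒰 : NBasis G) (χ : G →* kˣ) (hχ : ∃ U, 𝒰.mem U ∧ ∀ s ∈ U, χ s = 1)
    (M : Rep.{0, 0, 0} k G) (hM : IsUSmooth 𝒰 M) [FiniteDimensional k M]
    (y : H1 𝒰 (M.dualTwist χ)) :
    ∃ (I : Rep.{0, 0, 0} k G) (π : I ⟶ M), IsUSmooth 𝒰 I ∧ FiniteDimensional k I ∧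
      Function.Surjective π.hom ∧
      ∀ π' : M.dualTwist χ ⟶ I.dualTwist χ,
        (∀ (f : M.dualTwist χ) (a : I),
          ((π'.hom f : Module.Dual k I) a) = (f : Module.Dual k M) (π.hom a)) →
        (Mor.ofHom 𝒰 π').h1 y = 0 := by
  obtain ⟨I, π, h1, h2, h3, h4⟩ := efface 𝒰 χ hχ M hM y
  refine ⟨I, π, h1, h2, h3, fun π' hπ' => ?_⟩
  rw [eq_dualTwistMap χ π π' hπ']
  exact h4


end Fermat.Agent.S55.Formal.EffaceDual
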