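/-
S55 / Formal end, lemma row 147 (helper75): the effacement theorem of `EffaceDual.lean` restated with
helper29's `DualTwistApi.dualTwistMap` (the two transposes are the same map).
-/
import Fermat.Agent.S55.Formal.EffaceDual
import Fermat.Agent.S55.Formal.DualTwistApi

set_option autoImplicit false

open CategoryTheory groupCohomology

namespace Fermat.Agent.S55.Formal.EffaceDualApi

open Fermat.Agent.S55.Formal

variable {k : Type} [Field k] {G : Type} [Group G]

/-- The two transposes agree. -/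
theorem dualTwistMap_eq (χ : G →* kˣ) {A B : Rep.{0, 0, 0} k G} (π : A ⟶ B) :
    DualTwistApi.dualTwistMap χ π = EffaceDual.dualTwistMap χ π :=
  EffaceDual.eq_dualTwistMap χ π _ fun _ _ => rfl

/-- **Effacement** (row 147) in the vocabulary of `DualTwistApi`. -/
theorem efface (𝒰 : NBasis G) (χ : G →* kˣ) (hχ : ∃ U, 𝒰.mem U ∧ ∀ s ∈ U, χ s = 1)
    (M : Rep.{0, 0, 0} k G) (hM : IsUSmooth 𝒰 M) [FiniteDimensional k M]
    (y : H1 𝒰 (M.dualTwist χ)) :
    ∃ (I : Rep.{0, 0, 0} k G) (π : I ⟶ M), IsUSmooth 𝒰 I ∧ FiniteDimensional k I ∧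
      Function.Surjective π.hom ∧ (Mor.ofHom 𝒰 (DualTwistApi.dualTwistMap χ π)).h1 y = 0 := by
  obtain ⟨I, π, h1, h2, h3, h4⟩ := EffaceDual.efface 𝒰 χ hχ M hM y
  exact ⟨I, π, h1, h2, h3, by rw [dualTwistMap_eq]; exact h4⟩

end Fermat.Agent.S55.Formal.EffaceDualApi
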