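/-
S55 / Formal / EvalPair (lemmas row 155; helper45, second seat).

The evaluation pairing `N × N' → k(χ)`, `N' = tw N χ = Hom_k(N, k) ⊗ χ`:

* `evalPair N χ : N →ₗ[k] (tw N χ) →ₗ[k] (mu χ)`, `(n, f) ↦ f n`, with its equivariance in the two
  predicates in use (`CupLeibniz.IsEquivariant` of helper41, `CupWindow.Equivariant` / `CupLC.Equi`
  of helper33);
* adjointness with the transpose `DualTwistApi.dualTwistMap` (helper29);
* `H⁰(tw N χ) = Hom_G(N, k(χ))`: `homOfH0`, `h0OfHom`, naturality, linearity;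
* the dual of a coefficient short exact sequence is a coefficient short exact sequence
  (`isCoefSES_dual`);
* biduality is compatible with the pairings (`evalPair_evalHom`);
* restriction along `r : Γ →* G` (`evalPair_res`, `res_mu`, `resPairing_evalPair`).
-/
import Fermat.Agent.S55.Formal.Blocks
import Fermat.Agent.S55.Formal.DualTwistApi
import Fermat.Agent.S55.Formal.CupLeibniz
import Fermat.Agent.S55.Formal.CupWindow
import Fermat.Agent.S55.Formal.CoefLES
import Fermat.Agent.S55.Formal.PermBasis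
import Fermat.Agent.S55.Formal.DeltaCompat

set_option autoImplicit false

open CategoryTheory Module

namespace Fermat.Agent.S55.Formal.EvalPair

open Fermat.Agent.S55.Formal Fermat.Agent.S55.Formal.DualTwistApi

variable {k : Type} [Field k] {G : Type} [Group G]

section Pairing

variable (N : Rep.{0, 0, 0} k G) (χ : G →* kˣ)

/-- **The evaluation pairing** `N × N' → k(χ)`, `(n, f) ↦ f n`. -/
noncomputable def evalPair : N →ₗ[k] (tw N χ) →ₗ[k] (mu χ) :=
  Module.Dual.eval k N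

@[simp] theorem evalPair_apply (n : N) (f : tw N χ) :
    evalPair N χ n f = (f : Module.Dual k N) n := rfl

/-- the action on `N' = tw N χ`, evaluated. -/
theorem tw_ρ_apply (g : G) (f : tw N χ) (n : N) :
    ((tw N χ).ρ g f : Module.Dual k N) n = (χ g : k) * (f : Module.Dual k N) (N.ρ g⁻¹ n) := rfl

/-- the action on `k(χ)`. -/
theorem mu_ρ_apply' (g : G) (c : k) : (mu χ).ρ g c = (χ g : k) * c := rfl

/-- `evalPair` is `G`-equivariant (helper41's predicate). -/
theorem isEquivariant_evalPair : CupLeibniz.IsEquivariant (evalPair N χ) := by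
  intro g n f
  change (χ g : k) * (f : Module.Dual k N) (N.ρ g⁻¹ (N.ρ g n)) = (χ g : k) * (f : Module.Dual k N) n
  have h : N.ρ g⁻¹ (N.ρ g n) = n := by
    rw [← Module.End.mul_apply, ← map_mul, inv_mul_cancel, map_one, Module.End.one_apply]
  rw [h]

/-- `evalPair` is `G`-equivariant (helper33's predicate). -/
theorem equivariant_evalPair :
    CupWindow.Equivariant N.ρ (tw N χ).ρ (mu χ).ρ (evalPair N χ) :=
  fun g n f => (isEquivariant_evalPair N χ g n f).symm

/-- the pairing is non-degenerate on the right: `f` is determined by its values. -/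
theorem evalPair_right_injective (f f' : tw N χ) (h : ∀ n, evalPair N χ n f = evalPair N χ n f') :
    f = f' :=
  LinearMap.ext (f := (f : Module.Dual k N)) (g := (f' : Module.Dual k N)) h

/-- the pairing is non-degenerate on the left (we are over a field). -/
theorem evalPair_left_injective (n n' : N) (h : ∀ f, evalPair N χ n f = evalPair N χ n' f) :
    n = n' := by
  have h0 : n - n' = 0 := by
    rw [← Module.forall_dual_apply_eq_zero_iff k (n - n')]
    intro f
    have h1 : f n = f n' := h f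
    rw [map_sub, h1, sub_self]
  exact sub_eq_zero.mp h0

end Pairing

section Adjoint

variable (χ : G →* kˣ)

/-- **Adjointness**: `⟨φ n, f⟩ = ⟨n, φᵗ f⟩`. -/
theorem evalPair_dualTwistMap {N₁ N₂ : Rep.{0, 0, 0} k G} (φ : N₁ ⟶ N₂) (n : N₁) (f : tw N₂ χ) :
    evalPair N₂ χ (φ.hom n) f = evalPair N₁ χ n ((dualTwistMap χ φ).hom f) := rfl

/-- **Biduality** is compatible with the pairings: `⟨f, ev n⟩_{N'} = ⟨n, f⟩_N`. -/
theorem evalPair_evalHom (N : Rep.{0, 0, 0} k G) (n : N) (f : tw N χ) :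
    evalPair (tw N χ) χ f ((evalHom χ N).hom n) = evalPair N χ n f := rfl

/-- restriction: the evaluation pairing of `Rep.res r N` is that of `N` (the twisted dual of the
restriction is the restriction of the twisted dual, `DualTwistApi.resDualTwistIso`). -/
theorem evalPair_res {Γ : Type} [Group Γ] (r : Γ →* G) (N : Rep.{0, 0, 0} k G) (n : N)
    (f : Module.Dual k N) :
    evalPair (Rep.res r N) (χ.comp r) n ((resDualTwistIso χ r N).hom.hom f) =
      evalPair N χ n f := rfl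

end Adjoint

/-! ### `H⁰(N') = Hom_G(N, k(χ))` -/

section H0

variable (𝒰 : NBasis G) (N : Rep.{0, 0, 0} k G) (χ : G →* kˣ)

/-- an element of `H⁰(tw N χ)` is a fixed functional. -/
theorem h0_fixed (y : ↥(H0 𝒰 (tw N χ))) (g : G) :
    (tw N χ).ρ g ((y : ↥(C₀ 𝒰 (tw N χ))) : tw N χ) = ((y : ↥(C₀ 𝒰 (tw N χ))) : tw N χ) := by
  have h := y.2
  rw [LinearMap.mem_ker] at h
  have h1 : ((dC₀ 𝒰 (tw N χ) y.1 : ↥(C₁ 𝒰 (tw N χ))) : G → tw N χ) g = 0 := by
    rw [h]; rfl
  rw [dC₀_coe, groupCohomology.d₀₁_hom_apply] at h1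
  exact sub_eq_zero.mp h1

/-- **an invariant of `N'` as a morphism `N ⟶ k(χ)`**. -/
noncomputable def homOfH0 (y : ↥(H0 𝒰 (tw N χ))) : N ⟶ mu χ :=
  homOfFixed χ N ((y : ↥(C₀ 𝒰 (tw N χ))) : tw N χ) (h0_fixed 𝒰 N χ y)

@[simp] theorem homOfH0_apply (y : ↥(H0 𝒰 (tw N χ))) (n : N) :
    (homOfH0 𝒰 N χ y).hom n = evalPair N χ n ((y : ↥(C₀ 𝒰 (tw N χ))) : tw N χ) := rfl

/-- **a morphism `N ⟶ k(χ)` as an invariant of `N'`** (no smoothness needed: the functional is
fixed by all of `G`). -/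
noncomputable def h0OfHom (φ : N ⟶ mu χ) : ↥(H0 𝒰 (tw N χ)) :=
  ⟨⟨(φ.hom.toLinearMap : Module.Dual k N), ⊤, 𝒰.top, fun s _ => fixed_of_hom χ N φ s⟩, by
    rw [LinearMap.mem_ker]
    apply Subtype.ext
    rw [dC₀_coe]
    funext g
    rw [groupCohomology.d₀₁_hom_apply]
    exact sub_eq_zero.mpr (fixed_of_hom χ N φ g)⟩

@[simp] theorem h0OfHom_coe (φ : N ⟶ mu χ) :
    (((h0OfHom 𝒰 N χ φ : ↥(H0 𝒰 (tw N χ))) : ↥(C₀ 𝒰 (tw N χ))) : tw N χ) =
      (φ.hom.toLinearMap : Module.Dual k N) := rfl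

theorem homOfH0_h0OfHom (φ : N ⟶ mu χ) : homOfH0 𝒰 N χ (h0OfHom 𝒰 N χ φ) = φ := by
  apply Rep.hom_ext
  ext n
  rfl

theorem h0OfHom_homOfH0 (y : ↥(H0 𝒰 (tw N χ))) : h0OfHom 𝒰 N χ (homOfH0 𝒰 N χ y) = y := by
  apply Subtype.ext
  apply Subtype.ext
  rfl

/-- `H⁰(N') ≃ Hom_G(N, k(χ))`. -/
noncomputable def h0EquivHom : ↥(H0 𝒰 (tw N χ)) ≃ (N ⟶ mu χ) where
  toFun := homOfH0 𝒰 N χ
  invFun := h0OfHom 𝒰 N χ
  left_inv := h0OfHom_homOfH0 𝒰 N χ
  right_inv := homOfH0_h0OfHom 𝒰 N χ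

theorem homOfH0_injective : Function.Injective (homOfH0 𝒰 N χ) :=
  (h0EquivHom 𝒰 N χ).injective

theorem homOfH0_surjective : Function.Surjective (homOfH0 𝒰 N χ) :=
  (h0EquivHom 𝒰 N χ).surjective

theorem homOfH0_add (y y' : ↥(H0 𝒰 (tw N χ))) :
    homOfH0 𝒰 N χ (y + y') = homOfH0 𝒰 N χ y + homOfH0 𝒰 N χ y' := by
  apply Rep.hom_ext
  ext n
  rfl

theorem homOfH0_smul (c : k) (y : ↥(H0 𝒰 (tw N χ))) :
    homOfH0 𝒰 N χ (c • y) = c • homOfH0 𝒰 N χ y := by
  apply Rep.hom_ext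
  ext n
  rfl

theorem homOfH0_zero : homOfH0 𝒰 N χ 0 = 0 := by
  apply Rep.hom_ext
  ext n
  rfl

/-- `y = 0` iff the associated morphism vanishes. -/
theorem homOfH0_eq_zero_iff (y : ↥(H0 𝒰 (tw N χ))) : homOfH0 𝒰 N χ y = 0 ↔ y = 0 := by
  constructor
  · intro h
    apply homOfH0_injective 𝒰 N χ
    rw [h, homOfH0_zero]
  · rintro rfl
    exact homOfH0_zero 𝒰 N χ

variable {N}

/-- **Naturality**: `homOfH0 (φᵗ y) = φ ≫ homOfH0 y`. -/
theorem homOfH0_naturality {N₁ N₂ : Rep.{0, 0, 0} k G} (φ : N₁ ⟶ N₂) (y : ↥(H0 𝒰 (tw N₂ χ))) :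
    homOfH0 𝒰 N₁ χ ((Mor.ofHom 𝒰 (dualTwistMap χ φ)).h0 y) = φ ≫ homOfH0 𝒰 N₂ χ y := by
  apply Rep.hom_ext
  ext n
  rfl

/-- pairing with an invariant `y` of `N'` is the morphism `homOfH0 y` (the form in which
`cup30` with an invariant becomes a push-forward, `(P-inv)` of the formal end). -/
theorem evalPair_h0 (y : ↥(H0 𝒰 (tw N χ))) (n : N) :
    evalPair N χ n ((y : ↥(C₀ 𝒰 (tw N χ))) : tw N χ) = (homOfH0 𝒰 N χ y).hom n := rfl

end H0

/-! ### smoothness, finiteness, dual short exact sequences -/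

section Smooth

variable {𝒰 : NBasis G} (χ : G →* kˣ)

/-- `N` uniformly smooth, `χ` smooth ⇒ `N'` uniformly smooth. -/
theorem isUSmooth_tw {N : Rep.{0, 0, 0} k G} (hN : IsUSmooth 𝒰 N)
    (hχ : ∃ U, 𝒰.mem U ∧ ∀ s ∈ U, χ s = 1) : IsUSmooth 𝒰 (tw N χ) :=
  PermBasis.isUSmooth_tw χ hN hχ

/-- `N` finite-dimensional ⇒ `N'` finite-dimensional. -/
theorem finite_tw (N : Rep.{0, 0, 0} k G) [Module.Finite k N] : Module.Finite k (tw N χ) :=
  inferInstanceAs (Module.Finite k (Module.Dual k N))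

theorem finrank_tw (N : Rep.{0, 0, 0} k G) [Module.Finite k N] :
    Module.finrank k (tw N χ) = Module.finrank k N :=
  Subspace.dual_finrank_eq

/-- **The dual of a coefficient short exact sequence** `0 → R → Q → M → 0` (with `Q` uniformly
smooth) is the coefficient short exact sequence `0 → M' → Q' → R' → 0`. -/
theorem isCoefSES_dual {R Q M : Rep.{0, 0, 0} k G} (i : R ⟶ Q) (π : Q ⟶ M)
    (h : CoefLES.IsCoefSES (Mor.ofHom 𝒰 i) (Mor.ofHom 𝒰 π))
    (hχ : ∃ U, 𝒰.mem U ∧ ∀ s ∈ U, χ s = 1) :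
    CoefLES.IsCoefSES (Mor.ofHom 𝒰 (dualTwistMap χ π)) (Mor.ofHom 𝒰 (dualTwistMap χ i)) := by
  obtain ⟨h1, h2, h3⟩ := dualTwist_shortExact χ i π h.inj h.exact h.surj
  exact CoefLES.isCoefSES_ofHom 𝒰 (dualTwistMap χ π) (dualTwistMap χ i) h1 h3 h2
    (isUSmooth_tw χ h.usmooth hχ)

/-- the same from plain exactness data. -/
theorem isCoefSES_dual_of_exact {R Q M : Rep.{0, 0, 0} k G} (i : R ⟶ Q) (π : Q ⟶ M)
    (hi : Function.Injective i.hom) (hex : Function.Exact i.hom π.hom)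
    (hπ : Function.Surjective π.hom) (hQ : IsUSmooth 𝒰 Q)
    (hχ : ∃ U, 𝒰.mem U ∧ ∀ s ∈ U, χ s = 1) :
    CoefLES.IsCoefSES (Mor.ofHom 𝒰 (dualTwistMap χ π)) (Mor.ofHom 𝒰 (dualTwistMap χ i)) :=
  isCoefSES_dual χ i π (CoefLES.isCoefSES_ofHom 𝒰 i π hi hπ hex hQ) hχ

end Smooth

/-! ### restriction to a local group -/

section Restriction

variable {Γ : Type} [Group Γ] (r : Γ →* G) (χ : G →* kˣ)

/-- `k(χ)` restricted along `r` is `k(χ ∘ r)`, on the nose. -/
theorem res_mu : Rep.res r (mu χ) = mu (χ.comp r) := rfl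

/-- The restricted evaluation pairing (`DeltaCompat.resPairing`, the same bilinear map on the
restricted representations, values in `Rep.res r (mu χ) = mu (χ.comp r)`) is the evaluation pairing
of the restriction, through `DualTwistApi.resDualTwistIso`. -/
theorem resPairing_evalPair (N : Rep.{0, 0, 0} k G) (n : N) (f : tw N χ) :
    DeltaCompat.resPairing r (evalPair N χ) n f =
      evalPair (Rep.res r N) (χ.comp r) n ((resDualTwistIso χ r N).hom.hom f) := rfl

/-- the restricted evaluation pairing is equivariant. -/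
theorem isEquivariant_resPairing_evalPair (N : Rep.{0, 0, 0} k G) :
    CupLeibniz.IsEquivariant (DeltaCompat.resPairing r (evalPair N χ)) :=
  DeltaCompat.isEquivariant_resPairing r (isEquivariant_evalPair N χ)

end Restriction

end Fermat.Agent.S55.Formal.EvalPair
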