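/-
S55 / formal end (helper87): half-exactness of the LC cohomology groups `H1 H2 H3` of
`Formal/LC.lean` in the coefficients, and the finiteness dévissage.

* `exists_lift_C₀`, `exists_descent_C₁` : the remaining degreewise lifting facts
  (see `Vanish3.exists_lift_C₁`, ...);
* `h1_exact`, `h2_exact`, `h3_exact` : for a short exact sequence `0 → A → B → C → 0` with `B`
  uniformly smooth, `H^i(A) → H^i(B) → H^i(C)` is exact (`i = 1, 2, 3`);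
* `finite_of_exact` : plain modules over a field, `X → Y → Z` exact with `X`, `Z` finite ⇒ `Y` finite;
* `finite_H1_of_base`, `finite_H2_of_base`, `finite_H3_of_base` : for `k = ZMod p`, finiteness of
  `H^i` of the permutation modules `coind_P^G 𝔽_p` (`P` open) implies finiteness of `H^i 𝒰 N` for all
  finite-dimensional uniformly smooth `N` (via `Vanish3.devissage`).
-/
import Fermat.Agent.S55.Formal.Vanish3

set_option autoImplicit false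

open CategoryTheory groupCohomology

namespace Fermat.Agent.S55.Formal.FiniteH

open Fermat.Agent.S55.Formal Fermat.Agent.S55.Formal.Vanish3

section Exact

variable {k : Type} [CommRing k] {G : Type} [Group G] (𝒰 : NBasis G)
variable {A B C : Rep.{0, 0, 0} k G} (φ : A ⟶ B) (ψ : B ⟶ C)

/-- smooth vectors lift along a surjection out of a uniformly smooth module. -/
theorem exists_lift_C₀ (hψ : Function.Surjective ψ.hom) (hB : IsUSmooth 𝒰 B)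
    (c : ↥(C₀ 𝒰 C)) : ∃ b : ↥(C₀ 𝒰 B), (Mor.ofHom 𝒰 ψ).c₀ b = c := by
  refine ⟨⟨Function.surjInv hψ c.1, ?_⟩, ?_⟩
  · rw [hB.C₀_eq_top]
    trivial
  · apply Subtype.ext
    exact Function.surjInv_eq hψ c.1

/-- An LC `1`-cochain of `B` killed by `ψ` comes from an LC `1`-cochain of `A`. -/
theorem exists_descent_C₁ (hφ : Function.Injective φ.hom)
    (hex : ∀ b, ψ.hom b = 0 ↔ ∃ a, φ.hom a = b)
    (f : ↥(C₁ 𝒰 B)) (hf : (Mor.ofHom 𝒰 ψ).c₁ f = 0) :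
    ∃ a : ↥(C₁ 𝒰 A), (Mor.ofHom 𝒰 φ).c₁ a = f := by
  have hf' : ∀ x, ψ.hom (f.1 x) = 0 := fun x =>
    congrFun (congrArg Subtype.val hf) x
  choose a ha using fun x => (hex (f.1 x)).1 (hf' x)
  obtain ⟨U, hU, hfU⟩ := f.2
  refine ⟨⟨a, U, hU, fun s hs g => ⟨hφ ?_, hφ ?_⟩⟩, ?_⟩
  · rw [ha, ha]; exact (hfU s hs g).1
  · rw [Rep.hom_comm_apply, ha]; exact (hfU s hs g).2
  · apply Subtype.ext
    funext x
    exact ha x

theorem c₂_injective (hφ : Function.Injective φ.hom) :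
    Function.Injective (Mor.ofHom 𝒰 φ).c₂ := by
  intro x y hxy
  apply Subtype.ext
  funext g
  exact hφ (congrFun (congrArg Subtype.val hxy) g)

theorem c₁_comp_eq_zero (hex : ∀ b, ψ.hom b = 0 ↔ ∃ a, φ.hom a = b) (a : ↥(C₁ 𝒰 A)) :
    (Mor.ofHom 𝒰 ψ).c₁ ((Mor.ofHom 𝒰 φ).c₁ a) = 0 := by
  apply Subtype.ext
  funext x
  exact (hex _).2 ⟨_, rfl⟩

theorem c₂_comp_eq_zero (hex : ∀ b, ψ.hom b = 0 ↔ ∃ a, φ.hom a = b) (a : ↥(C₂ 𝒰 A)) :
    (Mor.ofHom 𝒰 ψ).c₂ ((Mor.ofHom 𝒰 φ).c₂ a) = 0 := by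
  apply Subtype.ext
  funext x
  exact (hex _).2 ⟨_, rfl⟩

theorem c₃_comp_eq_zero (hex : ∀ b, ψ.hom b = 0 ↔ ∃ a, φ.hom a = b) (a : ↥(C₃ 𝒰 A)) :
    (Mor.ofHom 𝒰 ψ).c₃ ((Mor.ofHom 𝒰 φ).c₃ a) = 0 := by
  apply Subtype.ext
  funext x
  exact (hex _).2 ⟨_, rfl⟩

/-- **Half-exactness of `H²`.** -/
theorem h2_exact (hφ : Function.Injective φ.hom) (hψ : Function.Surjective ψ.hom)
    (hex : ∀ b, ψ.hom b = 0 ↔ ∃ a, φ.hom a = b) (hB : IsUSmooth 𝒰 B) :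
    Function.Exact (Mor.ofHom 𝒰 φ).h2 (Mor.ofHom 𝒰 ψ).h2 := by
  set α := Mor.ofHom 𝒰 φ with hα
  set β := Mor.ofHom 𝒰 ψ with hβ
  intro x
  constructor
  · intro hx
    obtain ⟨b, hb, rfl⟩ := Hmid.exists_of x
    have hb' : dC₂ 𝒰 C (β.c₂ b) = 0 := by
      have := LinearMap.congr_fun β.c₃_dC₂ b
      simp only [LinearMap.comp_apply] at this
      rw [← this, hb, map_zero]
    have h1 : (Hmid.of (β.c₂ b) hb' : H2 𝒰 C) = 0 := hx
    obtain ⟨c, hc⟩ := Hmid.of_eq_zero_iff.1 h1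
    obtain ⟨c', hc'⟩ := exists_lift_C₁ 𝒰 ψ hψ hB c
    have h2 : β.c₂ (b - dC₁ 𝒰 B c') = 0 := by
      have := LinearMap.congr_fun β.c₂_dC₁ c'
      simp only [LinearMap.comp_apply] at this
      rw [map_sub, this, hc', hc, sub_self]
    obtain ⟨a, ha⟩ := exists_descent_C₂ 𝒰 φ ψ hφ hex (b - dC₁ 𝒰 B c') h2
    have h3 : dC₂ 𝒰 A a = 0 := by
      apply c₃_injective 𝒰 φ hφ
      have := LinearMap.congr_fun α.c₃_dC₂ a
      simp only [LinearMap.comp_apply] at this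
      rw [this, ha, map_sub, hb, dC₂_dC₁, sub_zero, map_zero]
    refine ⟨Hmid.of a h3, ?_⟩
    have h4 : dC₂ 𝒰 B (α.c₂ a) = 0 := by
      rw [ha, map_sub, hb, dC₂_dC₁, sub_zero]
    have h5 : α.h2 (Hmid.of a h3) = Hmid.of (α.c₂ a) h4 := rfl
    rw [h5, Hmid.of_eq_of_iff]
    exact ⟨-c', by rw [map_neg, ha]; abel⟩
  · rintro ⟨y, rfl⟩
    obtain ⟨a, ha, rfl⟩ := Hmid.exists_of y
    have h4 : dC₂ 𝒰 C (β.c₂ (α.c₂ a)) = 0 := by
      rw [c₂_comp_eq_zero 𝒰 φ ψ hex, map_zero]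
    have h5 : β.h2 (α.h2 (Hmid.of a ha)) = Hmid.of (β.c₂ (α.c₂ a)) h4 := rfl
    rw [h5, Hmid.of_eq_zero_iff]
    exact ⟨0, by rw [map_zero, c₂_comp_eq_zero 𝒰 φ ψ hex]⟩

/-- **Half-exactness of `H¹`.** -/
theorem h1_exact (hφ : Function.Injective φ.hom) (hψ : Function.Surjective ψ.hom)
    (hex : ∀ b, ψ.hom b = 0 ↔ ∃ a, φ.hom a = b) (hB : IsUSmooth 𝒰 B) :
    Function.Exact (Mor.ofHom 𝒰 φ).h1 (Mor.ofHom 𝒰 ψ).h1 := by
  set α := Mor.ofHom 𝒰 φ with hα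
  set β := Mor.ofHom 𝒰 ψ with hβ
  intro x
  constructor
  · intro hx
    obtain ⟨b, hb, rfl⟩ := Hmid.exists_of x
    have hb' : dC₁ 𝒰 C (β.c₁ b) = 0 := by
      have := LinearMap.congr_fun β.c₂_dC₁ b
      simp only [LinearMap.comp_apply] at this
      rw [← this, hb, map_zero]
    have h1 : (Hmid.of (β.c₁ b) hb' : H1 𝒰 C) = 0 := hx
    obtain ⟨c, hc⟩ := Hmid.of_eq_zero_iff.1 h1
    obtain ⟨c', hc'⟩ := exists_lift_C₀ 𝒰 ψ hψ hB c
    have h2 : β.c₁ (b - dC₀ 𝒰 B c') = 0 := by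
      have := LinearMap.congr_fun β.c₁_dC₀ c'
      simp only [LinearMap.comp_apply] at this
      rw [map_sub, this, hc', hc, sub_self]
    obtain ⟨a, ha⟩ := exists_descent_C₁ 𝒰 φ ψ hφ hex (b - dC₀ 𝒰 B c') h2
    have h3 : dC₁ 𝒰 A a = 0 := by
      apply c₂_injective 𝒰 φ hφ
      have := LinearMap.congr_fun α.c₂_dC₁ a
      simp only [LinearMap.comp_apply] at this
      rw [this, ha, map_sub, hb, dC₁_dC₀, sub_zero, map_zero]
    refine ⟨Hmid.of a h3, ?_⟩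
    have h4 : dC₁ 𝒰 B (α.c₁ a) = 0 := by
      rw [ha, map_sub, hb, dC₁_dC₀, sub_zero]
    have h5 : α.h1 (Hmid.of a h3) = Hmid.of (α.c₁ a) h4 := rfl
    rw [h5, Hmid.of_eq_of_iff]
    exact ⟨-c', by rw [map_neg, ha]; abel⟩
  · rintro ⟨y, rfl⟩
    obtain ⟨a, ha, rfl⟩ := Hmid.exists_of y
    have h4 : dC₁ 𝒰 C (β.c₁ (α.c₁ a)) = 0 := by
      rw [c₁_comp_eq_zero 𝒰 φ ψ hex, map_zero]
    have h5 : β.h1 (α.h1 (Hmid.of a ha)) = Hmid.of (β.c₁ (α.c₁ a)) h4 := rfl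
    rw [h5, Hmid.of_eq_zero_iff]
    exact ⟨0, by rw [map_zero, c₁_comp_eq_zero 𝒰 φ ψ hex]⟩

/-- **Half-exactness of `H³`.** -/
theorem h3_exact (hφ : Function.Injective φ.hom) (hψ : Function.Surjective ψ.hom)
    (hex : ∀ b, ψ.hom b = 0 ↔ ∃ a, φ.hom a = b) (hB : IsUSmooth 𝒰 B) :
    Function.Exact (Mor.ofHom 𝒰 φ).h3 (Mor.ofHom 𝒰 ψ).h3 := by
  set α := Mor.ofHom 𝒰 φ with hα
  set β := Mor.ofHom 𝒰 ψ with hβ
  intro x
  constructor
  · intro hx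
    obtain ⟨b, hb, rfl⟩ := Hmid.exists_of x
    have hb' : dC₃ 𝒰 C (β.c₃ b) = 0 := by
      have := LinearMap.congr_fun β.p₄_dC₃ b
      simp only [LinearMap.comp_apply] at this
      rw [← this, hb, map_zero]
    have h1 : (Hmid.of (β.c₃ b) hb' : H3 𝒰 C) = 0 := hx
    obtain ⟨c, hc⟩ := Hmid.of_eq_zero_iff.1 h1
    obtain ⟨c', hc'⟩ := exists_lift_C₂ 𝒰 ψ hψ hB c
    have h2 : β.c₃ (b - dC₂ 𝒰 B c') = 0 := by
      have := LinearMap.congr_fun β.c₃_dC₂ c'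
      simp only [LinearMap.comp_apply] at this
      rw [map_sub, this, hc', hc, sub_self]
    obtain ⟨a, ha⟩ := exists_descent_C₃ 𝒰 φ ψ hφ hex (b - dC₂ 𝒰 B c') h2
    have h3 : dC₃ 𝒰 A a = 0 := by
      apply p₄_injective 𝒰 φ hφ
      have := LinearMap.congr_fun α.p₄_dC₃ a
      simp only [LinearMap.comp_apply] at this
      rw [this, ha, map_sub, hb, dC₃_dC₂, sub_zero, map_zero]
    refine ⟨Hmid.of a h3, ?_⟩
    have h4 : dC₃ 𝒰 B (α.c₃ a) = 0 := by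
      rw [ha, map_sub, hb, dC₃_dC₂, sub_zero]
    have h5 : α.h3 (Hmid.of a h3) = Hmid.of (α.c₃ a) h4 := rfl
    rw [h5, Hmid.of_eq_of_iff]
    exact ⟨-c', by rw [map_neg, ha]; abel⟩
  · rintro ⟨y, rfl⟩
    obtain ⟨a, ha, rfl⟩ := Hmid.exists_of y
    have h4 : dC₃ 𝒰 C (β.c₃ (α.c₃ a)) = 0 := by
      rw [c₃_comp_eq_zero 𝒰 φ ψ hex, map_zero]
    have h5 : β.h3 (α.h3 (Hmid.of a ha)) = Hmid.of (β.c₃ (α.c₃ a)) h4 := rfl
    rw [h5, Hmid.of_eq_zero_iff]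
    exact ⟨0, by rw [map_zero, c₃_comp_eq_zero 𝒰 φ ψ hex]⟩

end Exact

/-! ### finiteness -/

section Finite

/-- `X → Y → Z` exact over a field with `X`, `Z` finite-dimensional ⇒ `Y` finite-dimensional. -/
theorem finite_of_exact {k X Y Z : Type*} [Field k] [AddCommGroup X] [Module k X]
    [AddCommGroup Y] [Module k Y] [AddCommGroup Z] [Module k Z]
    (f : X →ₗ[k] Y) (g : Y →ₗ[k] Z) (h : Function.Exact f g)
    [Module.Finite k X] [Module.Finite k Z] : Module.Finite k Y := by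
  have h1 : Function.Exact f g.rangeRestrict := by
    intro y
    rw [← h y]
    constructor
    · intro hy
      exact congrArg Subtype.val hy
    · intro hy
      exact Subtype.ext hy
  exact Module.Finite.of_exact h1 g.surjective_rangeRestrict

variable {p : ℕ} [hp : Fact p.Prime] {G : Type} [Group G] (𝒰 : NBasis G)

/-- retracts: `H^i(N)` is a quotient of `H^i(N')`. -/
theorem h1_surjective_of_retract {N N' : Rep.{0, 0, 0} (ZMod p) G} (i : N ⟶ N') (r : N' ⟶ N)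
    (hir : ∀ n, r.hom (i.hom n) = n) : Function.Surjective (Mor.ofHom 𝒰 r).h1 := by
  intro x
  obtain ⟨b, hb, rfl⟩ := Hmid.exists_of x
  have hb' : dC₁ 𝒰 N' ((Mor.ofHom 𝒰 i).c₁ b) = 0 := by
    have := LinearMap.congr_fun (Mor.ofHom 𝒰 i).c₂_dC₁ b
    simp only [LinearMap.comp_apply] at this
    rw [← this, hb, map_zero]
  refine ⟨Hmid.of ((Mor.ofHom 𝒰 i).c₁ b) hb', ?_⟩
  have hb'' : dC₁ 𝒰 N ((Mor.ofHom 𝒰 r).c₁ ((Mor.ofHom 𝒰 i).c₁ b)) = 0 := by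
    have := LinearMap.congr_fun (Mor.ofHom 𝒰 r).c₂_dC₁ ((Mor.ofHom 𝒰 i).c₁ b)
    simp only [LinearMap.comp_apply] at this
    rw [← this, hb', map_zero]
  have h5 : (Mor.ofHom 𝒰 r).h1 (Hmid.of ((Mor.ofHom 𝒰 i).c₁ b) hb') =
      Hmid.of ((Mor.ofHom 𝒰 r).c₁ ((Mor.ofHom 𝒰 i).c₁ b)) hb'' := rfl
  rw [h5]
  congr 1
  apply Subtype.ext
  funext x
  exact hir _

theorem h2_surjective_of_retract {N N' : Rep.{0, 0, 0} (ZMod p) G} (i : N ⟶ N') (r : N' ⟶ N)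
    (hir : ∀ n, r.hom (i.hom n) = n) : Function.Surjective (Mor.ofHom 𝒰 r).h2 := by
  intro x
  obtain ⟨b, hb, rfl⟩ := Hmid.exists_of x
  have hb' : dC₂ 𝒰 N' ((Mor.ofHom 𝒰 i).c₂ b) = 0 := by
    have := LinearMap.congr_fun (Mor.ofHom 𝒰 i).c₃_dC₂ b
    simp only [LinearMap.comp_apply] at this
    rw [← this, hb, map_zero]
  refine ⟨Hmid.of ((Mor.ofHom 𝒰 i).c₂ b) hb', ?_⟩
  have hb'' : dC₂ 𝒰 N ((Mor.ofHom 𝒰 r).c₂ ((Mor.ofHom 𝒰 i).c₂ b)) = 0 := by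
    have := LinearMap.congr_fun (Mor.ofHom 𝒰 r).c₃_dC₂ ((Mor.ofHom 𝒰 i).c₂ b)
    simp only [LinearMap.comp_apply] at this
    rw [← this, hb', map_zero]
  have h5 : (Mor.ofHom 𝒰 r).h2 (Hmid.of ((Mor.ofHom 𝒰 i).c₂ b) hb') =
      Hmid.of ((Mor.ofHom 𝒰 r).c₂ ((Mor.ofHom 𝒰 i).c₂ b)) hb'' := rfl
  rw [h5]
  congr 1
  apply Subtype.ext
  funext x
  exact hir _

theorem h3_surjective_of_retract {N N' : Rep.{0, 0, 0} (ZMod p) G} (i : N ⟶ N') (r : N' ⟶ N)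
    (hir : ∀ n, r.hom (i.hom n) = n) : Function.Surjective (Mor.ofHom 𝒰 r).h3 := by
  intro x
  obtain ⟨b, hb, rfl⟩ := Hmid.exists_of x
  have hb' : dC₃ 𝒰 N' ((Mor.ofHom 𝒰 i).c₃ b) = 0 := by
    have := LinearMap.congr_fun (Mor.ofHom 𝒰 i).p₄_dC₃ b
    simp only [LinearMap.comp_apply] at this
    rw [← this, hb, map_zero]
  refine ⟨Hmid.of ((Mor.ofHom 𝒰 i).c₃ b) hb', ?_⟩
  have hb'' : dC₃ 𝒰 N ((Mor.ofHom 𝒰 r).c₃ ((Mor.ofHom 𝒰 i).c₃ b)) = 0 := by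
    have := LinearMap.congr_fun (Mor.ofHom 𝒰 r).p₄_dC₃ ((Mor.ofHom 𝒰 i).c₃ b)
    simp only [LinearMap.comp_apply] at this
    rw [← this, hb', map_zero]
  have h5 : (Mor.ofHom 𝒰 r).h3 (Hmid.of ((Mor.ofHom 𝒰 i).c₃ b) hb') =
      Hmid.of ((Mor.ofHom 𝒰 r).c₃ ((Mor.ofHom 𝒰 i).c₃ b)) hb'' := rfl
  rw [h5]
  congr 1
  apply Subtype.ext
  funext x
  exact hir _

theorem subsingleton_H1 (N : Rep.{0, 0, 0} (ZMod p) G) (h : Subsingleton N) :
    Subsingleton (H1 𝒰 N) := by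
  refine ⟨fun x y => ?_⟩
  obtain ⟨b, hb, rfl⟩ := Hmid.exists_of x
  obtain ⟨b', hb', rfl⟩ := Hmid.exists_of y
  congr 1
  apply Subtype.ext
  funext g
  exact Subsingleton.elim _ _

theorem subsingleton_H2 (N : Rep.{0, 0, 0} (ZMod p) G) (h : Subsingleton N) :
    Subsingleton (H2 𝒰 N) := by
  refine ⟨fun x y => ?_⟩
  obtain ⟨b, hb, rfl⟩ := Hmid.exists_of x
  obtain ⟨b', hb', rfl⟩ := Hmid.exists_of y
  congr 1
  apply Subtype.ext
  funext g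
  exact Subsingleton.elim _ _

theorem subsingleton_H3 (N : Rep.{0, 0, 0} (ZMod p) G) (h : Subsingleton N) :
    Subsingleton (H3 𝒰 N) := by
  refine ⟨fun x y => ?_⟩
  obtain ⟨b, hb, rfl⟩ := Hmid.exists_of x
  obtain ⟨b', hb', rfl⟩ := Hmid.exists_of y
  congr 1
  apply Subtype.ext
  funext g
  exact Subsingleton.elim _ _

/-- **Finiteness dévissage for `H¹`.** -/
theorem finite_H1_of_base
    (hbase : ∀ P : Subgroup G, (∃ U, 𝒰.mem U ∧ U ≤ P) →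
      Module.Finite (ZMod p) (H1 𝒰 (Rep.coind P.subtype (Rep.trivial (ZMod p) P (ZMod p)))))
    (N : Rep.{0, 0, 0} (ZMod p) G) [FiniteDimensional (ZMod p) N] (hN : IsUSmooth 𝒰 N) :
    Module.Finite (ZMod p) (H1 𝒰 N) :=
  devissage 𝒰 (fun N => Module.Finite (ZMod p) (H1 𝒰 N))
    (fun N h => by
      have := subsingleton_H1 𝒰 N h
      infer_instance)
    (fun N N' i r hir h => Module.Finite.of_surjective _ (h1_surjective_of_retract 𝒰 i r hir))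
    (fun A B C φ ψ hφ hψ hex _ hB _ _ _ _ hA hC =>
      finite_of_exact _ _ (h1_exact 𝒰 φ ψ hφ hψ hex hB))
    hbase N hN

/-- **Finiteness dévissage for `H²`.** -/
theorem finite_H2_of_base
    (hbase : ∀ P : Subgroup G, (∃ U, 𝒰.mem U ∧ U ≤ P) →
      Module.Finite (ZMod p) (H2 𝒰 (Rep.coind P.subtype (Rep.trivial (ZMod p) P (ZMod p)))))
    (N : Rep.{0, 0, 0} (ZMod p) G) [FiniteDimensional (ZMod p) N] (hN : IsUSmooth 𝒰 N) :
    Module.Finite (ZMod p) (H2 𝒰 N) :=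
  devissage 𝒰 (fun N => Module.Finite (ZMod p) (H2 𝒰 N))
    (fun N h => by
      have := subsingleton_H2 𝒰 N h
      infer_instance)
    (fun N N' i r hir h => Module.Finite.of_surjective _ (h2_surjective_of_retract 𝒰 i r hir))
    (fun A B C φ ψ hφ hψ hex _ hB _ _ _ _ hA hC =>
      finite_of_exact _ _ (h2_exact 𝒰 φ ψ hφ hψ hex hB))
    hbase N hN

/-- **Finiteness dévissage for `H³`.** -/
theorem finite_H3_of_base
    (hbase : ∀ P : Subgroup G, (∃ U, 𝒰.mem U ∧ U ≤ P) →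
      Module.Finite (ZMod p) (H3 𝒰 (Rep.coind P.subtype (Rep.trivial (ZMod p) P (ZMod p)))))
    (N : Rep.{0, 0, 0} (ZMod p) G) [FiniteDimensional (ZMod p) N] (hN : IsUSmooth 𝒰 N) :
    Module.Finite (ZMod p) (H3 𝒰 N) :=
  devissage 𝒰 (fun N => Module.Finite (ZMod p) (H3 𝒰 N))
    (fun N h => by
      have := subsingleton_H3 𝒰 N h
      infer_instance)
    (fun N N' i r hir h => Module.Finite.of_surjective _ (h3_surjective_of_retract 𝒰 i r hir))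
    (fun A B C φ ψ hφ hψ hex _ hB _ _ _ _ hA hC =>
      finite_of_exact _ _ (h3_exact 𝒰 φ ψ hφ hψ hex hB))
    hbase N hN

end Finite

end Fermat.Agent.S55.Formal.FiniteH
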