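/-
S55 / formal end (helper87): the closed Prop `Vanish₃Statement` of `Formal/Blocks.lean`
(route step (i)): the numerical base `BaseA` implies that `H³` vanishes, globally and at every
local group, for all finite-dimensional uniformly smooth modules — over ANY coefficient field.
-/
import Fermat.Agent.S55.Formal.Blocks
import Fermat.Agent.S55.Formal.DevissageChi

set_option autoImplicit false

open CategoryTheory groupCohomology

namespace Fermat.Agent.S55.Formal.Vanish3All

open Fermat.Agent.S55.Formal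

/-- smoothness of the restricted character -/
theorem chi_loc_smooth (X : Site) (k : Type) [Field k] (χ : X.G →* kˣ)
    (hχ : ∃ U, X.𝒰.mem U ∧ TrivOn χ U) (v : X.I) :
    ∃ U, (X.𝒱 v).mem U ∧ ∀ s ∈ U, (χ.comp (X.ι v)) s = 1 := by
  obtain ⟨U, hU, hUχ⟩ := hχ
  obtain ⟨U', hU', hle⟩ := X.cont v U hU
  exact ⟨U', hU', fun s hs => hUχ _ (hle s hs)⟩

/-- `Vanish₃All` from the two vanishing fields of `BaseA` (base only over subgroups on which `χ` is
trivial). -/
theorem vanish₃All_of_base (X : Site) (k : Type) [Field k] (χ : X.G →* kˣ)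
    (hχ : ∃ U, X.𝒰.mem U ∧ TrivOn χ U)
    (hG : ∀ P : Subgroup X.G, X.𝒰.IsOpen P → TrivOn χ P → Vanish₃ X.𝒰 (perm k P))
    (hloc : ∀ (v : X.I) (P : Subgroup (X.Γ v)), (X.𝒱 v).IsOpen P →
      TrivOn (χ.comp (X.ι v)) P → Vanish₃ (X.𝒱 v) (perm k P)) :
    Vanish₃All X k := by
  refine ⟨fun N hfin hN => ?_, fun v N hfin hN => ?_⟩
  · have : FiniteDimensional k N := hfin
    exact DevissageChi.vanish₃_of_perm X.𝒰 χ hχ (fun P hP hPχ => hG P hP hPχ) N hN
  · have : FiniteDimensional k N := hfin
    exact DevissageChi.vanish₃_of_perm (X.𝒱 v) (χ.comp (X.ι v)) (chi_loc_smooth X k χ hχ v)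
      (fun P hP hPχ => hloc v P hP hPχ) N hN

/-- **Route step (i)**: the closed Prop `Vanish₃Statement` of `Formal/Blocks.lean`. -/
theorem vanish₃Statement : Vanish₃Statement := by
  intro X p _ χ h
  exact vanish₃All_of_base X (ZMod p) χ h.chi_smooth h.vanish₃ h.vanish₃_loc

/-- The same over an arbitrary coefficient field. -/
theorem vanish₃All_of_baseA (X : Site) (k : Type) [Field k] (χ : X.G →* kˣ)
    (h : BaseA X k χ) : Vanish₃All X k :=
  vanish₃All_of_base X k χ h.chi_smooth h.vanish₃ h.vanish₃_loc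

end Fermat.Agent.S55.Formal.Vanish3All
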