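/-
S55 / formal end (helper87): the closed Prop `FinStatement` of `Formal/Blocks.lean`:
the numerical base `BaseA` implies that `H¹` and `H²` of every finite-dimensional uniformly smooth
module are finite-dimensional.

Route: free cover `0 → R → k[G/U]^d → N → 0` (`PermBasis.exists_free_cover_perm'`), the long exact
sequence (`CoefLES`), `H³(R) = 0` (`Vanish3All.vanish₃Statement`), and the elementary additivity
`H^i(B^d) ↪ (H^i B)^d` (`h1_pow_injective`, `h2_pow_injective`).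
-/
import Fermat.Agent.S55.Formal.Blocks
import Fermat.Agent.S55.Formal.PermBasis
import Fermat.Agent.S55.Formal.CoefLES
import Fermat.Agent.S55.Formal.Vanish3All
import Fermat.Agent.S55.Formal.FiniteH

set_option autoImplicit false

open CategoryTheory groupCohomology

namespace Fermat.Agent.S55.Formal.FinAllProof

open Fermat.Agent.S55.Formal Fermat.Agent.S55.Formal.Perm

section Additivity

variable {k : Type} [CommRing k] {G : Type} [Group G] (𝒰 : NBasis G)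
variable (B : Rep.{0, 0, 0} k G) (d : ℕ)

/-- every `1`-cochain of `B^d` is the sum of its components -/
theorem c₁_eq_sum (b : ↥(C₁ 𝒰 (powRep B d))) :
    b = ∑ j : Fin d, (Mor.ofHom 𝒰 (powι B d j)).c₁ ((Mor.ofHom 𝒰 (powπ B d j)).c₁ b) := by
  apply Subtype.ext
  funext x
  rw [AddSubmonoidClass.coe_finsetSum, Finset.sum_apply]
  have : ∀ j : Fin d, (((Mor.ofHom 𝒰 (powι B d j)).c₁
      ((Mor.ofHom 𝒰 (powπ B d j)).c₁ b) : ↥(C₁ 𝒰 (powRep B d))) : G → powRep B d) x =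
      Pi.single (M := fun _ : Fin d => B.V) j (b.1 x j) := fun j => rfl
  rw [Finset.sum_congr rfl fun j _ => this j]
  exact (Finset.univ_sum_single (b.1 x)).symm

/-- every `2`-cochain of `B^d` is the sum of its components -/
theorem c₂_eq_sum (b : ↥(C₂ 𝒰 (powRep B d))) :
    b = ∑ j : Fin d, (Mor.ofHom 𝒰 (powι B d j)).c₂ ((Mor.ofHom 𝒰 (powπ B d j)).c₂ b) := by
  apply Subtype.ext
  funext x
  rw [AddSubmonoidClass.coe_finsetSum, Finset.sum_apply]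
  have : ∀ j : Fin d, (((Mor.ofHom 𝒰 (powι B d j)).c₂
      ((Mor.ofHom 𝒰 (powπ B d j)).c₂ b) : ↥(C₂ 𝒰 (powRep B d))) : G × G → powRep B d) x =
      Pi.single (M := fun _ : Fin d => B.V) j (b.1 x j) := fun j => rfl
  rw [Finset.sum_congr rfl fun j _ => this j]
  exact (Finset.univ_sum_single (b.1 x)).symm

/-- `H¹(B^d) → (H¹ B)^d` -/
def h1Pow : H1 𝒰 (powRep B d) →ₗ[k] (Fin d → H1 𝒰 B) :=
  LinearMap.pi fun j => (Mor.ofHom 𝒰 (powπ B d j)).h1

/-- `H²(B^d) → (H² B)^d` -/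
def h2Pow : H2 𝒰 (powRep B d) →ₗ[k] (Fin d → H2 𝒰 B) :=
  LinearMap.pi fun j => (Mor.ofHom 𝒰 (powπ B d j)).h2

theorem h1Pow_injective : Function.Injective (h1Pow 𝒰 B d) := by
  rw [← LinearMap.ker_eq_bot, LinearMap.ker_eq_bot']
  intro x hx
  obtain ⟨b, hb, rfl⟩ := Hmid.exists_of x
  have hj : ∀ j : Fin d, ∃ c : ↥(C₀ 𝒰 B), dC₀ 𝒰 B c = (Mor.ofHom 𝒰 (powπ B d j)).c₁ b := by
    intro j
    have h1 : (Mor.ofHom 𝒰 (powπ B d j)).h1 (Hmid.of b hb) = 0 := congrFun hx j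
    have hb' : dC₁ 𝒰 B ((Mor.ofHom 𝒰 (powπ B d j)).c₁ b) = 0 :=
      CoefLES.dC₁_c₁ _ b hb
    have h2 : (Hmid.of ((Mor.ofHom 𝒰 (powπ B d j)).c₁ b) hb' : H1 𝒰 B) = 0 := h1
    exact Hmid.of_eq_zero_iff.1 h2
  choose c hc using hj
  rw [Hmid.of_eq_zero_iff]
  refine ⟨∑ j : Fin d, (Mor.ofHom 𝒰 (powι B d j)).c₀ (c j), ?_⟩
  rw [map_sum]
  conv_rhs => rw [c₁_eq_sum 𝒰 B d b]
  refine Finset.sum_congr rfl fun j _ => ?_
  have := LinearMap.congr_fun (Mor.ofHom 𝒰 (powι B d j)).c₁_dC₀ (c j)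
  simp only [LinearMap.comp_apply] at this
  rw [← this, hc j]

theorem h2Pow_injective : Function.Injective (h2Pow 𝒰 B d) := by
  rw [← LinearMap.ker_eq_bot, LinearMap.ker_eq_bot']
  intro x hx
  obtain ⟨b, hb, rfl⟩ := Hmid.exists_of x
  have hj : ∀ j : Fin d, ∃ c : ↥(C₁ 𝒰 B), dC₁ 𝒰 B c = (Mor.ofHom 𝒰 (powπ B d j)).c₂ b := by
    intro j
    have h1 : (Mor.ofHom 𝒰 (powπ B d j)).h2 (Hmid.of b hb) = 0 := congrFun hx j
    have hb' : dC₂ 𝒰 B ((Mor.ofHom 𝒰 (powπ B d j)).c₂ b) = 0 :=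
      CoefLES.dC₂_c₂ _ b hb
    have h2 : (Hmid.of ((Mor.ofHom 𝒰 (powπ B d j)).c₂ b) hb' : H2 𝒰 B) = 0 := h1
    exact Hmid.of_eq_zero_iff.1 h2
  choose c hc using hj
  rw [Hmid.of_eq_zero_iff]
  refine ⟨∑ j : Fin d, (Mor.ofHom 𝒰 (powι B d j)).c₁ (c j), ?_⟩
  rw [map_sum]
  conv_rhs => rw [c₂_eq_sum 𝒰 B d b]
  refine Finset.sum_congr rfl fun j _ => ?_
  have := LinearMap.congr_fun (Mor.ofHom 𝒰 (powι B d j)).c₂_dC₁ (c j)
  simp only [LinearMap.comp_apply] at this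
  rw [← this, hc j]

end Additivity

section Main

variable {k : Type} [Field k] {G : Type} [Group G] (𝒰 : NBasis G)

/-- A free cover `k[G/U]^d ↠ N` with `U ∈ 𝒰` acting trivially on `N` and `χ` trivial on `U`. -/
theorem exists_free_cover_chi (χ : G →* kˣ) (hχ : ∃ U, 𝒰.mem U ∧ TrivOn χ U)
    (N : Rep.{0, 0, 0} k G) [FiniteDimensional k N] (hN : IsUSmooth 𝒰 N) :
    ∃ (U : Subgroup G) (_ : 𝒰.mem U) (_ : TrivOn χ U) (d : ℕ)
      (π : powRep (perm k U) d ⟶ N), Function.Surjective π.hom ∧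
      IsUSmooth 𝒰 (powRep (perm k U) d) ∧
      FiniteDimensional k (powRep (perm k U) d) ∧
      IsUSmooth 𝒰 (kerRep π) ∧ FiniteDimensional k (kerRep π) ∧
      Function.Injective (kerι π).hom ∧ ∀ a, π.hom a = 0 ↔ ∃ r, (kerι π).hom r = a := by
  obtain ⟨U₁, hU₁, hUM⟩ := hN
  obtain ⟨U₂, hU₂, hχ₂⟩ := hχ
  obtain ⟨U, hU, hle⟩ := 𝒰.inf hU₁ hU₂
  obtain ⟨d, π, h⟩ := PermBasis.exists_free_cover_perm 𝒰 N hU
    (fun s hs m => hUM s (hle hs).1 m)
  exact ⟨U, hU, fun s hs => hχ₂ s (hle hs).2, d, π, h⟩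

/-- `H²` is finite-dimensional for all finite-dimensional uniformly smooth modules, given this for
the permutation modules `k[G/P]` (`P` open, `χ` trivial on `P`) and the vanishing of `H³`. -/
theorem finite_H2 (χ : G →* kˣ) (hχ : ∃ U, 𝒰.mem U ∧ TrivOn χ U)
    (hfin : ∀ P : Subgroup G, 𝒰.IsOpen P → TrivOn χ P → Module.Finite k (H2 𝒰 (perm k P)))
    (hvan : ∀ N : Rep.{0, 0, 0} k G, Module.Finite k N → IsUSmooth 𝒰 N → Vanish₃ 𝒰 N)
    (N : Rep.{0, 0, 0} k G) [FiniteDimensional k N] (hN : IsUSmooth 𝒰 N) :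
    Module.Finite k (H2 𝒰 N) := by
  obtain ⟨U, hU, hUχ, d, π, hπ, hFsm, hFfin, hRsm, hRfin, hι, hex⟩ :=
    exists_free_cover_chi 𝒰 χ hχ N hN
  have hF2 : Module.Finite k (H2 𝒰 (powRep (perm k U) d)) := by
    have := hfin U ⟨U, hU, le_rfl⟩ hUχ
    exact Module.Finite.of_injective (h2Pow 𝒰 _ d) (h2Pow_injective 𝒰 _ d)
  have hses : CoefLES.IsCoefSES (Mor.ofHom 𝒰 (kerι π)) (Mor.ofHom 𝒰 π) :=
    CoefLES.isCoefSES_ofHom 𝒰 (kerι π) π hι hπ (fun a => hex a) hFsm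
  have hsurj : Function.Surjective (Mor.ofHom 𝒰 π).h2 := by
    intro x
    have h3 : CoefLES.δ₂ hses x = 0 := by
      obtain ⟨a, ha, hx⟩ := Hmid.exists_of (CoefLES.δ₂ hses x)
      rw [hx, Hmid.of_eq_zero_iff]
      exact hvan (kerRep π) hRfin hRsm a ha
    exact (CoefLES.exact_h2_δ₂ hses x).1 h3
  exact Module.Finite.of_surjective _ hsurj

/-- `H¹` is finite-dimensional for all finite-dimensional uniformly smooth modules, given this for
the permutation modules `k[G/P]` (`P` open, `χ` trivial on `P`) and the finiteness of all `H²`. -/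
theorem finite_H1 (χ : G →* kˣ) (hχ : ∃ U, 𝒰.mem U ∧ TrivOn χ U)
    (hfin : ∀ P : Subgroup G, 𝒰.IsOpen P → TrivOn χ P → Module.Finite k (H1 𝒰 (perm k P)))
    (hH2 : ∀ N : Rep.{0, 0, 0} k G, Module.Finite k N → IsUSmooth 𝒰 N →
      Module.Finite k (H2 𝒰 N))
    (N : Rep.{0, 0, 0} k G) [FiniteDimensional k N] (hN : IsUSmooth 𝒰 N) :
    Module.Finite k (H1 𝒰 N) := by
  obtain ⟨U, hU, hUχ, d, π, hπ, hFsm, hFfin, hRsm, hRfin, hι, hex⟩ :=
    exists_free_cover_chi 𝒰 χ hχ N hN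
  have hF1 : Module.Finite k (H1 𝒰 (powRep (perm k U) d)) := by
    have := hfin U ⟨U, hU, le_rfl⟩ hUχ
    exact Module.Finite.of_injective (h1Pow 𝒰 _ d) (h1Pow_injective 𝒰 _ d)
  have hses : CoefLES.IsCoefSES (Mor.ofHom 𝒰 (kerι π)) (Mor.ofHom 𝒰 π) :=
    CoefLES.isCoefSES_ofHom 𝒰 (kerι π) π hι hπ (fun a => hex a) hFsm
  have hR2 : Module.Finite k (H2 𝒰 (kerRep π)) := hH2 _ hRfin hRsm
  exact FiniteH.finite_of_exact _ _ (CoefLES.exact_h1_δ₁ hses)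

/-- `FinAll` from the fields `fin₁`, `fin₂` of `BaseA` and `Vanish₃All`. -/
theorem finAll_of_base (X : Site) (k : Type) [Field k] (χ : X.G →* kˣ)
    (hχ : ∃ U, X.𝒰.mem U ∧ TrivOn χ U)
    (hfin₁ : ∀ P : Subgroup X.G, X.𝒰.IsOpen P → TrivOn χ P →
      Module.Finite k (H1 X.𝒰 (perm k P)))
    (hfin₂ : ∀ P : Subgroup X.G, X.𝒰.IsOpen P → TrivOn χ P →
      Module.Finite k (H2 X.𝒰 (perm k P)))
    (hvan : Vanish₃All X k) : FinAll X k := by
  have h2all : ∀ N : Rep.{0, 0, 0} k X.G, Module.Finite k N → IsUSmooth X.𝒰 N →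
      Module.Finite k (H2 X.𝒰 N) := fun N hf hs => by
    have : FiniteDimensional k N := hf
    exact finite_H2 X.𝒰 χ hχ hfin₂ hvan.1 N hs
  intro N hNfin hN
  have : FiniteDimensional k N := hNfin
  exact ⟨finite_H1 X.𝒰 χ hχ hfin₁ h2all N hN, h2all N hNfin hN⟩

/-- **The closed Prop `FinStatement` of `Formal/Blocks.lean`.** -/
theorem finStatement : FinStatement := by
  intro X p _ χ h
  exact finAll_of_base X (ZMod p) χ h.chi_smooth h.fin₁ h.fin₂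
    (Vanish3All.vanish₃Statement X p χ h)

/-- The same over an arbitrary coefficient field. -/
theorem finAll_of_baseA (X : Site) (k : Type) [Field k] (χ : X.G →* kˣ) (h : BaseA X k χ) :
    FinAll X k :=
  finAll_of_base X k χ h.chi_smooth h.fin₁ h.fin₂ (Vanish3All.vanish₃All_of_baseA X k χ h)

end Main

end Fermat.Agent.S55.Formal.FinAllProof
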