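/-
S55 / Formal end: THE LAST STEP of `FormalMain` (helper13).

For a site `X`, coefficient modules `M`, `M'` (think `M' = tw M χ`), given
* `psi : H¹(G, M') → (H²_c(M))*` BIJECTIVE (global duality),
* `lam : P¹(M') → (P¹(M))*` INJECTIVE (local duality, only injectivity),
* adjointness `psi y (ι₂ b) = ε * lam (loc₁ y) b` (the compatibility square of the cup products),
* `H¹(G, M')` finite-dimensional,
we get `Ш¹(M')`, `Ш²(M)` finite-dimensional of the same dimension.
-/
import Fermat.Agent.S55.Formal.Site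
import Fermat.Agent.S55.Formal.DualityAlgebra

set_option autoImplicit false

open Module

namespace Fermat.Agent.S55.Formal.FinalCount

open Fermat.Agent.S55.Formal

variable {k : Type} [Field k] (X : Site) (M M' : Rep.{0, 0, 0} k X.G)

/-- `Ш²(M) ≃ H²_c(M) ⧸ range ι₂` -/
noncomputable def sha2Equiv : X.sha2 M ≃ₗ[k] (X.H2c M ⧸ LinearMap.range (X.ι₂ M)) :=
  DualityAlgebra.kerEquivQuotRange (X.ι₂ M) (X.π₂ M) (X.loc₂ M) (X.exact_ι₂_π₂ M)
    (X.exact_π₂_loc₂ M)

/-- `Ш¹(M') ≃ (H²_c(M) ⧸ range ι₂)*` from a perfect global pairing, a right-nondegenerate local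
pairing and adjointness. -/
noncomputable def sha1Equiv
    (psi : H1 X.𝒰 M' →ₗ[k] Dual k (X.H2c M)) (hpsi : Function.Bijective psi)
    (lam : X.P1 M' →ₗ[k] Dual k (X.P1 M)) (hlam : Function.Injective lam)
    (ε : k) (hε : ε ≠ 0)
    (adj : ∀ (b : X.P1 M) (y : H1 X.𝒰 M'), psi y (X.ι₂ M b) = ε * lam (X.loc₁ M' y) b) :
    X.sha1 M' ≃ₗ[k] Dual k (X.H2c M ⧸ LinearMap.range (X.ι₂ M)) :=
  DualityAlgebra.kerEquivDualQuot (X.ι₂ M) (X.loc₁ M') psi lam hpsi hlam ε hε adj

/-- **The final count.** -/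
theorem finite_and_finrank_eq
    (psi : H1 X.𝒰 M' →ₗ[k] Dual k (X.H2c M)) (hpsi : Function.Bijective psi)
    (lam : X.P1 M' →ₗ[k] Dual k (X.P1 M)) (hlam : Function.Injective lam)
    (ε : k) (hε : ε ≠ 0)
    (adj : ∀ (b : X.P1 M) (y : H1 X.𝒰 M'), psi y (X.ι₂ M b) = ε * lam (X.loc₁ M' y) b)
    (hfin : Module.Finite k (H1 X.𝒰 M')) :
    Module.Finite k (X.sha1 M') ∧ Module.Finite k (X.sha2 M) ∧
      finrank k (X.sha1 M') = finrank k (X.sha2 M) := by
  have h1 : Module.Finite k (X.sha1 M') := by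
    unfold Site.sha1
    infer_instance
  have hq : Module.Finite k (X.H2c M ⧸ LinearMap.range (X.ι₂ M)) :=
    (DualityAlgebra.finite_ker_iff_finite_quot (X.ι₂ M) (X.loc₁ M') psi lam hpsi hlam ε hε adj).1
      h1
  have h2 : Module.Finite k (X.sha2 M) := Module.Finite.equiv (sha2Equiv X M).symm
  refine ⟨h1, h2, ?_⟩
  have : Module.Finite k (LinearMap.ker (X.loc₂ M)) := h2
  exact DualityAlgebra.finrank_ker_eq_finrank_ker (X.ι₂ M) (X.π₂ M) (X.loc₂ M)
    (X.exact_ι₂_π₂ M) (X.exact_π₂_loc₂ M) (X.loc₁ M') psi lam hpsi hlam ε hε adj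

/-- Variant with the global pairing given in the other direction
`psi' : H²_c(M) → (H¹(G, M'))*` (bijective, `H¹(G, M')` finite-dimensional). -/
theorem finite_and_finrank_eq'
    (psi' : X.H2c M →ₗ[k] Dual k (H1 X.𝒰 M')) (hpsi' : Function.Bijective psi')
    (lam : X.P1 M' →ₗ[k] Dual k (X.P1 M)) (hlam : Function.Injective lam)
    (ε : k) (hε : ε ≠ 0)
    (adj : ∀ (b : X.P1 M) (y : H1 X.𝒰 M'), psi' (X.ι₂ M b) y = ε * lam (X.loc₁ M' y) b)
    (hfin : Module.Finite k (H1 X.𝒰 M')) :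
    Module.Finite k (X.sha1 M') ∧ Module.Finite k (X.sha2 M) ∧
      finrank k (X.sha1 M') = finrank k (X.sha2 M) := by
  have hfl : Function.Bijective psi'.flip :=
    DualityAlgebra.flip_bijective_of_bijective psi' hpsi'
  exact finite_and_finrank_eq X M M' psi'.flip hfl lam hlam ε hε
    (fun b y => by rw [LinearMap.flip_apply]; exact adj b y) hfin

/-- Injectivity of the product pairing from injectivity of the local pairings: if
`lam b' b = ∑ v, pair v (b v) (b' v)` through linear equivalences `P¹ ≃ Π_v H_v`, and every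
`pair v` is right-nondegenerate, then `lam` is injective.  (Plain-module form.) -/
theorem injective_of_local {I : Type} [Fintype I] [DecidableEq I]
    {P P' : Type} [AddCommGroup P] [Module k P] [AddCommGroup P'] [Module k P']
    {Hv Hv' : I → Type} [∀ v, AddCommGroup (Hv v)] [∀ v, Module k (Hv v)]
    [∀ v, AddCommGroup (Hv' v)] [∀ v, Module k (Hv' v)]
    (e : P ≃ₗ[k] ∀ v, Hv v) (e' : P' ≃ₗ[k] ∀ v, Hv' v)
    (pair : ∀ v, Hv' v →ₗ[k] Dual k (Hv v)) (hpair : ∀ v, Function.Injective (pair v))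
    (lam : P' →ₗ[k] Dual k P)
    (hlam : ∀ b' b, lam b' b = ∑ v, pair v (e' b' v) (e b v)) :
    Function.Injective lam := by
  rw [← LinearMap.ker_eq_bot, LinearMap.ker_eq_bot']
  intro b' hb'
  apply e'.injective
  rw [map_zero]
  funext v
  apply hpair v
  rw [Pi.zero_apply, map_zero]
  ext c
  have := congrArg (fun f => f (e.symm (Pi.single v c))) hb'
  simp only [hlam, LinearEquiv.apply_symm_apply, LinearMap.zero_apply] at this
  rw [Finset.sum_eq_single v] at this
  · simpa using this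
  · intro w _ hw
    rw [Pi.single_eq_of_ne hw, map_zero]
  · intro hv
    exact absurd (Finset.mem_univ v) hv

end Fermat.Agent.S55.Formal.FinalCount
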