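/-
S55 / formal end (helper87): the canonical "free cover" of a representation.

For a subgroup `U ≤ G` of finite index and `M : Rep k G`, the sum map
`sumMap U M : I U M ⟶ M`, `f ↦ ∑_{gU} g • f (g⁻¹)` (`I U M = coind_U^G res_U^G M`, see
`Formal/Summand.lean`) is a SURJECTIVE morphism of representations — no invertibility of the index
is needed.  When `U` acts trivially on `M`, `I U M = coind_U^G (trivial M)` is a "free" module
(functions on `U \ G` with values in the vector space `M`), so this is the cover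
`k[G/U]^d ↠ M` of the four-lemma ladder.  We also provide the kernel object `R U M`, the concrete
short exact sequence `0 → R U M → I U M → M → 0` in the shape of `Unipotent.induction_on`, and
the degree-one effaceability computation along `unit U M : M ⟶ I U M`.
-/
import Fermat.Agent.S55.Formal.Summand
import Fermat.Agent.S55.Formal.SummandAdm

set_option autoImplicit false

open CategoryTheory

universe u v w

namespace Fermat.Agent.S55.Formal.FreeCover

open Fermat.Agent.S55.Formal.Summand

noncomputable section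

variable {k : Type u} {G : Type v} [CommRing k] [Group G] (U : Subgroup G)

/-! ### the sum map -/

/-- The sum map as a linear map. -/
def sumLin (M : Rep.{max v w} k G) [U.FiniteIndex] : (I U M).V →ₗ[k] M.V :=
  letI : Fintype (G ⧸ U) := Fintype.ofFinite _
  ∑ c : G ⧸ U, (M.ρ c.out) ∘ₗ (LinearMap.proj (c.out)⁻¹) ∘ₗ (Submodule.subtype _)

lemma sumLin_apply (M : Rep.{max v w} k G) [U.FiniteIndex] [Fintype (G ⧸ U)] (f : I U M) :
    sumLin U M f = ∑ c : G ⧸ U, M.ρ c.out (f.1 (c.out)⁻¹) := by
  unfold sumLin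
  simp only [LinearMap.sum_apply, LinearMap.comp_apply]
  refine Finset.sum_congr (by ext; simp) (fun c _ => rfl)

lemma sumLin_equivariant (M : Rep.{max v w} k G) [U.FiniteIndex] (x : G) (f : I U M) :
    sumLin U M ((I U M).ρ x f) = M.ρ x (sumLin U M f) := by
  let _ : Fintype (G ⧸ U) := Fintype.ofFinite _
  rw [sumLin_apply, sumLin_apply]
  set T : G ⧸ U → M.V := fun c => M.ρ c.out (f.1 (c.out)⁻¹) with hT
  have key : ∀ c : G ⧸ U, M.ρ c.out (((I U M).ρ x f).1 (c.out)⁻¹) = M.ρ x (T (x⁻¹ • c)) := by
    intro c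
    have h1 : ((I U M).ρ x f).1 (c.out)⁻¹ = f.1 ((c.out)⁻¹ * x) := rfl
    have h2 : x⁻¹ • c = ((x⁻¹ * c.out : G) : G ⧸ U) := by
      conv_lhs => rw [← QuotientGroup.out_eq' c]
      rfl
    rw [h1, hT]
    simp only
    rw [h2, term_out]
    simp [← Module.End.mul_apply, ← map_mul]
  rw [Finset.sum_congr rfl (fun c _ => key c), ← map_sum]
  congr 1
  exact Equiv.sum_comp (MulAction.toPerm x⁻¹) T

/-- The sum map `I U M ⟶ M`, `f ↦ ∑_{gU} g • f (g⁻¹)`. -/
def sumMap (M : Rep.{max v w} k G) [U.FiniteIndex] : I U M ⟶ M :=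
  Rep.ofHom ⟨sumLin U M, fun x => LinearMap.ext fun f => sumLin_equivariant U M x f⟩

lemma sumMap_hom_apply (M : Rep.{max v w} k G) [U.FiniteIndex] [Fintype (G ⧸ U)] (f : I U M) :
    (sumMap U M).hom f = ∑ c : G ⧸ U, M.ρ c.out (f.1 (c.out)⁻¹) :=
  sumLin_apply U M f

/-- `avg` is the sum map divided by the index. -/
lemma avg_hom_apply_eq (M : Rep.{max v w} k G) [U.FiniteIndex] (f : I U M) :
    (avg U M).hom f = Ring.inverse (U.index : k) • (sumMap U M).hom f := by
  let _ : Fintype (G ⧸ U) := Fintype.ofFinite _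
  rw [avg_hom_apply, sumMap_hom_apply]

lemma sumMap_naturality {M N : Rep.{max v w} k G} [U.FiniteIndex] (φ : M ⟶ N) :
    Imap U φ ≫ sumMap U N = sumMap U M ≫ φ := by
  let _ : Fintype (G ⧸ U) := Fintype.ofFinite _
  ext f
  change (sumMap U N).hom ((Imap U φ).hom f) = φ.hom ((sumMap U M).hom f)
  rw [sumMap_hom_apply, sumMap_hom_apply, map_sum]
  refine Finset.sum_congr rfl fun c _ => ?_
  rw [Imap_hom_apply_coe]
  exact (Rep.hom_comm_apply φ _ _).symm

/-- On `unit`, the sum map is multiplication by the index. -/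
lemma sumMap_unit_apply (M : Rep.{max v w} k G) [U.FiniteIndex] (m : M) :
    (sumMap U M).hom ((unit U M).hom m) = (U.index : k) • m := by
  let _ : Fintype (G ⧸ U) := Fintype.ofFinite _
  rw [sumMap_hom_apply]
  have : ∀ c : G ⧸ U, M.ρ c.out (((unit U M).hom m).1 (c.out)⁻¹) = m := by
    intro c
    rw [unit_hom_apply_coe]
    simp [← Module.End.mul_apply, ← map_mul]
  rw [Finset.sum_congr rfl (fun c _ => this c)]
  simp only [Finset.sum_const, Finset.card_univ]
  rw [← Nat.card_eq_fintype_card, ← Subgroup.index_eq_card, Nat.cast_smul_eq_nsmul]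

/-! ### surjectivity -/

open Classical in
/-- The function supported on `U` with value `m` at `1`. -/
def deltaFun (M : Rep.{max v w} k G) (m : M) : I U M :=
  ⟨fun g => if g ∈ U then M.ρ g m else 0, fun s g => by
    by_cases hg : g ∈ U
    · have hsg : U.subtype s * g ∈ U := U.mul_mem s.2 hg
      simp only [hsg, hg, if_true]
      rw [map_mul]
      rfl
    · have hsg : U.subtype s * g ∉ U := fun h => hg (by
        have := U.mul_mem (U.inv_mem s.2) h
        simpa using this)
      simp only [hsg, hg, if_false]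
      exact (map_zero _).symm⟩

lemma deltaFun_apply_of_mem (M : Rep.{max v w} k G) (m : M) {g : G} (hg : g ∈ U) :
    (deltaFun U M m).1 g = M.ρ g m := by
  simp [deltaFun, hg]

lemma deltaFun_apply_of_not_mem (M : Rep.{max v w} k G) (m : M) {g : G} (hg : g ∉ U) :
    (deltaFun U M m).1 g = 0 := by
  simp [deltaFun, hg]

lemma sumMap_deltaFun (M : Rep.{max v w} k G) [U.FiniteIndex] (m : M) :
    (sumMap U M).hom (deltaFun U M m) = m := by
  let _ : Fintype (G ⧸ U) := Fintype.ofFinite _
  rw [sumMap_hom_apply]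
  rw [Finset.sum_eq_single ((1 : G) : G ⧸ U)]
  · rw [term_out]
    rw [inv_one, deltaFun_apply_of_mem U M m U.one_mem]
    simp
  · intro c _ hc
    have hout : (c.out)⁻¹ ∉ U := by
      intro h
      apply hc
      rw [← QuotientGroup.out_eq' c]
      exact QuotientGroup.eq.2 (by simpa using h)
    rw [deltaFun_apply_of_not_mem U M m hout, map_zero]
  · intro h
    exact absurd (Finset.mem_univ _) h

/-- The sum map is surjective. -/
theorem sumMap_surjective (M : Rep.{max v w} k G) [U.FiniteIndex] :
    Function.Surjective (sumMap U M).hom :=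
  fun m => ⟨deltaFun U M m, sumMap_deltaFun U M m⟩

/-! ### the kernel and the short exact sequence `0 → R U M → I U M → M → 0` -/

lemma ker_sumLin_stable (M : Rep.{max v w} k G) [U.FiniteIndex] (g : G) :
    LinearMap.ker (sumLin U M) ≤ (LinearMap.ker (sumLin U M)).comap ((I U M).ρ g) := by
  intro f hf
  rw [Submodule.mem_comap, LinearMap.mem_ker, sumLin_equivariant, LinearMap.mem_ker.1 hf, map_zero]

/-- The kernel of the sum map, as a representation. -/
def R (M : Rep.{max v w} k G) [U.FiniteIndex] : Rep.{max v w} k G :=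
  Rep.of ((I U M).ρ.subrepresentation (LinearMap.ker (sumLin U M)) (ker_sumLin_stable U M))

/-- The inclusion `R U M ⟶ I U M`. -/
def Rι (M : Rep.{max v w} k G) [U.FiniteIndex] : R U M ⟶ I U M :=
  Rep.ofHom (ρ := (I U M).ρ.subrepresentation (LinearMap.ker (sumLin U M))
      (ker_sumLin_stable U M)) (σ := (I U M).ρ)
    ((LinearMap.ker (sumLin U M)).subtype.intertwiningMap_of_isIntertwiningMap _ _
      (fun _ _ => rfl))

theorem Rι_injective (M : Rep.{max v w} k G) [U.FiniteIndex] :
    Function.Injective (Rι U M).hom :=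
  fun _ _ h => Subtype.ext h

/-- Exactness of `R U M → I U M → M` in the shape of `Unipotent.induction_on`. -/
theorem sumMap_eq_zero_iff (M : Rep.{max v w} k G) [U.FiniteIndex] (f : I U M) :
    (sumMap U M).hom f = 0 ↔ ∃ r, (Rι U M).hom r = f :=
  ⟨fun h => ⟨⟨f, LinearMap.mem_ker.2 h⟩, rfl⟩, by
    rintro ⟨r, rfl⟩
    exact LinearMap.mem_ker.1 r.2⟩

/-- An element acting trivially on `I U M` acts trivially on `R U M`. -/
theorem R_ρ_eq_one (M : Rep.{max v w} k G) [U.FiniteIndex] (g : G) (hg : (I U M).ρ g = 1) :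
    (R U M).ρ g = 1 := by
  refine LinearMap.ext fun r => Subtype.ext ?_
  change (I U M).ρ g r.1 = r.1
  rw [hg]
  rfl

instance finite_I (M : Rep.{max v w} k G) [U.FiniteIndex] [Module.Finite k M] :
    Module.Finite k (I U M) :=
  SummandAdm.finite_coind U (Rep.res U.subtype M)

instance finite_R (M : Rep.{max v w} k G) [U.FiniteIndex] [IsNoetherianRing k]
    [Module.Finite k M] : Module.Finite k (R U M) :=
  Module.Finite.of_injective (LinearMap.ker (sumLin U M)).subtype Subtype.val_injective

/-! ### `I U M` is coinduced from a trivial module when `U` acts trivially on `M` -/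

/-- If `U` acts trivially on `M` then `res_U M` is the trivial representation on `M.V`. -/
def resIsoTrivial (M : Rep.{max v w} k G) (hU : ∀ s ∈ U, M.ρ s = 1) :
    Rep.res U.subtype M ≅ Rep.trivial k U M.V :=
  Rep.mkIso (ρ := (Rep.res U.subtype M).ρ) (σ := Representation.trivial k U M.V)
    (Representation.Equiv.mk (LinearEquiv.refl k M.V) fun s => by
      ext m
      change M.ρ (s : G) m = m
      rw [hU s s.2]
      rfl)

/-- If `U` acts trivially on `M` then `I U M ≅ coind_U^G (trivial M.V)`. -/
def IIsoCoindTrivial (M : Rep.{max v w} k G) (hU : ∀ s ∈ U, M.ρ s = 1) :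
    I U M ≅ Rep.coind U.subtype (Rep.trivial k U M.V) :=
  (Rep.coindFunctor k U.subtype).mapIso (resIsoTrivial U M hU)

/-! ### effaceability in degree one -/

/-- A `1`-cocycle `x : G → M` vanishing on `U` becomes the coboundary of `x` itself, viewed as an
element of `I U M`, after composing with `unit U M : M ⟶ I U M`. -/
theorem unit_cocycle_eq_coboundary (M : Rep.{max v w} k G) (x : G → M)
    (hx : ∀ g h, x (g * h) = x g + M.ρ g (x h)) (hU : ∀ s ∈ U, x s = 0) :
    ∃ F : I U M, (∀ g, F.1 g = x g) ∧
      ∀ g, (unit U M).hom (x g) = (I U M).ρ g F - F := by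
  refine ⟨⟨x, fun s g => ?_⟩, fun g => rfl, fun g => ?_⟩
  · change x ((s : G) * g) = M.ρ (s : G) (x g)
    rw [hx, hU s s.2, zero_add]
  · refine Subtype.ext (funext fun h => ?_)
    change M.ρ h (x g) = x (h * g) - x h
    rw [hx, add_sub_cancel_left]

/-- Variant: a cocycle whose restriction to `U` is the coboundary of `m`. -/
theorem unit_cocycle_eq_coboundary' (M : Rep.{max v w} k G) (x : G → M)
    (hx : ∀ g h, x (g * h) = x g + M.ρ g (x h)) (m : M) (hU : ∀ s ∈ U, x s = M.ρ s m - m) :
    ∃ F : I U M, ∀ g, (unit U M).hom (x g) = (I U M).ρ g F - F := by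
  obtain ⟨F, -, hF⟩ := unit_cocycle_eq_coboundary U M (fun g => x g - (M.ρ g m - m))
    (fun g h => by
      rw [hx, map_mul, Module.End.mul_apply, map_sub, map_sub]
      abel)
    (fun s hs => by simp [hU s hs])
  refine ⟨F + (unit U M).hom m, fun g => ?_⟩
  have h1 := hF g
  simp only [map_sub] at h1
  have h2 : (I U M).ρ g ((unit U M).hom m) = (unit U M).hom (M.ρ g m) :=
    (Rep.hom_comm_apply (unit U M) g m).symm
  rw [map_add, h2]
  rw [sub_eq_iff_eq_add] at h1
  rw [h1]
  abel

end

end Fermat.Agent.S55.Formal.FreeCover
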