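/-
S55 / Formal end (helper76): the GLOBAL HALF of the formal duality argument, on an abstract package
of pairings `GPairing` (to be instantiated by CupSite + EvalPair + Trace).

For a site `X`, field `k`, smooth character `χ`:
* `GPairing X χ` : maps `phi3 N : H³_c(N) → H⁰(N')^*`, `phi2 N : H²_c(N) → H¹(N')^*` (`N' = tw N χ`),
  natural in `N` (`nat3`, `nat2`) and compatible with the connecting maps up to a unit (`delta`).
* `Adm X N` : `N` finite-dimensional and uniformly smooth.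
Results (under `Vanish₃All`, right exactness, additivity and the base cases, all hypotheses):
* `phi3_surjective`, `phi3_injective` for all admissible `N`;
* `flip_phi2_injective` : `H¹(M') → H²_c(M)^*` is injective (effacement);
* `phi2_bijective` for all admissible `M`.
-/
import Fermat.Agent.S55.Formal.Blocks
import Fermat.Agent.S55.Formal.ConeSES
import Fermat.Agent.S55.Formal.DualityAlgebra
import Fermat.Agent.S55.Formal.DualTwistApi
import Fermat.Agent.S55.Formal.EffaceDualApi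
import Fermat.Agent.S55.Formal.PermBasis

set_option autoImplicit false

open CategoryTheory groupCohomology Module

namespace Fermat.Agent.S55.Formal.GlobalDuality

open Fermat.Agent.S55.Formal Fermat.Agent.S55.Formal.CoefLES

variable {k : Type} [Field k] (X : Site) (χ : X.G →* kˣ)

/-- the transpose of a morphism on twisted duals -/
noncomputable abbrev tmap {N₁ N₂ : Rep.{0, 0, 0} k X.G} (φ : N₁ ⟶ N₂) : tw N₂ χ ⟶ tw N₁ χ :=
  DualTwistApi.dualTwistMap χ φ

/-- a coefficient morphism as a `Mor` over the identity -/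
abbrev om {N₁ N₂ : Rep.{0, 0, 0} k X.G} (φ : N₁ ⟶ N₂) : Mor X.𝒰 N₁ X.𝒰 N₂ := Mor.ofHom X.𝒰 φ

/-- `H³_c` on morphisms -/
noncomputable abbrev m3 {N₁ N₂ : Rep.{0, 0, 0} k X.G} (φ : N₁ ⟶ N₂) : X.H3c N₁ →ₗ[k] X.H3c N₂ :=
  ConeSES.H3cmap X (om X φ) (fun _ => rfl)

/-- `H²_c` on morphisms -/
noncomputable abbrev m2 {N₁ N₂ : Rep.{0, 0, 0} k X.G} (φ : N₁ ⟶ N₂) : X.H2c N₁ →ₗ[k] X.H2c N₂ :=
  ConeSES.H2cmap X (om X φ) (fun _ => rfl)

/-- admissible coefficient modules -/
def Adm (N : Rep.{0, 0, 0} k X.G) : Prop := Module.Finite k N ∧ IsUSmooth X.𝒰 N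

/-- a short exact sequence of representations, as `IsCoefSES` -/
abbrev SES {R Q M : Rep.{0, 0, 0} k X.G} (i : R ⟶ Q) (π : Q ⟶ M) : Prop :=
  IsCoefSES (om X i) (om X π)

/-- The package of global pairings. -/
structure GPairing where
  /-- `H³_c(N) → H⁰(N')^*` -/
  phi3 : ∀ N : Rep.{0, 0, 0} k X.G, X.H3c N →ₗ[k] Dual k ↥(H0 X.𝒰 (tw N χ))
  /-- `H²_c(N) → H¹(N')^*` -/
  phi2 : ∀ N : Rep.{0, 0, 0} k X.G, X.H2c N →ₗ[k] Dual k (H1 X.𝒰 (tw N χ))
  nat3 : ∀ {N₁ N₂ : Rep.{0, 0, 0} k X.G} (φ : N₁ ⟶ N₂) (x : X.H3c N₁)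
    (y : ↥(H0 X.𝒰 (tw N₂ χ))), phi3 N₂ (m3 X φ x) y = phi3 N₁ x ((om X (tmap X χ φ)).h0 y)
  nat2 : ∀ {N₁ N₂ : Rep.{0, 0, 0} k X.G} (φ : N₁ ⟶ N₂) (x : X.H2c N₁)
    (y : H1 X.𝒰 (tw N₂ χ)), phi2 N₂ (m2 X φ x) y = phi2 N₁ x ((om X (tmap X χ φ)).h1 y)
  /-- the sign in the `δ`-compatibility -/
  eps : k
  eps_ne : eps ≠ 0
  delta : ∀ {R Q M : Rep.{0, 0, 0} k X.G} (i : R ⟶ Q) (π : Q ⟶ M) (h : SES X i π)
    (h' : SES X (tmap X χ π) (tmap X χ i)) (x : X.H2c M) (z : ↥(H0 X.𝒰 (tw R χ))),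
    phi3 R (ConeSES.δc X h x) z = eps * phi2 M x (δ₀ h' z)

/-! ### two presentation lemmas (plain linear algebra) -/

section Pres

variable {TR TB TN HN HB HR : Type*} [AddCommGroup TR] [Module k TR] [AddCommGroup TB]
  [Module k TB] [AddCommGroup TN] [Module k TN] [AddCommGroup HN] [Module k HN]
  [AddCommGroup HB] [Module k HB] [AddCommGroup HR] [Module k HR]

/-- a functional vanishing on `ker u` factors through `u` -/
theorem exists_factor {V W : Type*} [AddCommGroup V] [Module k V] [AddCommGroup W] [Module k W]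
    (u : V →ₗ[k] W) (f : Dual k V) (h : ∀ v, u v = 0 → f v = 0) :
    ∃ g : Dual k W, ∀ v, g (u v) = f v := by
  have hf : f ∈ (LinearMap.ker u).dualAnnihilator := by
    rw [Submodule.mem_dualAnnihilator]
    intro v hv
    exact h v (LinearMap.mem_ker.1 hv)
  rw [← LinearMap.range_dualMap_eq_dualAnnihilator_ker] at hf
  obtain ⟨g, hg⟩ := hf
  exact ⟨g, fun v => by rw [← hg]; rfl⟩

/-- surjectivity passes to quotients -/
theorem pres_surjective (a : TB →ₗ[k] TN) (u : HN →ₗ[k] HB) (hu : Function.Injective u)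
    (φB : TB →ₗ[k] Dual k HB) (φN : TN →ₗ[k] Dual k HN)
    (hnat : ∀ b y, φN (a b) y = φB b (u y)) (hB : Function.Surjective φB) :
    Function.Surjective φN := by
  intro f
  obtain ⟨g, hg⟩ := exists_factor u f (fun v hv => by
    have : v = 0 := hu (by rw [hv, map_zero])
    rw [this, map_zero])
  obtain ⟨b, hb⟩ := hB g
  refine ⟨a b, LinearMap.ext fun y => ?_⟩
  rw [hnat, hb, hg]

/-- injectivity passes to quotients along a presentation -/
theorem pres_injective (c : TR →ₗ[k] TB) (a : TB →ₗ[k] TN) (ha : Function.Surjective a)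
    (hac : ∀ r, a (c r) = 0)
    (u : HN →ₗ[k] HB) (w : HB →ₗ[k] HR) (huw : Function.Exact u w)
    (φR : TR →ₗ[k] Dual k HR) (φB : TB →ₗ[k] Dual k HB) (φN : TN →ₗ[k] Dual k HN)
    (hnatN : ∀ b y, φN (a b) y = φB b (u y)) (hnatB : ∀ r y, φB (c r) y = φR r (w y))
    (hR : Function.Surjective φR) (hB : Function.Injective φB) :
    Function.Injective φN := by
  rw [← LinearMap.ker_eq_bot, LinearMap.ker_eq_bot']
  intro x hx
  obtain ⟨b, rfl⟩ := ha x
  have h1 : ∀ v, w v = 0 → φB b v = 0 := by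
    intro v hv
    obtain ⟨y, rfl⟩ := (huw v).1 hv
    rw [← hnatN, hx]
    rfl
  obtain ⟨g, hg⟩ := exists_factor w (φB b) h1
  obtain ⟨r, hr⟩ := hR g
  have h2 : φB (c r) = φB b := LinearMap.ext fun y => by rw [hnatB, hr, hg]
  rw [← hB h2, hac]

end Pres

variable {X χ}

/-- the dual of a short exact sequence of admissible modules is a short exact sequence -/
theorem ses_dual (hχ : ∃ U, X.𝒰.mem U ∧ TrivOn χ U) {R Q M : Rep.{0, 0, 0} k X.G}
    (i : R ⟶ Q) (π : Q ⟶ M) (h : SES X i π) : SES X (tmap X χ π) (tmap X χ i) where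
  fα _ := rfl
  fβ _ := rfl
  inj := DualTwistApi.dualTwistMap_injective χ π h.surj
  surj := DualTwistApi.dualTwistMap_surjective χ i h.inj
  exact := DualTwistApi.dualTwistMap_exact χ i π h.exact
  usmooth := PermBasis.isUSmooth_tw χ h.usmooth hχ

/-- the short exact sequence of a surjection and its kernel -/
theorem ses_ker {Q M : Rep.{0, 0, 0} k X.G} (π : Q ⟶ M) (hπ : Function.Surjective π.hom)
    (hQ : IsUSmooth X.𝒰 Q) : SES X (Perm.kerι π) π where
  fα _ := rfl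
  fβ _ := rfl
  inj := Perm.kerι_injective π
  surj := hπ
  exact := fun b => Perm.eq_zero_iff_exists_kerι π b
  usmooth := hQ

/-- admissible modules have a free cover by `(k[G/W])^d` with `χ` trivial on `W ∈ 𝒰` -/
theorem exists_cover (hχ : ∃ U, X.𝒰.mem U ∧ TrivOn χ U) (N : Rep.{0, 0, 0} k X.G)
    (hN : Adm X N) :
    ∃ (W : Subgroup X.G) (_ : X.𝒰.mem W) (_ : TrivOn χ W) (d : ℕ)
      (π : Perm.powRep (perm k W) d ⟶ N), Function.Surjective π.hom ∧
      Adm X (Perm.powRep (perm k W) d) ∧ Adm X (Perm.kerRep π) := by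
  obtain ⟨hfin, U₀, hU₀, hU₀N⟩ := hN
  obtain ⟨U₁, hU₁, hU₁χ⟩ := hχ
  obtain ⟨W, hW, hle⟩ := X.𝒰.inf hU₀ hU₁
  haveI : FiniteDimensional k N := hfin
  obtain ⟨d, π, h1, h2, h3, h4, h5, -, -⟩ := PermBasis.exists_free_cover_perm X.𝒰 N hW
    (fun s hs m => hU₀N s (hle hs).1 m)
  exact ⟨W, hW, fun s hs => hU₁χ s (hle hs).2, d, π, h1, ⟨h3, h2⟩, ⟨h5, h4⟩⟩

section Main

variable (G : GPairing X χ) (hχ : ∃ U, X.𝒰.mem U ∧ TrivOn χ U)

include hχ

/-- **`φ³` is surjective for all admissible modules.** -/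
theorem phi3_surjective
    (hadd : ∀ (B : Rep.{0, 0, 0} k X.G) (d : ℕ), Function.Surjective (G.phi3 B) →
      Function.Surjective (G.phi3 (Perm.powRep B d)))
    (hbase : ∀ U, X.𝒰.mem U → TrivOn χ U → Function.Surjective (G.phi3 (perm k U)))
    (N : Rep.{0, 0, 0} k X.G) (hN : Adm X N) : Function.Surjective (G.phi3 N) := by
  obtain ⟨W, hW, hWχ, d, π, hπ, hB, -⟩ := exists_cover hχ N hN
  have h := ses_ker π hπ hB.2
  have h' := ses_dual hχ _ _ h
  exact pres_surjective (m3 X π) ((om X (tmap X χ π)).h0) (h0_injective h')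
    (G.phi3 _) (G.phi3 N) (G.nat3 π) (hadd _ d (hbase W hW hWχ))

/-- **`φ³` is injective for all admissible modules.** -/
theorem phi3_injective
    (hrex : ∀ {R Q M : Rep.{0, 0, 0} k X.G} (i : R ⟶ Q) (π : Q ⟶ M), SES X i π →
      Adm X R → Adm X Q → Adm X M → Function.Surjective (m3 X π))
    (haddS : ∀ (B : Rep.{0, 0, 0} k X.G) (d : ℕ), Function.Surjective (G.phi3 B) →
      Function.Surjective (G.phi3 (Perm.powRep B d)))
    (haddI : ∀ (B : Rep.{0, 0, 0} k X.G) (d : ℕ), Function.Injective (G.phi3 B) →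
      Function.Injective (G.phi3 (Perm.powRep B d)))
    (hbase : ∀ U, X.𝒰.mem U → TrivOn χ U → Function.Bijective (G.phi3 (perm k U)))
    (N : Rep.{0, 0, 0} k X.G) (hN : Adm X N) : Function.Injective (G.phi3 N) := by
  obtain ⟨W, hW, hWχ, d, π, hπ, hB, hR⟩ := exists_cover hχ N hN
  have h := ses_ker π hπ hB.2
  have h' := ses_dual hχ _ _ h
  refine pres_injective (m3 X (Perm.kerι π)) (m3 X π) (hrex _ _ h hR hB hN) ?_
    ((om X (tmap X χ π)).h0) ((om X (tmap X χ (Perm.kerι π))).h0) (exact_h0 h')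
    (G.phi3 _) (G.phi3 _) (G.phi3 N) (G.nat3 π) (G.nat3 (Perm.kerι π))
    (phi3_surjective G hχ haddS (fun U hU hUχ => (hbase U hU hUχ).2) _ hR)
    (haddI _ d (hbase W hW hWχ).1)
  intro r
  exact (ConeSES.exact_H3c X h _).2 ⟨r, rfl⟩

/-- **Effacement**: `H¹(M') → H²_c(M)^*` is injective, given that `φ³` is bijective on admissible
modules. -/
theorem flip_phi2_injective
    (h3 : ∀ N : Rep.{0, 0, 0} k X.G, Adm X N → Function.Bijective (G.phi3 N))
    (M : Rep.{0, 0, 0} k X.G) (hM : Adm X M) : Function.Injective (G.phi2 M).flip := by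
  rw [← LinearMap.ker_eq_bot, LinearMap.ker_eq_bot']
  intro x hx
  haveI : FiniteDimensional k M := hM.1
  obtain ⟨I, π, hI, hIfin, hπ, hx0⟩ := EffaceDualApi.efface X.𝒰 χ hχ M hM.2 x
  have hIadm : Adm X I := ⟨hIfin, hI⟩
  have hRadm : Adm X (Perm.kerRep π) := ⟨Perm.finite_kerRep π, Perm.isUSmooth_kerRep π hI⟩
  have h := ses_ker π hπ hI
  have h' := ses_dual hχ _ _ h
  have hy : ∃ y, δ₀ h' y = x := (exact_δ₀_h1 h' x).1 hx0
  refine DualityAlgebra.eq_zero_of_effaceable' (ConeSES.δc X h) (m3 X (Perm.kerι π))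
    (fun z hz => (ConeSES.exact_δc_H3c X h z).1 hz)
    ((om X (tmap X χ (Perm.kerι π))).h0) (δ₀ h')
    (fun w => (exact_h0_δ₀ h' _).2 ⟨w, rfl⟩)
    (G.phi3 _) (G.phi3 I) (h3 _ hRadm).2 (h3 _ hIadm).1 (G.nat3 (Perm.kerι π))
    (G.phi2 M).flip G.eps⁻¹ (inv_ne_zero G.eps_ne) ?_ x hy hx
  intro z y
  rw [LinearMap.flip_apply, G.delta (Perm.kerι π) π h h' z y, ← mul_assoc,
    inv_mul_cancel₀ G.eps_ne, one_mul]

/-- `φ²` is surjective for all admissible modules with `H¹(M')` finite-dimensional. -/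
theorem phi2_surjective
    (h3 : ∀ N : Rep.{0, 0, 0} k X.G, Adm X N → Function.Bijective (G.phi3 N))
    (M : Rep.{0, 0, 0} k X.G) (hM : Adm X M) (hfin : Module.Finite k (H1 X.𝒰 (tw M χ))) :
    Function.Surjective (G.phi2 M) :=
  LinearMap.flip_injective_iff₂.mp (flip_phi2_injective G hχ h3 M hM)

/-- `φ²` is bijective as soon as it is surjective and `dim H²_c ≤ dim H¹(·')`. -/
theorem phi2_bijective_of_le
    (M : Rep.{0, 0, 0} k X.G) (hfin : Module.Finite k (H1 X.𝒰 (tw M χ)))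
    (hfin2 : Module.Finite k (X.H2c M))
    (hle : finrank k (X.H2c M) ≤ finrank k (H1 X.𝒰 (tw M χ)))
    (hs : Function.Surjective (G.phi2 M)) : Function.Bijective (G.phi2 M) := by
  have h1 : finrank k (Dual k (H1 X.𝒰 (tw M χ))) = finrank k (H1 X.𝒰 (tw M χ)) :=
    Subspace.dual_finrank_eq
  have h2 : finrank k (Dual k (H1 X.𝒰 (tw M χ))) ≤ finrank k (X.H2c M) := by
    have hr : finrank k ↥(LinearMap.range (G.phi2 M)) = finrank k (Dual k (H1 X.𝒰 (tw M χ))) := by
      rw [LinearMap.range_eq_top.2 hs]; exact finrank_top k _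
    rw [← hr]
    exact LinearMap.finrank_range_le _
  have heq : finrank k (X.H2c M) = finrank k (Dual k (H1 X.𝒰 (tw M χ))) :=
    le_antisymm (h1 ▸ hle) h2
  exact ⟨(LinearMap.injective_iff_surjective_of_finrank_eq_finrank heq).2 hs, hs⟩

/-- **`φ²` is injective for all admissible modules** (five lemma on the free cover). -/
theorem phi2_injective
    (h3 : ∀ N : Rep.{0, 0, 0} k X.G, Adm X N → Function.Bijective (G.phi3 N))
    (hfinAll : ∀ N : Rep.{0, 0, 0} k X.G, Adm X N → Module.Finite k (H1 X.𝒰 (tw N χ)))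
    (haddI : ∀ (B : Rep.{0, 0, 0} k X.G) (d : ℕ), Function.Injective (G.phi2 B) →
      Function.Injective (G.phi2 (Perm.powRep B d)))
    (hbase : ∀ U, X.𝒰.mem U → TrivOn χ U → Function.Injective (G.phi2 (perm k U)))
    (M : Rep.{0, 0, 0} k X.G) (hM : Adm X M) : Function.Injective (G.phi2 M) := by
  obtain ⟨W, hW, hWχ, d, π, hπ, hB, hR⟩ := exists_cover hχ M hM
  have h := ses_ker π hπ hB.2
  have h' := ses_dual hχ _ _ h
  exact DualityAlgebra.injective_of_dual_ladder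
    (m2 X (Perm.kerι π)) (m2 X π) (ConeSES.δc X h)
    ((om X (tmap X χ (Perm.kerι π))).h1) ((om X (tmap X χ π)).h1) (δ₀ h')
    (G.phi2 _) (G.phi2 _) (G.phi2 M) (G.phi3 _)
    (ConeSES.exact_H2c X h) (ConeSES.exact_H2c_δc X h) (exact_h1 h')
    1 1 G.eps one_ne_zero one_ne_zero G.eps_ne
    (fun a b => by rw [one_mul]; exact G.nat2 _ a b)
    (fun a b => by rw [one_mul]; exact G.nat2 _ a b)
    (fun a b => G.delta _ _ h h' a b)
    (phi2_surjective G hχ h3 _ hR (hfinAll _ hR))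
    (haddI _ d (hbase W hW hWχ))
    (h3 _ hR).1

omit hχ in
/-- **The count** `dim Ш¹(M') = dim Ш²(M)` from `φ²_M` bijective, the compatibility square and the
injectivity of the local pairing. -/
theorem finrank_sha_eq (M : Rep.{0, 0, 0} k X.G)
    (h2 : Function.Bijective (G.phi2 M))
    (hfin1 : Module.Finite k (H1 X.𝒰 (tw M χ))) (hfin2 : Module.Finite k (H2 X.𝒰 M))
    (lamT : X.P1 (tw M χ) →ₗ[k] Dual k (X.P1 M)) (hlam : Function.Injective lamT)
    (c : k) (hc : c ≠ 0)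
    (sq : ∀ b y, G.phi2 M (X.ι₂ M b) y = c * lamT (X.loc₁ (tw M χ) y) b) :
    Module.Finite k ↥(X.sha1 (tw M χ)) ∧ Module.Finite k ↥(X.sha2 M) ∧
      finrank k ↥(X.sha1 (tw M χ)) = finrank k ↥(X.sha2 M) := by
  haveI : Module.Finite k ↥(LinearMap.ker (X.loc₂ M)) := Module.Finite.of_injective
    (LinearMap.ker (X.loc₂ M)).subtype (Submodule.injective_subtype _)
  haveI : Module.Finite k ↥(LinearMap.ker (X.loc₁ (tw M χ))) := Module.Finite.of_injective
    (LinearMap.ker (X.loc₁ (tw M χ))).subtype (Submodule.injective_subtype _)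
  refine ⟨inferInstanceAs (Module.Finite k ↥(LinearMap.ker (X.loc₁ (tw M χ)))),
    inferInstanceAs (Module.Finite k ↥(LinearMap.ker (X.loc₂ M))), ?_⟩
  exact DualityAlgebra.finrank_ker_eq_finrank_ker (X.ι₂ M) (X.π₂ M) (X.loc₂ M)
    (X.exact_ι₂_π₂ M) (X.exact_π₂_loc₂ M) (X.loc₁ (tw M χ)) (G.phi2 M).flip lamT
    (LinearMap.flip_bijective_iff₂.mpr h2) hlam c hc
    (fun x y => by rw [LinearMap.flip_apply]; exact sq x y)

end Main

/-- **All inputs of the global assembly** (pairings, right exactness, additivity, base case of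
`φ³`, local pairing).  Everything here is produced by other files of the formal end. -/
structure Inputs (X : Site) (k : Type) [Field k] (χ : X.G →* kˣ) where
  /-- the pairings -/
  G : GPairing X χ
  fin : FinAll X k
  rex : ∀ {R Q M : Rep.{0, 0, 0} k X.G} (i : R ⟶ Q) (π : Q ⟶ M), SES X i π →
    Adm X R → Adm X Q → Adm X M → Function.Surjective (m3 X π)
  add3S : ∀ (B : Rep.{0, 0, 0} k X.G) (d : ℕ), Function.Surjective (G.phi3 B) →
    Function.Surjective (G.phi3 (Perm.powRep B d))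
  add3I : ∀ (B : Rep.{0, 0, 0} k X.G) (d : ℕ), Function.Injective (G.phi3 B) →
    Function.Injective (G.phi3 (Perm.powRep B d))
  add2I : ∀ (B : Rep.{0, 0, 0} k X.G) (d : ℕ), Function.Injective (G.phi2 B) →
    Function.Injective (G.phi2 (Perm.powRep B d))
  base3 : ∀ U, X.𝒰.mem U → TrivOn χ U → Function.Bijective (G.phi3 (perm k U))
  /-- the local pairing `P¹(N') → P¹(N)^*` -/
  lamT : ∀ N : Rep.{0, 0, 0} k X.G, X.P1 (tw N χ) →ₗ[k] Dual k (X.P1 N)
  lamT_inj : ∀ N : Rep.{0, 0, 0} k X.G, Adm X N → Function.Injective (lamT N)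
  /-- the constant in the compatibility square -/
  c : k
  c_ne : c ≠ 0
  sq : ∀ (N : Rep.{0, 0, 0} k X.G) (b : X.P1 N) (y : H1 X.𝒰 (tw N χ)),
    G.phi2 N (X.ι₂ N b) y = c * lamT N (X.loc₁ (tw N χ) y) b

/-- the twisted dual of an admissible module is admissible -/
theorem adm_tw (hχ : ∃ U, X.𝒰.mem U ∧ TrivOn χ U) (N : Rep.{0, 0, 0} k X.G) (hN : Adm X N) :
    Adm X (tw N χ) := by
  haveI : FiniteDimensional k N := hN.1
  exact ⟨Perm.finite_dualTwist N χ, PermBasis.isUSmooth_tw χ hN.2 hχ⟩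

/-- **The formal main theorem**, from: the pairings, finiteness, `φ³` bijective on admissible modules,
additivity of `φ²`, and the local pairing. -/
theorem main_of_bij3 (hA : BaseA X k χ) (G : GPairing X χ) (fin : FinAll X k)
    (h3 : ∀ N : Rep.{0, 0, 0} k X.G, Adm X N → Function.Bijective (G.phi3 N))
    (add2I : ∀ (B : Rep.{0, 0, 0} k X.G) (d : ℕ), Function.Injective (G.phi2 B) →
      Function.Injective (G.phi2 (Perm.powRep B d)))
    (M : Rep.{0, 0, 0} k X.G) (hM : Adm X M)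
    (lamT : X.P1 (tw M χ) →ₗ[k] Dual k (X.P1 M)) (lamT_inj : Function.Injective lamT)
    (c : k) (c_ne : c ≠ 0)
    (sq : ∀ (b : X.P1 M) (y : H1 X.𝒰 (tw M χ)),
      G.phi2 M (X.ι₂ M b) y = c * lamT (X.loc₁ (tw M χ) y) b) :
    Module.Finite k ↥(X.sha1 (tw M χ)) ∧ Module.Finite k ↥(X.sha2 M) ∧
      finrank k ↥(X.sha1 (tw M χ)) = finrank k ↥(X.sha2 M) := by
  have hχ := hA.chi_smooth
  have hfin1 : ∀ N : Rep.{0, 0, 0} k X.G, Adm X N → Module.Finite k (H1 X.𝒰 (tw N χ)) :=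
    fun N hN => (fin (tw N χ) (adm_tw hχ N hN).1 (adm_tw hχ N hN).2).1
  have hperm : ∀ U, X.𝒰.mem U → Adm X (perm k U) := fun U hU =>
    ⟨PermBasis.finite_perm X.𝒰 ⟨U, hU, le_rfl⟩, PermBasis.isUSmooth_perm X.𝒰 ⟨U, hU, le_rfl⟩⟩
  have hbase2 : ∀ U, X.𝒰.mem U → TrivOn χ U → Function.Injective (G.phi2 (perm k U)) := by
    intro U hU hUχ
    have hf := hfin1 _ (hperm U hU)
    obtain ⟨hg1, hg2⟩ := hA.g₂ U hU hUχ
    exact (phi2_bijective_of_le G hχ _ hf hg1 hg2
      (phi2_surjective G hχ h3 _ (hperm U hU) hf)).1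
  have h2 : Function.Bijective (G.phi2 M) :=
    ⟨phi2_injective G hχ h3 hfin1 add2I hbase2 M hM,
      phi2_surjective G hχ h3 M hM (hfin1 M hM)⟩
  exact finrank_sha_eq G M h2 (hfin1 M hM) (fin M hM.1 hM.2).2 lamT lamT_inj c c_ne sq

/-- **The formal main theorem from the inputs.** -/
theorem main_of_inputs (hA : BaseA X k χ) (I : Inputs X k χ) (M : Rep.{0, 0, 0} k X.G)
    (hM : Adm X M) :
    Module.Finite k ↥(X.sha1 (tw M χ)) ∧ Module.Finite k ↥(X.sha2 M) ∧
      finrank k ↥(X.sha1 (tw M χ)) = finrank k ↥(X.sha2 M) := by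
  have hχ := hA.chi_smooth
  have h3 : ∀ N : Rep.{0, 0, 0} k X.G, Adm X N → Function.Bijective (I.G.phi3 N) := fun N hN =>
    ⟨phi3_injective I.G hχ I.rex I.add3S I.add3I I.base3 N hN,
      phi3_surjective I.G hχ I.add3S (fun U hU hUχ => (I.base3 U hU hUχ).2) N hN⟩
  exact main_of_bij3 hA I.G I.fin h3 I.add2I M hM (I.lamT M) (I.lamT_inj M hM) I.c I.c_ne (I.sq M)

end Fermat.Agent.S55.Formal.GlobalDuality
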