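/-
S55 / Formal end (helper75): the ADDITIVITY fields of `GlobalDuality.Inputs` hold for EVERY
`GlobalDuality.GPairing` — they follow from the naturality fields `nat3`, `nat2` alone.

* `dualTw X χ T` : for a `LinFunctor` `T` on `Rep k X.G`, the covariant functor
  `N ↦ Module.Dual k (T (tw N χ))` (transpose taken with `DualTwistApi.dualTwistMap`);
* `nat3 G : hFc3 X ⟹ dualTw X χ (hF0 X.𝒰)`, `nat2 G : hFc2 X ⟹ dualTw X χ (hF1 X.𝒰)` with components
  `G.phi3 N`, `G.phi2 N`;
* `add3S`, `add3I`, `add3B`, `add2S`, `add2I`, `add2B` in the literal shape of the fields of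
  `GlobalDuality.Inputs` (so `Main.lean` can write `add3S := GPairingAdd.add3S X χ G` etc.).
-/
import Mathlib
import Fermat.Agent.S55.Formal.GlobalDuality
import Fermat.Agent.S55.Formal.ConeFunctor

set_option autoImplicit false

open CategoryTheory groupCohomology Module

namespace Fermat.Agent.S55.Formal.GPairingAdd

open Fermat.Agent.S55.Formal Fermat.Agent.S55.Formal.Functor
  Fermat.Agent.S55.Formal.GlobalDuality

variable {k : Type} [Field k] (X : Site) (χ : X.G →* kˣ)

/-- `N ↦ Module.Dual k (T (tw N χ))`, covariant in `N`; the transpose of a morphism is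
`DualTwistApi.dualTwistMap` (the one used by `GlobalDuality.GPairing`). -/
noncomputable def dualTw (T : LinFunctor.{1, 0, 0} k (Rep.{0, 0, 0} k X.G)) :
    LinFunctor.{1, 0, 0} k (Rep.{0, 0, 0} k X.G) where
  obj N := Module.Dual k (T.obj (tw N χ))
  acg _ := inferInstance
  mod _ := inferInstance
  map φ := (T.map (DualTwistApi.dualTwistMap χ φ)).dualMap
  map_id N := by
    rw [DualTwistApi.dualTwistMap_id, T.map_id]
    exact LinearMap.dualMap_id
  map_comp φ ψ := by
    rw [DualTwistApi.dualTwistMap_comp, T.map_comp]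
    exact (LinearMap.dualMap_comp_dualMap _ _).symm
  map_add φ ψ := by
    rw [DualTwistApi.dualTwistMap_add, T.map_add]
    apply LinearMap.ext
    intro f
    apply LinearMap.ext
    intro x
    simp only [LinearMap.dualMap_apply, LinearMap.add_apply]
    exact _root_.map_add f _ _

variable {X χ}

/-- `φ³` as a natural transformation `H³_c ⟹ Dual (H⁰ (tw · χ))` -/
noncomputable def nat3 (G : GPairing X χ) :
    LinFunctor.NatTrans (ConeFunctor.hFc3 (k := k) X) (dualTw X χ (hF0 X.𝒰)) where
  app N := G.phi3 N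
  naturality φ x := by
    apply LinearMap.ext
    intro y
    exact (G.nat3 φ x y).symm

/-- `φ²` as a natural transformation `H²_c ⟹ Dual (H¹ (tw · χ))` -/
noncomputable def nat2 (G : GPairing X χ) :
    LinFunctor.NatTrans (ConeFunctor.hFc2 (k := k) X) (dualTw X χ (hF1 X.𝒰)) where
  app N := G.phi2 N
  naturality φ x := by
    apply LinearMap.ext
    intro y
    exact (G.nat2 φ x y).symm

@[simp] lemma nat3_app (G : GPairing X χ) (N : Rep.{0, 0, 0} k X.G) :
    (nat3 G).app N = G.phi3 N := rfl

@[simp] lemma nat2_app (G : GPairing X χ) (N : Rep.{0, 0, 0} k X.G) :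
    (nat2 G).app N = G.phi2 N := rfl

variable (X χ)

/-- field `add3S` of `GlobalDuality.Inputs` -/
theorem add3S (G : GPairing X χ) (B : Rep.{0, 0, 0} k X.G) (d : ℕ)
    (h : Function.Surjective (G.phi3 B)) : Function.Surjective (G.phi3 (Perm.powRep B d)) :=
  ConeFunctor.surjective_pow (nat3 G) B d h

/-- field `add3I` of `GlobalDuality.Inputs` -/
theorem add3I (G : GPairing X χ) (B : Rep.{0, 0, 0} k X.G) (d : ℕ)
    (h : Function.Injective (G.phi3 B)) : Function.Injective (G.phi3 (Perm.powRep B d)) :=
  ConeFunctor.injective_pow (nat3 G) B d h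

/-- bijective version for `φ³` -/
theorem add3B (G : GPairing X χ) (B : Rep.{0, 0, 0} k X.G) (d : ℕ)
    (h : Function.Bijective (G.phi3 B)) : Function.Bijective (G.phi3 (Perm.powRep B d)) :=
  ConeFunctor.bijective_pow (nat3 G) B d h

/-- surjective version for `φ²` -/
theorem add2S (G : GPairing X χ) (B : Rep.{0, 0, 0} k X.G) (d : ℕ)
    (h : Function.Surjective (G.phi2 B)) : Function.Surjective (G.phi2 (Perm.powRep B d)) :=
  ConeFunctor.surjective_pow (nat2 G) B d h

/-- field `add2I` of `GlobalDuality.Inputs` -/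
theorem add2I (G : GPairing X χ) (B : Rep.{0, 0, 0} k X.G) (d : ℕ)
    (h : Function.Injective (G.phi2 B)) : Function.Injective (G.phi2 (Perm.powRep B d)) :=
  ConeFunctor.injective_pow (nat2 G) B d h

/-- bijective version for `φ²` -/
theorem add2B (G : GPairing X χ) (B : Rep.{0, 0, 0} k X.G) (d : ℕ)
    (h : Function.Bijective (G.phi2 B)) : Function.Bijective (G.phi2 (Perm.powRep B d)) :=
  ConeFunctor.bijective_pow (nat2 G) B d h

end Fermat.Agent.S55.Formal.GPairingAdd
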