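/-
S55 / Formal (helper38): INNER AUTOMORPHISMS ACT TRIVIALLY on level-constant cohomology, degree 2.

`G` a group with basis `𝒰`, `M : Rep k G`, `v : G`.  Conjugation `g ↦ v g v⁻¹` together with the
coefficient map `m ↦ v⁻¹ m` is a morphism of situations `innerMor 𝒰 M v : (G, 𝒰, M) → (G, 𝒰, M)`,
and it induces the identity on `H²_LC(G; M)` (`innerMor_h2`): for a `2`-cocycle `x`,

  `v⁻¹ x(v g v⁻¹, v h v⁻¹) - x(g, h) = (d b)(g, h)`,   `b(g) = v⁻¹ (x(v g v⁻¹, v) - x(v, g))`.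
-/
import Mathlib
import Fermat.Agent.S55.Formal.LC
import Fermat.Agent.S55.Formal.Functor

set_option autoImplicit false
set_option linter.unusedSectionVars false

open CategoryTheory groupCohomology

namespace Fermat.Agent.S55.Formal.InnerLC

open Fermat.Agent.S55.Formal

variable {k : Type} [CommRing k] {G : Type} [Group G] (𝒰 : NBasis G) (M : Rep.{0, 0, 0} k G)
  (v : G)

/-- conjugation by `v` with coefficient map `v⁻¹`, as a morphism of situations. -/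
def innerMor : Mor 𝒰 M 𝒰 M where
  f := (MulAut.conj v).toMonoidHom
  cont U hU := ⟨U, hU, fun s hs => (𝒰.normal hU).conj_mem s hs v⟩
  φ := M.ρ v⁻¹
  equivar g a := by
    show M.ρ v⁻¹ (M.ρ (v * g * v⁻¹) a) = M.ρ g (M.ρ v⁻¹ a)
    rw [← Module.End.mul_apply, ← map_mul, ← Module.End.mul_apply, ← map_mul]
    congr 2
    group

@[simp] lemma innerMor_f_apply (g : G) : (innerMor 𝒰 M v).f g = v * g * v⁻¹ := rfl

@[simp] lemma innerMor_φ_apply (a : M) : (innerMor 𝒰 M v).φ a = M.ρ v⁻¹ a := rfl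

/-- the homotopy `b(g) = v⁻¹ (x(v g v⁻¹, v) - x(v, g))`. -/
def htpy (x : G × G → M) : G → M := fun g => M.ρ v⁻¹ (x (v * g * v⁻¹, v) - x (v, g))

lemma htpy_mem_C₁ {x : G × G → M} (hx : x ∈ C₂ 𝒰 M) : htpy M v x ∈ C₁ 𝒰 M := by
  obtain ⟨U, hU, h⟩ := hx
  have hN := 𝒰.normal hU
  refine ⟨U, hU, fun s hs g => ⟨?_, ?_⟩⟩
  · have e : v * (g * s) * v⁻¹ = v * g * v⁻¹ * (v * s * v⁻¹) := by group
    show M.ρ v⁻¹ (x (v * (g * s) * v⁻¹, v) - x (v, g * s)) =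
      M.ρ v⁻¹ (x (v * g * v⁻¹, v) - x (v, g))
    rw [e, (h _ (hN.conj_mem s hs v) _ _).1, (h s hs _ _).2.1]
  · show M.ρ s (M.ρ v⁻¹ (x (v * g * v⁻¹, v) - x (v, g))) =
      M.ρ v⁻¹ (x (v * g * v⁻¹, v) - x (v, g))
    have hfix : ∀ u ∈ U, M.ρ u (x (v * g * v⁻¹, v) - x (v, g)) =
        x (v * g * v⁻¹, v) - x (v, g) := fun u hu => by
      rw [map_sub, (h u hu _ _).2.2, (h u hu _ _).2.2]
    exact ρ_conj_fix M hN hfix v⁻¹ hs

/-- the key identity: `v⁻¹ x(v g v⁻¹, v h v⁻¹) - x(g, h) = (d b)(g, h)` for a `2`-cocycle `x`. -/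
lemma p₂_sub_eq_d (x : G × G → M) (hx : (d₂₃ M).hom x = 0) :
    (d₁₂ M).hom (htpy M v x) = (innerMor 𝒰 M v).p₂ x - x := by
  funext ⟨g, h⟩
  have hc : ∀ a b c : G, M.ρ a (x (b, c)) - x (a * b, c) + x (a, b * c) - x (a, b) = 0 :=
    fun a b c => by
      have := congrFun hx (a, b, c)
      rw [d₂₃_hom_apply] at this
      exact this
  have hA := hc v g h
  have hB := hc (v * g * v⁻¹) v h
  have hC := hc (v * g * v⁻¹) (v * h * v⁻¹) v
  have e1 : v * g * v⁻¹ * v = v * g := by group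
  have e2 : v * h * v⁻¹ * v = v * h := by group
  have e3 : v * g * v⁻¹ * (v * h * v⁻¹) = v * (g * h) * v⁻¹ := by group
  rw [e1] at hB
  rw [e2, e3] at hC
  have hgv : ∀ m : M, M.ρ g (M.ρ v⁻¹ m) = M.ρ v⁻¹ (M.ρ (v * g * v⁻¹) m) := fun m => by
    rw [← Module.End.mul_apply, ← map_mul, ← Module.End.mul_apply, ← map_mul]
    congr 2
    group
  have hvv : ∀ m : M, m = M.ρ v⁻¹ (M.ρ v m) := fun m => by
    rw [← Module.End.mul_apply, ← map_mul, inv_mul_cancel, map_one, Module.End.one_apply]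
  -- the identity in `M` before applying `v⁻¹`
  have key : M.ρ (v * g * v⁻¹) (x (v * h * v⁻¹, v) - x (v, h)) -
      (x (v * (g * h) * v⁻¹, v) - x (v, g * h)) + (x (v * g * v⁻¹, v) - x (v, g)) =
      x (v * g * v⁻¹, v * h * v⁻¹) - M.ρ v (x (g, h)) := by
    rw [← sub_eq_zero, map_sub]
    have e : M.ρ (v * g * v⁻¹) (x (v * h * v⁻¹, v)) - M.ρ (v * g * v⁻¹) (x (v, h)) -
        (x (v * (g * h) * v⁻¹, v) - x (v, g * h)) + (x (v * g * v⁻¹, v) - x (v, g)) -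
        (x (v * g * v⁻¹, v * h * v⁻¹) - M.ρ v (x (g, h))) =
        (M.ρ (v * g * v⁻¹) (x (v * h * v⁻¹, v)) - x (v * (g * h) * v⁻¹, v) +
          x (v * g * v⁻¹, v * h) - x (v * g * v⁻¹, v * h * v⁻¹)) -
        (M.ρ (v * g * v⁻¹) (x (v, h)) - x (v * g, h) + x (v * g * v⁻¹, v * h) -
          x (v * g * v⁻¹, v)) +
        (M.ρ v (x (g, h)) - x (v * g, h) + x (v, g * h) - x (v, g)) := by abel
    rw [e, hA, hB, hC]
    simp
  show (d₁₂ M).hom (htpy M v x) (g, h) = M.ρ v⁻¹ (x (v * g * v⁻¹, v * h * v⁻¹)) - x (g, h)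
  rw [d₁₂_hom_apply]
  show M.ρ g (M.ρ v⁻¹ (x (v * h * v⁻¹, v) - x (v, h))) -
      M.ρ v⁻¹ (x (v * (g * h) * v⁻¹, v) - x (v, g * h)) +
      M.ρ v⁻¹ (x (v * g * v⁻¹, v) - x (v, g)) =
    M.ρ v⁻¹ (x (v * g * v⁻¹, v * h * v⁻¹)) - x (g, h)
  have hR : M.ρ v⁻¹ (x (v * g * v⁻¹, v * h * v⁻¹)) - x (g, h) =
      M.ρ v⁻¹ (x (v * g * v⁻¹, v * h * v⁻¹) - M.ρ v (x (g, h))) := by
    rw [map_sub, ← hvv]
  rw [hR, ← key, hgv]
  simp only [map_sub, map_add]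

/-- **Inner automorphisms act trivially on `H²_LC`.** -/
theorem innerMor_h2 (z : H2 𝒰 M) : (innerMor 𝒰 M v).h2 z = z := by
  obtain ⟨c, hc, rfl⟩ := Hmid.exists_of z
  have hc' : dC₂ 𝒰 M ((innerMor 𝒰 M v).c₂ c) = 0 := by
    have := LinearMap.congr_fun (innerMor 𝒰 M v).c₃_dC₂ c
    simp only [LinearMap.comp_apply] at this
    rw [← this, hc, map_zero]
  rw [Functor.h2_of (innerMor 𝒰 M v) c hc hc', Hmid.of_eq_of_iff]
  refine ⟨⟨htpy M v (c : G × G → M), htpy_mem_C₁ 𝒰 M v c.2⟩, ?_⟩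
  apply Subtype.ext
  have hx : (d₂₃ M).hom (c : G × G → M) = 0 := by
    have := congrArg Subtype.val hc
    simpa using this
  exact p₂_sub_eq_d 𝒰 M v (c : G × G → M) hx

end Fermat.Agent.S55.Formal.InnerLC
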