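/-
S55 / Formal end (helper60): injectivity of the relative inflation maps between finite levels.

For normal subgroups `V ≤ U` of `G` and `M : Rep k G`: if `H¹(U/V, M^V) = 0` then the Mathlib
inflation map `trans₂ M U V h : H²(G ⧸ U, M^U) → H²(G ⧸ V, M^V)` is injective
(inflation–restriction `Coh/InfRes2` for the group `G ⧸ V` and its normal subgroup `U/V`, transported
along `(G ⧸ V) ⧸ (U/V) ≅ G ⧸ U`).  Consequently `ι₂ U : H²(G ⧸ U, M^U) → H²_LC(G, M)` is injective
when this holds for all `V ≤ U` in the basis (Hilbert 90 situation).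
-/
import Mathlib
import Fermat.Agent.S55.Formal.LCLevelH
import Fermat.Agent.S55.Coh.InfRes2

set_option autoImplicit false
set_option linter.style.haveILetI false
set_option linter.unusedSectionVars false

open CategoryTheory groupCohomology

namespace Fermat.Agent.S55.Formal.LCLevelInj

open Fermat.Agent.S55.Formal Fermat.Agent.S55.Formal.LCLevel Fermat.Agent.S55.Formal.LCLevelH
open Fermat.Agent.S55.Coh.InfRes2

variable {k : Type} [CommRing k] {G : Type} [Group G] (M : Rep.{0, 0, 0} k G)
variable (U V : Subgroup G) [U.Normal] [V.Normal] (h : V ≤ U)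

/-- The image `U/V` of `U` in `G ⧸ V`. -/
abbrev relSub : Subgroup (G ⧸ V) := U.map (QuotientGroup.mk' V)

instance relSub_normal : (relSub U V).Normal :=
  Subgroup.Normal.map inferInstance _ (QuotientGroup.mk'_surjective V)

omit [U.Normal] in
lemma mk_mem_relSub {u : G} (hu : u ∈ U) : (QuotientGroup.mk u : G ⧸ V) ∈ relSub U V :=
  ⟨u, hu, rfl⟩

omit [U.Normal] in
include h in
lemma mem_of_mk_mem_relSub {g : G} (hg : (QuotientGroup.mk g : G ⧸ V) ∈ relSub U V) : g ∈ U := by
  obtain ⟨u, hu, e⟩ := hg
  have : u⁻¹ * g ∈ V := QuotientGroup.eq.mp e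
  have h2 : g = u * (u⁻¹ * g) := by group
  rw [h2]
  exact U.mul_mem hu (h this)

/-- `ψ : (G ⧸ V) ⧸ (U/V) → G ⧸ U`. -/
def ψ : (G ⧸ V) ⧸ relSub U V →* G ⧸ U :=
  QuotientGroup.lift (relSub U V) (qmap U V h) (by
    rintro x ⟨u, hu, rfl⟩
    exact (QuotientGroup.eq_one_iff u).mpr hu)

@[simp] lemma ψ_mk_mk (g : G) :
    ψ U V h (QuotientGroup.mk (QuotientGroup.mk g : G ⧸ V)) = (QuotientGroup.mk g : G ⧸ U) := rfl

/-- `θ : G ⧸ U → (G ⧸ V) ⧸ (U/V)`. -/
def θ : G ⧸ U →* (G ⧸ V) ⧸ relSub U V :=
  QuotientGroup.lift U ((QuotientGroup.mk' (relSub U V)).comp (QuotientGroup.mk' V)) (by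
    intro u hu
    exact (QuotientGroup.eq_one_iff _).mpr (mk_mem_relSub U V hu))

@[simp] lemma θ_mk (g : G) :
    θ U V (QuotientGroup.mk g : G ⧸ U) = QuotientGroup.mk (QuotientGroup.mk g : G ⧸ V) := rfl

lemma ψ_θ (z : G ⧸ U) : ψ U V h (θ U V z) = z := by
  induction z using QuotientGroup.induction_on with
  | H g => rfl

/-- `M^U → (M^V)^{U/V}` as a linear map. -/
noncomputable def jLin :
    (M.quotientToInvariants U).V →ₗ[k]
      ((M.quotientToInvariants V).quotientToInvariants (relSub U V)).V where
  toFun m := ⟨⟨m.1, fun v => m.2 ⟨v.1, h v.2⟩⟩, fun s => by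
    obtain ⟨s, u, hu, rfl⟩ := s
    apply Subtype.ext
    exact m.2 ⟨u, hu⟩⟩
  map_add' _ _ := rfl
  map_smul' _ _ := rfl

@[simp] lemma jLin_coe (m : (M.quotientToInvariants U).V) :
    (((jLin M U V h m : ((M.quotientToInvariants V).quotientToInvariants (relSub U V)).V) :
      (M.quotientToInvariants V).V) : M.V) = (m : M.V) := rfl

/-- `M^U → (M^V)^{U/V}` as a morphism of representations along `ψ`. -/
noncomputable def jHom :
    Rep.res (ψ U V h) (M.quotientToInvariants U) ⟶
      (M.quotientToInvariants V).quotientToInvariants (relSub U V) :=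
  Rep.ofHom (ρ := (M.ρ.quotientToInvariants U).comp (ψ U V h))
    (σ := (M.quotientToInvariants V).ρ.quotientToInvariants (relSub U V))
    ⟨jLin M U V h, fun x => by
      induction x using QuotientGroup.induction_on with
      | H x =>
        induction x using QuotientGroup.induction_on with
        | H g => ext m; rfl⟩

/-- **Relative inflation is injective** when `H¹(U/V, M^V) = 0`. -/
theorem trans₂_injective [Finite (G ⧸ U)] [Finite (G ⧸ V)]
    (h1 : Limits.IsZero (groupCohomology.H1
      (Rep.res (relSub U V).subtype (M.quotientToInvariants V)))) :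
    Function.Injective (trans₂ M U V h) := by
  rw [injective_iff_map_eq_zero]
  intro y hy
  induction y using H2_induction_on with
  | h c =>
    rw [trans₂_π] at hy
    obtain ⟨(b : G ⧸ V → M.quotientToInvariants V), hb⟩ := (H2π_eq_zero_iff _).1 hy
    rw [H2π_eq_zero_iff]
    have hS : H1Vanishes (M.quotientToInvariants V) (relSub U V) :=
      h1Vanishes_of_isZero _ _ h1
    set f : cocycles₂ ((M.quotientToInvariants V).quotientToInvariants (relSub U V)) :=
      mapCocycles₂ (ψ U V h) (jHom M U V h) c with hf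
    have hfc : ⇑f ∈ coboundaries₂
        ((M.quotientToInvariants V).quotientToInvariants (relSub U V)) := by
      refine coboundary_of_infl_coboundary (M.quotientToInvariants V) (relSub U V) hS f b
        (fun x y => ?_)
      have e := congrFun hb (x, y)
      rw [d₁₂_hom_apply] at e
      rw [e, hf, coe_mapCocycles₂, coe_mapCocycles₂]
      induction x using QuotientGroup.induction_on with
      | H g =>
        induction y using QuotientGroup.induction_on with
        | H g2 => rfl
    obtain ⟨(β : (G ⧸ V) ⧸ relSub U V →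
      (M.quotientToInvariants V).quotientToInvariants (relSub U V)), hβ⟩ := hfc
    refine ⟨fun z => ⟨((β (θ U V z)).1).1, fun u => ?_⟩, ?_⟩
    · have h2 := (β (θ U V z)).2 ⟨(QuotientGroup.mk (u : G) : G ⧸ V), mk_mem_relSub U V u.2⟩
      exact congrArg Subtype.val h2
    · funext ⟨z, w⟩
      apply Subtype.ext
      have e := congrFun hβ (θ U V z, θ U V w)
      rw [d₁₂_hom_apply, hf, coe_mapCocycles₂] at e
      have e2 := congrArg (fun t => ((t.1).1 : M.V)) e
      induction z using QuotientGroup.induction_on with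
      | H g =>
        induction w using QuotientGroup.induction_on with
        | H g2 =>
          rw [d₁₂_hom_apply]
          exact e2

/-- `ι₂ U` is injective when `H¹(U/V, M^V) = 0` for all `V ≤ U` in the basis. -/
theorem ι₂_injective (𝒰 : NBasis G) [Finite (G ⧸ U)] (hU : 𝒰.mem U)
    (h1 : ∀ V, 𝒰.mem V → V ≤ U → ∀ [V.Normal], Limits.IsZero (groupCohomology.H1
      (Rep.res (relSub U V).subtype (M.quotientToInvariants V)))) :
    Function.Injective (ι₂ 𝒰 M U hU) :=
  ι₂_injective_of_trans 𝒰 M U hU fun V hV hle _ _ => trans₂_injective M U V hle (h1 V hV hle)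

end Fermat.Agent.S55.Formal.LCLevelInj
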