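/-
S55 / Formal end (helper7): the canonical surjection `k[G/P] ↠ k(χ)` for `χ` trivial on `P`, and
`H⁰` of `k(χ)' = tw (mu χ) χ` (the trivial line).

* `permToMu` : `Formal.perm k P ⟶ mu χ`, `[g] ↦ χ g`; `permToMu_surjective`.
* `isUSmooth_mu`, `finite_mu`, `finrank_mu`.
* `tw_mu_ρ` : `G` acts trivially on `tw (mu χ) χ`; `finrank_H0_tw_mu = 1`.
-/
import Fermat.Agent.S55.Formal.PermBasis

set_option autoImplicit false

open CategoryTheory Module

namespace Fermat.Agent.S55.Formal.PermMu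

open Fermat.Agent.S55.Formal Fermat.Agent.S55.Formal.Perm Fermat.Agent.S55.Formal.PermBasis

noncomputable section

variable {k : Type} [Field k] {G : Type} [Group G] (χ : G →* kˣ)

lemma mu_ρ_apply (g : G) (c : k) : (mu χ).ρ g c = (χ g : k) * c := rfl

instance : Module.Finite k (mu χ) := inferInstanceAs (Module.Finite k k)

lemma finrank_mu : finrank k (mu χ) = 1 := Module.finrank_self k

/-- `k(χ)` is uniformly smooth when `χ` is smooth -/
theorem isUSmooth_mu {𝒰 : NBasis G} (hχ : ∃ U, 𝒰.mem U ∧ TrivOn χ U) : IsUSmooth 𝒰 (mu χ) := by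
  obtain ⟨U, hU, h⟩ := hχ
  refine ⟨U, hU, fun s hs c => ?_⟩
  rw [mu_ρ_apply, h s hs, Units.val_one, one_mul]

variable {χ} {P : Subgroup G}

/-- the canonical surjection `k[G/P] ↠ k(χ)`, `[g] ↦ χ g` -/
def permToMu (hχ : TrivOn χ P) : Formal.perm k P ⟶ mu χ :=
  evP (M := mu χ) (1 : k) (fun s hs => by rw [mu_ρ_apply, hχ s hs, Units.val_one, one_mul])

lemma permToMu_basis (hχ : TrivOn χ P) (g : G) :
    (permToMu hχ).hom (permBasis P (g : G ⧸ P)) = (χ g : k) := by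
  rw [permToMu, evP_basis, mu_ρ_apply, mul_one]

lemma permToMu_surjective (hχ : TrivOn χ P) : Function.Surjective (permToMu hχ).hom := by
  intro c
  refine ⟨c • permBasis P ((1 : G) : G ⧸ P), ?_⟩
  rw [map_smul, permToMu_basis, map_one, Units.val_one]
  exact mul_one c

variable (χ)

/-- `G` acts trivially on `k(χ)' = tw (mu χ) χ` -/
lemma tw_mu_ρ (g : G) (f : tw (mu χ) χ) : (tw (mu χ) χ).ρ g f = f := by
  apply LinearMap.ext
  intro c
  rw [Rep.dualTwist_ρ_apply, LinearMap.smul_apply, LinearMap.comp_apply, mu_ρ_apply, smul_eq_mul]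
  have h1 : f ((χ g⁻¹ : k) * c) = (χ g⁻¹ : k) * f c := by
    rw [← smul_eq_mul, map_smul, smul_eq_mul]
  rw [h1, ← mul_assoc, ← Units.val_mul, ← map_mul, mul_inv_cancel, map_one, Units.val_one, one_mul]

theorem isUSmooth_tw_mu (𝒰 : NBasis G) : IsUSmooth 𝒰 (tw (mu χ) χ) :=
  ⟨⊤, 𝒰.top, fun s _ f => tw_mu_ρ χ s f⟩

/-- `H⁰(G, k(χ)') = k(χ)'` is one-dimensional -/
theorem finrank_H0_tw_mu (𝒰 : NBasis G) : finrank k ↥(H0 𝒰 (tw (mu χ) χ)) = 1 := by
  set N := tw (mu χ) χ with hN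
  have hC : C₀ 𝒰 N = ⊤ := (isUSmooth_tw_mu χ 𝒰).C₀_eq_top
  have hH : H0 𝒰 N = ⊤ := by
    rw [eq_top_iff]
    intro f _
    rw [LinearMap.mem_ker]
    apply Subtype.ext
    rw [dC₀_coe]
    funext g
    show (groupCohomology.d₀₁ N).hom (f : N) g = 0
    rw [groupCohomology.d₀₁_hom_apply, tw_mu_ρ, sub_self]
  have e1 : ↥(H0 𝒰 N) ≃ₗ[k] ↥(C₀ 𝒰 N) := LinearEquiv.ofTop _ hH
  have e2 : ↥(C₀ 𝒰 N) ≃ₗ[k] N := LinearEquiv.ofTop _ hC
  rw [(e1.trans e2).finrank_eq]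
  show finrank k (Module.Dual k k) = 1
  rw [Subspace.dual_finrank_eq, Module.finrank_self]

end

end Fermat.Agent.S55.Formal.PermMu
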