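/-
S55 / Formal end (helper32): LOCAL DUALITY for a single group `(G, 𝒰)`, a smooth character
`χ : G →* kˣ` and a nonzero "invariant" functional `inv : H²(G, k(χ)) → k`.

Hypotheses (exactly what `BaseA` gives at a place `v`):
* `hV` : `H³(G, N) = 0` for all finite-dimensional uniformly smooth `N` (from `vanish₃_loc` by the
  devissage `Vanish3All`);
* `hB` : `dim H²(G, k[G/U]) ≤ 1` for `U ∈ 𝒰` with `χ|_U = 1` (`loc₂`);
* `inv ≠ 0`.

Results: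
* `phi2 N : H²(G,N) → H⁰(G,N')^*`, `x ↦ (y ↦ inv (y_* x))`, natural in `N`; BIJECTIVE for all
  finite-dimensional uniformly smooth `N` (`phi2_bijective`);
* `pair11 N : H¹(G,N') → H¹(G,N)^*` (cup product + evaluation + `inv`), INJECTIVE for all such `N`
  (`pair11_injective`): effacement + δ-compatibility + `phi2_bijective`.
-/
import Fermat.Agent.S55.Formal.Blocks
import Fermat.Agent.S55.Formal.CoefLES
import Fermat.Agent.S55.Formal.Functor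
import Fermat.Agent.S55.Formal.PermBasis
import Fermat.Agent.S55.Formal.PermMu
import Fermat.Agent.S55.Formal.DualTwistApi
import Fermat.Agent.S55.Formal.EffaceDualApi
import Fermat.Agent.S55.Formal.DualityAlgebra
import Fermat.Agent.S55.Formal.DualAssembly
import Fermat.Agent.S55.Formal.CupLC

set_option autoImplicit false

open CategoryTheory Module

namespace Fermat.Agent.S55.Formal.LocalDuality

open Fermat.Agent.S55.Formal

noncomputable section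

variable {k : Type} [Field k] {G : Type} [Group G]

/-! ### short exact sequences of representations as `IsCoefSES` -/

section SES

variable (𝒰 : NBasis G) {A B C : Rep.{0, 0, 0} k G}

theorem isCoefSES_ofHom (φ : A ⟶ B) (ψ : B ⟶ C) (hφ : Function.Injective φ.hom)
    (hex : Function.Exact φ.hom ψ.hom) (hψ : Function.Surjective ψ.hom) (hB : IsUSmooth 𝒰 B) :
    CoefLES.IsCoefSES (Mor.ofHom 𝒰 φ) (Mor.ofHom 𝒰 ψ) where
  fα _ := rfl
  fβ _ := rfl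
  inj := hφ
  surj := hψ
  exact := hex
  usmooth := hB

end SES

/-! ### vanishing of `H³` and right exactness of `H²` -/

section RightExact

variable {𝒰 : NBasis G} {A B C : Rep.{0, 0, 0} k G}

theorem H3_eq_zero (hA : Vanish₃ 𝒰 A) (x : H3 𝒰 A) : x = 0 := by
  obtain ⟨f, hf, rfl⟩ := Hmid.exists_of x
  obtain ⟨b, hb⟩ := hA f hf
  exact Hmid.of_eq_zero_iff.2 ⟨b, hb⟩

theorem h2_surjective {α : Mor 𝒰 A 𝒰 B} {β : Mor 𝒰 B 𝒰 C} (h : CoefLES.IsCoefSES α β)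
    (hA : Vanish₃ 𝒰 A) : Function.Surjective β.h2 := by
  intro y
  exact (CoefLES.exact_h2_δ₂ h y).1 (H3_eq_zero hA _)

end RightExact

/-! ### invariants of the twisted dual as morphisms to `k(χ)` -/

section Ev

variable (𝒰 : NBasis G) (χ : G →* kˣ)

/-- elements of `H⁰` are fixed by the action -/
theorem H0_fixed {M : Rep.{0, 0, 0} k G} (y : ↥(H0 𝒰 M)) (g : G) :
    M.ρ g ((y : ↥(C₀ 𝒰 M)) : M) = ((y : ↥(C₀ 𝒰 M)) : M) := by
  have h1 : dC₀ 𝒰 M (y : ↥(C₀ 𝒰 M)) = 0 := LinearMap.mem_ker.1 y.2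
  have h2 := congrArg (fun w : ↥(C₁ 𝒰 M) => (w : G → M) g) h1
  simp only [dC₀_coe] at h2
  have h3 : (groupCohomology.d₀₁ M).hom ((y : ↥(C₀ 𝒰 M)) : M) g = 0 := h2
  rw [groupCohomology.d₀₁_hom_apply, sub_eq_zero] at h3
  exact h3

/-- the underlying functional of an element of `H⁰(G, N')` -/
def fnl {N : Rep.{0, 0, 0} k G} (y : ↥(H0 𝒰 (tw N χ))) : Module.Dual k N :=
  ((y : ↥(C₀ 𝒰 (tw N χ))) : tw N χ)

theorem fnl_add {N : Rep.{0, 0, 0} k G} (y y' : ↥(H0 𝒰 (tw N χ))) :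
    fnl 𝒰 χ (y + y') = fnl 𝒰 χ y + fnl 𝒰 χ y' := rfl

theorem fnl_smul {N : Rep.{0, 0, 0} k G} (c : k) (y : ↥(H0 𝒰 (tw N χ))) :
    fnl 𝒰 χ (c • y) = c • fnl 𝒰 χ y := rfl

theorem fnl_equivar {N : Rep.{0, 0, 0} k G} (y : ↥(H0 𝒰 (tw N χ))) (g : G) (a : N) :
    fnl 𝒰 χ y (N.ρ g a) = (χ g : k) * fnl 𝒰 χ y a :=
  (DualTwistApi.dualTwist_fixed_iff χ N (fnl 𝒰 χ y)).1 (fun g => H0_fixed 𝒰 y g) g a

/-- an element `y ∈ H⁰(G, N')` as a morphism of situations `N → k(χ)` over the identity -/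
def evMor (N : Rep.{0, 0, 0} k G) (y : ↥(H0 𝒰 (tw N χ))) : Mor 𝒰 N 𝒰 (mu χ) where
  f := MonoidHom.id G
  cont := isCont_id 𝒰
  φ := fnl 𝒰 χ y
  equivar g a := fnl_equivar 𝒰 χ y g a

theorem evMor_f (N : Rep.{0, 0, 0} k G) (y : ↥(H0 𝒰 (tw N χ))) (g : G) :
    (evMor 𝒰 χ N y).f g = g := rfl

/-- the same as a morphism of representations -/
def evHom (N : Rep.{0, 0, 0} k G) (y : ↥(H0 𝒰 (tw N χ))) : N ⟶ mu χ :=
  Rep.ofHom (ρ := N.ρ) (σ := (Rep.trivial k G k).ρ.twist χ)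
    ⟨fnl 𝒰 χ y, fun g => by
      ext a
      exact fnl_equivar 𝒰 χ y g a⟩

theorem ofHom_evHom (N : Rep.{0, 0, 0} k G) (y : ↥(H0 𝒰 (tw N χ))) :
    Mor.ofHom 𝒰 (evHom 𝒰 χ N y) = evMor 𝒰 χ N y :=
  Functor.mor_ext rfl rfl

/-- conversely, a morphism `N ⟶ k(χ)` gives an element of `H⁰(G, N')` (for `N` uniformly smooth) -/
def ofHomH0 {N : Rep.{0, 0, 0} k G} (hN : IsUSmooth 𝒰 (tw N χ)) (φ : N ⟶ mu χ) :
    ↥(H0 𝒰 (tw N χ)) :=
  ⟨⟨(φ.hom.toLinearMap : Module.Dual k N), by rw [hN.C₀_eq_top]; exact Submodule.mem_top⟩, by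
    rw [LinearMap.mem_ker]
    apply Subtype.ext
    rw [dC₀_coe]
    funext g
    show (groupCohomology.d₀₁ (tw N χ)).hom (φ.hom.toLinearMap : Module.Dual k N) g = 0
    rw [groupCohomology.d₀₁_hom_apply, sub_eq_zero]
    exact (DualTwistApi.dualTwist_fixed_iff χ N φ.hom.toLinearMap).2
      (fun g a => Rep.hom_comm_apply φ g a) g⟩

theorem evMor_ofHomH0 {N : Rep.{0, 0, 0} k G} (hN : IsUSmooth 𝒰 (tw N χ)) (φ : N ⟶ mu χ) :
    evMor 𝒰 χ N (ofHomH0 𝒰 χ hN φ) = Mor.ofHom 𝒰 φ :=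
  Functor.mor_ext rfl rfl

/-- naturality: `evMor N (f^* y) = (ofHom f) ≫ evMor N' y` -/
theorem evMor_natural {N N' : Rep.{0, 0, 0} k G} (f : N ⟶ N') (y : ↥(H0 𝒰 (tw N' χ))) :
    evMor 𝒰 χ N ((Mor.ofHom 𝒰 (DualTwistApi.dualTwistMap χ f)).h0 y) =
      (Mor.ofHom 𝒰 f).comp (evMor 𝒰 χ N' y) :=
  Functor.mor_ext rfl rfl

end Ev

/-! ### the map `φ² : H²(G,N) → H⁰(G,N')^*` -/

section Phi2

variable (𝒰 : NBasis G) (χ : G →* kˣ) (inv : H2 𝒰 (mu χ) →ₗ[k] k)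

theorem evMor_add_h2 (N : Rep.{0, 0, 0} k G) (y y' : ↥(H0 𝒰 (tw N χ))) :
    (evMor 𝒰 χ N (y + y')).h2 = (evMor 𝒰 χ N y).h2 + (evMor 𝒰 χ N y').h2 :=
  Functor.mapOfComm_eq_add _ _ _ _ _ _ _ _ _ _ _ _ _ _ _ (by
    apply LinearMap.ext
    intro x
    apply Subtype.ext
    rfl)

theorem evMor_smul_h2 (N : Rep.{0, 0, 0} k G) (c : k) (y : ↥(H0 𝒰 (tw N χ))) :
    (evMor 𝒰 χ N (c • y)).h2 = c • (evMor 𝒰 χ N y).h2 :=
  Functor.mapOfComm_eq_smul c _ _ _ _ _ _ _ _ _ _ (by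
    apply LinearMap.ext
    intro x
    apply Subtype.ext
    rfl)

/-- `φ²_N : H²(G,N) → H⁰(G,N')^*`, `x ↦ (y ↦ inv (y_* x))`. -/
def phi2 (N : Rep.{0, 0, 0} k G) : H2 𝒰 N →ₗ[k] Module.Dual k ↥(H0 𝒰 (tw N χ)) :=
  LinearMap.mk₂ k (fun x y => inv ((evMor 𝒰 χ N y).h2 x))
    (fun x x' y => by simp only [map_add])
    (fun c x y => by simp only [map_smul])
    (fun x y y' => by rw [evMor_add_h2, LinearMap.add_apply, map_add])
    (fun c x y => by rw [evMor_smul_h2, LinearMap.smul_apply, map_smul])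

theorem phi2_apply (N : Rep.{0, 0, 0} k G) (x : H2 𝒰 N) (y : ↥(H0 𝒰 (tw N χ))) :
    phi2 𝒰 χ inv N x y = inv ((evMor 𝒰 χ N y).h2 x) := rfl

/-- naturality of `φ²` -/
theorem phi2_natural {N N' : Rep.{0, 0, 0} k G} (f : N ⟶ N') (x : H2 𝒰 N)
    (y : ↥(H0 𝒰 (tw N' χ))) :
    phi2 𝒰 χ inv N' ((Mor.ofHom 𝒰 f).h2 x) y =
      phi2 𝒰 χ inv N x ((Mor.ofHom 𝒰 (DualTwistApi.dualTwistMap χ f)).h0 y) := by
  rw [phi2_apply, phi2_apply, evMor_natural, Functor.comp_h2]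
  rfl

end Phi2

/-! ### linear algebra -/

section LinAlg

variable {V W : Type*} [AddCommGroup V] [Module k V] [AddCommGroup W] [Module k W]

/-- a nonzero map from a space of dimension `≤ 1` to a line is bijective -/
theorem bijective_of_ne_zero [Module.Finite k V] (f : V →ₗ[k] W) (hV : finrank k V ≤ 1)
    (hW : finrank k W = 1) (hf : f ≠ 0) : Function.Bijective f := by
  have hWf : Module.Finite k W := Module.finite_of_finrank_pos (by omega)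
  have hker : LinearMap.ker f ≠ ⊤ := by
    intro h
    exact hf (LinearMap.ker_eq_top.1 h)
  have hlt : finrank k ↥(LinearMap.ker f) < finrank k V :=
    Submodule.finrank_lt hker
  have hk0 : finrank k ↥(LinearMap.ker f) = 0 := by omega
  have hinj : Function.Injective f := by
    rw [← LinearMap.ker_eq_bot]
    exact Submodule.finrank_eq_zero.1 hk0
  have hV1 : finrank k V = 1 := by omega
  exact ⟨hinj, (LinearMap.injective_iff_surjective_of_finrank_eq_finrank (by rw [hV1, hW])).1 hinj⟩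

theorem exists_ne_zero_of_ne_zero (f : V →ₗ[k] W) (hf : f ≠ 0) : ∃ v, f v ≠ 0 := by
  by_contra h
  exact hf (LinearMap.ext fun v => by
    by_contra hv
    exact h ⟨v, hv⟩)

end LinAlg

/-! ### the local base and bijectivity of `φ²` -/

/-- the numerical base at one place -/
structure LocalBase (𝒰 : NBasis G) (χ : G →* kˣ) (inv : H2 𝒰 (mu χ) →ₗ[k] k) : Prop where
  chi_smooth : ∃ U, 𝒰.mem U ∧ TrivOn χ U
  inv_ne : inv ≠ 0
  vanish₃ : ∀ N : Rep.{0, 0, 0} k G, Module.Finite k N → IsUSmooth 𝒰 N → Vanish₃ 𝒰 N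
  h2 : ∀ U, 𝒰.mem U → TrivOn χ U →
    Module.Finite k (H2 𝒰 (perm k U)) ∧ finrank k (H2 𝒰 (perm k U)) ≤ 1

section Bij

variable {𝒰 : NBasis G} {χ : G →* kˣ} {inv : H2 𝒰 (mu χ) →ₗ[k] k}

open Fermat.Agent.S55.Formal.Perm Fermat.Agent.S55.Formal.PermBasis
  Fermat.Agent.S55.Formal.PermMu

/-- the SES `0 → ker π → A → B → 0` of a surjection, as an `IsCoefSES` -/
theorem isCoefSES_ker {A B : Rep.{0, 0, 0} k G} (π : A ⟶ B) (hπ : Function.Surjective π.hom)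
    (hA : IsUSmooth 𝒰 A) : CoefLES.IsCoefSES (Mor.ofHom 𝒰 (kerι π)) (Mor.ofHom 𝒰 π) :=
  isCoefSES_ofHom 𝒰 (kerι π) π (kerι_injective π)
    (fun a => eq_zero_iff_exists_kerι π a) hπ hA

/-- base case: `φ²` is bijective on `k[G/U]`, `χ|_U = 1` -/
theorem phi2_bijective_perm (hb : LocalBase 𝒰 χ inv) {U : Subgroup G} (hU : 𝒰.mem U)
    (hχU : TrivOn χ U) : Function.Bijective (phi2 𝒰 χ inv (perm k U)) := by
  have hopen : 𝒰.IsOpen U := ⟨U, hU, le_rfl⟩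
  have hsm : IsUSmooth 𝒰 (perm k U) := isUSmooth_perm 𝒰 hopen
  have hfin : Module.Finite k (perm k U) := finite_perm 𝒰 hopen
  obtain ⟨hH2fin, hH2le⟩ := hb.h2 U hU hχU
  have hπ := permToMu_surjective (k := k) hχU
  have hses := isCoefSES_ker (𝒰 := 𝒰) (permToMu (k := k) hχU) hπ hsm
  have hK : Vanish₃ 𝒰 (kerRep (permToMu (k := k) hχU)) :=
    hb.vanish₃ _ (finite_kerRep _) (isUSmooth_kerRep _ hsm)
  have hsurj := h2_surjective hses hK
  obtain ⟨w, hw⟩ := exists_ne_zero_of_ne_zero inv hb.inv_ne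
  obtain ⟨x, hx⟩ := hsurj w
  have htw : IsUSmooth 𝒰 (tw (perm k U) χ) := isUSmooth_tw χ hsm hb.chi_smooth
  have hne : phi2 𝒰 χ inv (perm k U) ≠ 0 := by
    intro h0
    have h1 : phi2 𝒰 χ inv (perm k U) x (ofHomH0 𝒰 χ htw (permToMu hχU)) = 0 := by
      rw [h0]; rfl
    rw [phi2_apply, evMor_ofHomH0, hx] at h1
    exact hw h1
  have h1 : finrank k ↥(H0 𝒰 (tw (perm k U) χ)) = 1 := finrank_H0_tw_perm 𝒰 hopen hχU
  have hT : finrank k (Module.Dual k ↥(H0 𝒰 (tw (perm k U) χ))) = 1 := by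
    rw [Subspace.dual_finrank_eq, h1]
  exact bijective_of_ne_zero _ hH2le hT hne

end Bij

/-! ### additivity: `φ²` on powers -/

section Additive

variable (𝒰 : NBasis G) (χ : G →* kˣ) (inv : H2 𝒰 (mu χ) →ₗ[k] k)

/-- `N ↦ H²(G,N)` as a linear functor -/
def H2Functor : Functor.LinFunctor.{1, 0, 0} k (Rep.{0, 0, 0} k G) where
  obj N := H2 𝒰 N
  acg _ := inferInstance
  mod _ := inferInstance
  map f := (Mor.ofHom 𝒰 f).h2
  map_id _ := Functor.ofHom_id_h2 𝒰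
  map_comp φ ψ := Functor.ofHom_comp_h2 𝒰 φ ψ
  map_add φ ψ := Functor.ofHom_add_h2 𝒰 φ ψ

/-- `N ↦ H⁰(G,N')^*` as a (covariant) linear functor -/
def H0DualFunctor : Functor.LinFunctor.{1, 0, 0} k (Rep.{0, 0, 0} k G) where
  obj N := Module.Dual k ↥(H0 𝒰 (tw N χ))
  acg _ := inferInstance
  mod _ := inferInstance
  map f := ((Mor.ofHom 𝒰 (DualTwistApi.dualTwistMap χ f)).h0).dualMap
  map_id N := by
    rw [DualTwistApi.dualTwistMap_id, Functor.ofHom_id_h0, LinearMap.dualMap_id]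
  map_comp φ ψ := by
    rw [DualTwistApi.dualTwistMap_comp, Functor.ofHom_comp_h0, LinearMap.dualMap_comp_dualMap]
  map_add φ ψ := by
    rw [DualTwistApi.dualTwistMap_add, Functor.ofHom_add_h0]
    apply LinearMap.ext
    intro f
    apply LinearMap.ext
    intro y
    simp only [LinearMap.dualMap_apply, LinearMap.add_apply, map_add]

/-- `φ²` as a natural transformation -/
def phi2Nat : Functor.LinFunctor.NatTrans (H2Functor 𝒰) (H0DualFunctor 𝒰 χ) where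
  app N := phi2 𝒰 χ inv N
  naturality f x := by
    apply LinearMap.ext
    intro y
    exact (phi2_natural 𝒰 χ inv f x y).symm

open Fermat.Agent.S55.Formal.Perm in
/-- `φ²` bijective on `B` ⇒ bijective on `B^d` -/
theorem phi2_bijective_pow (B : Rep.{0, 0, 0} k G) (d : ℕ)
    (h : Function.Bijective (phi2 𝒰 χ inv B)) :
    Function.Bijective (phi2 𝒰 χ inv (powRep B d)) :=
  Functor.LinFunctor.NatTrans.bijective_of_total (phi2Nat 𝒰 χ inv) (P := powRep B d)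
    (B := fun _ : Fin d => B) (powι B d) (powπ B d) (sum_powπ_powι B d) (fun _ => h)

end Additive

/-! ### `φ²` is bijective for all finite-dimensional uniformly smooth modules -/

section General

variable {𝒰 : NBasis G} {χ : G →* kˣ} {inv : H2 𝒰 (mu χ) →ₗ[k] k}

open Fermat.Agent.S55.Formal.Perm Fermat.Agent.S55.Formal.PermBasis

/-- the dual of the SES of a surjection `π : Q ↠ N` -/
theorem isCoefSES_dual (hχ : ∃ U, 𝒰.mem U ∧ TrivOn χ U) {Q N : Rep.{0, 0, 0} k G} (π : Q ⟶ N)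
    (hπ : Function.Surjective π.hom) (hQ : IsUSmooth 𝒰 Q) :
    CoefLES.IsCoefSES (Mor.ofHom 𝒰 (DualTwistApi.dualTwistMap χ π))
      (Mor.ofHom 𝒰 (DualTwistApi.dualTwistMap χ (kerι π))) := by
  obtain ⟨h1, h2, h3⟩ := DualTwistApi.dualTwist_shortExact χ (kerι π) π (kerι_injective π)
    (fun a => eq_zero_iff_exists_kerι π a) hπ
  exact isCoefSES_ofHom 𝒰 _ _ h1 h2 h3 (isUSmooth_tw χ hQ hχ)

/-- a free cover on which `φ²` is bijective -/
theorem exists_cover (hb : LocalBase 𝒰 χ inv) (N : Rep.{0, 0, 0} k G) (hN : IsUSmooth 𝒰 N)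
    [FiniteDimensional k N] :
    ∃ (Q : Rep.{0, 0, 0} k G) (π : Q ⟶ N), Function.Surjective π.hom ∧ IsUSmooth 𝒰 Q ∧
      FiniteDimensional k Q ∧ Function.Bijective (phi2 𝒰 χ inv Q) := by
  obtain ⟨U₁, hU₁, hN₁⟩ := hN
  obtain ⟨U₂, hU₂, hχ₂⟩ := hb.chi_smooth
  obtain ⟨W, hW, hle⟩ := 𝒰.inf hU₁ hU₂
  obtain ⟨d, π, hπ, hQ, hQf, -⟩ :=
    exists_free_cover_perm 𝒰 N hW (fun s hs m => hN₁ s (hle hs).1 m)
  exact ⟨_, π, hπ, hQ, hQf, phi2_bijective_pow 𝒰 χ inv (perm k W) d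
    (phi2_bijective_perm hb hW (fun s hs => hχ₂ s (hle hs).2))⟩

theorem phi2_surjective (hb : LocalBase 𝒰 χ inv) (N : Rep.{0, 0, 0} k G) (hN : IsUSmooth 𝒰 N)
    [FiniteDimensional k N] : Function.Surjective (phi2 𝒰 χ inv N) := by
  obtain ⟨Q, π, hπ, hQ, hQf, hbij⟩ := exists_cover hb N hN
  have h' := isCoefSES_dual (𝒰 := 𝒰) hb.chi_smooth π hπ hQ
  intro ψ
  have hinj : Function.Injective (Mor.ofHom 𝒰 (DualTwistApi.dualTwistMap χ π)).h0 :=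
    CoefLES.h0_injective h'
  obtain ⟨ψ', hψ'⟩ := LinearMap.dualMap_surjective_of_injective hinj ψ
  obtain ⟨x, hx⟩ := hbij.2 ψ'
  refine ⟨(Mor.ofHom 𝒰 π).h2 x, ?_⟩
  apply LinearMap.ext
  intro y
  rw [phi2_natural, hx, ← hψ']
  rfl

theorem phi2_injective (hb : LocalBase 𝒰 χ inv) (N : Rep.{0, 0, 0} k G) (hN : IsUSmooth 𝒰 N)
    [FiniteDimensional k N] : Function.Injective (phi2 𝒰 χ inv N) := by
  obtain ⟨Q, π, hπ, hQ, hQf, hbij⟩ := exists_cover hb N hN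
  have h := isCoefSES_ker (𝒰 := 𝒰) π hπ hQ
  have h' := isCoefSES_dual (𝒰 := 𝒰) hb.chi_smooth π hπ hQ
  have hRsm : IsUSmooth 𝒰 (kerRep π) := isUSmooth_kerRep π hQ
  have hRf : FiniteDimensional k (kerRep π) := finite_kerRep π
  have hRsurj := phi2_surjective hb (kerRep π) hRsm
  rw [← LinearMap.ker_eq_bot, LinearMap.ker_eq_bot']
  intro x hx
  obtain ⟨xt, rfl⟩ := h2_surjective h (hb.vanish₃ _ hRf hRsm) x
  -- `φ²_Q xt` kills the kernel of `H⁰(Q') → H⁰(R')`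
  have hann : phi2 𝒰 χ inv Q xt ∈
      (LinearMap.ker (Mor.ofHom 𝒰 (DualTwistApi.dualTwistMap χ (kerι π))).h0).dualAnnihilator := by
    rw [Submodule.mem_dualAnnihilator]
    intro y hy
    obtain ⟨y', rfl⟩ := (CoefLES.exact_h0 h' y).1 (LinearMap.mem_ker.1 hy)
    rw [← phi2_natural, hx]
    rfl
  rw [← LinearMap.range_dualMap_eq_dualAnnihilator_ker] at hann
  obtain ⟨ψ, hψ⟩ := hann
  obtain ⟨r, rfl⟩ := hRsurj ψ
  have heq : (Mor.ofHom 𝒰 (kerι π)).h2 r = xt := by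
    apply hbij.1
    apply LinearMap.ext
    intro y
    rw [phi2_natural, ← hψ]
    rfl
  rw [← heq]
  exact (CoefLES.exact_h2 h _).2 ⟨r, rfl⟩

theorem phi2_bijective (hb : LocalBase 𝒰 χ inv) (N : Rep.{0, 0, 0} k G) (hN : IsUSmooth 𝒰 N)
    [FiniteDimensional k N] : Function.Bijective (phi2 𝒰 χ inv N) :=
  ⟨phi2_injective hb N hN, phi2_surjective hb N hN⟩

end General

/-! ### the evaluation pairing and the `H¹ × H¹` pairing -/

section Pair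

variable (𝒰 : NBasis G) (χ : G →* kˣ)

/-- the evaluation pairing `N × N' → k(χ)` -/
def evP (N : Rep.{0, 0, 0} k G) : N →ₗ[k] (tw N χ) →ₗ[k] (mu χ) :=
  Module.Dual.eval k N

theorem evP_apply (N : Rep.{0, 0, 0} k G) (n : N) (f : tw N χ) :
    evP χ N n f = (f : Module.Dual k N) n := rfl

theorem equi_evP (N : Rep.{0, 0, 0} k G) : CupLC.Equi (evP χ N) := by
  intro g n f
  show (χ g : k) * (f : Module.Dual k N) n = (χ g : k) * (f : Module.Dual k N) (N.ρ g⁻¹ (N.ρ g n))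
  rw [← Module.End.mul_apply, ← map_mul, inv_mul_cancel, map_one, Module.End.one_apply]

variable (inv : H2 𝒰 (mu χ) →ₗ[k] k)

/-- the pairing `H¹(G,N) × H¹(G,N') → k` -/
def pair11 (N : Rep.{0, 0, 0} k G) : H1 𝒰 N →ₗ[k] H1 𝒰 (tw N χ) →ₗ[k] k :=
  (CupLC.cupH₁₁ 𝒰 (equi_evP χ N)).compr₂ inv

theorem pair11_apply (N : Rep.{0, 0, 0} k G) (x : H1 𝒰 N) (y : H1 𝒰 (tw N χ)) :
    pair11 𝒰 χ inv N x y = inv (CupLC.cupH₁₁ 𝒰 (equi_evP χ N) x y) := rfl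

end Pair

/-! ### δ-compatibility -/

section Delta

variable {𝒰 : NBasis G} (χ : G →* kˣ)

open CupWindow in
/-- **δ-compatibility** (local form): for `0 → R → Q → M → 0` and its dual
`0 → M' → Q' → R' → 0`, `z_* (δ₁ x) = x ∪ δ₀ z` in `H²(G, k(χ))` for `x ∈ H¹(M)`, `z ∈ H⁰(R')`. -/
theorem delta_compat {R Q M : Rep.{0, 0, 0} k G} (i : R ⟶ Q) (π : Q ⟶ M)
    (h : CoefLES.IsCoefSES (Mor.ofHom 𝒰 i) (Mor.ofHom 𝒰 π))
    (h' : CoefLES.IsCoefSES (Mor.ofHom 𝒰 (DualTwistApi.dualTwistMap χ π))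
      (Mor.ofHom 𝒰 (DualTwistApi.dualTwistMap χ i)))
    (x : H1 𝒰 M) (z : ↥(H0 𝒰 (tw R χ))) :
    (evMor 𝒰 χ R z).h2 (CoefLES.δ₁ h x) =
      CupLC.cupH₁₁ 𝒰 (equi_evP χ M) x (CoefLES.δ₀ h' z) := by
  obtain ⟨b, hb, rfl⟩ := Hmid.exists_of x
  obtain ⟨bt, hbt⟩ := CoefLES.c₁_surjective h b
  subst hbt
  -- the lift of `d bt` to `R`
  have h1 : (Mor.ofHom 𝒰 π).c₂ (dC₁ 𝒰 Q bt) = 0 := by
    have := LinearMap.congr_fun (Mor.ofHom 𝒰 π).c₂_dC₁ bt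
    simp only [LinearMap.comp_apply] at this
    rw [this, hb]
  obtain ⟨σ, hσ⟩ := (CoefLES.exact_c₂ h _).1 h1
  have hσ0 : dC₂ 𝒰 R σ = 0 := by
    apply CoefLES.c₃_injective h
    have := LinearMap.congr_fun (Mor.ofHom 𝒰 i).c₃_dC₂ σ
    simp only [LinearMap.comp_apply] at this
    rw [this, hσ, map_zero]
    exact dC₂_dC₁ 𝒰 Q bt
  have hδ₁ : CoefLES.δ₁ h (Hmid.of ((Mor.ofHom 𝒰 π).c₁ bt) hb) = Hmid.of σ hσ0 :=
    CoefLES.δ₁_of h bt σ hσ.symm hb hσ0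
  -- the lift of `z`
  obtain ⟨zt, hzt⟩ := CoefLES.c₀_surjective h' (z : ↥(C₀ 𝒰 (tw R χ)))
  have h2 : (Mor.ofHom 𝒰 (DualTwistApi.dualTwistMap χ i)).c₁ (dC₀ 𝒰 (tw Q χ) zt) = 0 := by
    have := LinearMap.congr_fun (Mor.ofHom 𝒰 (DualTwistApi.dualTwistMap χ i)).c₁_dC₀ zt
    simp only [LinearMap.comp_apply] at this
    rw [this, hzt]
    exact LinearMap.mem_ker.1 z.2
  obtain ⟨a, ha⟩ := (CoefLES.exact_c₁ h' _).1 h2
  have ha0 : dC₁ 𝒰 (tw M χ) a = 0 := by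
    apply CoefLES.c₂_injective h'
    have := LinearMap.congr_fun (Mor.ofHom 𝒰 (DualTwistApi.dualTwistMap χ π)).c₂_dC₁ a
    simp only [LinearMap.comp_apply] at this
    rw [this, ha, map_zero]
    exact dC₁_dC₀ 𝒰 (tw Q χ) zt
  have hmem : (Mor.ofHom 𝒰 (DualTwistApi.dualTwistMap χ i)).c₀ zt ∈ H0 𝒰 (tw R χ) := by
    rw [hzt]; exact z.2
  have hz : z = ⟨(Mor.ofHom 𝒰 (DualTwistApi.dualTwistMap χ i)).c₀ zt, hmem⟩ :=
    Subtype.ext hzt.symm
  have hδ₀ : CoefLES.δ₀ h' z = Hmid.of a ha0 := by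
    rw [hz]
    exact CoefLES.δ₀_of h' zt a ha.symm hmem ha0
  refine (congrArg (evMor 𝒰 χ R z).h2 hδ₁).trans ?_
  refine Eq.trans ?_ (congrArg (CupLC.cupH₁₁ 𝒰 (equi_evP χ M) _) hδ₀).symm
  have hcoc : dC₂ 𝒰 (mu χ) (CupLC.cupC₁₁ 𝒰 (equi_evP χ M) ((Mor.ofHom 𝒰 π).c₁ bt) a) = 0 :=
    CupLC.dC₂_eq_zero_iff.mpr (d23_cup11 (equi_evP χ M) (CupLC.dC₁_eq_zero_iff.mp hb)
      (CupLC.dC₁_eq_zero_iff.mp ha0))
  rw [CoefLES.h2_of, CupLC.cupH₁₁_of 𝒰 (equi_evP χ M) _ hb a ha0 hcoc]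
  refine Hmid.of_eq_of_iff.2 ⟨CupLC.cupC₁₀ 𝒰 (equi_evP χ Q) bt zt, ?_⟩
  -- function-level identities
  have hσ' : ∀ t : G × G, d12 Q.ρ (bt : G → Q) t = i.hom ((σ : G × G → R) t) := fun t =>
    (congrFun (congrArg Subtype.val hσ) t).symm
  have ha' : ∀ g : G, d01 (tw Q χ).ρ (zt : tw Q χ) g =
      (DualTwistApi.dualTwistMap χ π).hom ((a : G → tw M χ) g) := fun g =>
    (congrFun (congrArg Subtype.val ha) g).symm
  have hzt' : (DualTwistApi.dualTwistMap χ i).hom (zt : tw Q χ) =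
      ((z : ↥(C₀ 𝒰 (tw R χ))) : tw R χ) := congrArg Subtype.val hzt
  have hA : ∀ (γ : G) (r : R), ((tw Q χ).ρ γ (zt : tw Q χ) : Module.Dual k Q) (i.hom r) =
      fnl 𝒰 χ z r := by
    intro γ r
    have e1 : ((tw Q χ).ρ γ (zt : tw Q χ) : Module.Dual k Q) (i.hom r) =
        ((DualTwistApi.dualTwistMap χ i).hom ((tw Q χ).ρ γ (zt : tw Q χ)) : Module.Dual k R) r :=
      rfl
    rw [e1, Rep.hom_comm_apply, hzt', H0_fixed]
    rfl
  have hB : ∀ (g : G) (m' : tw M χ) (q : Q),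
      ((tw Q χ).ρ g ((DualTwistApi.dualTwistMap χ π).hom m') : Module.Dual k Q) q =
        ((tw M χ).ρ g m' : Module.Dual k M) (π.hom q) := by
    intro g m' q
    rw [← Rep.hom_comm_apply]
    rfl
  apply Subtype.ext
  funext t
  show d12 (mu χ).ρ (cup10 (tw Q χ).ρ (evP χ Q) (bt : G → Q) (zt : tw Q χ)) t = _
  rw [leibniz10 (equi_evP χ Q)]
  simp only [Pi.sub_apply, cup20_apply, cup1_apply, hσ', ha']
  exact congrArg₂ (· - ·) (hA _ _) (hB _ _ _)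

end Delta

/-! ### injectivity of `H¹(G,N') → H¹(G,N)^*` -/

section Inj

variable {𝒰 : NBasis G} {χ : G →* kˣ} {inv : H2 𝒰 (mu χ) →ₗ[k] k}

open Fermat.Agent.S55.Formal.Perm

/-- **Local duality, injectivity**: a class `y ∈ H¹(G,N')` which pairs to zero with all of
`H¹(G,N)` vanishes. -/
theorem eq_zero_of_pair11_eq_zero (hb : LocalBase 𝒰 χ inv) (N : Rep.{0, 0, 0} k G)
    (hN : IsUSmooth 𝒰 N) [FiniteDimensional k N] (y : H1 𝒰 (tw N χ))
    (hy : ∀ x, pair11 𝒰 χ inv N x y = 0) : y = 0 := by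
  obtain ⟨Q, π, hQ, hQf, hπ, hy0⟩ := EffaceDualApi.efface 𝒰 χ hb.chi_smooth N hN y
  have h := isCoefSES_ker (𝒰 := 𝒰) π hπ hQ
  have h' := isCoefSES_dual (𝒰 := 𝒰) hb.chi_smooth π hπ hQ
  have hRsm : IsUSmooth 𝒰 (kerRep π) := isUSmooth_kerRep π hQ
  have hRf : FiniteDimensional k (kerRep π) := finite_kerRep π
  exact DualAssembly.eq_zero_of_effaced (CoefLES.δ₁ h) (Mor.ofHom 𝒰 (kerι π)).h2
    (CoefLES.exact_δ₁_h2 h) (Mor.ofHom 𝒰 (DualTwistApi.dualTwistMap χ (kerι π))).h0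
    (CoefLES.δ₀ h') (Mor.ofHom 𝒰 (DualTwistApi.dualTwistMap χ π)).h1
    (CoefLES.exact_h0_δ₀ h') (CoefLES.exact_δ₀_h1 h')
    (pair11 𝒰 χ inv N) (phi2 𝒰 χ inv (kerRep π)) (phi2 𝒰 χ inv Q) 1 one_ne_zero
    (fun x z => by
      rw [one_mul, pair11_apply, phi2_apply, delta_compat χ (kerι π) π h h' x z])
    (fun t y => phi2_natural 𝒰 χ inv (kerι π) t y)
    (phi2_surjective hb (kerRep π) hRsm) (phi2_injective hb Q hQ) y hy0 hy

/-- the same, as injectivity of the flipped pairing `H¹(G,N') → H¹(G,N)^*` -/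
theorem pair11_flip_injective (hb : LocalBase 𝒰 χ inv) (N : Rep.{0, 0, 0} k G)
    (hN : IsUSmooth 𝒰 N) [FiniteDimensional k N] :
    Function.Injective (pair11 𝒰 χ inv N).flip := by
  rw [← LinearMap.ker_eq_bot, LinearMap.ker_eq_bot']
  intro y hy
  exact eq_zero_of_pair11_eq_zero hb N hN y fun x => by
    have := LinearMap.congr_fun hy x
    simpa using this

end Inj

end

end Fermat.Agent.S55.Formal.LocalDuality
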