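/-
S55 / Formal end (helper76): local invariants, reciprocity and the TRACE `tr : H³_c(k(χ)) → k`.

* `X.P2proj M v : X.P2 M →ₗ H2 (X.𝒱 v) (X.loc M v)` : the `v`-component of a class of the product
  complex; `X.P1proj` likewise; `P2proj_loc₂ : P2proj v ∘ loc₂ = (X.res M v).h2`.
* `InvData X χ` : linear forms `inv v : H²(Γ_v, k(χ)) → k` with the reciprocity law
  `∑_v inv_v (res_v x) = 0` for `x ∈ H²(G, k(χ))`.
* `InvData.sum : X.P2 (mu χ) →ₗ k`, `sum_loc₂ = 0`.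
* `InvData.tr (hV : Vanish₃ X.𝒰 (mu χ)) : X.H3c (mu χ) →ₗ k`, characterised by `tr_ι₃ : tr (ι₃ y) = sum y`.
-/
import Fermat.Agent.S55.Formal.Blocks

set_option autoImplicit false

open CategoryTheory groupCohomology Module

namespace Fermat.Agent.S55.Formal

namespace Site

variable {k : Type} [CommRing k] (X : Site) (M : Rep.{0, 0, 0} k X.G)

/-- the `v`-component of a class in `P1` -/
def P1proj (v : X.I) : X.P1 M →ₗ[k] H1 (X.𝒱 v) (X.loc M v) :=
  Hmid.mapOfComm (LinearMap.proj v) (LinearMap.proj v) (LinearMap.proj v)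
    (LinearMap.ext fun _ => rfl) (LinearMap.ext fun _ => rfl)

/-- the `v`-component of a class in `P2` -/
def P2proj (v : X.I) : X.P2 M →ₗ[k] H2 (X.𝒱 v) (X.loc M v) :=
  Hmid.mapOfComm (LinearMap.proj v) (LinearMap.proj v) (LinearMap.proj v)
    (LinearMap.ext fun _ => rfl) (LinearMap.ext fun _ => rfl)

theorem P1proj_loc₁ (v : X.I) (x : H1 X.𝒰 M) : X.P1proj M v (X.loc₁ M x) = (X.res M v).h1 x := by
  obtain ⟨a, ha, rfl⟩ := Hmid.exists_of x
  rfl

theorem P2proj_loc₂ (v : X.I) (x : H2 X.𝒰 M) : X.P2proj M v (X.loc₂ M x) = (X.res M v).h2 x := by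
  obtain ⟨a, ha, rfl⟩ := Hmid.exists_of x
  rfl

end Site

noncomputable section

/-- Local invariants with the global reciprocity law. -/
structure InvData {k : Type} [Field k] (X : Site) (χ : X.G →* kˣ) where
  /-- the local invariant maps -/
  inv : ∀ v : X.I, H2 (X.𝒱 v) (X.loc (mu χ) v) →ₗ[k] k
  recip : ∀ x : H2 X.𝒰 (mu χ), ∑ v, inv v ((X.res (mu χ) v).h2 x) = 0

namespace InvData

variable {k : Type} [Field k] {X : Site} {χ : X.G →* kˣ} (D : InvData X χ)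

/-- the sum of the local invariants -/
def sum : X.P2 (mu χ) →ₗ[k] k := ∑ v, (D.inv v) ∘ₗ X.P2proj (mu χ) v

theorem sum_apply (y : X.P2 (mu χ)) : D.sum y = ∑ v, D.inv v (X.P2proj (mu χ) v y) := by
  simp [sum]

theorem sum_loc₂ (x : H2 X.𝒰 (mu χ)) : D.sum (X.loc₂ (mu χ) x) = 0 := by
  rw [sum_apply]
  simp only [Site.P2proj_loc₂]
  exact D.recip x

theorem ker_ι₃_le_ker_sum : LinearMap.ker (X.ι₃ (mu χ)) ≤ LinearMap.ker D.sum := by
  intro y hy
  obtain ⟨x, rfl⟩ := (X.exact_loc₂_ι₃ (mu χ) y).1 (LinearMap.mem_ker.1 hy)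
  exact LinearMap.mem_ker.2 (D.sum_loc₂ x)

/-- the trace `H³_c(k(χ)) → k` (needs `H³(G, k(χ)) = 0`) -/
noncomputable def tr (hV : Vanish₃ X.𝒰 (mu χ)) : X.H3c (mu χ) →ₗ[k] k :=
  ((LinearMap.ker (X.ι₃ (mu χ))).liftQ D.sum D.ker_ι₃_le_ker_sum) ∘ₗ
    ((X.ι₃ (mu χ)).quotKerEquivOfSurjective (X.ι₃_surjective (mu χ) hV)).symm.toLinearMap

theorem tr_ι₃ (hV : Vanish₃ X.𝒰 (mu χ)) (y : X.P2 (mu χ)) :
    D.tr hV (X.ι₃ (mu χ) y) = D.sum y := by
  have h : ((X.ι₃ (mu χ)).quotKerEquivOfSurjective (X.ι₃_surjective (mu χ) hV)).symm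
      (X.ι₃ (mu χ) y) = Submodule.Quotient.mk y := by
    rw [LinearEquiv.symm_apply_eq]
    rfl
  simp only [tr, LinearMap.comp_apply, LinearEquiv.coe_coe, h, Submodule.liftQ_apply]

/-- `tr` is determined by its values on the image of `ι₃`. -/
theorem tr_unique (hV : Vanish₃ X.𝒰 (mu χ)) (t : X.H3c (mu χ) →ₗ[k] k)
    (ht : ∀ y, t (X.ι₃ (mu χ) y) = D.sum y) : t = D.tr hV := by
  refine LinearMap.ext fun x => ?_
  obtain ⟨y, rfl⟩ := X.ι₃_surjective (mu χ) hV x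
  rw [ht, tr_ι₃]

end InvData

end

end Fermat.Agent.S55.Formal
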