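/-
S55 / Formal end (helper32): the LOCAL PAIRING OF A SITE, in the shape consumed by
`GlobalDuality.Inputs` (`lamT`, `lamT_inj`).

For a site `X`, a smooth character `χ`, local invariants `D : InvData X χ` with `D.inv v ≠ 0` and the
numerical base `BaseA X k χ`:
* `localBase` : the hypotheses of `LocalDuality` hold at every place `v` (group `X.Γ v`, basis
  `X.𝒱 v`, character `χ ∘ ι_v`, invariant `D.inv v`);
* `localPair D N v : H¹(Γ_v, N') → H¹(Γ_v, N)^*` (cup product + evaluation + `inv_v`), injective for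
  finite-dimensional uniformly smooth `N` (`localPair_injective`);
* `lamT D N : P¹(N') → P¹(N)^*`, `lamT b' b = D.sum (cupP11 b b')`, injective
  (`lamT_injective`).
The only subtlety: `X.loc (tw N χ) v` and `tw (X.loc N v) (χ ∘ ι_v)` are not definitionally equal
(`(ι g)⁻¹` versus `ι g⁻¹`); we transport along `DualTwistApi.resDualTwistIso`.
-/
import Fermat.Agent.S55.Formal.LocalDuality
import Fermat.Agent.S55.Formal.Trace
import Fermat.Agent.S55.Formal.CupSiteLocal
import Fermat.Agent.S55.Formal.CupSite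
import Fermat.Agent.S55.Formal.HmidPi
import Fermat.Agent.S55.Formal.FinalCount
import Fermat.Agent.S55.Formal.Vanish3All

set_option autoImplicit false

open CategoryTheory Module

namespace Fermat.Agent.S55.Formal.LocalSite

open Fermat.Agent.S55.Formal Fermat.Agent.S55.Formal.LocalDuality

noncomputable section

variable {k : Type} [Field k] {X : Site} {χ : X.G →* kˣ}

/-- the character at the place `v` -/
abbrev chiLoc (X : Site) (χ : X.G →* kˣ) (v : X.I) : X.Γ v →* kˣ := χ.comp (X.ι v)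

/-- the local invariant at `v`, as a functional on `H²(Γ_v, k(χ_v))`
(`X.loc (mu χ) v` and `mu (χ ∘ ι_v)` are definitionally equal) -/
def invLoc (D : InvData X χ) (v : X.I) : H2 (X.𝒱 v) (mu (chiLoc X χ v)) →ₗ[k] k := D.inv v

/-- the hypotheses of `LocalDuality` at the place `v` -/
theorem localBase (hA : BaseA X k χ) (D : InvData X χ) (hD : ∀ v, D.inv v ≠ 0) (v : X.I) :
    LocalBase (X.𝒱 v) (chiLoc X χ v) (invLoc D v) where
  chi_smooth := Vanish3All.chi_loc_smooth X k χ hA.chi_smooth v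
  inv_ne := hD v
  vanish₃ := fun N hf hN => (Vanish3All.vanish₃All_of_baseA X k χ hA).2 v N hf hN
  h2 := fun U hU hχ => hA.loc₂ v U hU hχ

/-! ### transport along `Res (N') ≅ (Res N)'` -/

section Transport

variable (χ) (N : Rep.{0, 0, 0} k X.G) (v : X.I)

/-- `X.loc (tw N χ) v → tw (X.loc N v) χ_v` (identity on the underlying modules) -/
def jMor : Mor (X.𝒱 v) (X.loc (tw N χ) v) (X.𝒱 v) (tw (X.loc N v) (chiLoc X χ v)) :=
  Mor.ofHom (X.𝒱 v) (DualTwistApi.resDualTwistIso χ (X.ι v) N).hom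

theorem jMor_h1_injective : Function.Injective (jMor χ N v).h1 := by
  have h : (Mor.ofHom (X.𝒱 v) (DualTwistApi.resDualTwistIso χ (X.ι v) N).inv).h1 ∘ₗ
      (jMor χ N v).h1 = LinearMap.id := by
    unfold jMor
    rw [← Functor.ofHom_comp_h1, Iso.hom_inv_id, Functor.ofHom_id_h1]
  exact Function.LeftInverse.injective (g := (Mor.ofHom (X.𝒱 v)
    (DualTwistApi.resDualTwistIso χ (X.ι v) N).inv).h1) fun x => LinearMap.congr_fun h x

/-- the localised evaluation pairing and the evaluation pairing of the localised module are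
compatible -/
theorem compat_ev :
    CupLC.Compat (Mor.ofHom (X.𝒱 v) (𝟙 (X.loc N v))) (jMor χ N v)
      (Mor.ofHom (X.𝒱 v) (𝟙 (mu (chiLoc X χ v))))
      (A := X.loc N v) (B := X.loc (tw N χ) v) (C := X.loc (mu χ) v)
      (evP χ N) (evP (chiLoc X χ v) (X.loc N v)) :=
  ⟨rfl, rfl, fun _ _ => rfl⟩

end Transport

/-! ### the local pairing at `v` -/

section LocalPair

variable (D : InvData X χ) (N : Rep.{0, 0, 0} k X.G) (v : X.I)

/-- `H¹(Γ_v, N') → H¹(Γ_v, N)^*`, `y ↦ (x ↦ inv_v (x ∪ y))` -/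
def localPair : H1 (X.𝒱 v) (X.loc (tw N χ) v) →ₗ[k] Dual k (H1 (X.𝒱 v) (X.loc N v)) :=
  ((CupLC.cupH₁₁ (X.𝒱 v) (X.equiLoc (equi_evP χ N) v)).compr₂ (D.inv v)).flip

theorem localPair_apply (y : H1 (X.𝒱 v) (X.loc (tw N χ) v)) (x : H1 (X.𝒱 v) (X.loc N v)) :
    localPair D N v y x =
      D.inv v (CupLC.cupH₁₁ (X.𝒱 v) (X.equiLoc (equi_evP χ N) v) x y) := rfl

/-- the local pairing is the pairing of `LocalDuality` after transport -/
theorem localPair_eq (y : H1 (X.𝒱 v) (X.loc (tw N χ) v)) (x : H1 (X.𝒱 v) (X.loc N v)) :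
    localPair D N v y x =
      pair11 (X.𝒱 v) (chiLoc X χ v) (invLoc D v) (X.loc N v) x ((jMor χ N v).h1 y) := by
  rw [localPair_apply, pair11_apply]
  have h := CupLC.Compat.h2_cupH₁₁ (compat_ev χ N v) (X.equiLoc (equi_evP χ N) v)
    (equi_evP (chiLoc X χ v) (X.loc N v)) x y
  have e2 : ∀ c : H2 (X.𝒱 v) (mu (chiLoc X χ v)),
      (Mor.ofHom (X.𝒱 v) (𝟙 (mu (chiLoc X χ v)))).h2 c = c :=
    fun c => LinearMap.congr_fun (Functor.ofHom_id_h2 (X.𝒱 v)) c
  have e1 : (Mor.ofHom (X.𝒱 v) (𝟙 (X.loc N v))).h1 x = x :=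
    LinearMap.congr_fun (Functor.ofHom_id_h1 (X.𝒱 v)) x
  rw [e1] at h
  exact congrArg (D.inv v) ((e2 _).symm.trans h)

theorem localPair_injective (hA : BaseA X k χ) (hD : ∀ v, D.inv v ≠ 0)
    (hN : IsUSmooth X.𝒰 N) [FiniteDimensional k N] :
    Function.Injective (localPair D N v) := by
  rw [← LinearMap.ker_eq_bot, LinearMap.ker_eq_bot']
  intro y hy
  apply jMor_h1_injective χ N v
  rw [map_zero]
  have hNv : IsUSmooth (X.𝒱 v) (X.loc N v) := by
    obtain ⟨U, hU, hUN⟩ := hN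
    obtain ⟨U', hU', hle⟩ := X.cont v U hU
    exact ⟨U', hU', fun s hs m => hUN _ (hle s hs) m⟩
  have hfd : FiniteDimensional k (X.loc N v) := inferInstanceAs (FiniteDimensional k N)
  refine eq_zero_of_pair11_eq_zero (localBase hA D hD v) (X.loc N v) hNv _ fun x => ?_
  rw [← localPair_eq, hy]
  rfl

end LocalPair

/-! ### the product pairing -/

section Product

variable (D : InvData X χ) (N : Rep.{0, 0, 0} k X.G)

theorem P2proj_eq (M : Rep.{0, 0, 0} k X.G) (v : X.I) (y : X.P2 M) :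
    X.P2proj M v y = X.P2equiv M y v := by
  obtain ⟨b, hb, rfl⟩ := Hmid.exists_of y
  rfl

/-- the product pairing `P¹(N') → P¹(N)^*`, `lamT b' b = ∑_v inv_v (b_v ∪ b'_v)` -/
def lamT : X.P1 (tw N χ) →ₗ[k] Dual k (X.P1 N) :=
  ((X.cupP11 (evP χ N) (equi_evP χ N)).compr₂ D.sum).flip

theorem lamT_apply (b' : X.P1 (tw N χ)) (b : X.P1 N) :
    lamT D N b' b = D.sum (X.cupP11 (evP χ N) (equi_evP χ N) b b') := rfl

theorem lamT_eq_sum (b' : X.P1 (tw N χ)) (b : X.P1 N) :
    lamT D N b' b =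
      ∑ v, localPair D N v (X.P1equiv (tw N χ) b' v) (X.P1equiv N b v) := by
  rw [lamT_apply, InvData.sum_apply]
  refine Finset.sum_congr rfl fun v _ => ?_
  rw [P2proj_eq, Site.P2equiv_cupP11, localPair_apply]

/-- **The local pairing of the site is right-nondegenerate.** -/
theorem lamT_injective (hA : BaseA X k χ) (hD : ∀ v, D.inv v ≠ 0)
    (hN : IsUSmooth X.𝒰 N) [FiniteDimensional k N] : Function.Injective (lamT D N) :=
  FinalCount.injective_of_local (X.P1equiv N) (X.P1equiv (tw N χ)) (fun v => localPair D N v)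
    (fun v => localPair_injective D N v hA hD hN) (lamT D N) (lamT_eq_sum D N)

/-- **The compatibility square** (`c = 1`): with `φ²_N x y := tr (x ∪ y)` (cone cup product
`H²_c(N) × H¹(N') → H³_c(k(χ))`), `φ²_N (ι₂ b) y = lamT (loc₁ y) b`. -/
theorem tr_cup21_ι₂ (hV : Vanish₃ X.𝒰 (mu χ)) (b : X.P1 N) (y : H1 X.𝒰 (tw N χ)) :
    D.tr hV (CupSite.cup21 X (equi_evP χ N) (X.ι₂ N b) y) =
      lamT D N (X.loc₁ (tw N χ) y) b := by
  rw [CupSite.cup21_ι₂, InvData.tr_ι₃, lamT_apply]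

end Product

end

end Fermat.Agent.S55.Formal.LocalSite
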