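/-
S55 / Formal end (helper76): the CONCRETE global pairings and the list of what is still to be proved
about them.

For a site `X`, a smooth character `χ`, invariants `D : InvData X χ` and `hV : Vanish₃ X.𝒰 (mu χ)`:
* `phi3 D hV N : H³_c(N) → H⁰(N')^*`, `x ↦ (y ↦ tr (x ∪ y))`   (`CupSite.cup30` of `evalPair`),
* `phi2 D hV N : H²_c(N) → H¹(N')^*`, `x ↦ (y ↦ tr (x ∪ y))`   (`CupSite.cup21` of `evalPair`),
* `lamT D N : P¹(N') → P¹(N)^*`, `b' ↦ (b ↦ ∑_v inv_v (b_v ∪ b'_v))`   (`cupP11` of `evalPair`),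
* `sq` : `phi2 (ι₂ b) y = lamT (loc₁ y) b`  (proved here, constant `1`).
The remaining obligations are the closed statements `Nat3`, `Nat2`, `DeltaC`, `Base3`, `LamInj`;
`inputs` assembles `GlobalDuality.Inputs` from them and `formalMain_of` concludes.
-/
import Fermat.Agent.S55.Formal.GlobalDuality
import Fermat.Agent.S55.Formal.CupSite
import Fermat.Agent.S55.Formal.EvalPair
import Fermat.Agent.S55.Formal.Trace

set_option autoImplicit false

open CategoryTheory groupCohomology Module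

namespace Fermat.Agent.S55.Formal.Pairings

open Fermat.Agent.S55.Formal Fermat.Agent.S55.Formal.CoefLES
  Fermat.Agent.S55.Formal.GlobalDuality

variable {k : Type} [Field k] {X : Site} {χ : X.G →* kˣ}

/-- the evaluation pairing `N × N' → k(χ)` is equivariant (in the form consumed by `CupSite`) -/
theorem equi (χ : X.G →* kˣ) (N : Rep.{0, 0, 0} k X.G) : CupLC.Equi (EvalPair.evalPair N χ) :=
  EvalPair.equivariant_evalPair N χ

variable (D : InvData X χ) (hV : Vanish₃ X.𝒰 (mu χ))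

/-- **`φ³_N : H³_c(N) → H⁰(N')^*`**, `x ↦ (y ↦ tr (x ∪ y))`. -/
noncomputable def phi3 (N : Rep.{0, 0, 0} k X.G) :
    X.H3c N →ₗ[k] Dual k ↥(H0 X.𝒰 (tw N χ)) :=
  (CupSite.cup30 X (equi χ N)).compr₂ (D.tr hV)

/-- **`φ²_N : H²_c(N) → H¹(N')^*`**, `x ↦ (y ↦ tr (x ∪ y))`. -/
noncomputable def phi2 (N : Rep.{0, 0, 0} k X.G) :
    X.H2c N →ₗ[k] Dual k (H1 X.𝒰 (tw N χ)) :=
  (CupSite.cup21 X (equi χ N)).compr₂ (D.tr hV)

/-- **the local pairing `P¹(N') → P¹(N)^*`**, `b' ↦ (b ↦ ∑_v inv_v (b_v ∪ b'_v))`. -/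
noncomputable def lamT (N : Rep.{0, 0, 0} k X.G) : X.P1 (tw N χ) →ₗ[k] Dual k (X.P1 N) :=
  ((X.cupP11 (EvalPair.evalPair N χ) (equi χ N)).compr₂ D.sum).flip

theorem phi3_apply (N : Rep.{0, 0, 0} k X.G) (x : X.H3c N) (y : ↥(H0 X.𝒰 (tw N χ))) :
    phi3 D hV N x y = D.tr hV (CupSite.cup30 X (equi χ N) x y) := rfl

theorem phi2_apply (N : Rep.{0, 0, 0} k X.G) (x : X.H2c N) (y : H1 X.𝒰 (tw N χ)) :
    phi2 D hV N x y = D.tr hV (CupSite.cup21 X (equi χ N) x y) := rfl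

theorem lamT_apply (N : Rep.{0, 0, 0} k X.G) (b' : X.P1 (tw N χ)) (b : X.P1 N) :
    lamT D N b' b = D.sum (X.cupP11 (EvalPair.evalPair N χ) (equi χ N) b b') := rfl

/-- **the compatibility square** between `φ²` and the local pairing. -/
theorem sq (N : Rep.{0, 0, 0} k X.G) (b : X.P1 N) (y : H1 X.𝒰 (tw N χ)) :
    phi2 D hV N (X.ι₂ N b) y = 1 * lamT D N (X.loc₁ (tw N χ) y) b := by
  rw [one_mul, phi2_apply, lamT_apply, CupSite.cup21_ι₂, InvData.tr_ι₃]

/-! ### the remaining obligations, as closed statements about the concrete pairings -/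

/-- naturality of `φ³` -/
def Nat3 : Prop :=
  ∀ {N₁ N₂ : Rep.{0, 0, 0} k X.G} (φ : N₁ ⟶ N₂) (x : X.H3c N₁) (y : ↥(H0 X.𝒰 (tw N₂ χ))),
    phi3 D hV N₂ (m3 X φ x) y = phi3 D hV N₁ x ((om X (tmap X χ φ)).h0 y)

/-- naturality of `φ²` -/
def Nat2 : Prop :=
  ∀ {N₁ N₂ : Rep.{0, 0, 0} k X.G} (φ : N₁ ⟶ N₂) (x : X.H2c N₁) (y : H1 X.𝒰 (tw N₂ χ)),
    phi2 D hV N₂ (m2 X φ x) y = phi2 D hV N₁ x ((om X (tmap X χ φ)).h1 y)

/-- compatibility with the connecting maps, up to the constant `eps` -/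
def DeltaC (eps : k) : Prop :=
  ∀ {R Q M : Rep.{0, 0, 0} k X.G} (i : R ⟶ Q) (π : Q ⟶ M) (h : SES X i π)
    (h' : SES X (tmap X χ π) (tmap X χ i)) (x : X.H2c M) (z : ↥(H0 X.𝒰 (tw R χ))),
    phi3 D hV R (ConeSES.δc X h x) z = eps * phi2 D hV M x (δ₀ h' z)

/-- the base case of `φ³` -/
def Base3 : Prop :=
  ∀ U, X.𝒰.mem U → TrivOn χ U → Function.Bijective (phi3 D hV (perm k U))

/-- injectivity of the local pairing -/
def LamInj : Prop :=
  ∀ N : Rep.{0, 0, 0} k X.G, Adm X N → Function.Injective (lamT D N)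

/-- the package of global pairings from the obligations -/
noncomputable def gPairing (h3 : Nat3 D hV) (h2 : Nat2 D hV) (eps : k) (heps : eps ≠ 0)
    (hδ : DeltaC D hV eps) : GPairing X χ where
  phi3 := phi3 D hV
  phi2 := phi2 D hV
  nat3 := h3
  nat2 := h2
  eps := eps
  eps_ne := heps
  delta := hδ

end Fermat.Agent.S55.Formal.Pairings
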