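/-
S55 / Formal end (helper32): obligation (O5) of `Formal/Pairings.lean`, LITERALLY:

  `theorem lamInj (hA : BaseA X k χ) (D : InvData X χ) (hD : ∀ v, D.inv v ≠ 0) : Pairings.LamInj D`

i.e. for every admissible `N` (finite-dimensional, uniformly smooth) the local pairing
`Pairings.lamT D N : P¹(N') → P¹(N)^*` is injective.  This is `LocalSite.lamT_injective`
(local Tate duality at every place, assembled over the finite product), transported along the
definitional equality `Pairings.lamT D N = LocalSite.lamT D N`
(`EvalPair.evalPair N χ = Module.Dual.eval k N = LocalDuality.evP χ N`).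
-/
import Fermat.Agent.S55.Formal.Pairings
import Fermat.Agent.S55.Formal.LocalSite

set_option autoImplicit false

open CategoryTheory groupCohomology Module

namespace Fermat.Agent.S55.Formal.LamInjProof

open Fermat.Agent.S55.Formal Fermat.Agent.S55.Formal.CoefLES
  Fermat.Agent.S55.Formal.GlobalDuality

variable {k : Type} [Field k] {X : Site} {χ : X.G →* kˣ}

/-- the two definitions of the local pairing agree -/
theorem lamT_eq (D : InvData X χ) (N : Rep.{0, 0, 0} k X.G) :
    Pairings.lamT D N = LocalSite.lamT D N := rfl

/-- **Obligation (O5): the local pairing is right-nondegenerate on admissible modules.** -/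
theorem lamInj (hA : BaseA X k χ) (D : InvData X χ) (hD : ∀ v, D.inv v ≠ 0) :
    Pairings.LamInj D := by
  intro N hN
  have : Module.Finite k N := hN.1
  rw [lamT_eq]
  exact LocalSite.lamT_injective D N hA hD hN.2

end Fermat.Agent.S55.Formal.LamInjProof
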