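import Mathlib
import Fermat.Agent.S55.Formal.Functor
import Fermat.Agent.S55.Formal.PermBasis
import Fermat.Agent.S55.Formal.ConeSESBridge

/-!
# S55 / Formal / PermCover  (row (R-a) of helper76 #1796)

* `exists_perm_cover` : a finite-dimensional uniformly smooth `N` and a smooth character `χ`:
  there are `U ∈ 𝒰` with `χ|_U = 1`, `d`, and a short exact sequence
  `0 → R → (perm k U)^d → N → 0` (`CoefLES.IsCoefSES`) with `R` finite-dimensional uniformly smooth.
* additivity of the `Site` functors in the coefficient map (`P1map_add`, ..., `H3cmap_add`);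
* `LinFunctor` instances (structure of `Formal/Functor.lean`) for `N ↦ H0..H3 𝒰 N` and
  `N ↦ X.P1 N, X.P2 N, X.H2c N, X.H3c N`;
* `pow_total`, and the additivity corollaries `NatTrans.bijective_pow` etc.: a natural
  transformation out of one of these functors which is bijective on `B` is bijective on
  `powRep B d`.
-/

set_option autoImplicit false

open CategoryTheory groupCohomology

namespace Fermat.Agent.S55.Formal.PermCover

open Fermat.Agent.S55.Formal Fermat.Agent.S55.Formal.CoefLES Fermat.Agent.S55.Formal.ConeSES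
  Fermat.Agent.S55.Formal.ConeSES2 Fermat.Agent.S55.Formal.Perm Fermat.Agent.S55.Formal.PermBasis
  Fermat.Agent.S55.Formal.Functor

section Cover

variable {k : Type} [Field k] {G : Type} [Group G]

/-- **Free cover as a short exact sequence**, with `χ` trivial on the level. -/
theorem exists_perm_cover (𝒰 : NBasis G) (χ : G →* kˣ) (hχ : ∃ U, 𝒰.mem U ∧ TrivOn χ U)
    (N : Rep.{0, 0, 0} k G) (hN : IsUSmooth 𝒰 N) [FiniteDimensional k N] :
    ∃ (U : Subgroup G) (_ : 𝒰.mem U) (_ : TrivOn χ U) (d : ℕ) (R : Rep.{0, 0, 0} k G)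
      (ι : R ⟶ powRep (perm k U) d) (π : powRep (perm k U) d ⟶ N),
      IsCoefSES (Mor.ofHom 𝒰 ι) (Mor.ofHom 𝒰 π) ∧ IsUSmooth 𝒰 R ∧ FiniteDimensional k R ∧
      IsUSmooth 𝒰 (powRep (perm k U) d) ∧ FiniteDimensional k (powRep (perm k U) d) := by
  obtain ⟨U₁, hU₁, hN₁⟩ := hN
  obtain ⟨U₂, hU₂, hχ₂⟩ := hχ
  obtain ⟨W, hW, hle⟩ := 𝒰.inf hU₁ hU₂
  obtain ⟨d, π, hsurj, hsm, hfin, hRsm, hRfin, hinj, hex⟩ :=
    exists_free_cover_perm 𝒰 N hW (fun s hs m => hN₁ s (hle hs).1 m)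
  refine ⟨W, hW, fun s hs => hχ₂ s (hle hs).2, d, kerRep π, kerι π, π, ?_, hRsm, hRfin, hsm, hfin⟩
  refine isCoefSES_ofHom 𝒰 (kerι π) π hinj hsurj ?_ hsm
  intro a
  exact hex a

end Cover

section Additivity

variable {k : Type} [CommRing k]

section OneGroup

variable {G : Type} [Group G] {𝒰 : NBasis G} {A B : Rep.{0, 0, 0} k G}
  {α β γ : Mor 𝒰 A 𝒰 B} (hα : ∀ g, α.f g = g) (hβ : ∀ g, β.f g = g) (hγ : ∀ g, γ.f g = g)
  (hφ : ∀ x, γ.φ x = α.φ x + β.φ x)

include hα hβ hγ hφ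

theorem c₁_add (x : ↥(C₁ 𝒰 A)) : γ.c₁ x = α.c₁ x + β.c₁ x := by
  apply Subtype.ext
  funext g
  simp only [Mor.c₁_coe, Mor.p₁_apply, Submodule.coe_add, Pi.add_apply, hα, hβ, hγ, hφ]

theorem c₂_add (x : ↥(C₂ 𝒰 A)) : γ.c₂ x = α.c₂ x + β.c₂ x := by
  apply Subtype.ext
  funext ⟨g, g'⟩
  simp only [Mor.c₂_coe, Mor.p₂_apply, Submodule.coe_add, Pi.add_apply, hα, hβ, hγ, hφ]

theorem c₃_add (x : ↥(C₃ 𝒰 A)) : γ.c₃ x = α.c₃ x + β.c₃ x := by
  apply Subtype.ext
  funext ⟨g, g', g''⟩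
  simp only [Mor.c₃_coe, Mor.p₃_apply, Submodule.coe_add, Pi.add_apply, hα, hβ, hγ, hφ]

end OneGroup

variable (X : Site) {A B : Rep.{0, 0, 0} k X.G}
  {α β γ : Mor X.𝒰 A X.𝒰 B} (hα : ∀ g, α.f g = g) (hβ : ∀ g, β.f g = g) (hγ : ∀ g, γ.f g = g)
  (hφ : ∀ x, γ.φ x = α.φ x + β.φ x)

include hφ

theorem dmap₁_add (x : X.D₁ A) : dmap₁ X γ hγ x = dmap₁ X α hα x + dmap₁ X β hβ x :=
  funext fun v => c₁_add (α := locMor X α hα v) (β := locMor X β hβ v) (γ := locMor X γ hγ v)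
    (fun _ => rfl) (fun _ => rfl) (fun _ => rfl) hφ (x v)

theorem dmap₂_add (x : X.D₂ A) : dmap₂ X γ hγ x = dmap₂ X α hα x + dmap₂ X β hβ x :=
  funext fun v => c₂_add (α := locMor X α hα v) (β := locMor X β hβ v) (γ := locMor X γ hγ v)
    (fun _ => rfl) (fun _ => rfl) (fun _ => rfl) hφ (x v)

theorem kmap₂_add (x : ↥(C₂ X.𝒰 A) × X.D₁ A) :
    kmap₂ X γ hγ x = kmap₂ X α hα x + kmap₂ X β hβ x :=
  Prod.ext (c₂_add hα hβ hγ hφ x.1) (dmap₁_add X hα hβ hγ hφ x.2)

theorem kmap₃_add (x : ↥(C₃ X.𝒰 A) × X.D₂ A) :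
    kmap₃ X γ hγ x = kmap₃ X α hα x + kmap₃ X β hβ x :=
  Prod.ext (c₃_add hα hβ hγ hφ x.1) (dmap₂_add X hα hβ hγ hφ x.2)

theorem P1map_add : P1map X γ hγ = P1map X α hα + P1map X β hβ := by
  apply LinearMap.ext
  intro x
  obtain ⟨y, hy, rfl⟩ := Hmid.exists_of x
  rw [LinearMap.add_apply, P1map_of, P1map_of, P1map_of, ← Hmid.of_add]
  exact Hmid.of_eq_of_iff.2 ⟨0, by rw [map_zero, dmap₁_add X hα hβ hγ hφ, sub_self]⟩

theorem P2map_add : P2map X γ hγ = P2map X α hα + P2map X β hβ := by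
  apply LinearMap.ext
  intro x
  obtain ⟨y, hy, rfl⟩ := Hmid.exists_of x
  rw [LinearMap.add_apply, P2map_of, P2map_of, P2map_of, ← Hmid.of_add]
  exact Hmid.of_eq_of_iff.2 ⟨0, by rw [map_zero, dmap₂_add X hα hβ hγ hφ, sub_self]⟩

theorem H2cmap_add : H2cmap X γ hγ = H2cmap X α hα + H2cmap X β hβ := by
  apply LinearMap.ext
  intro x
  obtain ⟨y, hy, rfl⟩ := Hmid.exists_of x
  rw [LinearMap.add_apply, H2cmap_of, H2cmap_of, H2cmap_of, ← Hmid.of_add]
  exact Hmid.of_eq_of_iff.2 ⟨0, by rw [map_zero, kmap₂_add X hα hβ hγ hφ, sub_self]⟩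

theorem H3cmap_add : H3cmap X γ hγ = H3cmap X α hα + H3cmap X β hβ := by
  apply LinearMap.ext
  intro x
  obtain ⟨y, hy, rfl⟩ := Hmid.exists_of x
  rw [LinearMap.add_apply, H3cmap_of, H3cmap_of, H3cmap_of, ← Hmid.of_add]
  exact Hmid.of_eq_of_iff.2 ⟨0, by rw [map_zero, kmap₃_add X hα hβ hγ hφ, sub_self]⟩

end Additivity

section Functors

variable {k : Type} [CommRing k]

variable (X : Site)

/-- `N ↦ P¹(N)` -/
def P1F : LinFunctor.{1, 0, 0} k (Rep.{0, 0, 0} k X.G) where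
  obj N := X.P1 N
  acg _ := inferInstance
  mod _ := inferInstance
  map φ := X.mapP1 (Mor.ofHom X.𝒰 φ) (fun _ => rfl)
  map_id _ := P1map_id X (fun _ => rfl) (fun _ => rfl)
  map_comp _ _ := P1map_comp X (fun _ => rfl) (fun _ => rfl) (fun _ => rfl) (fun _ => rfl)
  map_add _ _ := P1map_add X (fun _ => rfl) (fun _ => rfl) (fun _ => rfl) (fun _ => rfl)

/-- `N ↦ P²(N)` -/
def P2F : LinFunctor.{1, 0, 0} k (Rep.{0, 0, 0} k X.G) where
  obj N := X.P2 N
  acg _ := inferInstance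
  mod _ := inferInstance
  map φ := X.mapP2 (Mor.ofHom X.𝒰 φ) (fun _ => rfl)
  map_id _ := P2map_id X (fun _ => rfl) (fun _ => rfl)
  map_comp _ _ := P2map_comp X (fun _ => rfl) (fun _ => rfl) (fun _ => rfl) (fun _ => rfl)
  map_add _ _ := P2map_add X (fun _ => rfl) (fun _ => rfl) (fun _ => rfl) (fun _ => rfl)

/-- `N ↦ H²_c(N)` -/
def H2cF : LinFunctor.{1, 0, 0} k (Rep.{0, 0, 0} k X.G) where
  obj N := X.H2c N
  acg _ := inferInstance
  mod _ := inferInstance
  map φ := X.mapH2c (Mor.ofHom X.𝒰 φ) (fun _ => rfl)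
  map_id _ := H2cmap_id X (fun _ => rfl) (fun _ => rfl)
  map_comp _ _ := H2cmap_comp X (fun _ => rfl) (fun _ => rfl) (fun _ => rfl) (fun _ => rfl)
  map_add _ _ := H2cmap_add X (fun _ => rfl) (fun _ => rfl) (fun _ => rfl) (fun _ => rfl)

/-- `N ↦ H³_c(N)` -/
def H3cF : LinFunctor.{1, 0, 0} k (Rep.{0, 0, 0} k X.G) where
  obj N := X.H3c N
  acg _ := inferInstance
  mod _ := inferInstance
  map φ := X.mapH3c (Mor.ofHom X.𝒰 φ) (fun _ => rfl)
  map_id _ := H3cmap_id X (fun _ => rfl) (fun _ => rfl)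
  map_comp _ _ := H3cmap_comp X (fun _ => rfl) (fun _ => rfl) (fun _ => rfl) (fun _ => rfl)
  map_add _ _ := H3cmap_add X (fun _ => rfl) (fun _ => rfl) (fun _ => rfl) (fun _ => rfl)

/-- the target of `φ³` : `N ↦ Dual (H⁰(tw N χ))`, covariant in `N` -/
noncomputable abbrev dualH0twF (χ : X.G →* kˣ) : LinFunctor.{1, 0, 0} k (Rep.{0, 0, 0} k X.G) :=
  (hF0 X.𝒰).dualOfDualTwist χ

/-- the target of `φ²` : `N ↦ Dual (H¹(tw N χ))`, covariant in `N` -/
noncomputable abbrev dualH1twF (χ : X.G →* kˣ) : LinFunctor.{1, 0, 0} k (Rep.{0, 0, 0} k X.G) :=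
  (hF1 X.𝒰).dualOfDualTwist χ

end Functors

section Pow

variable {k : Type} [CommRing k] {G : Type} [Group G]
  {T T' : LinFunctor.{1, 0, 0} k (Rep.{0, 0, 0} k G)} (η : LinFunctor.NatTrans T T')
  (B : Rep.{0, 0, 0} k G) (d : ℕ)

/-- `𝟙 = Σ_j π_j ≫ ι_j` on `powRep B d` (from `Perm.sum_powπ_powι`). -/
theorem pow_total : ∑ j : Fin d, powπ B d j ≫ powι B d j = 𝟙 (powRep B d) := sum_powπ_powι B d

/-- **Additivity**: a natural transformation (of linear functors given by hand) which is injective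
on `B` is injective on `B^d`. -/
theorem injective_pow (h : Function.Injective (η.app B)) :
    Function.Injective (η.app (powRep B d)) :=
  η.injective_of_total (powι B d) (powπ B d) (pow_total B d) fun _ => h

/-- **Additivity**, surjective part. -/
theorem surjective_pow (h : Function.Surjective (η.app B)) :
    Function.Surjective (η.app (powRep B d)) :=
  η.surjective_of_total (powι B d) (powπ B d) (pow_total B d) fun _ => h

/-- **Additivity**, bijective part. -/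
theorem bijective_pow (h : Function.Bijective (η.app B)) :
    Function.Bijective (η.app (powRep B d)) :=
  η.bijective_of_total (powι B d) (powπ B d) (pow_total B d) fun _ => h

variable {S S' : LinCofunctor.{1, 0, 0} k (Rep.{0, 0, 0} k G)} (θ : LinCofunctor.NatTrans S S')

/-- contravariant version -/
theorem injective_pow' (h : Function.Injective (θ.app B)) :
    Function.Injective (θ.app (powRep B d)) :=
  θ.injective_of_total (powι B d) (powπ B d) (pow_total B d) fun _ => h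

/-- contravariant version -/
theorem surjective_pow' (h : Function.Surjective (θ.app B)) :
    Function.Surjective (θ.app (powRep B d)) :=
  θ.surjective_of_total (powι B d) (powπ B d) (pow_total B d) fun _ => h

/-- contravariant version -/
theorem bijective_pow' (h : Function.Bijective (θ.app B)) :
    Function.Bijective (θ.app (powRep B d)) :=
  θ.bijective_of_total (powι B d) (powπ B d) (pow_total B d) fun _ => h

end Pow

end Fermat.Agent.S55.Formal.PermCover
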