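import Mathlib
import Fermat.Agent.S55.Formal.PermCover
import Fermat.Agent.S55.Formal.DualityAlgebra
import Fermat.Agent.S55.Formal.Blocks

/-!
# S55 / Formal / RightExactDev: the generic top-degree devissage

`T, T'` two linear functors given by hand on `Rep k G` (structure `LinFunctor` of
`Formal/Functor.lean`), both RIGHT EXACT on short exact sequences of finite-dimensional uniformly
smooth representations (`RightExactOn`), and `η : T ⟶ T'` a natural transformation which is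
bijective on the permutation modules `perm k U` (`U ∈ 𝒰`, `χ|_U = 1`).  Then `η` is bijective on
every finite-dimensional uniformly smooth `N` (`bijective_of_rightExact`).

Instances of `RightExactOn`: `N ↦ H²(𝒰, N)` (given `Vanish₃`), `N ↦ H³_c(N)` (given `Vanish₃All`),
`N ↦ Dual (H⁰(tw N χ))`.  This is the common skeleton of `φ³` (global) and `φ²_v` (local).
-/

set_option autoImplicit false

open CategoryTheory groupCohomology

namespace Fermat.Agent.S55.Formal.RightExactDev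

open Fermat.Agent.S55.Formal Fermat.Agent.S55.Formal.CoefLES Fermat.Agent.S55.Formal.Perm
  Fermat.Agent.S55.Formal.PermBasis Fermat.Agent.S55.Formal.Functor
  Fermat.Agent.S55.Formal.PermCover

variable {k : Type} [Field k] {G : Type} [Group G] (𝒰 : NBasis G)

/-- admissible = finite-dimensional and uniformly smooth -/
def Adm (N : Rep.{0, 0, 0} k G) : Prop := IsUSmooth 𝒰 N ∧ Module.Finite k N

/-- `T` is right exact on short exact sequences of admissible representations. -/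
def RightExactOn (T : LinFunctor.{1, 0, 0} k (Rep.{0, 0, 0} k G)) : Prop :=
  ∀ {A B C : Rep.{0, 0, 0} k G} (ι : A ⟶ B) (π : B ⟶ C),
    IsCoefSES (Mor.ofHom 𝒰 ι) (Mor.ofHom 𝒰 π) → Adm 𝒰 A → Adm 𝒰 B → Adm 𝒰 C →
      Function.Exact (T.map ι) (T.map π) ∧ Function.Surjective (T.map π)

section Main

variable {𝒰}
variable {T T' : LinFunctor.{1, 0, 0} k (Rep.{0, 0, 0} k G)} (η : LinFunctor.NatTrans T T')
  (χ : G →* kˣ) (hχ : ∃ U, 𝒰.mem U ∧ TrivOn χ U)

include hχ

/-- Step 1: surjectivity on all admissible `N` from surjectivity on the `perm k U` and right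
exactness of the target. -/
theorem surjective_of_rightExact (hT' : RightExactOn 𝒰 T')
    (hbase : ∀ U, 𝒰.mem U → TrivOn χ U → Function.Surjective (η.app (perm k U)))
    (N : Rep.{0, 0, 0} k G) (hN : Adm 𝒰 N) : Function.Surjective (η.app N) := by
  have : FiniteDimensional k N := hN.2
  obtain ⟨U, hU, hχU, d, R, ι, π, hses, hRsm, hRfin, hPsm, hPfin⟩ :=
    exists_perm_cover 𝒰 χ hχ N hN.1
  have hP := surjective_pow η (perm k U) d (hbase U hU hχU)
  intro y
  obtain ⟨y', rfl⟩ := (hT' ι π hses ⟨hRsm, hRfin⟩ ⟨hPsm, hPfin⟩ hN).2 y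
  obtain ⟨x', rfl⟩ := hP y'
  exact ⟨T.map π x', (η.naturality π x').symm⟩

/-- **The generic top-degree devissage.** -/
theorem bijective_of_rightExact (hT : RightExactOn 𝒰 T) (hT' : RightExactOn 𝒰 T')
    (hbase : ∀ U, 𝒰.mem U → TrivOn χ U → Function.Bijective (η.app (perm k U)))
    (N : Rep.{0, 0, 0} k G) (hN : Adm 𝒰 N) : Function.Bijective (η.app N) := by
  have hsurj := surjective_of_rightExact η χ hχ hT' (fun U hU hχU => (hbase U hU hχU).2)
  refine ⟨?_, hsurj N hN⟩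
  have : FiniteDimensional k N := hN.2
  obtain ⟨U, hU, hχU, d, R, ι, π, hses, hRsm, hRfin, hPsm, hPfin⟩ :=
    exists_perm_cover 𝒰 χ hχ N hN.1
  have hP := bijective_pow η (perm k U) d (hbase U hU hχU)
  have hTe := hT ι π hses ⟨hRsm, hRfin⟩ ⟨hPsm, hPfin⟩ hN
  have hT'e := hT' ι π hses ⟨hRsm, hRfin⟩ ⟨hPsm, hPfin⟩ hN
  rw [← LinearMap.ker_eq_bot, LinearMap.ker_eq_bot']
  intro x hx
  obtain ⟨x', rfl⟩ := hTe.2 x
  have h1 : T'.map π (η.app _ x') = 0 := by rw [η.naturality, hx]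
  obtain ⟨z, hz⟩ := (hT'e.1 _).1 h1
  obtain ⟨w, rfl⟩ := hsurj R ⟨hRsm, hRfin⟩ z
  have h2 : x' = T.map ι w := by
    apply hP.1
    rw [← hz, η.naturality]
  rw [h2]
  exact (hTe.1 _).2 ⟨w, rfl⟩

end Main

section Instances

/-- every class of `H³` vanishes under `Vanish₃` -/
theorem H3_eq_zero {A : Rep.{0, 0, 0} k G} (hA : Vanish₃ 𝒰 A) (x : H3 𝒰 A) : x = 0 := by
  obtain ⟨f, hf, rfl⟩ := Hmid.exists_of x
  exact Hmid.of_eq_zero_iff.2 (hA f hf)

/-- `N ↦ H²(𝒰, N)` is right exact on admissible sequences if `H³` vanishes on admissible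
modules. -/
theorem rightExactOn_hF2 (hV : ∀ N : Rep.{0, 0, 0} k G, Adm 𝒰 N → Vanish₃ 𝒰 N) :
    RightExactOn 𝒰 (hF2 (k := k) 𝒰) := by
  intro A B C ι π h hA _ _
  refine ⟨exact_h2 h, fun y => ?_⟩
  exact (exact_h2_δ₂ h y).1 (H3_eq_zero 𝒰 (hV A hA) _)

/-- `N ↦ Dual (H⁰(𝒰, tw N χ))` is right exact on admissible sequences. -/
theorem rightExactOn_dualH0tw (χ : G →* kˣ) (hχ : ∃ U, 𝒰.mem U ∧ TrivOn χ U) :
    RightExactOn 𝒰 ((hF0 (k := k) 𝒰).dualOfDualTwist χ) := by
  intro A B C ι π h _ hB _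
  have hinj : Function.Injective ι.hom := h.inj
  have hsurj : Function.Surjective π.hom := h.surj
  have hex : Function.Exact ι.hom π.hom := h.exact
  have hdual : IsCoefSES (Mor.ofHom 𝒰 (dualTwistMap χ π)) (Mor.ofHom 𝒰 (dualTwistMap χ ι)) :=
    isCoefSES_ofHom 𝒰 _ _ (dualTwistMap_injective_of_surjective χ π hsurj)
      (dualTwistMap_surjective_of_injective χ ι hinj) (dualTwistMap_exact χ ι π hex)
      (isUSmooth_tw χ hB.1 hχ)
  refine ⟨?_, ?_⟩
  · exact DualityAlgebra.exact_dualMap _ _ (exact_h0 hdual)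
  · exact LinearMap.dualMap_surjective_of_injective (h0_injective hdual)

variable (X : Site)

theorem adm_loc {N : Rep.{0, 0, 0} k X.G} (hN : Adm X.𝒰 N) (v : X.I) :
    Adm (X.𝒱 v) (X.loc N v) :=
  ⟨IsUSmooth.res (X.𝒱 v) (X.ι v) hN.1 (X.cont v), hN.2⟩

/-- `N ↦ H³_c(N)` is right exact on admissible sequences, given `Vanish₃All`. -/
theorem rightExactOn_H3cF (hV : Vanish₃All X k) : RightExactOn X.𝒰 (H3cF (k := k) X) := by
  intro A B C ι π h hA _ hC
  refine ⟨ConeSESBridge.exact_mapH3c X h, ?_⟩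
  exact ConeSESBridge.mapH3c_surjective X h (hV.1 C hC.2 hC.1)
    (fun v => hV.2 v (X.loc A v) (adm_loc X hA v).2 (adm_loc X hA v).1)

/-- **`φ³` is an isomorphism for all admissible `N`** as soon as it is on the `perm k U`:
any natural transformation `H³_c(−) ⟶ Dual (H⁰(tw − χ))`. -/
theorem phi3_bijective (χ : X.G →* kˣ) (hχ : ∃ U, X.𝒰.mem U ∧ TrivOn χ U)
    (hV : Vanish₃All X k)
    (η : LinFunctor.NatTrans (H3cF (k := k) X) (dualH0twF X χ))
    (hbase : ∀ U, X.𝒰.mem U → TrivOn χ U → Function.Bijective (η.app (perm k U)))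
    (N : Rep.{0, 0, 0} k X.G) (hN : Adm X.𝒰 N) : Function.Bijective (η.app N) :=
  bijective_of_rightExact η χ hχ (rightExactOn_H3cF X hV) (rightExactOn_dualH0tw X.𝒰 χ hχ)
    hbase N hN

/-- **local `φ²`**: any natural transformation `H²(𝒰, −) ⟶ Dual (H⁰(tw − χ))` which is bijective
on the `perm k U` is bijective on all admissible `N`, given `Vanish₃` on admissible modules. -/
theorem phi2_loc_bijective (χ : G →* kˣ) (hχ : ∃ U, 𝒰.mem U ∧ TrivOn χ U)
    (hV : ∀ N : Rep.{0, 0, 0} k G, Adm 𝒰 N → Vanish₃ 𝒰 N)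
    (η : LinFunctor.NatTrans (hF2 (k := k) 𝒰) ((hF0 (k := k) 𝒰).dualOfDualTwist χ))
    (hbase : ∀ U, 𝒰.mem U → TrivOn χ U → Function.Bijective (η.app (perm k U)))
    (N : Rep.{0, 0, 0} k G) (hN : Adm 𝒰 N) : Function.Bijective (η.app N) :=
  bijective_of_rightExact η χ hχ (rightExactOn_hF2 𝒰 hV) (rightExactOn_dualH0tw 𝒰 χ hχ)
    hbase N hN

end Instances

end Fermat.Agent.S55.Formal.RightExactDev
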