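/-
S55 / Formal end (helper4): the duality map `φ³ : H³_c(N) → Dual (H⁰(G, N'))`, `N' = tw N χ`, and its
bijectivity for all finite-dimensional uniformly smooth `N` (step (ii) of the formal route).

GENERIC part (any `(G, 𝒰)`, any field `k`; usable for the local `φ²_v` as well):
* `fixed_of_mem_H0`, `homOf 𝒰 χ N y : N ⟶ mu χ` for `y ∈ H⁰(𝒰, tw N χ)`; `homOf_apply`, `homOf_add`,
  `homOf_smul`, `homOf_h0` (naturality), `ofHomMu` (converse), `homOf_ofHomMu`;
* `bijective_of_finrank_le_one`.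

SITE part, for `A : BaseA X k χ`:
* `invData A`, `vanish₃All A`, `vanish₃_mu A`, `tr A : X.H3c (mu χ) →ₗ k`, `tr_ne_zero`;
* `phi3 A : LinFunctor.NatTrans (PermCover.H3cF X) (PermCover.dualH0twF X χ)` with
  `phi3_app : (phi3 A).app N x y = tr A (X.mapH3c (Mor.ofHom X.𝒰 (homOf X.𝒰 χ N y)) _ x)`;
* `phi3_bijective_perm` (base case) and **`phi3_bijective`** (all admissible `N`).
-/
import Fermat.Agent.S55.Formal.RightExactDev
import Fermat.Agent.S55.Formal.BaseCases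
import Fermat.Agent.S55.Formal.Trace
import Fermat.Agent.S55.Formal.PermMu
import Fermat.Agent.S55.Formal.Vanish3All
import Fermat.Agent.S55.Formal.HmidPi
import Fermat.Agent.S55.Formal.DualTwistApi

set_option autoImplicit false

open CategoryTheory groupCohomology Module

namespace Fermat.Agent.S55.Formal.Phi3

open Fermat.Agent.S55.Formal Fermat.Agent.S55.Formal.Perm Fermat.Agent.S55.Formal.Functor
  Fermat.Agent.S55.Formal.PermCover

/-! ### linear algebra -/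

/-- a nonzero linear map from a space of dimension `≤ 1` to a line is bijective -/
theorem bijective_of_finrank_le_one {k : Type} [Field k] {V W : Type*} [AddCommGroup V]
    [Module k V] [AddCommGroup W] [Module k W] [Module.Finite k V] [Module.Finite k W]
    (f : V →ₗ[k] W) (hV : finrank k V ≤ 1) (hW : finrank k W = 1) (hf : f ≠ 0) :
    Function.Bijective f := by
  have hr : LinearMap.range f ≠ ⊥ := fun h => hf (LinearMap.range_eq_bot.1 h)
  have hr1 : 1 ≤ finrank k ↥(LinearMap.range f) := by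
    rcases Nat.eq_zero_or_pos (finrank k ↥(LinearMap.range f)) with h0 | h0
    · exact absurd (Submodule.finrank_eq_zero.1 h0) hr
    · exact h0
  have hle : finrank k ↥(LinearMap.range f) ≤ finrank k W := Submodule.finrank_le _
  have htop : LinearMap.range f = ⊤ := Submodule.eq_top_of_finrank_eq (by omega)
  have hrn := LinearMap.finrank_range_add_finrank_ker f
  have hk : finrank k ↥(LinearMap.ker f) = 0 := by omega
  exact ⟨LinearMap.ker_eq_bot.1 (Submodule.finrank_eq_zero.1 hk), LinearMap.range_eq_top.1 htop⟩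

/-! ### `H⁰(𝒰, tw N χ) = Hom_G(N, k(χ))` -/

section HomOf

variable {k : Type} [Field k] {G : Type} [Group G] (𝒰 : NBasis G) (χ : G →* kˣ)

/-- an element of `H⁰(𝒰, M)` is fixed by `G` -/
theorem fixed_of_mem_H0 (M : Rep.{0, 0, 0} k G) (y : ↥(H0 𝒰 M)) (g : G) :
    M.ρ g ((y : ↥(C₀ 𝒰 M)) : M) = ((y : ↥(C₀ 𝒰 M)) : M) := by
  have hy : dC₀ 𝒰 M (y : ↥(C₀ 𝒰 M)) = 0 := LinearMap.mem_ker.1 y.2
  have h1 := congrArg (fun w : ↥(C₁ 𝒰 M) => (w : G → M) g) hy
  simp only [dC₀_coe] at h1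
  have h2 : (groupCohomology.d₀₁ M).hom ((y : ↥(C₀ 𝒰 M)) : M) g = 0 := h1
  rw [groupCohomology.d₀₁_hom_apply, sub_eq_zero] at h2
  exact h2

/-- the functional underlying an element of `H⁰(𝒰, tw N χ)` -/
def fnl (N : Rep.{0, 0, 0} k G) (y : ↥(H0 𝒰 (tw N χ))) : Module.Dual k N :=
  ((y : ↥(C₀ 𝒰 (tw N χ))) : tw N χ)

/-- `y ∈ H⁰(𝒰, tw N χ)` as a morphism `N ⟶ k(χ)` -/
noncomputable def homOf (N : Rep.{0, 0, 0} k G) (y : ↥(H0 𝒰 (tw N χ))) : N ⟶ mu χ :=
  DualTwistApi.homOfFixed χ N (fnl 𝒰 χ N y) (fixed_of_mem_H0 𝒰 (tw N χ) y)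

@[simp] theorem homOf_apply (N : Rep.{0, 0, 0} k G) (y : ↥(H0 𝒰 (tw N χ))) (n : N) :
    (homOf 𝒰 χ N y).hom n = fnl 𝒰 χ N y n := rfl

theorem homOf_add (N : Rep.{0, 0, 0} k G) (y y' : ↥(H0 𝒰 (tw N χ))) :
    homOf 𝒰 χ N (y + y') = homOf 𝒰 χ N y + homOf 𝒰 χ N y' := by
  apply Rep.hom_ext
  apply Representation.IntertwiningMap.ext
  apply LinearMap.ext
  intro n
  rfl

theorem homOf_smul (N : Rep.{0, 0, 0} k G) (c : k) (y : ↥(H0 𝒰 (tw N χ))) :
    homOf 𝒰 χ N (c • y) = c • homOf 𝒰 χ N y := by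
  apply Rep.hom_ext
  apply Representation.IntertwiningMap.ext
  apply LinearMap.ext
  intro n
  rfl

/-- naturality: `H⁰` of the transpose is precomposition -/
theorem homOf_h0 {A B : Rep.{0, 0, 0} k G} (φ : A ⟶ B) (y : ↥(H0 𝒰 (tw B χ))) :
    homOf 𝒰 χ A ((Mor.ofHom 𝒰 (Functor.dualTwistMap χ φ)).h0 y) = φ ≫ homOf 𝒰 χ B y := by
  apply Rep.hom_ext
  apply Representation.IntertwiningMap.ext
  apply LinearMap.ext
  intro n
  rfl

/-- the same with the transpose of `DualTwistApi` -/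
theorem homOf_h0' {A B : Rep.{0, 0, 0} k G} (φ : A ⟶ B) (y : ↥(H0 𝒰 (tw B χ))) :
    homOf 𝒰 χ A ((Mor.ofHom 𝒰 (DualTwistApi.dualTwistMap χ φ)).h0 y) = φ ≫ homOf 𝒰 χ B y :=
  homOf_h0 𝒰 χ φ y

/-- conversely a morphism `N ⟶ k(χ)` is an element of `H⁰(𝒰, tw N χ)` (for `tw N χ` uniformly
smooth) -/
noncomputable def ofHomMu (N : Rep.{0, 0, 0} k G) (hN : IsUSmooth 𝒰 (tw N χ)) (ψ : N ⟶ mu χ) :
    ↥(H0 𝒰 (tw N χ)) :=
  ⟨⟨(ψ.hom.toLinearMap : Module.Dual k N), by rw [hN.C₀_eq_top]; exact Submodule.mem_top⟩, by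
    rw [LinearMap.mem_ker]
    apply Subtype.ext
    rw [dC₀_coe]
    funext g
    show (groupCohomology.d₀₁ (tw N χ)).hom (ψ.hom.toLinearMap : Module.Dual k N) g = 0
    rw [groupCohomology.d₀₁_hom_apply, sub_eq_zero]
    exact DualTwistApi.fixed_of_hom χ N ψ g⟩

theorem homOf_ofHomMu (N : Rep.{0, 0, 0} k G) (hN : IsUSmooth 𝒰 (tw N χ)) (ψ : N ⟶ mu χ) :
    homOf 𝒰 χ N (ofHomMu 𝒰 χ N hN ψ) = ψ := by
  apply Rep.hom_ext
  apply Representation.IntertwiningMap.ext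
  apply LinearMap.ext
  intro n
  rfl

end HomOf

/-! ### the trace attached to the numerical base -/

section Trace

variable {k : Type} [Field k] {X : Site} {χ : X.G →* kˣ}

/-- the local invariants of the numerical base -/
noncomputable def invData (A : BaseA X k χ) : InvData X χ :=
  ⟨A.inv.choose, A.inv.choose_spec.2⟩

theorem invData_ne_zero (A : BaseA X k χ) (v : X.I) : (invData A).inv v ≠ 0 :=
  A.inv.choose_spec.1 v

theorem vanish₃All (A : BaseA X k χ) : Vanish₃All X k :=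
  Vanish3All.vanish₃All_of_baseA X k χ A

theorem vanish₃_mu (A : BaseA X k χ) : Vanish₃ X.𝒰 (mu χ) :=
  (vanish₃All A).1 (mu χ) inferInstance (PermMu.isUSmooth_mu χ A.chi_smooth)

/-- the trace `H³_c(k(χ)) → k` of the numerical base -/
noncomputable def tr (A : BaseA X k χ) : X.H3c (mu χ) →ₗ[k] k :=
  (invData A).tr (vanish₃_mu A)

theorem tr_ι₃ (A : BaseA X k χ) (y : X.P2 (mu χ)) :
    tr A (X.ι₃ (mu χ) y) = (invData A).sum y :=
  (invData A).tr_ι₃ (vanish₃_mu A) y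

theorem P2proj_eq_P2equiv (M : Rep.{0, 0, 0} k X.G) (v : X.I) (y : X.P2 M) :
    X.P2proj M v y = X.P2equiv M y v := by
  obtain ⟨b, hb, rfl⟩ := Hmid.exists_of y
  rfl

theorem exists_sum_ne_zero (D : InvData X χ) (v₀ : X.I) (h : D.inv v₀ ≠ 0) :
    ∃ y : X.P2 (mu χ), D.sum y ≠ 0 := by
  classical
  obtain ⟨z, hz⟩ : ∃ z, D.inv v₀ z ≠ 0 := by
    by_contra hcon
    exact h (LinearMap.ext fun z => by
      by_contra hz
      exact hcon ⟨z, hz⟩)
  refine ⟨(X.P2equiv (mu χ)).symm (Pi.single v₀ z), ?_⟩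
  rw [InvData.sum_apply]
  simp only [P2proj_eq_P2equiv, LinearEquiv.apply_symm_apply]
  rw [Finset.sum_eq_single v₀]
  · rwa [Pi.single_eq_same]
  · intro v _ hv
    rw [Pi.single_eq_of_ne hv, map_zero]
  · intro h
    exact absurd (Finset.mem_univ _) h

/-- the trace is nonzero -/
theorem exists_tr_ne_zero (A : BaseA X k χ) : ∃ z : X.H3c (mu χ), tr A z ≠ 0 := by
  obtain ⟨v₀⟩ := A.nonempty
  obtain ⟨y, hy⟩ := exists_sum_ne_zero (invData A) v₀ (invData_ne_zero A v₀)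
  exact ⟨X.ι₃ (mu χ) y, by rwa [tr_ι₃]⟩

theorem tr_ne_zero (A : BaseA X k χ) : tr A ≠ 0 := by
  obtain ⟨z, hz⟩ := exists_tr_ne_zero A
  intro h
  exact hz (by rw [h, LinearMap.zero_apply])

end Trace

/-! ### the natural transformation `φ³` -/

section Phi3

variable {k : Type} [Field k] {X : Site} {χ : X.G →* kˣ}

/-- `H³_c` on a morphism of representations -/
noncomputable abbrev h3c (X : Site) {A B : Rep.{0, 0, 0} k X.G} (φ : A ⟶ B) :
    X.H3c A →ₗ[k] X.H3c B :=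
  X.mapH3c (Mor.ofHom X.𝒰 φ) (fun _ => rfl)

theorem h3c_comp (X : Site) {A B C : Rep.{0, 0, 0} k X.G} (φ : A ⟶ B) (ψ : B ⟶ C) :
    h3c X (φ ≫ ψ) = h3c X ψ ∘ₗ h3c X φ :=
  (H3cF (k := k) X).map_comp φ ψ

theorem h3c_add (X : Site) {A B : Rep.{0, 0, 0} k X.G} (φ ψ : A ⟶ B) :
    h3c X (φ + ψ) = h3c X φ + h3c X ψ :=
  (H3cF (k := k) X).map_add φ ψ

theorem kmap₃_smul (X : Site) {A B : Rep.{0, 0, 0} k X.G} (c : k) (φ : A ⟶ B) :
    X.mapK₃ (Mor.ofHom X.𝒰 (c • φ)) (fun _ => rfl) =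
      c • X.mapK₃ (Mor.ofHom X.𝒰 φ) (fun _ => rfl) := by
  apply LinearMap.ext
  rintro ⟨a, b⟩
  refine Prod.ext ?_ ?_
  · exact LinearMap.congr_fun (ofHom_smul_c₃ X.𝒰 φ c) a
  · funext v
    apply Subtype.ext
    rfl

theorem h3c_smul (X : Site) {A B : Rep.{0, 0, 0} k X.G} (c : k) (φ : A ⟶ B) :
    h3c X (c • φ) = c • h3c X φ :=
  mapOfComm_eq_smul c _ _ _ _ _ _ _ _ _ _ (kmap₃_smul X c φ)

/-- the components of `φ³` -/
noncomputable def phi3App (A : BaseA X k χ) (N : Rep.{0, 0, 0} k X.G) :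
    X.H3c N →ₗ[k] Module.Dual k ↥(H0 X.𝒰 (tw N χ)) where
  toFun x :=
    { toFun := fun y => tr A (h3c X (homOf X.𝒰 χ N y) x)
      map_add' := fun y y' => by
        rw [homOf_add, h3c_add, LinearMap.add_apply, map_add]
      map_smul' := fun c y => by
        rw [homOf_smul, h3c_smul, LinearMap.smul_apply, map_smul, RingHom.id_apply] }
  map_add' x x' := by
    apply LinearMap.ext
    intro y
    show tr A (h3c X (homOf X.𝒰 χ N y) (x + x')) =
      tr A (h3c X (homOf X.𝒰 χ N y) x) + tr A (h3c X (homOf X.𝒰 χ N y) x')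
    rw [map_add, map_add]
  map_smul' c x := by
    apply LinearMap.ext
    intro y
    show tr A (h3c X (homOf X.𝒰 χ N y) (c • x)) = c • tr A (h3c X (homOf X.𝒰 χ N y) x)
    rw [map_smul, map_smul]

theorem phi3App_apply (A : BaseA X k χ) (N : Rep.{0, 0, 0} k X.G) (x : X.H3c N)
    (y : ↥(H0 X.𝒰 (tw N χ))) :
    phi3App A N x y = tr A (X.mapH3c (Mor.ofHom X.𝒰 (homOf X.𝒰 χ N y)) (fun _ => rfl) x) := rfl

/-- **`φ³`** as a natural transformation `H³_c(−) ⟶ Dual (H⁰(tw − χ))` -/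
noncomputable def phi3 (A : BaseA X k χ) :
    LinFunctor.NatTrans (H3cF (k := k) X) (dualH0twF X χ) where
  app N := phi3App A N
  naturality {N N'} φ x := by
    apply LinearMap.ext
    intro y
    show phi3App A N x ((Mor.ofHom X.𝒰 (Functor.dualTwistMap χ φ)).h0 y) =
      phi3App A N' (h3c X φ x) y
    rw [phi3App_apply, phi3App_apply, homOf_h0]
    exact congrArg (tr A) (LinearMap.congr_fun (h3c_comp X φ (homOf X.𝒰 χ N' y)) x)

theorem phi3_app (A : BaseA X k χ) (N : Rep.{0, 0, 0} k X.G) :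
    (phi3 A).app N = phi3App A N := rfl

end Phi3

/-! ### the base case and the main theorem -/

section Main

variable {k : Type} [Field k] {X : Site} {χ : X.G →* kˣ}

/-- admissible modules restrict to admissible local modules with vanishing `H³` -/
theorem vanish₃_loc (A : BaseA X k χ) (N : Rep.{0, 0, 0} k X.G) (hN : RightExactDev.Adm X.𝒰 N)
    (v : X.I) : Vanish₃ (X.𝒱 v) (X.loc N v) :=
  (vanish₃All A).2 v (X.loc N v) (RightExactDev.adm_loc X hN v).2 (RightExactDev.adm_loc X hN v).1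

section PermCase

variable (A : BaseA X k χ) {U : Subgroup X.G} (hU : X.𝒰.mem U) (hχ : TrivOn χ U)

include A hU hχ

/-- right exactness at the base: `H³_c(k[G/U]) → H³_c(k(χ))` is onto -/
theorem h3c_permToMu_surjective :
    Function.Surjective (h3c X (PermMu.permToMu (k := k) hχ)) := by
  have hperm : IsUSmooth X.𝒰 (perm k U) := PermBasis.isUSmooth_perm X.𝒰 ⟨U, hU, le_rfl⟩
  have hfin : Module.Finite k (perm k U) := PermBasis.finite_perm X.𝒰 ⟨U, hU, le_rfl⟩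
  set π := PermMu.permToMu (k := k) hχ with hπ
  have hses : CoefLES.IsCoefSES (Mor.ofHom X.𝒰 (kerι π)) (Mor.ofHom X.𝒰 π) :=
    CoefLES.isCoefSES_ofHom X.𝒰 (kerι π) π (kerι_injective π) (PermMu.permToMu_surjective hχ)
      (fun a => (eq_zero_iff_exists_kerι π a).trans
        ⟨fun ⟨r, h⟩ => ⟨r, h⟩, fun ⟨r, h⟩ => ⟨r, h⟩⟩) hperm
  have hRfin : Module.Finite k (kerRep π) := finite_kerRep π
  exact ConeSESBridge.mapH3c_surjective X hses (vanish₃_mu A)
    (fun v => vanish₃_loc A (kerRep π) ⟨isUSmooth_kerRep π hperm, hRfin⟩ v)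

/-- the composite `H³_c(k[G/U]) → H³_c(k(χ)) -tr→ k` is nonzero -/
theorem exists_tr_permToMu_ne_zero :
    ∃ x : X.H3c (perm k U), tr A (h3c X (PermMu.permToMu (k := k) hχ) x) ≠ 0 := by
  obtain ⟨z, hz⟩ := exists_tr_ne_zero A
  obtain ⟨x, rfl⟩ := h3c_permToMu_surjective A hU hχ z
  exact ⟨x, hz⟩

/-- `φ³` is nonzero on `k[G/U]` -/
theorem phi3App_perm_ne_zero : phi3App A (perm k U) ≠ 0 := by
  have hsm : IsUSmooth X.𝒰 (tw (perm k U) χ) :=
    PermBasis.isUSmooth_tw χ (PermBasis.isUSmooth_perm X.𝒰 ⟨U, hU, le_rfl⟩) A.chi_smooth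
  obtain ⟨x, hx⟩ := exists_tr_permToMu_ne_zero A hU hχ
  intro h0
  apply hx
  have h1 : phi3App A (perm k U) x
      (ofHomMu X.𝒰 χ (perm k U) hsm (PermMu.permToMu (k := k) hχ)) = 0 := by
    rw [h0]
    rfl
  rw [phi3App_apply, homOf_ofHomMu] at h1
  exact h1

/-- **base case**: `φ³` is bijective on `k[G/U]`, `U ∈ 𝒰`, `χ|_U = 1` -/
theorem phi3_bijective_perm : Function.Bijective ((phi3 A).app (perm k U)) := by
  have h1 : Module.Finite k (X.H3c (perm k U)) := BaseCases.finite_H3c_perm A hU hχ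
  have h2 : finrank k (X.H3c (perm k U)) ≤ 1 := BaseCases.finrank_H3c_perm_le_one A hU hχ
  have h3 : finrank k ↥(H0 X.𝒰 (tw (perm k U) χ)) = 1 :=
    BaseCases.finrank_H0_tw_perm (k := k) hU hχ
  have h4 : finrank k (Module.Dual k ↥(H0 X.𝒰 (tw (perm k U) χ))) = 1 := by
    rw [Subspace.dual_finrank_eq]
    exact h3
  have h5 : Module.Finite k (Module.Dual k ↥(H0 X.𝒰 (tw (perm k U) χ))) :=
    Module.finite_of_finrank_pos (by rw [h4]; exact Nat.one_pos)
  exact bijective_of_finrank_le_one (phi3App A (perm k U)) h2 h4 (phi3App_perm_ne_zero A hU hχ)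

end PermCase

/-- **`φ³` is bijective for every finite-dimensional uniformly smooth `N`.** -/
theorem phi3_bijective (A : BaseA X k χ) (N : Rep.{0, 0, 0} k X.G)
    (hN : RightExactDev.Adm X.𝒰 N) : Function.Bijective ((phi3 A).app N) :=
  RightExactDev.phi3_bijective X χ A.chi_smooth (vanish₃All A) (phi3 A)
    (fun _ hU hχ => phi3_bijective_perm A hU hχ) N hN

/-- the same in unbundled form -/
theorem phi3App_bijective (A : BaseA X k χ) (N : Rep.{0, 0, 0} k X.G) (hfin : Module.Finite k N)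
    (hN : IsUSmooth X.𝒰 N) : Function.Bijective (phi3App A N) :=
  phi3_bijective A N ⟨hN, hfin⟩

/-- `φ³` as a linear equivalence -/
noncomputable def phi3Equiv (A : BaseA X k χ) (N : Rep.{0, 0, 0} k X.G)
    (hfin : Module.Finite k N) (hN : IsUSmooth X.𝒰 N) :
    X.H3c N ≃ₗ[k] Module.Dual k ↥(H0 X.𝒰 (tw N χ)) :=
  LinearEquiv.ofBijective (phi3App A N) (phi3App_bijective A N hfin hN)

end Main

end Fermat.Agent.S55.Formal.Phi3
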