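/-
S55 / Formal end (helper76): **`formalMain : FormalMain`**.

The five obligations of `Formal/Pairings.lean` are discharged:
* `nat3`, `nat2`   : projection formulas `CupSite.cup30_proj`, `CupSite.cup21_proj` (helper33);
* `deltaC`         : `CupSite.cup30_δc` (helper33), constant `-1`;
* `phi3_bijective` : `Phi3.phi3App_bijective` (helper4) + `CupSite.cup30_eq_push`;
* `lamInj`         : `LocalSite.lamT_injective` (helper32);
and plugged into `MainOf.main_of_bij3'`.
-/
import Fermat.Agent.S55.Formal.MainOf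
import Fermat.Agent.S55.Formal.Phi3
import Fermat.Agent.S55.Formal.LocalSite

set_option autoImplicit false

open CategoryTheory groupCohomology Module

namespace Fermat.Agent.S55.Formal.Main

open Fermat.Agent.S55.Formal Fermat.Agent.S55.Formal.CoefLES
  Fermat.Agent.S55.Formal.GlobalDuality Fermat.Agent.S55.Formal.Pairings

variable {k : Type} [Field k] {X : Site} {χ : X.G →* kˣ}

/-- the evaluation pairings are adjoint along `φ` and its transpose -/
theorem adjEval {N₁ N₂ : Rep.{0, 0, 0} k X.G} (φ : N₁ ⟶ N₂) :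
    CupSite.Adj (om X φ) (om X (tmap X χ φ)) (EvalPair.evalPair N₁ χ)
      (EvalPair.evalPair N₂ χ) :=
  ⟨fun _ => rfl, fun _ => rfl, fun _ _ => rfl⟩

variable (D : InvData X χ) (hV : Vanish₃ X.𝒰 (mu χ))

/-- (O1) naturality of `φ³` -/
theorem nat3 : Nat3 D hV := by
  intro N₁ N₂ φ x y
  rw [phi3_apply, phi3_apply]
  exact congrArg (D.tr hV) (CupSite.cup30_proj X (adjEval φ) (equi χ N₁) (equi χ N₂) x y)

/-- (O2) naturality of `φ²` -/
theorem nat2 : Nat2 D hV := by
  intro N₁ N₂ φ x y
  rw [phi2_apply, phi2_apply]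
  exact congrArg (D.tr hV) (CupSite.cup21_proj X (adjEval φ) (equi χ N₁) (equi χ N₂) x y)

/-- (O3) compatibility with the connecting maps, constant `-1` -/
theorem deltaC : DeltaC D hV (-1) := by
  intro R Q M i π h h' x z
  rw [phi3_apply, phi2_apply,
    CupSite.cup30_δc X h h' (equi χ R) (equi χ Q) (equi χ M) (adjEval i) (adjEval π) x z,
    map_neg, neg_one_mul]

/-- (O5) injectivity of the local pairing -/
theorem lamInj (hA : BaseA X k χ) (hD : ∀ v, D.inv v ≠ 0) : LamInj D := by
  intro N hN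
  haveI : FiniteDimensional k N := hN.1
  exact LocalSite.lamT_injective D N hA hD hN.2

/-- the concrete `φ³` is helper4's `φ³` -/
theorem phi3_eq (hA : BaseA X k χ) (N : Rep.{0, 0, 0} k X.G) :
    phi3 (Phi3.invData hA) (Phi3.vanish₃_mu hA) N = Phi3.phi3App hA N := by
  refine LinearMap.ext fun x => LinearMap.ext fun y => ?_
  rw [phi3_apply, Phi3.phi3App_apply]
  exact congrArg _ (CupSite.cup30_eq_push X (equi χ N)
    (Mor.ofHom X.𝒰 (Phi3.homOf X.𝒰 χ N y)) (fun _ => rfl) y (fun _ => rfl) x)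

/-- (O4) `φ³` is bijective on admissible modules -/
theorem phi3_bijective (hA : BaseA X k χ) (N : Rep.{0, 0, 0} k X.G) (hN : Adm X N) :
    Function.Bijective (phi3 (Phi3.invData hA) (Phi3.vanish₃_mu hA) N) := by
  rw [phi3_eq]
  exact Phi3.phi3App_bijective hA N hN.1 hN.2

/-- **The formal main theorem over an arbitrary coefficient field.** -/
theorem main (hA : BaseA X k χ) (M : Rep.{0, 0, 0} k X.G) (hfin : Module.Finite k M)
    (hM : IsUSmooth X.𝒰 M) :
    Module.Finite k ↥(X.sha1 (tw M χ)) ∧ Module.Finite k ↥(X.sha2 M) ∧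
      finrank k ↥(X.sha1 (tw M χ)) = finrank k ↥(X.sha2 M) :=
  MainOf.main_of_bij3' (Phi3.invData hA) (Phi3.vanish₃_mu hA) hA (nat3 _ _) (nat2 _ _) (-1)
    (neg_ne_zero.mpr one_ne_zero) (deltaC _ _) (phi3_bijective hA)
    (lamInj _ hA (Phi3.invData_ne_zero hA)) M hfin hM

/-- **`FormalMain`** (the closed Prop of `Formal/Blocks.lean`). -/
theorem formalMain : FormalMain := by
  intro X p _ χ hA M hfin hM
  exact main hA M hfin hM

end Fermat.Agent.S55.Formal.Main
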