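/-
S55 / Formal end (helper76): `FormalMain` from the five obligations of `Formal/Pairings.lean`.

`main_of_obligations` : for a site `X`, field `k`, character `χ` with `BaseA X k χ`, invariants `D`,
`hV : Vanish₃ X.𝒰 (mu χ)`, and the statements `Nat3`, `Nat2`, `DeltaC eps` (`eps ≠ 0`), `Base3`,
`LamInj` about the concrete pairings: `dim Ш¹(M') = dim Ш²(M) < ∞` for all admissible `M`.
Variant `main_of_bij3` : with `φ³` bijective on all admissible modules instead of `Base3`.
-/
import Fermat.Agent.S55.Formal.Pairings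
import Fermat.Agent.S55.Formal.PermCover
import Fermat.Agent.S55.Formal.ConeRightExact
import Fermat.Agent.S55.Formal.FinAll
import Fermat.Agent.S55.Formal.Vanish3All

set_option autoImplicit false

open CategoryTheory groupCohomology Module

namespace Fermat.Agent.S55.Formal.MainOf

open Fermat.Agent.S55.Formal Fermat.Agent.S55.Formal.CoefLES
  Fermat.Agent.S55.Formal.GlobalDuality Fermat.Agent.S55.Formal.Pairings
  Fermat.Agent.S55.Formal.Functor

variable {k : Type} [Field k] {X : Site} {χ : X.G →* kˣ}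
  (D : InvData X χ) (hV : Vanish₃ X.𝒰 (mu χ))

/-- `φ³` as a natural transformation `H³_c(−) ⟶ Dual (H⁰(tw − χ))` -/
noncomputable def eta3 (h3 : Nat3 D hV) :
    LinFunctor.NatTrans (PermCover.H3cF (k := k) X) (PermCover.dualH0twF X χ) where
  app N := phi3 D hV N
  naturality {N N'} φ x := by
    refine LinearMap.ext fun y => ?_
    exact (h3 φ x y).symm

/-- `φ²` as a natural transformation `H²_c(−) ⟶ Dual (H¹(tw − χ))` -/
noncomputable def eta2 (h2 : Nat2 D hV) :
    LinFunctor.NatTrans (PermCover.H2cF (k := k) X) (PermCover.dualH1twF X χ) where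
  app N := phi2 D hV N
  naturality {N N'} φ x := by
    refine LinearMap.ext fun y => ?_
    exact (h2 φ x y).symm

/-- right exactness of `H³_c` on admissible sequences -/
theorem rex (hVall : Vanish₃All X k) {R Q M : Rep.{0, 0, 0} k X.G} (i : R ⟶ Q) (π : Q ⟶ M)
    (h : SES X i π) (hR : Adm X R) (hM : Adm X M) : Function.Surjective (m3 X π) :=
  ConeRightExact.H3cmap_surjective X h (hVall.1 M hM.1 hM.2)
    (fun v => hVall.2 v (X.loc R v) hR.1 (IsUSmooth.res (X.𝒱 v) (X.ι v) hR.2 (X.cont v)))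

/-- the inputs of the global assembly from the obligations -/
noncomputable def inputs (hA : BaseA X k χ) (h3 : Nat3 D hV) (h2 : Nat2 D hV) (eps : k)
    (heps : eps ≠ 0) (hδ : DeltaC D hV eps) (hb : Base3 D hV) (hl : LamInj D) :
    Inputs X k χ where
  G := gPairing D hV h3 h2 eps heps hδ
  fin := FinAllProof.finAll_of_baseA X k χ hA
  rex i π h hR _ hM := rex (Vanish3All.vanish₃All_of_baseA X k χ hA) i π h hR hM
  add3S B d h := PermCover.surjective_pow (eta3 D hV h3) B d h
  add3I B d h := PermCover.injective_pow (eta3 D hV h3) B d h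
  add2I B d h := PermCover.injective_pow (eta2 D hV h2) B d h
  base3 := hb
  lamT := lamT D
  lamT_inj := hl
  c := 1
  c_ne := one_ne_zero
  sq := sq D hV

/-- **The formal main theorem from the five obligations.** -/
theorem main_of_obligations (hA : BaseA X k χ) (h3 : Nat3 D hV) (h2 : Nat2 D hV) (eps : k)
    (heps : eps ≠ 0) (hδ : DeltaC D hV eps) (hb : Base3 D hV) (hl : LamInj D)
    (M : Rep.{0, 0, 0} k X.G) (hfin : Module.Finite k M) (hM : IsUSmooth X.𝒰 M) :
    Module.Finite k ↥(X.sha1 (tw M χ)) ∧ Module.Finite k ↥(X.sha2 M) ∧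
      finrank k ↥(X.sha1 (tw M χ)) = finrank k ↥(X.sha2 M) :=
  main_of_inputs hA (inputs D hV hA h3 h2 eps heps hδ hb hl) M ⟨hfin, hM⟩

/-- Variant: `φ³` is known to be bijective on all admissible modules. -/
theorem main_of_bij3' (hA : BaseA X k χ) (h3 : Nat3 D hV) (h2 : Nat2 D hV) (eps : k)
    (heps : eps ≠ 0) (hδ : DeltaC D hV eps)
    (hb : ∀ N : Rep.{0, 0, 0} k X.G, Adm X N → Function.Bijective (phi3 D hV N))
    (hl : LamInj D)
    (M : Rep.{0, 0, 0} k X.G) (hfin : Module.Finite k M) (hM : IsUSmooth X.𝒰 M) :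
    Module.Finite k ↥(X.sha1 (tw M χ)) ∧ Module.Finite k ↥(X.sha2 M) ∧
      finrank k ↥(X.sha1 (tw M χ)) = finrank k ↥(X.sha2 M) :=
  main_of_bij3 hA (gPairing D hV h3 h2 eps heps hδ) (FinAllProof.finAll_of_baseA X k χ hA) hb
    (fun B d h => PermCover.injective_pow (eta2 D hV h2) B d h) M ⟨hfin, hM⟩ (lamT D M)
    (hl M ⟨hfin, hM⟩) 1 one_ne_zero (sq D hV M)

end Fermat.Agent.S55.Formal.MainOf
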