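/-
S55 / Formal / PairingsNat (helper13): the obligations `Nat3` and `Nat2` of `Formal/Pairings.lean`
(naturality of the concrete global pairings `φ³`, `φ²`), from the projection formulas of
`Formal/CupSiteNat.lean` and the adjointness of the evaluation pairing.
-/
import Fermat.Agent.S55.Formal.Pairings
import Fermat.Agent.S55.Formal.CupSiteNat

set_option autoImplicit false

open CategoryTheory groupCohomology Module

namespace Fermat.Agent.S55.Formal.PairingsNat

open Fermat.Agent.S55.Formal Fermat.Agent.S55.Formal.CoefLES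
  Fermat.Agent.S55.Formal.GlobalDuality Fermat.Agent.S55.Formal.Pairings

variable {k : Type} [Field k] {X : Site} {χ : X.G →* kˣ}
  (D : InvData X χ) (hV : Vanish₃ X.𝒰 (mu χ))

/-- adjointness of the evaluation pairings along `φ` and its transpose -/
theorem evalPair_adj {N₁ N₂ : Rep.{0, 0, 0} k X.G} (φ : N₁ ⟶ N₂) (a : N₁) (b : tw N₂ χ) :
    EvalPair.evalPair N₂ χ ((om X φ).φ a) b =
      EvalPair.evalPair N₁ χ a ((om X (tmap X χ φ)).φ b) :=
  EvalPair.evalPair_dualTwistMap χ φ a b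

/-- the cup-product form of the naturality of `φ³` -/
theorem cup30_nat {N₁ N₂ : Rep.{0, 0, 0} k X.G} (φ : N₁ ⟶ N₂) (x : X.H3c N₁)
    (y : ↥(H0 X.𝒰 (tw N₂ χ))) :
    CupSite.cup30 X (equi χ N₂) (m3 X φ x) y =
      CupSite.cup30 X (equi χ N₁) x ((om X (tmap X χ φ)).h0 y) :=
  CupSiteNat.cup30_proj X (om X φ) (om X (tmap X χ φ)) (fun _ => rfl) (fun _ => rfl)
    (equi χ N₁) (equi χ N₂) (evalPair_adj φ) x y

/-- the cup-product form of the naturality of `φ²` -/
theorem cup21_nat {N₁ N₂ : Rep.{0, 0, 0} k X.G} (φ : N₁ ⟶ N₂) (x : X.H2c N₁)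
    (y : H1 X.𝒰 (tw N₂ χ)) :
    CupSite.cup21 X (equi χ N₂) (m2 X φ x) y =
      CupSite.cup21 X (equi χ N₁) x ((om X (tmap X χ φ)).h1 y) :=
  CupSiteNat.cup21_proj X (om X φ) (om X (tmap X χ φ)) (fun _ => rfl) (fun _ => rfl)
    (equi χ N₁) (equi χ N₂) (evalPair_adj φ) x y

/-- **Obligation `Nat3`.** -/
theorem nat3 : Nat3 D hV := by
  intro N₁ N₂ φ x y
  rw [phi3_apply, phi3_apply, cup30_nat φ x y]

/-- **Obligation `Nat2`.** -/
theorem nat2 : Nat2 D hV := by
  intro N₁ N₂ φ x y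
  rw [phi2_apply, phi2_apply, cup21_nat φ x y]

end Fermat.Agent.S55.Formal.PairingsNat
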