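import Mathlib
import Fermat.Prelude.Def_GroupCohomology_Selmer

/-!
# S55 / Formal: permutation modules are twisted-self-dual

Audit item (6b) of the Middle layer: for an open subgroup `P` contained in `ker χ`, the permutation
module `B_P = k[G/P]` satisfies `B_P' = B_P.dualTwist χ ≅ B_P` as `G`-modules (a permutation module is
self-dual, and twisting `Ind_P^G 1` by a character trivial on `P` does nothing: projection formula).
This is what lets one replace `h¹(B_P')` by `h¹(B_P)` in the counts.

* `isoDualTwistOfBasis` : generic form, for any `B : Rep k G` with a finite permutation basis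
  `b : Basis X k B`, `B.ρ g (b x) = b (g • x)`, and a function `c : X → kˣ` with
  `c (g • x) = χ g * c x`:  `B ≅ B.dualTwist χ`, `b x ↦ c x • b.coord x`.
* `permIsoDualTwist` : `Rep.ofMulAction k G (G ⧸ P) ≅ (Rep.ofMulAction k G (G ⧸ P)).dualTwist χ`
  for `P` of finite index, `P ≤ χ.ker`.
-/

set_option autoImplicit false
set_option linter.unusedSectionVars false

open CategoryTheory Module

namespace Fermat.Agent.S55.Formal.PermDualTwist

variable {k G : Type} [CommRing k] [Group G]

section Generic

variable {X : Type} [Finite X] [MulAction G X] (B : Rep.{0, 0, 0} k G) (b : Basis X k B)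
  (χ : G →* kˣ) (c : X → kˣ)

/-- the coordinate functionals of a permutation basis are permuted by the dual action. -/
theorem coord_comp_ρ_inv (hb : ∀ g x, B.ρ g (b x) = b (g • x)) (g : G) (x : X) :
    b.coord x ∘ₗ B.ρ g⁻¹ = b.coord (g • x) := by
  classical
  refine b.ext fun y => ?_
  rw [LinearMap.comp_apply, hb, Basis.coord_apply, Basis.coord_apply, Basis.repr_self,
    Basis.repr_self, Finsupp.single_apply, Finsupp.single_apply]
  by_cases h : g⁻¹ • y = x
  · rw [if_pos h, if_pos (by rw [← h, smul_inv_smul])]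
  · rw [if_neg h, if_neg (fun h' => h (by rw [h', inv_smul_smul]))]

/-- the underlying linear equivalence `b x ↦ c x • b.coord x`. -/
noncomputable def linearEquivDual : B ≃ₗ[k] Module.Dual k B :=
  letI := Classical.decEq X
  b.equiv (b.dualBasis.unitsSMul c) (Equiv.refl X)

theorem linearEquivDual_apply (x : X) :
    linearEquivDual B b c (b x) = (c x : k) • b.coord x := by
  classical
  unfold linearEquivDual
  rw [Basis.equiv_apply, Equiv.refl_apply, Basis.unitsSMul_apply, Basis.coe_dualBasis,
    Units.smul_def]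

/-- equivariance of `linearEquivDual` for the twisted dual action. -/
theorem linearEquivDual_comp (hb : ∀ g x, B.ρ g (b x) = b (g • x))
    (hc : ∀ g x, c (g • x) = χ g * c x) (g : G) :
    (linearEquivDual B b c : B →ₗ[k] Module.Dual k B) ∘ₗ B.ρ g =
      (B.ρ.dual.twist χ) g ∘ₗ (linearEquivDual B b c : B →ₗ[k] Module.Dual k B) := by
  refine b.ext fun x => ?_
  rw [LinearMap.comp_apply, LinearMap.comp_apply, hb, LinearEquiv.coe_coe,
    linearEquivDual_apply, linearEquivDual_apply, Representation.twist_apply_apply, map_smul,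
    hc, Units.val_mul, mul_smul]
  congr 2
  change b.coord (g • x) = b.coord x ∘ₗ B.ρ g⁻¹
  rw [coord_comp_ρ_inv B b hb]

/-- **Generic form**: a representation with a finite permutation basis is isomorphic to its
twisted dual, for every character `χ` admitting a function `c` with `c (g • x) = χ g * c x`. -/
noncomputable def isoDualTwistOfBasis (hb : ∀ g x, B.ρ g (b x) = b (g • x))
    (hc : ∀ g x, c (g • x) = χ g * c x) : B ≅ B.dualTwist χ :=
  Rep.mkIso (Representation.Equiv.mk (linearEquivDual B b c) (linearEquivDual_comp B b χ c hb hc))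

theorem isoDualTwistOfBasis_hom_apply (hb : ∀ g x, B.ρ g (b x) = b (g • x))
    (hc : ∀ g x, c (g • x) = χ g * c x) (x : X) :
    (isoDualTwistOfBasis B b χ c hb hc).hom.hom (b x) = (c x : k) • b.coord x :=
  linearEquivDual_apply B b c x

/-- `χ = 1`: a permutation module is self-dual. -/
noncomputable def isoDualOfBasis (hb : ∀ g x, B.ρ g (b x) = b (g • x)) :
    B ≅ B.dualTwist (1 : G →* kˣ) :=
  isoDualTwistOfBasis B b 1 (fun _ => 1) hb (fun _ _ => by simp)

end Generic

section Perm

variable (k) (P : Subgroup G) (χ : G →* kˣ)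

/-- the permutation module `k[G/P]`. -/
noncomputable abbrev perm : Rep.{0, 0, 0} k G := Rep.ofMulAction k G (G ⧸ P)

/-- its standard basis. -/
noncomputable def permBasis : Basis (G ⧸ P) k (perm k P) := MonoidAlgebra.basis (G ⧸ P) k

theorem perm_ρ_basis (g : G) (x : G ⧸ P) :
    (perm k P).ρ g (permBasis k P x) = permBasis k P (g • x) := by
  change (Representation.ofMulAction k G (G ⧸ P)) g (MonoidAlgebra.basis (G ⧸ P) k x) =
    MonoidAlgebra.basis (G ⧸ P) k (g • x)
  rw [MonoidAlgebra.basis_apply, MonoidAlgebra.basis_apply, Representation.ofMulAction_single]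

variable {k}

/-- `χ` as a function on `G ⧸ P`, for `P ≤ ker χ`. -/
def chiQuot (hP : P ≤ χ.ker) : G ⧸ P → kˣ :=
  fun q => Quotient.liftOn' q (fun x => χ x) (fun x y h => by
    have h' : x⁻¹ * y ∈ P := QuotientGroup.leftRel_apply.mp h
    have h1 : χ (x⁻¹ * y) = 1 := MonoidHom.mem_ker.mp (hP h')
    have : χ y = χ x * χ (x⁻¹ * y) := by rw [← map_mul, mul_inv_cancel_left]
    change χ x = χ y
    rw [this, h1, mul_one])

@[simp] theorem chiQuot_mk (hP : P ≤ χ.ker) (x : G) : chiQuot P χ hP (x : G ⧸ P) = χ x := rfl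

theorem chiQuot_smul (hP : P ≤ χ.ker) (g : G) (q : G ⧸ P) :
    chiQuot P χ hP (g • q) = χ g * chiQuot P χ hP q := by
  induction q using QuotientGroup.induction_on with
  | H x =>
    rw [MulAction.Quotient.smul_mk, chiQuot_mk, chiQuot_mk, smul_eq_mul, map_mul]

/-- **Permutation modules are twisted-self-dual**: `k[G/P] ≅ k[G/P].dualTwist χ` for `P` of finite
index contained in `ker χ`;  `[xP] ↦ χ x • (coordinate functional at xP)`. -/
noncomputable def permIsoDualTwist [P.FiniteIndex] (hP : P ≤ χ.ker) :
    perm k P ≅ (perm k P).dualTwist χ :=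
  isoDualTwistOfBasis (perm k P) (permBasis k P) χ (chiQuot P χ hP) (perm_ρ_basis k P)
    (chiQuot_smul P χ hP)

theorem permIsoDualTwist_hom_apply [P.FiniteIndex] (hP : P ≤ χ.ker) (x : G) :
    (permIsoDualTwist P χ hP).hom.hom (permBasis k P (x : G ⧸ P)) =
      (χ x : k) • (permBasis k P).coord (x : G ⧸ P) :=
  isoDualTwistOfBasis_hom_apply _ _ _ _ _ _ _

theorem nonempty_perm_iso_dualTwist [P.FiniteIndex] (hP : P ≤ χ.ker) :
    Nonempty (Rep.ofMulAction k G (G ⧸ P) ≅ (Rep.ofMulAction k G (G ⧸ P)).dualTwist χ) :=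
  ⟨permIsoDualTwist P χ hP⟩

end Perm

end Fermat.Agent.S55.Formal.PermDualTwist
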