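/-
S55 / Formal (audit #1539, item (6b)) — helper72.

SELF-DUALITY OF PERMUTATION MODULES UP TO A TWIST.
`G` a group, `P ≤ G` a subgroup of finite index, `χ : G →* kˣ` a character trivial on `P`.  Then the
permutation module `k[G/P] = Rep.ofMulAction k G (G ⧸ P)` is isomorphic, as a representation of `G`,
to its twisted dual `(k[G/P]).dualTwist χ` (Prelude `Rep.dualTwist`): the isomorphism sends the basis
vector `[gP]` to `χ(g) • δ_{gP}` (`δ` = dual basis).

Consumer: Middle/Formal count (A-G2'): for `U ≤ ker χ_p` one may replace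
`h¹_S(B_U')`, `B_U' = B_U.dualTwist χ`, by `h¹_S(B_U)` (functoriality of `H¹` in the coefficients).
Mathlib + Prelude only.
-/
import Mathlib
import Fermat.Prelude.Def_GroupCohomology_Selmer

set_option autoImplicit false

open CategoryTheory Module

namespace Fermat.Agent.S55.Formal.PermSelfDual

noncomputable section

open scoped Classical

variable {k G : Type} [CommRing k] [Group G] (P : Subgroup G)

/-- A character trivial on `P` descends to the left cosets `G ⧸ P`. -/
def chiQ (χ : G →* kˣ) (hχ : ∀ s ∈ P, χ s = 1) : G ⧸ P → kˣ :=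
  Quotient.lift (fun g : G => χ g) (by
    intro a b hab
    have h : a⁻¹ * b ∈ P := QuotientGroup.leftRel_apply.mp hab
    have h1 : χ (a⁻¹ * b) = 1 := hχ _ h
    rw [map_mul, map_inv, inv_mul_eq_one] at h1
    exact h1)

@[simp] lemma chiQ_mk (χ : G →* kˣ) (hχ : ∀ s ∈ P, χ s = 1) (g : G) :
    chiQ P χ hχ (QuotientGroup.mk g) = χ g := rfl

lemma chiQ_smul (χ : G →* kˣ) (hχ : ∀ s ∈ P, χ s = 1) (g : G) (x : G ⧸ P) :
    chiQ P χ hχ (g • x) = χ g * chiQ P χ hχ x := by
  induction x using QuotientGroup.induction_on with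
  | H a =>
    rw [MulAction.Quotient.smul_mk, chiQ_mk, chiQ_mk, smul_eq_mul, map_mul]

/-- The standard basis of the permutation module. -/
abbrev pbasis : Basis (G ⧸ P) k (MonoidAlgebra k (G ⧸ P)) := MonoidAlgebra.basis (G ⧸ P) k

/-- the underlying linear equivalence `k[G/P] ≃ Dual k[G/P]`, `[x] ↦ χ(x) • δ_x`. -/
def selfDualLin [Finite (G ⧸ P)] (χ : G →* kˣ) (hχ : ∀ s ∈ P, χ s = 1) :
    MonoidAlgebra k (G ⧸ P) ≃ₗ[k] Module.Dual k (MonoidAlgebra k (G ⧸ P)) :=
  ((pbasis (k := k) P).equiv ((pbasis (k := k) P).unitsSMul (chiQ P χ hχ)) (Equiv.refl _)).trans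
    (pbasis (k := k) P).toDualEquiv

lemma selfDualLin_single [Finite (G ⧸ P)] (χ : G →* kˣ) (hχ : ∀ s ∈ P, χ s = 1) (x : G ⧸ P) :
    selfDualLin P χ hχ (MonoidAlgebra.single x 1) =
      ((chiQ P χ hχ x : kˣ) : k) • (pbasis (k := k) P).coord x := by
  have h1 : (MonoidAlgebra.single x (1 : k) : MonoidAlgebra k (G ⧸ P)) = pbasis P x := rfl
  rw [h1]
  simp only [selfDualLin, LinearEquiv.trans_apply, Basis.equiv_apply, Equiv.refl_apply,
    Basis.unitsSMul_apply, Units.smul_def, map_smul]
  congr 1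
  refine (pbasis (k := k) P).ext fun y => ?_
  rw [Basis.toDualEquiv_apply, Basis.toDual_apply, Basis.coord_apply, Basis.repr_self,
    Finsupp.single_apply]
  simp only [eq_comm]

lemma coord_comp_ofMulAction_inv (g : G) (x : G ⧸ P) :
    (pbasis (k := k) P).coord x ∘ₗ Representation.ofMulAction k G (G ⧸ P) g⁻¹ =
      (pbasis (k := k) P).coord (g • x) := by
  refine (pbasis (k := k) P).ext fun y => ?_
  have h1 : (pbasis (k := k) P) y = MonoidAlgebra.single y 1 := rfl
  rw [LinearMap.comp_apply, h1, Representation.ofMulAction_single, Basis.coord_apply,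
    Basis.coord_apply]
  have h2 : (MonoidAlgebra.single (g⁻¹ • y) (1 : k) : MonoidAlgebra k (G ⧸ P)) =
      pbasis P (g⁻¹ • y) := rfl
  have h3 : (MonoidAlgebra.single y (1 : k) : MonoidAlgebra k (G ⧸ P)) = pbasis P y := rfl
  rw [h2, h3, Basis.repr_self, Basis.repr_self, Finsupp.single_apply, Finsupp.single_apply]
  have : (g⁻¹ • y = x) ↔ (y = g • x) := by
    constructor
    · intro h; rw [← h, smul_inv_smul]
    · intro h; rw [h, inv_smul_smul]
  simp only [this]

/-- `[x] ↦ χ(x) • δ_x` intertwines the permutation representation with its twisted dual. -/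
lemma selfDualLin_equivariant [Finite (G ⧸ P)] (χ : G →* kˣ) (hχ : ∀ s ∈ P, χ s = 1) (g : G) :
    (selfDualLin P χ hχ : MonoidAlgebra k (G ⧸ P) →ₗ[k] _) ∘ₗ
        Representation.ofMulAction k G (G ⧸ P) g =
      ((Representation.ofMulAction k G (G ⧸ P)).dual.twist χ g) ∘ₗ
        (selfDualLin P χ hχ : MonoidAlgebra k (G ⧸ P) →ₗ[k] _) := by
  refine (pbasis (k := k) P).ext fun x => ?_
  have h1 : (pbasis (k := k) P) x = MonoidAlgebra.single x 1 := rfl
  rw [LinearMap.comp_apply, LinearMap.comp_apply, h1, Representation.ofMulAction_single]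
  change selfDualLin P χ hχ (MonoidAlgebra.single (g • x) 1) =
    ((Representation.ofMulAction k G (G ⧸ P)).dual.twist χ g)
      (selfDualLin P χ hχ (MonoidAlgebra.single x 1))
  rw [selfDualLin_single, selfDualLin_single,
    Representation.twist_apply_apply, map_smul, Representation.dual_apply,
    Module.Dual.transpose_apply, coord_comp_ofMulAction_inv, chiQ_smul, Units.val_mul, mul_smul]

/-- **Self-duality up to twist of a permutation module**: for `P` of finite index and `χ` trivial on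
`P`, `k[G/P] ≅ (k[G/P]).dualTwist χ` as representations of `G`. -/
def permIsoDualTwist [Finite (G ⧸ P)] (χ : G →* kˣ) (hχ : ∀ s ∈ P, χ s = 1) :
    Rep.ofMulAction k G (G ⧸ P) ≅ (Rep.ofMulAction k G (G ⧸ P)).dualTwist χ :=
  Rep.mkIso (Representation.Equiv.mk (selfDualLin P χ hχ) (selfDualLin_equivariant P χ hχ))

/-- Consumer form. -/
theorem nonempty_dualTwist_perm_iso [P.FiniteIndex] (χ : G →* kˣ) (hχ : ∀ s ∈ P, χ s = 1) :
    Nonempty ((Rep.ofMulAction k G (G ⧸ P)).dualTwist χ ≅ Rep.ofMulAction k G (G ⧸ P)) :=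
  ⟨(permIsoDualTwist P χ hχ).symm⟩

end

end Fermat.Agent.S55.Formal.PermSelfDual
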