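/-
S55 / Formal (audit #1539, item (6b)), LC consumer form — helper72.

* `h1Equiv`, `h2Equiv` : an isomorphism of representations `A ≅ B` induces linear equivalences on the
  LC cohomology groups `H1 𝒰`, `H2 𝒰` of `Formal/LC.lean` (direct cochain-level proof; no functor laws
  needed).
* `h1_tw_perm_equiv`, `finrank_h1_tw_perm` : for `P ≤ G` of finite index and `χ` trivial on `P`:
  `H1 𝒰 (tw (perm k P) χ) ≃ₗ H1 𝒰 (perm k P)` and the equality of `finrank`s (same for `H2`).  This is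
  what lets Middle replace the right-hand side `finrank (H1 𝒰 (tw (perm k U) χ))` of `BaseA.g₂` by
  `finrank (H1 𝒰 (perm k U))`.
-/
import Fermat.Agent.S55.Formal.Blocks
import Fermat.Agent.S55.Formal.PermSelfDual

set_option autoImplicit false

open CategoryTheory Module

namespace Fermat.Agent.S55.Formal.PermSelfDualLC

open Fermat.Agent.S55.Formal

noncomputable section

variable {k : Type} [CommRing k] {G : Type} [Group G] (𝒰 : NBasis G)
variable {A B : Rep.{0, 0, 0} k G}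

lemma iso_hom_inv_apply (e : A ≅ B) (b : B) : e.hom.hom (e.inv.hom b) = b := by
  simp

lemma iso_inv_hom_apply (e : A ≅ B) (a : A) : e.inv.hom (e.hom.hom a) = a := by
  simp

lemma h1_comp_eq_id (φ : A ⟶ B) (ψ : B ⟶ A) (h : ∀ a : A, ψ.hom (φ.hom a) = a) (x : H1 𝒰 A) :
    (Mor.ofHom 𝒰 ψ).h1 ((Mor.ofHom 𝒰 φ).h1 x) = x := by
  obtain ⟨b, hb, rfl⟩ := Hmid.exists_of x
  unfold Mor.h1
  rw [Hmid.mapOfComm_of (hb' := by
    have := LinearMap.congr_fun (Mor.ofHom 𝒰 φ).c₂_dC₁ b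
    simp only [LinearMap.comp_apply] at this
    rw [← this, hb, map_zero])]
  rw [Hmid.mapOfComm_of (hb' := by
    have := LinearMap.congr_fun (Mor.ofHom 𝒰 ψ).c₂_dC₁ ((Mor.ofHom 𝒰 φ).c₁ b)
    simp only [LinearMap.comp_apply] at this
    have h2 := LinearMap.congr_fun (Mor.ofHom 𝒰 φ).c₂_dC₁ b
    simp only [LinearMap.comp_apply] at h2
    rw [← this, ← h2, hb, map_zero, map_zero])]
  congr 1
  apply Subtype.ext
  funext g
  exact h _

lemma h2_comp_eq_id (φ : A ⟶ B) (ψ : B ⟶ A) (h : ∀ a : A, ψ.hom (φ.hom a) = a) (x : H2 𝒰 A) :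
    (Mor.ofHom 𝒰 ψ).h2 ((Mor.ofHom 𝒰 φ).h2 x) = x := by
  obtain ⟨b, hb, rfl⟩ := Hmid.exists_of x
  unfold Mor.h2
  rw [Hmid.mapOfComm_of (hb' := by
    have := LinearMap.congr_fun (Mor.ofHom 𝒰 φ).c₃_dC₂ b
    simp only [LinearMap.comp_apply] at this
    rw [← this, hb, map_zero])]
  rw [Hmid.mapOfComm_of (hb' := by
    have := LinearMap.congr_fun (Mor.ofHom 𝒰 ψ).c₃_dC₂ ((Mor.ofHom 𝒰 φ).c₂ b)
    simp only [LinearMap.comp_apply] at this
    have h2 := LinearMap.congr_fun (Mor.ofHom 𝒰 φ).c₃_dC₂ b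
    simp only [LinearMap.comp_apply] at h2
    rw [← this, ← h2, hb, map_zero, map_zero])]
  congr 1
  apply Subtype.ext
  funext g
  exact h _

/-- an isomorphism of representations induces a linear equivalence on LC `H¹` -/
def h1Equiv (e : A ≅ B) : H1 𝒰 A ≃ₗ[k] H1 𝒰 B :=
  LinearEquiv.ofLinearMap (Mor.ofHom 𝒰 e.hom).h1 (Mor.ofHom 𝒰 e.inv).h1
    (LinearMap.ext fun x => h1_comp_eq_id 𝒰 e.inv e.hom (iso_hom_inv_apply e) x)
    (LinearMap.ext fun x => h1_comp_eq_id 𝒰 e.hom e.inv (iso_inv_hom_apply e) x)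

/-- an isomorphism of representations induces a linear equivalence on LC `H²` -/
def h2Equiv (e : A ≅ B) : H2 𝒰 A ≃ₗ[k] H2 𝒰 B :=
  LinearEquiv.ofLinearMap (Mor.ofHom 𝒰 e.hom).h2 (Mor.ofHom 𝒰 e.inv).h2
    (LinearMap.ext fun x => h2_comp_eq_id 𝒰 e.inv e.hom (iso_hom_inv_apply e) x)
    (LinearMap.ext fun x => h2_comp_eq_id 𝒰 e.hom e.inv (iso_inv_hom_apply e) x)

@[simp] lemma h1Equiv_apply (e : A ≅ B) (x : H1 𝒰 A) :
    h1Equiv 𝒰 e x = (Mor.ofHom 𝒰 e.hom).h1 x := rfl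

@[simp] lemma h2Equiv_apply (e : A ≅ B) (x : H2 𝒰 A) :
    h2Equiv 𝒰 e x = (Mor.ofHom 𝒰 e.hom).h2 x := rfl

end

noncomputable section Perm

variable {k : Type} [Field k] {G : Type} [Group G] (𝒰 : NBasis G)

/-- `H¹(G, k[G/P]') ≃ H¹(G, k[G/P])` for `χ` trivial on `P` of finite index. -/
def h1_tw_perm_equiv (P : Subgroup G) [P.FiniteIndex] (χ : G →* kˣ) (hχ : TrivOn χ P) :
    H1 𝒰 (tw (perm k P) χ) ≃ₗ[k] H1 𝒰 (perm k P) :=
  h1Equiv 𝒰 (PermSelfDual.permIsoDualTwist P χ hχ).symm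

/-- `H²(G, k[G/P]') ≃ H²(G, k[G/P])` for `χ` trivial on `P` of finite index. -/
def h2_tw_perm_equiv (P : Subgroup G) [P.FiniteIndex] (χ : G →* kˣ) (hχ : TrivOn χ P) :
    H2 𝒰 (tw (perm k P) χ) ≃ₗ[k] H2 𝒰 (perm k P) :=
  h2Equiv 𝒰 (PermSelfDual.permIsoDualTwist P χ hχ).symm

theorem finrank_h1_tw_perm (P : Subgroup G) [P.FiniteIndex] (χ : G →* kˣ) (hχ : TrivOn χ P) :
    finrank k (H1 𝒰 (tw (perm k P) χ)) = finrank k (H1 𝒰 (perm k P)) :=
  (h1_tw_perm_equiv 𝒰 P χ hχ).finrank_eq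

theorem finrank_h2_tw_perm (P : Subgroup G) [P.FiniteIndex] (χ : G →* kˣ) (hχ : TrivOn χ P) :
    finrank k (H2 𝒰 (tw (perm k P) χ)) = finrank k (H2 𝒰 (perm k P)) :=
  (h2_tw_perm_equiv 𝒰 P χ hχ).finrank_eq

/-- Consumer form for `BaseA.g₂`: for `U ∈ 𝒰` (finite index is automatic). -/
theorem finrank_h1_tw_perm_of_mem {U : Subgroup G} (hU : 𝒰.mem U) (χ : G →* kˣ)
    (hχ : TrivOn χ U) :
    finrank k (H1 𝒰 (tw (perm k U) χ)) = finrank k (H1 𝒰 (perm k U)) :=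
  haveI := 𝒰.finiteIndex hU
  finrank_h1_tw_perm 𝒰 U χ hχ

end Perm

end Fermat.Agent.S55.Formal.PermSelfDualLC
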