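import Mathlib
import Fermat.Agent.S55.Formal.RightExactDev
import Fermat.Agent.S55.Formal.EffaceDual
import Fermat.Agent.S55.Formal.ConeSESBridge

/-!
# S55 / Formal / Phi2Ladder: the middle-degree devissage (global duality in degree `(2, 1)`)

Abstract form of the global half of the duality proof.  For a site `X`, a smooth character `χ`,
* `ψ : H²_c(−) ⟶ Dual (H¹(tw − χ))` and `φ : H³_c(−) ⟶ Dual (H⁰(tw − χ))` natural
  transformations (structure `LinFunctor.NatTrans` of `Formal/Functor.lean`, functors of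
  `Formal/PermCover.lean`),
* `DeltaCompat` : the compatibility `φ_R (δc x) z = ε * ψ_N x (δ₀ z)` with the connecting maps of a
  short exact sequence `R → Q → N` and of its twisted dual `N' → Q' → R'`,
* `φ` bijective on all admissible (finite-dimensional uniformly smooth) modules,
we prove
* `psi_flip_injective` : `H¹(N') → Dual (H²_c(N))` is injective for all admissible `N`
  (effacement, `EffaceDual.efface` + `DualityAlgebra.eq_zero_of_effaceable'`);
* `psi_bijective_of_le` : `ψ_N` is bijective as soon as `dim H²_c(N) ≤ dim H¹(N')`;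
* `psi_bijective_of_base` : bijectivity on the `perm k U` propagates to all admissible `N`
  (free covers + the four lemmas in pairing form);
* `psi_bijective` : all together, from the numerical input `(A-G2)` of `BaseA`.
-/

set_option autoImplicit false

open CategoryTheory groupCohomology Module

namespace Fermat.Agent.S55.Formal.Phi2Ladder

open Fermat.Agent.S55.Formal Fermat.Agent.S55.Formal.CoefLES Fermat.Agent.S55.Formal.Perm
  Fermat.Agent.S55.Formal.PermBasis Fermat.Agent.S55.Formal.Functor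
  Fermat.Agent.S55.Formal.PermCover Fermat.Agent.S55.Formal.RightExactDev
  Fermat.Agent.S55.Formal.ConeSES

variable {k : Type} [Field k]

section OneGroup

variable {G : Type} [Group G] (𝒰 : NBasis G) (χ : G →* kˣ) (hχ : ∃ U, 𝒰.mem U ∧ TrivOn χ U)

include hχ in
/-- the twisted dual of an admissible module is admissible -/
theorem adm_tw {N : Rep.{0, 0, 0} k G} (hN : Adm 𝒰 N) : Adm 𝒰 (tw N χ) := by
  have : FiniteDimensional k N := hN.2
  exact ⟨isUSmooth_tw χ hN.1 hχ, finite_dualTwist N χ⟩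

include hχ in
/-- the twisted dual of a short exact sequence -/
theorem isCoefSES_dual {A B C : Rep.{0, 0, 0} k G} (ι : A ⟶ B) (π : B ⟶ C)
    (h : IsCoefSES (Mor.ofHom 𝒰 ι) (Mor.ofHom 𝒰 π)) :
    IsCoefSES (Mor.ofHom 𝒰 (dualTwistMap χ π)) (Mor.ofHom 𝒰 (dualTwistMap χ ι)) := by
  have hinj : Function.Injective ι.hom := h.inj
  have hsurj : Function.Surjective π.hom := h.surj
  have hex : Function.Exact ι.hom π.hom := h.exact
  exact isCoefSES_ofHom 𝒰 _ _ (dualTwistMap_injective_of_surjective χ π hsurj)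
    (dualTwistMap_surjective_of_injective χ ι hinj) (dualTwistMap_exact χ ι π hex)
    (isUSmooth_tw χ h.usmooth hχ)

/-- the kernel sequence of a surjection with uniformly smooth source -/
theorem isCoefSES_ker {A B : Rep.{0, 0, 0} k G} (π : A ⟶ B) (hπ : Function.Surjective π.hom)
    (hA : IsUSmooth 𝒰 A) : IsCoefSES (Mor.ofHom 𝒰 (kerι π)) (Mor.ofHom 𝒰 π) := by
  refine isCoefSES_ofHom 𝒰 (kerι π) π (kerι_injective π) hπ ?_ hA
  intro a
  exact eq_zero_iff_exists_kerι π a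

/-- the three models of the transpose agree -/
theorem dualTwistMap_eq_effaceDual {A B : Rep.{0, 0, 0} k G} (π : A ⟶ B) :
    dualTwistMap χ π = EffaceDual.dualTwistMap χ π :=
  EffaceDual.eq_dualTwistMap χ π _ (fun _ _ => rfl)

end OneGroup

variable (X : Site) (χ : X.G →* kˣ)

/-- `ψ_N` as a linear map into the honest dual -/
abbrev psiL (ψ : LinFunctor.NatTrans (H2cF (k := k) X) (dualH1twF X χ))
    (N : Rep.{0, 0, 0} k X.G) : X.H2c N →ₗ[k] Module.Dual k (H1 X.𝒰 (tw N χ)) := ψ.app N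

/-- `φ_N` as a linear map into the honest dual -/
abbrev phiL (φ : LinFunctor.NatTrans (H3cF (k := k) X) (dualH0twF X χ))
    (N : Rep.{0, 0, 0} k X.G) : X.H3c N →ₗ[k] Module.Dual k ↥(H0 X.𝒰 (tw N χ)) := φ.app N

/-- **(P-δ)**: compatibility of the two pairings with the connecting homomorphisms of a short exact
sequence and of its twisted dual. -/
def DeltaCompat (ψ : LinFunctor.NatTrans (H2cF (k := k) X) (dualH1twF X χ))
    (φ : LinFunctor.NatTrans (H3cF (k := k) X) (dualH0twF X χ)) (ε : k) : Prop :=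
  ∀ {R Q N : Rep.{0, 0, 0} k X.G} (ι : R ⟶ Q) (π : Q ⟶ N)
    (h : IsCoefSES (Mor.ofHom X.𝒰 ι) (Mor.ofHom X.𝒰 π))
    (h' : IsCoefSES (Mor.ofHom X.𝒰 (dualTwistMap χ π)) (Mor.ofHom X.𝒰 (dualTwistMap χ ι)))
    (x : X.H2c N) (z : ↥(H0 X.𝒰 (tw R χ))),
    phiL X χ φ R (δc X h x) z = ε * psiL X χ ψ N x (δ₀ h' z)

variable {X χ}
variable (ψ : LinFunctor.NatTrans (H2cF (k := k) X) (dualH1twF X χ))
  (φ : LinFunctor.NatTrans (H3cF (k := k) X) (dualH0twF X χ))

/-- naturality of `ψ` in evaluated form -/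
theorem psi_nat {N N' : Rep.{0, 0, 0} k X.G} (f : N ⟶ N') (x : X.H2c N)
    (y : H1 X.𝒰 (tw N' χ)) :
    psiL X χ ψ N' (X.mapH2c (Mor.ofHom X.𝒰 f) (fun _ => rfl) x) y =
      psiL X χ ψ N x ((Mor.ofHom X.𝒰 (dualTwistMap χ f)).h1 y) := by
  have := ψ.naturality f x
  exact (LinearMap.congr_fun this y).symm

/-- naturality of `φ` in evaluated form -/
theorem phi_nat {N N' : Rep.{0, 0, 0} k X.G} (f : N ⟶ N') (x : X.H3c N)
    (y : ↥(H0 X.𝒰 (tw N' χ))) :
    phiL X χ φ N' (X.mapH3c (Mor.ofHom X.𝒰 f) (fun _ => rfl) x) y =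
      phiL X χ φ N x ((Mor.ofHom X.𝒰 (dualTwistMap χ f)).h0 y) := by
  have := φ.naturality f x
  exact (LinearMap.congr_fun this y).symm

variable (hχ : ∃ U, X.𝒰.mem U ∧ TrivOn χ U) (ε : k) (hε : ε ≠ 0)
  (hδ : DeltaCompat X χ ψ φ ε)
  (hφ : ∀ N : Rep.{0, 0, 0} k X.G, Adm X.𝒰 N → Function.Bijective (φ.app N))

include hχ hε hδ hφ

/-- **Effacement ⇒ injectivity**: `H¹(G, N') → Dual (H²_c(N))` is injective for every admissible
`N`. -/
theorem psi_flip_injective (N : Rep.{0, 0, 0} k X.G) (hN : Adm X.𝒰 N) :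
    Function.Injective (psiL X χ ψ N).flip := by
  rw [injective_iff_map_eq_zero]
  intro y hy
  have : FiniteDimensional k N := hN.2
  obtain ⟨I, π, hIsm, hIfin, hπ, hy0⟩ := EffaceDual.efface X.𝒰 χ hχ N hN.1 y
  rw [← dualTwistMap_eq_effaceDual] at hy0
  have h : IsCoefSES (Mor.ofHom X.𝒰 (kerι π)) (Mor.ofHom X.𝒰 π) := isCoefSES_ker X.𝒰 π hπ hIsm
  have h' := isCoefSES_dual X.𝒰 χ hχ (kerι π) π h
  have hI : Adm X.𝒰 I := ⟨hIsm, hIfin⟩
  have hR : Adm X.𝒰 (kerRep π) := ⟨isUSmooth_kerRep π hIsm, finite_kerRep π⟩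
  refine DualityAlgebra.eq_zero_of_effaceable' (δc X h)
    (X.mapH3c (Mor.ofHom X.𝒰 (kerι π)) (fun _ => rfl))
    (fun z hz => (ConeSESBridge.exact_δc_mapH3c X h z).1 hz)
    (Mor.ofHom X.𝒰 (dualTwistMap χ (kerι π))).h0 (δ₀ h')
    (fun w => (exact_h0_δ₀ h' _).2 ⟨w, rfl⟩)
    (phiL X χ φ (kerRep π)) (phiL X χ φ I) (hφ _ hR).2 (hφ _ hI).1
    (fun z w => phi_nat φ (kerι π) z w)
    (psiL X χ ψ N).flip ε⁻¹ (inv_ne_zero hε) ?_ y ((exact_δ₀_h1 h' y).1 hy0) hy
  intro z w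
  rw [LinearMap.flip_apply, hδ (kerι π) π h h' z w, ← mul_assoc, inv_mul_cancel₀ hε, one_mul]

omit hχ hε hδ hφ in
/-- If the flipped pairing is injective and `dim H²_c(N) ≤ dim H¹(N')`, then `ψ_N` is
bijective. -/
theorem bijective_of_flip_injective_of_le (N : Rep.{0, 0, 0} k X.G)
    (hfl : Function.Injective (psiL X χ ψ N).flip)
    (hfin : Module.Finite k (X.H2c N))
    (hle : finrank k (X.H2c N) ≤ finrank k (H1 X.𝒰 (tw N χ))) :
    Function.Bijective (ψ.app N) := by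
  have hfin1 : Module.Finite k (H1 X.𝒰 (tw N χ)) :=
    Module.Finite.of_injective (psiL X χ ψ N).flip hfl
  have hle' : finrank k (H1 X.𝒰 (tw N χ)) ≤ finrank k (Module.Dual k (X.H2c N)) :=
    LinearMap.finrank_le_finrank_of_injective hfl
  rw [Subspace.dual_finrank_eq] at hle'
  have heq : finrank k (H1 X.𝒰 (tw N χ)) = finrank k (Module.Dual k (X.H2c N)) := by
    rw [Subspace.dual_finrank_eq]
    exact le_antisymm hle' hle
  have hbij : Function.Bijective (psiL X χ ψ N).flip :=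
    ⟨hfl, (LinearMap.injective_iff_surjective_of_finrank_eq_finrank heq).1 hfl⟩
  have := DualityAlgebra.flip_bijective_of_bijective (psiL X χ ψ N).flip hbij
  rwa [LinearMap.flip_flip] at this

/-- `ψ_N` is bijective for every admissible `N` with `dim H²_c(N) ≤ dim H¹(N')`. -/
theorem psi_bijective_of_le (N : Rep.{0, 0, 0} k X.G) (hN : Adm X.𝒰 N)
    (hfin : Module.Finite k (X.H2c N))
    (hle : finrank k (X.H2c N) ≤ finrank k (H1 X.𝒰 (tw N χ))) :
    Function.Bijective (ψ.app N) :=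
  bijective_of_flip_injective_of_le ψ N (psi_flip_injective ψ φ hχ ε hε hδ hφ N hN) hfin hle

/-- Ladder, epi part: surjectivity on the `perm k U` propagates to all admissible `N`. -/
theorem psi_surjective_of_base
    (hbase : ∀ U, X.𝒰.mem U → TrivOn χ U → Function.Surjective (ψ.app (perm k U)))
    (N : Rep.{0, 0, 0} k X.G) (hN : Adm X.𝒰 N) : Function.Surjective (ψ.app N) := by
  have : FiniteDimensional k N := hN.2
  obtain ⟨U, hU, hχU, d, R, ι, π, h, hRsm, hRfin, hPsm, hPfin⟩ :=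
    exists_perm_cover X.𝒰 χ hχ N hN.1
  have h' := isCoefSES_dual X.𝒰 χ hχ ι π h
  have hP := surjective_pow ψ (perm k U) d (hbase U hU hχU)
  exact DualityAlgebra.surjective_of_dual_ladder
    (X.mapH2c (Mor.ofHom X.𝒰 π) (fun _ => rfl)) (δc X h)
    (X.mapH3c (Mor.ofHom X.𝒰 ι) (fun _ => rfl))
    (Mor.ofHom X.𝒰 (dualTwistMap χ π)).h1 (δ₀ h') (Mor.ofHom X.𝒰 (dualTwistMap χ ι)).h0
    (psiL X χ ψ _) (psiL X χ ψ N) (phiL X χ φ R) (phiL X χ φ _)
    (ConeSESBridge.exact_δc_mapH3c X h) (exact_δ₀_h1 h') (exact_h0_δ₀ h')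
    1 ε 1 one_ne_zero hε one_ne_zero
    (fun a b => by rw [one_mul]; exact psi_nat ψ π a b)
    (fun a b => hδ ι π h h' a b)
    (fun a b => by rw [one_mul]; exact phi_nat φ ι a b)
    hP (hφ R ⟨hRsm, hRfin⟩).2 (hφ _ ⟨hPsm, hPfin⟩).1

/-- **The middle-degree devissage**: bijectivity on the `perm k U` propagates to all admissible
`N`. -/
theorem psi_bijective_of_base
    (hbase : ∀ U, X.𝒰.mem U → TrivOn χ U → Function.Bijective (ψ.app (perm k U)))
    (N : Rep.{0, 0, 0} k X.G) (hN : Adm X.𝒰 N) : Function.Bijective (ψ.app N) := by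
  have hsurj := psi_surjective_of_base ψ φ hχ ε hε hδ hφ
    (fun U hU hχU => (hbase U hU hχU).2)
  refine ⟨?_, hsurj N hN⟩
  have : FiniteDimensional k N := hN.2
  obtain ⟨U, hU, hχU, d, R, ι, π, h, hRsm, hRfin, hPsm, hPfin⟩ :=
    exists_perm_cover X.𝒰 χ hχ N hN.1
  have h' := isCoefSES_dual X.𝒰 χ hχ ι π h
  have hP := injective_pow ψ (perm k U) d (hbase U hU hχU).1
  exact DualityAlgebra.injective_of_dual_ladder
    (X.mapH2c (Mor.ofHom X.𝒰 ι) (fun _ => rfl)) (X.mapH2c (Mor.ofHom X.𝒰 π) (fun _ => rfl))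
    (δc X h)
    (Mor.ofHom X.𝒰 (dualTwistMap χ ι)).h1 (Mor.ofHom X.𝒰 (dualTwistMap χ π)).h1 (δ₀ h')
    (psiL X χ ψ R) (psiL X χ ψ _) (psiL X χ ψ N) (phiL X χ φ R)
    (ConeSESBridge.exact_mapH2c X h) (ConeSESBridge.exact_mapH2c_δc X h) (exact_h1 h')
    1 1 ε one_ne_zero one_ne_zero hε
    (fun a b => by rw [one_mul]; exact psi_nat ψ ι a b)
    (fun a b => by rw [one_mul]; exact psi_nat ψ π a b)
    (fun a b => hδ ι π h h' a b)
    (hsurj R ⟨hRsm, hRfin⟩) hP (hφ R ⟨hRsm, hRfin⟩).1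

/-- **Global duality in degree `(2, 1)`** from the numerical input `(A-G2)`:
`ψ_N : H²_c(N) → Dual (H¹(G, N'))` is bijective for every admissible `N`. -/
theorem psi_bijective
    (hg₂ : ∀ U, X.𝒰.mem U → TrivOn χ U →
      Module.Finite k (X.H2c (perm k U)) ∧
      finrank k (X.H2c (perm k U)) ≤ finrank k (H1 X.𝒰 (tw (perm k U) χ)))
    (N : Rep.{0, 0, 0} k X.G) (hN : Adm X.𝒰 N) : Function.Bijective (ψ.app N) := by
  refine psi_bijective_of_base ψ φ hχ ε hε hδ hφ (fun U hU hχU => ?_) N hN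
  have hP : Adm X.𝒰 (perm k U) :=
    ⟨PermBasis.isUSmooth_perm X.𝒰 ⟨U, hU, le_rfl⟩, PermBasis.finite_perm X.𝒰 ⟨U, hU, le_rfl⟩⟩
  exact psi_bijective_of_le ψ φ hχ ε hε hδ hφ (perm k U) hP (hg₂ U hU hχU).1 (hg₂ U hU hχU).2

end Fermat.Agent.S55.Formal.Phi2Ladder
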