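/-
S55 / Formal end (helper4): the CUP form of `φ³` and its identification with `Phi3.phi3App`.

* GENERAL (`k` a commutative ring, any equivariant pairing `β : A × B → C` over a site `X`):
  `invMor X hβ y : Mor X.𝒰 A X.𝒰 C`, `a ↦ β a y`, for an invariant `y ∈ H⁰(X.𝒰, B)`;
  `m30_eq_mapK₃` (cochain level) and
  **`cup30_eq_mapH3c`** : `CupSite.cup30 X hβ x y = X.mapH3c (invMor X hβ y) _ x`
  ("cup with an invariant is the push-forward", (P-inv) of report #1796).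
* EVALUATION PAIRING (`k` a field): `invMor_evalPair` : for `β = EvalPair.evalPair N χ` the push-forward
  is `Mor.ofHom X.𝒰 (Phi3.homOf X.𝒰 χ N y)`; `cup30_evalPair`.
* `phi3Cup A N x y := tr A (cup30 X _ x y)`; `phi3Cup_eq : phi3Cup A N = Phi3.phi3App A N`;
  `phi3Cup_bijective` (all finite-dimensional uniformly smooth `N`), `phi3Cup_bijective_perm`,
  `phi3Cup_nat` (the literal shape of `GlobalDuality.GPairing.nat3`).
-/
import Fermat.Agent.S55.Formal.Phi3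
import Fermat.Agent.S55.Formal.CupSite
import Fermat.Agent.S55.Formal.EvalPair

set_option autoImplicit false

open CategoryTheory groupCohomology Module

namespace Fermat.Agent.S55.Formal.Phi3Cup

open Fermat.Agent.S55.Formal Fermat.Agent.S55.Formal.CupWindow Fermat.Agent.S55.Formal.CupLC
  Fermat.Agent.S55.Formal.Functor

/-! ### cup with an invariant = push-forward -/

section Inv

variable {k : Type} [CommRing k] (X : Site) {A B C : Rep.{0, 0, 0} k X.G}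
  {β : A →ₗ[k] B →ₗ[k] C} (hβ : Equi β)

/-- an element of `H⁰(𝒰, M)` is fixed by `G` -/
theorem fixed_of_mem_H0' {G : Type} [Group G] (𝒰 : NBasis G) (M : Rep.{0, 0, 0} k G)
    (y : ↥(H0 𝒰 M)) (g : G) : M.ρ g ((y : ↥(C₀ 𝒰 M)) : M) = ((y : ↥(C₀ 𝒰 M)) : M) := by
  have hy : dC₀ 𝒰 M (y : ↥(C₀ 𝒰 M)) = 0 := LinearMap.mem_ker.1 y.2
  have h1 := congrArg (fun w : ↥(C₁ 𝒰 M) => (w : G → M) g) hy
  simp only [dC₀_coe] at h1
  have h2 : (groupCohomology.d₀₁ M).hom ((y : ↥(C₀ 𝒰 M)) : M) g = 0 := h1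
  rw [groupCohomology.d₀₁_hom_apply, sub_eq_zero] at h2
  exact h2

/-- the push-forward `a ↦ β a y` along an invariant `y` -/
def invMor (y : ↥(H0 X.𝒰 B)) : Mor X.𝒰 A X.𝒰 C where
  f := MonoidHom.id X.G
  cont := isCont_id X.𝒰
  φ := β.flip ((y : ↥(C₀ X.𝒰 B)) : B)
  equivar g a := by
    show β (A.ρ g a) ((y : ↥(C₀ X.𝒰 B)) : B) = C.ρ g (β a ((y : ↥(C₀ X.𝒰 B)) : B))
    rw [hβ g a, fixed_of_mem_H0' X.𝒰 B y g]

@[simp] theorem invMor_φ (y : ↥(H0 X.𝒰 B)) (a : A) :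
    (invMor X hβ y).φ a = β a ((y : ↥(C₀ X.𝒰 B)) : B) := rfl

theorem invMor_f (y : ↥(H0 X.𝒰 B)) (g : X.G) : (invMor X hβ y).f g = g := rfl

/-- cochain level: the cone cup with an invariant is the push-forward chain map -/
theorem m30_eq_mapK₃ (x : ↥(C₃ X.𝒰 A) × X.D₂ A) (y : ↥(H0 X.𝒰 B)) :
    CupSite.m30 X hβ x (y : ↥(C₀ X.𝒰 B)) = X.mapK₃ (invMor X hβ y) (invMor_f X hβ y) x := by
  refine Prod.ext ?_ ?_
  · apply Subtype.ext
    funext g
    show β ((x.1 : X.G × X.G × X.G → A) g) (B.ρ (g.1 * g.2.1 * g.2.2) ((y : ↥(C₀ X.𝒰 B)) : B)) =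
      β ((x.1 : X.G × X.G × X.G → A) g) ((y : ↥(C₀ X.𝒰 B)) : B)
    rw [fixed_of_mem_H0' X.𝒰 B y]
  · funext v
    apply Subtype.ext
    funext g
    show β ((x.2 v : X.Γ v × X.Γ v → A) g)
        (B.ρ (X.ι v (g.1 * g.2)) ((y : ↥(C₀ X.𝒰 B)) : B)) =
      β ((x.2 v : X.Γ v × X.Γ v → A) g) ((y : ↥(C₀ X.𝒰 B)) : B)
    rw [fixed_of_mem_H0' X.𝒰 B y]

/-- **cup with an invariant is the push-forward** -/
theorem cup30_eq_mapH3c (x : X.H3c A) (y : ↥(H0 X.𝒰 B)) :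
    CupSite.cup30 X hβ x y = X.mapH3c (invMor X hβ y) (invMor_f X hβ y) x := by
  obtain ⟨x, hx, rfl⟩ := Hmid.exists_of x
  have hx' : X.k₃ C (X.mapK₃ (invMor X hβ y) (invMor_f X hβ y) x) = 0 := by
    have := LinearMap.congr_fun (X.mapK₄_k₃ (invMor X hβ y) (invMor_f X hβ y)) x
    simp only [LinearMap.comp_apply] at this
    rw [← this, hx, map_zero]
  rw [CupSite.cup30_of, X.mapH3c_of _ _ x hx hx']
  exact hmid_of_congr (m30_eq_mapK₃ X hβ x y) _ _

end Inv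

/-! ### the evaluation pairing -/

section Eval

variable {k : Type} [Field k] {X : Site} {χ : X.G →* kˣ}

/-- equivariance of the evaluation pairing, in the form consumed by `CupSite` -/
theorem equi (N : Rep.{0, 0, 0} k X.G) (χ : X.G →* kˣ) : Equi (EvalPair.evalPair N χ) :=
  EvalPair.equivariant_evalPair N χ

/-- for the evaluation pairing the push-forward along `y ∈ H⁰(N')` is the morphism
`ŷ : N ⟶ k(χ)` -/
theorem invMor_evalPair (N : Rep.{0, 0, 0} k X.G) (y : ↥(H0 X.𝒰 (tw N χ))) :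
    invMor X (equi N χ) y = Mor.ofHom X.𝒰 (Phi3.homOf X.𝒰 χ N y) :=
  mor_ext rfl (LinearMap.ext fun _ => rfl)

/-- `homOf` agrees with `EvalPair.homOfH0` -/
theorem homOf_eq_homOfH0 (N : Rep.{0, 0, 0} k X.G) (y : ↥(H0 X.𝒰 (tw N χ))) :
    Phi3.homOf X.𝒰 χ N y = EvalPair.homOfH0 X.𝒰 N χ y := by
  apply Rep.hom_ext
  apply Representation.IntertwiningMap.ext
  apply LinearMap.ext
  intro n
  rfl

/-- **(P-inv)** for the evaluation pairing -/
theorem cup30_evalPair (N : Rep.{0, 0, 0} k X.G) (x : X.H3c N) (y : ↥(H0 X.𝒰 (tw N χ))) :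
    CupSite.cup30 X (equi N χ) x y =
      X.mapH3c (Mor.ofHom X.𝒰 (Phi3.homOf X.𝒰 χ N y)) (fun _ => rfl) x := by
  rw [cup30_eq_mapH3c]
  have h := invMor_evalPair (X := X) (χ := χ) N y
  have key : ∀ (α α' : Mor X.𝒰 N X.𝒰 (mu χ)) (hα : ∀ g, α.f g = g) (hα' : ∀ g, α'.f g = g),
      α = α' → X.mapH3c α hα x = X.mapH3c α' hα' x := by
    intro α α' hα hα' e
    subst e
    rfl
  exact key _ _ _ _ h

/-- **`φ³` in cup form**: `x ↦ y ↦ tr (x ∪ y)` -/
noncomputable def phi3Cup (A : BaseA X k χ) (N : Rep.{0, 0, 0} k X.G) :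
    X.H3c N →ₗ[k] Module.Dual k ↥(H0 X.𝒰 (tw N χ)) :=
  (CupSite.cup30 X (equi N χ)).compr₂ (Phi3.tr A)

theorem phi3Cup_apply (A : BaseA X k χ) (N : Rep.{0, 0, 0} k X.G) (x : X.H3c N)
    (y : ↥(H0 X.𝒰 (tw N χ))) :
    phi3Cup A N x y = Phi3.tr A (CupSite.cup30 X (equi N χ) x y) := rfl

/-- the cup form of `φ³` is the push-forward form of `Formal/Phi3.lean` -/
theorem phi3Cup_eq (A : BaseA X k χ) (N : Rep.{0, 0, 0} k X.G) :
    phi3Cup A N = Phi3.phi3App A N := by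
  apply LinearMap.ext
  intro x
  apply LinearMap.ext
  intro y
  rw [phi3Cup_apply, cup30_evalPair, Phi3.phi3App_apply]

/-- **`φ³` (cup form) is bijective for every finite-dimensional uniformly smooth `N`.** -/
theorem phi3Cup_bijective (A : BaseA X k χ) (N : Rep.{0, 0, 0} k X.G)
    (hfin : Module.Finite k N) (hN : IsUSmooth X.𝒰 N) : Function.Bijective (phi3Cup A N) := by
  rw [phi3Cup_eq]
  exact Phi3.phi3App_bijective A N hfin hN

/-- the base case `k[G/U]` -/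
theorem phi3Cup_bijective_perm (A : BaseA X k χ) {U : Subgroup X.G} (hU : X.𝒰.mem U)
    (hχ : TrivOn χ U) : Function.Bijective (phi3Cup A (perm k U)) := by
  rw [phi3Cup_eq]
  exact Phi3.phi3_bijective_perm A hU hχ

/-- naturality, in the literal shape of `GlobalDuality.GPairing.nat3` -/
theorem phi3Cup_nat (A : BaseA X k χ) {N₁ N₂ : Rep.{0, 0, 0} k X.G} (φ : N₁ ⟶ N₂)
    (x : X.H3c N₁) (y : ↥(H0 X.𝒰 (tw N₂ χ))) :
    phi3Cup A N₂ (ConeSES.H3cmap X (Mor.ofHom X.𝒰 φ) (fun _ => rfl) x) y =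
      phi3Cup A N₁ x ((Mor.ofHom X.𝒰 (DualTwistApi.dualTwistMap χ φ)).h0 y) := by
  rw [phi3Cup_eq, phi3Cup_eq]
  exact (LinearMap.congr_fun ((Phi3.phi3 A).naturality φ x) y).symm

end Eval

end Fermat.Agent.S55.Formal.Phi3Cup
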