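/-
S55 / Formal / ShaCocycle (helper32): TOP GLUE on Prelude objects only.

Cocycle-level descriptions of the Prelude's `sha₁` and `sha₂` (for coefficient fields in which
`2` is invertible, so that the archimedean place can be dropped by `S55/Archimedean.lean`):

* `isLevelConstantS₁_d₀₁` : for a finite-dimensional smooth representation unramified outside `S`
  every `1`-coboundary is `S`-level-constant;
* `mem_sha₁_iff_cocycle` : `x ∈ sha₁ S A` iff `x` is the class of an `S`-level-constant cocycle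
  whose restriction to every `Γ_q`, `q ∈ S`, is a coboundary;
* `mem_sha₂_iff_cocycle` : the class of an `S`-level cocycle `f` is in `sha₂ S M` iff for every
  `q ∈ S` the restriction of `f` to `Γ_q × Γ_q` is a level coboundary of `Γ_q`.
-/
import Fermat.Agent.S55.Archimedean
import Fermat.Agent.S55.GaloisLevel

set_option autoImplicit false

open CategoryTheory groupCohomology ExtCitation

namespace Fermat.Agent.S55.Formal.ShaCocycle

/-- The absolute Galois group of `ℚ`. -/
abbrev GQ : Type := AlgebraicClosure ℚ ≃ₐ[ℚ] AlgebraicClosure ℚ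

variable (S : Finset Nat.Primes)

section Coboundary

variable {k : Type} [Field k] (M : Rep k GQ) [FiniteDimensional k M]

/-- For a smooth finite-dimensional representation unramified outside `S`, all orbit maps
`g ↦ ρ(g) m` are `S`-level-constant. -/
theorem isLevelConstantS₁_orbit
    (hsm : ∀ m : M, ∃ F : IntermediateField ℚ (AlgebraicClosure ℚ), FiniteDimensional ℚ F ∧
      ∀ s ∈ F.fixingSubgroup, M.ρ s m = m)
    (hMur : ∀ q : Nat.Primes, q ∉ S → ∀ A : ValuationSubring (AlgebraicClosure ℚ),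
      A.LiesOverPrime (q : ℕ) → ∀ g ∈ A.inertiaSubgroupIn ℚ, M.ρ g = 1) (m : M) :
    IsLevelConstantS₁ S (fun g : GQ => M.ρ g m) := by
  obtain ⟨K, hK, _, _, hker⟩ := GaloisLevel.exists_field_of_rep (S := S) M hsm hMur
  refine ⟨K, hK, fun g s hs => ?_⟩
  have h1 : M.ρ s = 1 := (hker s).1 hs
  simp only [map_mul, h1, mul_one]

/-- For a smooth finite-dimensional representation unramified outside `S`, every `1`-coboundary is
`S`-level-constant. -/
theorem isLevelConstantS₁_d₀₁
    (hsm : ∀ m : M, ∃ F : IntermediateField ℚ (AlgebraicClosure ℚ), FiniteDimensional ℚ F ∧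
      ∀ s ∈ F.fixingSubgroup, M.ρ s m = m)
    (hMur : ∀ q : Nat.Primes, q ∉ S → ∀ A : ValuationSubring (AlgebraicClosure ℚ),
      A.LiesOverPrime (q : ℕ) → ∀ g ∈ A.inertiaSubgroupIn ℚ, M.ρ g = 1) (m : M) :
    IsLevelConstantS₁ S ((d₀₁ M).hom m) := by
  obtain ⟨F, hF, h⟩ := isLevelConstantS₁_orbit S M hsm hMur m
  refine ⟨F, hF, fun g s hs => ?_⟩
  have := h g s hs
  simp only at this
  rw [d₀₁_hom_apply, d₀₁_hom_apply, this]

end Coboundary

section Sha1

variable {K : Type} [Field K] (A : Rep K GQ)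

/-- Restriction of a `1`-cocycle of `Γ` to a local group, as a plain function. -/
noncomputable def resFun {H : Type} [Group H] (r : H →* GQ) (c : GQ → A) : H → Rep.res r A :=
  fun h => c (r h)

theorem locRes_H1π {ι : Type} {Γv : ι → Type} [∀ v, Group (Γv v)] (loc : ∀ v, Γv v →* GQ)
    (v : ι) (c : cocycles₁ A) :
    (locRes loc A v).hom ((H1π A).hom c) =
      (H1π (Rep.res (loc v) A)).hom (mapCocycles₁ (loc v) (𝟙 (Rep.res (loc v) A)) c) := by
  have := H1π_comp_map_apply (loc v) (𝟙 (Rep.res (loc v) A)) c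
  exact this

theorem locRes_H1π_eq_zero_iff {ι : Type} {Γv : ι → Type} [∀ v, Group (Γv v)]
    (loc : ∀ v, Γv v →* GQ) (v : ι) (c : cocycles₁ A) :
    (locRes loc A v).hom ((H1π A).hom c) = 0 ↔
      resFun A (loc v) c ∈ coboundaries₁ (Rep.res (loc v) A) := by
  rw [locRes_H1π, H1π_eq_zero_iff]
  rfl

/-- **Cocycle-level description of `sha₁`** (when `2` is invertible). -/
theorem mem_sha₁_iff_cocycle (h2 : IsUnit (2 : K)) (x : H1 A) :
    x ∈ sha₁ S A ↔ ∃ c : cocycles₁ A, IsLevelConstantS₁ S c ∧ (H1π A).hom c = x ∧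
      ∀ q : ↥S, resFun A (primeLocalToGlobal q.1) c ∈
        coboundaries₁ (Rep.res (primeLocalToGlobal q.1) A) := by
  rw [Archimedean.mem_sha₁_iff S h2, mem_continuousH1S_iff]
  constructor
  · rintro ⟨⟨c, hc, rfl⟩, hq⟩
    refine ⟨c, hc, rfl, fun q => ?_⟩
    exact (locRes_H1π_eq_zero_iff A (extArithLoc S) (Sum.inr q) c).1 (hq q)
  · rintro ⟨c, hc, rfl, hq⟩
    refine ⟨⟨c, hc, rfl⟩, fun q => ?_⟩
    exact (locRes_H1π_eq_zero_iff A (extArithLoc S) (Sum.inr q) c).2 (hq q)

end Sha1

section Sha2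

variable {k : Type} [CommRing k] (M : Rep k GQ)

/-- Restriction of a `2`-cochain of `Γ` to a local group, as a plain function. -/
noncomputable def resFun₂ {H : Type} [Group H] (r : H →* GQ) (f : GQ × GQ → M) : H × H → Rep.res r M :=
  fun p => f (r p.1, r p.2)

theorem locRes₂S_mk {H : Type} [Group H] (r : H →* GQ) (f : ↥(levelCocyclesS₂ S M)) :
    locRes₂S S M r (continuousH2Sπ S M f) = 0 ↔
      resFun₂ M r (f : GQ × GQ → M) ∈ levelCoboundaries₂ r (Rep.res r M) := by
  have : locRes₂S S M r (continuousH2Sπ S M f) =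
      continuousH2π r (Rep.res r M)
        (levelCocycles₂Map (rH := MonoidHom.id _) (rG := r) r (fun _ => rfl)
          (LinearMap.id : M →ₗ[k] Rep.res r M) (fun _ _ => rfl)
          (levelCocyclesS₂ToLevelCocycles₂ S M f)) := rfl
  rw [this, continuousH2π_eq_zero_iff]
  rfl

/-- **Cocycle-level description of `sha₂`** (when `2` is invertible). -/
theorem mem_sha₂_iff_cocycle (h2 : IsUnit (2 : k)) (f : ↥(levelCocyclesS₂ S M)) :
    continuousH2Sπ S M f ∈ sha₂ S M ↔
      ∀ q : ↥S, resFun₂ M (primeLocalToGlobal q.1) (f : GQ × GQ → M) ∈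
        levelCoboundaries₂ (primeLocalToGlobal q.1) (Rep.res (primeLocalToGlobal q.1) M) := by
  rw [Archimedean.mem_sha₂_iff S h2]
  exact forall_congr' fun q => locRes₂S_mk S M (primeLocalToGlobal q.1) f

end Sha2

end Fermat.Agent.S55.Formal.ShaCocycle
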