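/-
S55 / Formal / PreludeLC (helper32): comparison of the Prelude's level-constant cochains with the
`LC` library of `Formal/LC.lean`.

* `globalBasis S : NBasis GQ` : fixing subgroups of finite extensions of `ℚ` unramified outside `S`
  with normal fixing subgroup;
* `localBasis r : NBasis H` for `r : H →* GQ` : preimages of fixing subgroups of finite extensions
  with normal fixing subgroup (so `H = primeLocalGaloisGroup q`, `r = primeLocalToGlobal q`);
* `isCont_local` : `r` is continuous for `globalBasis S`, `localBasis r`;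
* `isLC₁_global_iff` … : for a uniformly smooth module the `LC` conditions are the Prelude's
  `IsLevelConstantS₁/₂`, `IsLevelConstant₁/₂ r`.
-/
import Fermat.Agent.S55.Formal.LC
import Fermat.Agent.S55.Formal.ShaCocycle

set_option autoImplicit false

open CategoryTheory groupCohomology ExtCitation

namespace Fermat.Agent.S55.Formal.PreludeLC

open Fermat.Agent.S55.Formal Fermat.Agent.S55.GaloisLevel

/-- The absolute Galois group of `ℚ`. -/
abbrev GQ : Type := AlgebraicClosure ℚ ≃ₐ[ℚ] AlgebraicClosure ℚ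
/-- `ℚ̄`. -/
abbrev Qbar : Type := AlgebraicClosure ℚ

local instance isAlgebraicQbar_plc : Algebra.IsAlgebraic ℚ (AlgebraicClosure ℚ) :=
  AlgebraicClosure.isAlgebraic ℚ
local instance isAlgClosureQbar_plc : IsAlgClosure ℚ (AlgebraicClosure ℚ) :=
  ⟨inferInstance, inferInstance⟩
local instance normalQbar_plc : Normal ℚ (AlgebraicClosure ℚ) :=
  IsAlgClosure.normal ℚ (AlgebraicClosure ℚ)
local instance isGaloisQbar_plc : IsGalois ℚ (AlgebraicClosure ℚ) := ⟨⟩

theorem finiteIndex_fixingSubgroup (F : IntermediateField ℚ Qbar) [FiniteDimensional ℚ F] :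
    F.fixingSubgroup.FiniteIndex := by
  rw [Subgroup.finiteIndex_iff, ← IntermediateField.finrank_eq_fixingSubgroup_index]
  exact Module.finrank_pos.ne'

variable (S : Finset Nat.Primes)

/-- The basis of open normal subgroups of `G_ℚ` "of level unramified outside `S`". -/
def globalBasis : NBasis GQ where
  mem U := ∃ F : IntermediateField ℚ Qbar, F.IsUnramifiedOutside S ∧ F.fixingSubgroup.Normal ∧
    U = F.fixingSubgroup
  normal := by
    rintro U ⟨F, _, hn, rfl⟩
    exact hn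
  top := by
    refine ⟨⊥, IntermediateField.isUnramifiedOutside_bot S, ?_, ?_⟩
    · rw [IntermediateField.fixingSubgroup_bot]; infer_instance
    · rw [IntermediateField.fixingSubgroup_bot]
  inf := by
    rintro U V ⟨F, hF, hFn, rfl⟩ ⟨F', hF', hFn', rfl⟩
    refine ⟨(F ⊔ F').fixingSubgroup, ⟨F ⊔ F', hF.sup hF', ?_, rfl⟩, ?_⟩
    · rw [IntermediateField.fixingSubgroup_sup]
      haveI := hFn; haveI := hFn'
      infer_instance
    · rw [IntermediateField.fixingSubgroup_sup]
  finiteIndex := by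
    rintro U ⟨F, hF, _, rfl⟩
    haveI := hF.1
    exact finiteIndex_fixingSubgroup F

theorem mem_globalBasis_iff (U : Subgroup GQ) :
    (globalBasis S).mem U ↔ ∃ F : IntermediateField ℚ Qbar, F.IsUnramifiedOutside S ∧
      F.fixingSubgroup.Normal ∧ U = F.fixingSubgroup := Iff.rfl

/-- every level unramified outside `S` contains a member of `globalBasis S`. -/
theorem exists_mem_globalBasis_le {F : IntermediateField ℚ Qbar} (hF : F.IsUnramifiedOutside S) :
    ∃ U, (globalBasis S).mem U ∧ U ≤ F.fixingSubgroup := by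
  obtain ⟨F', _, hF', _, hn, hle⟩ := exists_galois_ge hF
  exact ⟨F'.fixingSubgroup, ⟨F', hF', hn, rfl⟩, hle⟩

section Local

variable {H : Type} [Group H] (r : H →* GQ)

/-- The basis of open normal subgroups of a local group `H → G_ℚ`: preimages of the open normal
subgroups of `G_ℚ`. -/
def localBasis : NBasis H where
  mem U := ∃ F : IntermediateField ℚ Qbar, FiniteDimensional ℚ F ∧ F.fixingSubgroup.Normal ∧
    U = F.fixingSubgroup.comap r
  normal := by
    rintro U ⟨F, _, hn, rfl⟩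
    haveI := hn
    infer_instance
  top := by
    refine ⟨⊥, inferInstance, ?_, ?_⟩
    · rw [IntermediateField.fixingSubgroup_bot]; infer_instance
    · rw [IntermediateField.fixingSubgroup_bot, Subgroup.comap_top]
  inf := by
    rintro U V ⟨F, hF, hFn, rfl⟩ ⟨F', hF', hFn', rfl⟩
    haveI := hF; haveI := hF'
    refine ⟨(F ⊔ F').fixingSubgroup.comap r, ⟨F ⊔ F', inferInstance, ?_, rfl⟩, ?_⟩
    · rw [IntermediateField.fixingSubgroup_sup]
      haveI := hFn; haveI := hFn'
      infer_instance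
    · rw [IntermediateField.fixingSubgroup_sup, Subgroup.comap_inf]
  finiteIndex := by
    rintro U ⟨F, hF, _, rfl⟩
    haveI := hF
    haveI := finiteIndex_fixingSubgroup F
    rw [Subgroup.finiteIndex_iff, Subgroup.index_comap]
    exact (Subgroup.finiteIndex_iff.1 (inferInstance :
      (F.fixingSubgroup.subgroupOf r.range).FiniteIndex))

/-- every finite level contains a member of `localBasis r`. -/
theorem exists_mem_localBasis_le (F : IntermediateField ℚ Qbar) [FiniteDimensional ℚ F] :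
    ∃ U, (localBasis r).mem U ∧ U ≤ F.fixingSubgroup.comap r := by
  refine ⟨(galClosure F).fixingSubgroup.comap r,
    ⟨galClosure F, finiteDimensional_galClosure F, fixingSubgroup_galClosure_normal F, rfl⟩, ?_⟩
  exact Subgroup.comap_mono (IntermediateField.fixingSubgroup_antitone (le_galClosure F))

/-- the localisation map is continuous. -/
theorem isCont_local : IsCont (globalBasis S) (localBasis r) r := by
  rintro U ⟨F, hF, hn, rfl⟩
  exact ⟨F.fixingSubgroup.comap r, ⟨F, hF.1, hn, rfl⟩, fun s hs => hs⟩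

end Local

/-! ### levels of a representation -/

section Levels

variable {k : Type} [CommRing k]

/-- `M` is trivial on the fixing subgroup of a finite extension unramified outside `S`. -/
def HasLevel (M : Rep.{0, 0, 0} k GQ) : Prop :=
  ∃ K : IntermediateField ℚ Qbar, K.IsUnramifiedOutside S ∧ ∀ s ∈ K.fixingSubgroup, M.ρ s = 1

/-- `M` is trivial on the fixing subgroup of a finite extension. -/
def HasFinLevel (M : Rep.{0, 0, 0} k GQ) : Prop :=
  ∃ K : IntermediateField ℚ Qbar, FiniteDimensional ℚ K ∧ ∀ s ∈ K.fixingSubgroup, M.ρ s = 1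

variable {S}

theorem HasLevel.hasFinLevel {M : Rep.{0, 0, 0} k GQ} (h : HasLevel S M) : HasFinLevel M := by
  obtain ⟨K, hK, h⟩ := h
  exact ⟨K, hK.1, h⟩

theorem HasLevel.isUSmooth {M : Rep.{0, 0, 0} k GQ} (h : HasLevel S M) :
    IsUSmooth (globalBasis S) M := by
  obtain ⟨K, hK, h⟩ := h
  obtain ⟨U, hU, hle⟩ := exists_mem_globalBasis_le S hK
  exact ⟨U, hU, fun s hs m => by rw [h s (hle hs)]; rfl⟩

theorem HasFinLevel.isUSmooth_res {M : Rep.{0, 0, 0} k GQ} (h : HasFinLevel M)
    {H : Type} [Group H] (r : H →* GQ) : IsUSmooth (localBasis r) (Rep.res r M) := by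
  obtain ⟨K, hK, h⟩ := h
  haveI := hK
  obtain ⟨U, hU, hle⟩ := exists_mem_localBasis_le r K
  refine ⟨U, hU, fun s hs m => ?_⟩
  have : M.ρ (r s) = 1 := h (r s) (hle hs)
  change M.ρ (r s) m = m
  rw [this]; rfl

variable (S)

/-- a finite-dimensional smooth representation over a field, unramified outside `S`, has a
level. -/
theorem hasLevel_of_admissible {k : Type} [Field k] (M : Rep.{0, 0, 0} k GQ)
    [FiniteDimensional k M]
    (hsm : ∀ m : M, ∃ F : IntermediateField ℚ Qbar, FiniteDimensional ℚ F ∧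
      ∀ s ∈ F.fixingSubgroup, M.ρ s m = m)
    (hMur : ∀ q : Nat.Primes, q ∉ S → ∀ A : ValuationSubring Qbar,
      A.LiesOverPrime (q : ℕ) → ∀ g ∈ A.inertiaSubgroupIn ℚ, M.ρ g = 1) : HasLevel S M := by
  obtain ⟨K, hK, _, _, hker⟩ := exists_field_of_rep (S := S) M hsm hMur
  exact ⟨K, hK, fun s hs => (hker s).1 hs⟩

end Levels

/-! ### comparison of the level-constancy conditions -/

section Compare

variable {k : Type} [CommRing k] {S}

theorem isLC₁_global_iff {M : Rep.{0, 0, 0} k GQ} (hM : HasLevel S M) (f : GQ → M) :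
    IsLC₁ (globalBasis S) M f ↔ IsLevelConstantS₁ S f := by
  constructor
  · rintro ⟨U, ⟨F, hF, _, rfl⟩, h⟩
    exact ⟨F, hF, fun g s hs => (h s hs g).1⟩
  · rintro ⟨F, hF, h⟩
    obtain ⟨K, hK, hKM⟩ := hM
    obtain ⟨U, hU, hle⟩ := exists_mem_globalBasis_le S (hF.sup hK)
    rw [IntermediateField.fixingSubgroup_sup] at hle
    refine ⟨U, hU, fun s hs g => ⟨h g s (hle hs).1, ?_⟩⟩
    rw [hKM s (hle hs).2]; rfl

theorem isLC₂_global_iff {M : Rep.{0, 0, 0} k GQ} (hM : HasLevel S M) (f : GQ × GQ → M) :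
    IsLC₂ (globalBasis S) M f ↔ IsLevelConstantS₂ S f := by
  constructor
  · rintro ⟨U, ⟨F, hF, _, rfl⟩, h⟩
    refine ⟨F, hF, fun g g' s s' hs hs' => ?_⟩
    rw [(h s hs g (g' * s')).1, (h s' hs' g g').2.1]
  · rintro ⟨F, hF, h⟩
    obtain ⟨K, hK, hKM⟩ := hM
    obtain ⟨U, hU, hle⟩ := exists_mem_globalBasis_le S (hF.sup hK)
    rw [IntermediateField.fixingSubgroup_sup] at hle
    refine ⟨U, hU, fun s hs g g' => ⟨?_, ?_, ?_⟩⟩
    · have := h g g' s 1 (hle hs).1 (one_mem _)
      rwa [mul_one] at this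
    · have := h g g' 1 s (one_mem _) (hle hs).1
      rwa [mul_one] at this
    · rw [hKM s (hle hs).2]; rfl

variable {H : Type} [Group H] (r : H →* GQ)

theorem isLC₁_local_iff {M : Rep.{0, 0, 0} k GQ} (hM : HasFinLevel M) (f : H → Rep.res r M) :
    IsLC₁ (localBasis r) (Rep.res r M) f ↔ IsLevelConstant₁ r f := by
  constructor
  · rintro ⟨U, ⟨F, hF, _, rfl⟩, h⟩
    exact ⟨F, hF, fun g s hs => (h s hs g).1⟩
  · rintro ⟨F, hF, h⟩
    obtain ⟨K, hK, hKM⟩ := hM
    haveI := hF; haveI := hK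
    obtain ⟨U, hU, hle⟩ := exists_mem_localBasis_le r (F ⊔ K)
    rw [IntermediateField.fixingSubgroup_sup] at hle
    refine ⟨U, hU, fun s hs g => ⟨h g s (hle hs).1, ?_⟩⟩
    have : M.ρ (r s) = 1 := hKM (r s) (hle hs).2
    change M.ρ (r s) (f g) = f g
    rw [this]; rfl

theorem isLC₂_local_iff {M : Rep.{0, 0, 0} k GQ} (hM : HasFinLevel M)
    (f : H × H → Rep.res r M) :
    IsLC₂ (localBasis r) (Rep.res r M) f ↔ IsLevelConstant₂ r f := by
  constructor
  · rintro ⟨U, ⟨F, hF, _, rfl⟩, h⟩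
    refine ⟨F, hF, fun g g' s s' hs hs' => ?_⟩
    rw [(h s hs g (g' * s')).1, (h s' hs' g g').2.1]
  · rintro ⟨F, hF, h⟩
    obtain ⟨K, hK, hKM⟩ := hM
    haveI := hF; haveI := hK
    obtain ⟨U, hU, hle⟩ := exists_mem_localBasis_le r (F ⊔ K)
    rw [IntermediateField.fixingSubgroup_sup] at hle
    refine ⟨U, hU, fun s hs g g' => ⟨?_, ?_, ?_⟩⟩
    · have := h g g' s 1 (hle hs).1 (by rw [map_one]; exact one_mem _)
      rwa [mul_one] at this
    · have := h g g' 1 s (by rw [map_one]; exact one_mem _) (hle hs).1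
      rwa [mul_one] at this
    · have : M.ρ (r s) = 1 := hKM (r s) (hle hs).2
      change M.ρ (r s) (f (g, g')) = f (g, g')
      rw [this]; rfl

end Compare

/-! ### the localisation maps in `LC` language -/

section Loc

variable {k : Type} [CommRing k] (M : Rep.{0, 0, 0} k GQ)

/-- restriction to the local group at `q`, as a morphism of situations. -/
noncomputable def resMor (q : ↥S) :
    Mor (globalBasis S) M (localBasis (primeLocalToGlobal q.1))
      (Rep.res (primeLocalToGlobal q.1) M) :=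
  Mor.res (globalBasis S) (localBasis (primeLocalToGlobal q.1)) (primeLocalToGlobal q.1)
    (isCont_local S (primeLocalToGlobal q.1)) M

/-- `H¹_S(M) → ∏_{q ∈ S} H¹(Γ_q, M)` on `LC` cohomology. -/
noncomputable def locLC₁ :
    Formal.H1 (globalBasis S) M →ₗ[k]
      ∀ q : ↥S, Formal.H1 (localBasis (primeLocalToGlobal q.1))
        (Rep.res (primeLocalToGlobal q.1) M) :=
  LinearMap.pi fun q => (resMor S M q).h1

/-- `H²_S(M) → ∏_{q ∈ S} H²(Γ_q, M)` on `LC` cohomology. -/
noncomputable def locLC₂ :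
    Formal.H2 (globalBasis S) M →ₗ[k]
      ∀ q : ↥S, Formal.H2 (localBasis (primeLocalToGlobal q.1))
        (Rep.res (primeLocalToGlobal q.1) M) :=
  LinearMap.pi fun q => (resMor S M q).h2

end Loc

/-! ### `H²`: Prelude versus `LC` -/

section H2

variable {k : Type} [CommRing k] {S} {M : Rep.{0, 0, 0} k GQ}

/-- Prelude level `2`-cocycles are the `LC` `2`-cocycles. -/
noncomputable def cocyclesEquiv₂ (hM : HasLevel S M) :
    ↥(levelCocyclesS₂ S M) ≃ₗ[k] ↥(LinearMap.ker (dC₂ (globalBasis S) M)) where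
  toFun c := ⟨⟨c.1, (isLC₂_global_iff hM c.1).2 c.2.2⟩, by
    rw [LinearMap.mem_ker]
    apply Subtype.ext
    rw [dC₂_coe]
    exact c.2.1⟩
  invFun z := ⟨z.1.1, ⟨by
    have h := z.2
    rw [LinearMap.mem_ker] at h
    have h' := congrArg Subtype.val h
    rw [dC₂_coe] at h'
    exact h', (isLC₂_global_iff hM z.1.1).1 z.1.2⟩⟩
  left_inv c := rfl
  right_inv z := rfl
  map_add' c c' := rfl
  map_smul' a c := rfl

@[simp] theorem cocyclesEquiv₂_coe (hM : HasLevel S M) (c : ↥(levelCocyclesS₂ S M)) :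
    ((cocyclesEquiv₂ hM c : ↥(C₂ (globalBasis S) M)) : GQ × GQ → M) = c.1 := rfl

theorem map_coboundaries₂ (hM : HasLevel S M) :
    ((levelCoboundariesS₂ S M).comap (levelCocyclesS₂ S M).subtype).map
        (cocyclesEquiv₂ hM : ↥(levelCocyclesS₂ S M) →ₗ[k] _) =
      (LinearMap.range (dC₁ (globalBasis S) M)).comap
        (LinearMap.ker (dC₂ (globalBasis S) M)).subtype := by
  ext z
  simp only [Submodule.mem_map, Submodule.mem_comap, Submodule.subtype_apply,
    LinearMap.mem_range]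
  constructor
  · rintro ⟨c, hc, rfl⟩
    obtain ⟨x, hx, hxc⟩ := (mem_levelCoboundariesS₂_iff S M _).1 hc
    refine ⟨⟨x, (isLC₁_global_iff hM x).2 hx⟩, ?_⟩
    apply Subtype.ext
    rw [dC₁_coe]
    exact hxc
  · rintro ⟨a, ha⟩
    refine ⟨(cocyclesEquiv₂ hM).symm z, ?_, (cocyclesEquiv₂ hM).apply_symm_apply z⟩
    refine (mem_levelCoboundariesS₂_iff S M _).2 ⟨a.1, (isLC₁_global_iff hM a.1).1 a.2, ?_⟩
    have := congrArg Subtype.val ha
    rw [dC₁_coe] at this
    exact this

/-- **`H²`: Prelude = `LC`** (global). -/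
noncomputable def equivH2 (hM : HasLevel S M) :
    continuousH2S S M ≃ₗ[k] Formal.H2 (globalBasis S) M :=
  Submodule.Quotient.equiv _ _ (cocyclesEquiv₂ hM) (map_coboundaries₂ hM)

theorem equivH2_mk (hM : HasLevel S M) (c : ↥(levelCocyclesS₂ S M)) :
    equivH2 hM (continuousH2Sπ S M c) = Hmid.mk _ _ (cocyclesEquiv₂ hM c) := rfl

theorem resMor_h2_mk_eq_zero_iff (hM : HasLevel S M) (q : ↥S) (c : ↥(levelCocyclesS₂ S M)) :
    (resMor S M q).h2 (Hmid.mk _ _ (cocyclesEquiv₂ hM c)) = 0 ↔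
      ShaCocycle.resFun₂ M (primeLocalToGlobal q.1) (c : GQ × GQ → M) ∈
        levelCoboundaries₂ (primeLocalToGlobal q.1) (Rep.res (primeLocalToGlobal q.1) M) := by
  have e : (resMor S M q).h2 (Hmid.mk _ _ (cocyclesEquiv₂ hM c)) =
      Hmid.mk _ _ ⟨(resMor S M q).c₂ (cocyclesEquiv₂ hM c : ↥(C₂ (globalBasis S) M)), by
        rw [LinearMap.mem_ker]
        have h1 := LinearMap.congr_fun (resMor S M q).c₃_dC₂
          (cocyclesEquiv₂ hM c : ↥(C₂ (globalBasis S) M))
        simp only [LinearMap.comp_apply] at h1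
        rw [← h1, LinearMap.mem_ker.1 (cocyclesEquiv₂ hM c).2, map_zero]⟩ := rfl
  rw [e, Hmid.mk_eq_zero_iff, mem_levelCoboundaries₂_iff]
  constructor
  · rintro ⟨a, ha⟩
    refine ⟨a.1, (isLC₁_local_iff _ hM.hasFinLevel a.1).1 a.2, ?_⟩
    have := congrArg Subtype.val ha
    rw [dC₁_coe] at this
    exact this
  · rintro ⟨x, hx, hxc⟩
    refine ⟨⟨x, (isLC₁_local_iff _ hM.hasFinLevel x).2 hx⟩, ?_⟩
    apply Subtype.ext
    rw [dC₁_coe]
    exact hxc

/-- **`Ш²`: Prelude = `LC`.** -/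
theorem mem_sha₂_iff_locLC₂ (hM : HasLevel S M) (h2 : IsUnit (2 : k)) (x : continuousH2S S M) :
    x ∈ sha₂ S M ↔ equivH2 hM x ∈ LinearMap.ker (locLC₂ S M) := by
  obtain ⟨c, rfl⟩ := Submodule.Quotient.mk_surjective _ x
  have : (Submodule.Quotient.mk c : continuousH2S S M) = continuousH2Sπ S M c := rfl
  rw [this, ShaCocycle.mem_sha₂_iff_cocycle S M h2, LinearMap.mem_ker, equivH2_mk]
  constructor
  · intro h
    funext q
    exact (resMor_h2_mk_eq_zero_iff hM q c).2 (h q)
  · intro h q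
    exact (resMor_h2_mk_eq_zero_iff hM q c).1 (congrFun h q)

/-- `sha₂ S M` (Prelude) is the kernel of the `LC` localisation map in degree `2`. -/
noncomputable def sha₂Equiv (hM : HasLevel S M) (h2 : IsUnit (2 : k)) :
    ↥(sha₂ S M) ≃ₗ[k] ↥(LinearMap.ker (locLC₂ S M)) :=
  (equivH2 hM).ofSubmodules (sha₂ S M) (LinearMap.ker (locLC₂ S M)) (by
    ext y
    constructor
    · rintro ⟨x, hx, rfl⟩
      exact (mem_sha₂_iff_locLC₂ hM h2 x).1 hx
    · intro hy
      refine ⟨(equivH2 hM).symm y, ?_, (equivH2 hM).apply_symm_apply y⟩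
      rw [SetLike.mem_coe, mem_sha₂_iff_locLC₂ hM h2, (equivH2 hM).apply_symm_apply]
      exact hy)

end H2

/-! ### `H¹`: Prelude versus `LC` -/

section H1

variable {K : Type} [Field K] {S} {A : Rep.{0, 0, 0} K GQ}

/-- an `LC` `1`-cocycle as a Mathlib `1`-cocycle. -/
noncomputable def toCocycles₁ :
    ↥(LinearMap.ker (dC₁ (globalBasis S) A)) →ₗ[K] ↥(cocycles₁ A) where
  toFun z := ⟨z.1.1, by
    have h := z.2
    rw [LinearMap.mem_ker] at h
    have h' := congrArg Subtype.val h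
    rw [dC₁_coe] at h'
    exact h'⟩
  map_add' _ _ := rfl
  map_smul' _ _ := rfl

@[simp] theorem toCocycles₁_coe (z : ↥(LinearMap.ker (dC₁ (globalBasis S) A))) :
    ((toCocycles₁ z : ↥(cocycles₁ A)) : GQ → A) = z.1.1 := rfl

/-- the comparison map `H¹_LC → H¹` (Mathlib). -/
noncomputable def toH1 : Formal.H1 (globalBasis S) A →ₗ[K] groupCohomology.H1 A :=
  Submodule.liftQ _ ((H1π A).hom ∘ₗ toCocycles₁) (by
    rintro z ⟨m, hm⟩
    rw [LinearMap.mem_ker, LinearMap.comp_apply]
    refine (H1π_eq_zero_iff _).2 ⟨m.1, ?_⟩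
    have := congrArg Subtype.val hm
    rw [dC₀_coe] at this
    exact this)

theorem toH1_mk (z : ↥(LinearMap.ker (dC₁ (globalBasis S) A))) :
    toH1 (Hmid.mk _ _ z) = (H1π A).hom (toCocycles₁ z) := rfl

theorem toH1_injective (hA : HasLevel S A) : Function.Injective (toH1 (S := S) (A := A)) := by
  rw [← LinearMap.ker_eq_bot, LinearMap.ker_eq_bot']
  intro x hx
  obtain ⟨z, rfl⟩ := Hmid.mk_surjective _ _ x
  rw [toH1_mk] at hx
  obtain ⟨m, hm⟩ := (H1π_eq_zero_iff _).1 hx
  rw [Hmid.mk_eq_zero_iff]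
  refine ⟨⟨m, ?_⟩, ?_⟩
  · rw [hA.isUSmooth.C₀_eq_top]; trivial
  · apply Subtype.ext
    rw [dC₀_coe]
    exact hm

theorem range_toH1 (hA : HasLevel S A) :
    LinearMap.range (toH1 (S := S) (A := A)) = continuousH1S S A := by
  ext x
  rw [LinearMap.mem_range, mem_continuousH1S_iff]
  constructor
  · rintro ⟨y, rfl⟩
    obtain ⟨z, rfl⟩ := Hmid.mk_surjective _ _ y
    exact ⟨toCocycles₁ z, (isLC₁_global_iff hA z.1.1).1 z.1.2, (toH1_mk z).symm⟩
  · rintro ⟨c, hc, rfl⟩
    refine ⟨Hmid.mk _ _ ⟨⟨c.1, (isLC₁_global_iff hA c.1).2 hc⟩, ?_⟩, ?_⟩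
    · rw [LinearMap.mem_ker]
      apply Subtype.ext
      rw [dC₁_coe]
      exact c.2
    · rw [toH1_mk]
      rfl

theorem resMor_h1_mk_eq_zero_iff (hA : HasLevel S A) (q : ↥S)
    (z : ↥(LinearMap.ker (dC₁ (globalBasis S) A))) :
    (resMor S A q).h1 (Hmid.mk _ _ z) = 0 ↔
      ShaCocycle.resFun A (primeLocalToGlobal q.1) (z.1.1 : GQ → A) ∈
        coboundaries₁ (Rep.res (primeLocalToGlobal q.1) A) := by
  have e : (resMor S A q).h1 (Hmid.mk _ _ z) =
      Hmid.mk _ _ ⟨(resMor S A q).c₁ z.1, by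
        rw [LinearMap.mem_ker]
        have h1 := LinearMap.congr_fun (resMor S A q).c₂_dC₁ z.1
        simp only [LinearMap.comp_apply] at h1
        rw [← h1, LinearMap.mem_ker.1 z.2, map_zero]⟩ := rfl
  rw [e, Hmid.mk_eq_zero_iff]
  constructor
  · rintro ⟨m, hm⟩
    refine ⟨m.1, ?_⟩
    have := congrArg Subtype.val hm
    rw [dC₀_coe] at this
    exact this
  · rintro ⟨m, hm⟩
    refine ⟨⟨m, ?_⟩, ?_⟩
    · rw [(hA.hasFinLevel.isUSmooth_res (primeLocalToGlobal q.1)).C₀_eq_top]; trivial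
    · apply Subtype.ext
      rw [dC₀_coe]
      exact hm

/-- **`Ш¹`: Prelude = `LC`.** -/
theorem toH1_mem_sha₁_iff (hA : HasLevel S A) (h2 : IsUnit (2 : K))
    (x : Formal.H1 (globalBasis S) A) :
    toH1 x ∈ sha₁ S A ↔ x ∈ LinearMap.ker (locLC₁ S A) := by
  obtain ⟨z, rfl⟩ := Hmid.mk_surjective _ _ x
  rw [Archimedean.mem_sha₁_iff S h2, LinearMap.mem_ker]
  constructor
  · rintro ⟨_, h⟩
    funext q
    refine (resMor_h1_mk_eq_zero_iff hA q z).2 ?_
    have := h q
    rw [toH1_mk] at this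
    exact (ShaCocycle.locRes_H1π_eq_zero_iff A (extArithLoc S) (Sum.inr q) (toCocycles₁ z)).1 this
  · intro h
    refine ⟨?_, fun q => ?_⟩
    · rw [← range_toH1 hA]
      exact LinearMap.mem_range_self _ _
    · rw [toH1_mk]
      exact (ShaCocycle.locRes_H1π_eq_zero_iff A (extArithLoc S) (Sum.inr q) (toCocycles₁ z)).2
        ((resMor_h1_mk_eq_zero_iff hA q z).1 (congrFun h q))

/-- `sha₁ S A` (Prelude) is the kernel of the `LC` localisation map in degree `1`. -/
noncomputable def sha₁Equiv (hA : HasLevel S A) (h2 : IsUnit (2 : K)) :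
    ↥(LinearMap.ker (locLC₁ S A)) ≃ₗ[K] ↥(sha₁ S A) :=
  (LinearEquiv.ofInjective toH1 (toH1_injective hA)).ofSubmodules
    (LinearMap.ker (locLC₁ S A))
    ((sha₁ S A).comap (LinearMap.range (toH1 (S := S) (A := A))).subtype) (by
      ext y
      simp only [Submodule.mem_map, Submodule.mem_comap, Submodule.subtype_apply]
      constructor
      · rintro ⟨x, hx, rfl⟩
        exact (toH1_mem_sha₁_iff hA h2 x).2 hx
      · intro hy
        obtain ⟨x, hx⟩ := y.2
        refine ⟨x, (toH1_mem_sha₁_iff hA h2 x).1 ?_, Subtype.ext hx⟩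
        rw [hx]; exact hy)
    ≪≫ₗ (Submodule.comapSubtypeEquivOfLe (p := sha₁ S A)
      (q := LinearMap.range (toH1 (S := S) (A := A))) (by
        rw [range_toH1 hA]
        exact inf_le_left))

end H1

/-! ### transfer of the numerical statement -/

section Transfer

variable {K : Type} [Field K] {S}

/-- The numerical Poitou–Tate statement for the Prelude's `sha₁`, `sha₂` follows from the same
statement for the kernels of the `LC` localisation maps. -/
theorem sha_finrank_of_LC {A M : Rep.{0, 0, 0} K GQ} (hA : HasLevel S A) (hM : HasLevel S M)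
    (h2 : IsUnit (2 : K))
    (h1fin : FiniteDimensional K ↥(LinearMap.ker (locLC₁ S A)))
    (h2fin : FiniteDimensional K ↥(LinearMap.ker (locLC₂ S M)))
    (heq : Module.finrank K ↥(LinearMap.ker (locLC₁ S A)) =
      Module.finrank K ↥(LinearMap.ker (locLC₂ S M))) :
    FiniteDimensional K ↥(sha₁ S A) ∧ FiniteDimensional K ↥(sha₂ S M) ∧
      Module.finrank K ↥(sha₁ S A) = Module.finrank K ↥(sha₂ S M) := by
  refine ⟨(sha₁Equiv hA h2).finiteDimensional, (sha₂Equiv hM h2).symm.finiteDimensional, ?_⟩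
  rw [← (sha₁Equiv hA h2).finrank_eq, (sha₂Equiv hM h2).finrank_eq]
  exact heq

end Transfer

end Fermat.Agent.S55.Formal.PreludeLC
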