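/-
S55 / Formal end, piece `M.countFormal` (owner helper18): CARDINALITY bookkeeping on a `Site`, for an
arbitrary coefficient ring `k` (e.g. `k = ℤ`, `M = μ_p` as a `Rep ℤ`).  All identities are
identities of `Nat.card`s and hold unconditionally (`Nat.card` of an infinite type is `0`).

* generic: `card_eq_ker_mul_range`, `card_mid_mul` (five-term exact `A → B → C → D → E`:
  `#C * #A = #B * #ker(A → B) * #ker(D → E)`), `finite_mid`;
* `card_H2c_mul X M : #H²_c * #H¹ = #P¹ * #Ш¹ * #Ш²`, `finite_H2c`, `card_H2c_mul_le`;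
* `card_H3c_mul`, and under `Vanish₃`: `card_H3c_mul_of_vanish : #H³_c * #H² = #P² * #Ш²`;
* `card_P1 card_P2 : #P^i = ∏_v #H^i(Γ_v, M)`, `finite_P1`, `finite_P2`.
-/
import Fermat.Agent.S55.Formal.SiteCount

set_option autoImplicit false

namespace Fermat.Agent.S55.Formal.SiteCard

open Fermat.Agent.S55.Formal

/-! ### generic exact-sequence cardinalities -/

section Generic

variable {k : Type*} [CommRing k]
variable {A B C D E : Type*} [AddCommGroup A] [Module k A] [AddCommGroup B] [Module k B]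
  [AddCommGroup C] [Module k C] [AddCommGroup D] [Module k D] [AddCommGroup E] [Module k E]

/-- `#A = #ker f * #range f`. -/
theorem card_eq_ker_mul_range (f : A →ₗ[k] B) :
    Nat.card A = Nat.card ↥(LinearMap.ker f) * Nat.card ↥(LinearMap.range f) := by
  rw [Submodule.card_eq_card_quotient_mul_card (LinearMap.ker f),
    Nat.card_congr (f.quotKerEquivRange).toEquiv]

/-- **Five-term cardinalities.**  For `A -f→ B -g→ C -h→ D -l→ E` exact at `B`, `C`, `D`:
`#C * #A = #B * #ker f * #ker l`. -/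
theorem card_mid_mul (f : A →ₗ[k] B) (g : B →ₗ[k] C) (h : C →ₗ[k] D) (l : D →ₗ[k] E)
    (hfg : Function.Exact f g) (hgh : Function.Exact g h) (hhl : Function.Exact h l) :
    Nat.card C * Nat.card A =
      Nat.card B * Nat.card ↥(LinearMap.ker f) * Nat.card ↥(LinearMap.ker l) := by
  have h1 : LinearMap.ker g = LinearMap.range f := LinearMap.exact_iff.1 hfg
  have h2 : LinearMap.ker h = LinearMap.range g := LinearMap.exact_iff.1 hgh
  have h3 : LinearMap.ker l = LinearMap.range h := LinearMap.exact_iff.1 hhl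
  have rA := card_eq_ker_mul_range f
  have rB := card_eq_ker_mul_range g
  have rC := card_eq_ker_mul_range h
  rw [h1] at rB
  rw [h2] at rC
  rw [h3, rA, rB, rC]
  ring

/-- `#C = #range g * #ker l` for `B -g→ C -h→ D -l→ E` exact at `C`, `D`. -/
theorem card_mid_eq (g : B →ₗ[k] C) (h : C →ₗ[k] D) (l : D →ₗ[k] E)
    (hgh : Function.Exact g h) (hhl : Function.Exact h l) :
    Nat.card C = Nat.card ↥(LinearMap.range g) * Nat.card ↥(LinearMap.ker l) := by
  have h2 : LinearMap.ker h = LinearMap.range g := LinearMap.exact_iff.1 hgh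
  have h3 : LinearMap.ker l = LinearMap.range h := LinearMap.exact_iff.1 hhl
  have rC := card_eq_ker_mul_range h
  rw [h2] at rC
  rw [h3, rC]

/-- The middle term of `B → C → D → E` (exact at `C`, `D`) is finite if `B` and `ker (D → E)`
are. -/
theorem finite_mid (g : B →ₗ[k] C) (h : C →ₗ[k] D) (l : D →ₗ[k] E)
    (hgh : Function.Exact g h) (hhl : Function.Exact h l)
    [Finite B] [Finite ↥(LinearMap.ker l)] : Finite C := by
  have hr : Finite ↥(LinearMap.range g) := Set.finite_range g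
  apply Nat.finite_of_card_ne_zero
  rw [card_mid_eq g h l hgh hhl]
  exact Nat.mul_ne_zero Nat.card_pos.ne' Nat.card_pos.ne'

/-- The middle term of an exact `B → C → D` is finite if `B` and `D` are. -/
theorem finite_mid' (g : B →ₗ[k] C) (h : C →ₗ[k] D) (hgh : Function.Exact g h)
    [Finite B] [Finite D] : Finite C := by
  have hr : Finite ↥(LinearMap.range g) := Set.finite_range g
  have h2 : LinearMap.ker h = LinearMap.range g := LinearMap.exact_iff.1 hgh
  apply Nat.finite_of_card_ne_zero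
  rw [card_eq_ker_mul_range h, h2]
  exact Nat.mul_ne_zero Nat.card_pos.ne' Nat.card_pos.ne'

/-- `#B = #range f * #C` for `A -f→ B -g→ C` exact with `g` onto. -/
theorem card_eq_range_mul_of_surjective (f : A →ₗ[k] B) (g : B →ₗ[k] C)
    (hfg : Function.Exact f g) (hg : Function.Surjective g) :
    Nat.card B = Nat.card ↥(LinearMap.range f) * Nat.card C := by
  have h1 : LinearMap.ker g = LinearMap.range f := LinearMap.exact_iff.1 hfg
  rw [card_eq_ker_mul_range g, h1, LinearMap.range_eq_top.2 hg,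
    Nat.card_congr (Submodule.topEquiv (R := k) (M := C)).toEquiv]

end Generic

/-! ### the site -/

section SiteCard

open Site SiteCount

variable {k : Type} [CommRing k] (X : Site) (M : Rep.{0, 0, 0} k X.G)

theorem card_P1 : Nat.card (X.P1 M) = ∏ v, Nat.card (H1 (X.𝒱 v) (X.loc M v)) := by
  rw [Nat.card_congr (SiteCount.P1equiv X M).toEquiv, Nat.card_pi]

theorem card_P2 : Nat.card (X.P2 M) = ∏ v, Nat.card (H2 (X.𝒱 v) (X.loc M v)) := by
  rw [Nat.card_congr (SiteCount.P2equiv X M).toEquiv, Nat.card_pi]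

theorem finite_P1 [∀ v, Finite (H1 (X.𝒱 v) (X.loc M v))] : Finite (X.P1 M) :=
  Finite.of_equiv _ (SiteCount.P1equiv X M).toEquiv.symm

theorem finite_P2 [∀ v, Finite (H2 (X.𝒱 v) (X.loc M v))] : Finite (X.P2 M) :=
  Finite.of_equiv _ (SiteCount.P2equiv X M).toEquiv.symm

/-- **The formal count, cardinality form.**  `#H²_c * #H¹ = #P¹ * #Ш¹ * #Ш²`. -/
theorem card_H2c_mul :
    Nat.card (X.H2c M) * Nat.card (H1 X.𝒰 M) =
      Nat.card (X.P1 M) * Nat.card ↥(X.sha1 M) * Nat.card ↥(X.sha2 M) :=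
  card_mid_mul (X.loc₁ M) (X.ι₂ M) (X.π₂ M) (X.loc₂ M) (X.exact_loc₁_ι₂ M)
    (X.exact_ι₂_π₂ M) (X.exact_π₂_loc₂ M)

/-- `H²_c` is finite as soon as `P¹` and `Ш²` are. -/
theorem finite_H2c [Finite (X.P1 M)] [Finite ↥(X.sha2 M)] : Finite (X.H2c M) := by
  have : Finite ↥(LinearMap.ker (X.loc₂ M)) := ‹Finite ↥(X.sha2 M)›
  exact finite_mid (X.ι₂ M) (X.π₂ M) (X.loc₂ M) (X.exact_ι₂_π₂ M) (X.exact_π₂_loc₂ M)

/-- `H²_c` is finite as soon as `P¹` and `H²` are. -/
theorem finite_H2c' [Finite (X.P1 M)] [Finite (H2 X.𝒰 M)] : Finite (X.H2c M) :=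
  finite_mid' (X.ι₂ M) (X.π₂ M) (X.exact_ι₂_π₂ M)

/-- Upper bound for `#H²_c` from bounds on the four other terms. -/
theorem card_H2c_mul_le {a b c d : ℕ} (hH1 : Nat.card (H1 X.𝒰 M) = a)
    (hP1 : Nat.card (X.P1 M) ≤ b) (h1 : Nat.card ↥(X.sha1 M) ≤ c)
    (h2 : Nat.card ↥(X.sha2 M) ≤ d) : Nat.card (X.H2c M) * a ≤ b * c * d := by
  rw [← hH1, card_H2c_mul]
  exact Nat.mul_le_mul (Nat.mul_le_mul hP1 h1) h2

/-- `#H³_c * #H² = #P² * #Ш² * #ker loc₃`. -/
theorem card_H3c_mul :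
    Nat.card (X.H3c M) * Nat.card (H2 X.𝒰 M) =
      Nat.card (X.P2 M) * Nat.card ↥(X.sha2 M) * Nat.card ↥(LinearMap.ker (X.loc₃ M)) :=
  card_mid_mul (X.loc₂ M) (X.ι₃ M) (X.π₃ M) (X.loc₃ M) (X.exact_loc₂_ι₃ M)
    (X.exact_ι₃_π₃ M) (X.exact_π₃_loc₃ M)

/-- If `H³(G, M) = 0`: `#P² = #range loc₂ * #H³_c`. -/
theorem card_P2_eq_of_vanish (h : Vanish₃ X.𝒰 M) :
    Nat.card (X.P2 M) = Nat.card ↥(LinearMap.range (X.loc₂ M)) * Nat.card (X.H3c M) :=
  card_eq_range_mul_of_surjective (X.loc₂ M) (X.ι₃ M) (X.exact_loc₂_ι₃ M) (X.ι₃_surjective M h)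

/-- If `H³(G, M) = 0`: `#H³_c * #H² = #P² * #Ш²`. -/
theorem card_H3c_mul_of_vanish (h : Vanish₃ X.𝒰 M) :
    Nat.card (X.H3c M) * Nat.card (H2 X.𝒰 M) = Nat.card (X.P2 M) * Nat.card ↥(X.sha2 M) := by
  have h1 := card_P2_eq_of_vanish X M h
  have h2 : Nat.card (H2 X.𝒰 M) =
      Nat.card ↥(X.sha2 M) * Nat.card ↥(LinearMap.range (X.loc₂ M)) :=
    card_eq_ker_mul_range (X.loc₂ M)
  rw [h1, h2]
  ring

/-- If `H³(G, M) = 0` and `P²` is finite then so is `H³_c`. -/
theorem finite_H3c_of_vanish (h : Vanish₃ X.𝒰 M) [Finite (X.P2 M)] : Finite (X.H3c M) :=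
  Finite.of_surjective _ (X.ι₃_surjective M h)

end SiteCard

end Fermat.Agent.S55.Formal.SiteCard
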