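/-
S55 / Formal end (helper76): the frozen statement S55 from the arithmetic base alone
(`FormalMain` is now a theorem: `Formal/Main.lean`).
-/
import Fermat.Agent.S55.Formal.Main
import Fermat.Agent.S55.Formal.ArithSite

set_option autoImplicit false

open CategoryTheory Module groupCohomology ExtCitation

namespace Fermat.Agent.S55.Formal.Top

open Fermat.Agent.S55.Formal

/-- **Frozen S55 from the arithmetic base** `ArithBase`
(`= ∀ p odd, ∀ S ∋ p, BaseA (arithSite S) (ZMod p) (cycloChar p)`). -/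
theorem result_of_arithBase (hB : ArithSite.ArithBase)
    {p : ℕ} [Fact p.Prime] (hp2 : p ≠ 2) (S : Finset Nat.Primes) (hpS : pPrime p ∈ S)
    (M : Rep (ZMod p) (AlgebraicClosure ℚ ≃ₐ[ℚ] AlgebraicClosure ℚ))
    [FiniteDimensional (ZMod p) M]
    (hsm : ∀ m : M, ∃ F : IntermediateField ℚ (AlgebraicClosure ℚ), FiniteDimensional ℚ F ∧
      ∀ s ∈ F.fixingSubgroup, M.ρ s m = m)
    (hMur : ∀ q : Nat.Primes, q ∉ S → ∀ A : ValuationSubring (AlgebraicClosure ℚ),
      A.LiesOverPrime (q : ℕ) → ∀ g ∈ A.inertiaSubgroupIn ℚ, M.ρ g = 1) :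
    ∃ B : sha₁ S (M.dualTwist (cycloChar p)) →ₗ[ZMod p] sha₂ S M →ₗ[ZMod p] ZMod p,
      (∀ y, (∀ x, B y x = 0) → y = 0) ∧ (∀ x, (∀ y, B y x = 0) → x = 0) :=
  ArithSite.result_of_formalMain Main.formalMain hB hp2 S hpS M hsm hMur

end Fermat.Agent.S55.Formal.Top
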