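/-
S55 / formal end (helper87): unipotent dévissage over an ARBITRARY field (generalising
`S55/Unipotent.lean`, which is for `ZMod p`).

`k` a field of exponential characteristic `q` (`q = 1` in characteristic zero, `q = p` prime in
characteristic `p`).  `IsQPower q ρ` : every group element acts with `q`-power order and some
subgroup of finite index acts trivially (for `q = 1` this means that `ρ` is trivial).

* `exists_fixed_ne_zero` : a nonzero representation with `IsQPower q ρ` has a nonzero fixed vector
  (characteristic `p`: apply `Unipotent.exists_fixed_ne_zero` to the `𝔽_p`-span of an orbit);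
* `induction_on` : a property of representations which holds for zero representations and trivial
  lines and is stable under extensions holds for all finite-dimensional `M` with `IsQPower q M.ρ`.
-/
import Mathlib
import Fermat.Agent.S55.Unipotent

set_option autoImplicit false
set_option linter.style.haveILetI false

open CategoryTheory

namespace Fermat.Agent.S55.Formal.UnipotentField

universe w u v

variable {k : Type v} [Field k] {G : Type u} [Group G]

/-- Every element has `q`-power order and a subgroup of finite index acts trivially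
(`q = 1`: trivial action). -/
def IsQPower (q : ℕ) {V : Type w} [AddCommGroup V] [Module k V]
    (ρ : Representation k G V) : Prop :=
  (∀ g : G, ∃ n : ℕ, (ρ g) ^ (q ^ n) = 1) ∧
    ∃ N : Subgroup G, N.FiniteIndex ∧ ∀ n ∈ N, ρ n = 1

section fixed

variable {V : Type w} [AddCommGroup V] [Module k V] (ρ : Representation k G V)

theorem IsQPower.finite_range {q : ℕ} (hρ : IsQPower q ρ) : (Set.range ρ).Finite := by
  obtain ⟨N, hN, hN1⟩ := hρ.2
  have hsub : Set.range ρ ⊆ Set.range fun c : G ⧸ N => ρ c.out := by
    rintro _ ⟨g, rfl⟩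
    obtain ⟨n, hn⟩ := QuotientGroup.mk_out_eq_mul N g
    refine ⟨(g : G ⧸ N), ?_⟩
    change ρ ((g : G ⧸ N).out) = ρ g
    rw [hn, map_mul, hN1 n n.2, mul_one]
  exact (Set.finite_range _).subset hsub

theorem exists_fixed_ne_zero_of_prime (q : ℕ) [hq : Fact q.Prime] [CharP k q]
    [Nontrivial V] (hρ : IsQPower q ρ) :
    ∃ v : V, v ≠ 0 ∧ ∀ g : G, ρ g v = v := by
  classical
  letI : Algebra (ZMod q) k := ZMod.algebra k q
  letI : Module (ZMod q) V := Module.compHom V (algebraMap (ZMod q) k)
  haveI : IsScalarTower (ZMod q) k V := IsScalarTower.of_algebraMap_smul fun r x => rfl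
  obtain ⟨v₀, hv₀⟩ := exists_ne (0 : V)
  -- the orbit of `v₀`
  set S : Set V := Set.range fun g : G => ρ g v₀ with hS
  have hSfin : S.Finite := by
    have : S = (fun f : V →ₗ[k] V => f v₀) '' Set.range ρ := by
      ext x
      simp [hS, Set.mem_image]
    rw [this]
    exact (hρ.finite_range ρ).image _
  set W : Submodule (ZMod q) V := Submodule.span (ZMod q) S with hW
  -- the restricted-scalars representation
  let ρ' : Representation (ZMod q) G V :=
    { toFun := fun g => (ρ g).restrictScalars (ZMod q)
      map_one' := by ext; simp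
      map_mul' := fun g h => by ext; simp }
  have hstab : ∀ g, W ≤ W.comap (ρ' g) := by
    intro g
    rw [hW, Submodule.span_le]
    rintro _ ⟨h, rfl⟩
    rw [SetLike.mem_coe, Submodule.mem_comap]
    apply Submodule.subset_span
    refine ⟨g * h, ?_⟩
    change ρ (g * h) v₀ = ρ g (ρ h v₀)
    rw [map_mul]
    rfl
  haveI : FiniteDimensional (ZMod q) W := FiniteDimensional.span_of_finite (ZMod q) hSfin
  have hv₀W : v₀ ∈ W := Submodule.subset_span ⟨1, by simp⟩
  haveI : Nontrivial W := ⟨⟨⟨v₀, hv₀W⟩, 0, fun h => hv₀ (congrArg Subtype.val h)⟩⟩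
  have hpp : Fermat.Agent.S55.Unipotent.IsPPower (ρ'.subrepresentation W hstab) := by
    intro g
    obtain ⟨n, hn⟩ := hρ.1 g
    refine ⟨n, ?_⟩
    rw [← map_pow]
    apply LinearMap.ext
    intro x
    apply Subtype.ext
    rw [Representation.subrepresentation_apply, LinearMap.coe_restrict_apply]
    change ρ (g ^ q ^ n) (x : V) = x
    rw [map_pow, hn]
    rfl
  obtain ⟨w, hw0, hw⟩ := Fermat.Agent.S55.Unipotent.exists_fixed_ne_zero
    (ρ'.subrepresentation W hstab) hpp
  refine ⟨w, fun h => hw0 (Subtype.ext h), fun g => ?_⟩
  exact congrArg Subtype.val (hw g)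

/-- A nonzero fixed vector, in any characteristic. -/
theorem exists_fixed_ne_zero (q : ℕ) [hq : ExpChar k q] [Nontrivial V] (hρ : IsQPower q ρ) :
    ∃ v : V, v ≠ 0 ∧ ∀ g : G, ρ g v = v := by
  cases hq with
  | zero =>
    obtain ⟨v, hv⟩ := exists_ne (0 : V)
    refine ⟨v, hv, fun g => ?_⟩
    obtain ⟨n, hn⟩ := hρ.1 g
    rw [one_pow, pow_one] at hn
    rw [hn]
    rfl
  | prime hprime =>
    haveI : Fact q.Prime := ⟨hprime⟩
    exact exists_fixed_ne_zero_of_prime ρ q hρ

end fixed

section induction

/-- `IsQPower` passes to subrepresentations. -/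
theorem IsQPower.sub {q : ℕ} {V : Type w} [AddCommGroup V] [Module k V]
    {ρ : Representation k G V} (hρ : IsQPower q ρ) (W : Submodule k V)
    (hW : ∀ g, W ≤ W.comap (ρ g)) : IsQPower q (ρ.subrepresentation W hW) := by
  refine ⟨fun g => ?_, ?_⟩
  · obtain ⟨n, hn⟩ := hρ.1 g
    refine ⟨n, ?_⟩
    rw [← map_pow]
    apply LinearMap.ext
    intro x
    apply Subtype.ext
    rw [Representation.subrepresentation_apply, LinearMap.coe_restrict_apply, map_pow, hn]
    rfl
  · obtain ⟨N, hN, hN1⟩ := hρ.2
    refine ⟨N, hN, fun n hn => ?_⟩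
    apply LinearMap.ext
    intro x
    apply Subtype.ext
    rw [Representation.subrepresentation_apply, LinearMap.coe_restrict_apply, hN1 n hn]
    rfl

/-- `IsQPower` passes to quotient representations. -/
theorem IsQPower.quot {q : ℕ} {V : Type w} [AddCommGroup V] [Module k V]
    {ρ : Representation k G V} (hρ : IsQPower q ρ) (W : Submodule k V)
    (hW : ∀ g, W ≤ W.comap (ρ g)) : IsQPower q (ρ.quotient W hW) := by
  refine ⟨fun g => ?_, ?_⟩
  · obtain ⟨n, hn⟩ := hρ.1 g
    refine ⟨n, ?_⟩
    rw [← map_pow]
    apply LinearMap.ext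
    intro x
    induction x using Submodule.Quotient.induction_on with
    | H x =>
      rw [Representation.quotient_apply, Submodule.mapQ_apply, map_pow, hn]
      rfl
  · obtain ⟨N, hN, hN1⟩ := hρ.2
    refine ⟨N, hN, fun n hn => ?_⟩
    apply LinearMap.ext
    intro x
    induction x using Submodule.Quotient.induction_on with
    | H x =>
      rw [Representation.quotient_apply, Submodule.mapQ_apply, hN1 n hn]
      rfl

/-- **Unipotent dévissage over any field.** -/
theorem induction_on (q : ℕ) [ExpChar k q] {P : Rep.{w} k G → Prop}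
    (zero : ∀ A : Rep.{w} k G, Subsingleton A → P A)
    (triv : ∀ A : Rep.{w} k G, Module.finrank k A = 1 → (∀ g, A.ρ g = 1) → P A)
    (ext : ∀ (A B C : Rep.{w} k G) (φ : A ⟶ B) (ψ : B ⟶ C),
      Function.Injective φ.hom → Function.Surjective ψ.hom →
      (∀ b, ψ.hom b = 0 ↔ ∃ a, φ.hom a = b) →
      FiniteDimensional k A → FiniteDimensional k C →
      IsQPower q A.ρ → IsQPower q C.ρ → P A → P C → P B)
    (M : Rep.{w} k G) [FiniteDimensional k M] (hM : IsQPower q M.ρ) : P M := by
  classical
  induction hn : Module.finrank k M using Nat.strong_induction_on generalizing M with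
  | _ n ih =>
    by_cases h0 : Subsingleton M
    · exact zero M h0
    · haveI : Nontrivial M := not_subsingleton_iff_nontrivial.mp h0
      obtain ⟨v, hv0, hv⟩ := exists_fixed_ne_zero M.ρ q hM
      set W : Submodule k M := Submodule.span k {v} with hWdef
      have hW : ∀ g, W ≤ W.comap (M.ρ g) := by
        intro g x hx
        rw [Submodule.mem_comap]
        obtain ⟨c, rfl⟩ := Submodule.mem_span_singleton.mp hx
        rw [map_smul, hv g]
        exact Submodule.smul_mem _ _ (Submodule.mem_span_singleton_self v)
      let A : Rep.{w} k G := Rep.of (M.ρ.subrepresentation W hW)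
      let C : Rep.{w} k G := Rep.of (M.ρ.quotient W hW)
      let φ : A ⟶ M := Rep.ofHom (ρ := M.ρ.subrepresentation W hW) (σ := M.ρ)
        (W.subtype.intertwiningMap_of_isIntertwiningMap _ _ (fun g x => rfl))
      let ψ : M ⟶ C := Rep.ofHom (ρ := M.ρ) (σ := M.ρ.quotient W hW)
        (W.mkQ.intertwiningMap_of_isIntertwiningMap _ _ (fun g x => rfl))
      have hφ : Function.Injective φ.hom := fun a b hab => Subtype.ext hab
      have hψ : Function.Surjective ψ.hom := Submodule.mkQ_surjective W
      have hex : ∀ b, ψ.hom b = 0 ↔ ∃ a, φ.hom a = b := by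
        intro b
        constructor
        · intro hb
          have hbW : b ∈ W := (Submodule.Quotient.mk_eq_zero W).mp hb
          exact ⟨⟨b, hbW⟩, rfl⟩
        · rintro ⟨a, rfl⟩
          exact (Submodule.Quotient.mk_eq_zero W).mpr a.2
      have hfrW : Module.finrank k W = 1 := finrank_span_singleton hv0
      haveI : FiniteDimensional k A := inferInstanceAs (FiniteDimensional k W)
      haveI : FiniteDimensional k C := inferInstanceAs (FiniteDimensional k (M ⧸ W))
      have hfrC : Module.finrank k C < n := by
        have h1 : Module.finrank k (M ⧸ W) + Module.finrank k W =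
            Module.finrank k M := Submodule.finrank_quotient_add_finrank W
        have h2 : Module.finrank k C = Module.finrank k (M ⧸ W) := rfl
        omega
      have hA : IsQPower q A.ρ := hM.sub W hW
      have hC : IsQPower q C.ρ := hM.quot W hW
      have hAtriv : ∀ g, A.ρ g = 1 := by
        intro g
        apply LinearMap.ext
        intro x
        apply Subtype.ext
        obtain ⟨c, hc⟩ := Submodule.mem_span_singleton.mp x.2
        show M.ρ g (x : M) = x
        rw [← hc, map_smul, hv g]
      exact ext A M C φ ψ hφ hψ hex inferInstance inferInstance hA hC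
        (triv A hfrW hAtriv) (ih _ hfrC C hC rfl)

end induction

end Fermat.Agent.S55.Formal.UnipotentField
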